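import Fermat.Agent.MLT.SquareAux
import Fermat.Prelude.Def_FLTPrelim_ModularRep

/-!
Area MLT, parcel AUX: auxiliary primes exist.
-/

set_option autoImplicit false

noncomputable section

open WeierstrassCurve

namespace FLTAgent.MLT

/-- auxiliary primes for a semistable curve with irreducible torsion -/
theorem auxPrimes_of_semistable {W : WeierstrassCurve ℤ} (hΔ : W.Δ ≠ 0) (hW : W.IsSemistableModel)
    {p : ℕ} (hp : p = 3 ∨ p = 5) (hirr : W.ModRepIsIrreducible p) : AuxPrimes W p :=
  auxPrimes hΔ hW (by rcases hp with rfl | rfl <;> norm_num) (by omega) hirr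

end FLTAgent.MLT

end
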