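import Fermat.Agent.MLT.DropSquare

/-!
Area MLT, parcel COF: a congruence outside a finite set holds at all good primes prime to the level.
-/

set_option autoImplicit false

noncomputable section

open WeierstrassCurve IsLocalRing Polynomial
open FLTAgent.Attach (TFull)

namespace FLTAgent.MLT

/-- residual modularity only needs congruences outside a finite set -/
theorem resMod_of_cofinite {W : WeierstrassCurve ℤ} (hΔ : W.Δ ≠ 0) {p : ℕ} (hp : p.Prime)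
    (hp2 : p ≠ 2) {M : ℕ} [NeZero M] (S : Finset ℕ)
    {f : CuspForm (CongruenceSubgroup.Gamma0 M) 2} (hf : f.IsNormalizedEigenform)
    {𝔪 : Ideal (integralClosure ℤ ℂ)} (hmax : 𝔪.IsMaximal) (hpm : (p : integralClosure ℤ ℂ) ∈ 𝔪)
    (hcong : ∀ ℓ : ℕ, ℓ.Prime → ℓ ∉ S → W.IsGoodPrimeFor ℓ → ¬ ℓ ∣ M → ℓ ≠ p →
      ∃ a : integralClosure ℤ ℂ, (a : ℂ) = ModularFormClass.qCoeff f ℓ ∧
        a - ((W.apOfModel ℓ : ℤ) : integralClosure ℤ ℂ) ∈ 𝔪) :
    W.IsResiduallyModularOfLevel p M := by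
  classical
  have hM0 : M ≠ 0 := NeZero.ne M
  obtain ⟨χ, hχ⟩ := Attach.exists_eigenCharacter hf
  haveI := hmax
  obtain ⟨O, iC, iD, iV, iA, iF, iZ, hpO, φ, hφ0, hφm⟩ := exists_point_over χ hp 𝔪 hpm
  obtain ⟨D⟩ := Attach.exists_heckeLattice M
  obtain ⟨ρ, hρ, -⟩ := Attach.exists_galoisRepAdic hp hpO D (Attach.galoisInputs _) φ
  have hpF : (p : ResidueField O) = 0 := by
    rw [← map_natCast (residue O), residue_eq_zero_iff]; exact hpO
  have hresch : ∀ (ℓ : ℕ) (hℓ : ℓ.Prime) (hℓM : ¬ ℓ ∣ M), ℓ ≠ p →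
      ∀ A : ValuationSubring (AlgebraicClosure ℚ), A.LiesOverPrime ℓ →
        ∀ τ : AlgebraicClosure ℚ ≃ₐ[ℚ] AlgebraicClosure ℚ, A.IsFrobeniusAt τ ℓ →
        LinearMap.charpoly (ρ.residual.ρ τ) =
          X ^ 2 - C (residue O (φ (CuspForm.heckeAlgebra.T hℓ hℓM (Set.notMem_empty _)))) * X +
            C (ℓ : ResidueField O) := by
    intro ℓ hℓ hℓM hℓp A hA τ hτ
    change LinearMap.charpoly ((ρ.ρ τ).baseChange (ResidueField O)) = _
    rw [LinearMap.charpoly_baseChange, hρ ℓ hℓ hℓM hℓp A hA τ hτ]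
    simp [IsLocalRing.ResidueField.algebraMap_eq]
  have hmatch : ResMatches W ρ.residual (insert p (S ∪ M.primeFactors)) := by
    intro ℓ hℓ hℓS hgood A hA τ hτ
    simp only [Finset.mem_insert, Finset.mem_union, Nat.mem_primeFactors, not_or] at hℓS
    have hℓM : ¬ ℓ ∣ M := fun h => hℓS.2.2 ⟨hℓ, h, hM0⟩
    obtain ⟨a, ha, ham⟩ := hcong ℓ hℓ hℓS.2.1 hgood hℓM hℓS.1
    have e : residue O (φ (CuspForm.heckeAlgebra.T hℓ hℓM (Set.notMem_empty _))) =
        ((W.apOfModel ℓ : ℤ) : ResidueField O) := by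
      rw [← sub_eq_zero, ← map_intCast (residue O), ← map_sub, residue_eq_zero_iff,
        ← map_intCast φ, ← map_sub, hφm, map_sub, map_intCast]
      rwa [show χ (CuspForm.heckeAlgebra.T hℓ hℓM (Set.notMem_empty _)) = a from
        Subtype.ext ((hχ ℓ hℓ hℓM).trans ha.symm)]
    rw [hresch ℓ hℓ hℓM hℓS.1 A hA τ hτ, e]
  refine ⟨f, 𝔪, hf, hmax, hpm, fun ℓ hℓ hgood hℓM hℓp => ?_⟩
  refine ⟨χ (CuspForm.heckeAlgebra.T hℓ hℓM (Set.notMem_empty _)), hχ ℓ hℓ hℓM, ?_⟩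
  obtain ⟨A, σ, hA, hσ⟩ := Alg.exists_place_frobenius ℓ hℓ
  have h := res_trace_good hΔ hp hpF hmatch hℓ hgood hℓp hA hσ
  rw [SS.trace_of_charpoly ρ.residual.finrank_eq (hresch ℓ hℓ hℓM hℓp A hA σ hσ),
    ← map_intCast (residue O), ← sub_eq_zero, ← map_sub, residue_eq_zero_iff, ← map_intCast φ,
    ← map_sub, hφm, map_sub, map_intCast] at h
  exact h

end FLTAgent.MLT

end
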