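import Fermat.Agent.MLT.Image
import Fermat.Agent.LL.AvoidSetup
import Fermat.Agent.LL.LevelSetup

/-!
Area MLT, parcel A2: the data of the avoidance argument of a semistable curve at `p = 3, 5` that do
not depend on the auxiliary level.
-/

set_option autoImplicit false
set_option linter.style.haveILetI false
set_option linter.unusedSectionVars false
set_option maxHeartbeats 1000000

noncomputable section

open Matrix Polynomial IsLocalRing FLTAgent.PT

namespace FLTAgent.MLT

local notation "GalQ" => AlgebraicClosure ℚ ≃ₐ[ℚ] AlgebraicClosure ℚ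

section Residual

variable {W : WeierstrassCurve ℤ} {p : ℕ} [Fact p.Prime] {k : Type} [Field k]
  [Algebra (ZMod p) k] {ρbar : ResidualGaloisRep k} {r : GalQ →* GL (Fin 2) k}

/-- the ramified primes -/
theorem SemiResidual.ramified_iff (hres : SemiResidual W p ρbar r) (l : ℕ) (hl : l.Prime)
    (hlp : l ≠ p) : l ∈ insert p (sMin W p) ↔ ¬ ρbar.IsUnramifiedAt l := by
  classical
  obtain ⟨b, hb⟩ := hres.setting.rep
  rw [Finset.mem_insert, or_iff_right hlp]
  constructor
  · intro hls hu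
    obtain ⟨A, -, hA, -⟩ := Alg.exists_place_frobenius l hl
    obtain ⟨σ, hσ, hne⟩ := hres.ramified l hls A hA
    refine hne (Units.ext (((hb σ).symm).trans ?_))
    rw [hu A hA σ hσ, LinearMap.toMatrix_one, Units.val_one]
  · intro hu
    by_contra hls
    exact hu fun A hA σ hσ => (LinearMap.toMatrix b b).injective
      ((hb σ).trans (by simp [hres.unramified l hl hlp hls A hA σ hσ]))

/-- primes splitting at `M` with trace different from `2` -/
theorem SemiResidual.exists_l0 (hres : SemiResidual W p ρbar r) (hΔ : W.Δ ≠ 0) (F : Finset ℕ)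
    (M : ℕ) [NeZero M] :
    ∃ l0 : ℕ, l0.Prime ∧ l0 ∉ F ∧ (l0 : ZMod M) = 1 ∧ W.IsGoodPrimeFor l0 ∧ l0 ≠ p ∧
      ¬ (p : ℤ) ∣ W.apOfModel l0 - ((l0 : ℤ) + 1) := by
  classical
  have hp : p.Prime := Fact.out
  haveI : NeZero p := ⟨hp.ne_zero⟩
  haveI := hres.setting.charP
  obtain ⟨σ₀, hσc, hσt⟩ := hres.sigma0
  obtain ⟨E₀, hE₀, hr⟩ := hres.setting.level
  obtain ⟨E₁, hE₁, hc₁⟩ := Attach.exists_cyc_level (M * p)
  haveI := hE₀
  haveI := hE₁
  obtain ⟨l, A, τ, i, j, hl, hlS, hA, hτ, hi, hj⟩ := LR.exists_frobenius_gen (E₀ ⊔ E₁) σ₀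
    (F ∪ {p} ∪ (W.Δ.natAbs).primeFactors ∪ (M * p).primeFactors)
  simp only [Finset.mem_union, Finset.mem_singleton, not_or, Nat.mem_primeFactors] at hlS
  obtain ⟨⟨⟨hlF, hlp⟩, hlΔ⟩, hlM⟩ := hlS
  have hgood : W.IsGoodPrimeFor l := fun h =>
    hlΔ ⟨hl, Int.natCast_dvd.1 h, Int.natAbs_ne_zero.2 hΔ⟩
  have hnd : ¬ l ∣ M * p := fun h => hlM ⟨hl, h, NeZero.ne _⟩
  have key : ∀ a b : GalQ, (∀ x ∈ (E₀ ⊔ E₁ : IntermediateField ℚ _), a x = b x) →
      r a = r b ∧ Attach.cyc (M * p) a = Attach.cyc (M * p) b := by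
    intro a b h
    have hfix : ∀ z ∈ (E₀ ⊔ E₁ : IntermediateField ℚ _), (b⁻¹ * a) z = z := fun z hz => by
      rw [AlgEquiv.mul_apply, h z hz]; exact b.symm_apply_apply z
    refine ⟨?_, ?_⟩
    · have := hr (b⁻¹ * a) fun z => hfix z ((le_sup_left : E₀ ≤ E₀ ⊔ E₁) z.2)
      rw [map_mul, map_inv, inv_mul_eq_one] at this
      exact this.symm
    · calc Attach.cyc (M * p) a = Attach.cyc (M * p) (b * (b⁻¹ * a)) := by
            rw [mul_inv_cancel_left]
        _ = Attach.cyc (M * p) b := by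
            rw [Attach.cyc_mul, hc₁ _ fun z hz => hfix z ((le_sup_right : E₁ ≤ E₀ ⊔ E₁) hz),
              mul_one]
  have hcτ := (key _ _ hj).2
  rw [cyc_pow_general, hσc (M * p), one_pow, Attach.cyc_frobenius hl hnd hA hτ] at hcτ
  have hrσ := (key _ _ hi).1
  have h1M : (l : ZMod M) = 1 := by
    have := congrArg (ZMod.castHom (dvd_mul_right M p) (ZMod M)) hcτ
    simpa using this
  have h1p : (l : k) = 1 := by
    have := congrArg ((algebraMap (ZMod p) k).comp (ZMod.castHom (dvd_mul_left p M) (ZMod p))) hcτ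
    simpa using this
  obtain ⟨ht, hd⟩ := hres.frob l hl hgood hlp _ hA τ hτ
  refine ⟨l, hl, hlF, h1M, hgood, hlp, fun hdvd => hσt ?_⟩
  have ht2 : (r τ : Matrix (Fin 2) (Fin 2) k).trace = 2 := by
    have h0 := (CharP.intCast_eq_zero_iff k p _).2 hdvd
    push_cast at h0
    rw [ht, sub_eq_zero.1 h0, h1p]
    norm_num
  rw [h1p] at hd
  set N : Matrix (Fin 2) (Fin 2) k := (r τ : Matrix (Fin 2) (Fin 2) k) - 1
  have hN0 : N.trace = 0 := by
    simp only [N, Matrix.trace_sub, ht2, Matrix.trace_one, Fintype.card_fin]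
    norm_num
  have hN2 : N * N = 0 := by
    have h := Attach.sq_fin_two (r τ : Matrix (Fin 2) (Fin 2) k)
    rw [ht2, hd, one_smul, two_smul] at h
    simp only [N, sub_mul, mul_sub, one_mul, mul_one, h]
    abel
  rw [← hrσ, map_pow, Units.val_pow_eq_pow_val, show (r τ : Matrix (Fin 2) (Fin 2) k) = 1 + N by
    simp [N]]
  exact LL.trace_pow_of_unipotent hN2 hN0 i

/-- no stable line -/
theorem SemiResidual.no_line (hres : SemiResidual W p ρbar r) {v : Fin 2 → k} (hv : v ≠ 0) :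
    ∃ σ, ∀ a : k, (r σ : Matrix (Fin 2) (Fin 2) k).mulVec v ≠ a • v := by
  by_contra h
  push Not at h
  have hall : ∀ X : Matrix (Fin 2) (Fin 2) k, ∃ a : k, X.mulVec v = a • v := by
    intro X
    have hX : X ∈ Submodule.span k (Set.range fun g => (r g : Matrix (Fin 2) (Fin 2) k)) :=
      hres.span ▸ Submodule.mem_top
    induction hX using Submodule.span_induction with
    | mem Y hY =>
      obtain ⟨g, rfl⟩ := hY
      exact h g
    | zero => exact ⟨0, by simp⟩
    | add Y Z _ _ hY hZ =>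
      obtain ⟨a, ha⟩ := hY
      obtain ⟨b, hb⟩ := hZ
      exact ⟨a + b, by rw [Matrix.add_mulVec, ha, hb, add_smul]⟩
    | smul c Y _ hY =>
      obtain ⟨a, ha⟩ := hY
      exact ⟨c * a, by rw [Matrix.smul_mulVec, ha, smul_smul]⟩
  obtain ⟨a, ha⟩ := hall !![0, 1; 0, 0]
  obtain ⟨b, hb⟩ := hall !![0, 0; 1, 0]
  have e0 := congrFun ha 0
  have e1 := congrFun ha 1
  have f0 := congrFun hb 0
  have f1 := congrFun hb 1
  simp [Matrix.mulVec, dotProduct, Fin.sum_univ_two] at e0 e1 f0 f1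
  have h00 : v 0 = 0 := by rw [f1, e0]; rcases e1 with h | h <;> simp [h] at * <;> simp_all
  have h01 : v 1 = 0 := by rw [e0, h00]; simp
  exact hv (funext fun i => by fin_cases i <;> simp [h00, h01])

/-- the element with distinct eigenvalues -/
theorem SemiResidual.exists_split (hres : SemiResidual W p ρbar r) :
    ∃ (σ₀ : GalQ) (α β : k), α ≠ β ∧
      (r σ₀ : Matrix (Fin 2) (Fin 2) k).charpoly = (X - C α) * (X - C β) := by
  haveI : NeZero p := ⟨(Fact.out : p.Prime).ne_zero⟩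
  haveI := hres.setting.charP
  have h2 : (2 : k) ≠ 0 := hres.setting.two_ne_zero
  set σ : GalQ := complexConjugation
  obtain ⟨α, β, hab⟩ := hres.setting.hsplit σ
  refine ⟨σ, α, β, fun e => ?_, hab⟩
  have hd : (r σ : Matrix (Fin 2) (Fin 2) k).det = -1 := by
    rw [hres.setting.hdet, PT.TW.cycloChar_eq_cyc, TOR.cyc_conj hres.setting.hp2, map_neg, map_one]
  have hsq : (r σ : Matrix (Fin 2) (Fin 2) k) * (r σ : Matrix (Fin 2) (Fin 2) k) = 1 := by
    rw [← Units.val_mul, ← map_mul, complexConjugation_mul_self, map_one, Units.val_one]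
  have h00 := congrFun (congrFun hsq 0) 0
  have h11 := congrFun (congrFun hsq 1) 1
  simp [Matrix.mul_apply, Fin.sum_univ_two] at h00 h11
  have hd' := hd
  rw [Matrix.det_fin_two] at hd'
  have h0 := congrArg (fun f => Polynomial.eval 0 f) hab
  have h1 := congrArg (fun f => Polynomial.eval 1 f) hab
  rw [Matrix.charpoly_fin_two, hd, Matrix.trace_fin_two] at h0 h1
  simp [← e] at h0 h1
  set M := (r σ : Matrix (Fin 2) (Fin 2) k)
  have ht : M 0 0 + M 1 1 = 2 * α := by linear_combination h0 - h1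
  have hα : α ≠ 0 := fun h => by rw [h] at h0; simp at h0
  have e0 : M 0 0 * (2 * α) = 0 := by linear_combination h00 + hd' - (M 0 0) * ht
  have e1 : M 1 1 * (2 * α) = 0 := by linear_combination h11 + hd' - (M 1 1) * ht
  rw [(mul_eq_zero.1 e0).resolve_right (mul_ne_zero h2 hα),
    (mul_eq_zero.1 e1).resolve_right (mul_ne_zero h2 hα), add_zero] at ht
  exact mul_ne_zero h2 hα ht.symm

end Residual

/-- the auxiliary data for the elliptic points: at `p = 3` a prime `≡ 2 (mod 3)` with a unit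
eigenvalue, off any given level -/
theorem elliptic_sysOf {W : WeierstrassCurve ℤ} (hΔ : W.Δ ≠ 0) (hss : W.IsSemistableModel) {p : ℕ}
    [Fact p.Prime] (hp35 : p = 3 ∨ p = 5) (hirr : W.ModRepIsIrreducible p) {A : Type} [CommRing A]
    [IsLocalRing A] (hpA : (p : A) ∈ maximalIdeal A) {M : ℕ} [NeZero M] {l0 : ℕ} (hl0 : l0.Prime)
    (hM : (l0 : ZMod M) = 1) : (LL.sysOf (A := A) W p l0 hl0 hM).Elliptic := by
  classical
  have hp : p.Prime := Fact.out
  have hunit : ∀ n : ℤ, ¬ (p : ℤ) ∣ n → IsUnit (n : A) := fun n hn => by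
    obtain ⟨u, v, huv⟩ := (Nat.prime_iff_prime_int.1 hp).coprime_iff_not_dvd.2 hn
    by_contra hu
    have h1 : (1 : A) ∈ maximalIdeal A := by
      have : (1 : A) = (u : A) * (p : A) + (v : A) * (n : A) := by
        have h := congrArg (fun z : ℤ => (z : A)) huv
        push_cast at h
        exact h.symm
      rw [this]
      exact add_mem (Ideal.mul_mem_left _ _ hpA) (Ideal.mul_mem_left _ _ hu)
    exact (maximalIdeal.isMaximal A).ne_top ((Ideal.eq_top_iff_one _).2 h1)
  refine ⟨by simpa using hunit 2 (by rcases hp35 with rfl | rfl <;> norm_num), ?_⟩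
  rcases hp35 with rfl | rfl
  · obtain ⟨l, hl, hlF, hl3, hgood, hlp, hla⟩ := exists_elliptic_prime hΔ hss hirr M.primeFactors
    exact Or.inr ⟨l, hl, hl3, fun h => hlF (Nat.mem_primeFactors.2 ⟨hl, h, NeZero.ne M⟩),
      fun h => h.elim (fun h => h hgood) hlp, hunit _ (by exact_mod_cast hla)⟩
  · exact Or.inl (by simpa using hunit 3 (by norm_num))

end FLTAgent.MLT

end
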