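import Fermat.Agent.MLT.RedRep
import Fermat.Agent.MLT.Mk.Supply
import Fermat.Agent.MLT.Cofinite
import Fermat.Agent.LL.Avoid

/-!
Area MLT, parcel RED: levels that carry nothing, the system of the curve at a modulus, the sign at a
prime that cannot be removed, and the enumeration of the framed places.
-/

set_option autoImplicit false
set_option linter.style.haveILetI false
set_option linter.unusedSectionVars false

noncomputable section

open Matrix Polynomial IsLocalRing FLTAgent.LL FLTAgent.PT FLTAgent.PT.TW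

namespace FLTAgent.MLT

/-- a level that is not modular carries nothing at a modulus avoiding a finite set, itself avoiding
any given one -/
theorem exists_absent_off {W : WeierstrassCurve ℤ} (hΔ : W.Δ ≠ 0) {p : ℕ} (hp : p.Prime)
    (hp2 : p ≠ 2) (F0 : Finset ℕ) {N : ℕ} [NeZero N]
    (habs : ¬ W.IsResiduallyModularOfLevel p N) : ∃ F : Finset ℕ,
      (∀ l ∈ F, l.Prime ∧ l ∉ F0) ∧
      ∀ (A : Type) [CommRing A] [IsDomain A] [IsDiscreteValuationRing A]
        [IsAdicComplete (maximalIdeal A) A] [Finite (ResidueField A)] [CharZero A]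
        (M : ℕ) [NeZero M] (l0 : ℕ) (hl0 : l0.Prime) (hM : (l0 : ZMod M) = 1),
        (p : A) ∈ maximalIdeal A → IsUnit (2 : A) → N ∣ M → (∀ l ∈ F, ¬ l ∣ M) →
          (LL.sysOf (A := A) W p l0 hl0 hM).E (funRep A (P1 M N) (M := M)) = ⊥ := by
  classical
  haveI : NeZero p := ⟨hp.ne_zero⟩
  set good : ℕ → Prop := fun l => W.IsGoodPrimeFor l ∧ l ∉ F0 with hgood
  rcases TOR.exists_killer_or_form (M := N) (p := p) W.apOfModel good hp with
    ⟨P, hP, hPa⟩ | ⟨g, 𝔪, hg, h𝔪, hp𝔪, hc⟩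
  swap
  · exact absurd (resMod_of_cofinite hΔ hp hp2 F0 hg h𝔪 hp𝔪
      fun l hl hlF hlg hlN hlp => hc l hl ⟨hlg, hlF⟩ hlN hlp) habs
  refine ⟨P.vars.image fun x => (x.1.1 : ℕ), fun l hl => ?_, ?_⟩
  · obtain ⟨x, -, rfl⟩ := Finset.mem_image.mp hl
    exact ⟨x.1.1.2, x.2.2⟩
  intro A _ _ _ _ _ _ M _ l0 hl0 hM hpA h2 hN hFM
  refine E_eq_bot_of_killer hp hpA h2 hN (LL.sysOf (A := A) W p l0 hl0 hM) W.apOfModel
    good P hP hPa fun x hx => ⟨hFM _ (Finset.mem_image_of_mem _ hx), ?_, rfl⟩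
  simp only [LL.sysOf, Set.mem_setOf_eq, not_or, not_not]
  exact ⟨x.2.1, x.1.2.2⟩

variable {W : WeierstrassCurve ℤ} {p : ℕ} [Fact p.Prime] {O : Type} [CommRing O] [IsDomain O]
  [IsDiscreteValuationRing O] [IsAdicComplete (maximalIdeal O) O] [Finite (ResidueField O)]
  [CharZero O] [Algebra (ZMod p) (ResidueField O)] {ρbar : ResidualGaloisRep (ResidueField O)}
  {r : GQ →* GL (Fin 2) (ResidueField O)}

/-- what the system of the curve at a modulus needs -/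
theorem exists_sysData (hΔ : W.Δ ≠ 0) (hss : W.IsSemistableModel) (hp35 : p = 3 ∨ p = 5)
    (hirr : W.ModRepIsIrreducible p) (hpO : (p : O) ∈ maximalIdeal O)
    (hres : SemiResidual W p ρbar r) (M : ℕ) [NeZero M] :
    ∃ (l0 : ℕ) (hl0 : l0.Prime) (hM : (l0 : ZMod M) = 1) (S : Finset ℕ),
      (W.IsGoodPrimeFor l0 ∧ l0 ≠ p ∧ ¬ (p : ℤ) ∣ W.apOfModel l0 - ((l0 : ℤ) + 1)) ∧
      (LL.sysOf (A := O) W p l0 hl0 hM).Elliptic ∧
      p ∈ S ∧ (∀ l : ℕ, l.Prime → l ∣ M → l ∈ S) ∧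
      (∀ l : ℕ, l.Prime → (l ∉ S ↔ ¬ l ∣ M ∧ l ∉ (LL.sysOf (A := O) W p l0 hl0 hM).bad)) ∧
      l0 ∉ S ∧
      ∀ l : ℕ, l.Prime → l ∉ S → ∀ P : ValuationSubring (AlgebraicClosure ℚ),
        P.LiesOverPrime l → ∀ σ : GQ, P.IsFrobeniusAt σ l →
          (r σ : Matrix (Fin 2) (Fin 2) (ResidueField O)).trace =
              residue O ((LL.sysOf (A := O) W p l0 hl0 hM).eig l) ∧
            (r σ : Matrix (Fin 2) (Fin 2) (ResidueField O)).det = (l : ResidueField O) := by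
  classical
  obtain ⟨l0, hl0, hl0F, hl0M, hl0g, hl0p, hl0t⟩ := hres.exists_l0 hΔ M.primeFactors M
  set sys := LL.sysOf (A := O) W p l0 hl0 hl0M
  set S : Finset ℕ := M.primeFactors ∪ W.Δ.natAbs.primeFactors ∪ {p} with hS
  have hSiff : ∀ l : ℕ, l.Prime → (l ∉ S ↔ ¬ l ∣ M ∧ l ∉ sys.bad) := by
    intro l hl
    have : l ∈ sys.bad ↔ ¬ W.IsGoodPrimeFor l ∨ l = p := Iff.rfl
    rw [this, mem_primeFactors_of_bad hΔ hl]
    simp [hS, Nat.mem_primeFactors, hl, NeZero.ne M]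
    tauto
  refine ⟨l0, hl0, hl0M, S, ⟨hl0g, hl0p, hl0t⟩, elliptic_sysOf hΔ hss hp35 hirr hpO hl0 hl0M,
    by simp [hS], fun l hl hd => by simp [hS, Nat.mem_primeFactors, hl, hd, NeZero.ne M], hSiff,
    (hSiff l0 hl0).2 ⟨fun hd => hl0F (Nat.mem_primeFactors.2 ⟨hl0, hd, NeZero.ne M⟩),
      fun h => h.elim (fun h => h hl0g) hl0p⟩, fun l hl hlS P hP σ hσ => ?_⟩
  obtain ⟨-, hb⟩ := (hSiff l hl).1 hlS
  have hg : W.IsGoodPrimeFor l := by
    by_contra h
    exact hb (Or.inl h)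
  obtain ⟨h1, h2⟩ := hres.frob l hl hg (fun h => hb (Or.inr h)) P hP σ hσ
  exact ⟨h1.trans (map_intCast (residue O) _).symm, h2⟩

theorem finLevel_of_semiResidual (hres : SemiResidual W p ρbar r) :
    Deform.FinLevel fun σ => (r σ : Matrix (Fin 2) (Fin 2) (ResidueField O)) := by
  obtain ⟨F₀, hF₀, hr⟩ := hres.setting.level
  exact ⟨F₀, hF₀, fun σ hσ => congrArg Units.val (hr σ fun x => hσ x x.2)⟩

/-- the sign at a prime that cannot be removed -/
theorem trace_sq_of_removed (hΔ : W.Δ ≠ 0) (hss : W.IsSemistableModel) (hp35 : p = 3 ∨ p = 5)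
    (hirr : W.ModRepIsIrreducible p) (hpO : (p : O) ∈ maximalIdeal O)
    (hres : SemiResidual W p ρbar r) {N : ℕ} [NeZero N] (hsq : Squarefree N)
    (hmod : W.IsResiduallyModularOfLevel p N) {v : ℕ} (hv : v.Prime) (hvN : v ∣ N) (hvp : v ≠ p)
    (hv1 : p ∣ v - 1) (habs : ¬ W.IsResiduallyModularOfLevel p (N / v))
    (P : ValuationSubring (AlgebraicClosure ℚ)) (hP : P.LiesOverPrime v) (τ : GQ)
    (hτ : P.IsFrobeniusAt τ v) : (matHom r τ).trace ^ 2 = 4 := by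
  classical
  have hp : p.Prime := Fact.out
  have hp2 : p ≠ 2 := by rcases hp35 with rfl | rfl <;> norm_num
  haveI := hres.setting.charP
  haveI : NeZero (N / v) := ⟨(Nat.div_pos (Nat.le_of_dvd (NeZero.pos N) hvN) hv.pos).ne'⟩
  obtain ⟨F, hF, hbot⟩ := exists_absent_off hΔ hp hp2 N.primeFactors habs
  obtain ⟨l0, hl0, hl0M, S, ⟨hl0g, hl0p, hl0t⟩, h6, hpS, hMS, hS, hl0S, hfrob⟩ :=
    exists_sysData hΔ hss hp35 hirr hpO hres N
  set s := LL.sysOf (A := O) W p l0 hl0 hl0M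
  have h2O : IsUnit (2 : O) := h6.1
  obtain ⟨σ₀, α, β, hαβ, hσ₀⟩ := hres.exists_split
  set D := emptyTW N p hp hp2
  have hrkN : D.rkY s = Module.finrank O (s.E (funRep O (P1 N N) (M := N))) := by
    rw [TWData.rkY, D.finrank_E_Y, emptyTW_R]
    exact congrArg (fun n => Module.finrank O (s.E (funRep O (P1 N n) (M := N)))) (mul_one N)
  have hne : D.Mod s ≠ ⊥ := D.Mod_ne_bot_of_rkY s h6 hpO (by
    rw [hrkN]; exact finrank_E_pos_of_modular hp hpO hl0 hl0M hl0g hl0p hl0t dvd_rfl hmod)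
  set D' := D.withN0 (N / v) (Nat.div_dvd_of_dvd hvN)
  have hbot' : D'.Mod s = ⊥ := D'.Mod_eq_bot_of_rkY s h6 hpO (by
    rw [TWData.rkY, D'.finrank_E_Y]
    have hR : D'.N0 * D'.R = N / v := by
      show N / v * ∏ i : Fin 0, _ = _
      simp
    rw [hR, hbot O N l0 hl0 hl0M hpO h2O (Nat.div_dvd_of_dvd hvN) fun l hl hd =>
      (hF l hl).2 (Nat.mem_primeFactors.2 ⟨(hF l hl).1, hd, NeZero.ne N⟩), finrank_bot])
  obtain ⟨L₀⟩ := exists_worldRep D s S hpO h6 hsq (fun i => i.elim0) hpS hMS hS hl0S r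
    (finLevel_of_semiResidual hres) hfrob σ₀ hαβ hσ₀ (fun w hw => hres.no_line hw) hne
  let L : LevelRep D s S r := L₀.toLevelRep hsq
  have h0 : residue L.T ((L.R₀ τ).trace ^ 2 - (1 + (v : L.T)) ^ 2) = 0 := by
    by_contra hu
    obtain ⟨u, hu⟩ := (residue_ne_zero_iff_isUnit _).1 hu
    have hq := L.quartic v hv hvN hvp hbot' P hP τ hτ
    rw [← hu] at hq
    have h1 := congrArg (fun f => f * L.φ ↑u⁻¹) hq
    simp only [← map_mul, Units.mul_inv, map_one, zero_mul] at h1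
    exact hne ((Submodule.eq_bot_iff _).2 fun x hx =>
      congrArg Subtype.val (LinearMap.congr_fun h1 ⟨x, hx⟩))
  rw [map_sub, map_pow, map_pow, L.residual_trace, _root_.map_add (residue L.T), map_one, map_natCast, sub_eq_zero,
    ← map_natCast (ResidueField.map (algebraMap O L.T)), ← map_one (ResidueField.map (algebraMap O L.T)),
    ← _root_.map_add, ← map_pow, ← map_pow] at h0
  have h1 := (ResidueField.map (algebraMap O L.T)).injective h0
  have hv' : (v : ResidueField O) = 1 := by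
    rw [← Nat.cast_one, CharP.natCast_eq_natCast _ p]
    exact ((Nat.modEq_iff_dvd' hv.one_lt.le).2 hv1).symm
  rw [matHom_apply, h1, hv']
  norm_num

omit [Fact p.Prime] in
/-- the primes of `N` outside a finite set, a given one first -/
theorem exists_enum_off {N q : ℕ} (hN : N ≠ 0) (hq : q.Prime) (F : Finset ℕ) (hqF : q ∉ F)
    (hqN : q ∣ N) :
    ∃ (m : ℕ) (V : Fin (m + 1) → Nat.Primes), Function.Injective V ∧ (V 0 : ℕ) = q ∧
      (∀ i, (V i : ℕ) ∣ N ∧ (V i : ℕ) ∉ F) ∧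
      ∀ s : ℕ, s.Prime → s ∣ N → s ∉ F → ∃ i, (V i : ℕ) = s := by
  classical
  set T : Finset Nat.Primes := ((N.primeFactors \ F).erase q).subtype Nat.Prime with hT
  have hmemT : ∀ x : Nat.Primes, x ∈ T ↔ (x : ℕ) ≠ q ∧ (x : ℕ) ∣ N ∧ (x : ℕ) ∉ F := fun x => by
    refine Finset.mem_subtype.trans ?_
    simp only [Finset.mem_erase, Finset.mem_sdiff, Nat.mem_primeFactors]
    exact ⟨fun h => ⟨h.1, h.2.1.2.1, h.2.2⟩, fun h => ⟨h.1, ⟨x.2, h.2.1, hN⟩, h.2.2⟩⟩
  let g : Fin T.card → Nat.Primes := fun i => (T.equivFin.symm i).1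
  have hg : ∀ i, g i ∈ T := fun i => (T.equivFin.symm i).2
  let V : Fin (T.card + 1) → Nat.Primes := Fin.cons (α := fun _ => Nat.Primes) ⟨q, hq⟩ g
  refine ⟨T.card, V, ?_, rfl, ?_, ?_⟩
  · refine Fin.cons_injective_of_injective ?_
      (Subtype.val_injective.comp (Equiv.injective _))
    rintro ⟨i, hi⟩
    exact ((hmemT _).1 (hg i)).1 (congrArg Subtype.val hi)
  · intro i
    induction i using Fin.cases with
    | zero => exact ⟨hqN, hqF⟩
    | succ i => exact ⟨((hmemT _).1 (hg i)).2.1, ((hmemT _).1 (hg i)).2.2⟩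
  · intro s hs hsN hsF
    by_cases hsq : s = q
    · exact ⟨0, hsq.symm⟩
    have hmem : (⟨s, hs⟩ : Nat.Primes) ∈ T := (hmemT _).2 ⟨hsq, hsN, hsF⟩
    exact ⟨(T.equivFin ⟨_, hmem⟩).succ, congrArg (fun x => ((x : {x // x ∈ T}).1 : ℕ))
      (T.equivFin.symm_apply_apply ⟨_, hmem⟩)⟩

end FLTAgent.MLT

end
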