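import Fermat.Agent.LL.TameGen
import Fermat.Agent.TOR.InertiaVal

/-!
Area MLT, parcel COND: a tame generator at a prime `v ≠ p`, not necessarily `1` modulo `p`: an
inertia element moving a `p`-th root of `v`. It generates the image of inertia in every
representation that is residually unramified.
-/

set_option autoImplicit false
set_option linter.style.haveILetI false

noncomputable section

open IsLocalRing Matrix FLTAgent.PT

namespace FLTAgent.MLT

open FLTAgent.LL (mapMatrix_pow_prime_pow neZero_primes)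

attribute [local instance] neZero_primes

/-- an inertia element at `v` moving some `p`-th root of `v` -/
def IsTameRoot (p : ℕ) (v : Nat.Primes) (σ : GQ) : Prop :=
  σ ∈ (ExtCitation.primeLocalPlace v).inertiaSubgroupIn ℚ ∧
    ∃ z : AlgebraicClosure ℚ, z ^ p = ((v : ℕ) : AlgebraicClosure ℚ) ∧ σ z ≠ z

theorem exists_isTameRoot {p : ℕ} (hp : p.Prime) (v : Nat.Primes) : ∃ σ, IsTameRoot p v σ := by
  set A := ExtCitation.primeLocalPlace v
  have hA : A.LiesOverPrime (v : ℕ) := PT.TW.liesOver_primeLocalPlace v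
  obtain ⟨z, hz⟩ := IsAlgClosed.exists_pow_nat_eq ((v : ℕ) : AlgebraicClosure ℚ) hp.pos
  by_contra hno
  push Not at hno
  have hfix : z ∈ SS2.inertiaFixed A := SS2.mem_inertiaFixed.mpr fun σ hσ => by
    by_contra hne
    exact hno σ ⟨hσ, z, hz, hne⟩
  have hv0 : ((v : ℕ) : AlgebraicClosure ℚ) ≠ 0 := Nat.cast_ne_zero.mpr v.2.ne_zero
  have hz0 : z ≠ 0 := fun h => hv0 (by rw [← hz, h, zero_pow hp.ne_zero])
  obtain ⟨i, hi⟩ := SS2.exists_zpow_valuation_T v.2 hA hfix hz0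
  have h := congrArg A.valuation hz
  rw [map_pow, hi, ← zpow_natCast, ← _root_.zpow_mul] at h
  have h2 := (zpow_right_inj₀ (zero_lt_iff.mpr ((Valuation.ne_zero_iff _).mpr hv0)) (ne_of_lt hA)).mp
    (h.trans (zpow_one _).symm)
  have h3 : (p : ℤ) = 1 := Int.eq_one_of_mul_eq_one_left (by positivity) h2
  exact hp.ne_one (by exact_mod_cast h3)

theorem fix_pow {g : GQ} {z : AlgebraicClosure ℚ} (h : g z = z) (n : ℕ) : (g ^ n) z = z := by
  induction n with
  | zero => rfl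
  | succ n ih => rw [pow_succ, AlgEquiv.mul_apply, h, ih]

/-- the `p`-th power of an inertia element fixes the `p`-th roots of `v` -/
theorem pow_fix_of_inertia {p v : ℕ} [Fact p.Prime] (hv : v.Prime) (hvp : v ≠ p)
    {A : ValuationSubring (AlgebraicClosure ℚ)} (hA : A.LiesOverPrime v) {τ : GQ}
    (hτ : τ ∈ A.inertiaSubgroupIn ℚ) {z : AlgebraicClosure ℚ}
    (hz : z ^ p = (v : AlgebraicClosure ℚ)) : (τ ^ p) z = z := by
  have hp : p.Prime := Fact.out
  haveI : NeZero p := ⟨hp.ne_zero⟩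
  haveI : Fact (1 < p) := ⟨hp.one_lt⟩
  have hv0 : (v : AlgebraicClosure ℚ) ≠ 0 := Nat.cast_ne_zero.mpr hv.ne_zero
  have hz0 : z ≠ 0 := fun h => hv0 (by rw [← hz, h, zero_pow hp.ne_zero])
  set u := τ z / z
  have hu : u ^ p = 1 := by rw [div_pow, ← map_pow, hz, map_natCast, div_self hv0]
  have hτu : τ u = u := by
    rw [Attach.cyc_spec τ hu, ← PT.TW.cycloChar_eq_cyc,
      PT.TW.cycloChar_eq_one_of_inertia hv hvp hA hτ, Units.val_one, ZMod.val_one, pow_one]
  have hstep : ∀ n : ℕ, (τ ^ n) z = u ^ n * z := by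
    intro n
    induction n with
    | zero => simp
    | succ n ih =>
      rw [pow_succ' τ, AlgEquiv.mul_apply, ih, map_mul, map_pow, hτu, pow_succ, mul_assoc,
        div_mul_cancel₀ _ hz0]
  rw [hstep, hu, one_mul]

variable {p : ℕ} [Fact p.Prime] {R : Type} [CommRing R] [IsLocalRing R]
  {v : Nat.Primes} {σ : GQ} (hσ : IsTameRoot p v σ) (hvp : (v : ℕ) ≠ p)
  (hp : (p : R) ∈ maximalIdeal R) (F : GQ →* Matrix (Fin 2) (Fin 2) R)
  (hF : Deform.MatCont (⇑F : GQ → Deform.Mt R))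
  (hI : ∀ τ ∈ (ExtCitation.primeLocalPlace v).inertiaSubgroupIn ℚ,
    (F τ).map (residue R) = 1)

include hσ hvp hp hF hI

/-- modulo every power of the maximal ideal the image of inertia is generated by `σ`, Frobenius
raises it to the power `v`, and the decomposition group is generated by both -/
theorem decomp_image_root (n : ℕ) :
    let Fn := ((Ideal.Quotient.mk (maximalIdeal R ^ n)).mapMatrix (m := Fin 2)).toMonoidHom.comp F
    (∀ τ ∈ (ExtCitation.primeLocalPlace v).inertiaSubgroupIn ℚ, ∃ m : ℕ, Fn τ = Fn σ ^ m) ∧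
      ∀ φ : GQ, (ExtCitation.primeLocalPlace v).IsFrobeniusAt φ (v : ℕ) →
        Fn φ * Fn σ = Fn σ ^ (v : ℕ) * Fn φ ∧
        ∀ d ∈ (ExtCitation.primeLocalPlace v).decompositionSubgroup ℚ,
          ∃ i m : ℕ, Fn d = Fn φ ^ i * Fn σ ^ m := by
  classical
  intro Fn
  have hpP : p.Prime := Fact.out
  haveI : NeZero p := ⟨hpP.ne_zero⟩
  haveI := FLTAgent.Common.isAlgebraic_qbar
  haveI := FLTAgent.Common.isGalois_qbar
  set A := ExtCitation.primeLocalPlace v
  have hA : A.LiesOverPrime (v : ℕ) := PT.TW.liesOver_primeLocalPlace v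
  obtain ⟨hσI, z₀, hz₀, hσz⟩ := hσ
  let Rt : Set (AlgebraicClosure ℚ) := {z | z ^ p = ((v : ℕ) : AlgebraicClosure ℚ)}
  let K : Subgroup GQ :=
    { carrier := {g | ∀ z ∈ Rt, g z = z}
      one_mem' := fun z _ => rfl
      mul_mem' := fun {a b} ha hb z hz => by rw [AlgEquiv.mul_apply, hb z hz, ha z hz]
      inv_mem' := fun {a} ha z hz => by
        rw [AlgEquiv.aut_inv]
        exact a.symm_apply_eq.mpr (ha z hz).symm }
  have hRt : ∀ (g : GQ), ∀ z ∈ Rt, g z ∈ Rt := fun g z hz => by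
    show g z ^ p = _
    rw [← map_pow, hz, map_natCast]
  haveI hKn : K.Normal := ⟨fun n hn g z hz => by
    rw [AlgEquiv.mul_apply, AlgEquiv.mul_apply, hn _ (hRt g⁻¹ z hz), ← AlgEquiv.mul_apply,
      mul_inv_cancel, AlgEquiv.one_apply]⟩
  let N' : Subgroup GQ := Fn.ker ⊓ (ExtCitation.cycloChar p).ker ⊓ K
  obtain ⟨L₁, hL₁, hF1⟩ := hF n
  obtain ⟨L₂, hL₂, hc2⟩ := Attach.exists_cyc_level p
  have hRtfin : Rt.Finite := by
    refine Set.Finite.subset (Multiset.finite_toSet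
      ((Polynomial.X ^ p - Polynomial.C ((v : ℕ) : AlgebraicClosure ℚ)).roots)) fun z hz => ?_
    refine (Polynomial.mem_roots (Polynomial.X_pow_sub_C_ne_zero hpP.pos _)).mpr ?_
    simp [Polynomial.IsRoot, show z ^ p = _ from hz]
  set L₃ := IntermediateField.adjoin ℚ Rt
  haveI : Finite Rt := hRtfin.to_subtype
  have hL₃ : FiniteDimensional ℚ L₃ := IntermediateField.finiteDimensional_adjoin fun x _ =>
    (AlgebraicClosure.isAlgebraic ℚ).isAlgebraic x |>.isIntegral
  haveI := hL₁; haveI := hL₂; haveI := hL₃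
  let E := L₁ ⊔ L₂ ⊔ L₃
  have hEle : E.fixingSubgroup ≤ N' := by
    intro g hg
    have hfix : ∀ K : IntermediateField ℚ (AlgebraicClosure ℚ), K ≤ E → ∀ x ∈ K, g x = x :=
      fun K hK x hx => (IntermediateField.mem_fixingSubgroup_iff _ _).1 hg x (hK hx)
    refine ⟨⟨?_, ?_⟩, ?_⟩
    · show Fn g = 1
      ext a b
      show Ideal.Quotient.mk _ (F g a b) = _
      rw [← sub_eq_zero]
      have := Ideal.Quotient.eq_zero_iff_mem.mpr
        (hF1 g (hfix L₁ (le_sup_left.trans le_sup_left)) a b)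
      rw [map_sub] at this
      convert this using 2
      exact (RingHom.map_one (Ideal.Quotient.mk (maximalIdeal R ^ n)).mapMatrix |>
        fun h => (congrFun (congrFun h a) b).symm)
    · show ExtCitation.cycloChar p g = 1
      apply Units.ext
      rw [PT.TW.cycloChar_eq_cyc, Units.val_one]
      exact hc2 g (hfix L₂ (le_sup_right.trans le_sup_left))
    · exact fun z hz => hfix L₃ le_sup_right z (IntermediateField.subset_adjoin ℚ Rt hz)
  haveI hN'n : N'.Normal := inferInstanceAs (Fn.ker ⊓ (ExtCitation.cycloChar p).ker ⊓ K).Normal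
  have hopen : IsOpen (N' : Set GQ) :=
    Subgroup.isOpen_mono hEle (IntermediateField.fixingSubgroup_isOpen E)
  let N'c : ClosedSubgroup GQ := ⟨N', Subgroup.isClosed_of_isOpen _ hopen⟩
  let L := IntermediateField.fixedField N'
  have hLfix : L.fixingSubgroup = N' := InfiniteGalois.fixingSubgroup_fixedField N'c
  have hLE : L ≤ E := by
    rw [← InfiniteGalois.fixedField_fixingSubgroup E]
    exact IntermediateField.fixedField_le hEle
  haveI : FiniteDimensional ℚ L := FiniteDimensional.of_injective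
    (IntermediateField.inclusion hLE).toLinearMap (IntermediateField.inclusion_injective hLE)
  haveI : L.fixingSubgroup.Normal := by rw [hLfix]; exact hN'n
  haveI : IsGalois ℚ L := (InfiniteGalois.normal_iff_isGalois L).mp inferInstance
  have hmemN : ∀ g, (∀ x ∈ L, g x = x) → g ∈ N' := fun g hg =>
    hLfix ▸ (IntermediateField.mem_fixingSubgroup_iff _ _).2 hg
  have hfixN : ∀ g ∈ N', ∀ x ∈ L, g x = x := fun g hg =>
    (IntermediateField.mem_fixingSubgroup_iff _ _).1 (hLfix.symm ▸ hg)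
  have hL : ∀ g : GQ, ∀ x ∈ L, g x ∈ L := by
    intro g x hx
    rw [IntermediateField.mem_fixedField_iff] at hx ⊢
    intro s hs
    have := hx _ (by simpa using hN'n.conj_mem s hs g⁻¹ : g⁻¹ * s * g ∈ N')
    rw [AlgEquiv.mul_apply, AlgEquiv.mul_apply] at this
    have e := congrArg g this
    rwa [← AlgEquiv.mul_apply g g⁻¹, mul_inv_cancel, AlgEquiv.one_apply] at e
  have hζ : ∀ y : AlgebraicClosure ℚ, y ^ p = 1 → y ∈ L := by
    intro y hy
    rw [IntermediateField.mem_fixedField_iff]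
    rintro g ⟨⟨-, hg⟩, -⟩
    rw [Attach.cyc_spec g hy, ← PT.TW.cycloChar_eq_cyc, show ExtCitation.cycloChar p g = 1 from hg,
      Units.val_one]
    haveI : Fact (1 < p) := ⟨hpP.one_lt⟩
    rw [ZMod.val_one, pow_one]
  have hk : ∀ τ ∈ A.inertiaSubgroupIn ℚ, ∀ x ∈ L, (τ ^ (p ^ (n + 1))) x = x := by
    intro τ hτ
    refine hfixN _ ⟨⟨?_, ?_⟩, ?_⟩
    · show Fn (τ ^ (p ^ (n + 1))) = 1
      rw [pow_succ, pow_mul, map_pow]
      have : Fn (τ ^ p ^ n) = 1 := by
        show (Ideal.Quotient.mk _).mapMatrix (F (τ ^ p ^ n)) = 1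
        rw [map_pow F]
        refine mapMatrix_pow_prime_pow hp (fun a b => (residue_eq_zero_iff _).mp ?_) n
        have h0 := congrFun (congrFun (hI τ hτ) a) b
        rw [Matrix.map_apply] at h0
        rw [Matrix.sub_apply, map_sub, h0]
        exact sub_eq_zero.mpr
          (congrFun (congrFun (RingHom.map_one (residue R).mapMatrix) a) b).symm
      rw [this, one_pow]
    · show ExtCitation.cycloChar p _ = 1
      rw [map_pow, PT.TW.cycloChar_eq_one_of_inertia v.2 hvp hA hτ, one_pow]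
    · intro z hz
      rw [pow_succ', pow_mul]
      exact fix_pow (pow_fix_of_inertia v.2 hvp hA hτ hz) _
  obtain ⟨σ₀, hσ₀, hgen, hconj⟩ := EIS.exists_tame_generator (k := n + 1) v.2 hA hpP
    (fun e => hvp e.symm) L hL hζ hk
  have hcong : ∀ g g' : GQ, (∀ x ∈ L, g x = g' x) → Fn g = Fn g' := by
    intro g g' h
    have hm : g'⁻¹ * g ∈ N' := hmemN _ fun x hx => by
      rw [AlgEquiv.mul_apply, h x hx]; exact g'.symm_apply_apply x
    obtain ⟨⟨h1, -⟩, -⟩ := hm
    calc Fn g = Fn g' * Fn (g'⁻¹ * g) := by rw [← map_mul, mul_inv_cancel_left]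
      _ = _ := by rw [show Fn (g'⁻¹ * g) = 1 from h1, mul_one]
  -- `σ` generates as well
  obtain ⟨m₀, hm₀⟩ := hgen σ hσI
  have hFσ := hcong σ (σ₀ ^ m₀) hm₀
  rw [map_pow] at hFσ
  have hz₀L : z₀ ∈ L := by
    rw [IntermediateField.mem_fixedField_iff]
    rintro g ⟨-, hg⟩
    exact hg z₀ hz₀
  have hm0p : ¬ p ∣ m₀ := by
    rintro ⟨c, rfl⟩
    refine hσz ?_
    rw [hm₀ z₀ hz₀L, pow_mul]
    exact fix_pow (pow_fix_of_inertia v.2 hvp hA hσ₀ hz₀) _
  obtain ⟨j, hj⟩ : ∃ j : ℕ, (m₀ * j : ℕ) % p ^ (n + 1) = 1 % p ^ (n + 1) := by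
    have hcop : m₀.Coprime (p ^ (n + 1)) :=
      Nat.Coprime.pow_right _ ((Nat.Prime.coprime_iff_not_dvd hpP).mpr hm0p).symm
    haveI : NeZero (p ^ (n + 1)) := ⟨pow_ne_zero _ hpP.ne_zero⟩
    refine ⟨((m₀ : ZMod (p ^ (n + 1)))⁻¹).val, ?_⟩
    have := ZMod.coe_mul_inv_eq_one m₀ hcop
    exact (ZMod.natCast_eq_natCast_iff' _ _ _).mp (by
      rw [Nat.cast_mul, ZMod.natCast_zmod_val, Nat.cast_one, this])
  have hσ₀1 : Fn σ₀ ^ (p ^ (n + 1)) = 1 := by
    rw [← map_pow]
    exact (hcong _ 1 fun x hx => by rw [hk σ₀ hσ₀ x hx, AlgEquiv.one_apply]).trans (map_one Fn)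
  have hinv : Fn σ₀ = Fn σ ^ j := by
    rw [hFσ, ← pow_mul, pow_eq_pow_mod (m₀ * j) hσ₀1, hj, ← pow_eq_pow_mod 1 hσ₀1, pow_one]
  refine ⟨fun τ hτ => ?_, fun φ hφ => ⟨?_, fun d hd => ?_⟩⟩
  · obtain ⟨m, hm⟩ := hgen τ hτ
    exact ⟨j * m, by rw [hcong τ _ hm, map_pow, hinv, pow_mul]⟩
  · have h := hcong _ _ (hconj φ hφ)
    rw [map_mul, map_mul, map_pow, hinv] at h
    have hc : Fn φ * Fn σ₀ = Fn σ₀ ^ (v : ℕ) * Fn φ := by
      rw [hinv, ← h, mul_assoc (Fn φ * Fn σ ^ j), ← map_mul, inv_mul_cancel, map_one, mul_one]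
    rw [hFσ]
    have : ∀ i : ℕ, Fn φ * Fn σ₀ ^ i = (Fn σ₀ ^ (v : ℕ)) ^ i * Fn φ := by
      intro i
      induction i with
      | zero => simp
      | succ i ih => rw [pow_succ, pow_succ, ← mul_assoc, ih, mul_assoc, hc, mul_assoc]
    rw [this, ← pow_mul, ← pow_mul, mul_comm (v : ℕ)]
  · obtain ⟨i, ρ, hρ, hρd⟩ := exists_pow_frob_inertia v.2 hA hφ hd L
    obtain ⟨m, hm⟩ := hgen ρ hρ
    refine ⟨i, j * m, ?_⟩
    have e1 : Fn ((φ ^ i)⁻¹ * d) = Fn σ ^ (j * m) := by
      rw [← hcong _ _ hρd, hcong ρ _ hm, map_pow, hinv, pow_mul]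
    rw [← e1, ← map_pow, ← map_mul, mul_inv_cancel_left]

end FLTAgent.MLT
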