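import Fermat.Agent.LL.FrameRelations
import Fermat.Agent.MLT.CondTame

/-!
Area MLT, parcel COND: framed places that need not be `1` modulo `p`, and the relations satisfied
there by Frobenius and the tame generator of a lift.
-/

set_option autoImplicit false
set_option linter.unusedSectionVars false
set_option linter.style.haveILetI false

noncomputable section

open Matrix IsLocalRing FLTAgent.PT FLTAgent.PT.TW
open FLTAgent.LL (det_eq_natCast eq_of_forall_sub_mem_pow)

namespace FLTAgent.MLT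

/-- framed places: residually unramified, with Frobenius and a tame generator -/
structure CondPlaces (p : ℕ) [Fact p.Prime] {k : Type} [Field k] (r : GQ →* GL (Fin 2) k)
    {I : Type} (W : I → Nat.Primes) (frob tame : I → GQ) : Prop where
  ne : ∀ i, (W i : ℕ) ≠ p
  isFrob : ∀ i, (ExtCitation.primeLocalPlace (W i)).IsFrobeniusAt (frob i) (W i : ℕ)
  isTame : ∀ i, IsTameRoot p (W i) (tame i)
  unr : ∀ i, ∀ τ ∈ (ExtCitation.primeLocalPlace (W i)).inertiaSubgroupIn ℚ, r τ = 1

variable {p : ℕ} [Fact p.Prime] {𝒪 : Type} [CommRing 𝒪] [IsDomain 𝒪] [IsDiscreteValuationRing 𝒪]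
  [IsAdicComplete (maximalIdeal 𝒪) 𝒪] [Finite (ResidueField 𝒪)]
  [Algebra (ZMod p) (ResidueField 𝒪)] {ρbar : ResidualGaloisRep (ResidueField 𝒪)}
  {r : GQ →* GL (Fin 2) (ResidueField 𝒪)} {I : Type}
  {D : RepData ρbar} {cd : TW.Coord D r} {W : I → Nat.Primes}
  {frob tame : I → GQ}

/-- the lift in the `i`-th frame -/
def cframed {B : Type} [CommRing B] [Algebra 𝒪 B] (ι : D.R →ₐ[𝒪] B)
    (P P' : I → Matrix (Fin 2) (Fin 2) B) (cd : TW.Coord D r) (i : I) (g : GQ) :
    Matrix (Fin 2) (Fin 2) B :=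
  P' i * (cd.R₀ g).map ι * P i

theorem exists_condPlaces (hv : ∀ i, (W i : ℕ) ≠ p) (hunr : ∀ i, ρbar.IsUnramifiedAt (W i : ℕ))
    (hrep : Deform.RepMat ρbar.ρ (fun g => (r g : Matrix (Fin 2) (Fin 2) (ResidueField 𝒪)))) :
    ∃ frob tame : I → GQ, CondPlaces p r W frob tame := by
  choose f hf using fun i => EIS.exists_frobenius_at (W i).2 (liesOver_primeLocalPlace (W i))
  choose t ht using fun i => exists_isTameRoot (p := p) Fact.out (W i)
  obtain ⟨b, hb⟩ := hrep
  refine ⟨f, t, hv, hf, ht, fun i τ hτ => Units.ext ?_⟩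
  refine (hb τ).symm.trans ?_
  rw [hunr i _ (liesOver_primeLocalPlace (W i)) τ hτ, LinearMap.toMatrix_one, Units.val_one]

theorem det_frob [IsHausdorff (maximalIdeal D.R) D.R] (hdet : D.ρ.DetIsCyclotomic p)
    (hpl : CondPlaces p r W frob tame) (i : I) :
    (cd.R₀ (frob i)).det = ((W i : ℕ) : D.R) := by
  refine det_eq_natCast hdet _ _ fun n z hz => ?_
  haveI : NeZero (p ^ n) := ⟨pow_ne_zero _ (Fact.out : p.Prime).ne_zero⟩
  have hnd : ¬ (W i : ℕ) ∣ p ^ n := fun h => hpl.ne i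
    ((Nat.prime_dvd_prime_iff_eq (W i).2 Fact.out).mp ((W i).2.dvd_of_dvd_pow h))
  rw [Attach.cyc_spec _ hz, Attach.cyc_frobenius (W i).2 hnd (liesOver_primeLocalPlace (W i))
    (hpl.isFrob i), ZMod.val_natCast]
  exact (pow_eq_pow_mod _ hz).symm

theorem det_tame [IsHausdorff (maximalIdeal D.R) D.R] (hdet : D.ρ.DetIsCyclotomic p)
    (hpl : CondPlaces p r W frob tame) (i : I) :
    (cd.R₀ (tame i)).det = 1 := by
  refine (det_eq_natCast hdet _ 1 fun n z hz => ?_).trans Nat.cast_one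
  haveI : NeZero (p ^ n) := ⟨pow_ne_zero _ (Fact.out : p.Prime).ne_zero⟩
  have hnd : ¬ (W i : ℕ) ∣ p ^ n := fun h => hpl.ne i
    ((Nat.prime_dvd_prime_iff_eq (W i).2 Fact.out).mp ((W i).2.dvd_of_dvd_pow h))
  rw [Attach.cyc_spec _ hz, Attach.cyc_inertia (W i).2 hnd (liesOver_primeLocalPlace (W i))
    (hpl.isTame i).1, pow_one]
  rcases Nat.lt_or_ge 1 (p ^ n) with h | h
  · haveI : Fact (1 < p ^ n) := ⟨h⟩
    rw [ZMod.val_one, pow_one]
  · have e : p ^ n = 1 := le_antisymm h (Nat.one_le_iff_ne_zero.2 (NeZero.ne _))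
    rw [e, pow_one] at hz
    rw [hz, one_pow]

theorem residue_tame (hpl : CondPlaces p r W frob tame) (i : I) :
    (cd.R₀ (tame i)).map (residue D.R) = 1 := by
  rw [cd.aligned, matHom_apply, hpl.unr i _ (hpl.isTame i).1, Units.val_one,
    Matrix.map_one _ (map_zero _) (map_one _)]

/-- Frobenius raises the tame generator to the power `v` -/
theorem frob_mul_tame [IsHausdorff (maximalIdeal D.R) D.R] (hdet : D.ρ.DetIsCyclotomic p)
    (hpl : CondPlaces p r W frob tame) (i : I) :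
    cd.R₀ (frob i) * cd.R₀ (tame i) = cd.R₀ (tame i) ^ (W i : ℕ) * cd.R₀ (frob i) := by
  let F : GQ →* Matrix (Fin 2) (Fin 2) D.R :=
    { toFun := cd.R₀, map_one' := cd.rep.map_one, map_mul' := cd.rep.map_mul }
  have hI : ∀ τ ∈ (ExtCitation.primeLocalPlace (W i)).inertiaSubgroupIn ℚ,
      (F τ).map (residue D.R) = 1 := by
    intro τ hτ
    show (cd.R₀ τ).map _ = 1
    rw [cd.aligned, matHom_apply, hpl.unr i τ hτ, Units.val_one,
      Matrix.map_one _ (map_zero _) (map_one _)]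
  ext a b
  refine eq_of_forall_sub_mem_pow fun n => ?_
  obtain ⟨-, hΦ⟩ := decomp_image_root (hpl.isTame i) (hpl.ne i)
    ((detIsCyclotomic_iff cd.rep).mp hdet).1 F (Deform.repMat_matCont cd.rep) hI n
  have h := (hΦ (frob i) (hpl.isFrob i)).1
  simp only [MonoidHom.coe_comp, Function.comp_apply, RingHom.toMonoidHom_eq_coe,
    MonoidHom.coe_coe] at h
  have h' : (Ideal.Quotient.mk (maximalIdeal D.R ^ n)).mapMatrix (F (frob i) * F (tame i)) =
      (Ideal.Quotient.mk (maximalIdeal D.R ^ n)).mapMatrix (F (tame i) ^ (W i : ℕ) * F (frob i)) := by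
    rw [map_mul, map_mul, map_pow]; exact h
  exact Ideal.Quotient.eq.mp (congrFun (congrFun h' a) b)

variable {B : Type} [CommRing B] [IsLocalRing B] [Algebra 𝒪 B] (ι : D.R →ₐ[𝒪] B)
  (P P' : I → Matrix (Fin 2) (Fin 2) B)

theorem cframed_mul (hPP : ∀ i, P' i * P i = 1) (i : I) (g g' : GQ) :
    cframed ι P P' cd i (g * g') = cframed ι P P' cd i g * cframed ι P P' cd i g' := by
  rw [cframed, cframed, cframed, cd.rep.map_mul, Matrix.map_mul]
  simp only [mul_assoc]
  rw [← mul_assoc (P i) (P' i), mul_eq_one_comm.mp (hPP i), one_mul]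

theorem det_cframed (hPP : ∀ i, P' i * P i = 1) (i : I) (g : GQ) :
    (cframed ι P P' cd i g).det = ι (cd.R₀ g).det := by
  rw [cframed, det_mul, det_mul, mul_right_comm, ← det_mul, hPP, det_one, one_mul]
  exact (AlgHom.map_det ι (cd.R₀ g)).symm

theorem trace_cframed (hPP : ∀ i, P' i * P i = 1) (i : I) (g : GQ) :
    (cframed ι P P' cd i g).trace = ι (cd.R₀ g).trace := by
  rw [cframed, trace_mul_comm, ← mul_assoc, mul_eq_one_comm.mp (hPP i), one_mul, trace_fin_two,
    trace_fin_two, map_add]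
  rfl

theorem cframed_pow (hPP : ∀ i, P' i * P i = 1) (i : I) (g : GQ) (n : ℕ) :
    cframed ι P P' cd i (g ^ n) = cframed ι P P' cd i g ^ n := by
  induction n with
  | zero =>
    rw [pow_zero, pow_zero, cframed, cd.rep.map_one, Matrix.map_one _ (map_zero _) (map_one _),
      mul_one, hPP]
  | succ n ih => rw [pow_succ, pow_succ, cframed_mul ι P P' hPP, ih]

/-- the relations in the frame -/
theorem cframed_relations [IsHausdorff (maximalIdeal D.R) D.R] (hdet : D.ρ.DetIsCyclotomic p)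
    (hpl : CondPlaces p r W frob tame) (hPP : ∀ i, P' i * P i = 1) (i : I) :
    (cframed ι P P' cd i (frob i)).det = ((W i : ℕ) : B) ∧
    (cframed ι P P' cd i (tame i)).det = 1 ∧
    cframed ι P P' cd i (frob i) * cframed ι P P' cd i (tame i) =
      cframed ι P P' cd i (tame i) ^ (W i : ℕ) * cframed ι P P' cd i (frob i) := by
  refine ⟨?_, ?_, ?_⟩
  · rw [det_cframed ι P P' hPP, det_frob hdet hpl, map_natCast]
  · rw [det_cframed ι P P' hPP, det_tame hdet hpl, map_one]
  · rw [← cframed_mul ι P P' hPP, ← cframed_pow ι P P' hPP, ← cframed_mul ι P P' hPP, cframed, cframed,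
      cd.rep.map_mul, cd.rep.map_mul, frob_mul_tame hdet hpl]
    congr 3
    let F : GQ →* Matrix (Fin 2) (Fin 2) D.R :=
      { toFun := cd.R₀, map_one' := cd.rep.map_one, map_mul' := cd.rep.map_mul }
    exact congrArg (· * cd.R₀ (frob i)) (map_pow F (tame i) (W i : ℕ)).symm

end FLTAgent.MLT
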