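import Fermat.Agent.MLT.LocalRingsAlg

/-!
Area MLT, local rings at a place `q ≢ 1`: coordinates, the three smooth kinds, and the shape of a
point in a complete local domain.
-/

set_option autoImplicit false
set_option linter.style.haveILetI false
set_option linter.unusedSectionVars false

noncomputable section

namespace FLTAgent.MLT

open IsLocalRing Matrix

/-- the coordinates at the places `I` and further coordinates `S` -/
abbrev PlaceVar (I S : Type) : Type := (I × Fin 2 × Fin 2 × Fin 2) ⊕ S

/-- a place `q ≢ 1`: residual Frobenius is `diag (w q, w)`, the residual tame generator has upper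
entry `c0` -/
structure QPlace (O : Type) [CommRing O] : Type where
  /-- the residue characteristic -/
  q : ℕ
  /-- the sign -/
  w : O
  /-- the residual upper entry of the tame generator -/
  c0 : O
  hw : w * w = 1
  hqu : IsUnit (q : O)
  hq1 : IsUnit ((q : O) - 1)
  hq2 : (q : O) ^ 2 ≠ 1
  htwo : IsUnit (2 : O)

/-- the smooth components -/
inductive Kind : Type
  | unr
  | stUp
  | stDown
deriving DecidableEq

/-- Frobenius and tame generator when Frobenius is diagonal -/
structure DiagPair (R : Type) : Type where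
  /-- the upper eigenvalue -/
  a : R
  /-- the lower eigenvalue -/
  d : R
  /-- the tame generator -/
  T : Matrix (Fin 2) (Fin 2) R

namespace DiagPair

variable {R R' : Type} [CommRing R] [CommRing R']

/-- diagonal Frobenius -/
def frob (D : DiagPair R) : Matrix (Fin 2) (Fin 2) R := !![D.a, 0; 0, D.d]

/-- image under a homomorphism -/
def map (D : DiagPair R) (f : R →+* R') : DiagPair R' := ⟨f D.a, f D.d, D.T.map f⟩

theorem frob_map (D : DiagPair R) (f : R →+* R') : D.frob.map f = (D.map f).frob := by
  ext i j
  fin_cases i <;> fin_cases j <;> simp [frob, map]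

end DiagPair

/-- the validity of a kind at a place -/
def Kind.Valid {O : Type} [CommRing O] [IsLocalRing O] (P : QPlace O) : Kind → Prop
  | .unr => P.c0 ∈ maximalIdeal O
  | .stUp => True
  | .stDown => P.c0 ∈ maximalIdeal O ∧ (P.q : O) + 1 ∈ maximalIdeal O

variable {O : Type} [CommRing O]

namespace QPlace

variable (P : QPlace O) {R R' : Type} [CommRing R] [CommRing R'] (κ : O →+* R)

/-- the base Frobenius -/
def baseF : Matrix (Fin 2) (Fin 2) R := !![κ (P.w * P.q), 0; 0, κ P.w]

/-- the base tame generator -/
def baseT : Matrix (Fin 2) (Fin 2) R := !![1, κ P.c0; 0, 1]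

theorem map_baseF (f : R →+* R') : (P.baseF κ).map f = P.baseF (f.comp κ) := by
  ext i j
  fin_cases i <;> fin_cases j <;> simp [baseF]

theorem map_baseT (f : R →+* R') : (P.baseT κ).map f = P.baseT (f.comp κ) := by
  ext i j
  fin_cases i <;> fin_cases j <;> simp [baseT]

/-- the diagonal data of a kind with coordinate `x` -/
def kindPair (x : R) : Kind → DiagPair R
  | .unr => ⟨κ (P.w * P.q) + x, κ (P.q : O) * Ring.inverse (κ (P.w * P.q) + x), 1⟩
  | .stUp => ⟨κ (P.w * P.q), κ P.w, !![1, κ P.c0 + x; 0, 1]⟩
  | .stDown => ⟨-κ P.w, -κ (P.w * P.q), !![1, 0; x, 1]⟩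

/-- the values of the coordinates -/
def placeVal (u v : R) (D : DiagPair R) : Fin 2 × Fin 2 × Fin 2 → R := fun p =>
  if p.1 = 0 then (frameConj u v (Ring.inverse (1 - u * v)) D.frob - P.baseF κ) p.2.1 p.2.2
  else (frameConj u v (Ring.inverse (1 - u * v)) D.T - P.baseT κ) p.2.1 p.2.2

theorem isUnit_wq : IsUnit (P.w * (P.q : O)) := (IsUnit.of_mul_eq_one _ P.hw).mul P.hqu

section Local

variable [IsLocalRing R]

theorem isUnit_of_sub_mem {x y : R} (hy : IsUnit y) (h : x - y ∈ maximalIdeal R) : IsUnit x := by
  by_contra hx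
  have : y ∈ maximalIdeal R := by
    simpa using sub_mem ((IsLocalRing.mem_maximalIdeal x).2 hx) h
  exact (IsLocalRing.mem_maximalIdeal y).1 this hy

theorem isUnit_one_sub_mul {u v : R} (hu : u ∈ maximalIdeal R) : IsUnit (1 - u * v) :=
  IsUnit.of_not_mem_maximal fun h => by
    have h1 : (1 : R) ∈ maximalIdeal R := by
      simpa using add_mem h (Ideal.mul_mem_right v _ hu)
    exact (IsLocalRing.mem_maximalIdeal _).1 h1 isUnit_one
where
  IsUnit.of_not_mem_maximal {x : R} (h : x ∉ maximalIdeal R) : IsUnit x := by
    rwa [IsLocalRing.mem_maximalIdeal, mem_nonunits_iff, not_not] at h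

theorem inv_spec {u v : R} (hu : u ∈ maximalIdeal R) :
    (1 - u * v) * Ring.inverse (1 - u * v) = 1 :=
  Ring.mul_inverse_cancel _ (isUnit_one_sub_mul hu)

theorem residue_frameConj {u v e : R} (hu : u ∈ maximalIdeal R) (hv : v ∈ maximalIdeal R)
    (he : (1 - u * v) * e = 1) (A : Matrix (Fin 2) (Fin 2) R) :
    (frameConj u v e A).map (residue R) = A.map (residue R) := by
  have hu' : residue R u = 0 := (residue_eq_zero_iff u).2 hu
  have hv' : residue R v = 0 := (residue_eq_zero_iff v).2 hv
  have he' : residue R e = 1 := by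
    have h := congrArg (residue R) he
    simpa [hu', hv'] using h
  rw [map_frameConj, hu', hv', he', frameConj]
  have h1 : frameP (0 : ResidueField R) 0 = 1 := by
    ext i j
    fin_cases i <;> fin_cases j <;> simp [frameP]
  have h2 : framePi (0 : ResidueField R) 0 1 = 1 := by
    ext i j
    fin_cases i <;> fin_cases j <;> simp [framePi]
  rw [h1, h2, Matrix.one_mul, Matrix.mul_one]

theorem placeVal_mem {u v : R} (hu : u ∈ maximalIdeal R) (hv : v ∈ maximalIdeal R)
    {D : DiagPair R} (ha : D.a - κ (P.w * P.q) ∈ maximalIdeal R)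
    (hd : D.d - κ P.w ∈ maximalIdeal R)
    (hT : ∀ i j, (D.T - P.baseT κ) i j ∈ maximalIdeal R) (p : Fin 2 × Fin 2 × Fin 2) :
    P.placeVal κ u v D p ∈ maximalIdeal R := by
  have key : ∀ A B : Matrix (Fin 2) (Fin 2) R, (∀ i j, (A - B) i j ∈ maximalIdeal R) →
      ∀ i j, (frameConj u v (Ring.inverse (1 - u * v)) A - B) i j ∈ maximalIdeal R := by
    intro A B h i j
    have h1 := congrFun (congrFun (residue_frameConj hu hv (inv_spec hu) A) i) j
    simp only [Matrix.map_apply] at h1
    rw [← residue_eq_zero_iff, Matrix.sub_apply, map_sub, h1, ← map_sub, residue_eq_zero_iff]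
    exact h i j
  simp only [placeVal]
  split
  · refine key _ _ ?_ _ _
    intro i j
    fin_cases i <;> fin_cases j <;>
      simp only [DiagPair.frob, baseF, Fin.zero_eta, Fin.mk_one, Fin.isValue, Matrix.sub_apply,
        Matrix.of_apply, Matrix.cons_val', Matrix.cons_val_zero, Matrix.cons_val_one,
        Matrix.cons_val_fin_one, sub_self]
    · exact ha
    · exact zero_mem _
    · exact zero_mem _
    · exact hd
  · exact key _ _ hT _ _

theorem kindPair_mem [IsLocalRing O] {τ : Kind} (hτ : τ.Valid P)
    (hκ : ∀ c ∈ maximalIdeal O, κ c ∈ maximalIdeal R) {x : R} (hx : x ∈ maximalIdeal R) :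
    (P.kindPair κ x τ).a - κ (P.w * P.q) ∈ maximalIdeal R ∧
      (P.kindPair κ x τ).d - κ P.w ∈ maximalIdeal R ∧
      ∀ i j, ((P.kindPair κ x τ).T - P.baseT κ) i j ∈ maximalIdeal R := by
  cases τ
  · have hA : IsUnit (κ (P.w * P.q) + x) :=
      isUnit_of_sub_mem (P.isUnit_wq.map κ) (by simpa using hx)
    refine ⟨by simpa [kindPair] using hx, ?_, ?_⟩
    · have e : κ (P.q : O) * Ring.inverse (κ (P.w * P.q) + x) - κ P.w =
          -(κ P.w * Ring.inverse (κ (P.w * P.q) + x)) * x := by
        have h1 := Ring.mul_inverse_cancel _ hA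
        have h2 : κ P.w * κ P.w = 1 := by rw [← map_mul, P.hw, map_one]
        rw [map_mul] at h1 ⊢
        linear_combination κ P.w * h1 -
          κ (P.q : O) * Ring.inverse (κ P.w * κ (P.q : O) + x) * h2
      simp only [kindPair]
      rw [e]
      exact Ideal.mul_mem_left _ _ hx
    · intro i j
      fin_cases i <;> fin_cases j <;>
        simp only [kindPair, baseT, Fin.zero_eta, Fin.mk_one, Fin.isValue, Matrix.sub_apply,
          Matrix.of_apply, Matrix.cons_val', Matrix.cons_val_zero, Matrix.cons_val_one,
          Matrix.cons_val_fin_one, Matrix.one_apply_eq, ne_eq, zero_ne_one, one_ne_zero,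
          not_false_eq_true, Matrix.one_apply_ne, sub_self, zero_sub]
      · exact zero_mem _
      · exact neg_mem (hκ _ hτ)
      · exact zero_mem _
      · exact zero_mem _
  · refine ⟨by simp [kindPair], by simp [kindPair], ?_⟩
    intro i j
    fin_cases i <;> fin_cases j <;>
      simp only [kindPair, baseT, Fin.zero_eta, Fin.mk_one, Fin.isValue, Matrix.sub_apply,
        Matrix.of_apply, Matrix.cons_val', Matrix.cons_val_zero, Matrix.cons_val_one,
        Matrix.cons_val_fin_one, sub_self, add_sub_cancel_left] <;>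
      first | exact zero_mem _ | exact hx
  · obtain ⟨hc, hq⟩ := hτ
    have h1 := hκ _ (Ideal.mul_mem_left _ P.w hq)
    refine ⟨?_, ?_, ?_⟩
    · convert neg_mem h1 using 1
      simp only [kindPair, map_mul, map_add, map_one]
      ring
    · convert neg_mem h1 using 1
      simp only [kindPair, map_mul, map_add, map_one]
      ring
    · intro i j
      fin_cases i <;> fin_cases j <;>
        simp only [kindPair, baseT, Fin.zero_eta, Fin.mk_one, Fin.isValue, Matrix.sub_apply,
          Matrix.of_apply, Matrix.cons_val', Matrix.cons_val_zero, Matrix.cons_val_one,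
          Matrix.cons_val_fin_one, sub_self, zero_sub, sub_zero] <;>
        first | exact zero_mem _ | exact hx | exact neg_mem (hκ _ hc)

end Local

/-! ### The shape of a point -/

section Point

variable {E : Type} [CommRing E] [IsLocalRing E] [IsAdicComplete (maximalIdeal E) E]
  (η : O →+* E)

/-- the hypotheses on a point -/
structure IsPointPair (F S : Matrix (Fin 2) (Fin 2) E) : Prop where
  detF : F.det = η (P.q : O)
  detS : S.det = 1
  rel : F * S = S ^ P.q * F
  devF : ∀ i j, (F - P.baseF η) i j ∈ maximalIdeal E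
  devS : ∀ i j, (S - P.baseT η) i j ∈ maximalIdeal E

variable {P η}

/-- a point in a frame diagonalising Frobenius -/
theorem IsPointPair.exists_diag {F S : Matrix (Fin 2) (Fin 2) E} (h : P.IsPointPair η F S) :
    ∃ (u v : E) (D : DiagPair E), u ∈ maximalIdeal E ∧ v ∈ maximalIdeal E ∧
      F = frameConj u v (Ring.inverse (1 - u * v)) D.frob ∧
      S = frameConj u v (Ring.inverse (1 - u * v)) D.T ∧
      D.a - η (P.w * P.q) ∈ maximalIdeal E ∧ D.d - η P.w ∈ maximalIdeal E ∧
      (∀ i j, (D.T - P.baseT η) i j ∈ maximalIdeal E) ∧ D.a * D.d = η (P.q : O) ∧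
      D.a + D.d = F.trace ∧ D.T.det = 1 ∧ D.T.trace = S.trace ∧
      D.frob * D.T = D.T ^ P.q * D.frob := by
  set b0 := η (P.w * P.q)
  set b1 := η P.w
  have hb : b0 * b1 = η (P.q : O) := by
    rw [← map_mul]
    congr 1
    linear_combination (P.q : O) * P.hw
  have hgap : IsUnit (b0 - b1) := by
    rw [show b0 - b1 = η (P.w * ((P.q : O) - 1)) by rw [← map_sub]; congr 1; ring]
    exact ((IsUnit.of_mul_eq_one _ P.hw).mul P.hq1).map η
  have h00 : F 0 0 - b0 ∈ maximalIdeal E := by simpa [QPlace.baseF, b0, -IsLocalRing.mem_maximalIdeal] using h.devF 0 0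
  have h11 : F 1 1 - b1 ∈ maximalIdeal E := by simpa [QPlace.baseF, b1, -IsLocalRing.mem_maximalIdeal] using h.devF 1 1
  have h01 : F 0 1 ∈ maximalIdeal E := by simpa [QPlace.baseF] using h.devF 0 1
  have h10 : F 1 0 ∈ maximalIdeal E := by simpa [QPlace.baseF] using h.devF 1 0
  set t := F.trace with ht
  have htb : t - (b0 + b1) ∈ maximalIdeal E := by
    rw [ht, Matrix.trace_fin_two]
    convert add_mem h00 h11 using 1
    ring
  -- Hensel for the eigenvalue
  obtain ⟨a, haroot, ha⟩ := HenselianRing.is_henselian (I := maximalIdeal E)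
    (Polynomial.X ^ 2 + (-Polynomial.C t * Polynomial.X + Polynomial.C (η (P.q : O))))
    (Polynomial.monic_X_pow_add (by
      refine lt_of_le_of_lt (Polynomial.degree_linear_le (a := -t) (b := η (P.q : O)) |>.trans_eq'
        (by simp [neg_mul])) ?_
      exact_mod_cast one_lt_two)) b0
    (by
      have e : Polynomial.eval b0 (Polynomial.X ^ 2 +
          (-Polynomial.C t * Polynomial.X + Polynomial.C (η (P.q : O)))) =
          -(b0 * (t - (b0 + b1))) := by
        simp only [Polynomial.eval_add, Polynomial.eval_pow, Polynomial.eval_X, Polynomial.eval_mul,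
          Polynomial.eval_neg, Polynomial.eval_C]
        linear_combination -hb
      rw [e]
      exact neg_mem (Ideal.mul_mem_left _ _ htb))
    (by
      have e : Polynomial.eval b0 (Polynomial.derivative (Polynomial.X ^ 2 +
          (-Polynomial.C t * Polynomial.X + Polynomial.C (η (P.q : O))))) =
          (b0 - b1) - (t - (b0 + b1)) := by
        simp
        ring
      rw [e]
      refine (isUnit_of_sub_mem hgap ?_).map _
      simpa using neg_mem htb)
  have hroot : a * a - t * a + η (P.q : O) = 0 := by
    have := haroot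
    simp [Polynomial.IsRoot] at this
    rw [map_natCast]
    linear_combination this
  set d := t - a with hd_def
  have hd : d - b1 ∈ maximalIdeal E := by
    convert sub_mem htb ha using 1
    ring
  have had : a * d = η (P.q : O) := by rw [hd_def]; linear_combination -hroot
  obtain ⟨u, v, hu, hv, hFP⟩ := exists_frame (F := F) (a := a) (d := d) (I := maximalIdeal E)
    (by rw [hd_def]; ring) (by rw [had, h.detF])
    (isUnit_of_sub_mem hgap.neg (by
      convert sub_mem hd h00 using 1
      ring))
    (isUnit_of_sub_mem hgap (by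
      convert sub_mem ha h11 using 1
      ring))
    h01 h10
  have he := inv_spec (v := v) hu
  set e := Ring.inverse (1 - u * v)
  have hF := frameBack_eq he hFP
  have hS : S = frameConj u v e (frameBack u v e S) := (frameConj_frameBack he S).symm
  set T := frameBack u v e S
  refine ⟨u, v, ⟨a, d, T⟩, hu, hv, hF, hS, ha, hd, ?_, had, by rw [hd_def]; ring, ?_, ?_, ?_⟩
  · intro i j
    have h1 := congrFun (congrFun (residue_frameConj hu hv he T) i) j
    rw [← hS] at h1
    simp only [Matrix.map_apply] at h1
    rw [← residue_eq_zero_iff, Matrix.sub_apply, map_sub, ← h1, ← map_sub, residue_eq_zero_iff]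
    exact h.devS i j
  · rw [← frameConj_det he T, ← hS, h.detS]
  · rw [hS, frameConj_trace he]
  · refine frameConj_inj he ?_
    rw [frameConj_mul he, frameConj_mul he, frameConj_pow he]
    show frameConj u v e !![a, 0; 0, d] * frameConj u v e T = _ * frameConj u v e !![a, 0; 0, d]
    rw [← hF, ← hS]
    exact h.rel

end Point

end QPlace

end FLTAgent.MLT
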