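import Fermat.Agent.LL.FrameGenerators
import Fermat.Agent.MLT.CondTangent
import Fermat.Agent.MLT.LocalRingsPlace

/-!
Area MLT, parcel COND: the local coordinates and `t + (k - 1)` further elements generate a framed
deformation algebra; a generator in the kernel of a quotient with fewer generators.
-/

set_option autoImplicit false
set_option linter.unusedSectionVars false
set_option linter.style.haveILetI false

noncomputable section

open CategoryTheory Matrix IsLocalRing FLTAgent.PT FLTAgent.PT.TW FLTAgent.LL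

namespace FLTAgent.MLT

variable {p : ℕ} [Fact p.Prime] {𝒪 : Type} [CommRing 𝒪] [IsDomain 𝒪] [IsDiscreteValuationRing 𝒪]
  [IsAdicComplete (maximalIdeal 𝒪) 𝒪] [Finite (ResidueField 𝒪)]
  {B : Type} [CommRing B] [IsLocalRing B] [Algebra 𝒪 B] [Finite B]
  [IsLocalHom (algebraMap 𝒪 B)] {k : ℕ}

theorem exists_series_of_le {V : Type} [Fintype V]
    (hres : Function.Surjective (residue B ∘ algebraMap 𝒪 B)) (y : V → B)
    (hy : ∀ i, y i ∈ maximalIdeal B)
    (hmI : maximalIdeal B ≤ Ideal.span (Set.range y) ⊔ (maximalIdeal 𝒪).map (algebraMap 𝒪 B) ⊔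
      maximalIdeal B ^ 2) :
    ∃ γ : MvPowerSeries V 𝒪 →ₐ[𝒪] B, Function.Surjective γ ∧
      ∀ i, γ (MvPowerSeries.X i) = y i := by
  classical
  let e := Fintype.equivFin V
  obtain ⟨γ₀, hγ₀, hγ₀X⟩ := PT.TW.exists_surjective_mvPowerSeries_eval (𝒪 := 𝒪)
    (fun l => y (e.symm l)) (fun l => hy _) (fun z hz => by
      obtain ⟨z₁, hz₁, w₂, hw₂, hzw⟩ := Submodule.mem_sup.mp (hmI hz)
      obtain ⟨u, hu, v, hv, huv⟩ := Submodule.mem_sup.mp hz₁
      obtain ⟨c, hc⟩ := (Submodule.mem_span_range_iff_exists_fun B).mp hu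
      obtain ⟨a, ha, hva⟩ : ∃ a ∈ maximalIdeal 𝒪, v - algebraMap 𝒪 B a ∈ maximalIdeal B ^ 2 := by
        clear huv
        induction hv using Submodule.span_induction with
        | mem x hx => obtain ⟨a, ha, rfl⟩ := hx; exact ⟨a, ha, by simp⟩
        | zero => exact ⟨0, zero_mem _, by simp⟩
        | add x y _ _ hx hy =>
          obtain ⟨a, ha, hxa⟩ := hx
          obtain ⟨a', ha', hya⟩ := hy
          refine ⟨a + a', add_mem ha ha', ?_⟩
          rw [map_add, add_sub_add_comm]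
          exact add_mem hxa hya
        | smul c x _ hx =>
          obtain ⟨a, ha, hxa⟩ := hx
          obtain ⟨c₀, hc₀⟩ := hres (residue B c)
          refine ⟨c₀ * a, Ideal.mul_mem_left _ _ ha, ?_⟩
          have hcm : c - algebraMap 𝒪 B c₀ ∈ maximalIdeal B := by
            rw [← residue_eq_zero_iff, map_sub, sub_eq_zero]; exact hc₀.symm
          rw [smul_eq_mul, map_mul, show c * x - algebraMap 𝒪 B c₀ * algebraMap 𝒪 B a =
            c * (x - algebraMap 𝒪 B a) + (c - algebraMap 𝒪 B c₀) * algebraMap 𝒪 B a by ring]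
          refine add_mem (Ideal.mul_mem_left _ _ hxa) ?_
          rw [sq]
          exact Ideal.mul_mem_mul hcm (map_nonunit _ _ ha)
      choose c₀ hc₀ using fun i => hres (residue B (c i))
      refine ⟨a, ha, fun l => c₀ (e.symm l), ?_⟩
      rw [e.symm.sum_comp fun i => algebraMap 𝒪 B (c₀ i) * y i,
        show z - (algebraMap 𝒪 B a + ∑ i, algebraMap 𝒪 B (c₀ i) * y i) =
          w₂ + (v - algebraMap 𝒪 B a) + ∑ i, (c i - algebraMap 𝒪 B (c₀ i)) * y i by
          rw [← hzw, ← huv, ← hc]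
          simp only [smul_eq_mul, sub_mul, Finset.sum_sub_distrib]
          abel]
      refine add_mem (add_mem hw₂ hva) (Ideal.sum_mem _ fun i _ => ?_)
      rw [sq]
      refine Ideal.mul_mem_mul ?_ (hy i)
      rw [← residue_eq_zero_iff, map_sub, sub_eq_zero]
      exact (hc₀ i).symm) hres
  refine ⟨γ₀.comp (MvPowerSeries.renameEquiv 𝒪 e).toAlgHom,
    hγ₀.comp (MvPowerSeries.renameEquiv 𝒪 e).surjective, fun i => ?_⟩
  show γ₀ (MvPowerSeries.rename e (MvPowerSeries.X i)) = y i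
  rw [MvPowerSeries.rename_X, hγ₀X, Equiv.symm_apply_apply]

theorem mem_maximalIdeal_of_series {V : Type} {B : Type} [CommRing B] [IsLocalRing B] [Algebra 𝒪 B]
    {γ : MvPowerSeries V 𝒪 →ₐ[𝒪] B} (hγ : Function.Surjective γ) (i : V) :
    γ (MvPowerSeries.X i) ∈ maximalIdeal B := by
  haveI : IsLocalHom (γ : MvPowerSeries V 𝒪 →+* B) := IsLocalHom.of_surjective _ hγ
  refine (mem_maximalIdeal _).mpr fun hu => ?_
  exact X_mem_maximalIdeal i (isUnit_of_map_unit (γ : MvPowerSeries V 𝒪 →+* B) _ hu)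

theorem maximalIdeal_le_of_series {V : Type} [Finite V] {B : Type} [CommRing B] [IsLocalRing B]
    [Algebra 𝒪 B] {γ : MvPowerSeries V 𝒪 →ₐ[𝒪] B} (hγ : Function.Surjective γ) :
    maximalIdeal B ≤ Ideal.span (Set.range fun i => γ (MvPowerSeries.X i)) ⊔
      (maximalIdeal 𝒪).map (algebraMap 𝒪 B) := by
  haveI : IsLocalHom (γ : MvPowerSeries V 𝒪 →+* B) := IsLocalHom.of_surjective _ hγ
  obtain ⟨ϖ, hϖ⟩ := IsDiscreteValuationRing.exists_irreducible 𝒪
  intro z hz
  obtain ⟨F, rfl⟩ := hγ z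
  have hFm : F ∈ maximalIdeal (MvPowerSeries V 𝒪) := (mem_maximalIdeal _).mpr fun hu =>
    (mem_maximalIdeal _).mp hz (hu.map γ)
  refine (maximalIdeal_le_of_mem (Q := (Ideal.span (Set.range fun i => γ (MvPowerSeries.X i)) ⊔
    (maximalIdeal 𝒪).map (algebraMap 𝒪 B)).comap (γ : MvPowerSeries V 𝒪 →+* B)) hϖ ?_ fun a => ?_)
    hFm
  · have e : γ (MvPowerSeries.C ϖ) = algebraMap 𝒪 B ϖ := γ.commutes ϖ
    rw [Ideal.mem_comap, RingHom.coe_coe, e]
    exact Ideal.mem_sup_right (Ideal.mem_map_of_mem _ ((mem_maximalIdeal _).mpr hϖ.not_isUnit))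
  · exact Ideal.mem_sup_left (Ideal.subset_span ⟨a, rfl⟩)


/-- with fewer generators on a quotient, one generator can be chosen in the kernel -/
theorem exists_generators_kill {g g' : ℕ} (hgg : g' < g) {B' : Type} [CommRing B'] [IsLocalRing B']
    [Algebra 𝒪 B'] (hres : Function.Surjective (residue B ∘ algebraMap 𝒪 B))
    (π : B →ₐ[𝒪] B') (hπ : Function.Surjective π)
    {γ : MvPowerSeries (PlaceVar (Fin k) (Fin g)) 𝒪 →ₐ[𝒪] B} (hγ : Function.Surjective γ)
    {γ' : MvPowerSeries (PlaceVar (Fin k) (Fin g')) 𝒪 →ₐ[𝒪] B'} (hγ' : Function.Surjective γ')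
    (hx : ∀ c, γ' (MvPowerSeries.X (Sum.inl c)) = π (γ (MvPowerSeries.X (Sum.inl c)))) :
    ∃ (t0 : Fin g) (γ'' : MvPowerSeries (PlaceVar (Fin k) (Fin g)) 𝒪 →ₐ[𝒪] B),
      Function.Surjective γ'' ∧
      (∀ c, γ'' (MvPowerSeries.X (Sum.inl c)) = γ (MvPowerSeries.X (Sum.inl c))) ∧
      π (γ'' (MvPowerSeries.X (Sum.inr t0))) = 0 := by
  classical
  haveI : IsLocalHom (π : B →+* B') := IsLocalHom.of_surjective _ hπ
  set y : PlaceVar (Fin k) (Fin g) → B := fun a => γ (MvPowerSeries.X a)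
  set z : PlaceVar (Fin k) (Fin g') → B' := fun a => γ' (MvPowerSeries.X a)
  have hy : ∀ a, y a ∈ maximalIdeal B := mem_maximalIdeal_of_series hγ
  have hz : ∀ a, z a ∈ maximalIdeal B' := mem_maximalIdeal_of_series hγ'
  set J : Ideal B := Ideal.span (Set.range fun c => y (Sum.inl c)) ⊔
    (maximalIdeal 𝒪).map (algebraMap 𝒪 B)
  set I₂ : Ideal B := J ⊔ maximalIdeal B ^ 2
  have hJ' : Ideal.span (Set.range fun c => z (Sum.inl c)) ⊔
      (maximalIdeal 𝒪).map (algebraMap 𝒪 B') ≤ J.map (π : B →+* B') := by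
    refine sup_le (Ideal.span_le.mpr ?_) ?_
    · rintro _ ⟨c, rfl⟩
      show γ' _ ∈ J.map (π : B →+* B')
      rw [hx c]
      exact Ideal.mem_map_of_mem (π : B →+* B') (Ideal.mem_sup_left (Ideal.subset_span ⟨c, rfl⟩))
    · refine le_trans (le_of_eq ?_) (Ideal.map_mono le_sup_right)
      rw [Ideal.map_map, show (π : B →+* B').comp (algebraMap 𝒪 B) = algebraMap 𝒪 B' from
        π.comp_algebraMap]
  have hdec : ∀ i : Fin g, ∃ c : Fin g' → B', π (y (Sum.inr i)) - ∑ j, c j * z (Sum.inr j) ∈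
      J.map (π : B →+* B') := by
    intro i
    have hm : π (y (Sum.inr i)) ∈ maximalIdeal B' := map_nonunit (π : B →+* B') _ (hy _)
    obtain ⟨u, hu, v, hv, huv⟩ := Submodule.mem_sup.mp (maximalIdeal_le_of_series hγ' hm)
    obtain ⟨c, hc⟩ := (Submodule.mem_span_range_iff_exists_fun B').mp hu
    refine ⟨fun j => c (Sum.inr j), ?_⟩
    rw [← huv, ← hc, Fintype.sum_sum_type]
    simp only [smul_eq_mul]
    rw [show ∀ a b d : B', a + b + d - b = a + d from fun a b d => by ring]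
    refine add_mem (Ideal.sum_mem _ fun j _ => ?_) (hJ' (Ideal.mem_sup_right hv))
    exact Ideal.mul_mem_left _ _ (hJ' (Ideal.mem_sup_left (Ideal.subset_span ⟨j, rfl⟩)))
  choose c hc using hdec
  have hdep : ¬ LinearIndependent (ResidueField B') fun i j => residue B' (c i j) := fun hli => by
    have := hli.fintype_card_le_finrank
    simp only [Fintype.card_fin, Module.finrank_fintype_fun_eq_card] at this
    omega
  obtain ⟨a, ha, t0, ht0⟩ := Fintype.not_linearIndependent_iff.mp hdep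
  choose A' hA' using fun i => residue_surjective (a i)
  choose A hA using fun i => hπ (A' i)
  have hAt0 : IsUnit (A t0) := by
    refine isUnit_of_map_unit (π : B →+* B') _ ?_
    show IsUnit (π (A t0))
    rw [hA, ← residue_ne_zero_iff_isUnit, hA']
    exact ht0
  have hmem : π (∑ i, A i * y (Sum.inr i)) ∈ I₂.map (π : B →+* B') := by
    rw [map_sum, show (∑ i, π (A i * y (Sum.inr i))) = ∑ i, A' i * (π (y (Sum.inr i)) -
        ∑ j, c i j * z (Sum.inr j)) + ∑ j, (∑ i, A' i * c i j) * z (Sum.inr j) by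
      simp only [map_mul, hA, mul_sub, Finset.sum_sub_distrib, Finset.mul_sum, Finset.sum_mul,
        ← mul_assoc]
      rw [Finset.sum_comm, sub_add_cancel]]
    refine add_mem (Ideal.sum_mem _ fun i _ => Ideal.mul_mem_left _ _
      (Ideal.map_mono le_sup_left (hc i))) (Ideal.map_mono le_sup_right ?_)
    have e2 : maximalIdeal B' ^ 2 ≤ (maximalIdeal B ^ 2).map (π : B →+* B') := by
      rw [Ideal.map_pow]
      refine Ideal.pow_right_mono (fun w hw => ?_) 2
      obtain ⟨w, rfl⟩ := hπ w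
      refine Ideal.mem_map_of_mem (π : B →+* B') ((mem_maximalIdeal _).mpr fun hu => ?_)
      exact (mem_maximalIdeal _).mp hw (hu.map π)
    refine e2 (Ideal.sum_mem _ fun j _ => ?_)
    rw [sq]
    refine Ideal.mul_mem_mul ?_ (hz _)
    rw [← residue_eq_zero_iff, map_sum]
    have := congrFun ha j
    simpa [hA'] using this
  obtain ⟨w, hw, hwe⟩ := (Ideal.mem_map_iff_of_surjective (π : B →+* B') hπ).mp hmem
  set y0 : B := (∑ i, A i * y (Sum.inr i)) - w
  let Y := Function.update y (Sum.inr t0) y0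
  have hI₂m : I₂ ≤ maximalIdeal B := by
    refine sup_le (sup_le (Ideal.span_le.mpr ?_) ?_) (Ideal.pow_le_self two_ne_zero)
    · rintro _ ⟨c, rfl⟩; exact hy _
    · refine Ideal.map_le_iff_le_comap.mpr fun o ho => (mem_maximalIdeal _).mpr fun hu => ?_
      exact (mem_maximalIdeal _).mp ho (isUnit_of_map_unit (algebraMap 𝒪 B) _ hu)
  have hy0 : y0 ∈ maximalIdeal B :=
    sub_mem (Ideal.sum_mem _ fun i _ => Ideal.mul_mem_left _ _ (hy _)) (hI₂m hw)
  have hY : ∀ a, Y a ∈ maximalIdeal B := fun a => by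
    simp only [Y, Function.update_apply]
    split
    exacts [hy0, hy a]
  set T : Ideal B := Ideal.span (Set.range Y) ⊔ (maximalIdeal 𝒪).map (algebraMap 𝒪 B) ⊔
    maximalIdeal B ^ 2
  have hspan : ∀ b, Y b ∈ T := fun b =>
    Ideal.mem_sup_left (Ideal.mem_sup_left (Ideal.subset_span ⟨b, rfl⟩))
  have hYne : ∀ b, b ≠ Sum.inr t0 → Y b = y b := fun b hb => Function.update_of_ne hb _ _
  have hI₂T : I₂ ≤ T := by
    refine sup_le (sup_le (Ideal.span_le.mpr ?_) (le_sup_of_le_left le_sup_right)) le_sup_right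
    rintro _ ⟨c, rfl⟩
    show y (Sum.inl c) ∈ T
    rw [← hYne _ Sum.inl_ne_inr]
    exact hspan _
  have hoth : ∀ b, y b ∈ T := by
    intro b
    by_cases hb : b = Sum.inr t0
    · subst hb
      obtain ⟨u, hu⟩ := hAt0
      have hs : (u : B) * y (Sum.inr t0) ∈ T := by
        have e : (u : B) * y (Sum.inr t0) =
            y0 + w - ∑ i ∈ Finset.univ.erase t0, A i * y (Sum.inr i) := by
          rw [sub_add_cancel, eq_sub_iff_add_eq, hu, Finset.add_sum_erase _ (fun i => A i * y (Sum.inr i)) (Finset.mem_univ t0)]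
        rw [e]
        refine sub_mem (add_mem ?_ (hI₂T hw)) (Ideal.sum_mem _ fun i hi => Ideal.mul_mem_left _ _ ?_)
        · have := hspan (Sum.inr t0)
          rwa [show Y (Sum.inr t0) = y0 from Function.update_self _ _ _] at this
        · rw [← hYne _ (Sum.inr_injective.ne (Finset.ne_of_mem_erase hi))]
          exact hspan _
      have := Ideal.mul_mem_left T (↑u⁻¹ : B) hs
      rwa [← mul_assoc, Units.inv_mul, one_mul] at this
    · rw [← hYne _ hb]
      exact hspan _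
  obtain ⟨γ'', hγ'', hX⟩ := exists_series_of_le (𝒪 := 𝒪) hres Y hY
    ((maximalIdeal_le_of_series hγ).trans (sup_le (Ideal.span_le.mpr (by
      rintro _ ⟨b, rfl⟩; exact hoth b)) (le_sup_of_le_left le_sup_right)))
  refine ⟨t0, γ'', hγ'', fun c => (hX _).trans (hYne _ Sum.inl_ne_inr), ?_⟩
  rw [hX, show Y (Sum.inr t0) = y0 from Function.update_self _ _ _, map_sub, sub_eq_zero]
  exact hwe.symm

variable [Algebra (ZMod p) (ResidueField 𝒪)] {ρbar : ResidualGaloisRep (ResidueField 𝒪)}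
  {r : GQ →* GL (Fin 2) (ResidueField 𝒪)} {Smin : Finset ℕ} {s t : ℕ}
  {D : RepData ρbar} {cd : TW.Coord D r} {W : Fin k → Nat.Primes}
  {Q : Fin s → Nat.Primes} {frob tame : Fin k → GQ}
  {Lp : Submodule (ZMod p) (lH1 (ExtCitation.pPrime p) (ad0 p r))}
  (ι : D.R →ₐ[𝒪] B)
  (P P' : Fin k → Matrix (Fin 2) (Fin 2) B)
  [Algebra 𝒪 (DualNumber (ResidueField 𝒪))]
  (h1 : ∀ a, algebraMap 𝒪 (DualNumber (ResidueField 𝒪)) a = TrivSqZeroExt.inl (residue 𝒪 a))

include h1

/-- coordinates and `t + (k - 1)` further variables surject onto the framed algebra -/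
theorem exists_cond_generators (h : Setting p ρbar r) (hpSmin : p ∈ Smin)
    (hmin : ∀ q : ℕ, q.Prime → q ≠ p → (q ∈ Smin ↔ ¬ ρbar.IsUnramifiedAt q))
    (hWmin : ∀ i, (W i : ℕ) ∉ Smin) (hG : CondLift (p := p) Smin cd W Q Lp ι)
    (hpl : CondPlaces p r W frob tame) (hB : CondBound p r Smin W Q Lp t)
    (hres : Function.Surjective (residue B ∘ algebraMap 𝒪 B))
    (hPP : ∀ i, P' i * P i = 1)
    (hnorm : ∀ i : Fin k, (i : ℕ) = 0 → ∃ a b, ∃ c : 𝒪, IsUnit c ∧ P i a b = algebraMap 𝒪 B c)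
    (hgen : ∀ φ φ' : B →ₐ[𝒪] DualNumber (ResidueField 𝒪), φ.comp ι = φ'.comp ι →
      (∀ i, (P i).map φ = (P i).map φ') → φ = φ')
    (x : Fin k × Fin 2 × Fin 2 × Fin 2 → B) (hx : ∀ c, x c ∈ maximalIdeal B)
    (hcoord : ∀ i (t a b : Fin 2), ∃ a0 u : 𝒪,
      cframed ι P P' cd i (if t = 0 then frob i else tame i) a b =
        algebraMap 𝒪 B a0 + algebraMap 𝒪 B u * x (i, t, a, b)) :
    ∃ γ : MvPowerSeries (PlaceVar (Fin k) (Fin (t + (k - 1)))) 𝒪 →ₐ[𝒪] B, Function.Surjective γ ∧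
      ∀ c, γ (MvPowerSeries.X (Sum.inl c)) = x c := by
  classical
  set J := Ideal.span (Set.range x)
  have hJ : J ≤ maximalIdeal B := Ideal.span_le.mpr (by rintro _ ⟨c, rfl⟩; exact hx c)
  haveI : Nontrivial (B ⧸ J) := Ideal.Quotient.nontrivial_iff.mpr fun e =>
    (maximalIdeal.isMaximal B).ne_top (top_le_iff.mp (e ▸ hJ))
  haveI : IsLocalRing (B ⧸ J) :=
    IsLocalRing.of_surjective' (Ideal.Quotient.mk J) Ideal.Quotient.mk_surjective
  haveI : IsLocalHom (Ideal.Quotient.mk J) :=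
    IsLocalHom.of_surjective _ Ideal.Quotient.mk_surjective
  haveI : IsLocalHom (algebraMap 𝒪 (B ⧸ J)) :=
    inferInstanceAs (IsLocalHom ((Ideal.Quotient.mk J).comp (algebraMap 𝒪 B)))
  have hresJ : Function.Surjective (residue (B ⧸ J) ∘ algebraMap 𝒪 (B ⧸ J)) := by
    intro y
    obtain ⟨y, rfl⟩ := residue_surjective y
    obtain ⟨y, rfl⟩ := Ideal.Quotient.mk_surjective y
    obtain ⟨a, ha⟩ := hres (residue B y)
    refine ⟨a, ?_⟩
    have e := congrArg (ResidueField.map (Ideal.Quotient.mk J)) ha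
    simp only [Function.comp_apply, ResidueField.map_residue] at e
    exact e
  obtain ⟨hfin, hcard⟩ := card_condHom_le (Q := Q) ι P P' h1 h hpSmin hmin hWmin hG hpl hB hres hPP
    hnorm hgen (frob := frob) (tame := tame)
  let j : (B ⧸ J →ₐ[𝒪] DualNumber (ResidueField 𝒪)) → CondHom cd frob tame ι P P' := fun ψ =>
    ⟨ψ.comp (Ideal.Quotient.mkₐ 𝒪 J), fun i => by
      have hx0 : ∀ c, ψ (Ideal.Quotient.mk J (x c)) = 0 := fun c => by
        rw [Ideal.Quotient.eq_zero_iff_mem.mpr (show x c ∈ J from Ideal.subset_span ⟨c, rfl⟩), map_zero]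
      have hc : ∀ t : Fin 2, sndM ((cframed ι P P' cd i (if t = 0 then frob i else tame i)).map
          (ψ.comp (Ideal.Quotient.mkₐ 𝒪 J))) = 0 := by
        intro t
        ext a b
        obtain ⟨a0, u, e⟩ := hcoord i t a b
        show (ψ (Ideal.Quotient.mk J (cframed ι P P' cd i _ a b))).snd = 0
        rw [e, map_add, map_mul, map_add, map_mul, hx0, mul_zero, add_zero,
          Ideal.Quotient.mk_algebraMap, ψ.commutes, h1, TrivSqZeroExt.snd_inl]
      exact ⟨by simpa using hc 0, by simpa using hc 1⟩⟩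
  have hj : Function.Injective j := fun ψ ψ' e => by
    have e' := congrArg Subtype.val e
    refine AlgHom.ext fun y => ?_
    obtain ⟨y, rfl⟩ := Ideal.Quotient.mk_surjective y
    exact AlgHom.congr_fun e' y
  haveI := hfin
  obtain ⟨γ', hγ'⟩ := exists_quotient_of_card_algHom_le h1 hresJ (Finite.of_injective j hj)
    ((Nat.card_le_card_of_injective j hj).trans hcard)
  choose tv ht using fun i => Ideal.Quotient.mk_surjective (γ' (MvPowerSeries.X i))
  haveI : IsLocalHom (γ' : MvPowerSeries (Fin (t + (k - 1))) 𝒪 →+* B ⧸ J) :=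
    IsLocalHom.of_surjective _ hγ'
  have htm : ∀ i, tv i ∈ maximalIdeal B := by
    intro i
    refine (mem_maximalIdeal _).mpr fun hu => ?_
    have hu' : IsUnit ((γ' : MvPowerSeries (Fin (t + (k - 1))) 𝒪 →+* B ⧸ J) (MvPowerSeries.X i)) := by
      rw [RingHom.coe_coe, ← ht]; exact hu.map _
    exact X_mem_maximalIdeal i (isUnit_of_map_unit _ _ hu')
  let y : PlaceVar (Fin k) (Fin (t + (k - 1))) → B := Sum.elim x tv
  let I : Ideal B := Ideal.span (Set.range y) ⊔ (maximalIdeal 𝒪).map (algebraMap 𝒪 B)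
  have hJI : J ≤ I := le_sup_of_le_left (Ideal.span_mono (by
    rintro _ ⟨c, rfl⟩; exact ⟨Sum.inl c, rfl⟩))
  obtain ⟨ϖ, hϖ⟩ := IsDiscreteValuationRing.exists_irreducible 𝒪
  have hmI : maximalIdeal B ≤ I := by
    intro z hz
    obtain ⟨F, hF⟩ := hγ' (Ideal.Quotient.mk J z)
    have hFm : F ∈ maximalIdeal (MvPowerSeries (Fin (t + (k - 1))) 𝒪) := by
      refine (mem_maximalIdeal _).mpr fun hu => ?_
      have := hu.map (γ' : MvPowerSeries (Fin (t + (k - 1))) 𝒪 →+* B ⧸ J)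
      rw [RingHom.coe_coe, hF] at this
      exact (mem_maximalIdeal _).mp hz (isUnit_of_map_unit (Ideal.Quotient.mk J) _ this)
    let f : MvPowerSeries (Fin (t + (k - 1))) 𝒪 →+* B ⧸ J := γ'
    have hle : maximalIdeal (MvPowerSeries (Fin (t + (k - 1))) 𝒪) ≤
        (I.map (Ideal.Quotient.mk J)).comap f := by
      refine maximalIdeal_le_of_mem hϖ ?_ fun a => ?_
      · have e : γ' (MvPowerSeries.C ϖ) = Ideal.Quotient.mk J (algebraMap 𝒪 B ϖ) := by
          rw [Ideal.Quotient.mk_algebraMap, ← γ'.commutes]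
          rfl
        show γ' (MvPowerSeries.C ϖ) ∈ I.map (Ideal.Quotient.mk J)
        rw [e]
        exact Ideal.mem_map_of_mem _ (Ideal.mem_sup_right (Ideal.mem_map_of_mem _
          ((mem_maximalIdeal _).mpr hϖ.not_isUnit)))
      · show γ' (MvPowerSeries.X a) ∈ I.map (Ideal.Quotient.mk J)
        rw [← ht]
        exact Ideal.mem_map_of_mem _ (Ideal.mem_sup_left (Ideal.subset_span ⟨Sum.inr a, rfl⟩))
    have hz' : Ideal.Quotient.mk J z ∈ I.map (Ideal.Quotient.mk J) := hF ▸ hle hFm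
    obtain ⟨w, hw, hwz⟩ := (Ideal.mem_map_iff_of_surjective _ Ideal.Quotient.mk_surjective).mp hz'
    rw [Ideal.Quotient.eq] at hwz
    rw [show z = w - (w - z) by abel]
    exact sub_mem hw (hJI hwz)
  obtain ⟨γ₀, hγ₀, hγ₀X⟩ := exists_series_of_le (𝒪 := 𝒪) hres y (Sum.rec hx htm)
    (hmI.trans le_sup_left)
  exact ⟨γ₀, hγ₀, fun c => hγ₀X _⟩

end FLTAgent.MLT
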