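import Fermat.Agent.MLT.CondAtP
import Fermat.Agent.MLT.CondPrimes
import Fermat.Agent.LL.LocalDefs

/-!
Area MLT, parcel RED: what a Taylor-Wiles level delivers for patching, the condition at `p` a
parameter carried by every quotient that acts.
-/

set_option autoImplicit false
set_option linter.unusedSectionVars false

noncomputable section

open Matrix IsLocalRing FLTAgent.PT FLTAgent.PT.TW FLTAgent.LL

namespace FLTAgent.MLT

variable (p : ℕ) [Fact p.Prime] {𝒪 : Type} [CommRing 𝒪] [IsDomain 𝒪] [IsDiscreteValuationRing 𝒪]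
  [IsAdicComplete (maximalIdeal 𝒪) 𝒪] [Finite (ResidueField 𝒪)]
  [Algebra (ZMod p) (ResidueField 𝒪)] (ρbar : ResidualGaloisRep (ResidueField 𝒪))
  (r : GQ →* GL (Fin 2) (ResidueField 𝒪)) (Smin : Finset ℕ) {m : ℕ}
  (W : Fin (m + 1) → Nat.Primes) (frob tame : Fin (m + 1) → GQ) (w : Fin (m + 1) → 𝒪) (ϖ : 𝒪)
  {J : Type} [Fintype J] (ζ ζi : J → 𝒪)

/-- `LL.PatchInput` with the condition at `p` as a subspace `Lp` holding every tangent vector of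
what acts -/
structure RedInput (s n d : ℕ) : Type 1 where
  Q : Fin s → Nat.Primes
  Lp : Submodule (ZMod p) (lH1 (ExtCitation.pPrime p) (ad0 p r))
  bound : CondBound p r Smin W Q Lp s
  D : RepData ρbar
  hausdorff : IsHausdorff (maximalIdeal D.R) D.R
  cd : TW.Coord D r
  det : D.ρ.DetIsCyclotomic p
  unip : ∀ q ∈ Smin, q.Prime → q ≠ p → D.ρ.IsUnipotentOnInertiaAt q
  unr : ∀ q : Nat.Primes, (q : ℕ) ∉ Smin → (∀ i, W i ≠ q) → (∀ i, Q i ≠ q) →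
    D.ρ.IsUnramifiedAt (q : ℕ)
  traces : ∀ φ φ' : D.R →ₐ[𝒪] DualNumber (ResidueField 𝒪),
    (∀ g, φ (cd.R₀ g).trace = φ' (cd.R₀ g).trace) → φ = φ'
  ψ : D.R →ₐ[𝒪] Matrix (Fin d) (Fin d) (SQ 𝒪 s n)
  atp : ∀ {B : Type} [CommRing B] [Algebra 𝒪 B] (ι : D.R →ₐ[𝒪] B),
    (∀ x, ψ x = 0 → ι x = 0) → TanAt p cd ι Lp
  gen : ∀ i : Fin s, ∃ y : D.R, ψ y = Matrix.scalar (Fin d)
    (Ideal.Quotient.mk (maximalIdeal (SR 𝒪 s) ^ (n + 1)) (MvPowerSeries.X i))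
  tame_trace : ∀ i, i ≠ 0 → ψ (cd.R₀ (tame i)).trace = 2
  tame_trace_zero : ψ (∏ j, ((cd.R₀ (tame 0)).trace - algebraMap 𝒪 D.R (ζ j + ζi j))) = 0
  special : ∃ E : Matrix (Fin d) (Fin d) (SQ 𝒪 s n),
    ψ ((cd.R₀ (frob 0)).trace - algebraMap 𝒪 D.R (w 0 * (1 + ((W 0 : ℕ) : 𝒪)))) = ϖ • E

/-- an element of inertia generating tame inertia in both senses -/
theorem exists_isTameGen_root (v : Nat.Primes) (hv : p ∣ (v : ℕ) - 1) :
    ∃ σ, IsTameGen p v σ ∧ IsTameRoot p v σ := by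
  obtain ⟨a, ha, ha'⟩ := exists_isTameGen (p := p) v hv
  obtain ⟨b, hb, z, hz, hb'⟩ := exists_isTameRoot (p := p) Fact.out v
  by_cases h1 : a z ≠ z
  · exact ⟨a, ⟨ha, ha'⟩, ha, z, hz, h1⟩
  by_cases h2 : PT.TW.cycHom (v : ℕ) b ^ (((v : ℕ) - 1) / p) ≠ 1
  · exact ⟨b, ⟨hb, h2⟩, hb, z, hz, hb'⟩
  rw [not_not] at h1 h2
  refine ⟨a * b, ⟨mul_mem ha hb, ?_⟩, mul_mem ha hb, z, hz, fun h => hb' (a.injective ?_)⟩
  · rwa [map_mul, mul_pow, h2, mul_one]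
  · rw [← AlgEquiv.mul_apply, h, h1]

end FLTAgent.MLT

end
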