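import Fermat.Agent.MLT.RedRep
import Fermat.Agent.MLT.RedDefs

/-!
Area MLT, parcel RED: a Taylor-Wiles level gives a `RedInput`.
-/

set_option autoImplicit false
set_option linter.style.haveILetI false
set_option linter.unusedSectionVars false
set_option maxHeartbeats 1000000

noncomputable section

open scoped TensorProduct
open IsLocalRing Polynomial FLTAgent.PT FLTAgent.PT.TW FLTAgent.LL

namespace FLTAgent.MLT

open FLTAgent.Attach (GalQ)

variable {O : Type} [CommRing O] [IsDomain O] [IsDiscreteValuationRing O]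
  [IsAdicComplete (maximalIdeal O) O] [Finite (ResidueField O)] [CharZero O]
  {M p : ℕ} [NeZero M] [Fact p.Prime] [Algebra (ZMod p) (ResidueField O)]
  {ρbar : ResidualGaloisRep (ResidueField O)} {r : GQ →* GL (Fin 2) (ResidueField O)}

/-- the input to patching at one level, given a condition at `p` on what acts -/
theorem exists_redInput (h : Setting p ρbar r)
    (hspan : Submodule.span (ResidueField O)
      (Set.range fun g => (r g : Matrix (Fin 2) (Fin 2) (ResidueField O))) = ⊤)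
    (s : Sys M O) (S : Finset ℕ) (hpA : (p : O) ∈ maximalIdeal O) (h6 : s.Elliptic)
    (hsq : Squarefree M) (hpS : p ∈ S)
    (hMS : ∀ l : ℕ, l.Prime → l ∣ M → l ∈ S)
    (hS : ∀ l : ℕ, l.Prime → (l ∉ S ↔ ¬ l ∣ M ∧ l ∉ s.bad)) (hl0 : s.l0 ∉ S)
    (hfrob : ∀ l : ℕ, l.Prime → l ∉ S → ∀ P : ValuationSubring (AlgebraicClosure ℚ),
      P.LiesOverPrime l → ∀ σ : GalQ, P.IsFrobeniusAt σ l →
        (r σ : Matrix (Fin 2) (Fin 2) (ResidueField O)).trace = residue O (s.eig l) ∧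
        (r σ : Matrix (Fin 2) (Fin 2) (ResidueField O)).det = (l : ResidueField O))
    (σ₀ : GalQ) {α β : ResidueField O} (hαβ : α ≠ β)
    (hσ₀ : (r σ₀ : Matrix (Fin 2) (Fin 2) (ResidueField O)).charpoly = (X - C α) * (X - C β))
    (hirr : ∀ v : Fin 2 → ResidueField O, v ≠ 0 → ∃ σ, ∀ a : ResidueField O,
      (r σ : Matrix (Fin 2) (Fin 2) (ResidueField O)).mulVec v ≠ a • v)
    {Smin : Finset ℕ} (hpSmin : p ∈ Smin)
    (hmin : ∀ l : ℕ, l.Prime → l ≠ p → (l ∈ Smin ↔ ¬ ρbar.IsUnramifiedAt l))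
    {m : ℕ} {Wp : Fin (m + 1) → Nat.Primes} (hWinj : Function.Injective Wp)
    (hWmin : ∀ i, (Wp i : ℕ) ∉ Smin) {frob tame : Fin (m + 1) → GQ}
    (hpl : FramePlaces p r Wp frob tame) {w : Fin (m + 1) → O} (hw : w 0 * w 0 = 1)
    (htr : (matHom r (frob 0)).trace = 2 * residue O (w 0)) {ϖ : O} (hϖ : Irreducible ϖ)
    {e c : ℕ} (he : e ≠ 0) (hqm : (Wp 0 : ℕ) - 1 = p ^ e * c) (hc : ¬ p ∣ c) {z : O}
    (hz : IsPrimitiveRoot z (p ^ e)) (ζ ζi : Fin (p ^ e - 1) → O)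
    (hζ : ∀ j, ζ j = z ^ (j.1 + 1)) (hζi : ∀ j, ζ j * ζi j = 1)
    {t n : ℕ} {Q : Fin t → Nat.Primes} (hQinj : Function.Injective Q)
    (hQmin : ∀ i, (Q i : ℕ) ∉ Smin) (hQW : ∀ i j, Wp j ≠ Q i)
    (hQn : ∀ i, p ^ (n + 1) ∣ (Q i : ℕ) - 1)
    (hQd : ∀ i, ∀ P : ValuationSubring (AlgebraicClosure ℚ), P.LiesOverPrime (Q i : ℕ) → ∀ φ : GQ,
      P.IsFrobeniusAt φ (Q i : ℕ) → ∃ α β : ResidueField O, α ≠ β ∧
        LinearMap.charpoly (ρbar.ρ φ) = (X - C α) * (X - C β))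
    (hTW : ∀ Lp : Submodule (ZMod p) (lH1 (ExtCitation.pPrime p) (ad0 p r)),
      Module.finrank (ZMod p) Lp ≤ Module.finrank (ZMod p) (lH0 (ExtCitation.pPrime p) (ad0 p r)) +
          1 * Module.finrank (ZMod p) (ResidueField O) → CondBound p r Smin Wp Q Lp t)
    {N : ℕ} (hM : M = N * ∏ i, (Q i : ℕ)) (hWN : ∀ i, (Wp i : ℕ) ∣ N)
    (hSN : ∀ l ∈ Smin, l.Prime → l ≠ p → l ∣ N)
    (hNcov : ∀ l : ℕ, l.Prime → l ∣ N → l ∈ Smin ∨ ∃ i, (Wp i : ℕ) = l)
    (hpos : 0 < Module.finrank O (s.E (funRep O (P1 M M) (M := M))))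
    (hbot : Module.finrank O
      (s.E (funRep O (P1 M (N / (Wp 0 : ℕ) * ∏ i, (Q i : ℕ))) (M := M))) = 0)
    (hcond : ∀ D : TWData M p (t + 1), D.N0 = N / (Wp 0 : ℕ) → D.Q 0 = (Wp 0 : ℕ) →
      (∀ i : Fin t, D.Q i.succ = (Q i : ℕ)) → D.Mod s ≠ ⊥ →
        ∀ L : WorldRep D s S r, L.HasCond hsq h hspan) :
    Nonempty (RedInput p ρbar r Smin Wp frob tame w ϖ ζ ζi t n
      (Module.finrank O (s.E (funRep O (P1 M M) (M := M))))) := by
  classical
  have hp : p.Prime := Fact.out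
  have hp2 := h.hp2
  obtain ⟨hN0, -⟩ : N ≠ 0 ∧ True := ⟨fun h0 => NeZero.ne M (by rw [hM, h0, zero_mul]), trivial⟩
  set q : ℕ := (Wp 0 : ℕ) with hq
  have hqp : q ≠ p := hpl.ne 0
  obtain ⟨N', hN'⟩ := hWN 0
  have hNdiv : N / q = N' := by rw [hN', Nat.mul_div_cancel_left _ (Wp 0).2.pos]
  choose av cv hqv hcv hav using fun i => exists_exponent hp (Q i).2 (hQn i)
  let Wf : Fin (t + 1) → Nat.Primes := Fin.cons (α := fun _ => Nat.Primes) (Wp 0) Q
  let ex : Fin (t + 1) → ℕ := Fin.cons (α := fun _ => ℕ) 1 av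
  have hWf0 : Wf 0 = Wp 0 := rfl
  have hWfs : ∀ i : Fin t, Wf i.succ = Q i := fun i => rfl
  have hWfinj : Function.Injective Wf := Fin.cons_injective_of_injective
    (by rintro ⟨i, hi⟩; exact hQW i 0 hi.symm) hQinj
  have hprodf : ∏ i, (Wf i : ℕ) = q * ∏ i, (Q i : ℕ) := Fin.prod_univ_succ _
  have hMf : M = N' * ∏ i, (Wf i : ℕ) := by
    rw [hM, hprodf, hN']
    ring
  have hnd : ∀ i, ¬ (Wf i : ℕ) ∣ N' := fun i hd =>
    (Wf i).2.not_isUnit (hsq (Wf i : ℕ) ((mul_dvd_mul hd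
      (Finset.dvd_prod_of_mem (fun i => (Wf i : ℕ)) (Finset.mem_univ i))).trans (by rw [← hMf])))
  obtain ⟨D, hDN, hDQ, hDH⟩ := exists_levelData (M := M) hp hp2 N' Wf hWfinj
    (by rw [← hMf]) hnd ex (fun i => by
      induction i using Fin.cases with
      | zero =>
        show p ^ 1 ∣ q - 1
        rw [pow_one]
        exact hpl.dvd 0
      | succ i => exact ⟨cv i, hqv i⟩)
  have hQ0 : D.Q 0 = q := by rw [hDQ]; rfl
  have hQs : ∀ i : Fin t, D.Q i.succ = (Q i : ℕ) := fun i => by rw [hDQ]; rfl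
  have hplace : ∀ i, D.place i = ExtCitation.primeLocalPlace (Wf i) := fun i =>
    congrArg ExtCitation.primeLocalPlace (Subtype.ext (congrFun hDQ i))
  -- ranks
  have hNR : D.N0 * D.R = M := by rw [TWData.R, hDN, hDQ, ← hMf]
  have hrk : D.rkY s = Module.finrank O (s.E (funRep O (P1 M M) (M := M))) := by
    rw [TWData.rkY, D.finrank_E_Y s, hNR]
  have hdropR : (D.drop 0).R = ∏ i, (Q i : ℕ) := by
    rw [TWData.R]
    exact Finset.prod_congr rfl fun i _ => by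
      rw [TWData.drop_Q, Fin.zero_succAbove]
      exact hQs i
  have hbot' : ∀ hqd : q ∣ (D.drop 0).N0,
      ((D.drop 0).withN0 ((D.drop 0).N0 / q) (Nat.div_dvd_of_dvd hqd)).Mod s = ⊥ := by
    intro hqd
    refine TWData.Mod_eq_bot_of_rkY _ s h6 hpA ?_
    rw [TWData.rkY, TWData.finrank_E_Y]
    have e1 : ((D.drop 0).withN0 ((D.drop 0).N0 / q) (Nat.div_dvd_of_dvd hqd)).N0 *
        ((D.drop 0).withN0 ((D.drop 0).N0 / q) (Nat.div_dvd_of_dvd hqd)).R =
        N / q * ∏ i, (Q i : ℕ) := by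
      show (D.drop 0).N0 / q * (D.drop 0).R = _
      rw [hdropR, TWData.drop_N0, hDN, hQ0, hNdiv, Nat.mul_div_cancel _ (Wp 0).2.pos]
    rw [e1]
    exact hbot
  have hlev : Deform.FinLevel fun σ => (r σ : Matrix (Fin 2) (Fin 2) (ResidueField O)) := by
    obtain ⟨F, hF, hr⟩ := h.level
    exact ⟨F, hF, fun σ hσ => by
      show (r σ : Matrix (Fin 2) (Fin 2) (ResidueField O)) = 1
      rw [hr σ ((IntermediateField.mem_fixingSubgroup_iff _ _).2 hσ), Units.val_one]⟩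
  have hWfp : ∀ i, (Wf i : ℕ) ≠ p ∧ p ∣ (Wf i : ℕ) - 1 := by
    intro i
    induction i using Fin.cases with
    | zero => exact ⟨hqp, hpl.dvd 0⟩
    | succ i => exact ⟨fun e => hQmin i (e ▸ hpSmin), (dvd_pow_self p n.succ_ne_zero).trans (hQn i)⟩
  have hDp : ∀ i, D.Q i ≠ p := fun i => by rw [hDQ]; exact (hWfp i).1
  have hdp : ∀ i j, (D.drop i).Q j ≠ p := fun i j => by rw [TWData.drop_Q]; exact hDp _
  have hworld : ∀ {k : ℕ} (D' : TWData M p k), (∀ i, D'.Q i ≠ p) → D'.Mod s ≠ ⊥ →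
      Nonempty (WorldRep D' s S r) :=
    fun D' hp' hne => exists_worldRep D' s S hpA h6 hsq hp' hpS hMS hS hl0 r hlev hfrob σ₀ hαβ hσ₀
      hirr hne
  have hmk : ∀ i, (D.drop i).Mod s ≠ ⊥ → Nonempty (LevelRep (D.drop i) s S r) := fun i hne =>
    (hworld _ (hdp i) hne).map fun L' => L'.toLevelRep hsq
  have hne : D.Mod s ≠ ⊥ := D.Mod_ne_bot_of_rkY s h6 hpA (by rw [hrk]; exact hpos)
  obtain ⟨L₀⟩ := hworld D hDp hne
  have hHC := hcond D (hDN.trans hNdiv.symm) hQ0 hQs hne L₀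
  let L : LevelRep D s S r := L₀.toLevelRep hsq
  let RD : RepData ρbar := L.repData h hspan
  haveI : IsNoetherianRing RD.R := L.instNoetherian
  haveI hcomp : IsAdicComplete (maximalIdeal RD.R) RD.R := L.isAdicComplete
  obtain ⟨cd⟩ : Nonempty (TW.Coord RD r) := TW.nonempty_coord RD h.rep
  let R' : GalQ → Matrix (Fin 2) (Fin 2) L.T := cd.R₀
  have hRep : Deform.RepMat L.ρ.ρ R' := cd.rep
  have htrR : ∀ σ, (R' σ).trace = (L.R₀ σ).trace := L.trace_coord hRep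
  -- the places of the auxiliary primes
  have hunr : ∀ i, ρbar.IsUnramifiedAt (Wf i : ℕ) := by
    intro i
    have hne : (Wf i : ℕ) ∉ Smin := by
      induction i using Fin.cases with
      | zero => exact hWmin 0
      | succ i => exact hQmin i
    by_contra hn
    exact hne ((hmin _ (Wf i).2 (fun e => hne (e ▸ hpSmin))).mpr hn)
  obtain ⟨fQ, tQ, hplQ⟩ := exists_framePlaces (W := Wf) hWfp hunr h.rep
  have hdet : RD.ρ.DetIsCyclotomic p := L.det
  have hiota : ∀ i : Fin t, ∃ ι ι' : L.T, ι ^ (p ^ av i) = 1 ∧ ι * ι' = 1 ∧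
      (L.R₀ (tQ i.succ)).trace = ι + ι' ∧
      ∀ σ ∈ (D.place i.succ).inertiaSubgroupIn ℚ, ∀ τ ∈ (D.place i.succ).inertiaSubgroupIn ℚ,
        ∀ a b : Fin 2, (ι - 1) * (ι - 1) ∣ ((R' σ - 1) * (R' τ - 1)) a b := by
    intro i
    obtain ⟨a₁, b₁, hab, hcp⟩ := hQd i _ (PT.TW.liesOver_primeLocalPlace (Q i)) (fQ i.succ)
      (hplQ.isFrob i.succ)
    have hcp' : (matHom r (fQ i.succ)).charpoly = (X - C a₁) * (X - C b₁) := by
      obtain ⟨b, hb⟩ := h.rep
      rw [← hcp, ← LinearMap.charpoly_toMatrix _ b, hb]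
      rfl
    obtain ⟨hs, hprod⟩ := split_of_charpoly hcp'
    obtain ⟨ι, ι', -, hpow, hinv, htr', hdvd⟩ := exists_iota cd hdet hplQ i.succ hab hs.symm
      hprod.symm (hqv i) (hcv i)
    refine ⟨ι, ι', hpow, hinv, (htrR _).symm.trans htr', ?_⟩
    rw [hplace]
    exact hdvd
  choose ι ι' hι hιinv hιtr hιdvd using hiota
  have hnorm : ∀ (i : Fin t) (x : D.Mod s), D.normAt s i.succ (L.φ (ι i - 1) x) = 0 := fun i x =>
    L.normAt_iota hpA h6 (Q i).2 (hQs i) (fun e => hQmin i (e ▸ hpSmin)) (hmk _)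
      (by rw [hplace]; exact (hplQ.isTame i.succ).1)
      (pow_ne_zero _ hp.ne_zero) (hιinv i) (hιtr i) (hι i) x
  -- the special prime
  obtain ⟨hh, hhe⟩ : ∃ h' : ℕ, p ^ e = 2 * h' + 1 := (hp.odd_of_ne_two hp2).pow
  have hzh : IsPrimitiveRoot z (2 * hh + 1) := hhe ▸ hz
  let F : ℕ → L.T := fun j =>
    (R' (tame 0)).trace - algebraMap O L.T (z ^ (j + 1) + z ^ (2 * hh - j))
  have hfac : (X : L.T[X]) ^ (p ^ e) - 1 = (X - 1) * ∏ j ∈ Finset.range hh,
      (X ^ 2 - C (algebraMap O L.T (z ^ (j + 1) + z ^ (2 * hh - j))) * X + 1) := by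
    have h0 := congrArg (Polynomial.map (algebraMap O L.T)) (TameAlg.factor_roots hzh)
    simp only [Polynomial.map_sub, Polynomial.map_mul, Polynomial.map_pow, Polynomial.map_X,
      Polynomial.map_one, Polynomial.map_prod, Polynomial.map_add, Polynomial.map_C] at h0
    rw [hhe]
    exact h0
  have hK : ∀ σ ∈ (D.place 0).inertiaSubgroupIn ℚ, ∀ τ ∈ (D.place 0).inertiaSubgroupIn ℚ,
      ∀ a b : Fin 2, (∏ j ∈ Finset.range hh, F j) * ((R' σ - 1) * (R' τ - 1)) a b = 0 := by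
    rw [hplace, hWf0]
    exact tame_kill cd hdet hpl 0 hp2 he hqm hc hhe _ hfac
  have hFprod : (∏ j, ((R' (tame 0)).trace - algebraMap O L.T (ζ j + ζi j))) =
      ∏ j ∈ Finset.range (p ^ e - 1), F j := by
    rw [← Fin.prod_univ_eq_prod_range]
    refine Finset.prod_congr rfl fun j _ => ?_
    have hj : ζi j = z ^ (2 * hh - j.1) := by
      have h1 : ζ j * z ^ (2 * hh - j.1) = 1 := by
        rw [hζ, ← pow_add, show j.1 + 1 + (2 * hh - j.1) = 2 * hh + 1 by omega, hzh.pow_eq_one]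
      exact mul_left_cancel₀ (left_ne_zero_of_mul_eq_one (hζi j)) ((hζi j).trans h1.symm)
    rw [hj, hζ]
  have hζp : IsPrimitiveRoot (z ^ p ^ (e - 1)) p := hz.pow (pow_pos hp.pos e)
    (by rw [← pow_succ, Nat.sub_add_cancel (Nat.one_le_iff_ne_zero.mpr he)])
  have hϖζ : ϖ ∣ z ^ p ^ (e - 1) - 1 := by
    rw [← Ideal.mem_span_singleton, ← hϖ.maximalIdeal_eq]
    exact IotaFree.sub_one_mem hpA hζp.pow_eq_one
  let U : L.T := (R' (frob 0)).trace - algebraMap O L.T (w 0 * (1 + (q : O)))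
  have hU : ∀ x : D.Mod s, D.normAt s 0 (L.φ U x) = 0 := fun x => by
    show D.normAt s 0 (L.φ ((R' (frob 0)).trace - _) x) = 0
    rw [htrR]
    exact L.normAt_frob hpA h6 (Wp 0).2 hQ0 hqp (hmk _) hbot' hp2 hp (hpl.dvd 0)
      (PT.TW.liesOver_primeLocalPlace (Wp 0)) (hpl.isFrob 0) hw htr x
  obtain ⟨ψ, hgen, hψ0, hψK, E, hψU⟩ := exists_evalData L hpA h6 hRep hζp ι hϖζ n
    ((hDH 0).trans (pow_one p)) (fun i => ⟨av i, hav i, hDH i.succ⟩)
    (fun i => (congrArg (ι i ^ ·) (hDH i.succ)).trans (hι i)) hιdvd hnorm hK hU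
  -- the conditions of the problem
  have hdvdN : ∀ l : ℕ, l.Prime → l ≠ q → l ∣ N → l ∣ D.N0 := fun l hl hlq hlN => by
    rw [hDN]
    rw [hN'] at hlN
    exact (hl.dvd_mul.mp hlN).resolve_left fun e =>
      hlq ((Nat.prime_dvd_prime_iff_eq hl (Wp 0).2).mp e)
  have hunip : ∀ l ∈ Smin, l.Prime → l ≠ p → L.ρ.IsUnipotentOnInertiaAt l :=
    fun l hl hlp hlne => L.unip l hlp hlne
      (hdvdN l hlp (fun e => hWmin 0 (by have h' := hl; rw [e, hq] at h'; exact h'))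
        (hSN l hl hlp hlne))
  have hunr' : ∀ l : Nat.Primes, (l : ℕ) ∉ Smin → (∀ i, Wp i ≠ l) → (∀ i, Q i ≠ l) →
      L.ρ.IsUnramifiedAt (l : ℕ) := fun l hlS hlW hlQ => by
    refine L.unr (l : ℕ) l.2 (fun e => hlS (e ▸ hpSmin)) (fun hd => ?_) (fun i => ?_)
    · rw [hDN] at hd
      rcases hNcov l l.2 (hd.trans (hN' ▸ dvd_mul_left N' q)) with h1 | ⟨j, hj⟩
      · exact hlS h1
      · exact hlW j (Subtype.ext hj)
    · rw [hDQ]
      induction i using Fin.cases with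
      | zero => exact fun e => hlW 0 (Subtype.ext e)
      | succ i => exact fun e => hlQ i (Subtype.ext e)
  obtain ⟨Lp, hLp, htan⟩ := hHC cd
  have htraces : ∀ φ φ' : RD.R →ₐ[O] DualNumber (ResidueField O),
      (∀ g, φ (cd.R₀ g).trace = φ' (cd.R₀ g).trace) → φ = φ' :=
    fun φ φ' he' => traces_of_adjoin (cd := cd) (by
        have e1 : (fun g => (cd.R₀ g).trace) = fun g => (L.R₀ g).trace := funext htrR
        rw [e1]
        exact L.gen) φ φ' he'
  have htame2 : ∀ i, i ≠ 0 → (cd.R₀ (tame i)).trace = 2 := by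
    intro i hi
    haveI : Nontrivial RD.R := inferInstance
    refine TameAlg.trace_eq_two_of_charpoly ?_
    rw [← charpoly_eq_of_repMat cd.rep]
    exact L.unip _ (Wp i).2 (hpl.ne i)
      (hdvdN _ (Wp i).2 (fun e => hi (hWinj (Subtype.ext e))) (hWN i)) _
      (PT.TW.liesOver_primeLocalPlace (Wp i)) _ (hpl.isTame i).1
  rw [← hrk]
  exact ⟨{
    Q := Q
    Lp := Lp
    bound := hTW Lp hLp
    D := RD
    hausdorff := hcomp.toIsHausdorff
    cd := cd
    det := L.det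
    unip := hunip
    unr := hunr'
    traces := htraces
    ψ := ψ
    atp := fun {B} _ _ ι hι => htan ι fun x hx => hι x (hψ0 x hx)
    gen := hgen
    tame_trace := fun i hi => by
      show ψ ((R' (tame i)).trace) = 2
      rw [show (R' (tame i)).trace = 2 from htame2 i hi, map_ofNat]
    tame_trace_zero := by
      refine (congrArg ψ hFprod).trans ?_
      obtain ⟨c', hc'⟩ := Finset.prod_dvd_prod_of_subset (Finset.range hh)
        (Finset.range (p ^ e - 1)) F (Finset.range_mono (by omega))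
      rw [hc', map_mul, hψK, zero_mul]
    special := ⟨E, hψU⟩ }⟩

end FLTAgent.MLT

end
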