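import Fermat.Agent.MLT.Critical
import Fermat.Agent.MLT.AvoidData
import Fermat.Agent.MLT.RedInput
import Fermat.Agent.MLT.RedGlue
import Fermat.Agent.LL.Coeff
import Fermat.Agent.PT.Tool.Places

/-!
Area MLT, parcel RED: a stuck configuration does not occur (the patching argument of `LL.Avoid`,
in the flat world and in the strict world).
-/

set_option autoImplicit false
set_option linter.style.haveILetI false
set_option linter.unusedSectionVars false

noncomputable section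

open Matrix Polynomial IsLocalRing WeierstrassCurve FLTAgent.LL FLTAgent.PT FLTAgent.PT.TW

namespace FLTAgent.MLT

/-- no stuck configuration -/
theorem not_stuck {W : WeierstrassCurve ℤ} (hΔ : W.Δ ≠ 0) (hW : W.IsSemistableModel) {p : ℕ}
    (hp35 : p = 3 ∨ p = 5) (hirr : W.ModRepIsIrreducible p) {N q : ℕ} : ¬ Stuck W p N q := by
  classical
  intro hC
  have hp : p.Prime := by rcases hp35 with rfl | rfl <;> norm_num
  have hp2 : p ≠ 2 := by rcases hp35 with rfl | rfl <;> norm_num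
  haveI : Fact p.Prime := ⟨hp⟩
  haveI : NeZero p := ⟨hp.ne_zero⟩
  haveI : NeZero N := ⟨hC.sq.ne_zero⟩
  set Smin : Finset ℕ := insert p (sMin W p) with hSmin
  have hpSmin : p ∈ Smin := Finset.mem_insert_self _ _
  have hqS : q ∉ Smin := by simp [hSmin, hC.q_ne, hC.q_notMin]
  -- places
  obtain ⟨m, V, hVinj, hV0, hVN, hVall⟩ :=
    exists_enum_off (NeZero.ne N) hC.q_prime Smin hqS hC.qN
  have hVmin : ∀ i, (V i : ℕ) ∉ Smin := fun i => (hVN i).2
  have hVp : ∀ i, (V i : ℕ) ≠ p := fun i h => hVmin i (h ▸ hpSmin)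
  have hV1 : ∀ i, p ∣ (V i : ℕ) - 1 := fun i => by
    have h := hC.one_mod _ (V i).2 (hVN i).1 (hVp i)
      fun h => hVmin i (Finset.mem_insert_of_mem h)
    rw [← Nat.cast_one, ZMod.natCast_eq_natCast_iff] at h
    exact (Nat.modEq_iff_dvd' (V i).2.one_lt.le).1 h.symm
  have hq1 : p ∣ q - 1 := hV0 ▸ hV1 0
  set e := (q - 1).factorization p
  have hdvd : p ^ e ∣ q - 1 := Nat.ordProj_dvd _ _
  have he : 0 < e := Nat.Prime.factorization_pos_of_dvd hp
    (by have := hC.q_prime.two_le; omega) hq1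
  -- coefficients
  obtain ⟨O, _, _, _, _, _, _, hpO, hchar, ⟨z, hz⟩, hquad⟩ := exists_coefficients p e
  letI : Algebra (ZMod p) (ResidueField O) := ZMod.algebra _ p
  obtain ⟨ρbar, r, hres⟩ :=
    exists_semiResidual hΔ hW hp35 hirr (ResidueField O) (hquad inferInstance)
  have hS := hres.setting
  choose frob hfrob using fun i => FLTAgent.PT.exists_frobenius_place (V i).2
    (liesOver_primeLocalPlace (V i))
  choose tame htame htame' using fun i => exists_isTameGen_root (p := p) (V i) (hV1 i)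
  have hunr : ∀ i, ∀ τ ∈ (ExtCitation.primeLocalPlace (V i)).inertiaSubgroupIn ℚ, r τ = 1 :=
    fun i τ hτ => hres.unramified _ (V i).2 (hVp i)
      (fun h => hVmin i (Finset.mem_insert_of_mem h)) _ (liesOver_primeLocalPlace (V i)) τ hτ
  have hpl : FramePlaces p r V frob tame := ⟨hVp, hV1, hfrob, htame, hunr⟩
  have hplc : CondPlaces p r V frob tame := ⟨hVp, hfrob, htame', hunr⟩
  obtain ⟨σ₀, α, β, hαβ, hσ₀⟩ := hres.exists_split
  have hlev := finLevel_of_semiResidual hres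
  -- the levels that carry nothing
  have habs : ∀ i, ¬ W.IsResiduallyModularOfLevel p (N / V i) := fun i =>
    hC.absent _ _ (Nat.div_mul_cancel (hVN i).1).symm (V i).2 (hVp i)
      fun h => hVmin i (Finset.mem_insert_of_mem h)
  choose F hF hFbot using fun i =>
    haveI : NeZero (N / (V i : ℕ)) :=
      ⟨(Nat.div_pos (Nat.le_of_dvd (NeZero.pos N) (hVN i).1) (V i).2.pos).ne'⟩
    exists_absent_off hΔ hp hp2 N.primeFactors (habs i)
  obtain ⟨Fp, hFp, hFpbot⟩ : ∃ Fp : Finset ℕ, (∀ l ∈ Fp, l.Prime ∧ l ∉ N.primeFactors) ∧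
      (Tres W p → ∀ (M : ℕ) [NeZero M] (l0 : ℕ) (hl0 : l0.Prime) (hM : (l0 : ZMod M) = 1),
        IsUnit (2 : O) → N / p ∣ M → (∀ l ∈ Fp, ¬ l ∣ M) →
          (LL.sysOf (A := O) W p l0 hl0 hM).E (funRep O (P1 M (N / p)) (M := M)) = ⊥) := by
    by_cases ht : Tres W p
    · have hpN : p ∣ N := hC.at_p.2 ht
      haveI : NeZero (N / p) := ⟨(Nat.div_pos (Nat.le_of_dvd (NeZero.pos N) hpN) hp.pos).ne'⟩
      obtain ⟨Fp, hFp, hbot⟩ := exists_absent_off hΔ hp hp2 N.primeFactors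
        (hC.absent_p ht (N / p) (Nat.div_mul_cancel hpN).symm)
      exact ⟨Fp, hFp, fun _ M _ l0 hl0 hM h2 => hbot O M l0 hl0 hM hpO h2⟩
    · exact ⟨∅, by simp, fun h => absurd h ht⟩
  set S₁ : Finset ℕ := Smin ∪ Finset.univ.image (fun i => (V i : ℕ)) ∪ N.primeFactors ∪
    W.Δ.natAbs.primeFactors ∪ Fp ∪ Finset.univ.biUnion F
  obtain ⟨s, -, hTW⟩ := exists_condPrimes (W := V) (Smin := Smin) hS S₁ hpSmin
    (fun x hx => by simp only [S₁, Finset.mem_union]; tauto) hres.ramified_iff hVinj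
    (fun i => by simp [S₁]) hVmin
  -- signs and eigenvalues of inertia
  have htr4 : ∀ i, (matHom r (frob i)).trace ^ 2 = 4 := fun i =>
    trace_sq_of_removed hΔ hW hp35 hirr hpO hres hC.sq hC.modular (V i).2 (hVN i).1 (hVp i) (hV1 i)
      (habs i) _ (liesOver_primeLocalPlace (V i)) _ (hfrob i)
  choose w hw htr using fun i => exists_sign (O := O) (htr4 i)
  obtain ⟨ζ, ζi, hζz, hζ, hζ1, hne, hζq⟩ := exists_zetas hp hp2 hz hC.q_prime hdvd
  obtain ⟨ϖ, hϖ⟩ := IsDiscreteValuationRing.exists_irreducible O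
  refine false_of_redInputs hϖ hS (Smin := Smin) hpSmin hres.ramified_iff hVmin hpl hplc hw htr hζ
    (fun j => ?_) hne (fun j => by rw [hV0]; exact hζq j)
    (s := s) (bound := 2 ^ s * Module.finrank ℤ (JTors.Lam N)) fun n => ?_
  · rw [← Ideal.mem_span_singleton, ← (IsDiscreteValuationRing.irreducible_iff_uniformizer ϖ).1 hϖ]
    exact hζ1 j
  obtain ⟨Q, hQinj, hQ, hQspl, hQB⟩ := hTW n
  have hQp : ∀ i, ((Q i : ℕ) : ZMod p) = 1 := fun i => by
    rw [← Nat.cast_one, ZMod.natCast_eq_natCast_iff]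
    exact ((Nat.modEq_iff_dvd' (Q i).2.one_lt.le).2
      ((dvd_pow_self p n.succ_ne_zero).trans (hQ i).2)).symm
  have hQN : ∀ i, ¬ (Q i : ℕ) ∣ N := fun i hd => (hQ i).1 (by
    simp [S₁, Nat.mem_primeFactors, (Q i).2, hd, NeZero.ne N])
  have hQgood : ∀ i, W.IsGoodPrimeFor (Q i) := fun i => by
    by_contra h
    exact (hQ i).1 (by simp [S₁, (mem_primeFactors_of_bad hΔ (Q i).2).1 h])
  have hQmin : ∀ i, (Q i : ℕ) ∉ Smin := fun i h => (hQ i).1 (by
    simp only [S₁, Finset.mem_union]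
    exact Or.inl (Or.inl (Or.inl (Or.inl (Or.inl h)))))
  have hQne : ∀ i, (Q i : ℕ) ≠ p := fun i h => hQmin i (h ▸ hpSmin)
  haveI := hS.charP
  have hQd : ∀ i, ∀ P : ValuationSubring (AlgebraicClosure ℚ), P.LiesOverPrime (Q i : ℕ) →
      ∀ σ : GQ, P.IsFrobeniusAt σ (Q i : ℕ) →
        (r σ : Matrix (Fin 2) (Fin 2) (ResidueField O)).trace ^ 2 ≠ 4 := by
    intro i P hP σ hσ h4
    obtain ⟨a, b, hab, hc⟩ := hQspl i P hP σ hσ
    obtain ⟨bb, hbb⟩ := hS.rep
    rw [← LinearMap.charpoly_toMatrix _ bb, hbb σ] at hc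
    obtain ⟨h1, h2⟩ := TW.split_of_charpoly hc
    obtain ⟨-, hd⟩ := hres.frob _ (Q i).2 (hQgood i) (hQne i) P hP σ hσ
    have h1' : ((Q i : ℕ) : ResidueField O) = 1 := by
      rw [← map_natCast (algebraMap (ZMod p) (ResidueField O)), hQp, map_one]
    refine hab (sub_eq_zero.1 ((pow_eq_zero_iff two_ne_zero).1 (?_ : (a - b) ^ 2 = 0)))
    rw [← h1] at h4
    linear_combination h4 - 4 * h2 - 4 * hd - 4 * h1'
  set R : ℕ := ∏ i, (Q i : ℕ) with hR
  set M : ℕ := N * R with hM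
  haveI : NeZero R := ⟨Finset.prod_ne_zero_iff.2 fun i _ => (Q i).2.ne_zero⟩
  haveI : NeZero M := ⟨mul_ne_zero (NeZero.ne N) (NeZero.ne R)⟩
  have hsqM : Squarefree M := by
    refine (Nat.squarefree_mul_iff).2 ⟨?_, hC.sq, ?_⟩
    · exact Nat.Coprime.prod_right fun i _ =>
        ((Q i).2.coprime_iff_not_dvd.2 (hQN i)).symm
    · exact Finset.squarefree_prod_of_pairwise_isCoprime
        (fun i _ j _ hij => Nat.coprime_iff_isRelPrime.1 ((Nat.coprime_primes (Q i).2 (Q j).2).2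
          fun e => hij (hQinj (Subtype.ext e)))) (fun i _ => (Q i).2.squarefree)
  -- a prime avoided by `Q` and prime to `N` is prime to `M`
  have hndvd : ∀ l : ℕ, l.Prime → l ∉ N.primeFactors → l ∈ S₁ → ¬ l ∣ M := by
    intro l hl hlN hlS hd
    rcases hl.dvd_mul.1 hd with h | h
    · exact hlN (Nat.mem_primeFactors.2 ⟨hl, h, NeZero.ne N⟩)
    · obtain ⟨i, -, hi⟩ := hl.prime.exists_mem_finset_dvd h
      exact (hQ i).1 ((Nat.prime_dvd_prime_iff_eq hl (Q i).2).1 hi ▸ hlS)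
  obtain ⟨l0, hl0, hl0M, S, ⟨hl0g, hl0p, hl0t⟩, h6, hpS, hMS, hSiff, hl0S, hfrobS⟩ :=
    exists_sysData hΔ hW hp35 hirr hpO hres M
  set sys := LL.sysOf (A := O) W p l0 hl0 hl0M
  have h2O : IsUnit (2 : O) := h6.1
  have hchain : ∀ (N' : ℕ) [NeZero N'], N' * R ∣ M →
      Module.finrank O (sys.E (funRep O (P1 M (N' * R)) (M := M))) ≤
        2 ^ s * Module.finrank O (sys.E (funRep O (P1 M N') (M := M))) := fun N' _ h =>
    finrank_E_chain' sys S hpO hp h6 hsqM hpS hMS hSiff hl0S r hlev hfrobS σ₀ hαβ hσ₀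
      (fun v hv => hres.no_line hv) (fun i => (Q i : ℕ)) (fun i => (Q i).2) hQp hQd h
  have hposN : 0 < Module.finrank O (sys.E (funRep O (P1 M N) (M := M))) :=
    finrank_E_pos_of_modular hp hpO hl0 hl0M hl0g hl0p hl0t (dvd_mul_right N R) hC.modular
  have hpos : 0 < Module.finrank O (sys.E (funRep O (P1 M M) (M := M))) :=
    finrank_E_pos_of_dvd' sys (dvd_mul_right N R) hposN
  have hle : Module.finrank O (sys.E (funRep O (P1 M (N * R)) (M := M))) ≤
      2 ^ s * Module.finrank ℤ (JTors.Lam N) :=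
    (hchain N dvd_rfl).trans
      (Nat.mul_le_mul_left _ (finrank_E_le_lam' sys h6 (dvd_mul_right N R)))
  haveI : NeZero (N / (V 0 : ℕ)) :=
    ⟨(Nat.div_pos (Nat.le_of_dvd (NeZero.pos N) (hVN 0).1) (V 0).2.pos).ne'⟩
  have hbot0 : Module.finrank O (sys.E (funRep O (P1 M (N / (V 0 : ℕ) * R)) (M := M))) = 0 := by
    have h := hchain (N / (V 0 : ℕ)) (Nat.mul_dvd_mul_right (Nat.div_dvd_of_dvd (hVN 0).1) R)
    rw [hFbot 0 O M l0 hl0 hl0M hpO h2O ((Nat.div_dvd_of_dvd (hVN 0).1).trans (dvd_mul_right N R))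
      fun l hl => hndvd l (hF 0 l hl).1 (hF 0 l hl).2 (by
        simp only [S₁, Finset.mem_union, Finset.mem_biUnion]
        exact Or.inr ⟨0, Finset.mem_univ _, hl⟩), finrank_bot, mul_zero] at h
    exact Nat.le_zero.1 h
  have hQW : ∀ i j, V j ≠ Q i := fun i j h => (hQ i).1 (by simp [S₁, ← h])
  have hcond : ∀ D : TWData M p (s + 1), D.N0 = N / (V 0 : ℕ) → D.Q 0 = (V 0 : ℕ) →
      (∀ i : Fin s, D.Q i.succ = (Q i : ℕ)) → D.Mod sys ≠ ⊥ →
        ∀ L : WorldRep D sys S r, L.HasCond hsqM hS hres.span := by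
    intro D hDN hD0 hDs hDne L
    by_cases ht : Tres W p
    · have hpN : p ∣ N := hC.at_p.2 ht
      have hd : p ∣ D.N0 := by
        rw [hDN]
        have := hpN
        rw [← Nat.div_mul_cancel (hVN 0).1] at this
        exact (hp.dvd_mul.1 this).resolve_right fun h =>
          hVp 0 ((Nat.prime_dvd_prime_iff_eq hp (V 0).2).1 h).symm
      refine L.hasCond_strict hsqM hS hres.span (hres.ordinary ht.1) hDne
        (oldPrime_of_squarefree hsqM hp hd) ?_
      refine (D.lower p _).Mod_eq_bot_of_rkY sys h6 hpO ?_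
      rw [TWData.rkY, TWData.finrank_E_Y]
      haveI : NeZero (N / p) := ⟨(Nat.div_pos (Nat.le_of_dvd (NeZero.pos N) hpN) hp.pos).ne'⟩
      obtain ⟨c, hc⟩ := hd
      have e1 : (D.lower p (oldPrime_of_squarefree hsqM hp ⟨c, hc⟩).dvd).N0 *
          (D.lower p (oldPrime_of_squarefree hsqM hp ⟨c, hc⟩).dvd).R = N / p * R := by
        show D.N0 / p * ∏ i, D.Q i = _
        have hN : N = p * c * (V 0 : ℕ) := by rw [← hc, hDN, Nat.div_mul_cancel (hVN 0).1]
        rw [Fin.prod_univ_succ, hD0, hc, Nat.mul_div_cancel_left _ hp.pos,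
          Finset.prod_congr rfl fun i _ => hDs i, ← hR, hN, mul_assoc p,
          Nat.mul_div_cancel_left _ hp.pos, mul_assoc]
      rw [e1]
      have h := hchain (N / p) (Nat.mul_dvd_mul_right (Nat.div_dvd_of_dvd hpN) R)
      rw [hFpbot ht M l0 hl0 hl0M h2O ((Nat.div_dvd_of_dvd hpN).trans (dvd_mul_right N R))
        fun l hl => hndvd l (hFp l hl).1 (hFp l hl).2 (by
          simp only [S₁, Finset.mem_union]
          exact Or.inl (Or.inr hl)), finrank_bot, mul_zero] at h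
      exact Nat.le_zero.1 h
    · refine L.hasCond_flat hsqM hS hres.span fun h => ht (hC.at_p.1 ?_)
      rw [hDN] at h
      exact h.trans (Nat.div_dvd_of_dvd (hVN 0).1)
  refine ⟨_, hpos, hle, exists_redInput (c := (q - 1) / p ^ e) hS hres.span sys S hpO h6 hsqM
    hpS hMS hSiff hl0S hfrobS σ₀ hαβ hσ₀ (fun v hv => hres.no_line hv) (Smin := Smin) hpSmin
    hres.ramified_iff hVinj hVmin hpl (hw 0) (htr 0) hϖ he.ne' ?_ (Nat.not_dvd_ordCompl hp ?_) hz ζ
    ζi hζz hζ hQinj hQmin hQW (fun i => (hQ i).2) hQspl (fun Lp hLp => hQB Lp 1 s hLp rfl) rfl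
    (fun i => (hVN i).1) ?_ ?_ hpos hbot0 hcond⟩
  · rw [hV0]
    exact (Nat.mul_div_cancel' hdvd).symm
  · have := hC.q_prime.two_le
    omega
  · intro l hl hlp hlne
    exact hC.min_dvd l ((Finset.mem_insert.1 hl).resolve_left hlne)
  · intro l hl hd
    by_cases h : l ∈ Smin
    · exact Or.inl h
    · exact Or.inr (hVall l hl hd h)

end FLTAgent.MLT

end
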