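import Fermat.Agent.MLT.CondShape
import Fermat.Agent.PT.TW.FlatAPI

/-!
Area MLT, parcel COND: the flat classes at `p` of strictly ordinary shape span at most `h⁰`
dimensions.
-/

set_option autoImplicit false
set_option linter.style.haveILetI false
set_option linter.unusedSectionVars false

noncomputable section

open Matrix groupCohomology FLTAgent.PT FLTAgent.PT.TW

namespace FLTAgent.MLT

open FLTAgent.Reduction (Qb)
open IsLocalRing (ResidueField)

variable {p : ℕ} [hpr : Fact p.Prime] {k : Type} [Field k] [Algebra (ZMod p) k]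

/-- in the ordinary case the flat classes of strictly ordinary shape have dimension at most `h⁰` -/
theorem exists_bound_ord_strict [Finite k] (P : PlaceData p) (r : GQ →* GL (Fin 2) k) (Q : GL (Fin 2) k)
    (O : Ord P (conjRep r Q))
    {U : Type*} [AddCommGroup U] [Module (ZMod p) U]
    (L : Z1 (MonoidHom.id GQ) (ad0 p r) →ₗ[ZMod p] U) (hL : ∀ c, IsLocTriv P r c → L c = 0)
    (c₀ : Z1 (MonoidHom.id GQ) (ad0 p r))
    (hc₀ : Flat.HasFlatModel (ExtMod r ⟨c₀.1, c₀.2.1⟩) p) :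
    ∃ N : Submodule (ZMod p) (Z1 (MonoidHom.id GQ) (ad0 p r)),
      (∀ c : Z1 (MonoidHom.id GQ) (ad0 p r),
        Flat.HasFlatModel (ExtMod r ⟨c.1, c.2.1⟩) p → c ∈ N) ∧
      ∀ S : Submodule (ZMod p) (Z1 (MonoidHom.id GQ) (ad0 p r)), S ≤ N →
        (∀ c ∈ S, ∃ M : Matrix (Fin 2) (Fin 2) k, ∀ g ∈ P.D,
          ((conjData r Q c).C g + ((conjRep r Q g : Matrix (Fin 2) (Fin 2) k) * M *
            ((conjRep r Q g)⁻¹ : GL (Fin 2) k) - M)) 1 0 = 0 ∧
          ((conjData r Q c).C g + ((conjRep r Q g : Matrix (Fin 2) (Fin 2) k) * M *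
            ((conjRep r Q g)⁻¹ : GL (Fin 2) k) - M)) 0 0 = 0) →
      Finite (S.map L) ∧
      (Module.finrank (ZMod p) (S.map L) = 0 ∨
          (Module.finrank (ZMod p) (S.map L) ≤ Module.finrank (ZMod p) k ∧
            ∀ g ∈ P.D, (conjRep r Q g : Matrix (Fin 2) (Fin 2) k) 1 0 = 0 ∧
              (conjRep r Q g : Matrix (Fin 2) (Fin 2) k) 0 1 = 0)) := by
  classical
  haveI : NeZero p := ⟨hpr.out.ne_zero⟩
  haveI : CharP k p := charP_of_injective_algebraMap' (ZMod p) p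
  set f := Module.finrank (ZMod p) k with hf
  set D0 := conjData (p := p) r Q
  -- the coboundary clearing the lower left entry
  let mc : Z1 (MonoidHom.id GQ) (ad0 p r) → Matrix (Fin 2) (Fin 2) k :=
    fun c => !![0, 0; (D0 c).C O.s 1 0 * O.ω / (O.ω - 1), 0]
  have hmt : ∀ c, (mc c).trace = 0 := fun c => by simp [mc, Matrix.trace_fin_two_of]
  let D : Z1 (MonoidHom.id GQ) (ad0 p r) → CData p (conjRep r Q) :=
    fun c => (D0 c).shift (mc c) (hmt c) O.hlevel
  have hmadd : ∀ c c', mc (c + c') = mc c + mc c' := fun c c' => by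
    simp only [mc, D0, conjData_C, Submodule.coe_add, Pi.add_apply, mul_add, add_mul,
      Matrix.add_apply, add_div]
    ext i j
    fin_cases i <;> fin_cases j <;> simp
  have hmzero : mc 0 = 0 := by
    have := hmadd 0 0
    rwa [add_zero, left_eq_add] at this
  have hDadd : ∀ c c' g, (D (c + c')).C g = (D c).C g + (D c').C g := fun c c' g => by
    show (D0 (c + c')).C g + _ = (D0 c).C g + _ + ((D0 c').C g + _)
    simp only [hmadd, D0, conjData_C, Submodule.coe_add, Pi.add_apply, mul_add, add_mul]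
    abel
  have hDzero : ∀ g, (D 0).C g = 0 := fun g => by
    have := hDadd 0 0 g
    rwa [add_zero, left_eq_add] at this
  have hDneg : ∀ c g, (D (-c)).C g = -(D c).C g := fun c g => by
    have := hDadd c (-c) g
    rw [show c + -c = 0 from add_neg_cancel c, hDzero] at this
    exact eq_neg_of_add_eq_zero_right this.symm
  have happ : ∀ c c' (l : k →+ ZMod p), Ord.app (fun g => (D (c + c')).C g 0 1) l =
      Ord.app (fun g => (D c).C g 0 1) l + Ord.app (fun g => (D c').C g 0 1) l := fun c c' l =>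
    funext fun g => by
      show l ((D (c + c')).C g 0 1) = l ((D c).C g 0 1) + l ((D c').C g 0 1)
      rw [hDadd, Matrix.add_apply, map_add]
  let N₀ : AddSubgroup (Z1 (MonoidHom.id GQ) (ad0 p r)) :=
    { carrier := {c | (∀ g ∈ P.D, (D c).C g 1 0 = 0) ∧ (∀ σ ∈ P.I, (D c).C σ 0 0 = 0) ∧
        ∀ l, Ord.app (fun g => (D c).C g 0 1) l ∈ P.Lvl P.e}
      add_mem' := fun {c c'} hc hc' => ⟨fun g hg => by
          rw [hDadd, Matrix.add_apply, hc.1 g hg, hc'.1 g hg, add_zero],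
        fun σ hσ => by rw [hDadd, Matrix.add_apply, hc.2.1 σ hσ, hc'.2.1 σ hσ, add_zero],
        fun l => by rw [happ]; exact add_mem (hc.2.2 l) (hc'.2.2 l)⟩
      zero_mem' := ⟨fun g _ => by rw [hDzero, Matrix.zero_apply],
        fun g _ => by rw [hDzero, Matrix.zero_apply],
        fun l => by
          rw [show Ord.app (fun g => (D 0).C g 0 1) l = 0 from funext fun g => by
            simp only [Ord.app, hDzero, Matrix.zero_apply, map_zero, Pi.zero_apply]]
          exact zero_mem _⟩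
      neg_mem' := fun {c} hc => ⟨fun g hg => by rw [hDneg, Matrix.neg_apply, hc.1 g hg, neg_zero],
        fun g hg => by rw [hDneg, Matrix.neg_apply, hc.2.1 g hg, neg_zero],
        fun l => by
          rw [show Ord.app (fun g => (D (-c)).C g 0 1) l = -Ord.app (fun g => (D c).C g 0 1) l from
            funext fun g => by
              simp only [Ord.app, hDneg, Matrix.neg_apply, map_neg, Pi.neg_apply]]
          exact neg_mem (hc.2.2 l)⟩ }
  set N := AddSubgroup.toZModSubmodule p N₀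
  -- what flatness gives
  have hflat : ∀ c : Z1 (MonoidHom.id GQ) (ad0 p r),
      Flat.HasFlatModel (ExtMod r ⟨c.1, c.2.1⟩) p → c ∈ N ∧
        ∀ l, P.idx (Ord.app (fun g => (conjRep r Q g : Matrix (Fin 2) (Fin 2) k) 0 1) l) = 0 := by
    intro c hc
    obtain ⟨M₀, hM₀⟩ := exists_mdl_conj r Q c P.hA hc (D0 c) 0 (fun g => by simp [D0])
    obtain ⟨M, hM⟩ := exists_mdl_conj r Q c P.hA hc (D c) (mc c) (fun g => rfl)
    have hc10 : ∀ g ∈ P.D, (D c).C g 1 0 = 0 := fun g hg => by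
      have h := O.c10_shift (D0 c) M₀ hM₀ hg
      obtain ⟨hx, hz⟩ := O.xz_ne hg
      show ((D0 c).C g + _) 1 0 = 0
      rw [Matrix.add_apply, O.R_inv hg, O.R_eq hg]
      simp [mc, Matrix.mul_apply, Fin.sum_univ_two, Matrix.vecMul, dotProduct]
      field_simp at h ⊢
      linear_combination h
    have haH : ∀ h ∈ P.H, (D c).C h 0 0 = 0 := fun h hh => O.a_zero_H (D c) M hM hc10 hh
    have haI : ∀ σ ∈ P.I, (D c).C σ 0 0 = 0 := fun σ hσ => O.a_zero_I (D c) hc10 haH hσ
    refine ⟨⟨hc10, haI, O.app_lvl (O.wt_b (D c) hc10 haI) fun l => O.idx_zero (D c) M hM hc10 haH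
      (O.wt_b (D c) hc10 haI) ⟨![0, 1], 0⟩ (fun σ hσ => ?_) l⟩, fun l => O.idx_zero (D c) M hM hc10
        haH O.wt_y ⟨0, ![0, 1]⟩ (fun σ hσ => ?_) l⟩
    · have hD := O.H_le_D hσ
      obtain ⟨hx1, hz1⟩ := O.xH hσ
      have h11 := (D c).trace_diag σ
      rw [haI σ (P.H_le hσ), neg_zero] at h11
      rw [(D c).mem_flag, (D c).sub_fst, (D c).sub_snd, CData.smul_fst, CData.smul_snd, O.R_eq hD,
        hx1, hz1]
      simp [Matrix.mulVec, dotProduct, Fin.sum_univ_two, hc10 σ hD, haI σ (P.H_le hσ), h11]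
    · have hD := O.H_le_D hσ
      obtain ⟨hx1, hz1⟩ := O.xH hσ
      rw [(D c).mem_flag, (D c).sub_fst, (D c).sub_snd, CData.smul_fst, CData.smul_snd, O.R_eq hD,
        hx1, hz1]
      simp [Matrix.mulVec, dotProduct, Fin.sum_univ_two, Ord.y]
  refine ⟨N, fun c hc => (hflat c hc).1, fun S hSN hSh => ?_⟩
  -- the diagonal vanishes at Frobenius
  have hzero : ∀ c ∈ S, (D c).C P.φ 0 0 = 0 := by
    intro c hc
    obtain ⟨M, hM⟩ := hSh c hc
    have h10 : ∀ g ∈ P.D, (O.z g / O.x g - 1) * ((mc c) 1 0 - M 1 0) = 0 := fun g hg => by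
      have e1 : ((D0 c).C g + _) 1 0 = 0 := (hSN hc).1 g hg
      have e2 := (hM g hg).1
      obtain ⟨hx, hz⟩ := O.xz_ne hg
      rw [Matrix.add_apply, O.R_inv hg, O.R_eq hg] at e1 e2
      simp [Matrix.mul_apply, Fin.sum_univ_two, Matrix.vecMul, dotProduct, D0] at e1 e2
      field_simp at e1 e2 ⊢
      linear_combination e1 - e2
    have hd : (mc c) 1 0 - M 1 0 = 0 := by
      have e := h10 O.s O.sD
      rw [O.xs, O.zs] at e
      refine (mul_eq_zero.mp e).resolve_left (sub_ne_zero.mpr fun he => O.ω_ne_one ?_)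
      exact ((div_eq_one_iff_eq O.ω_ne_zero).mp he).symm
    have e2 := (hM _ P.φ_mem).2
    obtain ⟨hx, hz⟩ := O.xz_ne P.φ_mem
    show ((D0 c).C P.φ + _) 0 0 = 0
    rw [Matrix.add_apply, O.R_inv P.φ_mem, O.R_eq P.φ_mem] at e2 ⊢
    simp [Matrix.mul_apply, Fin.sum_univ_two, Matrix.vecMul, dotProduct, D0] at e2 ⊢
    rw [sub_eq_zero.mp hd]
    field_simp at e2 ⊢
    linear_combination e2
  -- triviality of the kernels
  have hker : ∀ c : N, (D c.1).C P.φ 0 0 = 0 →
      (∀ l, P.wL P.e (Ord.app (fun g => (D c.1).C g 0 1) l) = 0) → L c = 0 := by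
    intro c hφ hw
    have hb : ∀ h ∈ P.H, (D c.1).C h 0 1 = 0 := fun h hh =>
      O.app_eq_zero (O.wt_b (D c.1) c.2.1 c.2.2.1) c.2.2.2 hw hh
    obtain ⟨m, hm, htriv⟩ := O.exists_triv (D c.1) c.2.1 c.2.2.1 hb hφ
    refine hL _ (isLocTriv_of_shift Q _ (m := mc c.1 + m)
      (by rw [Matrix.trace_add, hmt, hm, add_zero]) fun g hg => ?_)
    rw [(D0 c.1).shift_shift]
    exact htriv g hg
  obtain ⟨hsfin, hscard⟩ := O.semi_card
  haveI hsf := hsfin.to_subtype
  have hcardk : Nat.card k = p ^ f := by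
    haveI : Module.Finite (ZMod p) k := Module.Finite.of_finite
    rw [Module.natCard_eq_pow_finrank (K := ZMod p), Nat.card_zmod, hf]
  let wb : ∀ c : N, (k →+ ZMod p) →+ ResidueField P.A :=
    fun c => Ord.wE (P := P) (fun g => (D c.1).C g 0 1) c.2.2.2
  have hwb : ∀ c c' : N, wb (c + c') = wb c + wb c' := fun c c' => AddMonoidHom.ext fun l => by
    rw [AddMonoidHom.add_apply]
    simp only [wb, O.wE_apply, Submodule.coe_add, happ]
    exact P.wL_add P.not_dvd_e (Ord.e_lt_top P) (c.2.2.2 l) (c'.2.2.2 l)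
  by_cases hy : ∀ h ∈ P.H, O.y h = 0
  · -- diagonal on the decomposition group
    let Φ : S →+ ((k →+ ZMod p) →+ ResidueField P.A) :=
      AddMonoidHom.mk' (fun c => wb ⟨c.1, hSN c.2⟩) fun c c' => hwb ⟨c.1, hSN c.2⟩ ⟨c'.1, hSN c'.2⟩
    have h := Count.finrank_map_le L S Φ (fun c h0 => hker ⟨c.1, hSN c.2⟩ (hzero c.1 c.2)
      fun l => DFunLike.congr_fun h0 l) _ hsfin
      (fun c => O.wE_mem_semi (hSN c.2).2.2 fun h hh => O.b_conj_φ (D c.1) (hSN c.2).1 (hSN c.2).2.1
        (fun h hh => by rw [hy h hh, zero_mul]) hh) (f := f) hscard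
    exact ⟨h.1, Or.inr ⟨h.2, fun g hg => ⟨O.hlow g hg, O.y_zero_D hy hg⟩⟩⟩
  -- peu ramifié residual extension
  set β : GQ → k := fun g => (conjRep r Q g : Matrix (Fin 2) (Fin 2) k) 0 1
  have hwtγ : ∀ γ : k, O.Wt fun g => γ * β g := fun γ =>
    { add := fun σ hσ τ hτ => by
        rw [show β (σ * τ) = β σ + β τ from O.wt_y.add σ hσ τ hτ, mul_add]
      level := by
        obtain ⟨F, hF, h⟩ := O.wt_y.level
        exact ⟨F, hF, fun σ hσ => by rw [show β σ = 0 from h σ hσ, mul_zero]⟩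
      conj := fun h hh => by
        rw [mul_left_comm, show O.ω * β (O.s⁻¹ * h * O.s) = β h from O.wt_y.conj h hh] }
  have hlγ : ∀ (γ : k) l, Ord.app (fun g => γ * β g) l ∈ P.Lvl P.e := fun γ l =>
    O.app_lvl O.wt_y (hflat c₀ hc₀).2 (l.comp (AddMonoidHom.mulLeft γ))
  let Ψ : k → O.semi := fun γ => ⟨Ord.wE (P := P) _ (hlγ γ), O.wE_mem_semi (hlγ γ) fun h hh => by
    rw [show β (P.φ⁻¹ * h * P.φ) = _ from O.y_conj_φ hh]; ring⟩
  have hΨ : Function.Injective Ψ := by
    intro γ γ' he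
    by_contra hne
    refine hy fun h hh => ?_
    have h0 := O.app_eq_zero (hwtγ (γ - γ')) (hlγ _) (fun l => ?_) hh
    · exact (mul_eq_zero.mp h0).resolve_left (sub_ne_zero.mpr hne)
    · have e := DFunLike.congr_fun (congrArg Subtype.val he) l
      simp only [Ψ, O.wE_apply] at e
      rw [show Ord.app (fun g => (γ - γ') * β g) l =
          Ord.app (fun g => γ * β g) l + (-1 : ZMod p) • Ord.app (fun g => γ' * β g) l from
        funext fun g => by
          show l ((γ - γ') * β g) = l (γ * β g) + (-1) * l (γ' * β g)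
          rw [sub_mul, map_sub]; ring,
        P.wL_add P.not_dvd_e (Ord.e_lt_top P) (hlγ γ l) (P.lvl_smul (hlγ γ' l) _),
        (P.wL_smul P.not_dvd_e (Ord.e_lt_top P) (hlγ γ' l) _).2, e]
      haveI := P.charP_res
      have hneg : (((-1 : ZMod p).val : ℕ) : ResidueField P.A) = -1 := by
        rw [ZMod.natCast_val, ZMod.cast_neg (dvd_refl p), ZMod.cast_one (dvd_refl p)]
      rw [hneg]
      ring
  have hΨs : Function.Surjective Ψ :=
    (hΨ.bijective_of_nat_card_le (hscard.trans hcardk.ge)).2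
  let Φ : S →+ k := 0
  have h := Count.finrank_map_le L S Φ (fun c' _ => ?_) {0} (Set.finite_singleton _)
    (fun c => rfl) (f := 0) (by rw [pow_zero, Nat.card_eq_fintype_card]; simp)
  · exact ⟨h.1, Or.inl (Nat.le_zero.mp h.2)⟩
  · -- absorb the leading residues by a diagonal coboundary
    obtain ⟨c, hcc⟩ : ∃ c : N, c.1 = c'.1 := ⟨⟨c'.1, hSN c'.2⟩, rfl⟩
    have hφ : (D c.1).C P.φ 0 0 = 0 := by rw [hcc]; exact hzero c'.1 c'.2
    rw [← hcc]
    obtain ⟨γ, hγ⟩ := hΨs ⟨wb c, O.wE_mem_semi c.2.2.2 fun h hh => O.b_conj_φ (D c.1) c.2.1 c.2.2.1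
      (fun h hh => by rw [hφ, mul_zero]) hh⟩
    have h2 : (2 : k) ≠ 0 := fun h => by
      have := Nat.le_of_dvd two_pos ((CharP.cast_eq_zero_iff k p 2).mp (by exact_mod_cast h))
      have := P.three_le
      omega
    set t := γ / 2
    set md : Matrix (Fin 2) (Fin 2) k := !![t, 0; 0, -t] with hmd
    have hmdt : md.trace = 0 := by rw [hmd, Matrix.trace_fin_two_of, add_neg_cancel]
    set d' := (D c.1).shift md hmdt O.hlevel with hd'
    have hv : ∀ g ∈ P.D, d'.C g 0 0 = (D c.1).C g 0 0 ∧ d'.C g 1 0 = (D c.1).C g 1 0 ∧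
        d'.C g 0 1 = (D c.1).C g 0 1 - γ * O.y g / O.z g := by
      intro g hg
      obtain ⟨hx, hz⟩ := O.xz_ne hg
      refine ⟨?_, ?_, ?_⟩ <;>
      · show ((D c.1).C g + _) _ _ = _
        rw [Matrix.add_apply, O.R_inv hg, O.R_eq hg, hmd]
        simp [Matrix.mul_apply, Fin.sum_univ_two, Matrix.vecMul, dotProduct, t]
        try field_simp
        try ring
    have hc' : ∀ g ∈ P.D, d'.C g 1 0 = 0 := fun g hg => (hv g hg).2.1.trans (c.2.1 g hg)
    have ha' : ∀ σ ∈ P.I, d'.C σ 0 0 = 0 := fun σ hσ =>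
      (hv σ (P.I_le_D hσ)).1.trans (c.2.2.1 σ hσ)
    have hb' : ∀ h ∈ P.H, d'.C h 0 1 = 0 := by
      have heq : ∀ (l : k →+ ZMod p), ∀ h ∈ P.H, Ord.app (fun g => d'.C g 0 1) l h =
          (Ord.app (fun g => (D c.1).C g 0 1) l + (-1 : ZMod p) • Ord.app (fun g => γ * β g) l) h :=
        fun l h hh => by
          show l (d'.C h 0 1) = l ((D c.1).C h 0 1) + (-1) * l (γ * β h)
          rw [(hv h (O.H_le_D hh)).2.2, (O.xH hh).2, div_one, map_sub]
          show l ((D c.1).C h 0 1) - l (γ * β h) = _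
          ring
      have hmem : ∀ l, Ord.app (fun g => (D c.1).C g 0 1) l +
          (-1 : ZMod p) • Ord.app (fun g => γ * β g) l ∈ P.Lvl P.e :=
        fun l => add_mem (c.2.2.2 l) (P.lvl_smul (hlγ γ l) _)
      refine fun h hh => O.app_eq_zero (O.wt_b d' hc' ha')
        (fun l => P.lvl_congr (heq l) (hmem l)) (fun l => ?_) hh
      have e := DFunLike.congr_fun (congrArg Subtype.val hγ) l
      simp only [Ψ, wb, O.wE_apply] at e
      rw [P.wL_congr P.not_dvd_e (Ord.e_lt_top P) (heq l) (hmem l),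
        P.wL_add P.not_dvd_e (Ord.e_lt_top P) (c.2.2.2 l) (P.lvl_smul (hlγ γ l) _),
        (P.wL_smul P.not_dvd_e (Ord.e_lt_top P) (hlγ γ l) _).2, e]
      haveI := P.charP_res
      have hneg : (((-1 : ZMod p).val : ℕ) : ResidueField P.A) = -1 := by
        rw [ZMod.natCast_val, ZMod.cast_neg (dvd_refl p), ZMod.cast_one (dvd_refl p)]
      rw [hneg]
      ring
    obtain ⟨m, hm, htriv⟩ := O.exists_triv d' hc' ha' hb' ((hv _ P.φ_mem).1.trans hφ)
    refine hL _ (isLocTriv_of_shift Q _ (m := mc c.1 + (md + m))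
      (by rw [Matrix.trace_add, Matrix.trace_add, hmt, hmdt, hm, add_zero, add_zero])
      fun g hg => ?_)
    rw [(D0 c.1).shift_shift, ← htriv g hg]
    exact (D c.1).shift_shift g

/-- flat and strictly ordinary: at most `h⁰` -/
theorem finrank_flat_inf_strict_le [Finite k] (hp2 : p ≠ 2) (r : GQ →* GL (Fin 2) k)
    (hr : ∃ F : IntermediateField ℚ (AlgebraicClosure ℚ), FiniteDimensional ℚ F ∧
      ∀ g ∈ F.fixingSubgroup, r g = 1)
    {U0 U0' : Matrix (Fin 2) (Fin 2) k} (hU0 : U0' * U0 = 1) (hU0' : U0 * U0' = 1)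
    (hl : IsStrictLine p r (ExtCitation.pPrime p) U0 U0') :
    Module.finrank (ZMod p) (Submodule.span (ZMod p) (flatClasses (p := p) r) ⊓
        strictCls p r (ExtCitation.pPrime p) U0 U0' :
          Submodule (ZMod p) (lH1 (ExtCitation.pPrime p) (ad0 p r))) ≤
      Module.finrank (ZMod p) (lH0 (ExtCitation.pPrime p) (ad0 p r)) := by
  classical
  haveI : NeZero p := ⟨hpr.out.ne_zero⟩
  haveI : Fact (1 < p) := ⟨hpr.out.one_lt⟩
  set q := ExtCitation.pPrime p with hq
  have hA : (ExtCitation.primeLocalPlace q).LiesOverPrime p := by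
    simpa [hq] using lies_plc (ExtCitation.pPrime p)
  obtain ⟨P, hPA⟩ := exists_placeData hA hp2
  haveI := P.charP_res
  letI : Algebra (ZMod p) (ResidueField P.A) := ZMod.algebra _ p
  have hD : ∀ g : Gam q, loc q g ∈ P.D := fun g => by
    show loc q g ∈ P.A.decompositionSubgroup ℚ
    rw [hPA, ← range_loc' q]
    exact ⟨g, rfl⟩
  have hDq : P.D = (ExtCitation.primeLocalPlace q).decompositionSubgroup ℚ := by
    show P.A.decompositionSubgroup ℚ = _
    rw [hPA]
  have hIq : P.I = (ExtCitation.primeLocalPlace q).inertiaSubgroupIn ℚ := by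
    show P.A.inertiaSubgroupIn ℚ = _
    rw [hPA]
  set L : Z1 (MonoidHom.id GQ) (ad0 p r) →ₗ[ZMod p] lH1 q (ad0 p r) :=
    (res1 q (ad0 p r)).comp (h1mk _ _) with hLdef
  have hL : ∀ c, IsLocTriv P r c → L c = 0 := by
    rintro c ⟨m, hm, h⟩
    rw [hLdef, LinearMap.comp_apply, res1, h1map_mk, h1mk_eq_zero_iff]
    exact ⟨(⟨m, hm⟩ : adSpace p k), fun g => Subtype.ext (h _ (hD g)).symm⟩
  rcases (flatClasses (p := p) r).eq_empty_or_nonempty with he | ⟨_, c₀, -, hc₀⟩
  · rw [he, Submodule.span_empty, bot_inf_eq, finrank_bot]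
    exact Nat.zero_le _
  obtain ⟨s, hs, hgen⟩ := P.exists_gen
  let Q : GL (Fin 2) k := ⟨U0, U0', hU0', hU0⟩
  have hconj : ∀ g, (conjRep r Q g : Matrix (Fin 2) (Fin 2) k) = U0' * matHom r g * U0 := fun g =>
    conjRep_coe r Q g
  have hlow : ∀ g ∈ P.D, (conjRep r Q g : Matrix (Fin 2) (Fin 2) k) 1 0 = 0 := fun g hg => by
    rw [hconj]; exact (hl.low g (hDq ▸ hg)).1
  have hI : ∀ σ ∈ P.I, (conjRep r Q σ : Matrix (Fin 2) (Fin 2) k) 0 0 =
      algebraMap (ZMod p) k (ExtCitation.cycloChar p σ) ∧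
      (conjRep r Q σ : Matrix (Fin 2) (Fin 2) k) 1 1 = 1 := fun σ hσ => by
    have h11 : (conjRep r Q σ : Matrix (Fin 2) (Fin 2) k) 1 1 = 1 := by
      rw [hconj]; exact hl.inertia σ (hIq ▸ hσ)
    refine ⟨?_, h11⟩
    rw [hconj]
    rw [(hl.low σ (hDq ▸ P.I_le_D hσ)).2, hl.inertia σ (hIq ▸ hσ), mul_one]
  -- an eigenbasis for the generator of tame inertia
  set ω := algebraMap (ZMod p) k (ExtCitation.cycloChar p s)
  have hω : ω - 1 ≠ 0 := sub_ne_zero.mpr fun h => by
    have h1 := P.th_cyclo hs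
    rw [(algebraMap (ZMod p) k).injective (h.trans (map_one _).symm), ZMod.val_one, Nat.cast_one,
      hgen.pow_eq_one_iff_dvd] at h1
    have := Nat.le_of_dvd (by omega) h1
    have := P.two_p_lt
    omega
  set u := -(conjRep r Q s : Matrix (Fin 2) (Fin 2) k) 0 1 / (ω - 1) with hu
  let U : GL (Fin 2) k := Matrix.GeneralLinearGroup.mkOfDetNeZero !![1, u; 0, 1]
    (by simp [Matrix.det_fin_two_of])
  have hU : (U : Matrix (Fin 2) (Fin 2) k) = !![1, u; 0, 1] := rfl
  have hUi : ((U⁻¹ : GL (Fin 2) k) : Matrix (Fin 2) (Fin 2) k) = !![1, -u; 0, 1] :=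
    Units.inv_eq_of_mul_eq_one_right (by
      rw [hU, Matrix.mul_fin_two]; simp [Matrix.one_fin_two])
  have hent : ∀ g ∈ P.D,
      (conjRep r (Q * U) g : Matrix (Fin 2) (Fin 2) k) 1 0 = 0 ∧
      (conjRep r (Q * U) g : Matrix (Fin 2) (Fin 2) k) 0 0 =
        (conjRep r Q g : Matrix (Fin 2) (Fin 2) k) 0 0 ∧
      (conjRep r (Q * U) g : Matrix (Fin 2) (Fin 2) k) 1 1 =
        (conjRep r Q g : Matrix (Fin 2) (Fin 2) k) 1 1 ∧
      (conjRep r (Q * U) g : Matrix (Fin 2) (Fin 2) k) 0 1 =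
        ((conjRep r Q g : Matrix (Fin 2) (Fin 2) k) 0 0 -
          (conjRep r Q g : Matrix (Fin 2) (Fin 2) k) 1 1) * u +
          (conjRep r Q g : Matrix (Fin 2) (Fin 2) k) 0 1 := by
    intro g hg
    rw [conjRep_mul_coe, hU, hUi]
    have h0 := hlow g hg
    simp [Matrix.mul_apply, Fin.sum_univ_two, Matrix.vecMul, dotProduct, h0]
    ring
  let O : Ord P (conjRep r (Q * U)) :=
    { s := s
      hs := hs
      hgen := hgen
      hlow := fun g hg => (hent g hg).1
      h00 := fun σ hσ => (hent σ (P.I_le_D hσ)).2.1.trans (hI σ hσ).1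
      h11 := fun σ hσ => (hent σ (P.I_le_D hσ)).2.2.1.trans (hI σ hσ).2
      hS := by
        rw [(hent s (P.I_le_D hs)).2.2.2, (hI s hs).1, (hI s hs).2, hu, mul_div_cancel₀ _ hω,
          neg_add_cancel]
      hlevel := conjRep_level r _ hr }
  obtain ⟨N, hN, hb⟩ := exists_bound_ord_strict P r (Q * U) O L hL c₀ hc₀
  set S := N ⊓ strictShape p r q U0 U0'
  have hshape : ∀ c ∈ S, ∃ M : Matrix (Fin 2) (Fin 2) k, ∀ g ∈ P.D,
      ((conjData r (Q * U) c).C g + ((conjRep r (Q * U) g : Matrix (Fin 2) (Fin 2) k) * M *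
        ((conjRep r (Q * U) g)⁻¹ : GL (Fin 2) k) - M)) 1 0 = 0 ∧
      ((conjData r (Q * U) c).C g + ((conjRep r (Q * U) g : Matrix (Fin 2) (Fin 2) k) * M *
        ((conjRep r (Q * U) g)⁻¹ : GL (Fin 2) k) - M)) 0 0 = 0 := by
    rintro c ⟨-, Y, hY⟩
    set T : GL (Fin 2) k := Q * U with hT
    refine ⟨((T⁻¹ : GL (Fin 2) k) : Matrix (Fin 2) (Fin 2) k) * Y.1 * (T : Matrix (Fin 2) (Fin 2) k), fun g hg => ?_⟩
    obtain ⟨a, ha⟩ := hY g (hDq ▸ hg)
    have e : (conjData r T c).C g + ((conjRep r T g : Matrix (Fin 2) (Fin 2) k) *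
        (((T⁻¹ : GL (Fin 2) k) : Matrix (Fin 2) (Fin 2) k) * Y.1 * (T : Matrix (Fin 2) (Fin 2) k)) *
        (((conjRep r T g)⁻¹ : GL (Fin 2) k) : Matrix (Fin 2) (Fin 2) k) -
        (((T⁻¹ : GL (Fin 2) k) : Matrix (Fin 2) (Fin 2) k) * Y.1 * (T : Matrix (Fin 2) (Fin 2) k))) =
        a • !![0, 1; 0, 0] := by
      have e1 : (conjData r T c).C g + ((conjRep r T g : Matrix (Fin 2) (Fin 2) k) *
          (((T⁻¹ : GL (Fin 2) k) : Matrix (Fin 2) (Fin 2) k) * Y.1 * (T : Matrix (Fin 2) (Fin 2) k)) *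
          (((conjRep r T g)⁻¹ : GL (Fin 2) k) : Matrix (Fin 2) (Fin 2) k) -
          (((T⁻¹ : GL (Fin 2) k) : Matrix (Fin 2) (Fin 2) k) * Y.1 * (T : Matrix (Fin 2) (Fin 2) k))) =
          ((T⁻¹ : GL (Fin 2) k) : Matrix (Fin 2) (Fin 2) k) * ((c.1 g).1 +
            ((matHom r g * Y.1 * matHom r g⁻¹) - Y.1)) * (T : Matrix (Fin 2) (Fin 2) k) := by
        simp only [conjData_C, conjRep, MonoidHom.comp_apply, MulEquiv.coe_toMonoidHom,
          MulAut.conj_apply, inv_inv, _root_.mul_inv_rev, Units.val_mul, matHom_apply,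
          mul_add, add_mul, mul_sub, sub_mul, mul_assoc, Units.mul_inv_cancel_left]
        rw [map_inv r]
      rw [e1, ha, hT]
      simp only [_root_.mul_inv_rev, Units.val_mul, mul_smul_comm, smul_mul_assoc]
      congr 1
      show ((U⁻¹ : GL (Fin 2) k) : Matrix (Fin 2) (Fin 2) k) * U0' * (U0 * !![0, 1; 0, 0] * U0') *
        (U0 * (U : Matrix (Fin 2) (Fin 2) k)) = _
      rw [hUi, hU]
      calc _ = !![1, -u; 0, 1] * (U0' * U0) * !![0, 1; 0, 0] * (U0' * U0) * !![1, u; 0, 1] := by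
            simp only [mul_assoc]
        _ = _ := by
          rw [hU0, mul_one, mul_one]
          ext i j
          fin_cases i <;> fin_cases j <;>
            simp [Matrix.mul_apply, Fin.sum_univ_two, Matrix.vecMul, dotProduct]
    rw [e]
    simp
  obtain ⟨hfin, hb⟩ := hb S inf_le_left hshape
  haveI := hfin
  haveI : Module.Finite (ZMod p) (S.map L) := Module.Finite.of_finite
  have hle : (Submodule.span (ZMod p) (flatClasses (p := p) r) ⊓
      strictCls p r q U0 U0' : Submodule (ZMod p) (lH1 q (ad0 p r))) ≤ S.map L := by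
    rintro x ⟨hx, z, ⟨Y, hY⟩, hzx⟩
    obtain ⟨c, hc, hcx⟩ : x ∈ N.map L := by
      refine (Submodule.span_le.mpr ?_) hx
      rintro x ⟨c, rfl, hc⟩
      exact Submodule.mem_map_of_mem (f := L) (hN c hc)
    have h0 : L (z - c) = 0 := (map_sub L z c).trans (sub_eq_zero.mpr (hzx.trans hcx.symm))
    rw [hLdef, LinearMap.comp_apply, res1, h1map_mk, h1mk_eq_zero_iff] at h0
    obtain ⟨m, hm⟩ := h0
    refine ⟨c, ⟨hc, Y + m, fun s hs => ?_⟩, hcx⟩
    obtain ⟨γ, hγ⟩ : s ∈ Set.range (loc q) := by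
      have := hs
      rw [← range_loc] at this
      exact this
    obtain ⟨a, ha⟩ := hY s hs
    refine ⟨a, ?_⟩
    have e := congrArg Subtype.val (hm γ)
    rw [Submodule.coe_sub] at e
    change (r (loc q γ) : Matrix (Fin 2) (Fin 2) k) * (m : adSpace p k).1 *
      ((r (loc q γ))⁻¹ : GL (Fin 2) k) - (m : adSpace p k).1 =
      (z.1 (loc q γ)).1 - (c.1 (loc q γ)).1 at e
    rw [← matHom_inv, ← matHom_apply, hγ] at e
    rw [← ha, show (z.1 s).1 = (c.1 s).1 + ((z.1 s).1 - (c.1 s).1) by abel, ← e,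
      Submodule.coe_add, mul_add, add_mul]
    abel
  refine (Submodule.finrank_mono hle).trans ?_
  rcases hb with hb | ⟨hb, hdiag⟩
  · rw [hb]
    exact Nat.zero_le _
  refine hb.trans ?_
  -- the invariants contain the diagonal
  haveI : Module.Finite (ZMod p) k := Module.Finite.of_finite
  haveI : Module.Finite (ZMod p) (adSpace p k) := Module.Finite.of_finite
  haveI : Module.Finite (ZMod p) (lH0 q (ad0 p r)) := Module.Finite.of_finite
  set T : GL (Fin 2) k := Q * U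
  have hmem : ∀ γ : k, ∃ X : lH0 q (ad0 p r), (X.1 : adSpace p k).1 =
      (T : Matrix (Fin 2) (Fin 2) k) * !![γ, 0; 0, -γ] * ((T⁻¹ : GL (Fin 2) k)) := by
    intro γ
    refine ⟨⟨(⟨_, ?_⟩ : adSpace p k), fun g => Subtype.ext ?_⟩, rfl⟩
    · show Matrix.trace _ = 0
      rw [Matrix.trace_mul_comm, ← mul_assoc, ← Units.val_mul, inv_mul_cancel, Units.val_one,
        one_mul, Matrix.trace_fin_two_of, add_neg_cancel]
    · show ((ad0 p r).ρ (loc q g) _).1 = _
      rw [ad0_apply]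
      set g' := loc q g
      obtain ⟨h10, h01⟩ := hdiag g' (hD g)
      have hcomm : (conjRep r T g' : Matrix (Fin 2) (Fin 2) k) * !![γ, 0; 0, -γ] =
          !![γ, 0; 0, -γ] * (conjRep r T g' : Matrix (Fin 2) (Fin 2) k) := by
        rw [Matrix.eta_fin_two (conjRep r T g' : Matrix (Fin 2) (Fin 2) k), h10, h01,
          Matrix.mul_fin_two, Matrix.mul_fin_two]
        simp [mul_comm]
      have hrT : (r g' : Matrix (Fin 2) (Fin 2) k) * (T : Matrix (Fin 2) (Fin 2) k) =
          (T : Matrix (Fin 2) (Fin 2) k) * conjRep r T g' := by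
        rw [conjRep_coe, ← mul_assoc, ← mul_assoc, Units.mul_inv, one_mul]
      show (r g' : Matrix (Fin 2) (Fin 2) k) *
          ((T : Matrix (Fin 2) (Fin 2) k) * !![γ, 0; 0, -γ] * ((T⁻¹ : GL (Fin 2) k))) *
          ((r g')⁻¹ : GL (Fin 2) k) = _
      rw [← mul_assoc, ← mul_assoc, hrT, mul_assoc (T : Matrix (Fin 2) (Fin 2) k) _, hcomm,
        ← mul_assoc, conjRep_coe]
      simp only [mul_assoc, Units.mul_inv, Units.mul_inv_cancel_left, mul_one]
  choose f hf using hmem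
  have hfadd : ∀ γ γ', f (γ + γ') = f γ + f γ' := fun γ γ' => Subtype.ext (Subtype.ext (by
    show ((f (γ + γ')).1 : adSpace p k).1 =
      ((f γ).1 : adSpace p k).1 + ((f γ').1 : adSpace p k).1
    rw [hf, hf, hf, ← add_mul, ← mul_add]
    congr 2
    simp [add_comm]))
  refine LinearMap.finrank_le_finrank_of_injective (f := (AddMonoidHom.mk' f hfadd).toZModLinearMap p)
    fun γ γ' h => ?_
  have h1 := congrArg (fun X : lH0 q (ad0 p r) => ((T⁻¹ : GL (Fin 2) k) : Matrix _ _ k) *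
    (X.1 : adSpace p k).1 * (T : Matrix (Fin 2) (Fin 2) k)) h
  simp only [AddMonoidHom.coe_toZModLinearMap, AddMonoidHom.mk'_apply, hf, mul_assoc,
    Units.inv_mul, mul_one, Units.inv_mul_cancel_left] at h1
  simpa using congrFun (congrFun h1 0) 0

end FLTAgent.MLT
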