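import Fermat.Agent.MLT.CondGenerators
import Fermat.Agent.MLT.CondFlatStrict

/-!
Area MLT, parcel COND: the conditions at `p` on the tangent vectors of an algebra over the
deformation algebra of a lift: flat, strictly ordinary, and both at once, with their dimensions.

`ι : D.R → B` is the structure map; the condition is put on an image `π : D.R → R'` through which
`ι` factors.
-/

set_option autoImplicit false
set_option linter.unusedSectionVars false
set_option linter.style.haveILetI false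

noncomputable section

open CategoryTheory groupCohomology Matrix IsLocalRing FLTAgent.PT FLTAgent.PT.TW

namespace FLTAgent.MLT

variable {p : ℕ} [Fact p.Prime] {𝒪 : Type} [CommRing 𝒪] [IsDomain 𝒪] [IsDiscreteValuationRing 𝒪]
  [IsAdicComplete (maximalIdeal 𝒪) 𝒪] [Finite (ResidueField 𝒪)]
  [Algebra (ZMod p) (ResidueField 𝒪)] {ρbar : ResidualGaloisRep (ResidueField 𝒪)}
  {r : GQ →* GL (Fin 2) (ResidueField 𝒪)}
  {D : RepData ρbar} (cd : TW.Coord D r) [Algebra 𝒪 (DualNumber (ResidueField 𝒪))]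
  {B : Type} [CommRing B] [Algebra 𝒪 B]

variable (p) in
/-- every tangent vector of `B` has its class at `p` in `Lp` -/
def TanAt (ι : D.R →ₐ[𝒪] B) (Lp : Submodule (ZMod p) (lH1 (ExtCitation.pPrime p) (ad0 p r))) :
    Prop :=
  ∀ (h1 : ∀ a, algebraMap 𝒪 (DualNumber (ResidueField 𝒪)) a =
      TrivSqZeroExt.inl (residue 𝒪 a)) (hdet : DetMat p cd.R₀)
    (hrdet : ∀ σ, (matHom r σ).det ≠ 0) (φ : B →ₐ[𝒪] DualNumber (ResidueField 𝒪)),
    res1 (ExtCitation.pPrime p) (ad0 p r) (h1mk _ _ (tanCoc cd h1 hdet hrdet (φ.comp ι))) ∈ Lp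

variable {cd}

theorem TanAt.inf {ι : D.R →ₐ[𝒪] B}
    {Lp Lp' : Submodule (ZMod p) (lH1 (ExtCitation.pPrime p) (ad0 p r))}
    (h : TanAt p cd ι Lp) (h' : TanAt p cd ι Lp') : TanAt p cd ι (Lp ⊓ Lp') :=
  fun h1 hdet hrdet φ => ⟨h h1 hdet hrdet φ, h' h1 hdet hrdet φ⟩

/-- tangent vectors of a quotient are tangent vectors -/
theorem TanAt.comp {ι : D.R →ₐ[𝒪] B}
    {Lp : Submodule (ZMod p) (lH1 (ExtCitation.pPrime p) (ad0 p r))} (h : TanAt p cd ι Lp)
    {B' : Type} [CommRing B'] [Algebra 𝒪 B'] (e : B →ₐ[𝒪] B') : TanAt p cd (e.comp ι) Lp :=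
  fun h1 hdet hrdet φ => by
    rw [← AlgHom.comp_assoc]
    exact h h1 hdet hrdet (φ.comp e)

variable {R' : Type} [CommRing R'] [IsLocalRing R'] [Algebra 𝒪 R'] {ι : D.R →ₐ[𝒪] B}
  (π : D.R →ₐ[𝒪] R') (hπ : Function.Surjective π) (j : R' →ₐ[𝒪] B) (hj : j.comp π = ι)
  (ρ' : GaloisRepAdic R') (hρ' : Deform.RepMat ρ'.ρ fun g => (cd.R₀ g).map π)

include hπ hj hρ'

/-- flat -/
theorem tanAt_flat (hf : ρ'.IsFlatAt p) :
    TanAt p cd ι (Submodule.span (ZMod p) (flatClasses (p := p) r)) := by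
  intro h1 hdet hrdet φ
  rw [← hj, ← AlgHom.comp_assoc]
  exact res1_mem_flat_of_image cd h1 hdet π hπ ρ' hρ' hf hrdet _

/-- strictly ordinary: the classes of a line, at most `h⁰ + [k : 𝔽_p]`, meeting the flat ones in at
most `h⁰` dimensions -/
theorem exists_tanAt_strict (h : Setting p ρbar r)
    (h1 : ∀ a, algebraMap 𝒪 (DualNumber (ResidueField 𝒪)) a = TrivSqZeroExt.inl (residue 𝒪 a))
    (hdet : D.ρ.DetIsCyclotomic p) (hs : ρ'.IsStrictOrdinaryAt p) :
    ∃ Ls : Submodule (ZMod p) (lH1 (ExtCitation.pPrime p) (ad0 p r)),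
      Module.finrank (ZMod p) Ls ≤
          Module.finrank (ZMod p) (lH0 (ExtCitation.pPrime p) (ad0 p r)) +
            1 * Module.finrank (ZMod p) (ResidueField 𝒪) ∧
        Module.finrank (ZMod p) (Submodule.span (ZMod p) (flatClasses (p := p) r) ⊓ Ls :
            Submodule (ZMod p) (lH1 (ExtCitation.pPrime p) (ad0 p r))) ≤
          Module.finrank (ZMod p) (lH0 (ExtCitation.pPrime p) (ad0 p r)) ∧
        TanAt p cd ι Ls := by
  have hrdet : ∀ σ, (matHom r σ).det ≠ 0 := fun σ => by rw [matHom_apply, h.hdet]; simp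
  have hd : DetMat p cd.R₀ := (detIsCyclotomic_iff cd.rep).mp hdet
  obtain ⟨U0, U0', hU, hU', hl, hmem⟩ :=
    exists_strictLine_of_image cd h1 hd π hπ ρ' hρ' hs hrdet h
  refine ⟨strictCls p r (ExtCitation.pPrime p) U0 U0', ?_,
    finrank_flat_inf_strict_le h.hp2 r h.level hU hU' hl, fun _ _ _ φ => ?_⟩
  · rw [one_mul]
    exact finrank_strictCls_le h (finrank_lH1_mu (p := p) _ rfl h.hp2) hU hU' hl
  · rw [← hj, ← AlgHom.comp_assoc]
    exact hmem _

omit hπ hj hρ'

theorem finrank_flatClasses_le (h : Setting p ρbar r) :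
    Module.finrank (ZMod p) (Submodule.span (ZMod p) (flatClasses (p := p) r)) ≤
      Module.finrank (ZMod p) (lH0 (ExtCitation.pPrime p) (ad0 p r)) +
        1 * Module.finrank (ZMod p) (ResidueField 𝒪) := by
  rw [one_mul]
  exact finrank_flat_le h.hp2 r h.level h.hdet h.hsplit

section Bridge

variable {Smin : Finset ℕ} {k s : ℕ} {W : Fin k → Nat.Primes} {Q : Fin s → Nat.Primes}
  {frob tame : Fin k → GQ}

/-- with `Q` as in `exists_condPrimes`: a flat algebra needs `s + (k - 1)` generators besides the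
local coordinates, and one can be chosen in the kernel of a quotient that is also strictly ordinary -/
theorem exists_flat_generators_kill [IsLocalRing B] [Finite B] [IsLocalHom (algebraMap 𝒪 B)]
    {B' : Type} [CommRing B'] [IsLocalRing B'] [Algebra 𝒪 B'] [Finite B']
    [IsLocalHom (algebraMap 𝒪 B')] (e : B →ₐ[𝒪] B') (he : Function.Surjective e)
    (h1 : ∀ a, algebraMap 𝒪 (DualNumber (ResidueField 𝒪)) a = TrivSqZeroExt.inl (residue 𝒪 a))
    (h : Setting p ρbar r) (hpSmin : p ∈ Smin)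
    (hmin : ∀ q : ℕ, q.Prime → q ≠ p → (q ∈ Smin ↔ ¬ ρbar.IsUnramifiedAt q))
    (hWmin : ∀ i, (W i : ℕ) ∉ Smin) (hpl : CondPlaces p r W frob tame) (hs0 : 0 < s)
    {Lf Lfs : Submodule (ZMod p) (lH1 (ExtCitation.pPrime p) (ad0 p r))}
    (hBf : CondBound p r Smin W Q Lf s) (hBfs : CondBound p r Smin W Q Lfs (s - 1))
    (hG : CondLift (p := p) Smin cd W Q Lf ι) (hfs : TanAt p cd (e.comp ι) Lfs)
    (hres : Function.Surjective (residue B ∘ algebraMap 𝒪 B))
    (P P' : Fin k → Matrix (Fin 2) (Fin 2) B) (hPP : ∀ i, P' i * P i = 1)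
    (hnorm : ∀ i : Fin k, (i : ℕ) = 0 → ∃ a b, ∃ c : 𝒪, IsUnit c ∧ P i a b = algebraMap 𝒪 B c)
    (hgen : ∀ φ φ' : B →ₐ[𝒪] DualNumber (ResidueField 𝒪), φ.comp ι = φ'.comp ι →
      (∀ i, (P i).map φ = (P i).map φ') → φ = φ')
    (x : Fin k × Fin 2 × Fin 2 × Fin 2 → B) (hx : ∀ c, x c ∈ maximalIdeal B)
    (hcoord : ∀ i (t a b : Fin 2), ∃ a0 u : 𝒪,
      cframed ι P P' cd i (if t = 0 then frob i else tame i) a b =
        algebraMap 𝒪 B a0 + algebraMap 𝒪 B u * x (i, t, a, b)) :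
    ∃ (t0 : Fin (s + (k - 1)))
      (γ : MvPowerSeries (PlaceVar (Fin k) (Fin (s + (k - 1)))) 𝒪 →ₐ[𝒪] B),
      Function.Surjective γ ∧ (∀ c, γ (MvPowerSeries.X (Sum.inl c)) = x c) ∧
        e (γ (MvPowerSeries.X (Sum.inr t0))) = 0 := by
  obtain ⟨γ, hγ, hγx⟩ := exists_cond_generators ι P P' h1 h hpSmin hmin hWmin hG hpl hBf hres hPP
    hnorm hgen x hx hcoord
  have hres' : Function.Surjective (residue B' ∘ algebraMap 𝒪 B') := fun y => by
    obtain ⟨y, rfl⟩ := residue_surjective y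
    obtain ⟨b, rfl⟩ := he y
    haveI : IsLocalHom (e : B →+* B') := IsLocalHom.of_surjective _ he
    obtain ⟨o, ho⟩ := hres (residue B b)
    refine ⟨o, ?_⟩
    have e1 := congrArg (ResidueField.map (e : B →+* B')) ho
    simp only [Function.comp_apply, ResidueField.map_residue, RingHom.coe_coe, e.commutes] at e1
    exact e1
  haveI : IsLocalHom (e : B →+* B') := IsLocalHom.of_surjective _ he
  have hcf : ∀ i (g : GQ), cframed (e.comp ι) (fun i => (P i).map e) (fun i => (P' i).map e) cd i g =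
      (cframed ι P P' cd i g).map e := fun i g => by
    rw [cframed, cframed, Matrix.map_mul, Matrix.map_mul, Matrix.map_map]
    rfl
  obtain ⟨γ', hγ', hγ'x⟩ := exists_cond_generators (e.comp ι) (fun i => (P i).map e)
    (fun i => (P' i).map e) h1 h hpSmin hmin hWmin
    (⟨hG.det, hG.unip, hG.unr, hG.traces, hfs⟩ : CondLift (p := p) Smin cd W Q Lfs (e.comp ι))
    hpl hBfs hres'
    (fun i => by rw [← Matrix.map_mul, hPP, Matrix.map_one _ (map_zero _) (map_one _)])
    (fun i hi => by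
      obtain ⟨a, b, c, hc, hab⟩ := hnorm i hi
      exact ⟨a, b, c, hc, by rw [Matrix.map_apply, hab, e.commutes]⟩)
    (fun φ φ' hφ hP => by
      have hh : φ.comp e = φ'.comp e := hgen _ _ (by rw [AlgHom.comp_assoc, hφ, AlgHom.comp_assoc])
        fun i => by
          have := hP i
          simp only [Matrix.map_map] at this
          exact this
      exact AlgHom.ext fun y => by
        obtain ⟨b, rfl⟩ := he y
        exact AlgHom.congr_fun hh b)
    (fun c => e (x c)) (fun c => map_nonunit (e : B →+* B') _ (hx c))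
    (fun i t a b => by
      obtain ⟨a0, u, hu⟩ := hcoord i t a b
      exact ⟨a0, u, by rw [hcf, Matrix.map_apply, hu, map_add, map_mul, e.commutes, e.commutes]⟩)
  obtain ⟨t0, γ'', h1', h2', h3'⟩ := exists_generators_kill (by omega) hres e he hγ hγ'
    (fun c => by rw [hγ'x, hγx])
  exact ⟨t0, γ'', h1', fun c => (h2' c).trans (hγx c), h3'⟩

end Bridge

end FLTAgent.MLT
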