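import Fermat.Agent.MLT.CondPrimes
import Fermat.Agent.PT.TW.Classes

/-!
Area MLT, parcel COND: a line with strictly ordinary shape at `p`, the classes of that shape, and
the quotients of a lift.
-/

set_option autoImplicit false
set_option linter.unusedSectionVars false
set_option linter.style.haveILetI false

noncomputable section

open CategoryTheory groupCohomology Matrix IsLocalRing TrivSqZeroExt FLTAgent.PT FLTAgent.PT.TW

namespace FLTAgent.MLT

section Field

variable (p : ℕ) [Fact p.Prime] {k : Type} [Field k] [Algebra (ZMod p) k]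
  (r : GQ →* GL (Fin 2) k) (q : Nat.Primes) (U U' : Matrix (Fin 2) (Fin 2) k)

/-- the line `U e₁`: stable, `ω` times the quotient character, which is trivial on inertia -/
structure IsStrictLine : Prop where
  low : ∀ s ∈ (ExtCitation.primeLocalPlace q).decompositionSubgroup ℚ,
    (U' * matHom r s * U) 1 0 = 0 ∧ (U' * matHom r s * U) 0 0 =
      algebraMap (ZMod p) k (ExtCitation.cycloChar p s) * (U' * matHom r s * U) 1 1
  inertia : ∀ s ∈ (ExtCitation.primeLocalPlace q).inertiaSubgroupIn ℚ,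
    (U' * matHom r s * U) 1 1 = 1

/-- cocycles with values in the line up to a coboundary on the decomposition group -/
def strictShape : Submodule (ZMod p) (Z1 (MonoidHom.id GQ) (ad0 p r)) :=
  AddSubgroup.toZModSubmodule p
    { carrier := {z | ∃ Y : adSpace p k,
        ∀ s ∈ (ExtCitation.primeLocalPlace q).decompositionSubgroup ℚ, ∃ a : k,
          (z.1 s).1 + ((matHom r s * Y.1 * matHom r s⁻¹) - Y.1) = a • (U * !![0, 1; 0, 0] * U')}
      zero_mem' := ⟨0, fun s _ => ⟨0, by simp⟩⟩
      add_mem' := fun {z z'} hz hz' => by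
        obtain ⟨Y, hY⟩ := hz
        obtain ⟨Y', hY'⟩ := hz'
        refine ⟨Y + Y', fun s hs => ?_⟩
        obtain ⟨a, ha⟩ := hY s hs
        obtain ⟨a', ha'⟩ := hY' s hs
        refine ⟨a + a', ?_⟩
        rw [add_smul, ← ha, ← ha']
        simp only [Submodule.coe_add, Pi.add_apply, mul_add, add_mul]
        abel
      neg_mem' := fun {z} hz => by
        obtain ⟨Y, hY⟩ := hz
        refine ⟨-Y, fun s hs => ?_⟩
        obtain ⟨a, ha⟩ := hY s hs
        refine ⟨-a, ?_⟩
        rw [neg_smul, ← ha]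
        simp only [Submodule.coe_neg, Pi.neg_apply, mul_neg, neg_mul]
        abel }

/-- the classes of that shape -/
def strictCls : Submodule (ZMod p) (lH1 q (ad0 p r)) :=
  (strictShape p r q U U').map ((res1 q (ad0 p r)).comp (h1mk _ _))

variable {p r q U U'}

theorem finrank_strictCls_le [Finite k] {ρbar : ResidualGaloisRep k} (h : Setting p ρbar r)
    (hmu : Module.finrank (ZMod p) (lH1 q (mu p)) ≤ 2) (hU : U' * U = 1) (hU' : U * U' = 1)
    (hl : IsStrictLine p r q U U') :
    Module.finrank (ZMod p) (strictCls p r q U U') ≤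
      Module.finrank (ZMod p) (lH0 q (ad0 p r)) + Module.finrank (ZMod p) k := by
  obtain ⟨L, hL, hmem⟩ := h.exists_strict_condition q hmu U U' hU hU' hl.low
  haveI := finite_lH1 q (isAdm_ad0 (p := p) r h.level)
  refine (Submodule.finrank_mono ?_).trans hL
  rintro _ ⟨z, ⟨Y, hY⟩, rfl⟩
  exact hmem z Y hY

end Field

variable {p : ℕ} [Fact p.Prime] {𝒪 : Type} [CommRing 𝒪] [IsDomain 𝒪] [IsDiscreteValuationRing 𝒪]
  [IsAdicComplete (maximalIdeal 𝒪) 𝒪] [Finite (ResidueField 𝒪)]
  [Algebra (ZMod p) (ResidueField 𝒪)] {ρbar : ResidualGaloisRep (ResidueField 𝒪)}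
  {r : GQ →* GL (Fin 2) (ResidueField 𝒪)}
  {DQ : RepData ρbar} (cd : TW.Coord DQ r) [Algebra 𝒪 (DualNumber (ResidueField 𝒪))]
  (h1 : ∀ a, algebraMap 𝒪 (DualNumber (ResidueField 𝒪)) a = TrivSqZeroExt.inl (residue 𝒪 a))
  (hdet : DetMat p cd.R₀)

include h1

/-- the line of a strictly ordinary lift, and its tangent classes -/
theorem exists_strictLine (hrdet : ∀ σ, (matHom r σ).det ≠ 0) (h : Setting p ρbar r)
    (hs : StrictMat p cd.R₀) :
    ∃ U0 U0' : Matrix (Fin 2) (Fin 2) (ResidueField 𝒪), U0' * U0 = 1 ∧ U0 * U0' = 1 ∧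
      IsStrictLine p r (ExtCitation.pPrime p) U0 U0' ∧
      ∀ φ, res1 (ExtCitation.pPrime p) (ad0 p r) (h1mk _ _ (tanCoc cd h1 hdet hrdet φ)) ∈
        strictCls p r (ExtCitation.pPrime p) U0 U0' := by
  classical
  haveI := h.charP
  have h2 := h.two_ne_zero
  set k := ResidueField 𝒪
  set q := ExtCitation.pPrime p
  obtain ⟨U, U', hU, hU', hD, hI, hx⟩ := hs.2 _ (liesOver_primeLocalPlace q)
  set U0 := U.map (redHom DQ)
  set U0' := U'.map (redHom DQ)
  have hU0 : U0' * U0 = 1 := by rw [← Matrix.map_mul, hU, Matrix.map_one _ (map_zero _) (map_one _)]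
  have hU0' : U0 * U0' = 1 := by
    rw [← Matrix.map_mul, hU', Matrix.map_one _ (map_zero _) (map_one _)]
  have hω : ∀ s, ∀ μ : AlgebraicClosure ℚ, μ ^ p ^ 1 = 1 →
      s μ = μ ^ (ExtCitation.cycloChar p s : ZMod p).val := by
    intro s μ hμ
    rw [pow_one] at hμ
    exact Ext.cycloChar_spec s hμ
  have hωk : ∀ s, ((((ExtCitation.cycloChar p s : ZMod p).val : ℕ)) : k) =
      algebraMap (ZMod p) k (ExtCitation.cycloChar p s) := fun s => by
    rw [← map_natCast (algebraMap (ZMod p) k), ZMod.natCast_zmod_val]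
  have hred : ∀ s, (cd.R₀ s).map (redHom DQ) = matHom r s := by
    intro s
    ext i j
    apply (ResidueField.map (algebraMap 𝒪 DQ.R)).injective
    rw [Matrix.map_apply, ← residue_eq_map_redHom]
    exact congrFun (congrFun (cd.aligned s) i) j
  have hp0 : ((p ^ 1 : ℕ) : k) = 0 := by rw [pow_one]; exact CharP.cast_eq_zero k p
  have hUD : ∀ s ∈ (ExtCitation.primeLocalPlace q).decompositionSubgroup ℚ,
      (U0' * matHom r s * U0) 1 0 = 0 ∧ (U0' * matHom r s * U0) 0 0 =
        algebraMap (ZMod p) k (ExtCitation.cycloChar p s) * (U0' * matHom r s * U0) 1 1 := by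
    intro s hs'
    rw [← hred, ← Matrix.map_mul, ← Matrix.map_mul, Matrix.map_apply, Matrix.map_apply,
      Matrix.map_apply, hD s hs', map_zero]
    refine ⟨rfl, ?_⟩
    obtain ⟨u, hu⟩ := Ideal.mem_span_singleton'.mp (hx s hs' 1 _ (hω s))
    have e := congrArg (redHom DQ) hu
    rw [map_mul, map_natCast, hp0, mul_zero, map_sub, map_mul, map_natCast, hωk] at e
    exact sub_eq_zero.mp e.symm
  have hUI : ∀ s ∈ (ExtCitation.primeLocalPlace q).inertiaSubgroupIn ℚ,
      (U0' * matHom r s * U0) 1 1 = 1 := fun s hs' => by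
    rw [← hred, ← Matrix.map_mul, ← Matrix.map_mul, Matrix.map_apply, (hI s hs').2, map_one]
  refine ⟨U0, U0', hU0, hU0', ⟨hUD, hUI⟩, fun φ => ?_⟩
  set V : Matrix (Fin 2) (Fin 2) (DualNumber k) := U.map φ
  set V' : Matrix (Fin 2) (Fin 2) (DualNumber k) := U'.map φ
  have hVf : fstM V = U0 := by ext i j; exact fst_eq_redHom h1 φ _
  have hV'f : fstM V' = U0' := by ext i j; exact fst_eq_redHom h1 φ _
  have hVV : V' * V = 1 := by rw [← Matrix.map_mul, hU, Matrix.map_one _ (map_zero _) (map_one _)]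
  set U1 := sndM V
  have hV's : sndM V' = -(U0' * U1 * U0') := by
    have e := congrArg sndM hVV
    rw [sndM_mul, sndM_one, hVf, hV'f] at e
    calc sndM V' = sndM V' * (U0 * U0') := by rw [hU0', mul_one]
      _ = (sndM V' * U0) * U0' := (mul_assoc _ _ _).symm
      _ = (-(U0' * U1)) * U0' := by rw [eq_neg_of_add_eq_zero_right e]
      _ = _ := neg_mul _ _
  set Y0 := U1 * U0'
  set t : k := Y0.trace / 2
  have hYt : (Y0 - t • (1 : Matrix (Fin 2) (Fin 2) k)).trace = 0 := by
    rw [trace_sub, trace_smul, trace_one, Fintype.card_fin, smul_eq_mul]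
    simp only [t, Nat.cast_ofNat]
    rw [div_mul_cancel₀ _ h2, sub_self]
  refine Submodule.mem_map_of_mem (f := (res1 q (ad0 p r)).comp (h1mk _ _)) ⟨⟨_, hYt⟩, fun s hs' => ?_⟩
  set c := rawCoc cd φ s
  show ∃ a : k, c + (matHom r s * (Y0 - t • 1) * matHom r s⁻¹ - (Y0 - t • 1)) =
    a • (U0 * !![0, 1; 0, 0] * U0')
  set M : Matrix (Fin 2) (Fin 2) (DualNumber k) := V' * push cd φ s * V with hMdef
  have hMmap : M = (U' * cd.R₀ s * U).map φ := by rw [Matrix.map_mul, Matrix.map_mul]; rfl
  obtain ⟨h10, h00⟩ := hUD s hs'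
  have hMf : fstM M = U0' * matHom r s * U0 := by
    rw [hMdef, fstM_mul, fstM_mul, hVf, hV'f, fstM_push cd h1]
  set ω := algebraMap (ZMod p) k (ExtCitation.cycloChar p s)
  have hp0' : ((p ^ 1 : ℕ) : DualNumber k) = 0 :=
    TrivSqZeroExt.ext (by rw [TrivSqZeroExt.fst_natCast, hp0]; rfl) (by simp)
  have hM10 : M 1 0 = 0 := by rw [hMmap, Matrix.map_apply, hD s hs', map_zero]
  have hMd : M 0 0 = inl ω * M 1 1 := by
    obtain ⟨u, hu⟩ := Ideal.mem_span_singleton'.mp (hx s hs' 1 _ (hω s))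
    have e := congrArg φ hu
    rw [map_mul, map_natCast, hp0', mul_zero, map_sub, map_mul, map_natCast] at e
    rw [hMmap, Matrix.map_apply, Matrix.map_apply,
      show ω = _ from (hωk s).symm, TrivSqZeroExt.inl_natCast]
    exact sub_eq_zero.mp e.symm
  have hdM : M.det = inl ω := by
    obtain ⟨u, hu⟩ := Ideal.mem_span_singleton'.mp (hdet.2 1 s _ (hω s))
    have e := congrArg φ hu
    rw [map_mul, map_natCast, hp0', mul_zero, map_sub, map_natCast] at e
    rw [show ω = _ from (hωk s).symm, TrivSqZeroExt.inl_natCast, ← sub_eq_zero.mp e.symm, hMmap]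
    show ((U' * cd.R₀ s * U).map φ).det = _
    rw [← AlgHom.mapMatrix_apply, ← AlgHom.map_det, det_mul, det_mul, mul_right_comm, ← det_mul,
      hU, det_one, one_mul]
  have hω0 : ω ≠ 0 := by
    simp only [ω, ne_eq, map_eq_zero]
    exact (ExtCitation.cycloChar p s).ne_zero
  rw [det_fin_two, hM10, mul_zero, sub_zero, hMd] at hdM
  have e1 := congrArg TrivSqZeroExt.fst hdM
  have e2 := congrArg TrivSqZeroExt.snd hdM
  simp at e1 e2
  set z := (M 1 1).fst
  have hz : z ≠ 0 := fun h0 => hω0 (by rw [← e1, h0, mul_zero])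
  have h11 : (M 1 1).snd = 0 := by
    have : (2 * ω * z) * (M 1 1).snd = 0 := by linear_combination e2
    exact (mul_eq_zero.mp this).resolve_left (mul_ne_zero (mul_ne_zero h2 hω0) hz)
  have hMs : sndM M = (M 0 1).snd • !![0, 1; 0, 0] := by
    ext i j
    fin_cases i <;> fin_cases j
    · simp [sndM, hMd, h11]
    · simp [sndM]
    · simp [sndM, hM10]
    · simp [sndM, h11]
  -- the conjugated matrix
  set E : Matrix (Fin 2) (Fin 2) k := !![0, 1; 0, 0]
  set R := matHom r s
  set R' := matHom r s⁻¹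
  have hRR : R * R' = 1 := map_mul_inv _ _
  have hER : U0 * E * U0' * R = z • (U0 * E * U0') := by
    have e : E * (U0' * R * U0) = z • E := by
      ext i j
      fin_cases i <;> fin_cases j <;>
        simp [E, z, Matrix.mul_apply, Fin.sum_univ_two, h10, ← hMf, fstM, hM10,
          Matrix.vecMul, dotProduct, vecHead, vecTail]
    calc U0 * E * U0' * R = U0 * (E * (U0' * R * U0)) * U0' := by
          simp only [mul_assoc, hU0', mul_one]
      _ = _ := by rw [e, mul_smul_comm, smul_mul_assoc]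
  have hER' : U0 * E * U0' * R' = z⁻¹ • (U0 * E * U0') := by
    calc U0 * E * U0' * R' = z⁻¹ • ((z • (U0 * E * U0')) * R') := by
          rw [smul_mul_assoc, smul_smul, inv_mul_cancel₀ hz, one_smul]
      _ = _ := by rw [← hER, mul_assoc _ R, hRR, mul_one]
  refine ⟨(M 0 1).snd * z⁻¹, ?_⟩
  have e3 : U0 * sndM M * U0' = R * Y0 + c * R - Y0 * R := by
    rw [hMdef, sndM_mul, sndM_mul, fstM_mul, hV'f, hVf, fstM_push cd h1, sndM_push cd h1,
      fstM_push cd h1, hV's]
    show U0 * (U0' * R * U1 + (U0' * (c * R) + -(U0' * U1 * U0') * R) * U0) * U0' = _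
    simp only [mul_add, add_mul, neg_mul, mul_neg, mul_assoc, hU0', mul_one]
    simp only [← mul_assoc, hU0', one_mul]
    rw [show U1 * U0' * R = Y0 * R from rfl, mul_assoc R U1, show U1 * U0' = Y0 from rfl]
    abel
  have e4 : R * Y0 * R' + c - Y0 = (M 0 1).snd • (z⁻¹ • (U0 * E * U0')) := by
    calc R * Y0 * R' + c - Y0 = (R * Y0 + c * R - Y0 * R) * R' := by
          simp only [sub_mul, add_mul, mul_assoc _ R R', hRR, mul_one]
      _ = _ := by rw [← e3, hMs, mul_smul_comm, smul_mul_assoc, smul_mul_assoc, hER']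
  rw [← smul_smul, ← e4, mul_sub, sub_mul, mul_smul_comm, mul_one, smul_mul_assoc, hRR]
  abel


section Factor

variable {R' : Type} [CommRing R'] [IsLocalRing R'] [Algebra 𝒪 R']

omit h1 in
/-- a surjective image of a lift as a lift with coordinates -/
theorem exists_quotData (π : DQ.R →ₐ[𝒪] R') (hπ : Function.Surjective π) (ρ' : GaloisRepAdic R')
    (hρ' : Deform.RepMat ρ'.ρ fun g => (cd.R₀ g).map π) :
    ∃ (D' : RepData ρbar) (cd' : TW.Coord D' r) (e : DQ.R →ₐ[𝒪] D'.R) (f : R' →ₐ[𝒪] D'.R),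
      f.comp π = e ∧ (∀ g, cd'.R₀ g = (cd.R₀ g).map e) ∧ Function.Bijective f ∧
      (ρ'.IsFlatAt p → D'.ρ.IsFlatAt p) ∧
      (ρ'.IsStrictOrdinaryAt p → D'.ρ.IsStrictOrdinaryAt p) := by
  haveI : IsLocalHom (π : DQ.R →+* R') := IsLocalHom.of_surjective _ hπ
  haveI : IsLocalHom (algebraMap 𝒪 R') :=
    π.comp_algebraMap ▸ RingHom.isLocalHom_comp (π : DQ.R →+* R') (algebraMap 𝒪 DQ.R)
  have hal : ∀ g, ((cd.R₀ g).map π).map (residue R') =
      (matHom r g).map (ResidueField.map (algebraMap 𝒪 R')) := fun g => by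
    ext a b
    have e := congrArg (ResidueField.map (π : DQ.R →+* R')) (congrFun (congrFun (cd.aligned g) a) b)
    simp only [Matrix.map_apply, ResidueField.map_residue] at e
    simp only [Matrix.map_apply]
    refine e.trans ?_
    obtain ⟨o, ho⟩ := residue_surjective (matHom r g a b)
    rw [← ho, ResidueField.map_residue, ResidueField.map_residue, ResidueField.map_residue,
      RingHom.coe_coe, π.commutes]
  have hres : Function.Surjective (residue R' ∘ algebraMap 𝒪 R') := fun y => by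
    obtain ⟨y, rfl⟩ := residue_surjective y
    obtain ⟨x, rfl⟩ := hπ y
    obtain ⟨o, ho⟩ := DQ.residue_surjective (residue DQ.R x)
    refine ⟨o, ?_⟩
    have e := congrArg (ResidueField.map (π : DQ.R →+* R')) ho
    simp only [Function.comp_apply, ResidueField.map_residue, RingHom.coe_coe, π.commutes] at e
    exact e
  let D' : RepData ρbar :=
    { R := R', residue_surjective := hres, ρ := ρ', residual_isEquiv := by
        obtain ⟨b⟩ := DQ.residual_isEquiv
        have h0 := (Deform.repMat_residual cd.rep).linEquiv b.toLinearEquiv b.map_apply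
        have h1' : Deform.RepMat ρ'.residual.ρ fun g =>
            (matHom r g).map (ResidueField.map (algebraMap 𝒪 R')) := by
          have := Deform.repMat_residual hρ'
          simpa only [hal] using this
        simp only [cd.aligned] at h0
        obtain ⟨ρr, hρr⟩ := Deform.exists_repMat_residual ρbar
        obtain ⟨P, Q, hQP, hPQ, hPQc⟩ :=
          (Deform.repMat_baseChangeAlong_residual (ResidueField.map (algebraMap 𝒪 DQ.R)) hρr).conjugate h0
        have hinj := (ResidueField.map (algebraMap 𝒪 DQ.R)).injective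
        obtain ⟨f, hf⟩ : ∃ f : ResidueField DQ.R →+* ResidueField R',
            f = ResidueField.map (π : DQ.R →+* R') := ⟨_, rfl⟩
        have hfc : ∀ x, f (ResidueField.map (algebraMap 𝒪 DQ.R) x) =
            ResidueField.map (algebraMap 𝒪 R') x := fun x => by
          obtain ⟨o, rfl⟩ := residue_surjective x
          rw [hf, ResidueField.map_residue, ResidueField.map_residue, ResidueField.map_residue,
            RingHom.coe_coe, π.commutes]
        refine Deform.residual_isEquiv_of_repMat h1' ?_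
        have h3 := (Deform.repMat_baseChangeAlong_residual (ResidueField.map (algebraMap 𝒪 R'))
          hρr).conj (P := P.map f) (Q := Q.map f)
          (by rw [← Matrix.map_mul, hQP, Matrix.map_one _ (map_zero _) (map_one _)])
          (by rw [← Matrix.map_mul, hPQ, Matrix.map_one _ (map_zero _) (map_one _)])
        convert h3 using 1
        funext g
        have hmm : ∀ M : Matrix (Fin 2) (Fin 2) (ResidueField 𝒪),
            (M.map (ResidueField.map (algebraMap 𝒪 DQ.R))).map f =
              M.map (ResidueField.map (algebraMap 𝒪 R')) := fun M => by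
          ext a b
          exact hfc (M a b)
        rw [← hmm, hPQc, Matrix.map_mul, Matrix.map_mul, hmm] }
  exact ⟨D', ⟨_, hρ', hal⟩, π, AlgHom.id 𝒪 R', AlgHom.id_comp π, fun g => rfl,
    Function.bijective_id, id, id⟩

variable {D' : RepData ρbar} (cd' : TW.Coord D' r) (e : DQ.R →ₐ[𝒪] D'.R)
  (he : ∀ g, cd'.R₀ g = (cd.R₀ g).map e)

omit h1 in
include he in
theorem detMat_of_factor (hdet : DetMat p cd.R₀) [IsLocalHom (e : DQ.R →+* D'.R)] :
    DetMat p cd'.R₀ := by
  rw [show cd'.R₀ = fun g => (cd.R₀ g).map (e : DQ.R →+* D'.R) from funext he]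
  exact hdet.map _

include he in
theorem tanCoc_comp (hrdet : ∀ σ, (matHom r σ).det ≠ 0) (hdet' : DetMat p cd'.R₀)
    (φ : D'.R →ₐ[𝒪] DualNumber (ResidueField 𝒪)) :
    tanCoc cd h1 hdet hrdet (φ.comp e) = tanCoc cd' h1 hdet' hrdet φ :=
  Subtype.ext (funext fun g => Subtype.ext (by
    show rawCoc cd (φ.comp e) g = rawCoc cd' φ g
    rw [rawCoc, rawCoc, push, push, he, Matrix.map_map]
    rfl))

end Factor

/-- the condition at `p` of a flat image -/
theorem res1_mem_flat_of_image {R' : Type} [CommRing R'] [IsLocalRing R'] [Algebra 𝒪 R']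
    (π : DQ.R →ₐ[𝒪] R') (hπ : Function.Surjective π) (ρ' : GaloisRepAdic R')
    (hρ' : Deform.RepMat ρ'.ρ fun g => (cd.R₀ g).map π) (hf : ρ'.IsFlatAt p)
    (hrdet : ∀ σ, (matHom r σ).det ≠ 0) (φ : R' →ₐ[𝒪] DualNumber (ResidueField 𝒪)) :
    res1 (ExtCitation.pPrime p) (ad0 p r) (h1mk _ _ (tanCoc cd h1 hdet hrdet (φ.comp π))) ∈
      Submodule.span (ZMod p) (flatClasses (p := p) r) := by
  obtain ⟨D', cd', e, f, hfe, he, hfb, hfl, -⟩ := exists_quotData (p := p) cd π hπ ρ' hρ'
  let g := AlgEquiv.ofBijective f hfb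
  have hcomp : φ.comp π = (φ.comp g.symm.toAlgHom).comp e := by
    refine AlgHom.ext fun x => ?_
    show φ (π x) = φ (g.symm (e x))
    rw [← hfe]
    exact congrArg φ (g.symm_apply_apply (π x)).symm
  haveI : IsLocalHom (e : DQ.R →+* D'.R) := by
    refine IsLocalHom.of_surjective _ ?_
    rw [show (⇑(e : DQ.R →+* D'.R)) = f ∘ π from by rw [← hfe]; rfl]
    exact hfb.2.comp hπ
  rw [hcomp, tanCoc_comp cd h1 hdet cd' e he hrdet (detMat_of_factor cd cd' e he hdet)]
  exact res1_tanCoc_mem_flat cd' h1 _ hrdet (hfl hf) _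

/-- the condition at `p` of a strictly ordinary image -/
theorem exists_strictLine_of_image {R' : Type} [CommRing R'] [IsLocalRing R'] [Algebra 𝒪 R']
    (π : DQ.R →ₐ[𝒪] R') (hπ : Function.Surjective π) (ρ' : GaloisRepAdic R')
    (hρ' : Deform.RepMat ρ'.ρ fun g => (cd.R₀ g).map π) (hs : ρ'.IsStrictOrdinaryAt p)
    (hrdet : ∀ σ, (matHom r σ).det ≠ 0) (h : Setting p ρbar r) :
    ∃ U0 U0' : Matrix (Fin 2) (Fin 2) (ResidueField 𝒪), U0' * U0 = 1 ∧ U0 * U0' = 1 ∧
      IsStrictLine p r (ExtCitation.pPrime p) U0 U0' ∧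
      ∀ φ : R' →ₐ[𝒪] DualNumber (ResidueField 𝒪),
        res1 (ExtCitation.pPrime p) (ad0 p r) (h1mk _ _ (tanCoc cd h1 hdet hrdet (φ.comp π))) ∈
          strictCls p r (ExtCitation.pPrime p) U0 U0' := by
  obtain ⟨D', cd', e, f, hfe, he, hfb, -, hst⟩ := exists_quotData (p := p) cd π hπ ρ' hρ'
  let g := AlgEquiv.ofBijective f hfb
  haveI : IsLocalHom (e : DQ.R →+* D'.R) := by
    refine IsLocalHom.of_surjective _ ?_
    rw [show (⇑(e : DQ.R →+* D'.R)) = f ∘ π from by rw [← hfe]; rfl]
    exact hfb.2.comp hπ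
  obtain ⟨U0, U0', hU, hU', hl, hmem⟩ := exists_strictLine cd' h1
    (detMat_of_factor cd cd' e he hdet) hrdet h (strictMat_of_isStrictOrdinaryAt cd'.rep (hst hs))
  refine ⟨U0, U0', hU, hU', hl, fun φ => ?_⟩
  have hcomp : φ.comp π = (φ.comp g.symm.toAlgHom).comp e := by
    refine AlgHom.ext fun x => ?_
    show φ (π x) = φ (g.symm (e x))
    rw [← hfe]
    exact congrArg φ (g.symm_apply_apply (π x)).symm
  rw [hcomp, tanCoc_comp cd h1 hdet cd' e he hrdet (detMat_of_factor cd cd' e he hdet)]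
  exact hmem _

end FLTAgent.MLT
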