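import Fermat.Agent.MLT.World

/-!
Area MLT, top: configurations that level lowering has to exclude.
-/

set_option autoImplicit false

noncomputable section

open WeierstrassCurve

namespace FLTAgent.MLT

/-- a squarefree level, no prime of which can be removed, bigger than the minimal one -/
structure Stuck (W : WeierstrassCurve ℤ) (p N q : ℕ) : Prop where
  sq : Squarefree N
  q_prime : q.Prime
  q_ne : q ≠ p
  q_notMin : q ∉ sMin W p
  qN : q ∣ N
  at_p : p ∣ N ↔ Tres W p
  min_dvd : ∀ r ∈ sMin W p, r ∣ N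
  one_mod : ∀ r : ℕ, r.Prime → r ∣ N → r ≠ p → r ∉ sMin W p → (r : ZMod p) = 1
  modular : W.IsResiduallyModularOfLevel p N
  absent : ∀ M r : ℕ, N = M * r → r.Prime → r ≠ p → r ∉ sMin W p →
    ¬ W.IsResiduallyModularOfLevel p M
  absent_p : Tres W p → ∀ M : ℕ, N = M * p → ¬ W.IsResiduallyModularOfLevel p M

end FLTAgent.MLT

end
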