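import Fermat.Agent.LL.TWFree
import Fermat.Agent.LR.Ihara

/-!
Area MLT, parcel DEGEN: the correspondences on homomorphisms with values in a ring, against the Hecke
operators on cohomology; endomorphisms which are invertible on the part of a system.
-/

set_option autoImplicit false
set_option linter.style.haveILetI false
set_option linter.unusedSectionVars false

noncomputable section

open scoped MatrixGroups TensorProduct
open Matrix CongruenceSubgroup IsLocalRing

namespace FLTAgent.LL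

section Values

variable {V V' : Type} [AddCommGroup V] [AddCommGroup V'] (f : V →+ V') {N : ℕ}

theorem e1H_comp {l : ℕ} [NeZero l] (hl : l.Prime) (hlN : ¬ l ∣ N) (φ : LR.HomG N V) :
    LR.e1H N l hl hlN (f.comp φ) = f.comp (LR.e1H N l hl hlN φ) := by
  refine AddMonoidHom.ext fun x => ?_
  rw [LR.e1H_apply, LR.e1H_apply, LR.TH, LR.Corr.op_comp]
  simp only [AddMonoidHom.sub_apply, AddMonoidHom.smul_apply, AddMonoidHom.comp_apply, _root_.map_sub,
    _root_.map_nsmul]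
  rfl

theorem e2H_comp {l : ℕ} [NeZero l] (hl : l.Prime) (hlN : ¬ l ∣ N) (φ : LR.HomG N V) :
    LR.e2H N l hl hlN (f.comp φ) = f.comp (LR.e2H N l hl hlN φ) := by
  refine AddMonoidHom.ext fun x => ?_
  rw [LR.e2H_apply, LR.e2H_apply, LR.TH, LR.Corr.op_comp, LR.Corr.op_comp]
  simp only [AddMonoidHom.sub_apply, AddMonoidHom.smul_apply, AddMonoidHom.comp_apply, _root_.map_sub,
    _root_.map_nsmul]
  rfl

/-- what intertwines `T l` intertwines `T l - (l + 1)` -/
theorem e1H_of_intertwine {N' : ℕ} (F : LR.HomG N V →+ LR.HomG N' V) {l : ℕ} [NeZero l] (hl : l.Prime)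
    (hlN : ¬ l ∣ N) (hlN' : ¬ l ∣ N')
    (hF : ∀ φ, F (LR.TH N l hl hlN φ) = LR.TH N' l hl hlN' (F φ)) (φ : LR.HomG N V) :
    F (LR.e1H N l hl hlN φ) = LR.e1H N' l hl hlN' (F φ) := by
  rw [LR.e1H_apply, LR.e1H_apply, _root_.map_sub, _root_.map_nsmul, hF]

end Values

/-- a correspondence on homomorphisms with values in a ring, linearly -/
def opA (R : Type) [CommRing R] {B C : ℕ} {ι : Type} [Fintype ι] (K : LR.Corr B C ι) :
    LR.HomG B R →ₗ[R] LR.HomG C R where
  toFun := K.op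
  map_add' := _root_.map_add K.op
  map_smul' a φ := AddMonoidHom.ext fun γ => by
    obtain ⟨γ, rfl⟩ := Additive.ofMul.surjective γ
    show K.op (a • φ) _ = a • K.op φ _
    rw [K.op_apply (K.rel_mult γ), K.op_apply (K.rel_mult γ), Finset.smul_sum]
    rfl

theorem opA_apply (R : Type) [CommRing R] {B C : ℕ} {ι : Type} [Fintype ι] (K : LR.Corr B C ι)
    (φ : LR.HomG B R) : opA R K φ = K.op φ := rfl

section Eval

variable {M N : ℕ} [NeZero M] {A : Type} [CommRing A]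

/-- `T l` is the correspondence at `l` -/
theorem evalGamma0_TH (h : N ∣ M) {l : ℕ} [NeZero l] (hl : l.Prime) (hlM : ¬ l ∣ M) (hlN : ¬ l ∣ N)
    (x : H1 (funRep A (P1 M N) (M := M))) :
    evalGamma0 M N A (T (funRep A (P1 M N) (M := M)) hl hlM x) =
      LR.TH N l hl hlN (evalGamma0 M N A x) := by
  haveI : Fact l.Prime := ⟨hl⟩
  refine AddMonoidHom.ext fun a => ?_
  obtain ⟨γ, rfl⟩ := Additive.ofMul.surjective a
  obtain ⟨σ, g, hr⟩ := (LR.TC N N l hl dvd_rfl hlN).exists_rel γ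
  rw [LR.TH, LR.Corr.op_apply _ hr]
  refine evalGamma0_T h hl hlM x γ σ g fun i => ?_
  have hc : ∀ k : OnePoint (ZMod l), ((LR.tRep l k : GL (Fin 2) ℚ) : Matrix (Fin 2) (Fin 2) ℚ) =
      (stdMat l k).map (Int.cast : ℤ → ℚ) := by
    intro k
    induction k using OnePoint.rec with
    | infty =>
      show ((LR.gm (l : ℚ) 0 0 1 : GL (Fin 2) ℚ) : Matrix (Fin 2) (Fin 2) ℚ) = _
      rw [LR.val_gm (by simpa using hl.ne_zero)]
      ext a b
      fin_cases a <;> fin_cases b <;> simp [stdMat]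
    | coe b =>
      rw [LR.tRep_coe, LR.val_gm (by simpa using hl.ne_zero)]
      show _ = (stdMat l (some b)).map (Int.cast : ℤ → ℚ)
      ext a c
      fin_cases a <;> fin_cases c <;> simp [stdMat]
  have hm : ∀ δ : SL(2, ℤ), ((LR.emb δ : GL (Fin 2) ℚ) : Matrix (Fin 2) (Fin 2) ℚ) =
      δ.1.map (Int.cast : ℤ → ℚ) := fun δ => rfl
  have e := congrArg Units.val (hr i)
  simp only [Units.val_mul, LR.embG_apply] at e
  refine Matrix.map_injective (Int.cast_injective (α := ℚ)) ?_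
  show (Int.castRingHom ℚ).mapMatrix _ = (Int.castRingHom ℚ).mapMatrix _
  rw [_root_.map_mul, _root_.map_mul]
  exact ((congrArg₂ (· * ·) (hc i) (hm γ)).symm.trans e).trans
    (congrArg₂ (· * ·) (hm (g i)) (hc (σ i)))

end Eval

section Pushes

variable {A : Type*} [CommRing A]

theorem funPush_funPush {X Y Z : Type*} [Fintype X] [Fintype Y] (π : X → Y) (π' : Y → Z) (F : X → A) :
    funPush A π' (funPush A π F) = funPush A (π' ∘ π) F := by
  classical
  funext z
  have hy : ∀ y, (if π' y = z then funPush A π F y else 0) =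
      ∑ x, if π x = y then (if π' y = z then F x else 0) else 0 := fun y => by
    rw [funPush_eq]
    split_ifs <;> simp
  rw [funPush_eq, funPush_eq, Finset.sum_congr rfl fun y _ => hy y, Finset.sum_comm]
  simp

theorem funPush_sum_subtype {X Y : Type*} [Fintype X] (π : X → Y) (F : X → A) (y : Y)
    [Fintype {x : X // π x = y}] : funPush A π F y = ∑ x : {x : X // π x = y}, F x.1 := by
  classical
  rw [funPush_eq, ← Finset.sum_filter]
  exact Finset.sum_subtype _ (fun x => by simp) _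

end Pushes

namespace Sys

variable {M : ℕ} [NeZero M] {A : Type*} [CommRing A] [IsLocalRing A] [IsNoetherianRing A]
  [IsAdicComplete (maximalIdeal A) A] (s : Sys M A)
  {V V' : Type*} [AddCommGroup V] [Module A V] [Module.Finite A V] [AddCommGroup V'] [Module A V']
  [Module.Finite A V'] {ρ : Representation A (GL (Fin 2) (ZMod M)) V}
  {ρ' : Representation A (GL (Fin 2) (ZMod M)) V'}

/-- several equivariant maps at once -/
theorem exists_mem_E_forall {ι : Type*} (Ψ : ι → H1 ρ →ₗ[A] H1 ρ')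
    (hΨ : ∀ i (l : ℕ) (hl : l.Prime) (hlM : ¬ l ∣ M) (x : H1 ρ),
      Ψ i (T ρ hl hlM x) = T ρ' hl hlM (Ψ i x))
    {x0 : H1 ρ} (hy : ∀ i, Ψ i x0 ∈ s.E ρ') : ∃ x ∈ s.E ρ, ∀ i, Ψ i x = Ψ i x0 := by
  haveI := H1_finite ρ
  haveI := H1_finite ρ'
  have hint : ∀ i (l : ℕ) (hl : l.Prime) (hlM : ¬ l ∣ M) (c : A),
      Ψ i ∘ₗ (T ρ hl hlM - c • (1 : Module.End A (H1 ρ))) =
        (T ρ' hl hlM - c • (1 : Module.End A (H1 ρ'))) ∘ₗ Ψ i := fun i l hl hlM c =>
    LinearMap.ext fun y => by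
      simp only [LinearMap.comp_apply, LinearMap.sub_apply, LinearMap.smul_apply,
        Module.End.one_apply, _root_.map_sub, _root_.map_smul, hΨ]
  have hP0 : ∀ e : Module.End A (H1 ρ), (∀ x, e x ∈ unitPart (s.eta ρ)) →
      (∀ x, x - e x ∈ nilPart (maximalIdeal A) (s.eta ρ)) → ∀ i, Ψ i (e x0) = Ψ i x0 := by
    intro e he1 he2 i
    refine (sub_eq_zero.mp ?_).symm
    refine Submodule.disjoint_def.mp (Fitting.isCompl (s.eta ρ')).disjoint _ ?_ ?_
    · exact sub_mem ((mem_E_iff s).mp (hy i)).1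
        (Fitting.map_unitPart (hint i _ s.prime_l0 s.not_dvd_l0 _) (he1 x0))
    · rw [← _root_.map_sub]
      exact Fitting.map_nilPart _ (hint i _ s.prime_l0 s.not_dvd_l0 _) (he2 x0)
  have hP1 : ∀ (l : ℕ) (hl : l.Prime) (hlM : ¬ l ∣ M), l ∉ s.bad →
      ∀ e e' : Module.End A (H1 ρ), (∀ i, Ψ i (e x0) = Ψ i x0) →
        (∀ x, e' x ∈ nilPart (maximalIdeal A) (T ρ hl hlM - s.eig l • 1)) →
        (∀ x, x - e' x ∈ unitPart (T ρ hl hlM - s.eig l • 1)) →
        ∀ i, Ψ i ((e' * e) x0) = Ψ i x0 := by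
    intro l hl hlM hb e e' he g1 g2 i
    rw [Module.End.mul_apply, ← he i]
    refine (sub_eq_zero.mp ?_).symm
    refine Submodule.disjoint_def.mp (Fitting.isCompl (T ρ' hl hlM - s.eig l • 1)).disjoint _ ?_ ?_
    · rw [← _root_.map_sub]
      exact Fitting.map_unitPart (hint i l hl hlM _) (g2 _)
    · refine sub_mem ?_ (Fitting.map_nilPart _ (hint i l hl hlM _) (g1 _))
      rw [he]
      exact ((mem_E_iff s).mp (hy i)).2 l hl hlM hb
  obtain ⟨e, h1, -, -, h4⟩ :=
    s.exists_proj_core (ρ := ρ) (fun e => ∀ i, Ψ i (e x0) = Ψ i x0) hP0 hP1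
  exact ⟨e x0, h1 ▸ LinearMap.mem_range_self e x0, h4⟩

variable (ρ) in
/-- commutes with the Hecke operators and is invertible on `E` -/
structure UnitOnE (u : Module.End A (H1 ρ)) : Prop where
  comm : ∀ (l : ℕ) (hl : l.Prime) (hlM : ¬ l ∣ M), Commute u (T ρ hl hlM)
  surj : ∀ x ∈ s.E ρ, ∃ y ∈ s.E ρ, u y = x
  inj : ∀ x ∈ s.E ρ, u x = 0 → x = 0

omit [IsNoetherianRing A] [IsAdicComplete (maximalIdeal A) A] [Module.Finite A V] in
theorem UnitOnE.mul {u v : Module.End A (H1 ρ)} (hu : s.UnitOnE ρ u) (hv : s.UnitOnE ρ v) :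
    s.UnitOnE ρ (u * v) where
  comm l hl hlM := (hu.comm l hl hlM).mul_left (hv.comm l hl hlM)
  surj x hx := by
    obtain ⟨y, hy, rfl⟩ := hu.surj x hx
    obtain ⟨z, hz, rfl⟩ := hv.surj y hy
    exact ⟨z, hz, rfl⟩
  inj x hx h := hv.inj x hx (hu.inj _ (s.commute_mem_E hv.comm hx) h)

omit [IsNoetherianRing A] [IsAdicComplete (maximalIdeal A) A] [Module.Finite A V] in
/-- division by a scalar -/
theorem UnitOnE.dvd {u : Module.End A (H1 ρ)} (hu : s.UnitOnE ρ u) {x z : H1 ρ} (hx : x ∈ s.E ρ)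
    (hz : z ∈ s.E ρ) (a : A) (h : u x = a • z) : ∃ z' ∈ s.E ρ, x = a • z' := by
  obtain ⟨z', hz', rfl⟩ := hu.surj z hz
  refine ⟨z', hz', sub_eq_zero.mp (hu.inj _ (sub_mem hx (Submodule.smul_mem _ a hz')) ?_)⟩
  rw [_root_.map_sub, _root_.map_smul, h, sub_self]

omit [IsNoetherianRing A] [IsAdicComplete (maximalIdeal A) A] [Module.Finite A V] in
theorem unitOnE_smul_one {c : A} (hc : IsUnit c) : s.UnitOnE ρ (c • (1 : Module.End A (H1 ρ))) where
  comm _ _ _ := (Commute.one_left _).smul_left c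
  surj x hx := ⟨hc.unit⁻¹.val • x, Submodule.smul_mem _ _ hx, by
    rw [LinearMap.smul_apply, Module.End.one_apply, smul_smul, IsUnit.mul_val_inv, one_smul]⟩
  inj x _ h := by
    rw [LinearMap.smul_apply, Module.End.one_apply] at h
    exact (hc.smul_eq_zero).mp h

theorem unitOnE_eta : s.UnitOnE ρ (s.eta ρ) where
  comm l hl hlM := (T_comm s.prime_l0 s.not_dvd_l0 hl hlM).sub_left ((Commute.one_left _).smul_left _)
  surj x hx := by
    haveI := H1_finite ρ
    obtain ⟨y, hy, rfl⟩ := (Fitting.bijOn (s.eta ρ)).surjOn ((mem_E_iff s).mp hx).1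
    obtain ⟨e, he1, he2, he3⟩ := s.exists_proj_E (ρ := ρ)
    refine ⟨e y, he1.le (LinearMap.mem_range_self e y), ?_⟩
    rw [← Module.End.mul_apply, (he3 (s.eta ρ) fun l hl hlM =>
      (T_comm s.prime_l0 s.not_dvd_l0 hl hlM).sub_left ((Commute.one_left _).smul_left _)).eq,
      Module.End.mul_apply, he2 _ hx]
  inj x hx h := by
    haveI := H1_finite ρ
    exact Fitting.injOn (s.eta ρ) ((mem_E_iff s).mp hx).1 h

/-- a unit plus a topologically nilpotent -/
theorem unitOnE_of_sub (u : Module.End A (H1 ρ))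
    (hu : ∀ (l : ℕ) (hl : l.Prime) (hlM : ¬ l ∣ M), Commute u (T ρ hl hlM)) {c : A} (hc : IsUnit c)
    (hnil : ∀ x ∈ s.E ρ, ∃ k, ((u - c • (1 : Module.End A (H1 ρ))) ^ k) x ∈
      maximalIdeal A • (⊤ : Submodule A (H1 ρ))) :
    s.UnitOnE ρ u := by
  haveI := H1_finite ρ
  haveI : Module.Finite A (s.E ρ) := s.E_finite
  obtain ⟨e, he1, he2, -⟩ := s.exists_proj_E (ρ := ρ)
  let ē : H1 ρ →ₗ[A] s.E ρ := e.codRestrict _ fun y => he1.le (LinearMap.mem_range_self e y)
  let uE : Module.End A (s.E ρ) := u.restrict fun _ hy => s.commute_mem_E hu hy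
  let vE : Module.End A (s.E ρ) := uE - c • 1
  have hv : ∀ (k : ℕ) (y : s.E ρ), ((vE ^ k) y).1 = ((u - c • 1) ^ k) y.1 := fun k y =>
    Fitting.pow_comm (Φ := (s.E ρ).subtype) (u := vE) (u' := u - c • 1) (LinearMap.ext fun _ => rfl) k y
  have hw : ∀ (k : ℕ) (y : s.E ρ), c ^ k • y - ((-vE) ^ k) y ∈ LinearMap.range uE := by
    intro k
    induction k with
    | zero => intro y; simp
    | succ k ih =>
      intro y
      have e1 : c ^ (k + 1) • y - ((-vE) ^ (k + 1)) y =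
          c • (c ^ k • y - ((-vE) ^ k) y) + uE (((-vE) ^ k) y) := by
        rw [pow_succ' (-vE), Module.End.mul_apply, LinearMap.neg_apply,
          show vE (((-vE) ^ k) y) = uE (((-vE) ^ k) y) - c • ((-vE) ^ k) y from rfl, pow_succ', mul_smul]
        module
      rw [e1]
      exact add_mem (Submodule.smul_mem _ _ (ih y)) ⟨_, rfl⟩
  have hsur : Function.Surjective uE := by
    refine LinearMap.range_eq_top.1 (top_le_iff.1 ?_)
    refine Submodule.le_of_le_smul_of_le_jacobson_bot (I := maximalIdeal A) Module.Finite.fg_top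
      (le_of_eq (IsLocalRing.jacobson_eq_maximalIdeal ⊥ bot_ne_top).symm) fun y _ => ?_
    obtain ⟨k, hk⟩ := hnil y.1 y.2
    have hsm : ((-vE) ^ k) y ∈ maximalIdeal A • (⊤ : Submodule A (s.E ρ)) := by
      have h1 : (vE ^ k) y = ē (((u - c • 1) ^ k) y.1) := by
        rw [← hv]
        exact Subtype.ext (he2 _ ((vE ^ k) y).2).symm
      have h2 : Submodule.map ē (maximalIdeal A • ⊤) ≤ maximalIdeal A • (⊤ : Submodule A (s.E ρ)) := by
        rw [Submodule.map_smul'']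
        exact Submodule.smul_mono le_rfl le_top
      have h3 : (vE ^ k) y ∈ maximalIdeal A • (⊤ : Submodule A (s.E ρ)) := h1 ▸ h2 ⟨_, hk, rfl⟩
      rw [show -vE = (-1 : A) • vE by ext; simp, smul_pow, LinearMap.smul_apply]
      exact Submodule.smul_mem _ _ h3
    have hy : y = ((hc.pow k).unit⁻¹).val • (c ^ k • y) := by
      rw [smul_smul, IsUnit.val_inv_mul, one_smul]
    rw [hy]
    refine Submodule.smul_mem _ _ ?_
    rw [← sub_add_cancel (c ^ k • y) (((-vE) ^ k) y)]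
    exact add_mem (Submodule.mem_sup_left (hw k y)) (Submodule.mem_sup_right hsm)
  refine ⟨hu, fun x hx => ?_, fun x hx h => ?_⟩
  · obtain ⟨y, hy⟩ := hsur ⟨x, hx⟩
    exact ⟨y.1, y.2, congrArg Subtype.val hy⟩
  · have hinj := OrzechProperty.injective_of_surjective_endomorphism uE hsur
    exact congrArg Subtype.val (hinj (a₁ := ⟨x, hx⟩) (a₂ := 0) (by
      rw [_root_.map_zero]; exact Subtype.ext h))

theorem nil_sub_eig {l : ℕ} (hl : l.Prime) (hlM : ¬ l ∣ M) (hlb : l ∉ s.bad) {x : H1 ρ}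
    (hx : x ∈ s.E ρ) :
    ∃ k, ((T ρ hl hlM - s.eig l • (1 : Module.End A (H1 ρ))) ^ k) x ∈
      maximalIdeal A • (⊤ : Submodule A (H1 ρ)) := by
  obtain ⟨k, hk⟩ := ((mem_E_iff s).mp hx).2 l hl hlM hlb 1
  exact ⟨k, by rwa [pow_one] at hk⟩

theorem unitOnE_sub_smul {l : ℕ} (hl : l.Prime) (hlM : ¬ l ∣ M) (hlb : l ∉ s.bad) {c : A}
    (hc : IsUnit (s.eig l - c)) : s.UnitOnE ρ (T ρ hl hlM - c • 1) := by
  refine s.unitOnE_of_sub _ (fun l' hl' hl'M =>
    (T_comm hl hlM hl' hl'M).sub_left ((Commute.one_left _).smul_left _)) hc fun x hx => ?_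
  rw [show T ρ hl hlM - c • (1 : Module.End A (H1 ρ)) - (s.eig l - c) • 1 =
    T ρ hl hlM - s.eig l • 1 by
      rw [sub_sub, ← add_smul c (s.eig l - c), add_sub_cancel]]
  exact s.nil_sub_eig hl hlM hlb hx

theorem unitOnE_sq_sub_smul {l : ℕ} (hl : l.Prime) (hlM : ¬ l ∣ M) (hlb : l ∉ s.bad) {c : A}
    (hc : IsUnit (s.eig l ^ 2 - c)) : s.UnitOnE ρ (T ρ hl hlM * T ρ hl hlM - c • 1) := by
  refine s.unitOnE_of_sub _ (fun l' hl' hl'M => ((T_comm hl hlM hl' hl'M).mul_left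
    (T_comm hl hlM hl' hl'M)).sub_left ((Commute.one_left _).smul_left _)) hc fun x hx => ?_
  obtain ⟨a, ha⟩ : ∃ a, a = s.eig l • (1 : Module.End A (H1 ρ)) := ⟨_, rfl⟩
  have hca : Commute (T ρ hl hlM) a := ha ▸ (Commute.one_right _).smul_right _
  have e : T ρ hl hlM * T ρ hl hlM - c • (1 : Module.End A (H1 ρ)) - (s.eig l ^ 2 - c) • 1 =
      (T ρ hl hlM + a) * (T ρ hl hlM - a) := by
    rw [sub_sub, ← add_smul c (s.eig l ^ 2 - c), add_sub_cancel, add_mul, mul_sub, mul_sub, hca.eq, ha,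
      smul_mul_smul_comm, one_mul, ← pow_two, ← pow_two]
    abel
  obtain ⟨k, hk⟩ := s.nil_sub_eig hl hlM hlb hx
  rw [← ha] at hk
  refine ⟨k, ?_⟩
  rw [e, (((Commute.refl _).sub_right hca).add_left (hca.symm.sub_right (Commute.refl a))).mul_pow,
    Module.End.mul_apply]
  have := pow_smul_top_stable (maximalIdeal A) 1 ((T ρ hl hlM + a) ^ k)
    (x := ((T ρ hl hlM - a) ^ k) x) (by rw [pow_one]; exact hk)
  rwa [pow_one] at this

end Sys

end FLTAgent.LL

end
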