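import Fermat.Agent.MLT.DegenSplit
import Fermat.Agent.LL.LevelSetup
import Fermat.Agent.LR.Galois

/-!
Area MLT, parcel DEGEN: the system of a curve with irreducible residual representation satisfies what
Ihara's lemma asks.
-/

set_option autoImplicit false
set_option linter.style.haveILetI false
set_option linter.unusedSectionVars false

noncomputable section

open IsLocalRing

namespace FLTAgent.LL

variable {A : Type} [CommRing A] [IsDomain A] [IsDiscreteValuationRing A]
  [IsAdicComplete (maximalIdeal A) A] [Finite (ResidueField A)] [CharZero A]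
  {M p : ℕ} [NeZero M] {W : WeierstrassCurve ℤ} {l0 : ℕ}

theorem sysOf_iharaAt (hΔ : W.Δ ≠ 0) (hp : p.Prime) (hp2 : p ≠ 2) (hirr : W.ModRepIsIrreducible p)
    (hpA : (p : A) ∈ maximalIdeal A) (hl0 : l0.Prime) (hM : (l0 : ZMod M) = 1) {q : ℕ}
    (hq : 2 ≤ q) : (sysOf (A := A) W p l0 hl0 hM).IharaAt q where
  sq := by
    classical
    obtain ⟨l, hl, hlS, hlg, hlp, hlu⟩ := LR.exists_prime_sq_ne hΔ hp hp2 hirr
      (M.primeFactors ∪ ((q : ℤ) ^ 2 - 1).natAbs.primeFactors)
    simp only [Finset.mem_union, not_or] at hlS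
    refine ⟨l, hl, fun h => hlS.1 (Nat.mem_primeFactors.2 ⟨hl, h, NeZero.ne M⟩),
      fun h => h.elim (fun h' => h' hlg) hlp, fun h => hlS.2 (Nat.mem_primeFactors.2
        ⟨hl, Int.natCast_dvd.1 h, ?_⟩), ?_⟩
    · rw [Int.natAbs_ne_zero]
      have h2 : (2 : ℤ) ≤ q := by exact_mod_cast hq
      nlinarith
    · have h := isUnit_intCast_of_not_dvd (A := A) hp hpA hlu
      push_cast at h
      rwa [add_comm (l : A) 1] at h
  one_mod M₀ hM₀ := by
    obtain ⟨l, hl, hlS, hlg, hlp, hl1, hlu⟩ := LR.exists_prime_one_mod hΔ hp hp2 hirr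
      M.primeFactors M₀ hM₀
    refine ⟨l, hl, fun h => hlS (Nat.mem_primeFactors.2 ⟨hl, h, NeZero.ne M⟩),
      fun h => h.elim (fun h' => h' hlg) hlp, hl1, ?_⟩
    have h := isUnit_intCast_of_not_dvd (A := A) hp hpA hlu
    push_cast at h
    rwa [add_comm (l : A) 1] at h

end FLTAgent.LL

end
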