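import Fermat.Agent.LL.TWOld

/-!
Area MLT, parcel DEGEN: the two maps to the level with a prime removed, and the sums of a twisted
class both of whose images vanish. No hypothesis on the smaller level is needed.
-/

set_option autoImplicit false
set_option linter.style.haveILetI false
set_option linter.unusedSectionVars false
set_option maxHeartbeats 1000000

noncomputable section

open scoped MatrixGroups TensorProduct
open Matrix CongruenceSubgroup

namespace FLTAgent.LL

namespace OldPrime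

variable {M p r : ℕ} [NeZero M] {D : TWData M p r} {q : ℕ} (O : OldPrime D q)
  {A : Type*} [CommRing A]

include O

/-- forgetting `q` -/
def pushH : H1 (funRep A D.X (M := M)) →ₗ[A] H1 (funRep A (D.lower q O.dvd).X (M := M)) :=
  map (isTwist_funPush (A := A) O.pushX O.pushX_smul)

/-- forgetting `q` after the transport by `diag (q, 1)` -/
def pushH' [NeZero q] :
    H1 (funRep A D.X (M := M)) →ₗ[A] H1 (funRep A (D.lower q O.dvd).X (M := M)) :=
  O.pushH ∘ₗ O.onX.shift

/-- the transport commutes with the twist -/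
theorem map_shift_tw [NeZero q] [∀ i, Fact (D.Q i).Prime] (y : H1 (funRep A D.X (M := M))) :
    map (D.isTwist_twMap (A := A)) (O.onX.shift y) =
      O.onPD.shift (map (D.isTwist_twMap (A := A)) y) :=
  ShiftPt.On.map_shift O.onX O.onPD (D.twKer A) D.twKer_smul O.twKer_eq_zero
    O.twKer_move (show IsTwist (funRep A D.X (M := M)) (funRep A D.PD (M := M)) 1
      (funKer (D.twKer A)) from D.isTwist_twMap) y

/-- a class whose first image and the twist of whose second image vanish has twists with vanishing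
sums -/
theorem sumsZero_of_push_tw [NeZero q] [∀ i, Fact (D.Q i).Prime] {L : ℕ} [NeZero L]
    (hL : L = D.N0 * D.R ^ 2) (d : D.Del) {y : H1 (funRep A D.X (M := M))}
    (h1 : O.pushH y = 0)
    (h2 : haveI : ∀ i, Fact ((D.lower q O.dvd).Q i).Prime := fun i => ⟨D.prime i⟩
      map ((D.lower q O.dvd).isTwist_twMap (A := A)) (O.pushH' y) = 0) :
    SumsZero (L / q) q (D.evalPD A hL d (map (D.isTwist_twMap (A := A)) y)) := by
  classical
  haveI : ∀ i, Fact ((D.lower q O.dvd).Q i).Prime := fun i => ⟨D.prime i⟩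
  haveI : NeZero q := ⟨O.prime.ne_zero⟩
  haveI : NeZero D.R := ⟨D.R_ne_zero⟩
  haveI : NeZero (D.lower q O.dvd).R := ⟨D.R_ne_zero⟩
  have hL' : L / q = (D.lower q O.dvd).N0 * (D.lower q O.dvd).R ^ 2 := by
    rw [hL]
    exact (Nat.div_mul_right_comm O.dvd _).symm
  have hR' : D.R ∣ L / q := (D.lower q O.dvd).conj_dvd hL'
  have hLL : L / q ∣ L := Nat.div_dvd_of_dvd (hL ▸ O.dvd.mul_right _)
  let c : Gamma0 (L / q) →* SL(2, ℤ) := conjHom hR'
  have hc : ∀ γ : Gamma0 (L / q), c γ ∈ stab M ((D.lower q O.dvd).basePD d) := fun γ =>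
    (D.lower q O.dvd).conj_mem_stab hL' d γ
  haveI : Fintype {b : P1 M D.N0 //
      P1.proj M (Nat.div_dvd_of_dvd O.dvd) b = P1.base M (D.N0 / q)} := Fintype.ofFinite _
  -- families of representatives
  have hk := fun (d : D.Del) (z₀ : D.PD) => O.exists_reps hL' hR' d z₀
  obtain ⟨d', hd'⟩ : ∃ d', D.w O.unit * d' = d := ⟨(D.w O.unit)⁻¹ * d, mul_inv_cancel_left _ _⟩
  obtain ⟨k, hk0⟩ := hk d (D.basePD d) (O.pushP_pt d (P1.proj_base _))
  obtain ⟨k', hk1⟩ := hk d' (O.z1 d') (O.pushP_pt d' O.proj_y1)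
  obtain ⟨f, hf⟩ := Submodule.mkQ_surjective _ y
  have hF1 : map (isTwist_funPush (A := A) O.pushP O.pushP_smul)
      (H1.mk (funRep A D.PD (M := M)) (mapZ (D.isTwist_twMap (A := A)) f)) = 0 := by
    rw [← map_mk, show H1.mk (funRep A D.X (M := M)) f = y from hf, O.map_pushP_tw,
      show map (isTwist_funPush (A := A) O.pushX O.pushX_smul) y = 0 from h1, _root_.map_zero]
  have hF2 : map (isTwist_funPush (A := A) O.pushP O.pushP_smul)
      (H1.mk (funRep A D.PD (M := M)) (O.onPD.shiftZ (mapZ (D.isTwist_twMap (A := A)) f))) = 0 := by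
    rw [← ShiftPt.On.shift_mk, ← map_mk, show H1.mk (funRep A D.X (M := M)) f = y from hf,
      ← O.map_shift_tw, O.map_pushP_tw]
    exact h2
  have hφ : ∀ g : Gamma0 L,
      D.evalPD A hL d (map (D.isTwist_twMap (A := A)) y) (Additive.ofMul g) =
        (mapZ (D.isTwist_twMap (A := A)) f).1 (conjHom (D.conj_dvd hL) g) (D.basePD d) := fun g => by
    rw [← hf]
    rfl
  refine ⟨_, inferInstance, k, k', fun i j hij => ?_, fun i j hij => ?_, ?_,
    fun γ σ g hg => ?_, fun γ σ g hg => ?_⟩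
  · refine Subtype.ext ?_
    have e : c (k i * (k j)⁻¹) = conjHom (D.conj_dvd hL) ⟨_, hij⟩ := Subtype.ext rfl
    have hfix := mem_stab.mp (D.conj_mem_stab hL d ⟨_, hij⟩)
    rw [← e, map_mul, map_inv, map_mul, map_inv, mul_smul, ← eq_inv_smul_iff, hk0 j, hk0 i] at hfix
    exact (congrArg (fun w : D.PD => w.1.1) hfix).symm
  · refine Subtype.ext ?_
    have hst : c (k i * (k j)⁻¹) ∈ stab M ((D.lower q O.dvd).basePD d) := hc _
    have hst' : c (k' i * (k' j)⁻¹) ∈ stab M (O.z1 d') := by
      have h := mem_stab.mp ((D.lower q O.dvd).conj_mem_stab hL' d' (k' i * (k' j)⁻¹))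
      refine mem_stab.mpr (Prod.ext (Prod.ext ?_ ?_) ?_)
      · refine mem_stab.mp ((O.stab_y1 _).2 ⟨?_, ?_⟩)
        · have h0 : c (k' i * (k' j)⁻¹) ∈ stab M (P1.base M (D.N0 / q)) :=
            mem_stab.mpr (congrArg (fun w : (D.lower q O.dvd).PD => w.1.1) h)
          exact (ZMod.intCast_zmod_eq_zero_iff_dvd _ _).mp (Gamma0_mem.mp
            ((stab_base ((Nat.div_dvd_of_dvd O.dvd).trans D.dvd0)).le h0))
        · show (q : ℤ) ∣ (D.R : ℤ) * _
          exact hij.mul_left _
      · exact congrArg (fun w : (D.lower q O.dvd).PD => w.1.2) h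
      · exact congrArg (fun w : (D.lower q O.dvd).PD => w.2) h
    have hfix := mem_stab.mp hst'
    rw [map_mul, map_inv, map_mul, map_inv, mul_smul, ← eq_inv_smul_iff, hk1 j, hk1 i] at hfix
    exact (congrArg (fun w : D.PD => w.1.1) hfix).symm
  · rw [← Nat.card_eq_fintype_card]
    exact O.card_fibre hL
  · simp only [hφ]
    obtain ⟨e, -⟩ := sum_transfer (mapZ (D.isTwist_twMap (A := A)) f) (D.basePD d)
      (fun b => c (k b)) (c γ) σ (fun b => conjHom (D.conj_dvd hL) (g b)) (fun b => by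
        rw [← map_mul, show k b * γ = Subgroup.inclusion (fun y hy => Gamma0_mem.2
          ((ZMod.intCast_zmod_eq_zero_iff_dvd _ _).2 ((Int.natCast_dvd_natCast.2 hLL).trans
            ((ZMod.intCast_zmod_eq_zero_iff_dvd _ _).1 (Gamma0_mem.1 hy)))) :
              Gamma0 L ≤ Gamma0 (L / q)) (g b) * k (σ b) from Subtype.ext (hg b), map_mul]
        exact congrArg (· * _) (Subtype.ext rfl))
      fun b => D.conj_mem_stab hL d (g b)
    rw [e, Finset.sum_congr rfl fun b _ => by rw [hk0 b]]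
    exact O.sum_eq_zero_of_push d _ hF1 (hc γ)
  · have hrel : ∀ b, c (k' b) * c γ = conjHom (O.qR_dvd hL) (g b) * c (k' (σ b)) := by
      intro b
      let β : Matrix (Fin 2) (Fin 2) ℤ := !![1, 0; 0, (q : ℤ)]
      have hint : β * (k' b : SL(2, ℤ)).1 * (γ : SL(2, ℤ)).1 =
          (g b : SL(2, ℤ)).1 * (β * (k' (σ b) : SL(2, ℤ)).1) := by
        have e := congrArg Units.val (hg b)
        simp only [Units.val_mul, ModularForm.val_heckeMatrix (p := q) O.prime.ne_zero] at e
        refine Matrix.map_injective (Int.cast_injective (α := ℝ)) ?_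
        have hm : ∀ δ : SL(2, ℤ), ((Matrix.SpecialLinearGroup.mapGL ℝ δ : GL (Fin 2) ℝ) :
            Matrix (Fin 2) (Fin 2) ℝ) = δ.1.map (Int.cast : ℤ → ℝ) := fun δ => rfl
        have hβ : (!![(1 : ℝ), ((0 : ℕ) : ℝ); 0, (q : ℝ)]) = β.map (Int.cast : ℤ → ℝ) := by
          ext x y
          fin_cases x <;> fin_cases y <;> simp [β]
        rw [hm, hm, hm, hm, hβ] at e
        show (Int.castRingHom ℝ).mapMatrix _ = (Int.castRingHom ℝ).mapMatrix _
        rw [map_mul, map_mul, map_mul, map_mul]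
        exact e
      have hαβ : alphaMat (q * D.R) * β = (q : ℤ) • alphaMat D.R := by
        ext x y
        fin_cases x <;> fin_cases y <;> simp [alphaMat, β, Matrix.mul_apply, Fin.sum_univ_two]
      rw [← map_mul]
      refine Subtype.ext (eq_of_mul_alphaMat (NeZero.ne D.R) ?_)
      rw [conjHom_mul_alphaMat, Matrix.SpecialLinearGroup.coe_mul, mul_assoc,
        conjHom_mul_alphaMat, ← mul_assoc]
      refine smul_right_injective _ (Int.natCast_ne_zero.2 O.prime.ne_zero : (q : ℤ) ≠ 0) ?_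
      show (q : ℤ) • (alphaMat D.R * _) = (q : ℤ) • _
      rw [← smul_mul_assoc, ← smul_mul_assoc, ← Matrix.mul_smul, ← hαβ, Subgroup.coe_mul,
        Matrix.SpecialLinearGroup.coe_mul, ← mul_assoc (conjHom (O.qR_dvd hL) (g b) :
          Matrix (Fin 2) (Fin 2) ℤ), conjHom_mul_alphaMat, mul_assoc, mul_assoc, ← mul_assoc β,
        hint, ← mul_assoc]
    subst hd'
    have hval : ∀ b, D.evalPD A hL (D.w O.unit * d') (map (D.isTwist_twMap (A := A)) y)
        (Additive.ofMul (g b)) =
        (O.onPD.shiftZ (mapZ (D.isTwist_twMap (A := A)) f)).1 (conjHom (O.qR_dvd hL) (g b))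
          (O.z1 d') := fun b => by
      rw [← O.evalZ1_shift, ← hf]
      rfl
    simp only [hval]
    obtain ⟨e, -⟩ := sum_transfer (O.onPD.shiftZ (mapZ (D.isTwist_twMap (A := A)) f)) (O.z1 d')
      (fun b => c (k' b)) (c γ) σ (fun b => conjHom (O.qR_dvd hL) (g b)) hrel
      fun b => O.conj_mem_stab_z1 hL d' (g b)
    rw [e, Finset.sum_congr rfl fun b _ => by rw [hk1 b]]
    exact O.sum_eq_zero_of_push d' _ hF2 ((D.lower q O.dvd).conj_mem_stab hL' d' γ)

/-- a class both of whose images vanish has twists with vanishing sums -/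
theorem sumsZero_of_push [NeZero q] [∀ i, Fact (D.Q i).Prime] {L : ℕ} [NeZero L]
    (hL : L = D.N0 * D.R ^ 2) (d : D.Del) {y : H1 (funRep A D.X (M := M))}
    (h1 : O.pushH y = 0) (h2 : O.pushH' y = 0) :
    SumsZero (L / q) q (D.evalPD A hL d (map (D.isTwist_twMap (A := A)) y)) :=
  O.sumsZero_of_push_tw hL d h1 (by rw [h2, _root_.map_zero])

end OldPrime

end FLTAgent.LL

end
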