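import Fermat.Agent.MLT.DegenShift
import Fermat.Agent.MLT.DegenSums
import Fermat.Agent.LL.TWTwist

/-!
Area MLT, parcel DEGEN: the pair of degeneracy maps between `Mod` of a level and `Mod` of the level
with a prime removed; both commute with the Hecke operators and with the diamonds.
-/

set_option autoImplicit false
set_option linter.style.haveILetI false
set_option linter.unusedSectionVars false
set_option maxHeartbeats 1000000

noncomputable section

open scoped MatrixGroups TensorProduct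
open Matrix CongruenceSubgroup IsLocalRing

namespace FLTAgent.LL

/-- a map on `E` through an injective equivariant map -/
theorem Sys.exists_liftE {M : ℕ} [NeZero M] {A : Type*} [CommRing A] [IsLocalRing A]
    [IsNoetherianRing A] [IsAdicComplete (maximalIdeal A) A] (s : Sys M A)
    {V V' : Type*} [AddCommGroup V] [Module A V] [Module.Finite A V] [AddCommGroup V'] [Module A V']
    [Module.Finite A V'] {ρ : Representation A (GL (Fin 2) (ZMod M)) V}
    {ρ' : Representation A (GL (Fin 2) (ZMod M)) V'} {Φ : V →ₗ[A] V'} (h : IsTwist ρ ρ' 1 Φ)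
    (hi : Function.Injective Φ) (f : Module.End A (H1 ρ)) (g : Module.End A (H1 ρ'))
    (hfg : ∀ y, map h (f y) = g (map h y)) (hg : ∀ z ∈ s.E ρ', g z ∈ s.E ρ') :
    ∃ u : Module.End A (s.E ρ), ∀ x, map h (u x).1 = g (map h x.1) := by
  have hm : ∀ x : s.E ρ, ∃ z : s.E ρ, map h z.1 = g (map h x.1) := fun x => by
    obtain ⟨z, hz, hze⟩ := s.exists_preimage_mem_E h (fun _ => by simp) (x0 := f x.1)
      (by rw [hfg]; exact hg _ (s.map_mem_E h (fun _ => by simp) x.2))
    exact ⟨⟨z, hz⟩, hze.trans (hfg _)⟩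
  choose u hu using hm
  have hinj : ∀ a b : s.E ρ, map h a.1 = map h b.1 → a = b := fun a b hab => Subtype.ext
    (sub_eq_zero.mp (s.eq_zero_of_map_eq_zero h hi (sub_mem a.2 b.2)
      (by rw [_root_.map_sub, hab, sub_self])))
  exact ⟨{ toFun := u
           map_add' := fun a b => hinj _ _ (by
             simp only [hu, Submodule.coe_add, _root_.map_add])
           map_smul' := fun c a => hinj _ _ (by
             simp only [hu, Submodule.coe_smul, RingHom.id_apply, _root_.map_smul]) }, hu⟩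

namespace OldPrime

variable {M p r : ℕ} [NeZero M] {D : TWData M p r} {q : ℕ} (O : OldPrime D q)

include O

section Pull

variable {A : Type*} [CommRing A]

theorem funPull_twMap (F : (D.lower q O.dvd).X → A) :
    D.twMap A (funPull A O.pushX F) = funPull A O.pushP ((D.lower q O.dvd).twMap A F) := by
  classical
  funext z
  rw [funPull_apply, TWData.twMap, TWData.twMap, funKer_apply, funKer_apply]
  refine Eq.trans (Finset.sum_subset (Finset.subset_univ (Finset.univ.filter fun x : D.X => x.1 = z.1.1))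
    fun x _ hx => ?_).symm ?_
  · rw [show D.twKer A z x = 0 by
      show (if z.1.1 = x.1 then (1 : A) else 0) * _ = 0
      rw [if_neg fun e => hx (Finset.mem_filter.2 ⟨Finset.mem_univ _, e.symm⟩), zero_mul], zero_mul]
  refine Eq.trans (Finset.sum_bij' (t := Finset.univ.filter fun x : (D.lower q O.dvd).X =>
      x.1 = (O.pushP z).1.1) (fun x _ => O.pushX x) (fun x _ => ((z.1.1, x.2) : D.X))
    (fun x hx => ?_) (fun x hx => ?_) (fun x hx => ?_) (fun x hx => ?_) fun x hx => ?_)
    (Finset.sum_subset (Finset.subset_univ _) fun x _ hx => ?_)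
  · exact Finset.mem_filter.2 ⟨Finset.mem_univ _,
      congrArg (P1.proj M (Nat.div_dvd_of_dvd O.dvd)) (Finset.mem_filter.1 hx).2⟩
  · exact Finset.mem_filter.2 ⟨Finset.mem_univ _, rfl⟩
  · exact Prod.ext (Finset.mem_filter.1 hx).2.symm rfl
  · exact Prod.ext (Finset.mem_filter.1 hx).2.symm rfl
  · have e := (Finset.mem_filter.1 hx).2
    refine congrArg₂ (· * ·) (congrArg₂ (· * ·) (TWData.ind_congr ?_) rfl) rfl
    exact iff_of_true e.symm (congrArg (P1.proj M (Nat.div_dvd_of_dvd O.dvd)) e.symm)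
  · have h : (D.lower q O.dvd).twKer A (O.pushP z) x = 0 := by
      show (if (O.pushP z).1.1 = x.1 then (1 : A) else 0) * _ = 0
      rw [if_neg fun e => hx (Finset.mem_filter.2 ⟨Finset.mem_univ _, e.symm⟩), zero_mul]
    rw [h, zero_mul]

/-- the pull-back -/
def pullH : H1 (funRep A (D.lower q O.dvd).X (M := M)) →ₗ[A] H1 (funRep A D.X (M := M)) :=
  map (isTwist_funPull (A := A) O.pushX O.pushX_smul)

theorem map_pull_tw [∀ i, Fact (D.Q i).Prime] [∀ i, Fact ((D.lower q O.dvd).Q i).Prime] (y : H1 (funRep A (D.lower q O.dvd).X (M := M))) :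
    map (D.isTwist_twMap (A := A)) (O.pullH y) =
      map (isTwist_funPull (A := A) O.pushP O.pushP_smul)
        (map ((D.lower q O.dvd).isTwist_twMap (A := A)) y) := by
  obtain ⟨f, rfl⟩ := Submodule.mkQ_surjective _ y
  exact congrArg (H1.mk (funRep A D.PD (M := M)))
    (Subtype.ext (funext fun γ => O.funPull_twMap (f.1 γ)))

theorem pushX_actX (u : D.Del) (x : D.X) :
    O.pushX (D.actX u x) = (D.lower q O.dvd).actX u (O.pushX x) := rfl

theorem map_push_actFun [IsLocalRing A] (u : D.Del) (y : H1 (funRep A D.X (M := M))) :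
    O.pushH (map (D.isTwist_actFun (A := A) u) y) =
      map ((D.lower q O.dvd).isTwist_actFun (A := A) u) (O.pushH y) := by
  classical
  obtain ⟨f, rfl⟩ := Submodule.mkQ_surjective _ y
  refine congrArg (H1.mk (funRep A (D.lower q O.dvd).X (M := M)))
    (Subtype.ext (funext fun γ => funext fun x' => ?_))
  show funPush A O.pushX (D.actFun A u (f.1 γ)) x' =
    funPush A O.pushX (f.1 γ) ((D.lower q O.dvd).actX u x')
  rw [funPush_eq, funPush_eq]
  refine Fintype.sum_bijective _ (D.actX_bijective u) _ _ fun x => ?_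
  show (if _ then f.1 γ (D.actX u x) else 0) = _
  refine if_congr ⟨fun h => ?_, fun h => ?_⟩ rfl rfl
  · rw [O.pushX_actX, h]
  · rw [O.pushX_actX] at h
    exact ((D.lower q O.dvd).actX_bijective u).1 h

theorem map_pull_actFun [IsLocalRing A] (u : D.Del) (y : H1 (funRep A (D.lower q O.dvd).X (M := M))) :
    O.pullH (map ((D.lower q O.dvd).isTwist_actFun (A := A) u) y) =
      map (D.isTwist_actFun (A := A) u) (O.pullH y) := by
  obtain ⟨f, rfl⟩ := Submodule.mkQ_surjective _ y
  exact congrArg (H1.mk (funRep A D.X (M := M))) (Subtype.ext (funext fun γ => rfl))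

theorem funPush_funPull_X (c : ℕ) (hc : ∀ x' : (D.lower q O.dvd).X,
      Nat.card {x : D.X // O.pushX x = x'} = c) (F : (D.lower q O.dvd).X → A) :
    funPush A O.pushX (funPull A O.pushX F) = (c : A) • F := by
  classical
  funext x'
  rw [funPush_eq, Pi.smul_apply, smul_eq_mul, ← hc x', Nat.card_eq_fintype_card,
    Fintype.card_subtype, ← Finset.sum_filter, Finset.sum_congr rfl fun x hx =>
      show funPull A O.pushX F x = F x' from congrArg F (Finset.mem_filter.1 hx).2,
    Finset.sum_const, nsmul_eq_mul]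

theorem card_pushX (x' : (D.lower q O.dvd).X) :
    Nat.card {x : D.X // O.pushX x = x'} = q + 1 := by
  obtain ⟨γ, hγ⟩ := P1.transitive x'.1
  have e1 : Nat.card {x : D.X // O.pushX x = x'} =
      Nat.card {b : P1 M D.N0 // P1.proj M (Nat.div_dvd_of_dvd O.dvd) b = P1.base M (D.N0 / q)} := by
    refine Nat.card_congr
      { toFun := fun x => ⟨(red M γ)⁻¹ • x.1.1, ?_⟩
        invFun := fun b => ⟨(red M γ • b.1, x'.2), ?_⟩
        left_inv := fun x => Subtype.ext (Prod.ext (smul_inv_smul _ _)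
          (congrArg Prod.snd x.2).symm)
        right_inv := fun b => Subtype.ext (inv_smul_smul _ _) }
    · rw [P1.proj_smul, inv_smul_eq_iff]
      exact (congrArg Prod.fst x.2).trans hγ.symm
    · refine Prod.ext ?_ rfl
      show P1.proj M (Nat.div_dvd_of_dvd O.dvd) (red M γ • b.1) = x'.1
      rw [P1.proj_smul, b.2]
      exact hγ
  rw [e1]
  have h0 : D.N0 / q ≠ 0 := fun h => D.N0_ne_zero (by rw [O.eq_mul, h, zero_mul])
  haveI : NeZero (D.N0 / q) := ⟨h0⟩
  haveI : NeZero D.N0 := ⟨D.N0_ne_zero⟩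
  have hc := card_fibre_mul (M := M) (Nat.div_dvd_of_dvd O.dvd) D.dvd0
  rw [card_P1 ((Nat.div_dvd_of_dvd O.dvd).trans D.dvd0), card_P1 D.dvd0] at hc
  have hψ : ModularCurve.dedekindPsi D.N0 = (q + 1) * ModularCurve.dedekindPsi (D.N0 / q) := by
    conv_lhs => rw [O.eq_mul]
    rw [JTors.dedekindPsi_mul_prime O.prime _ h0, if_neg O.exact_dvd]
  rw [hψ] at hc
  exact Nat.eq_of_mul_eq_mul_right (dedekindPsi_pos_level (D.N0 / q)) hc

theorem pushH_pullH (y : H1 (funRep A (D.lower q O.dvd).X (M := M))) :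
    O.pushH (O.pullH y) = ((q + 1 : ℕ) : A) • y := by
  obtain ⟨f, rfl⟩ := Submodule.mkQ_surjective _ y
  rw [← _root_.map_smul]
  exact congrArg (H1.mk (funRep A (D.lower q O.dvd).X (M := M)))
    (Subtype.ext (funext fun γ => O.funPush_funPull_X _ O.card_pushX (f.1 γ)))

end Pull

section Maps

variable {A : Type} [CommRing A] [IsDomain A] [IsPrincipalIdealRing A] [IsLocalRing A]
  [IsAdicComplete (maximalIdeal A) A] [CharZero A] [NeZero q] (s : Sys M A)

omit [IsDomain A] [IsPrincipalIdealRing A] [IsAdicComplete (maximalIdeal A) A] [CharZero A] in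
theorem shiftPD_mem_E {z : H1 (funRep A D.PD (M := M))} (hz : z ∈ s.E (funRep A D.PD (M := M))) :
    O.onPD.shift z ∈ s.E (funRep A D.PD (M := M)) := by
  haveI : NeZero (D.N0 * D.R ^ 2) := ⟨mul_ne_zero D.N0_ne_zero (pow_ne_zero _ D.R_ne_zero)⟩
  obtain ⟨LD⟩ := JTors.exists_latticeData (D.N0 * D.R ^ 2)
  exact s.commute_mem_E (fun l hl hlM => O.shift_comm_T LD rfl hl hlM) hz

omit [IsDomain A] [IsPrincipalIdealRing A] [IsAdicComplete (maximalIdeal A) A] [CharZero A] in
theorem unshiftPD_mem_E {z : H1 (funRep A D.PD (M := M))} (hz : z ∈ s.E (funRep A D.PD (M := M))) :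
    O.unshiftPD z ∈ s.E (funRep A D.PD (M := M)) := by
  haveI : NeZero (D.N0 * D.R ^ 2) := ⟨mul_ne_zero D.N0_ne_zero (pow_ne_zero _ D.R_ne_zero)⟩
  obtain ⟨LD⟩ := JTors.exists_latticeData (D.N0 * D.R ^ 2)
  exact s.commute_mem_E (fun l hl hlM => O.unshift_comm_T LD rfl hl hlM) hz

theorem exists_modShift :
    ∃ u : Module.End A (D.Mod s), ∀ x,
      haveI := fun i => Fact.mk (D.prime i)
      map (D.isTwist_twMap (A := A)) (u x).1 =
        O.onPD.shift (map (D.isTwist_twMap (A := A)) x.1) :=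
  haveI := fun i => Fact.mk (D.prime i)
  s.exists_liftE (D.isTwist_twMap (A := A)) D.twMap_injective O.onX.shift O.onPD.shift O.map_shift_tw
    fun _ hz => O.shiftPD_mem_E s hz

theorem exists_modUnshift :
    ∃ u : Module.End A (D.Mod s), ∀ x,
      haveI := fun i => Fact.mk (D.prime i)
      map (D.isTwist_twMap (A := A)) (u x).1 =
        O.unshiftPD (map (D.isTwist_twMap (A := A)) x.1) :=
  haveI := fun i => Fact.mk (D.prime i)
  s.exists_liftE (D.isTwist_twMap (A := A)) D.twMap_injective O.unshiftX O.unshiftPD O.map_unshift_tw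
    fun _ hz => O.unshiftPD_mem_E s hz

/-- the transport on `Mod` -/
def modShift : Module.End A (D.Mod s) := (O.exists_modShift s).choose

/-- the inverse transport on `Mod` -/
def modUnshift : Module.End A (D.Mod s) := (O.exists_modUnshift s).choose

variable [∀ i, Fact (D.Q i).Prime]

theorem map_tw_modShift (x : D.Mod s) :
    map (D.isTwist_twMap (A := A)) (O.modShift s x).1 =
      O.onPD.shift (map (D.isTwist_twMap (A := A)) x.1) :=
  (O.exists_modShift s).choose_spec x

theorem map_tw_modUnshift (x : D.Mod s) :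
    map (D.isTwist_twMap (A := A)) (O.modUnshift s x).1 =
      O.unshiftPD (map (D.isTwist_twMap (A := A)) x.1) :=
  (O.exists_modUnshift s).choose_spec x

omit [NeZero q] in
theorem mod_ext {x y : D.Mod s}
    (h : map (D.isTwist_twMap (A := A)) x.1 = map (D.isTwist_twMap (A := A)) y.1) : x = y :=
  Subtype.ext (sub_eq_zero.mp (s.eq_zero_of_map_eq_zero (D.isTwist_twMap (A := A)) D.twMap_injective
    (sub_mem x.2 y.2) (by rw [_root_.map_sub, h, sub_self])))

omit [∀ i, Fact (D.Q i).Prime] in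
theorem modShift_opT {l : ℕ} (hl : l.Prime) (hlM : ¬ l ∣ M) :
    Commute (O.modShift s) (D.opT s hl hlM) := by
  haveI := fun i => Fact.mk (D.prime i)
  haveI : NeZero (D.N0 * D.R ^ 2) := ⟨mul_ne_zero D.N0_ne_zero (pow_ne_zero _ D.R_ne_zero)⟩
  obtain ⟨LD⟩ := JTors.exists_latticeData (D.N0 * D.R ^ 2)
  refine LinearMap.ext fun x => O.mod_ext s ?_
  rw [Module.End.mul_apply, Module.End.mul_apply, O.map_tw_modShift]
  show O.onPD.shift (map (D.isTwist_twMap (A := A)) (T (funRep A D.X (M := M)) hl hlM x.1)) =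
    map (D.isTwist_twMap (A := A)) (T (funRep A D.X (M := M)) hl hlM (O.modShift s x).1)
  rw [map_T_one, map_T_one, O.map_tw_modShift]
  exact LinearMap.congr_fun (O.shift_comm_T LD rfl hl hlM).eq _

omit [∀ i, Fact (D.Q i).Prime] in
theorem modShift_dia (u : D.Del) : Commute (O.modShift s) (D.dia s u) := by
  haveI := fun i => Fact.mk (D.prime i)
  refine LinearMap.ext fun x => O.mod_ext s (sub_eq_zero.mp
    (O.eq_zero_of_evalZ1 (L := D.N0 * D.R ^ 2) rfl fun d => ?_))
  rw [Module.End.mul_apply, Module.End.mul_apply, _root_.map_sub, O.map_tw_modShift, O.evalZ1_shift,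
    TWData.dia_val, D.map_tw_dia, TWData.dia_val, evalZ1_tw_actFun, O.map_tw_modShift,
    O.evalZ1_shift, mul_left_comm, sub_self]
where
  evalZ1_tw_actFun [∀ i, Fact (D.Q i).Prime] {L : ℕ} (hL : L = D.N0 * D.R ^ 2) (u d : D.Del)
      (y : H1 (funRep A D.X (M := M))) :
      O.evalZ1 hL d (map (D.isTwist_twMap (A := A)) (map (D.isTwist_actFun (A := A) u) y)) =
        O.evalZ1 hL (u * d) (map (D.isTwist_twMap (A := A)) y) := by
    obtain ⟨f, rfl⟩ := Submodule.mkQ_surjective _ y
    refine AddMonoidHom.ext fun γ => ?_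
    obtain ⟨γ, rfl⟩ := Additive.ofMul.surjective γ
    exact D.twMap_actFun u d (O.y1, D.baseP.2) _

omit [∀ i, Fact (D.Q i).Prime] in
theorem modShift_modUnshift (x : D.Mod s) : O.modShift s (O.modUnshift s x) = x := by
  haveI := fun i => Fact.mk (D.prime i)
  exact O.mod_ext s (by rw [O.map_tw_modShift, O.map_tw_modUnshift, O.shift_unshiftPD])

omit [∀ i, Fact (D.Q i).Prime] in
theorem modUnshift_modShift (x : D.Mod s) : O.modUnshift s (O.modShift s x) = x := by
  haveI := fun i => Fact.mk (D.prime i)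
  exact O.mod_ext s (by rw [O.map_tw_modUnshift, O.map_tw_modShift, O.unshift_shiftPD])

omit [∀ i, Fact (D.Q i).Prime] in
theorem modUnshift_comm (f : Module.End A (D.Mod s)) (hf : Commute (O.modShift s) f) :
    Commute (O.modUnshift s) f := by
  refine LinearMap.ext fun x => ?_
  rw [Module.End.mul_apply, Module.End.mul_apply]
  conv_lhs => rw [← O.modShift_modUnshift s x]
  rw [← Module.End.mul_apply f, ← hf.eq, Module.End.mul_apply, O.modUnshift_modShift]

/-- forgetting `q` -/
def push1 : D.Mod s →ₗ[A] (D.lower q O.dvd).Mod s :=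
  O.pushH.restrict fun _ hx => s.map_mem_E _ (fun _ => by simp) hx

/-- forgetting `q` after the transport -/
def push2 : D.Mod s →ₗ[A] (D.lower q O.dvd).Mod s := O.push1 s ∘ₗ O.modShift s

/-- adding `q` -/
def pull1 : (D.lower q O.dvd).Mod s →ₗ[A] D.Mod s :=
  O.pullH.restrict fun _ hx => s.map_mem_E _ (fun _ => by simp) hx

/-- adding `q`, then the inverse transport -/
def pull2 : (D.lower q O.dvd).Mod s →ₗ[A] D.Mod s := O.modUnshift s ∘ₗ O.pull1 s

omit [∀ i, Fact (D.Q i).Prime]

theorem push1_val (x : D.Mod s) : (O.push1 s x).1 = O.pushH x.1 := rfl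

theorem pull1_val (x : (D.lower q O.dvd).Mod s) : (O.pull1 s x).1 = O.pullH x.1 := rfl

theorem push1_opT {l : ℕ} (hl : l.Prime) (hlM : ¬ l ∣ M) (x : D.Mod s) :
    O.push1 s (D.opT s hl hlM x) = (D.lower q O.dvd).opT s hl hlM (O.push1 s x) :=
  Subtype.ext (map_T_one _ hl hlM x.1)

theorem pull1_opT {l : ℕ} (hl : l.Prime) (hlM : ¬ l ∣ M) (x : (D.lower q O.dvd).Mod s) :
    O.pull1 s ((D.lower q O.dvd).opT s hl hlM x) = D.opT s hl hlM (O.pull1 s x) :=
  Subtype.ext (map_T_one _ hl hlM x.1)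

theorem push1_dia (u : D.Del) (x : D.Mod s) :
    O.push1 s (D.dia s u x) = (D.lower q O.dvd).dia s u (O.push1 s x) :=
  Subtype.ext (O.map_push_actFun u x.1)

theorem pull1_dia (u : D.Del) (x : (D.lower q O.dvd).Mod s) :
    O.pull1 s ((D.lower q O.dvd).dia s u x) = D.dia s u (O.pull1 s x) :=
  Subtype.ext (O.map_pull_actFun u x.1)

theorem push2_dia (u : D.Del) (x : D.Mod s) :
    O.push2 s (D.dia s u x) = (D.lower q O.dvd).dia s u (O.push2 s x) := by
  show O.push1 s (O.modShift s (D.dia s u x)) = _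
  rw [← Module.End.mul_apply, (O.modShift_dia s u).eq, Module.End.mul_apply, O.push1_dia]
  rfl

theorem pull2_dia (u : D.Del) (x : (D.lower q O.dvd).Mod s) :
    O.pull2 s ((D.lower q O.dvd).dia s u x) = D.dia s u (O.pull2 s x) := by
  show O.modUnshift s (O.pull1 s _) = _
  rw [O.pull1_dia, ← Module.End.mul_apply,
    (O.modUnshift_comm s _ (O.modShift_dia s u)).eq, Module.End.mul_apply]
  rfl

theorem push2_opT {l : ℕ} (hl : l.Prime) (hlM : ¬ l ∣ M) (x : D.Mod s) :
    O.push2 s (D.opT s hl hlM x) = (D.lower q O.dvd).opT s hl hlM (O.push2 s x) := by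
  show O.push1 s (O.modShift s (D.opT s hl hlM x)) = _
  rw [← Module.End.mul_apply, (O.modShift_opT s hl hlM).eq, Module.End.mul_apply, O.push1_opT]
  rfl

theorem pull2_opT {l : ℕ} (hl : l.Prime) (hlM : ¬ l ∣ M) (x : (D.lower q O.dvd).Mod s) :
    O.pull2 s ((D.lower q O.dvd).opT s hl hlM x) = D.opT s hl hlM (O.pull2 s x) := by
  show O.modUnshift s (O.pull1 s _) = _
  rw [O.pull1_opT, ← Module.End.mul_apply,
    (O.modUnshift_comm s _ (O.modShift_opT s hl hlM)).eq, Module.End.mul_apply]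
  rfl

/-- both forgetful maps -/
def oldPush : D.Mod s →ₗ[A] (D.lower q O.dvd).Mod s × (D.lower q O.dvd).Mod s :=
  (O.push1 s).prod (O.push2 s)

/-- both maps adding `q` -/
def oldPull : (D.lower q O.dvd).Mod s × (D.lower q O.dvd).Mod s →ₗ[A] D.Mod s :=
  (O.pull1 s).coprod (O.pull2 s)

theorem push1_tOp {l : ℕ} (hl : l.Prime) (hlM : ¬ l ∣ M) (x : D.Mod s) :
    O.push1 s (D.tOp s hl hlM x) = (D.lower q O.dvd).tOp s hl hlM (O.push1 s x) :=
  (O.push1_dia s _ _).trans
    (congrArg ((D.lower q O.dvd).dia s _) (O.push1_opT s hl hlM x))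

theorem push2_tOp {l : ℕ} (hl : l.Prime) (hlM : ¬ l ∣ M) (x : D.Mod s) :
    O.push2 s (D.tOp s hl hlM x) = (D.lower q O.dvd).tOp s hl hlM (O.push2 s x) :=
  (O.push2_dia s _ _).trans
    (congrArg ((D.lower q O.dvd).dia s _) (O.push2_opT s hl hlM x))

theorem pull1_tOp {l : ℕ} (hl : l.Prime) (hlM : ¬ l ∣ M) (x : (D.lower q O.dvd).Mod s) :
    O.pull1 s ((D.lower q O.dvd).tOp s hl hlM x) = D.tOp s hl hlM (O.pull1 s x) :=
  (O.pull1_dia s _ _).trans (congrArg (D.dia s _) (O.pull1_opT s hl hlM x))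

theorem pull2_tOp {l : ℕ} (hl : l.Prime) (hlM : ¬ l ∣ M) (x : (D.lower q O.dvd).Mod s) :
    O.pull2 s ((D.lower q O.dvd).tOp s hl hlM x) = D.tOp s hl hlM (O.pull2 s x) :=
  (O.pull2_dia s _ _).trans (congrArg (D.dia s _) (O.pull2_opT s hl hlM x))

theorem push1_pull1 (y : (D.lower q O.dvd).Mod s) :
    O.push1 s (O.pull1 s y) = ((q + 1 : ℕ) : A) • y :=
  Subtype.ext (O.pushH_pullH y.1)

theorem push2_pull2 (y : (D.lower q O.dvd).Mod s) :
    O.push2 s (O.pull2 s y) = ((q + 1 : ℕ) : A) • y := by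
  show O.push1 s (O.modShift s (O.modUnshift s (O.pull1 s y))) = _
  rw [O.modShift_modUnshift, O.push1_pull1]

end Maps

end OldPrime

end FLTAgent.LL

end
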