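import Fermat.Agent.LL.TWOldShift

/-!
Area MLT, parcel DEGEN: the inverse of the transport by `diag (q, 1)`, from the second base point back
to the base point.
-/

set_option autoImplicit false
set_option linter.style.haveILetI false
set_option linter.unusedSectionVars false
set_option maxHeartbeats 800000

noncomputable section

open scoped MatrixGroups TensorProduct
open Matrix CongruenceSubgroup

namespace FLTAgent.LL

variable {M : ℕ} [NeZero M]

namespace ShiftPt

variable {N0 q : ℕ} [NeZero q] (S : ShiftPt M N0 q)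

open Classical in
/-- a section, normalised at the base point -/
def secB (p : P1 M N0) : SL(2, ℤ) := if p = P1.base M N0 then 1 else (P1.transitive p).choose

theorem secB_spec (p : P1 M N0) : red M (secB p) • P1.base M N0 = p := by
  rw [secB]
  split_ifs with h
  · rw [_root_.map_one, one_smul, h]
  · exact (P1.transitive p).choose_spec

theorem secB_base : secB (P1.base M N0) = 1 := if_pos rfl

theorem smul_inv_secB (p : P1 M N0) : (red M (secB p))⁻¹ • p = P1.base M N0 :=
  inv_smul_eq_iff.mpr (secB_spec p).symm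

include S in
theorem mem_eltB (γ : SL(2, ℤ)) (p : P1 M N0) :
    (secB p)⁻¹ * γ * secB ((red M γ)⁻¹ • p) ∈ Gamma0 N0 := by
  rw [← stab_base (M := M) S.dvdM, mem_stab, _root_.map_mul, _root_.map_mul, _root_.map_inv, mul_smul,
    mul_smul, secB_spec, smul_inv_smul, smul_inv_secB]

/-- the element of `Γ₀(N0)` of `γ` at `p`, from the base point -/
def kAt (γ : SL(2, ℤ)) (p : P1 M N0) : Gamma0 N0 := ⟨_, S.mem_eltB γ p⟩

theorem kAt_mul (γ δ : SL(2, ℤ)) (p : P1 M N0) :
    S.kAt (γ * δ) p = S.kAt γ p * S.kAt δ ((red M γ)⁻¹ • p) := by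
  refine Subtype.ext ?_
  show (secB p)⁻¹ * (γ * δ) * secB ((red M (γ * δ))⁻¹ • p) = (secB p)⁻¹ * γ * secB _ * ((secB _)⁻¹ * δ * secB _)
  rw [_root_.map_mul (red M), _root_.mul_inv_rev, mul_smul]
  group

theorem kAt_base (g : Gamma0 N0) : S.kAt (g : SL(2, ℤ)) (P1.base M N0) = g := by
  refine Subtype.ext ?_
  show (secB _)⁻¹ * (g : SL(2, ℤ)) * secB _ = _
  rw [inv_smul_of_mem_stab (Gamma0_le_stab M N0 g.2), secB_base, inv_one, one_mul, mul_one]

namespace On

variable {S} {A : Type*} [CommRing A] {X : Type*} [MulAction (GL (Fin 2) (ZMod M)) X] (O : S.On X)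
  (hb : ∀ x, O.π (O.move x) = P1.base M N0 ↔ O.π x = S.y1)

/-- the point of evaluation of the inverse transport -/
def unpt (x : X) : X :=
  (Equiv.ofBijective O.move O.move_bij).symm ((red M (secB (O.π x)))⁻¹ • x)

theorem unpt_bijective (p : P1 M N0) : Function.Bijective fun x : X =>
    (Equiv.ofBijective O.move O.move_bij).symm ((red M (secB p))⁻¹ • x) :=
  (Equiv.bijective _).comp (MulAction.bijective _)

theorem move_unpt (x : X) : O.move (O.unpt x) = (red M (secB (O.π x)))⁻¹ • x :=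
  Equiv.apply_symm_apply (Equiv.ofBijective O.move O.move_bij) _

include hb in
theorem unpt_inv_smul (γ : SL(2, ℤ)) (x : X) :
    (red M (conjHom S.dvdq (S.kAt γ (O.π x))))⁻¹ • O.unpt x = O.unpt ((red M γ)⁻¹ • x) := by
  set k := S.kAt γ (O.π x) with hk
  have hz : O.π (O.unpt x) = S.y1 :=
    (hb _).1 (by rw [move_unpt, O.π_smul, smul_inv_secB])
  have hz' : O.π ((red M (conjHom S.dvdq k))⁻¹ • O.unpt x) = S.y1 := by
    rw [O.π_smul, hz]; exact inv_smul_of_mem_stab (S.le k)
  refine O.move_bij.1 ?_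
  have e := O.move_smul k _ hz'
  rw [smul_inv_smul, ← inv_smul_eq_iff, move_unpt] at e
  rw [← e, move_unpt, O.π_smul, hk, kAt]
  simp only [_root_.map_mul, _root_.map_inv, _root_.mul_inv_rev, inv_inv, mul_smul, smul_inv_smul]

/-- the inverse transport of crossed homomorphisms -/
def unshiftZ : Z1 (funRep A X (M := M)) →ₗ[A] Z1 (funRep A X (M := M)) where
  toFun f := ⟨fun γ x => f.1 (conjHom S.dvdq (S.kAt γ (O.π x))) (O.unpt x), fun γ δ => funext fun x => by
    simp only [Pi.add_apply, funRep_apply]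
    rw [S.kAt_mul, _root_.map_mul, Z1_apply_mul _ f.2, Pi.add_apply, funRep_apply,
      O.unpt_inv_smul hb, O.π_smul]⟩
  map_add' f f' := by
    ext γ x
    simp only [Submodule.coe_add, Pi.add_apply]
  map_smul' c f := by
    ext γ x
    simp only [Submodule.coe_smul, Pi.smul_apply, RingHom.id_apply]

theorem unshiftZ_base (f : Z1 (funRep A X (M := M))) (g : Gamma0 N0) {x : X}
    (hx : O.π x = P1.base M N0) :
    (O.unshiftZ hb f).1 (g : SL(2, ℤ)) x =
      f.1 (conjHom S.dvdq g) ((Equiv.ofBijective O.move O.move_bij).symm x) := by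
  show f.1 (conjHom S.dvdq (S.kAt _ (O.π x))) (O.unpt x) = _
  rw [hx, S.kAt_base, unpt, hx, secB_base, _root_.map_one, inv_one, one_smul]

/-- the inverse transport on cohomology -/
def unshift : H1 (funRep A X (M := M)) →ₗ[A] H1 (funRep A X (M := M)) :=
  Submodule.mapQ _ _ (O.unshiftZ hb) (by
    rintro _ ⟨w, rfl⟩
    refine ⟨fun x => w (O.unpt x), ?_⟩
    ext γ x
    show _ = (coboundary (funRep A X (M := M)) w).1 _ (O.unpt x)
    rw [coboundary_apply, coboundary_apply, Pi.sub_apply, Pi.sub_apply, funRep_apply, funRep_apply,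
      O.unpt_inv_smul hb])

theorem unshift_mk (f : Z1 (funRep A X (M := M))) :
    O.unshift hb (H1.mk (funRep A X (M := M)) f) = H1.mk (funRep A X (M := M)) (O.unshiftZ hb f) :=
  rfl

/-- the inverse transport commutes with an equivariant kernel -/
theorem map_unshift {Z : Type*} [MulAction (GL (Fin 2) (ZMod M)) Z] [Fintype X] (OZ : S.On Z)
    (hbZ : ∀ z, OZ.π (OZ.move z) = P1.base M N0 ↔ OZ.π z = S.y1)
    (K : Z → X → A) (hK : ∀ (g : GL (Fin 2) (ZMod M)) z x, K (g • z) (g • x) = K z x)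
    (hπ : ∀ z x, OZ.π z ≠ O.π x → K z x = 0) (hm : ∀ z x, K (OZ.move z) (O.move x) = K z x)
    (h : IsTwist (funRep A X (M := M)) (funRep A Z (M := M)) 1 (funKer K))
    (y : H1 (funRep A X (M := M))) : map h (O.unshift hb y) = OZ.unshift hbZ (map h y) := by
  obtain ⟨f, rfl⟩ := Submodule.mkQ_surjective _ y
  refine congrArg (H1.mk (funRep A Z (M := M))) (Subtype.ext (funext fun γ => funext fun z => ?_))
  show funKer K (fun x => f.1 (conjHom S.dvdq (S.kAt γ (O.π x))) (O.unpt x)) z =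
    funKer K (f.1 (conjHom S.dvdq (S.kAt γ (OZ.π z)))) (OZ.unpt z)
  rw [funKer_apply, funKer_apply]
  refine Fintype.sum_bijective _ (O.unpt_bijective (OZ.π z)) _ _ fun x => ?_
  have hk : K z x = K (OZ.unpt z) ((Equiv.ofBijective O.move O.move_bij).symm
      ((red M (secB (OZ.π z)))⁻¹ • x)) := by
    rw [← hm (OZ.unpt z), move_unpt, show O.move _ = _ from Equiv.apply_symm_apply (Equiv.ofBijective O.move O.move_bij) _, hK]
  rw [← hk]
  by_cases e : OZ.π z = O.π x
  · rw [e, unpt]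
  · rw [hπ z x e, zero_mul, zero_mul]

end On

end ShiftPt

namespace OldPrime

variable {p r : ℕ} {D : TWData M p r} {q : ℕ} (O : OldPrime D q) [NeZero q]

include O

theorem move_iff_X (x : D.X) : O.onX.π (O.onX.move x) = P1.base M D.N0 ↔ O.onX.π x = O.shiftPt.y1 := by
  classical
  show Equiv.swap O.y1 _ x.1 = _ ↔ x.1 = O.y1
  rw [Equiv.swap_apply_eq_iff, Equiv.swap_apply_right]

theorem move_iff_PD (z : D.PD) :
    O.onPD.π (O.onPD.move z) = P1.base M D.N0 ↔ O.onPD.π z = O.shiftPt.y1 := by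
  classical
  show Equiv.swap O.y1 _ z.1.1 = _ ↔ z.1.1 = O.y1
  rw [Equiv.swap_apply_eq_iff, Equiv.swap_apply_right]

variable {A : Type*} [CommRing A]

/-- the inverse transport on vectors -/
def unshiftX : H1 (funRep A D.X (M := M)) →ₗ[A] H1 (funRep A D.X (M := M)) :=
  O.onX.unshift O.move_iff_X

/-- the inverse transport on pairs of lines -/
def unshiftPD : H1 (funRep A D.PD (M := M)) →ₗ[A] H1 (funRep A D.PD (M := M)) :=
  O.onPD.unshift O.move_iff_PD

theorem map_unshift_tw [∀ i, Fact (D.Q i).Prime] (y : H1 (funRep A D.X (M := M))) :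
    map (D.isTwist_twMap (A := A)) (O.unshiftX y) =
      O.unshiftPD (map (D.isTwist_twMap (A := A)) y) :=
  ShiftPt.On.map_unshift O.onX O.move_iff_X O.onPD O.move_iff_PD (D.twKer A) D.twKer_smul
    O.twKer_eq_zero O.twKer_move (show IsTwist (funRep A D.X (M := M)) (funRep A D.PD (M := M)) 1
      (funKer (D.twKer A)) from D.isTwist_twMap) y

variable {L : ℕ}

theorem evalPD_unshift (hL : L = D.N0 * D.R ^ 2) (d : D.Del) (y : H1 (funRep A D.PD (M := M))) :
    D.evalPD A hL (D.w O.unit * d) (O.unshiftPD y) = O.evalZ1 hL d y := by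
  haveI : NeZero D.R := ⟨D.R_ne_zero⟩
  obtain ⟨f, rfl⟩ := Submodule.mkQ_surjective _ y
  refine AddMonoidHom.ext fun a => ?_
  obtain ⟨γ, rfl⟩ := Additive.ofMul.surjective a
  show (O.onPD.unshiftZ O.move_iff_PD f).1
      ((⟨conjHom (D.conj_dvd hL) γ, O.conj_mem_Gamma0 hL γ⟩ : Gamma0 D.N0) : SL(2, ℤ))
      (D.basePD (D.w O.unit * d)) = f.1 (conjHom (O.qR_dvd hL) γ) (O.z1 d)
  refine (O.onPD.unshiftZ_base O.move_iff_PD f ⟨_, O.conj_mem_Gamma0 hL γ⟩ rfl).trans ?_
  rw [← O.move_z1 d, Equiv.ofBijective_symm_apply_apply]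
  exact congrArg (fun δ => f.1 δ (O.z1 d)) (O.conj_qR hL γ)

theorem eq_zero_of_evalZ1 (hL : L = D.N0 * D.R ^ 2) {y : H1 (funRep A D.PD (M := M))}
    (hy : ∀ d, O.evalZ1 hL d y = 0) : y = 0 := by
  haveI : NeZero D.R := ⟨D.R_ne_zero⟩
  exact eval_injective_family O.z1 O.exists_red_smul_z1 O.z1_index fun d =>
    eval_eq_zero_of_evalConj_eq_zero (O.qR_dvd hL) (O.z1 d) (O.conj_mem_stab_z1 hL d)
      (fun δ hδ => O.exists_conj_of_mem_stab_z1 hL d hδ) (hy d)

theorem unshift_shiftPD (y : H1 (funRep A D.PD (M := M))) : O.unshiftPD (O.onPD.shift y) = y := by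
  refine sub_eq_zero.mp (D.eq_zero_of_evalPD rfl fun d => ?_)
  obtain ⟨d, rfl⟩ : ∃ d', D.w O.unit * d' = d := ⟨(D.w O.unit)⁻¹ * d, mul_inv_cancel_left _ _⟩
  rw [_root_.map_sub, O.evalPD_unshift, O.evalZ1_shift, sub_self]

theorem shift_unshiftPD (y : H1 (funRep A D.PD (M := M))) : O.onPD.shift (O.unshiftPD y) = y := by
  refine sub_eq_zero.mp (O.eq_zero_of_evalZ1 (L := D.N0 * D.R ^ 2) rfl fun d => ?_)
  rw [_root_.map_sub, O.evalZ1_shift, O.evalPD_unshift, sub_self]

theorem unshift_comm_T [NeZero L] (LD : JTors.LatticeData L) (hL : L = D.N0 * D.R ^ 2)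
    {l : ℕ} (hl : l.Prime) (hlM : ¬ l ∣ M) :
    Commute (O.unshiftPD : Module.End A (H1 (funRep A D.PD (M := M))))
      (T (funRep A D.PD (M := M)) hl hlM) := by
  refine LinearMap.ext fun y => ?_
  rw [Module.End.mul_apply, Module.End.mul_apply]
  conv_lhs => rw [← O.shift_unshiftPD y]
  rw [← Module.End.mul_apply (T _ hl hlM), ← (O.shift_comm_T LD hL hl hlM).eq, Module.End.mul_apply,
    O.unshift_shiftPD]

end OldPrime

end FLTAgent.LL

end
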