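import Fermat.Agent.MLT.DegenY
import Fermat.Agent.LR.Span

/-!
Area MLT, parcel DEGEN: both maps forgetting `q` are jointly surjective, and both maps adding `q` are
jointly injective on the coinvariants modulo the maximal ideal.
-/

set_option autoImplicit false
set_option linter.style.haveILetI false
set_option linter.unusedSectionVars false
set_option maxHeartbeats 1200000

noncomputable section

open scoped MatrixGroups TensorProduct
open Matrix CongruenceSubgroup IsLocalRing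

namespace FLTAgent.LL

/-- what Ihara's lemma at `q` asks of the system -/
structure Sys.IharaAt {M : ℕ} {A : Type*} [CommRing A] (s : Sys M A) (q : ℕ) : Prop where
  sq : ∃ l : ℕ, l.Prime ∧ ¬ l ∣ M ∧ l ∉ s.bad ∧ ¬ (l : ℤ) ∣ (q : ℤ) ^ 2 - 1 ∧
    IsUnit (s.eig l ^ 2 - (1 + (l : A)) ^ 2)
  one_mod : ∀ M₀ : ℕ, 0 < M₀ → ∃ l : ℕ, l.Prime ∧ ¬ l ∣ M ∧ l ∉ s.bad ∧ (M₀ : ℤ) ∣ (l : ℤ) - 1 ∧
    IsUnit (s.eig l - (1 + (l : A)))

/-- a map to two copies which reaches every pair of coinvariants is surjective -/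
theorem surjective_pair_of_coinvariants {A V N W Δ : Type*} [CommRing A] [IsLocalRing A]
    [AddCommGroup V] [Module A V] [Module.Finite A V] [AddCommGroup N] [Module A N] [AddCommGroup W]
    [Module A W] [Fintype Δ] {p n : ℕ} (hp : p.Prime) (hp2 : p ≠ 2) (hpA : (p : A) ∈ maximalIdeal A)
    (dia : Δ → Module.End A V) (hc : ∀ u v, Commute (dia u) (dia v)) (hpow : ∀ u, dia u ^ p ^ n = 1)
    (ψ : N →ₗ[A] V × V) (hst : ∀ u x, ∃ x', ψ x' = (dia u (ψ x).1, dia u (ψ x).2))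
    (π : V →ₗ[A] W) (hker : LinearMap.ker π ≤ ⨆ u, LinearMap.range (dia u - 1))
    (hsur : ∀ z : V × V, ∃ x, π (ψ x).1 = π z.1 ∧ π (ψ x).2 = π z.2) :
    Function.Surjective ψ := by
  classical
  let pair : Module.End A V →+* Module.End A (V × V) :=
    (LinearMap.prodMapRingHom A V V).comp ((RingHom.id _).prod (RingHom.id _))
  have hpair : ∀ f z, pair f z = (f z.1, f z.2) := fun f z => rfl
  let ev : Δ → Module.End A (V × V) := fun u => pair (dia u) - 1
  have hev : ∀ u v, Commute (ev u) (ev v) := fun u v =>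
    (((hc u v).map pair).sub_left (Commute.one_left _)).sub_right (Commute.one_right _)
  set P : Submodule A (V × V) := maximalIdeal A • ⊤ with hP
  have hnil : ∀ u, LinearMap.range (ev u ^ p ^ n) ≤ P := fun u =>
    range_sub_one_pow_le hp hp2 _ hpA _ (by rw [← _root_.map_pow, hpow, _root_.map_one])
  have hR : LinearMap.range ψ ⊔ P = ⊤ := by
    refine eq_top_of_sup_ranges ev _ (fun v => ?_) hev (fun u => ⟨_, (hnil u).trans le_sup_right⟩)
      Finset.univ (eq_top_iff.2 fun z _ => ?_)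
    · rw [Submodule.map_sup]
      refine sup_le_sup ?_ ?_
      · rintro _ ⟨_, ⟨x, rfl⟩, rfl⟩
        obtain ⟨x', hx'⟩ := hst v x
        exact ⟨x' - x, by rw [_root_.map_sub, hx']; rfl⟩
      · rw [hP, Submodule.map_smul'']
        exact Submodule.smul_mono le_rfl le_top
    · obtain ⟨x, hx1, hx2⟩ := hsur z
      rw [← sub_add_cancel z (ψ x)]
      refine add_mem (Submodule.mem_sup_right ?_)
        (Submodule.mem_sup_left (Submodule.mem_sup_left ⟨x, rfl⟩))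
      have hmap : ∀ i : V →ₗ[A] V × V, (∀ u y, ∃ w, ev u w = i ((dia u - 1) y)) →
          ∀ k ∈ LinearMap.ker π, i k ∈ ⨆ u ∈ (Finset.univ : Finset Δ), LinearMap.range (ev u) := by
        intro i hi k hk
        refine (?_ : (⨆ u, LinearMap.range (dia u - 1)).map i ≤ _) ⟨k, hker hk, rfl⟩
        rw [Submodule.map_iSup]
        refine iSup_le fun u => le_iSup₂_of_le u (Finset.mem_univ u) ?_
        rintro _ ⟨_, ⟨y, rfl⟩, rfl⟩
        exact hi u y
      have e : z - ψ x = LinearMap.inl A V V (z.1 - (ψ x).1) + LinearMap.inr A V V (z.2 - (ψ x).2) := by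
        simp [Prod.ext_iff]
      rw [e]
      refine add_mem (hmap _ (fun u y => ⟨(y, 0), ?_⟩) _ ?_) (hmap _ (fun u y => ⟨(0, y), ?_⟩) _ ?_)
      · simp [ev, hpair]
      · rw [LinearMap.mem_ker, _root_.map_sub, hx1, sub_self]
      · simp [ev, hpair]
      · rw [LinearMap.mem_ker, _root_.map_sub, hx2, sub_self]
  refine LinearMap.range_eq_top.1 (top_le_iff.1 ?_)
  exact Submodule.le_of_le_smul_of_le_jacobson_bot (I := maximalIdeal A) Module.Finite.fg_top
    (le_of_eq (IsLocalRing.jacobson_eq_maximalIdeal ⊥ bot_ne_top).symm) (eq_top_iff.1 hR)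

variable {M p r : ℕ} [NeZero M]

namespace TWData

variable (D : TWData M p r) {K : ℕ} (hK : K = D.N0 * D.R) {A : Type} [CommRing A] [IsLocalRing A]
  (s : Sys M A)

theorem evalY_e1 {l : ℕ} [NeZero l] (hl : l.Prime) (hlM : ¬ l ∣ M) (hlK : ¬ l ∣ K)
    (x : H1 (funRep A D.Y (M := M))) :
    D.evalY hK A ((T (funRep A D.Y (M := M)) hl hlM - ((l + 1 : ℕ) : A) • 1) x) =
      LR.e1H K l hl hlK (D.evalY hK A x) := by
  rw [LinearMap.sub_apply, LinearMap.smul_apply, Module.End.one_apply, _root_.map_sub,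
    _root_.map_smul, D.evalY_T hK A hl hlM hlK, Nat.cast_smul_eq_nsmul, LR.e1H_apply]

theorem evalY_e2 {l : ℕ} [NeZero l] (hl : l.Prime) (hlM : ¬ l ∣ M) (hlK : ¬ l ∣ K)
    (x : H1 (funRep A D.Y (M := M))) :
    D.evalY hK A ((T (funRep A D.Y (M := M)) hl hlM * T (funRep A D.Y (M := M)) hl hlM -
        (((l + 1) ^ 2 : ℕ) : A) • 1) x) =
      LR.e2H K l hl hlK (D.evalY hK A x) := by
  rw [LinearMap.sub_apply, LinearMap.smul_apply, Module.End.one_apply, Module.End.mul_apply,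
    _root_.map_sub, _root_.map_smul, D.evalY_T hK A hl hlM hlK, D.evalY_T hK A hl hlM hlK,
    Nat.cast_smul_eq_nsmul, LR.e2H_apply]

theorem evalY_eta [NeZero s.l0] (hlK : ¬ s.l0 ∣ K) (x : H1 (funRep A D.Y (M := M))) :
    D.evalY hK A (s.eta (funRep A D.Y (M := M)) x) = LR.e1H K s.l0 s.prime_l0 hlK (D.evalY hK A x) := by
  rw [← D.evalY_e1 hK s.prime_l0 s.not_dvd_l0 hlK, Sys.eta, add_comm 1 s.l0]

theorem evalXY_eta [NeZero s.l0] (hlK : ¬ s.l0 ∣ K) (z : H1 (funRep A D.X (M := M))) :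
    D.evalXY hK A (s.eta (funRep A D.X (M := M)) z) = LR.e1H K s.l0 s.prime_l0 hlK (D.evalXY hK A z) := by
  refine Eq.trans ?_ (D.evalY_eta hK s hlK _)
  exact congrArg (D.evalY hK A) (map_eta s (D.isTwist_projXY (A := A)) z)

theorem residue_evalY_eq_zero [IsNoetherianRing A] [IsAdicComplete (maximalIdeal A) A]
    {y : s.E (funRep A D.Y (M := M))}
    (hy : y ∈ maximalIdeal A • (⊤ : Submodule A (s.E (funRep A D.Y (M := M))))) :
    (residue A).toAddMonoidHom.comp (D.evalY hK A y.1) = 0 := by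
  refine Submodule.smul_induction_on hy (fun a ha m _ => AddMonoidHom.ext fun γ => ?_)
    fun y₁ y₂ h₁ h₂ => ?_
  · show residue A (D.evalY hK A (a • m.1) γ) = 0
    rw [_root_.map_smul, AddMonoidHom.smul_apply, smul_eq_mul, _root_.map_mul,
      (residue_eq_zero_iff a).2 ha, zero_mul]
  · rw [Submodule.coe_add, _root_.map_add, AddMonoidHom.comp_add, h₁, h₂, add_zero]

end TWData

namespace TWData

variable (D : TWData M p r) {K : ℕ} (hK : K = D.N0 * D.R) {A : Type} [CommRing A] [IsDomain A]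
  [IsDiscreteValuationRing A] [IsAdicComplete (maximalIdeal A) A] [CharZero A] (s : Sys M A)

/-- values in the maximal ideal put a class in what vanishes in the coinvariants modulo it -/
theorem mem_small_of_residue (h6 : s.Elliptic)
    {U : Module.End A (H1 (funRep A D.Y (M := M)))} (hU : s.UnitOnE (funRep A D.Y (M := M)) U)
    (a : D.Mod s)
    (h : (residue A).toAddMonoidHom.comp (D.evalY hK A (U (D.toY s a).1)) = 0) :
    a ∈ LinearMap.ker (D.toY s) ⊔ maximalIdeal A • (⊤ : Submodule A (D.Mod s)) := by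
  obtain ⟨ϖ, hϖ⟩ := IsDiscreteValuationRing.exists_irreducible A
  have hval : ∀ γ, ϖ ∣ D.evalY hK A (U (D.toY s a).1) γ := fun γ => by
    rw [← Ideal.mem_span_singleton, ← hϖ.maximalIdeal_eq, ← residue_eq_zero_iff]
    exact DFunLike.congr_fun h γ
  choose c hc using hval
  obtain ⟨w, hw⟩ := (D.evalY_bijective hK A).2 (AddMonoidHom.mk' c fun γ δ =>
    mul_left_cancel₀ hϖ.ne_zero (by rw [mul_add, ← hc, ← hc, ← hc, _root_.map_add]))
  have hyw : U (D.toY s a).1 = ϖ • w := (D.evalY_bijective hK A).1 (AddMonoidHom.ext fun γ => by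
    rw [_root_.map_smul, AddMonoidHom.smul_apply, hw, smul_eq_mul, hc]
    rfl)
  obtain ⟨e, he1, he2, -⟩ := s.exists_proj_E (ρ := funRep A D.Y (M := M))
  have hye : U (D.toY s a).1 = ϖ • e w := by
    rw [← _root_.map_smul, ← hyw, he2 _ (s.commute_mem_E hU.comm (D.toY s a).2)]
  obtain ⟨t, ht, hat⟩ := hU.dvd s (D.toY s a).2 (he1.le (LinearMap.mem_range_self e w)) ϖ hye
  obtain ⟨x, hx⟩ := D.toY_surjective' s h6 ⟨t, ht⟩
  rw [← sub_add_cancel a (ϖ • x)]
  refine add_mem (Submodule.mem_sup_left (LinearMap.mem_ker.2 (Subtype.ext ?_)))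
    (Submodule.mem_sup_right (Submodule.smul_mem_smul
      (by rw [hϖ.maximalIdeal_eq]; exact Ideal.mem_span_singleton_self ϖ) Submodule.mem_top))
  rw [_root_.map_sub, _root_.map_smul, hx, Submodule.coe_sub, Submodule.coe_smul, hat, sub_self]
  rfl

end TWData

namespace OldPrime

variable {D : TWData M p r} {q : ℕ} (O : OldPrime D q) [NeZero q] {A : Type} [CommRing A] [IsDomain A]
  [IsDiscreteValuationRing A] [IsAdicComplete (maximalIdeal A) A] [CharZero A] (s : Sys M A)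

include O

theorem not_dvd_levN_mul {l : ℕ} (hlM : ¬ l ∣ M) : ¬ l ∣ O.levN * q :=
  fun h => hlM (h.trans O.levN_dvd_M)

theorem not_dvd_levN_of {l : ℕ} (hlM : ¬ l ∣ M) : ¬ l ∣ O.levN :=
  fun h => O.not_dvd_levN_mul hlM (h.mul_right q)

theorem not_dvd_q {l : ℕ} (hlM : ¬ l ∣ M) : ¬ l ∣ q :=
  fun h => O.not_dvd_levN_mul hlM (h.mul_left O.levN)

theorem be2_comp {V V' : Type} [AddCommGroup V] [AddCommGroup V'] (f : V →+ V')
    (φ : LR.HomG (O.levN * q) V) :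
    LR.be2 O.prime O.not_dvd_levN (f.comp φ) = f.comp (LR.be2 O.prime O.not_dvd_levN φ) := by
  show (LR.epsC _ _).op ((LR.WC _ _).op (f.comp φ)) = f.comp ((LR.epsC _ _).op ((LR.WC _ _).op φ))
  rw [LR.Corr.op_comp, LR.Corr.op_comp]

/-- the inverse transport, after `eta` -/
theorem e1H_evalXY_modUnshift [NeZero s.l0] (x : D.Mod s) :
    LR.e1H (O.levN * q) s.l0 s.prime_l0 (O.not_dvd_levN_mul s.not_dvd_l0)
        (D.evalXY O.levN_mul A (O.modUnshift s x).1) =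
      LR.e1H (O.levN * q) s.l0 s.prime_l0 (O.not_dvd_levN_mul s.not_dvd_l0)
        (LR.Wop O.prime O.not_dvd_levN (D.evalXY O.levN_mul A x.1)) := by
  haveI : ∀ i, Fact (D.Q i).Prime := fun i => ⟨D.prime i⟩
  have h0 : s.eta (funRep A D.X (M := M)) ((O.modUnshift s x).1 - O.unshiftX x.1) = 0 :=
    eta_eq_zero_of_map_eq_zero s (D.isTwist_twMap (A := A)) D.twMap_injective _ (by
      rw [_root_.map_sub, O.map_tw_modUnshift, O.map_unshift_tw, sub_self])
  rw [_root_.map_sub, sub_eq_zero] at h0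
  have h1 := congrArg (D.evalXY O.levN_mul A) h0
  rw [D.evalXY_eta _ s (O.not_dvd_levN_mul s.not_dvd_l0),
    D.evalXY_eta _ s (O.not_dvd_levN_mul s.not_dvd_l0), O.evalXY_unshiftX] at h1
  exact h1

omit [NeZero q] in
theorem isUnit_cast_sq {l : ℕ} (h : IsUnit (s.eig l ^ 2 - (1 + (l : A)) ^ 2)) :
    IsUnit (s.eig l ^ 2 - (((l + 1) ^ 2 : ℕ) : A)) := by
  rwa [show (((l + 1) ^ 2 : ℕ) : A) = (1 + (l : A)) ^ 2 by push_cast; ring]

omit [NeZero q] in
theorem isUnit_cast_sub {l : ℕ} (h : IsUnit (s.eig l - (1 + (l : A)))) :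
    IsUnit (s.eig l - ((l + 1 : ℕ) : A)) := by
  rwa [show ((l + 1 : ℕ) : A) = 1 + (l : A) by push_cast; ring]

/-- the traces reach twice `e2 e1` of every pair of parabolic homomorphisms -/
theorem exists_hom_lamCast [NeZero O.levN] {R S : ℕ} [NeZero R] [NeZero S] (hR : R.Prime)
    (hRN : ¬ R ∣ O.levN) (hS : S.Prime) (hSN : ¬ S ∣ O.levN)
    (hdual : ∀ z₁ z₂ : LR.HomG O.levN ℤ, ∃ h : LR.HomG (O.levN * q) ℤ,
      LR.be1 O.prime O.not_dvd_levN h = 2 • LR.e2H O.levN R hR hRN (LR.e1H O.levN S hS hSN z₁) ∧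
      LR.be2 O.prime O.not_dvd_levN h = 2 • LR.e2H O.levN R hR hRN (LR.e1H O.levN S hS hSN z₂))
    (y₁ y₂ : A ⊗[ℤ] JTors.Lam O.levN) :
    ∃ h : LR.HomG (O.levN * q) A,
      LR.be1 O.prime O.not_dvd_levN h =
          2 • LR.e2H O.levN R hR hRN (LR.e1H O.levN S hS hSN (lamCast A O.levN y₁)) ∧
        LR.be2 O.prime O.not_dvd_levN h =
          2 • LR.e2H O.levN R hR hRN (LR.e1H O.levN S hS hSN (lamCast A O.levN y₂)) := by
  let G : LR.HomG O.levN A →+ LR.HomG O.levN A :=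
    2 • (LR.e2H O.levN R hR hRN).comp (LR.e1H O.levN S hS hSN)
  suffices key : ∀ y : A ⊗[ℤ] JTors.Lam O.levN,
      (∃ h, LR.be1 O.prime O.not_dvd_levN h = G (lamCast A O.levN y) ∧
        LR.be2 O.prime O.not_dvd_levN h = 0) ∧
      (∃ h, LR.be1 O.prime O.not_dvd_levN h = 0 ∧
        LR.be2 O.prime O.not_dvd_levN h = G (lamCast A O.levN y)) by
    obtain ⟨⟨h, h1, h2⟩, -⟩ := key y₁
    obtain ⟨-, h', h1', h2'⟩ := key y₂
    exact ⟨h + h', by rw [_root_.map_add, h1, h1', add_zero]; rfl,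
      by rw [_root_.map_add, h2, h2', zero_add]; rfl⟩
  intro y
  induction y using TensorProduct.induction_on with
  | zero => exact ⟨⟨0, by simp, by simp⟩, ⟨0, by simp, by simp⟩⟩
  | tmul a φ =>
    let f : ℤ →+ A := (AddMonoidHom.mulLeft a).comp (Int.castAddHom A)
    have hcast : lamCast A O.levN (a ⊗ₜ[ℤ] φ) = f.comp φ.1 :=
      AddMonoidHom.ext fun γ => lamCast_tmul (A := A) (N := O.levN) a φ γ
    have hG : ∀ z : LR.HomG O.levN ℤ,
        f.comp (2 • LR.e2H O.levN R hR hRN (LR.e1H O.levN S hS hSN z)) = G (f.comp z) := fun z => by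
      show _ = 2 • LR.e2H O.levN R hR hRN (LR.e1H O.levN S hS hSN (f.comp z))
      rw [e1H_comp, e2H_comp]
      exact AddMonoidHom.ext fun γ => _root_.map_nsmul f _ _
    have hb1 : ∀ h : LR.HomG (O.levN * q) ℤ,
        LR.be1 O.prime O.not_dvd_levN (f.comp h) = f.comp (LR.be1 O.prime O.not_dvd_levN h) :=
      fun h => LR.Corr.op_comp _ f h
    rw [hcast]
    obtain ⟨h, h1, h2⟩ := hdual φ.1 0
    obtain ⟨h', h1', h2'⟩ := hdual 0 φ.1
    refine ⟨⟨f.comp h, ?_, ?_⟩, ⟨f.comp h', ?_, ?_⟩⟩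
    · rw [hb1, h1, hG]
    · rw [O.be2_comp, h2, hG, AddMonoidHom.comp_zero, _root_.map_zero]
    · rw [hb1, h1', hG, AddMonoidHom.comp_zero, _root_.map_zero]
    · rw [O.be2_comp, h2', hG]
  | add y y' hy hy' =>
    obtain ⟨⟨a, a1, a2⟩, ⟨b, b1, b2⟩⟩ := hy
    obtain ⟨⟨a', a1', a2'⟩, ⟨b', b1', b2'⟩⟩ := hy'
    refine ⟨⟨a + a', ?_, ?_⟩, ⟨b + b', ?_, ?_⟩⟩ <;>
      simp only [_root_.map_add, a1, a2, a1', a2', b1, b2, b1', b2', add_zero]

local notation "Dl" => D.lower q O.dvd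

variable (h6 : s.Elliptic) (hI : s.IharaAt q)

include h6 hI

/-- both maps forgetting `q` reach every pair at `Y` -/
theorem exists_toY_oldPush (a₁ a₂ : s.E (funRep A (D.lower q O.dvd).Y (M := M))) :
    ∃ x : D.Mod s, (D.lower q O.dvd).toY s (O.oldPush s x).1 = a₁ ∧
      (D.lower q O.dvd).toY s (O.oldPush s x).2 = a₂ := by
  haveI : NeZero O.levN := ⟨O.levN_ne_zero⟩
  haveI : NeZero s.l0 := ⟨s.prime_l0.ne_zero⟩
  obtain ⟨R, hR, hRM, hRb, hRq, hRu⟩ := hI.sq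
  haveI : NeZero R := ⟨hR.ne_zero⟩
  obtain ⟨M₁, hM₁, hdual⟩ := LR.dual_surj O.prime O.not_dvd_levN hR (O.not_dvd_q hRM)
    (O.not_dvd_levN_of hRM) hRq
  obtain ⟨S, hS, hSM, hSb, hS1, hSu⟩ := hI.one_mod M₁ hM₁
  haveI : NeZero S := ⟨hS.ne_zero⟩
  have hKl : O.levN = (Dl).N0 * (Dl).R := O.levN_eq
  -- division by `2 e2 e1`
  have hu : s.UnitOnE (funRep A (Dl).Y (M := M))
      (((2 : ℕ) : A) • (1 : Module.End A (H1 (funRep A (Dl).Y (M := M)))) *
        ((T _ hR hRM * T _ hR hRM - (((R + 1) ^ 2 : ℕ) : A) • 1) *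
          (T _ hS hSM - ((S + 1 : ℕ) : A) • 1))) :=
    (Sys.unitOnE_smul_one s (by rw [Nat.cast_ofNat]; exact h6.1)).mul s
      ((s.unitOnE_sq_sub_smul hR hRM hRb (O.isUnit_cast_sq s hRu)).mul s
        (s.unitOnE_sub_smul hS hSM hSb (O.isUnit_cast_sub s hSu)))
  have hev : ∀ c : H1 (funRep A (Dl).Y (M := M)), (Dl).evalY hKl A
      ((((2 : ℕ) : A) • (1 : Module.End A (H1 (funRep A (Dl).Y (M := M)))) *
        ((T (funRep A (Dl).Y (M := M)) hR hRM * T (funRep A (Dl).Y (M := M)) hR hRM -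
            (((R + 1) ^ 2 : ℕ) : A) • (1 : Module.End A (H1 (funRep A (Dl).Y (M := M))))) *
          (T (funRep A (Dl).Y (M := M)) hS hSM -
            ((S + 1 : ℕ) : A) • (1 : Module.End A (H1 (funRep A (Dl).Y (M := M))))))) c) =
      2 • LR.e2H O.levN R hR (O.not_dvd_levN_of hRM)
        (LR.e1H O.levN S hS (O.not_dvd_levN_of hSM) ((Dl).evalY hKl A c)) := fun c => by
    rw [Module.End.mul_apply, Module.End.mul_apply, LinearMap.smul_apply, Module.End.one_apply,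
      _root_.map_smul, (Dl).evalY_e2 hKl hR hRM (O.not_dvd_levN_of hRM),
      (Dl).evalY_e1 hKl hS hSM (O.not_dvd_levN_of hSM), Nat.cast_smul_eq_nsmul]
  obtain ⟨c₁, hc₁, hc₁a⟩ := hu.surj a₁.1 a₁.2
  obtain ⟨c₂, hc₂, hc₂a⟩ := hu.surj a₂.1 a₂.2
  obtain ⟨y₁, hy₁⟩ := (range_lamCast _).mpr ((Dl).evalY_parabolic hKl A s h6.1 hc₁)
  obtain ⟨y₂, hy₂⟩ := (range_lamCast _).mpr ((Dl).evalY_parabolic hKl A s h6.1 hc₂)
  obtain ⟨h, hh1, hh2⟩ := O.exists_hom_lamCast hR (O.not_dvd_levN_of hRM) hS (O.not_dvd_levN_of hSM)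
    (fun z₁ z₂ => hdual S hS (O.not_dvd_levN_of hSM) hS1 z₁ z₂) y₂ y₁
  rw [hy₂, ← hev, hc₂a] at hh1
  rw [hy₁, ← hev, hc₁a] at hh2
  -- the two maps on classes
  let ev := LinearEquiv.ofBijective (D.evalY O.levN_mul A) (D.evalY_bijective O.levN_mul A)
  let evl := LinearEquiv.ofBijective ((Dl).evalY hKl A) ((Dl).evalY_bijective hKl A)
  let Ψ : Fin 2 → (H1 (funRep A D.Y (M := M)) →ₗ[A] H1 (funRep A (Dl).Y (M := M))) :=
    ![evl.symm.toLinearMap ∘ₗ opA A (LR.epsC O.prime O.not_dvd_levN) ∘ₗ D.evalY O.levN_mul A,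
      evl.symm.toLinearMap ∘ₗ opA A (LR.epsC O.prime O.not_dvd_levN) ∘ₗ
        opA A (LR.WC O.prime O.not_dvd_levN) ∘ₗ D.evalY O.levN_mul A]
  have hΨ1 : ∀ z, (Dl).evalY hKl A (Ψ 0 z) = LR.be1 O.prime O.not_dvd_levN (D.evalY O.levN_mul A z) :=
    fun z => evl.apply_symm_apply _
  have hΨ2 : ∀ z, (Dl).evalY hKl A (Ψ 1 z) = LR.be2 O.prime O.not_dvd_levN (D.evalY O.levN_mul A z) :=
    fun z => evl.apply_symm_apply _
  have hΨT : ∀ i (l : ℕ) (hl : l.Prime) (hlM : ¬ l ∣ M) (z : H1 (funRep A D.Y (M := M))),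
      Ψ i (T (funRep A D.Y (M := M)) hl hlM z) = T (funRep A (Dl).Y (M := M)) hl hlM (Ψ i z) := by
    intro i l hl hlM z
    haveI : NeZero l := ⟨hl.ne_zero⟩
    refine ((Dl).evalY_bijective hKl A).1 ?_
    rw [(Dl).evalY_T hKl A hl hlM (O.not_dvd_levN_of hlM)]
    fin_cases i
    · refine (hΨ1 _).trans ?_
      rw [D.evalY_T O.levN_mul A hl hlM (O.not_dvd_levN_mul hlM)]
      exact (LR.be1_TC O.prime O.not_dvd_levN hl (O.not_dvd_levN_mul hlM) _).trans
        (congrArg _ (hΨ1 z).symm)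
    · refine (hΨ2 _).trans ?_
      rw [D.evalY_T O.levN_mul A hl hlM (O.not_dvd_levN_mul hlM)]
      exact (LR.be2_TC O.prime O.not_dvd_levN hl (O.not_dvd_levN_mul hlM) _).trans
        (congrArg _ (hΨ2 z).symm)
  have hb : ev (ev.symm h) = h := ev.apply_symm_apply h
  have hb1 : Ψ 0 (ev.symm h) = a₂.1 := ((Dl).evalY_bijective hKl A).1 ((hΨ1 _).trans (by
    rw [show D.evalY O.levN_mul A (ev.symm h) = h from hb, hh1]))
  have hb2 : Ψ 1 (ev.symm h) = a₁.1 := ((Dl).evalY_bijective hKl A).1 ((hΨ2 _).trans (by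
    rw [show D.evalY O.levN_mul A (ev.symm h) = h from hb, hh2]))
  obtain ⟨b, hbE, hbΨ⟩ := s.exists_mem_E_forall Ψ hΨT (x0 := ev.symm h)
    (Fin.forall_fin_two.2 ⟨hb1 ▸ a₂.2, hb2 ▸ a₁.2⟩)
  obtain ⟨x, hx⟩ := D.toY_surjective' s h6 ⟨b, hbE⟩
  have hxb : map (D.isTwist_projXY (A := A)) x.1 = b := congrArg Subtype.val hx
  have hX1 : (Dl).evalY hKl A a₂.1 =
      LR.be1 O.prime O.not_dvd_levN (D.evalXY O.levN_mul A x.1) := by
    rw [← hb1, ← hbΨ, hΨ1, ← hxb]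
    rfl
  have hX2 : (Dl).evalY hKl A a₁.1 =
      LR.be2 O.prime O.not_dvd_levN (D.evalXY O.levN_mul A x.1) := by
    rw [← hb2, ← hbΨ, hΨ2, ← hxb]
    rfl
  refine ⟨O.modUnshift s x, Subtype.ext ?_, Subtype.ext ?_⟩
  · refine sub_eq_zero.mp ((Sys.unitOnE_eta s).inj _ (sub_mem ((Dl).toY s _).2 a₁.2) ?_)
    refine ((Dl).evalY_bijective hKl A).1 ?_
    rw [_root_.map_sub (s.eta _), _root_.map_sub, _root_.map_zero, sub_eq_zero,
      (Dl).evalY_eta hKl s (O.not_dvd_levN_of s.not_dvd_l0),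
      (Dl).evalY_eta hKl s (O.not_dvd_levN_of s.not_dvd_l0), hX2]
    show LR.e1H _ _ _ _ ((Dl).evalXY hKl A (O.pushH (O.modUnshift s x).1)) = _
    rw [O.evalXY_pushH]
    have hF : ∀ φ : LR.HomG (O.levN * q) A,
        LR.be1 O.prime O.not_dvd_levN (LR.e1H (O.levN * q) s.l0 s.prime_l0
          (O.not_dvd_levN_mul s.not_dvd_l0) φ) =
        LR.e1H O.levN s.l0 s.prime_l0 (O.not_dvd_levN_of s.not_dvd_l0)
          (LR.be1 O.prime O.not_dvd_levN φ) :=
      e1H_of_intertwine (LR.be1 O.prime O.not_dvd_levN) _ _ _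
        fun φ => LR.be1_TC O.prime O.not_dvd_levN s.prime_l0 (O.not_dvd_levN_mul s.not_dvd_l0) φ
    refine (hF _).symm.trans ?_
    rw [O.e1H_evalXY_modUnshift]
    exact hF _
  · refine ((Dl).evalY_bijective hKl A).1 ?_
    show (Dl).evalXY hKl A (O.pushH (O.modShift s (O.modUnshift s x)).1) = _
    rw [O.modShift_modUnshift, O.evalXY_pushH, hX1]
    rfl

/-- both maps forgetting `q` are jointly surjective -/
theorem oldPush_surjective (hp : (p : A) ∈ maximalIdeal A) : Function.Surjective (O.oldPush s) := by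
  haveI : Module.Finite A ((Dl).Mod s) := s.E_finite
  refine surjective_pair_of_coinvariants D.prime_p D.p_ne_two hp (n := (Dl).expo)
    (fun u => (Dl).dia s u) (fun u v => (Dl).dia_comm s u v)
    (fun u => ((Dl).dia_pow s u _).trans ((congrArg ((Dl).dia s) ((Dl).pow_expo u)).trans ((Dl).dia_one s)))
    (O.oldPush s) (fun u x => ⟨D.dia s u x, Prod.ext (O.push1_dia s u x) (O.push2_dia s u x)⟩)
    ((Dl).toY s) ((Dl).ker_toY' s h6).le fun z => ?_
  exact O.exists_toY_oldPush s h6 hI ((Dl).toY s z.1) ((Dl).toY s z.2)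

/-- both maps adding `q` are jointly injective on the coinvariants modulo the maximal ideal -/
theorem oldPull_small (z : (D.lower q O.dvd).Mod s × (D.lower q O.dvd).Mod s)
    (hz : O.oldPull s z ∈ LinearMap.ker (D.toY s) ⊔ maximalIdeal A • (⊤ : Submodule A (D.Mod s))) :
    z.1 ∈ LinearMap.ker ((D.lower q O.dvd).toY s) ⊔
        maximalIdeal A • (⊤ : Submodule A ((D.lower q O.dvd).Mod s)) ∧
      z.2 ∈ LinearMap.ker ((D.lower q O.dvd).toY s) ⊔
        maximalIdeal A • (⊤ : Submodule A ((D.lower q O.dvd).Mod s)) := by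
  haveI : NeZero O.levN := ⟨O.levN_ne_zero⟩
  haveI : NeZero s.l0 := ⟨s.prime_l0.ne_zero⟩
  obtain ⟨R, hR, hRM, hRb, hRq, hRu⟩ := hI.sq
  haveI : NeZero R := ⟨hR.ne_zero⟩
  obtain ⟨M₁, hM₁, hih⟩ := LR.ihara (V := ResidueField A) O.prime O.not_dvd_levN hR (O.not_dvd_q hRM)
    (O.not_dvd_levN_of hRM) hRq
  obtain ⟨S, hS, hSM, hSb, hS1, hSu⟩ := hI.one_mod M₁ hM₁
  haveI : NeZero S := ⟨hS.ne_zero⟩
  have hKl : O.levN = (Dl).N0 * (Dl).R := O.levN_eq
  set κ := (residue A).toAddMonoidHom with hκ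
  let u : (Dl).Mod s → LR.HomG O.levN A := fun a =>
    LR.e1H O.levN s.l0 s.prime_l0 (O.not_dvd_levN_of s.not_dvd_l0) ((Dl).evalXY hKl A a.1)
  have hv : D.toY s (O.oldPull s z) ∈ maximalIdeal A • (⊤ : Submodule A (s.E (funRep A D.Y (M := M)))) := by
    obtain ⟨k, hk, m, hm, e⟩ := Submodule.mem_sup.1 hz
    rw [← e, _root_.map_add, LinearMap.mem_ker.1 hk, zero_add]
    have h : Submodule.map (D.toY s) (maximalIdeal A • ⊤) ≤
        maximalIdeal A • (⊤ : Submodule A (s.E (funRep A D.Y (M := M)))) := by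
      rw [Submodule.map_smul'']
      exact Submodule.smul_mono le_rfl le_top
    exact h ⟨m, hm, rfl⟩
  have hsum : LR.al1 O.levN q (κ.comp (u z.1)) + LR.al2 O.levN q (κ.comp (u z.2)) = 0 := by
    have h0 : κ.comp (D.evalXY O.levN_mul A (O.pull1 s z.1).1 +
        D.evalXY O.levN_mul A (O.pull2 s z.2).1) = 0 := by
      rw [← _root_.map_add]
      exact D.residue_evalY_eq_zero O.levN_mul s hv
    have h1 := congrArg (LR.e1H (O.levN * q) s.l0 s.prime_l0 (O.not_dvd_levN_mul s.not_dvd_l0)) h0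
    rw [e1H_comp, _root_.map_add, _root_.map_zero] at h1
    have ha : ∀ a : (Dl).Mod s, LR.e1H (O.levN * q) s.l0 s.prime_l0 (O.not_dvd_levN_mul s.not_dvd_l0)
        (D.evalXY O.levN_mul A (O.pull1 s a).1) = LR.al1 O.levN q (u a) := fun a => by
      rw [pull1_val, O.evalXY_pullH]
      exact (e1H_of_intertwine (LR.al1 O.levN q) _ _ _ (fun φ =>
        LR.al1_TC s.prime_l0 (O.not_dvd_levN_mul s.not_dvd_l0) φ) _).symm
    have hb : ∀ a : (Dl).Mod s, LR.e1H (O.levN * q) s.l0 s.prime_l0 (O.not_dvd_levN_mul s.not_dvd_l0)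
        (D.evalXY O.levN_mul A (O.pull2 s a).1) = LR.al2 O.levN q (u a) := fun a => by
      show LR.e1H _ _ _ _ (D.evalXY _ A (O.modUnshift s (O.pull1 s a)).1) = _
      rw [O.e1H_evalXY_modUnshift, pull1_val, O.evalXY_pullH]
      show LR.e1H _ _ _ _ (LR.Wop _ _ (LR.al1 O.levN q _)) = _
      rw [LR.Wop_al1]
      exact (e1H_of_intertwine (LR.al2 O.levN q) _ _ _ (fun φ =>
        LR.al2_TC s.prime_l0 (O.not_dvd_levN_mul s.not_dvd_l0) φ) _).symm
    rw [ha, hb, AddMonoidHom.comp_add] at h1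
    rw [← h1]
    exact congrArg₂ (· + ·) (LR.Corr.op_comp _ κ _) (LR.Corr.op_comp _ κ _)
  have hswap : LR.al1 O.levN q (κ.comp (u z.2)) + LR.al2 O.levN q (κ.comp (u z.1)) = 0 := by
    have h := congrArg (LR.Wop O.prime O.not_dvd_levN) hsum
    rwa [_root_.map_add, _root_.map_zero, LR.Wop_al1, LR.Wop_al2, add_comm] at h
  have hue : ∀ a : (Dl).Mod s, u a = (Dl).evalY hKl A (s.eta (funRep A (Dl).Y (M := M)) ((Dl).toY s a).1) := fun a =>
    ((Dl).evalY_eta hKl s (O.not_dvd_levN_of s.not_dvd_l0) _).symm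
  have hetaE : ∀ a : (Dl).Mod s, s.eta (funRep A (Dl).Y (M := M)) ((Dl).toY s a).1 ∈ s.E (funRep A (Dl).Y (M := M)) := fun a =>
    s.commute_mem_E (Sys.unitOnE_eta s).comm ((Dl).toY s a).2
  have hpar : ∀ a : (Dl).Mod s,
      ModularCurve.Period.IsParabolicHom (Gamma0 O.levN) (κ.comp (u a)) := fun a γ hγ => by
    rw [hue, AddMonoidHom.comp_apply, (Dl).evalY_parabolic hKl A s h6.1 (hetaE a) γ hγ, _root_.map_zero]
  have hkill := hih S hS (O.not_dvd_levN_of hSM) (O.not_dvd_q hSM) hS1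
  set u1 := T (funRep A (Dl).Y (M := M)) hS hSM -
    ((S + 1 : ℕ) : A) • (1 : Module.End A (H1 (funRep A (Dl).Y (M := M)))) with hu1
  set u2 := T (funRep A (Dl).Y (M := M)) hR hRM * T (funRep A (Dl).Y (M := M)) hR hRM -
    (((R + 1) ^ 2 : ℕ) : A) • (1 : Module.End A (H1 (funRep A (Dl).Y (M := M)))) with hu2
  have hev : ∀ c : H1 (funRep A (Dl).Y (M := M)), (Dl).evalY hKl A ((u1 * (u2 * u1)) c) =
      LR.e1H O.levN S hS (O.not_dvd_levN_of hSM) (LR.e2H O.levN R hR (O.not_dvd_levN_of hRM)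
        (LR.e1H O.levN S hS (O.not_dvd_levN_of hSM) ((Dl).evalY hKl A c))) := fun c => by
    rw [Module.End.mul_apply, Module.End.mul_apply, hu1, hu2,
      (Dl).evalY_e1 hKl hS hSM (O.not_dvd_levN_of hSM),
      (Dl).evalY_e2 hKl hR hRM (O.not_dvd_levN_of hRM),
      (Dl).evalY_e1 hKl hS hSM (O.not_dvd_levN_of hSM)]
  have hU : s.UnitOnE (funRep A (Dl).Y (M := M))
      ((u1 * (u2 * u1)) * s.eta (funRep A (Dl).Y (M := M))) :=
    (((s.unitOnE_sub_smul hS hSM hSb (O.isUnit_cast_sub s hSu))).mul s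
      ((s.unitOnE_sq_sub_smul hR hRM hRb (O.isUnit_cast_sq s hRu)).mul s
        (s.unitOnE_sub_smul hS hSM hSb (O.isUnit_cast_sub s hSu)))).mul s (Sys.unitOnE_eta s)
  have final : ∀ a : (Dl).Mod s, LR.e1H O.levN S hS (O.not_dvd_levN_of hSM)
      (LR.e2H O.levN R hR (O.not_dvd_levN_of hRM)
        (LR.e1H O.levN S hS (O.not_dvd_levN_of hSM) (κ.comp (u a)))) = 0 →
      a ∈ LinearMap.ker ((Dl).toY s) ⊔ maximalIdeal A • (⊤ : Submodule A ((Dl).Mod s)) := by
    intro a ha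
    refine (Dl).mem_small_of_residue hKl s h6 hU a ?_
    rw [Module.End.mul_apply, hev, ← hue, ← e1H_comp, ← e2H_comp, ← e1H_comp]
    exact ha
  exact ⟨final z.1 (hkill _ _ (hpar z.1) (hpar z.2) hsum),
    final z.2 (hkill _ _ (hpar z.2) (hpar z.1) hswap)⟩

end OldPrime

end FLTAgent.LL

end
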