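import Fermat.Agent.LL.TraceExt
import Fermat.Agent.LL.LevelSetupChain
import Fermat.Agent.LL.LamGal

/-!
Area MLT, parcel DEGEN: traces of any representation acting on a module that maps into a lattice
through the Hecke operators are `galLam σ + χ σ • galLam σ⁻¹` there. At a prime `q ∤ N` this is `T q`;
at a prime exactly dividing the level it gives `(trace)² = (1 + q)²` on vectors with vanishing sums.
-/

set_option autoImplicit false
set_option linter.unusedSectionVars false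
set_option linter.style.haveILetI false
set_option maxHeartbeats 1000000

noncomputable section

open scoped TensorProduct
open IsLocalRing Polynomial

namespace FLTAgent.LL

open FLTAgent.Attach (GalQ cycR)

/-- products of `f g + χ g • f g⁻¹` -/
theorem char_add_inv_mul {G R A : Type*} [Group G] [CommRing A] [Ring R] [Algebra A R] (f : G →* R)
    (χ : G → A) (hχ : ∀ a b, χ (a * b) = χ a * χ b) (a b : G) (h : Commute a b) :
    (f a + χ a • f a⁻¹) * (f b + χ b • f b⁻¹) =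
      (f (a * b) + χ (a * b) • f (a * b)⁻¹) +
        χ b • (f (a * b⁻¹) + χ (a * b⁻¹) • f (a * b⁻¹)⁻¹) := by
  have e3 : χ b * χ (a * b⁻¹) = χ a := by rw [mul_comm, ← hχ, inv_mul_cancel_right]
  have e1 : a⁻¹ * b⁻¹ = (a * b)⁻¹ := by rw [_root_.mul_inv_rev, h.inv_inv.eq]
  have e2 : a⁻¹ * b = (a * b⁻¹)⁻¹ := by rw [_root_.mul_inv_rev, inv_inv, h.inv_left.eq]
  rw [hχ a b, smul_add, smul_smul, e3]
  simp only [mul_add, add_mul, smul_mul_assoc, mul_smul_comm, ← map_mul, e1, e2]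
  rw [smul_add, smul_smul, mul_comm (χ b) (χ a)]
  abel

/-- the change of `f g + χ g • f g⁻¹` under right multiplication -/
theorem char_add_inv_sub {G H A : Type*} [Group G] [CommRing A] [AddCommGroup H] [Module A H]
    (f : G →* Module.End A H) (χ : G → A) (hχ : ∀ a b, χ (a * b) = χ a * χ b) (a b : G) (w : H) :
    (f (a * b) + χ (a * b) • f (a * b)⁻¹) w - (f a + χ a • f a⁻¹) w =
      f a (f b w - w) + χ a • (χ b • (f b⁻¹ (f a⁻¹ w) - f a⁻¹ w) + (χ b - 1) • f a⁻¹ w) := by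
  simp only [hχ, _root_.mul_inv_rev, map_mul, LinearMap.add_apply, LinearMap.smul_apply,
    Module.End.mul_apply, _root_.map_sub]
  module

variable {A : Type} [CommRing A] [IsDomain A] [IsDiscreteValuationRing A]
  [IsAdicComplete (maximalIdeal A) A] [Finite (ResidueField A)] [CharZero A]
  {p : ℕ} (hp : p.Prime) (hpA : (p : A) ∈ maximalIdeal A)
  {N : ℕ} [NeZero N] (LD : JTors.LatticeData N)

/-- `σ + χ(σ) σ⁻¹` on the lattice -/
def galTr (σ : GalQ) : Module.End A (A ⊗[ℤ] JTors.Lam N) :=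
  galLam LD hp hpA σ + cycR hp hpA σ • galLam LD hp hpA σ⁻¹

theorem galLam_inv_mul (σ : GalQ) : galLam LD hp hpA σ⁻¹ * galLam LD hp hpA σ = 1 := by
  rw [← galLamHom_apply, ← galLamHom_apply, ← _root_.map_mul, inv_mul_cancel, _root_.map_one]

theorem galLam_mul_inv (σ : GalQ) : galLam LD hp hpA σ * galLam LD hp hpA σ⁻¹ = 1 := by
  rw [← galLamHom_apply, ← galLamHom_apply, ← _root_.map_mul, mul_inv_cancel, _root_.map_one]

theorem galTr_one : galTr hp hpA LD (1 : GalQ) = 2 := by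
  rw [galTr, inv_one, Attach.cycR_one, one_smul, ← galLamHom_apply, _root_.map_one, one_add_one_eq_two]

theorem galTr_mul_galTr (σ τ : GalQ) (h : Commute σ τ) :
    galTr hp hpA LD σ * galTr hp hpA LD τ =
      galTr hp hpA LD (σ * τ) + cycR hp hpA τ • galTr hp hpA LD (σ * τ⁻¹) :=
  char_add_inv_mul (galLamHom LD hp hpA) (cycR hp hpA) (Attach.cycR_mul hp hpA) σ τ h

theorem galTr_frobenius {ℓ : ℕ} (hℓ : ℓ.Prime) (hℓN : ¬ ℓ ∣ N) (hℓp : ℓ ≠ p)
    {P : ValuationSubring (AlgebraicClosure ℚ)} (hP : P.LiesOverPrime ℓ) {τ : GalQ}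
    (hτ : P.IsFrobeniusAt τ ℓ) : galTr hp hpA LD τ = lamOp LD A ⟨ℓ, hℓ⟩ := by
  have h := congrArg (· * galLam LD hp hpA τ⁻¹) (galLam_frobenius LD hp hpA hℓ hℓN hℓp hP hτ)
  simp only [add_mul, mul_assoc, galLam_mul_inv, mul_one] at h
  rw [galTr, Attach.cycR_frobenius hp hpA hℓ hℓp hP hτ, Algebra.smul_def, _root_.map_natCast]
  exact h

theorem cycR_pow (τ : GalQ) : ∀ k : ℕ, cycR hp hpA (τ ^ k) = cycR hp hpA τ ^ k
  | 0 => by rw [pow_zero, pow_zero, Attach.cycR_one]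
  | k + 1 => by rw [pow_succ, Attach.cycR_mul, cycR_pow τ k, pow_succ]

variable {T : Type} [CommRing T] [IsLocalRing T] [IsNoetherianRing T] [Algebra A T]
  [Module.Finite A T] (ρ : GaloisRepAdic T)
  {V : Type*} [AddCommGroup V] [Module A V]
  (φ : T →ₐ[A] Module.End A V) (Φ : V →ₗ[A] A ⊗[ℤ] JTors.Lam N)

theorem powerTrace_galTr {ℓ : ℕ} {τ : GalQ} (hc : cycR hp hpA τ = (ℓ : A)) {a : T}
    (ha : ∀ x, Φ (φ a x) = galTr hp hpA LD τ (Φ x)) :
    ∀ (k : ℕ) (x : V), Φ (φ (Attach.powerTrace a (ℓ : T) k) x) =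
      galTr hp hpA LD (τ ^ k) (Φ x)
  | 0, x => by
    rw [pow_zero, galTr_one, Attach.powerTrace, _root_.map_ofNat, Module.End.ofNat_apply,
      Module.End.ofNat_apply, _root_.map_nsmul]
  | 1, x => by rw [pow_one]; exact ha x
  | k + 2, x => by
    have e := galTr_mul_galTr hp hpA LD (τ ^ (k + 1)) τ (Commute.pow_self τ _)
    rw [← pow_succ, show τ ^ (k + 1) * τ⁻¹ = τ ^ k by rw [pow_succ, mul_inv_cancel_right], hc,
      ← sub_eq_iff_eq_add, (galTr_comm τ k).eq] at e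
    simp only [Attach.powerTrace, _root_.map_sub, _root_.map_mul, _root_.map_natCast,
      LinearMap.sub_apply, Module.End.mul_apply, Module.End.natCast_apply, _root_.map_nsmul, ha,
      powerTrace_galTr hc ha k, powerTrace_galTr hc ha (k + 1)]
    rw [show τ ^ (k + 2) = τ ^ (k + 1 + 1) from rfl, ← e, LinearMap.sub_apply, Module.End.mul_apply, LinearMap.smul_apply, Nat.cast_smul_eq_nsmul]
where
  galTr_comm (τ : GalQ) (k : ℕ) :
      Commute (galTr hp hpA LD (τ ^ (k + 1))) (galTr hp hpA LD τ) := by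
    have h : ∀ a b : GalQ, Commute a b → Commute (galLam LD hp hpA a) (galLam LD hp hpA b) :=
      fun a b hab => by rw [← galLamHom_apply, ← galLamHom_apply]; exact hab.map _
    have hk : Commute (τ ^ (k + 1)) τ := Commute.pow_self τ _
    exact Commute.add_left
      ((h _ _ hk).add_right ((h _ _ hk.inv_right).smul_right _))
      (((h _ _ hk.inv_left).add_right ((h _ _ hk.inv_inv).smul_right _)).smul_left _)

/-- the traces on the lattice -/
theorem trace_galTr [Module.Finite A V] (S : Finset ℕ)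
    (h : ∀ ℓ : ℕ, ∀ hℓ : ℓ.Prime, ℓ ∉ S → ∀ P : ValuationSubring (AlgebraicClosure ℚ),
      P.LiesOverPrime ℓ → ∀ τ : GalQ, P.IsFrobeniusAt τ ℓ → ∃ a : T,
        LinearMap.charpoly (ρ.ρ τ) = X ^ 2 - C a * X + C (ℓ : T) ∧ ¬ ℓ ∣ N ∧ ℓ ≠ p ∧
          ∀ x, Φ (φ a x) = lamOp LD A ⟨ℓ, hℓ⟩ (Φ x))
    (σ : GalQ) (x : V) :
    Φ (φ (LinearMap.trace T ρ.V (ρ.ρ σ)) x) = galTr hp hpA LD σ (Φ x) := by
  classical
  haveI : Module.Finite A (A ⊗[ℤ] JTors.Lam N) :=
    Module.Finite.of_basis ((Module.Free.chooseBasis ℤ (latticeOf LD).Lam).baseChange A)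
  refine sub_eq_zero.mp (eq_zero_of_forall_mem_smul (O := A) fun K => ?_)
  obtain ⟨e, he⟩ := exists_apply_mem T φ
  obtain ⟨L₁, hL₁, h1⟩ := ρ.isAdicContinuous (e * K)
  obtain ⟨L₂, hL₂, h2⟩ := galLam_level LD hp hpA K
  obtain ⟨L₃, hL₃, h3⟩ := Attach.cycR_level hp hpA K
  haveI := hL₁; haveI := hL₂; haveI := hL₃
  obtain ⟨ℓ, P, τ, k, hℓ, hℓS, hP, hτ, hagree⟩ :=
    FLTAgent.Chebotarev.exists_frobenius_pow (L₁ ⊔ (L₂ ⊔ L₃)) σ S
  set g := σ⁻¹ * τ ^ k with hg
  have hτk : τ ^ k = σ * g := by rw [hg, mul_inv_cancel_left]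
  have hfix : ∀ y ∈ L₁ ⊔ (L₂ ⊔ L₃), g y = y := fun y hy => by
    rw [hg, AlgEquiv.mul_apply, hagree y hy]
    exact σ.symm_apply_apply y
  have hfix' : ∀ y ∈ L₁ ⊔ (L₂ ⊔ L₃), g⁻¹ y = y := fun y hy => by
    conv_lhs => rw [← hfix y hy]
    exact g.symm_apply_apply y
  have hle₂ : L₂ ≤ L₁ ⊔ (L₂ ⊔ L₃) := le_trans le_sup_left le_sup_right
  have hle₃ : L₃ ≤ L₁ ⊔ (L₂ ⊔ L₃) := le_trans le_sup_right le_sup_right
  obtain ⟨a, hc, hℓN, hℓp, ha⟩ := h ℓ hℓ hℓS P hP τ hτ
  have hpt := powerTrace_galTr hp hpA LD φ Φ (Attach.cycR_frobenius hp hpA hℓ hℓp hP hτ)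
    (fun x => by rw [galTr_frobenius hp hpA LD hℓ hℓN hℓp hP hτ]; exact ha x) k x
  -- the representation side
  have hmem : LinearMap.trace T ρ.V (ρ.ρ σ) - Attach.powerTrace a (ℓ : T) k ∈
      maximalIdeal T ^ (e * K) := by
    rw [← Attach.trace_pow_eq ρ.finrank_eq hc, ← map_pow, ← map_sub]
    refine Attach.trace_mem_of_forall_mem _ _ fun v => ?_
    have h5 : (ρ.ρ σ - ρ.ρ (τ ^ k)) v = -(ρ.ρ σ (ρ.ρ g v - v)) := by
      rw [map_sub, ← Module.End.mul_apply, ← map_mul, ← hτk, neg_sub, LinearMap.sub_apply]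
    rw [h5]
    refine neg_mem (Submodule.smul_induction_on (h1 g (fun y hy => hfix y (le_sup_left (a := L₁) hy)) v)
      (fun a ha w _ => ?_) fun x y hx hy => ?_)
    · rw [map_smul]; exact Submodule.smul_mem_smul ha Submodule.mem_top
    · rw [_root_.map_add]; exact add_mem hx hy
  have hA := Fitting.map_mem_pow_smul (maximalIdeal A) K Φ (he K _ hmem x)
  rw [_root_.map_sub, LinearMap.sub_apply, _root_.map_sub, hpt] at hA
  -- the lattice side
  have hB : galTr hp hpA LD (τ ^ k) (Φ x) - galTr hp hpA LD σ (Φ x) ∈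
      maximalIdeal A ^ K • (⊤ : Submodule A (A ⊗[ℤ] JTors.Lam N)) := by
    set w := Φ x
    set v := galLam LD hp hpA σ⁻¹ w
    have key : galTr hp hpA LD (τ ^ k) w - galTr hp hpA LD σ w =
        galLam LD hp hpA σ (galLam LD hp hpA g w - w) +
          cycR hp hpA σ • (cycR hp hpA g • (galLam LD hp hpA g⁻¹ v - v) + (cycR hp hpA g - 1) • v) := by
      rw [hτk]
      exact char_add_inv_sub (galLamHom LD hp hpA) (cycR hp hpA) (Attach.cycR_mul hp hpA) σ g w
    rw [key]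
    refine add_mem (pow_smul_top_stable _ K _ (h2 g (fun y hy => hfix y (hle₂ hy)) w))
      (Submodule.smul_mem _ _ (add_mem (Submodule.smul_mem _ _
        (h2 g⁻¹ (fun y hy => hfix' y (hle₂ hy)) v)) ?_))
    exact Submodule.smul_mem_smul (h3 g fun y hy => hfix y (hle₃ hy)) Submodule.mem_top
  have hC := add_mem hA hB
  rwa [sub_add_sub_cancel] at hC

/-- on vectors with vanishing sums at a prime exactly dividing the level -/
theorem galTr_quartic {M' q : ℕ} [NeZero M'] [NeZero q] (hq : q.Prime) (hqM : ¬ q ∣ M')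
    (hqp : q ≠ p) {P : ValuationSubring (AlgebraicClosure ℚ)} (hP : P.LiesOverPrime q) {τ : GalQ}
    (hτ : P.IsFrobeniusAt τ q) (LD' : JTors.LatticeData (M' * q))
    (y : A ⊗[ℤ] JTors.Lam (M' * q)) (hy : SumsZero M' q (lamCast A (M' * q) y)) :
    galTr hp hpA LD' τ (galTr hp hpA LD' τ y) - ((1 + (q : A)) ^ 2) • y = 0 := by
  have h := congrArg (galLam LD' hp hpA (τ * τ)⁻¹) (Chain.quartic_galLam hp hpA hq hqM hqp hP hτ LD' y hy)
  rw [_root_.map_zero] at h
  refine Eq.trans ?_ h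
  rw [← Module.End.mul_apply, ← Module.End.mul_apply, galTr_mul_galTr hp hpA LD' τ τ rfl,
    mul_inv_cancel, galTr_one, Attach.cycR_frobenius hp hpA hq hqp hP hτ, galTr, Attach.cycR_mul,
    Attach.cycR_frobenius hp hpA hq hqp hP hτ]
  simp only [LinearMap.add_apply, LinearMap.smul_apply, Module.End.ofNat_apply, mul_add, mul_sub,
    mul_smul_comm, mul_one, ← mul_assoc, galLam_inv_mul, one_mul, LinearMap.sub_apply,
    Module.End.one_apply]
  module

end FLTAgent.LL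

end
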