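import Fermat.Agent.MLT.DegenShift
import Fermat.Agent.MLT.DegenSums

/-!
Area MLT, parcel DEGEN: forgetting `q` after adding it is `T q` on the lattice of the level without
`q`, in both mixed orders.
-/

set_option autoImplicit false
set_option linter.style.haveILetI false
set_option linter.unusedSectionVars false
set_option maxHeartbeats 1000000

noncomputable section

open scoped MatrixGroups TensorProduct
open Matrix CongruenceSubgroup

namespace FLTAgent.LL

/-- `T q` on the lattice through any complete family of determinant `q` -/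
theorem lamCast_T_of_reps {A : Type*} [CommRing A] {N : ℕ} [NeZero N] (LD : JTors.LatticeData N)
    {q : ℕ} (hq : q.Prime) (hqN : ¬ q ∣ N) {ι : Type*} [Fintype ι]
    (Mt : ι → Matrix (Fin 2) (Fin 2) ℤ) (hdet : ∀ b, (Mt b).det = q)
    (hlow : ∀ b, (N : ℤ) ∣ Mt b 1 0)
    (hsep : ∀ a b (u : Gamma0 N),
      Mt a = ((u : SL(2, ℤ)) : Matrix (Fin 2) (Fin 2) ℤ) * Mt b → a = b)
    (hcard : Fintype.card ι = q + 1) (γ : Gamma0 N) :
    ∃ (σ : ι ≃ ι) (u : ι → Gamma0 N),
      (∀ b, Mt b * ((γ : SL(2, ℤ)) : Matrix (Fin 2) (Fin 2) ℤ) =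
        ((u b : SL(2, ℤ)) : Matrix (Fin 2) (Fin 2) ℤ) * Mt (σ b)) ∧
      ∀ z : A ⊗[ℤ] JTors.Lam N,
        lamCast A N ((LD.T ⟨q, hq⟩).baseChange A z) (Additive.ofMul γ) =
          ∑ b, lamCast A N z (Additive.ofMul (u b)) := by
  haveI : Fact q.Prime := ⟨hq⟩
  have hex : ∀ b, ∃ (j : Option (ZMod q)) (h : Gamma0 N),
      Mt b = ((h : SL(2, ℤ)) : Matrix (Fin 2) (Fin 2) ℤ) * stdMat q j := fun b => by
    obtain ⟨j, h, e⟩ := exists_stdMat (l := q) (Mt b) (hdet b)
    refine ⟨j, ⟨h, Gamma0_mem.mpr ((ZMod.intCast_zmod_eq_zero_iff_dvd _ _).mpr ?_)⟩, e⟩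
    have h10 := hlow b
    rw [e] at h10
    cases j with
    | none =>
      simp [stdMat, Matrix.mul_apply, Fin.sum_univ_two] at h10
      exact (Int.isCoprime_iff_nat_coprime.mpr
        (by simpa using ((hq.coprime_iff_not_dvd).mpr hqN).symm)).dvd_of_dvd_mul_right h10
    | some c =>
      simpa [stdMat, Matrix.mul_apply, Fin.sum_univ_two] using h10
  choose j h hjh using hex
  have hinj : Function.Injective j := fun a b hab => hsep a b (h a * (h b)⁻¹) (by
    conv_rhs => rw [hjh b, ← mul_assoc, ← Matrix.SpecialLinearGroup.coe_mul, Subgroup.coe_mul,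
      Subgroup.coe_inv, inv_mul_cancel_right]
    rw [hjh a, hab])
  have hbij : Function.Bijective j := (Fintype.bijective_iff_injective_and_card j).mpr
    ⟨hinj, by rw [hcard, Fintype.card_option, ZMod.card]⟩
  let e := Equiv.ofBijective j hbij
  obtain ⟨σ0, g0, hg0, -⟩ := transferT_stdMat LD hq hqN 0 γ
  set σ : ι ≃ ι := (e.trans σ0).trans e.symm with hσ
  refine ⟨σ, fun b => h b * g0 (j b) * (h (σ b))⁻¹, fun b => ?_, fun z => ?_⟩
  · have ej : j (σ b) = σ0 (j b) := e.apply_symm_apply _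
    rw [hjh (σ b), ej, ← mul_assoc, ← Matrix.SpecialLinearGroup.coe_mul, Subgroup.coe_mul,
      Subgroup.coe_mul, Subgroup.coe_inv, inv_mul_cancel_right, Matrix.SpecialLinearGroup.coe_mul,
      hjh b, mul_assoc, hg0, mul_assoc]
  · have e1 : ∑ b, lamCast A N z (Additive.ofMul (h b * g0 (j b) * (h (σ b))⁻¹)) =
        ∑ i, lamCast A N z (Additive.ofMul (g0 i)) := by
      simp only [ofMul_mul, ofMul_inv, _root_.map_add, _root_.map_neg, Finset.sum_add_distrib,
        Finset.sum_neg_distrib]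
      rw [Equiv.sum_comp σ fun b => lamCast A N z (Additive.ofMul (h b)),
        show (∑ b, lamCast A N z (Additive.ofMul (g0 (j b)))) =
          ∑ i, lamCast A N z (Additive.ofMul (g0 i)) from
            Equiv.sum_comp e fun i => lamCast A N z (Additive.ofMul (g0 i))]
      abel
    rw [e1]
    clear e1
    induction z using TensorProduct.induction_on with
    | zero => simp
    | tmul a ψ =>
      obtain ⟨σ', g', hg', e2⟩ := transferT_stdMat LD hq hqN ψ γ
      have hgg : g' = g0 := funext fun i => Subtype.ext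
        (((stdReps q).elt_idx_eq (hg' i)).1.symm.trans ((stdReps q).elt_idx_eq (hg0 i)).1)
      rw [LinearMap.baseChange_tmul, lamCast_tmul, e2, hgg]
      push_cast
      rw [Finset.mul_sum]
      exact Finset.sum_congr rfl fun i _ => (lamCast_tmul A N a ψ _).symm
    | add z z' hz hz' =>
      simp only [_root_.map_add, AddMonoidHom.add_apply, Finset.sum_add_distrib] at hz hz' ⊢
      rw [hz, hz']

namespace OldPrime

variable {M p r : ℕ} [NeZero M] {D : TWData M p r} {q : ℕ} (O : OldPrime D q)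
  {A : Type*} [CommRing A] {L : ℕ}

include O

theorem lower_level (hL : L = D.N0 * D.R ^ 2) :
    L / q = (D.lower q O.dvd).N0 * (D.lower q O.dvd).R ^ 2 := by
  rw [hL]
  exact (Nat.div_mul_right_comm O.dvd _).symm

theorem level_eq_mul (hL : L = D.N0 * D.R ^ 2) : L = L / q * q :=
  (Nat.div_mul_cancel (hL ▸ O.dvd.mul_right _)).symm

theorem level_div_dvd (hL : L = D.N0 * D.R ^ 2) : L / q ∣ L :=
  Nat.div_dvd_of_dvd (hL ▸ O.dvd.mul_right _)

theorem not_dvd_div (hL : L = D.N0 * D.R ^ 2) : ¬ q ∣ L / q := by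
  rw [O.lower_level hL]
  show ¬ q ∣ D.N0 / q * D.R ^ 2
  rw [O.prime.dvd_mul, not_or]
  exact ⟨O.exact_dvd, fun h => O.not_dvd_R (O.prime.dvd_of_dvd_pow h)⟩

variable [NeZero L]

theorem card_fibre_base (hL : L = D.N0 * D.R ^ 2) :
    Nat.card {b : P1 M D.N0 // P1.proj M (Nat.div_dvd_of_dvd O.dvd) b = P1.base M (D.N0 / q)} =
      q + 1 := by
  have h0 : L / q ≠ 0 := fun h => NeZero.ne L (by rw [O.level_eq_mul hL, h, zero_mul])
  haveI : NeZero (L / q) := ⟨h0⟩
  have hψ : ModularCurve.dedekindPsi L = (q + 1) * ModularCurve.dedekindPsi (L / q) := by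
    conv_lhs => rw [O.level_eq_mul hL]
    rw [JTors.dedekindPsi_mul_prime O.prime _ h0, if_neg (O.not_dvd_div hL)]
  exact Nat.eq_of_mul_eq_mul_right (dedekindPsi_pos_level (L / q)) ((O.card_fibre hL).trans hψ)

variable [NeZero q] [NeZero (L / q)]

/-- adding `q`, the inverse transport, forgetting `q` -/
theorem evalPD_push_unshift_pull (hL : L = D.N0 * D.R ^ 2) (LD : JTors.LatticeData (L / q))
    (d : D.Del) (G : H1 (funRep A (D.lower q O.dvd).PD (M := M))) (z : A ⊗[ℤ] JTors.Lam (L / q))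
    (hz : lamCast A (L / q) z = (D.lower q O.dvd).evalPD A (O.lower_level hL) d G) :
    lamCast A (L / q) ((LD.T ⟨q, O.prime⟩).baseChange A z) =
      (D.lower q O.dvd).evalPD A (O.lower_level hL) (D.w O.unit * d)
        (map (isTwist_funPush (A := A) O.pushP O.pushP_smul)
          (O.unshiftPD (map (isTwist_funPull (A := A) O.pushP O.pushP_smul) G))) := by
  classical
  haveI : NeZero D.R := ⟨D.R_ne_zero⟩
  haveI : NeZero (D.lower q O.dvd).R := ⟨D.R_ne_zero⟩
  have hR' : D.R ∣ L / q := (D.lower q O.dvd).conj_dvd (O.lower_level hL)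
  let c : Gamma0 (L / q) →* SL(2, ℤ) := conjHom hR'
  haveI : Fintype {b : P1 M D.N0 //
      P1.proj M (Nat.div_dvd_of_dvd O.dvd) b = P1.base M (D.N0 / q)} := Fintype.ofFinite _
  obtain ⟨k, hk⟩ := O.exists_reps (O.lower_level hL) hR' (D.w O.unit * d)
    (D.basePD (D.w O.unit * d)) (O.pushP_pt _ (P1.proj_base _))
  have hsep : ∀ i j, ((k i : SL(2, ℤ)) * (k j : SL(2, ℤ))⁻¹) ∈ Gamma0 L → i = j := fun i j hij => by
    refine Subtype.ext ?_
    have e : c (k i * (k j)⁻¹) = conjHom (D.conj_dvd hL) ⟨_, hij⟩ := Subtype.ext rfl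
    have hfix := mem_stab.mp (D.conj_mem_stab hL (D.w O.unit * d) ⟨_, hij⟩)
    rw [← e, _root_.map_mul, _root_.map_inv, _root_.map_mul, _root_.map_inv, mul_smul,
      ← eq_inv_smul_iff, hk j, hk i] at hfix
    exact (congrArg (fun w : D.PD => w.1.1) hfix).symm
  have hα : ∀ (g : SL(2, ℤ)) (u : Gamma0 (L / q)),
      alphaMat q * g.1 = (u : SL(2, ℤ)).1 * alphaMat q → g ∈ Gamma0 L := fun g u e => by
    refine Gamma0_mem.mpr ((ZMod.intCast_zmod_eq_zero_iff_dvd _ _).mpr ?_)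
    obtain ⟨w, hw⟩ := (ZMod.intCast_zmod_eq_zero_iff_dvd _ _).mp (Gamma0_mem.mp u.2)
    have e10 := congrFun₂ e 1 0
    simp [alphaMat, Matrix.mul_apply, Fin.sum_univ_two] at e10
    exact ⟨w, by rw [e10, hw, congrArg (Nat.cast : ℕ → ℤ) (O.level_eq_mul hL)]; push_cast; ring⟩
  refine AddMonoidHom.ext fun a => ?_
  obtain ⟨γ, rfl⟩ := Additive.ofMul.surjective a
  obtain ⟨σ, u, hu, hT⟩ := lamCast_T_of_reps (A := A) LD O.prime (O.not_dvd_div hL)
    (fun b => alphaMat q * (k b : SL(2, ℤ)).1)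
    (fun b => by
      rw [Matrix.det_mul, (k b : SL(2, ℤ)).2, mul_one]
      simp [alphaMat, Matrix.det_fin_two])
    (fun b => by
      simpa [alphaMat, Matrix.mul_apply, Fin.sum_univ_two] using
        (ZMod.intCast_zmod_eq_zero_iff_dvd _ _).mp (Gamma0_mem.mp (k b).2))
    (fun i j v e => hsep i j (hα _ v (by
      rw [Matrix.SpecialLinearGroup.coe_mul, ← mul_assoc, e, mul_assoc, mul_assoc,
        ← Matrix.SpecialLinearGroup.coe_mul, mul_inv_cancel, Matrix.SpecialLinearGroup.coe_one,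
        mul_one])))
    (by rw [← Nat.card_eq_fintype_card]; exact O.card_fibre_base hL) γ
  let g0 : _ → SL(2, ℤ) := fun b => (k b : SL(2, ℤ)) * γ * (k (σ b) : SL(2, ℤ))⁻¹
  have hg0 : ∀ b, alphaMat q * (g0 b).1 = (u b : SL(2, ℤ)).1 * alphaMat q := fun b => by
    rw [Matrix.SpecialLinearGroup.coe_mul, Matrix.SpecialLinearGroup.coe_mul, ← mul_assoc,
      ← mul_assoc, hu, mul_assoc, mul_assoc, ← Matrix.SpecialLinearGroup.coe_mul, mul_inv_cancel,
      Matrix.SpecialLinearGroup.coe_one, mul_one]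
  let g : _ → Gamma0 L := fun b => ⟨g0 b, hα _ _ (hg0 b)⟩
  rw [hT z, hz]
  obtain ⟨f, rfl⟩ := Submodule.mkQ_surjective _ G
  set F : Z1 (funRep A D.PD (M := M)) := O.onPD.unshiftZ O.move_iff_PD
    (mapZ (isTwist_funPull (A := A) O.pushP O.pushP_smul) f) with hF
  show _ = funPush A O.pushP (F.1 (c γ)) ((D.lower q O.dvd).basePD (D.w O.unit * d))
  rw [O.sum_fibre_push, ← Finset.sum_congr rfl fun b _ => congrArg (F.1 (c γ)) (hk b),
    ← (sum_transfer F (D.basePD (D.w O.unit * d)) (fun b => c (k b)) (c γ) σ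
      (fun b => conjHom (D.conj_dvd hL) (g b)) (fun b => by
        have e : (k b * γ : Gamma0 (L / q)) = Subgroup.inclusion (fun y hy => Gamma0_mem.2
          ((ZMod.intCast_zmod_eq_zero_iff_dvd _ _).2
            ((Int.natCast_dvd_natCast.2 (O.level_div_dvd hL)).trans
              ((ZMod.intCast_zmod_eq_zero_iff_dvd _ _).1 (Gamma0_mem.1 hy)))) :
                Gamma0 L ≤ Gamma0 (L / q)) (g b) * k (σ b) :=
          Subtype.ext (inv_mul_cancel_right _ _).symm
        rw [← _root_.map_mul, e, _root_.map_mul]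
        exact congrArg (· * _) (Subtype.ext rfl))
      fun b => D.conj_mem_stab hL _ (g b)).1]
  refine Finset.sum_congr rfl fun b _ => ?_
  have hev : F.1 (conjHom (D.conj_dvd hL) (g b)) (D.basePD (D.w O.unit * d)) =
      f.1 (conjHom (O.qR_dvd hL) (g b)) ((D.lower q O.dvd).basePD d) := by
    have h1 := DFunLike.congr_fun (O.evalPD_unshift hL d
      (map (isTwist_funPull (A := A) O.pushP O.pushP_smul)
        (H1.mk (funRep A (D.lower q O.dvd).PD (M := M)) f))) (Additive.ofMul (g b))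
    exact h1.trans (congrArg (f.1 _) (O.pushP_pt d O.proj_y1))
  rw [hev]
  show f.1 (conjHom hR' (u b)) _ = _
  refine congrArg (fun δ => f.1 δ _) (Subtype.ext (eq_of_mul_alphaMat (NeZero.ne (q * D.R)) ?_))
  have hαR : alphaMat (q * D.R) = alphaMat D.R * alphaMat q := by
    ext a b
    fin_cases a <;> fin_cases b <;> simp [alphaMat, Matrix.mul_apply, Fin.sum_univ_two, mul_comm]
  rw [conjHom_mul_alphaMat, hαR, mul_assoc (alphaMat D.R), hg0 b, ← mul_assoc, ← mul_assoc,
    conjHom_mul_alphaMat]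

/-- adding `q`, the transport, forgetting `q` -/
theorem evalPD_push_shift_pull (hL : L = D.N0 * D.R ^ 2) (LD : JTors.LatticeData (L / q))
    (d : D.Del) (G : H1 (funRep A (D.lower q O.dvd).PD (M := M))) (z : A ⊗[ℤ] JTors.Lam (L / q))
    (hz : lamCast A (L / q) z =
      (D.lower q O.dvd).evalPD A (O.lower_level hL) (D.w O.unit * d) G) :
    lamCast A (L / q) ((LD.T ⟨q, O.prime⟩).baseChange A z) =
      (D.lower q O.dvd).evalPD A (O.lower_level hL) d
        (map (isTwist_funPush (A := A) O.pushP O.pushP_smul)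
          (O.onPD.shift (map (isTwist_funPull (A := A) O.pushP O.pushP_smul) G))) := by
  classical
  haveI : NeZero D.R := ⟨D.R_ne_zero⟩
  haveI : NeZero (D.lower q O.dvd).R := ⟨D.R_ne_zero⟩
  have hR' : D.R ∣ L / q := (D.lower q O.dvd).conj_dvd (O.lower_level hL)
  let c : Gamma0 (L / q) →* SL(2, ℤ) := conjHom hR'
  haveI : Fintype {b : P1 M D.N0 //
      P1.proj M (Nat.div_dvd_of_dvd O.dvd) b = P1.base M (D.N0 / q)} := Fintype.ofFinite _
  obtain ⟨k, hk⟩ := O.exists_reps (O.lower_level hL) hR' d (O.z1 d) (O.pushP_pt d O.proj_y1)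
  have hsep : ∀ i j, (q : ℤ) ∣ ((k i : SL(2, ℤ)) * (k j : SL(2, ℤ))⁻¹) 0 1 → i = j := by
    intro i j hij
    refine Subtype.ext ?_
    have hst : c (k i * (k j)⁻¹) ∈ stab M (O.z1 d) := by
      have h := mem_stab.mp ((D.lower q O.dvd).conj_mem_stab (O.lower_level hL) d (k i * (k j)⁻¹))
      refine mem_stab.mpr (Prod.ext (Prod.ext ?_ ?_) ?_)
      · refine mem_stab.mp ((O.stab_y1 _).2 ⟨?_, ?_⟩)
        · have h0 : c (k i * (k j)⁻¹) ∈ stab M (P1.base M (D.N0 / q)) :=
            mem_stab.mpr (congrArg (fun w : (D.lower q O.dvd).PD => w.1.1) h)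
          exact (ZMod.intCast_zmod_eq_zero_iff_dvd _ _).mp (Gamma0_mem.mp
            ((stab_base ((Nat.div_dvd_of_dvd O.dvd).trans D.dvd0)).le h0))
        · show (q : ℤ) ∣ (D.R : ℤ) * _
          exact hij.mul_left _
      · exact congrArg (fun w : (D.lower q O.dvd).PD => w.1.2) h
      · exact congrArg (fun w : (D.lower q O.dvd).PD => w.2) h
    have hfix := mem_stab.mp hst
    rw [_root_.map_mul, _root_.map_inv, _root_.map_mul, _root_.map_inv, mul_smul, ← eq_inv_smul_iff,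
      hk j, hk i] at hfix
    exact (congrArg (fun w : D.PD => w.1.1) hfix).symm
  let β : Matrix (Fin 2) (Fin 2) ℤ := !![1, 0; 0, (q : ℤ)]
  have hβ : ∀ (g : SL(2, ℤ)) (u : Gamma0 (L / q)), β * g.1 = (u : SL(2, ℤ)).1 * β →
      (q : ℤ) ∣ g 0 1 ∧ (u : SL(2, ℤ)) ∈ Gamma0 L := fun g u e => by
    have e01 := congrFun₂ e 0 1
    have e10 := congrFun₂ e 1 0
    simp [β, Matrix.mul_apply, Fin.sum_univ_two] at e01 e10
    refine ⟨⟨(u : SL(2, ℤ)) 0 1, by rw [e01, mul_comm]⟩,
      Gamma0_mem.mpr ((ZMod.intCast_zmod_eq_zero_iff_dvd _ _).mpr ?_)⟩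
    rw [congrArg (Nat.cast : ℕ → ℤ) (O.level_eq_mul hL), Nat.cast_mul]
    exact IsCoprime.mul_dvd (Int.isCoprime_iff_nat_coprime.mpr (by
      rw [Int.natAbs_natCast, Int.natAbs_natCast]
      exact ((O.prime.coprime_iff_not_dvd).mpr (O.not_dvd_div hL)).symm))
      ((ZMod.intCast_zmod_eq_zero_iff_dvd _ _).mp (Gamma0_mem.mp u.2)) ⟨_, e10.symm⟩
  refine AddMonoidHom.ext fun a => ?_
  obtain ⟨γ, rfl⟩ := Additive.ofMul.surjective a
  obtain ⟨σ, u, hu, hT⟩ := lamCast_T_of_reps (A := A) LD O.prime (O.not_dvd_div hL)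
    (fun b => β * (k b : SL(2, ℤ)).1)
    (fun b => by
      rw [Matrix.det_mul, (k b : SL(2, ℤ)).2, mul_one]
      simp [β, Matrix.det_fin_two])
    (fun b => by
      simpa [β, Matrix.mul_apply, Fin.sum_univ_two] using
        ((ZMod.intCast_zmod_eq_zero_iff_dvd _ _).mp (Gamma0_mem.mp (k b).2)).mul_left _)
    (fun i j v e => hsep i j (hβ _ v (by
      rw [Matrix.SpecialLinearGroup.coe_mul, ← mul_assoc, e, mul_assoc, mul_assoc,
        ← Matrix.SpecialLinearGroup.coe_mul, mul_inv_cancel, Matrix.SpecialLinearGroup.coe_one,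
        mul_one])).1)
    (by rw [← Nat.card_eq_fintype_card]; exact O.card_fibre_base hL) γ
  let g0 : _ → SL(2, ℤ) := fun b => (k b : SL(2, ℤ)) * γ * (k (σ b) : SL(2, ℤ))⁻¹
  have hg0 : ∀ b, β * (g0 b).1 = (u b : SL(2, ℤ)).1 * β := fun b => by
    rw [Matrix.SpecialLinearGroup.coe_mul, Matrix.SpecialLinearGroup.coe_mul, ← mul_assoc,
      ← mul_assoc, hu, mul_assoc, mul_assoc, ← Matrix.SpecialLinearGroup.coe_mul, mul_inv_cancel,
      Matrix.SpecialLinearGroup.coe_one, mul_one]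
  let g : _ → Gamma0 L := fun b => ⟨(u b : SL(2, ℤ)), (hβ _ _ (hg0 b)).2⟩
  rw [hT z, hz]
  obtain ⟨f, rfl⟩ := Submodule.mkQ_surjective _ G
  set F : Z1 (funRep A D.PD (M := M)) :=
    O.onPD.shiftZ (mapZ (isTwist_funPull (A := A) O.pushP O.pushP_smul) f) with hF
  have hαβ : alphaMat (q * D.R) * β = (q : ℤ) • alphaMat D.R := by
    ext x y
    fin_cases x <;> fin_cases y <;> simp [alphaMat, β, Matrix.mul_apply, Fin.sum_univ_two]
  have hgc : ∀ b, conjHom (O.qR_dvd hL) (g b) = c (k b * γ * (k (σ b))⁻¹) := fun b => by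
    refine Subtype.ext (eq_of_mul_alphaMat (NeZero.ne D.R) ?_)
    refine smul_right_injective _ (Int.natCast_ne_zero.2 O.prime.ne_zero : (q : ℤ) ≠ 0) ?_
    show (q : ℤ) • ((conjHom (O.qR_dvd hL) (g b) : Matrix (Fin 2) (Fin 2) ℤ) * alphaMat D.R) =
      (q : ℤ) • ((c (k b * γ * (k (σ b))⁻¹) : Matrix (Fin 2) (Fin 2) ℤ) * alphaMat D.R)
    rw [← Matrix.mul_smul, ← hαβ, ← mul_assoc, conjHom_mul_alphaMat, mul_assoc, ← hg0 b,
      ← mul_assoc, hαβ, conjHom_mul_alphaMat, smul_mul_assoc]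
    rfl
  show _ = funPush A O.pushP (F.1 (c γ)) ((D.lower q O.dvd).basePD d)
  rw [O.sum_fibre_push, ← Finset.sum_congr rfl fun b _ => congrArg (F.1 (c γ)) (hk b),
    ← (sum_transfer F (O.z1 d) (fun b => c (k b)) (c γ) σ
      (fun b => conjHom (O.qR_dvd hL) (g b)) (fun b => by
        rw [hgc, ← _root_.map_mul, ← _root_.map_mul, inv_mul_cancel_right])
      fun b => O.conj_mem_stab_z1 hL d (g b)).1]
  refine Finset.sum_congr rfl fun b _ => ?_
  have hev : F.1 (conjHom (O.qR_dvd hL) (g b)) (O.z1 d) =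
      f.1 (conjHom (D.conj_dvd hL) (g b)) ((D.lower q O.dvd).basePD (D.w O.unit * d)) := by
    have h1 := DFunLike.congr_fun (O.evalZ1_shift hL d
      (map (isTwist_funPull (A := A) O.pushP O.pushP_smul)
        (H1.mk (funRep A (D.lower q O.dvd).PD (M := M)) f))) (Additive.ofMul (g b))
    exact h1.trans (congrArg (f.1 _) (O.pushP_pt _ (P1.proj_base _)))
  rw [hev]
  exact congrArg (fun δ => f.1 δ _) (Subtype.ext rfl)

end OldPrime

end FLTAgent.LL

end
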