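import Fermat.Agent.MLT.DegenMaps
import Fermat.Agent.MLT.DegenTransfer
import Fermat.Agent.MLT.DegenTrace

/-!
Area MLT, parcel DEGEN: the composite of the degeneracy maps.

`oldPush * oldPull = [[q + 1, ⟨w⟩⁻¹ t], [⟨w⟩ t, q + 1]]` where `t = tqOp` is `T q` on the lattice of the
level without `q`; `oldAdj` is its adjugate up to sign and gives `t² - (1 + q)²`. The trace of
Frobenius at `q` acts as `t`, and its square is `(1 + q)²` on what both forgetful maps kill.
-/

set_option autoImplicit false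
set_option linter.style.haveILetI false
set_option linter.unusedSectionVars false
set_option maxHeartbeats 1000000

noncomputable section

open scoped MatrixGroups TensorProduct
open Matrix CongruenceSubgroup IsLocalRing

namespace FLTAgent.LL

namespace TWData

variable {M p r : ℕ} [NeZero M] (D : TWData M p r) {A : Type} [CommRing A] [IsDomain A]
  [IsPrincipalIdealRing A] [IsLocalRing A] [IsAdicComplete (maximalIdeal A) A] [CharZero A]
  (s : Sys M A)

/-- the twist, with `2` invertible -/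
def twistTwo (h2 : IsUnit (2 : A)) {L : ℕ} [NeZero L] (hL : L = D.N0 * D.R ^ 2) (d : D.Del) :
    D.Mod s →ₗ[A] A ⊗[ℤ] JTors.Lam L :=
  haveI := fun i => Fact.mk (D.prime i)
  (LinearEquiv.ofInjective (lamCast A L) lamCast_injective).symm.toLinearMap ∘ₗ
    (D.evalPD A hL d ∘ₗ map (D.isTwist_twMap (A := A)) ∘ₗ (D.Mod s).subtype).codRestrict
      (LinearMap.range (lamCast A L)) (fun x => D.evalTw_mem_range s h2 hL d x)

theorem lamCast_twistTwo [∀ i, Fact (D.Q i).Prime] (h2 : IsUnit (2 : A)) {L : ℕ} [NeZero L]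
    (hL : L = D.N0 * D.R ^ 2) (d : D.Del) (x : D.Mod s) :
    lamCast A L (D.twistTwo s h2 hL d x) =
      D.evalPD A hL d (map (D.isTwist_twMap (A := A)) x.1) := by
  rw [twistTwo, ← LinearEquiv.ofInjective_apply (h := lamCast_injective)]
  exact congrArg Subtype.val (LinearEquiv.apply_symm_apply _ _)

theorem twistTwo_tOp (h2 : IsUnit (2 : A)) {L : ℕ} [NeZero L] (hL : L = D.N0 * D.R ^ 2)
    (LD : JTors.LatticeData L) {l : ℕ} (hl : l.Prime) (hlM : ¬ l ∣ M) (d : D.Del) (x : D.Mod s) :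
    D.twistTwo s h2 hL d (D.tOp s hl hlM x) =
      (LD.T ⟨l, hl⟩).baseChange A (D.twistTwo s h2 hL d x) := by
  haveI := fun i => Fact.mk (D.prime i)
  refine lamCast_injective ?_
  rw [D.lamCast_twistTwo, D.lamCast_evalPD_T LD hL hl hlM d
    (map (D.isTwist_twMap (A := A)) x.1) (D.twistTwo s h2 hL d x) (D.lamCast_twistTwo s h2 hL d x)]
  show D.evalPD A hL d (map (D.isTwist_twMap (A := A)) (map (D.isTwist_actFun (A := A) _)
    (T (funRep A D.X (M := M)) hl hlM x.1))) = _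
  rw [D.map_tw_dia hL, map_T_one]

theorem twistTwo_ext (h2 : IsUnit (2 : A)) {L : ℕ} [NeZero L] (hL : L = D.N0 * D.R ^ 2)
    {x y : D.Mod s} (h : ∀ d, D.twistTwo s h2 hL d x = D.twistTwo s h2 hL d y) : x = y := by
  haveI := fun i => Fact.mk (D.prime i)
  refine Subtype.ext (sub_eq_zero.mp (s.eq_zero_of_map_eq_zero (D.isTwist_twMap (A := A))
    D.twMap_injective (sub_mem x.2 y.2) (D.eq_zero_of_evalPD hL fun d => ?_)))
  rw [_root_.map_sub, _root_.map_sub, ← D.lamCast_twistTwo s h2 hL d x,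
    ← D.lamCast_twistTwo s h2 hL d y, h, sub_self]

theorem twistTwo_dia (h2 : IsUnit (2 : A)) {L : ℕ} [NeZero L] (hL : L = D.N0 * D.R ^ 2)
    (u d : D.Del) (x : D.Mod s) :
    D.twistTwo s h2 hL d (D.dia s u x) = D.twistTwo s h2 hL (u * d) x := by
  haveI := fun i => Fact.mk (D.prime i)
  refine lamCast_injective ?_
  rw [D.lamCast_twistTwo, D.lamCast_twistTwo, dia_val, D.map_tw_dia hL]

end TWData

namespace OldPrime

variable {M p r : ℕ} [NeZero M] {D : TWData M p r} {q : ℕ} (O : OldPrime D q) [NeZero q]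
  {A : Type} [CommRing A] [IsDomain A] [IsPrincipalIdealRing A] [IsLocalRing A]
  [IsAdicComplete (maximalIdeal A) A] [CharZero A] (s : Sys M A)

include O

/-- `T q` on the level without `q` -/
def tqOp : Module.End A ((D.lower q O.dvd).Mod s) :=
  (D.lower q O.dvd).dia s ((D.lower q O.dvd).w O.unit)⁻¹ ∘ₗ O.push2 s ∘ₗ O.pull1 s

section Twist

variable {L : ℕ} [NeZero L] [NeZero (L / q)] (hL : L = D.N0 * D.R ^ 2) (h2 : IsUnit (2 : A))
  (LD : JTors.LatticeData (L / q))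

include hL h2

theorem twistTwo_push2_pull1 (d : (D.lower q O.dvd).Del) (y : (D.lower q O.dvd).Mod s) :
    (D.lower q O.dvd).twistTwo s h2 (O.lower_level hL) d (O.push2 s (O.pull1 s y)) =
      (LD.T ⟨q, O.prime⟩).baseChange A
        ((D.lower q O.dvd).twistTwo s h2 (O.lower_level hL) ((D.lower q O.dvd).w O.unit * d) y) := by
  haveI : ∀ i, Fact (D.Q i).Prime := fun i => ⟨D.prime i⟩
  haveI : ∀ i, Fact ((D.lower q O.dvd).Q i).Prime := fun i => ⟨D.prime i⟩
  refine lamCast_injective (((D.lower q O.dvd).lamCast_twistTwo s h2 (O.lower_level hL) d _).trans ?_)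
  refine Eq.trans ?_ (O.evalPD_push_shift_pull hL LD d
    (map ((D.lower q O.dvd).isTwist_twMap (A := A)) y.1) _
      ((D.lower q O.dvd).lamCast_twistTwo s h2 (O.lower_level hL) _ y)).symm
  show (D.lower q O.dvd).evalPD A (O.lower_level hL) d
      (map ((D.lower q O.dvd).isTwist_twMap (A := A))
        (map (isTwist_funPush (A := A) O.pushX O.pushX_smul) (O.modShift s (O.pull1 s y)).1)) = _
  rw [← O.map_pushP_tw, O.map_tw_modShift, pull1_val, O.map_pull_tw]

theorem twistTwo_push1_pull2 (d : (D.lower q O.dvd).Del) (y : (D.lower q O.dvd).Mod s) :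
    (D.lower q O.dvd).twistTwo s h2 (O.lower_level hL) ((D.lower q O.dvd).w O.unit * d) (O.push1 s (O.pull2 s y)) =
      (LD.T ⟨q, O.prime⟩).baseChange A
        ((D.lower q O.dvd).twistTwo s h2 (O.lower_level hL) d y) := by
  haveI : ∀ i, Fact (D.Q i).Prime := fun i => ⟨D.prime i⟩
  haveI : ∀ i, Fact ((D.lower q O.dvd).Q i).Prime := fun i => ⟨D.prime i⟩
  refine lamCast_injective (((D.lower q O.dvd).lamCast_twistTwo s h2 (O.lower_level hL) _ _).trans ?_)
  refine Eq.trans ?_ (O.evalPD_push_unshift_pull hL LD d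
    (map ((D.lower q O.dvd).isTwist_twMap (A := A)) y.1) _
      ((D.lower q O.dvd).lamCast_twistTwo s h2 (O.lower_level hL) _ y)).symm
  show (D.lower q O.dvd).evalPD A (O.lower_level hL) ((D.lower q O.dvd).w O.unit * d)
      (map ((D.lower q O.dvd).isTwist_twMap (A := A))
        (map (isTwist_funPush (A := A) O.pushX O.pushX_smul) (O.modUnshift s (O.pull1 s y)).1)) = _
  rw [← O.map_pushP_tw, O.map_tw_modUnshift, pull1_val, O.map_pull_tw]
  rfl

theorem twistTwo_tqOp (d : (D.lower q O.dvd).Del) (y : (D.lower q O.dvd).Mod s) :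
    (D.lower q O.dvd).twistTwo s h2 (O.lower_level hL) d (O.tqOp s y) =
      (LD.T ⟨q, O.prime⟩).baseChange A
        ((D.lower q O.dvd).twistTwo s h2 (O.lower_level hL) d y) := by
  refine Eq.trans ((D.lower q O.dvd).twistTwo_dia s h2 (O.lower_level hL) _ d _) ?_
  refine (O.twistTwo_push2_pull1 s hL h2 LD _ y).trans ?_
  exact congrArg (fun e => (LD.T ⟨q, O.prime⟩).baseChange A
    ((D.lower q O.dvd).twistTwo s h2 (O.lower_level hL) e y)) (mul_inv_cancel_left _ _)

end Twist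

theorem tqOp_dia (u : (D.lower q O.dvd).Del) (y : (D.lower q O.dvd).Mod s) :
    O.tqOp s ((D.lower q O.dvd).dia s u y) = (D.lower q O.dvd).dia s u (O.tqOp s y) := by
  show (D.lower q O.dvd).dia s _ (O.push2 s (O.pull1 s _)) = _
  refine (congrArg _ ((congrArg (O.push2 s) (O.pull1_dia s u y)).trans
    (O.push2_dia s u _))).trans ?_
  exact LinearMap.congr_fun ((D.lower q O.dvd).dia_comm s _ u).eq _

theorem tqOp_tOp {l : ℕ} (hl : l.Prime) (hlM : ¬ l ∣ M) (y : (D.lower q O.dvd).Mod s) :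
    O.tqOp s ((D.lower q O.dvd).tOp s hl hlM y) =
      (D.lower q O.dvd).tOp s hl hlM (O.tqOp s y) := by
  show (D.lower q O.dvd).dia s _ (O.push2 s (O.pull1 s _)) = _
  rw [O.pull1_tOp, O.push2_tOp]
  exact LinearMap.congr_fun (((D.lower q O.dvd).dia_comm s ((D.lower q O.dvd).w O.unit)⁻¹ _).mul_right
    ((D.lower q O.dvd).dia_comm_opT s _ hl hlM)).eq _

theorem push2_pull1 (y : (D.lower q O.dvd).Mod s) :
    O.push2 s (O.pull1 s y) = (D.lower q O.dvd).dia s ((D.lower q O.dvd).w O.unit) (O.tqOp s y) := by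
  show _ = (D.lower q O.dvd).dia s _ ((D.lower q O.dvd).dia s _ (O.push2 s (O.pull1 s y)))
  refine Eq.symm (Eq.trans (LinearMap.congr_fun
    ((D.lower q O.dvd).dia_mul s ((D.lower q O.dvd).w O.unit)⁻¹ ((D.lower q O.dvd).w O.unit)).symm _) ?_)
  exact (congrArg (fun u => (D.lower q O.dvd).dia s u (O.push2 s (O.pull1 s y)))
    (inv_mul_cancel ((D.lower q O.dvd).w O.unit))).trans (LinearMap.congr_fun ((D.lower q O.dvd).dia_one s) _)

theorem push1_pull2 (h2 : IsUnit (2 : A)) (y : (D.lower q O.dvd).Mod s) :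
    O.push1 s (O.pull2 s y) = (D.lower q O.dvd).dia s ((D.lower q O.dvd).w O.unit)⁻¹ (O.tqOp s y) := by
  obtain ⟨L, hL⟩ : ∃ L, L = D.N0 * D.R ^ 2 := ⟨_, rfl⟩
  haveI : NeZero L := ⟨hL ▸ mul_ne_zero D.N0_ne_zero (pow_ne_zero 2 D.R_ne_zero)⟩
  haveI : NeZero (L / q) := ⟨fun h => NeZero.ne L (by rw [O.level_eq_mul hL, h, zero_mul])⟩
  obtain ⟨LD⟩ := JTors.exists_latticeData (L / q)
  refine (D.lower q O.dvd).twistTwo_ext s h2 (O.lower_level hL) fun d => ?_
  obtain ⟨d, rfl⟩ : ∃ d' : (D.lower q O.dvd).Del, (D.lower q O.dvd).w O.unit * d' = d :=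
    ⟨((D.lower q O.dvd).w O.unit)⁻¹ * d, mul_inv_cancel_left ((D.lower q O.dvd).w O.unit) (d : (D.lower q O.dvd).Del)⟩
  refine (O.twistTwo_push1_pull2 s hL h2 LD d y).trans ?_
  refine Eq.trans ?_ ((D.lower q O.dvd).twistTwo_dia s h2 (O.lower_level hL) _ _ _).symm
  exact (O.twistTwo_tqOp s hL h2 LD d y).symm.trans
    (congrArg (fun e => (D.lower q O.dvd).twistTwo s h2 (O.lower_level hL) e (O.tqOp s y))
      (inv_mul_cancel_left ((D.lower q O.dvd).w O.unit) d).symm)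

/-- the adjugate of `oldPush * oldPull`, up to sign -/
def oldAdj : Module.End A ((D.lower q O.dvd).Mod s × (D.lower q O.dvd).Mod s) :=
  LinearMap.prod
    (((-((q + 1 : ℕ) : A)) • LinearMap.id).coprod
      ((D.lower q O.dvd).dia s ((D.lower q O.dvd).w O.unit)⁻¹ ∘ₗ O.tqOp s))
    (((D.lower q O.dvd).dia s ((D.lower q O.dvd).w O.unit) ∘ₗ O.tqOp s).coprod
      ((-((q + 1 : ℕ) : A)) • LinearMap.id))

/-- `t² - (1 + q)²` -/
def tqQuart : Module.End A ((D.lower q O.dvd).Mod s) :=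
  O.tqOp s * O.tqOp s - ((1 + (q : A)) ^ 2) • 1

theorem oldAdj_apply (z : (D.lower q O.dvd).Mod s × (D.lower q O.dvd).Mod s) :
    O.oldAdj s z =
      ((-((q + 1 : ℕ) : A)) • z.1 +
          (D.lower q O.dvd).dia s ((D.lower q O.dvd).w O.unit)⁻¹ (O.tqOp s z.2),
        (D.lower q O.dvd).dia s ((D.lower q O.dvd).w O.unit) (O.tqOp s z.1) +
          (-((q + 1 : ℕ) : A)) • z.2) := rfl

theorem tqQuart_apply (a : (D.lower q O.dvd).Mod s) :
    O.tqQuart s a = O.tqOp s (O.tqOp s a) - ((1 + (q : A)) ^ 2) • a := rfl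

theorem oldAdj_fst (a : (D.lower q O.dvd).Mod s) :
    (O.oldAdj s (a, 0)).1 = (-(1 + (q : A))) • a := by
  simp [oldAdj, add_comm]

theorem oldPush_oldPull (h2 : IsUnit (2 : A))
    (z : (D.lower q O.dvd).Mod s × (D.lower q O.dvd).Mod s) :
    O.oldPush s (O.oldPull s z) =
      (((q + 1 : ℕ) : A) • z.1 + (D.lower q O.dvd).dia s ((D.lower q O.dvd).w O.unit)⁻¹ (O.tqOp s z.2),
        (D.lower q O.dvd).dia s ((D.lower q O.dvd).w O.unit) (O.tqOp s z.1) + ((q + 1 : ℕ) : A) • z.2) := by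
  refine Prod.ext ?_ ?_
  · show O.push1 s (O.pull1 s z.1 + O.pull2 s z.2) = _
    rw [_root_.map_add, O.push1_pull1, O.push1_pull2 s h2]
  · show O.push2 s (O.pull1 s z.1 + O.pull2 s z.2) = _
    rw [_root_.map_add, O.push2_pull1, O.push2_pull2]

/-- `adj * (push * pull)` and `(push * pull) * adj` are `t² - (1 + q)²` -/
theorem oldAdj_mul (h2 : IsUnit (2 : A))
    (z : (D.lower q O.dvd).Mod s × (D.lower q O.dvd).Mod s) :
    O.oldAdj s (O.oldPush s (O.oldPull s z)) = (O.tqQuart s z.1, O.tqQuart s z.2) ∧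
      O.oldPush s (O.oldPull s (O.oldAdj s z)) = (O.tqQuart s z.1, O.tqQuart s z.2) := by
  let w : (D.lower q O.dvd).Del := (D.lower q O.dvd).w O.unit
  have h1 : ∀ a, (D.lower q O.dvd).dia s w⁻¹ ((D.lower q O.dvd).dia s w a) = a := fun a =>
    (LinearMap.congr_fun ((D.lower q O.dvd).dia_mul s w w⁻¹).symm a).trans
      ((congrArg (fun u => (D.lower q O.dvd).dia s u a) (mul_inv_cancel w)).trans
        (LinearMap.congr_fun ((D.lower q O.dvd).dia_one s) a))
  have h1' : ∀ a, (D.lower q O.dvd).dia s w ((D.lower q O.dvd).dia s w⁻¹ a) = a := fun a =>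
    (LinearMap.congr_fun ((D.lower q O.dvd).dia_mul s w⁻¹ w).symm a).trans
      ((congrArg (fun u => (D.lower q O.dvd).dia s u a) (inv_mul_cancel w)).trans
        (LinearMap.congr_fun ((D.lower q O.dvd).dia_one s) a))
  have h3 := O.tqOp_dia s w
  have h4 := O.tqOp_dia s w⁻¹
  rw [O.oldPush_oldPull s h2, O.oldPush_oldPull s h2]
  simp only [O.oldAdj_apply, O.tqQuart_apply, _root_.map_add, _root_.map_smul, h3, h4, h1, h1',
    Nat.cast_add, Nat.cast_one, w]
  constructor <;> refine Prod.ext ?_ ?_ <;> simp only <;> module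

end OldPrime

section Trace

open Polynomial FLTAgent.Attach

variable {M p r : ℕ} [NeZero M] {D : TWData M p r} {q : ℕ} (O : OldPrime D q) [NeZero q]
  {A : Type} [CommRing A] [IsDomain A] [IsDiscreteValuationRing A]
  [IsAdicComplete (maximalIdeal A) A] [Finite (ResidueField A)] [CharZero A] (s : Sys M A)
  {T : Type} [CommRing T] [IsLocalRing T] [IsNoetherianRing T] [Algebra A T] [Module.Finite A T]
  (ρ : GaloisRepAdic T) {S : Finset ℕ} (hpS : p ∈ S) (hpA : (p : A) ∈ maximalIdeal A)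
  (h2 : IsUnit (2 : A)) (hqp : q ≠ p)
  {P : ValuationSubring (AlgebraicClosure ℚ)} (hP : P.LiesOverPrime q) {τ : GalQ}
  (hτ : P.IsFrobeniusAt τ q)

include hpS hpA h2 hqp hP hτ

/-- the trace of Frobenius at `q` is `tqOp` on the level without `q` -/
theorem OldPrime.trace_eq_tqOp (φ : T →ₐ[A] Module.End A ((D.lower q O.dvd).Mod s))
    (h : ∀ (l : ℕ) (hl : l.Prime), l ∉ S → ∀ P : ValuationSubring (AlgebraicClosure ℚ),
      P.LiesOverPrime l → ∀ τ : GalQ, P.IsFrobeniusAt τ l → ∃ a : T,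
        (∃ hlM : ¬ l ∣ M, φ a = (D.lower q O.dvd).tOp s hl hlM) ∧
          LinearMap.charpoly (ρ.ρ τ) = X ^ 2 - C a * X + C (l : T)) :
    φ (LinearMap.trace T ρ.V (ρ.ρ τ)) = O.tqOp s := by
  obtain ⟨L, hL⟩ : ∃ L, L = D.N0 * D.R ^ 2 := ⟨_, rfl⟩
  haveI : NeZero L := ⟨hL ▸ mul_ne_zero D.N0_ne_zero (pow_ne_zero 2 D.R_ne_zero)⟩
  haveI : NeZero (L / q) := ⟨fun h => NeZero.ne L (by rw [O.level_eq_mul hL, h, zero_mul])⟩
  haveI : Module.Finite A ((D.lower q O.dvd).Mod s) := s.E_finite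
  obtain ⟨LD⟩ := JTors.exists_latticeData (L / q)
  refine LinearMap.ext fun x => (D.lower q O.dvd).twistTwo_ext s h2 (O.lower_level hL) fun d => ?_
  rw [trace_galTr D.prime_p hpA LD ρ φ ((D.lower q O.dvd).twistTwo s h2 (O.lower_level hL) d) S
      (fun l hl hlS P hP τ hτ => ?_) τ x,
    galTr_frobenius D.prime_p hpA LD O.prime (O.not_dvd_div hL) hqp hP hτ]
  · exact (O.twistTwo_tqOp s hL h2 LD d x).symm
  · obtain ⟨a, ⟨hlM, ha⟩, hc⟩ := h l hl hlS P hP τ hτ
    refine ⟨a, hc, (D.lower q O.dvd).not_dvd_L (O.lower_level hL) hl hlM, fun e => hlS (e ▸ hpS),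
      fun x => ?_⟩
    rw [ha]
    exact (D.lower q O.dvd).twistTwo_tOp s h2 (O.lower_level hL) LD hl hlM d x

set_option maxRecDepth 4000 in
/-- on what both forgetful maps kill the trace of Frobenius squares to `(1 + q)²` -/
theorem OldPrime.quartic_of_oldPush_eq_zero (φ : T →ₐ[A] Module.End A (D.Mod s))
    (h : ∀ (l : ℕ) (hl : l.Prime), l ∉ S → ∀ P : ValuationSubring (AlgebraicClosure ℚ),
      P.LiesOverPrime l → ∀ τ : GalQ, P.IsFrobeniusAt τ l → ∃ a : T,
        (∃ hlM : ¬ l ∣ M, φ a = D.tOp s hl hlM) ∧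
          LinearMap.charpoly (ρ.ρ τ) = X ^ 2 - C a * X + C (l : T))
    (x : D.Mod s) (hx : O.oldPush s x = 0) :
    φ (LinearMap.trace T ρ.V (ρ.ρ τ) ^ 2 - (1 + (q : T)) ^ 2) x = 0 := by
  obtain ⟨L, hL⟩ : ∃ L, L = D.N0 * D.R ^ 2 := ⟨_, rfl⟩
  haveI : NeZero L := ⟨hL ▸ mul_ne_zero D.N0_ne_zero (pow_ne_zero 2 D.R_ne_zero)⟩
  haveI : NeZero (L / q) := ⟨fun h => NeZero.ne L (by rw [O.level_eq_mul hL, h, zero_mul])⟩
  haveI : ∀ i, Fact (D.Q i).Prime := fun i => ⟨D.prime i⟩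
  haveI : ∀ i, Fact ((D.lower q O.dvd).Q i).Prime := fun i => ⟨D.prime i⟩
  haveI : Module.Finite A (D.Mod s) := s.E_finite
  obtain ⟨M', hM'⟩ : ∃ M', M' = L / q := ⟨_, rfl⟩
  haveI : NeZero M' := ⟨hM' ▸ NeZero.ne (L / q)⟩
  have hqM' : ¬ q ∣ M' := hM' ▸ O.not_dvd_div hL
  have hsums : ∀ d, SumsZero M' q (D.evalPD A hL d (map (D.isTwist_twMap (A := A)) x.1)) := by
    intro d
    rw [hM']
    have h1 : O.push1 s x = 0 := congrArg Prod.fst hx
    have h1' : O.push1 s (O.modShift s x) = 0 := congrArg Prod.snd hx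
    refine O.sumsZero_of_push_tw hL d (congrArg Subtype.val h1) ?_
    show map ((D.lower q O.dvd).isTwist_twMap (A := A))
      (map (isTwist_funPush (A := A) O.pushX O.pushX_smul) (O.onX.shift x.1)) = 0
    rw [← O.map_pushP_tw, O.map_shift_tw, ← O.map_tw_modShift, O.map_pushP_tw,
      show map (isTwist_funPush (A := A) O.pushX O.pushX_smul) (O.modShift s x).1 = 0 from
        congrArg Subtype.val h1', _root_.map_zero]
  have hLM' : L = M' * q := hM' ▸ O.level_eq_mul hL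
  subst hLM'
  obtain ⟨LD⟩ := JTors.exists_latticeData (M' * q)
  refine D.twistTwo_ext s h2 hL fun d => ?_
  have key : ∀ y, D.twistTwo s h2 hL d (φ (LinearMap.trace T ρ.V (ρ.ρ τ)) y) =
      galTr D.prime_p hpA LD τ (D.twistTwo s h2 hL d y) := fun y => by
    refine trace_galTr D.prime_p hpA LD ρ φ (D.twistTwo s h2 hL d) S (fun l hl hlS P hP τ hτ => ?_) τ y
    obtain ⟨a, ⟨hlM, ha⟩, hc⟩ := h l hl hlS P hP τ hτ
    refine ⟨a, hc, D.not_dvd_L hL hl hlM, fun e => hlS (e ▸ hpS), fun x => ?_⟩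
    rw [ha]
    exact D.twistTwo_tOp s h2 hL LD hl hlM d x
  have e : ∀ t : T, φ (t ^ 2 - (1 + (q : T)) ^ 2) x = φ t (φ t x) - ((1 + (q : A)) ^ 2) • x := fun t => by
    have h1 : (1 + (q : T)) ^ 2 = algebraMap A T ((1 + (q : A)) ^ 2) := by
      rw [_root_.map_pow, _root_.map_add, _root_.map_one, _root_.map_natCast]
    rw [h1, _root_.map_sub, pow_two t, _root_.map_mul, AlgHom.commutes, LinearMap.sub_apply,
      Module.End.mul_apply, Module.algebraMap_end_apply]
  rw [e, _root_.map_sub, _root_.map_smul, key, key, _root_.map_zero]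
  exact galTr_quartic D.prime_p hpA O.prime hqM' hqp hP hτ LD _
    (by rw [D.lamCast_twistTwo]; exact hsums d)

end Trace

end FLTAgent.LL

end
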