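import Fermat.Agent.MLT.DegenHom
import Fermat.Agent.MLT.DegenMaps

/-!
Area MLT, parcel DEGEN: evaluation at the base point of `Y`, and what forgetting `q`, adding `q` and the
inverse transport become on homomorphisms.
-/

set_option autoImplicit false
set_option linter.style.haveILetI false
set_option linter.unusedSectionVars false
set_option maxHeartbeats 800000

noncomputable section

open scoped MatrixGroups TensorProduct
open Matrix CongruenceSubgroup IsLocalRing

namespace FLTAgent.LL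

variable {M p r : ℕ} [NeZero M]

namespace TWData

variable (D : TWData M p r) {K : ℕ} (hK : K = D.N0 * D.R)

/-- base point of `Y` -/
def baseY : D.Y := (P1.base M D.N0, fun i => P1.base M (D.Q i))

include hK in
theorem N0_dvd_level : D.N0 ∣ K := hK ▸ dvd_mul_right _ _

include hK in
theorem Q_dvd_level (i : Fin r) : D.Q i ∣ K := hK ▸ (D.Q_dvd_R i).trans (dvd_mul_left _ _)

include hK in
theorem level_dvd_M : K ∣ M := hK ▸ D.N0R_dvd

/-- `P¹(N0 R)` to `Y` -/
def levelY (x : P1 M K) : D.Y :=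
  (P1.proj M (D.N0_dvd_level hK) x, fun i => P1.proj M (D.Q_dvd_level hK i) x)

theorem levelY_smul (g : GL (Fin 2) (ZMod M)) (x : P1 M K) :
    D.levelY hK (g • x) = g • D.levelY hK x :=
  Prod.ext (P1.proj_smul (D.N0_dvd_level hK) g x) (funext fun i => P1.proj_smul (D.Q_dvd_level hK i) g x)

theorem levelY_base : D.levelY hK (P1.base M K) = D.baseY := rfl

theorem levelY_bijective : Function.Bijective (D.levelY hK) := by
  subst hK
  obtain ⟨φ, -⟩ := D.exists_equiv_Y'
  haveI : Fintype (P1 M (D.N0 * D.R)) := Fintype.ofFinite _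
  refine (Fintype.bijective_iff_surjective_and_card _).2 ⟨fun y => ?_, Fintype.card_congr φ⟩
  obtain ⟨z, hz⟩ := D.projPY_surjective y
  obtain ⟨γ, hγ⟩ := D.exists_red_smul_baseP z
  refine ⟨red M γ • P1.base M (D.N0 * D.R), ?_⟩
  rw [levelY_smul, ← hz, ← hγ, D.projPY_smul]
  rfl

include hK in
theorem smul_baseY {γ : SL(2, ℤ)} (h : γ ∈ Gamma0 K) : red M γ • D.baseY = D.baseY := by
  rw [← D.levelY_base hK, ← D.levelY_smul, mem_stab.mp (Gamma0_le_stab M K h)]

include hK in
theorem inv_smul_baseY {γ : SL(2, ℤ)} (h : γ ∈ Gamma0 K) : (red M γ)⁻¹ • D.baseY = D.baseY :=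
  inv_smul_eq_iff.mpr (D.smul_baseY hK h).symm

variable (A : Type) [CommRing A]

/-- evaluation at the base point of `Y` -/
def evalY : H1 (funRep A D.Y (M := M)) →ₗ[A] LR.HomG K A :=
  evalGamma0 M K A ∘ₗ map (isTwist_funPull (A := A) (D.levelY hK) (D.levelY_smul hK))

theorem evalY_mk (f : Z1 (funRep A D.Y (M := M))) (γ : Gamma0 K) :
    D.evalY hK A (H1.mk (funRep A D.Y (M := M)) f) (Additive.ofMul γ) = f.1 γ D.baseY := rfl

theorem evalY_bijective : Function.Bijective (D.evalY hK A) := by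
  let φ := Equiv.ofBijective _ (D.levelY_bijective hK)
  have hφ : ∀ (g : GL (Fin 2) (ZMod M)) y, φ.symm (g • y) = g • φ.symm y := fun g y => by
    rw [Equiv.symm_apply_eq]
    exact ((D.levelY_smul hK g _).trans (congrArg (g • ·) (φ.apply_symm_apply y))).symm
  refine (evalGamma0_bijective (A := A) (D.level_dvd_M hK)).comp
    (Function.bijective_iff_has_inverse.2 ⟨fun x => map (isTwist_funPull (A := A) φ.symm hφ) x,
      fun x => ?_, fun x => ?_⟩)
  · obtain ⟨f, rfl⟩ := Submodule.mkQ_surjective _ x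
    exact congrArg (H1.mk (funRep A D.Y (M := M)))
      (Subtype.ext (funext fun γ => funext fun z => congrArg (f.1 γ) (φ.apply_symm_apply z)))
  · obtain ⟨f, rfl⟩ := Submodule.mkQ_surjective _ x
    exact congrArg (H1.mk (funRep A (P1 M K) (M := M)))
      (Subtype.ext (funext fun γ => funext fun z => congrArg (f.1 γ) (φ.symm_apply_apply z)))

theorem evalY_T {l : ℕ} [NeZero l] (hl : l.Prime) (hlM : ¬ l ∣ M) (hlK : ¬ l ∣ K)
    (x : H1 (funRep A D.Y (M := M))) :
    D.evalY hK A (T (funRep A D.Y (M := M)) hl hlM x) = LR.TH K l hl hlK (D.evalY hK A x) := by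
  show evalGamma0 M K A (map (isTwist_funPull (A := A) (D.levelY hK) (D.levelY_smul hK)) _) = _
  rw [map_T_one, evalGamma0_TH (D.level_dvd_M hK) hl hlM hlK]
  rfl

theorem evalY_parabolic [IsLocalRing A] [IsNoetherianRing A] [IsAdicComplete (maximalIdeal A) A]
    (s : Sys M A) (h2 : IsUnit (2 : A)) {x : H1 (funRep A D.Y (M := M))}
    (hx : x ∈ s.E (funRep A D.Y (M := M))) :
    ModularCurve.Period.IsParabolicHom (Gamma0 K) (D.evalY hK A x) :=
  evalGamma0_parabolic s h2 (s.map_mem_E _ (fun _ => by simp) hx)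

variable [IsLocalRing A]

/-- evaluation at the base point after the projection to lines -/
def evalXY : H1 (funRep A D.X (M := M)) →ₗ[A] LR.HomG K A :=
  D.evalY hK A ∘ₗ map (D.isTwist_projXY (A := A))

theorem evalXY_mk (f : Z1 (funRep A D.X (M := M))) (γ : Gamma0 K) :
    D.evalXY hK A (H1.mk (funRep A D.X (M := M)) f) (Additive.ofMul γ) =
      funPush A D.projXY (f.1 γ) D.baseY := rfl

end TWData

namespace OldPrime

variable {D : TWData M p r} {q : ℕ} (O : OldPrime D q)

/-- the level without `q` -/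
def levN (_O : OldPrime D q) : ℕ := D.N0 / q * D.R

include O

theorem levN_mul : O.levN * q = D.N0 * D.R := by
  conv_rhs => rw [O.eq_mul]
  rw [levN]
  ring

theorem levN_eq : O.levN = (D.lower q O.dvd).N0 * (D.lower q O.dvd).R := rfl

theorem levN_ne_zero : O.levN ≠ 0 := fun h =>
  mul_ne_zero D.N0_ne_zero D.R_ne_zero (by rw [← O.levN_mul, h, zero_mul])

theorem not_dvd_levN : ¬ q ∣ O.levN := by
  rw [levN, O.prime.dvd_mul, not_or]
  exact ⟨O.exact_dvd, O.not_dvd_R⟩

theorem levN_dvd_M : O.levN * q ∣ M := O.levN_mul ▸ D.N0R_dvd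

/-- forgetting `q` on lines -/
def pushY (y : D.Y) : (D.lower q O.dvd).Y := (P1.proj M (Nat.div_dvd_of_dvd O.dvd) y.1, y.2)

theorem pushY_smul (g : GL (Fin 2) (ZMod M)) (y : D.Y) : O.pushY (g • y) = g • O.pushY y :=
  Prod.ext (P1.proj_smul (Nat.div_dvd_of_dvd O.dvd) g y.1) rfl

theorem pushY_baseY : O.pushY D.baseY = (D.lower q O.dvd).baseY := rfl

/-- the second point over the base point of `Y` -/
def y1Y : D.Y := (O.y1, fun i => P1.base M (D.Q i))

theorem pushY_y1Y : O.pushY O.y1Y = (D.lower q O.dvd).baseY := Prod.ext O.proj_y1 rfl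

variable [NeZero q]

theorem gam0_smul_y1 :
    red M ((LR.gam0 O.prime O.not_dvd_levN : Gamma0 O.levN) : SL(2, ℤ)) • O.y1 = P1.base M D.N0 := by
  set N1 := D.N0 / q with hN1
  have hN1M : N1 ∣ M := (Nat.div_dvd_of_dvd O.dvd).trans D.dvd0
  obtain ⟨γ, hγ⟩ := P1.transitive O.y1
  have hγ1 : γ ∈ Gamma0 N1 := (stab_base (M := M) hN1M).le (mem_stab.mpr (by
    conv_lhs => rw [← P1.proj_base (Nat.div_dvd_of_dvd O.dvd), ← P1.proj_smul, hγ, O.proj_y1]))
  have hlow : lowerT (N1 : ℤ) ∈ stab M O.y1 := (O.stab_y1 _).2 (by simp [coe_lowerT, hN1])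
  have hmem : γ⁻¹ * lowerT (N1 : ℤ) * γ ∈ Gamma0 D.N0 := (stab_base (M := M) D.dvd0).le (mem_stab.mpr (by
    rw [_root_.map_mul, _root_.map_mul, _root_.map_inv, mul_smul, mul_smul, hγ, mem_stab.mp hlow,
      inv_smul_eq_iff, hγ]))
  have hqdvd : (q : ℤ) ∣ γ.1 0 0 := by
    have h := (Int.natCast_dvd_natCast.mpr O.dvd).trans
      ((ZMod.intCast_zmod_eq_zero_iff_dvd _ _).mp (Gamma0_mem.mp hmem))
    have e : (γ⁻¹ * lowerT (N1 : ℤ) * γ).1 1 0 = (N1 : ℤ) * (γ.1 0 0 * γ.1 0 0) := by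
      rw [Matrix.SpecialLinearGroup.coe_mul, Matrix.SpecialLinearGroup.coe_mul,
        Matrix.SpecialLinearGroup.coe_inv, coe_lowerT, Matrix.adjugate_fin_two]
      simp [Matrix.mul_apply, Fin.sum_univ_two]
      ring
    rw [e] at h
    have hq' : Prime (q : ℤ) := Nat.prime_iff_prime_int.mp O.prime
    rcases hq'.dvd_or_dvd h with h | h
    · exact absurd (Int.natCast_dvd_natCast.mp h) O.exact_dvd
    · exact (hq'.dvd_or_dvd h).elim id id
  have hg : ((LR.gam0 O.prime O.not_dvd_levN : Gamma0 O.levN) : SL(2, ℤ)) * γ ∈ Gamma0 D.N0 := by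
    refine Gamma0_mem.mpr ((ZMod.intCast_zmod_eq_zero_iff_dvd _ _).mpr ?_)
    conv_lhs => rw [O.eq_mul, Nat.cast_mul]
    have hc : (N1 : ℤ) ∣ γ.1 1 0 := (ZMod.intCast_zmod_eq_zero_iff_dvd _ _).mp (Gamma0_mem.mp hγ1)
    have e : (((LR.gam0 O.prime O.not_dvd_levN : Gamma0 O.levN) : SL(2, ℤ)) * γ).1 1 0 =
        (N1 : ℤ) * D.R * γ.1 0 0 + (q : ℤ) * γ.1 1 0 := by
      rw [Matrix.SpecialLinearGroup.coe_mul]
      simp [LR.gam0, LR.sl, Matrix.mul_apply, Fin.sum_univ_two, levN, hN1]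
    rw [e]
    refine IsCoprime.mul_dvd (Int.isCoprime_iff_nat_coprime.mpr (by
      rw [Int.natAbs_natCast, Int.natAbs_natCast]
      exact (O.prime.coprime_iff_not_dvd.mpr O.exact_dvd).symm))
      (dvd_add ((dvd_mul_right _ _).mul_right _) (hc.mul_left _))
      (dvd_add (hqdvd.mul_left _) (dvd_mul_right _ _))
  rw [← hγ, ← mul_smul, ← _root_.map_mul]
  exact mem_stab.mp (Gamma0_le_stab M D.N0 hg)

theorem gam0_smul_y1Y :
    red M ((LR.gam0 O.prime O.not_dvd_levN : Gamma0 O.levN) : SL(2, ℤ)) • O.y1Y = D.baseY :=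
  Prod.ext O.gam0_smul_y1 (funext fun i => mem_stab.mp (Gamma0_le_stab M _
    (LR.Gamma0_le_of_dvd ((D.Q_dvd_R i).trans (dvd_mul_left _ _)) (LR.gam0 O.prime O.not_dvd_levN).2)))

theorem card_pushY :
    Nat.card {y : D.Y // O.pushY y = (D.lower q O.dvd).baseY} = q + 1 := by
  refine (Nat.card_congr
    { toFun := fun (y : {y : D.Y // O.pushY y = (D.lower q O.dvd).baseY}) => (⟨(y.1.1, D.baseX.2), Prod.ext (congrArg Prod.fst y.2 :) rfl⟩ :
        {x : D.X // O.pushX x = (D.lower q O.dvd).baseX})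
      invFun := fun x => (⟨(x.1.1, fun i => P1.base M (D.Q i)), Prod.ext (congrArg Prod.fst x.2 :) rfl⟩ :
        {y : D.Y // O.pushY y = (D.lower q O.dvd).baseY})
      left_inv := fun y => Subtype.ext (Prod.ext rfl (congrArg Prod.snd y.2).symm)
      right_inv := fun x => Subtype.ext (Prod.ext rfl (congrArg Prod.snd x.2).symm) }).trans
    (O.card_pushX _)

/-- `diag (q, 1)` fixes the base lines -/
theorem beta_smul_base (i : Fin r) : O.beta • P1.base M (D.Q i) = P1.base M (D.Q i) := by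
  rw [P1.smul_base_eq, mem_B0]
  simp [beta]

theorem projXY_move_iff (x : D.X) :
    D.projXY (O.onX.move x) = D.baseY ↔ D.projXY x = O.y1Y := by
  classical
  have h2 : ∀ i, (D.projXY (O.onX.move x)).2 i = O.beta • (D.projXY x).2 i := fun i => by
    show (D.projXY (O.beta • x)).2 i = _
    rw [D.projXY_smul]
    rfl
  constructor
  · intro h
    refine Prod.ext ((O.move_iff_X x).1 (congrArg Prod.fst h)) (funext fun i => ?_)
    have e := congrFun (congrArg Prod.snd h) i
    rw [h2] at e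
    exact MulAction.injective O.beta (e.trans (O.beta_smul_base i).symm)
  · intro h
    refine Prod.ext ((O.move_iff_X x).2 (congrArg Prod.fst h :)) (funext fun i => ?_)
    rw [h2, h]
    exact O.beta_smul_base i

variable {A : Type} [CommRing A] [IsLocalRing A]

theorem evalXY_pullH (a : H1 (funRep A (D.lower q O.dvd).X (M := M))) :
    D.evalXY O.levN_mul A (O.pullH a) =
      opA A (LR.resC (dvd_mul_right O.levN q)) ((D.lower q O.dvd).evalXY O.levN_eq A a) := by
  classical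
  obtain ⟨f, rfl⟩ := Submodule.mkQ_surjective _ a
  refine AddMonoidHom.ext fun x => ?_
  obtain ⟨γ, rfl⟩ := Additive.ofMul.surjective x
  rw [opA_apply, LR.resC_op]
  show funPush A D.projXY (funPull A O.pushX (f.1 γ)) D.baseY =
    funPush A (D.lower q O.dvd).projXY (f.1 γ) (D.lower q O.dvd).baseY
  rw [funPush_eq, funPush_eq, ← Finset.sum_filter, ← Finset.sum_filter]
  refine Finset.sum_bij' (fun x _ => O.pushX x) (fun x _ => ((P1.base M D.N0, x.2) : D.X))
    (fun x hx => ?_) (fun x hx => ?_) (fun x hx => ?_) (fun x hx => ?_) fun x hx => rfl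
  · have e := (Finset.mem_filter.1 hx).2
    refine Finset.mem_filter.2 ⟨Finset.mem_univ _, ?_⟩
    exact (show (D.lower q O.dvd).projXY (O.pushX x) = O.pushY (D.projXY x) from rfl).trans
      (congrArg O.pushY e)
  · have e := (Finset.mem_filter.1 hx).2
    exact Finset.mem_filter.2 ⟨Finset.mem_univ _, Prod.ext rfl (congrArg Prod.snd e :)⟩
  · exact Prod.ext (congrArg Prod.fst (Finset.mem_filter.1 hx).2).symm rfl
  · exact Prod.ext (congrArg Prod.fst (Finset.mem_filter.1 hx).2).symm rfl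

theorem evalXY_unshiftX (z : H1 (funRep A D.X (M := M))) :
    D.evalXY O.levN_mul A (O.unshiftX z) =
      opA A (LR.WC O.prime O.not_dvd_levN) (D.evalXY O.levN_mul A z) := by
  classical
  obtain ⟨f, rfl⟩ := Submodule.mkQ_surjective _ z
  refine AddMonoidHom.ext fun x => ?_
  obtain ⟨γ, rfl⟩ := Additive.ofMul.surjective x
  obtain ⟨σ, g, hr⟩ := (LR.WC O.prime O.not_dvd_levN).exists_rel γ
  have hγ0 : (γ : SL(2, ℤ)) ∈ Gamma0 D.N0 := LR.Gamma0_le_of_dvd (D.N0_dvd_level O.levN_mul) γ.2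
  set δ : SL(2, ℤ) := conjHom O.dvd ⟨_, hγ0⟩ with hδ
  set g0 : SL(2, ℤ) := ((LR.gam0 O.prime O.not_dvd_levN : Gamma0 O.levN) : SL(2, ℤ)) with hg0
  -- the element of the involution
  have hrel : (g () : SL(2, ℤ)) * g0 = g0 * δ := by
    have hdel : LR.emb δ * LR.Dg (q : ℚ) = LR.Dg (q : ℚ) * LR.emb (γ : SL(2, ℤ)) := by
      apply Units.ext
      rw [Units.val_mul, Units.val_mul, LR.Dg, LR.val_gm (by simpa using NeZero.ne q)]
      have e := congrArg (Int.castRingHom ℚ).mapMatrix (conjHom_mul_alphaMat O.dvd ⟨_, hγ0⟩)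
      rw [_root_.map_mul, _root_.map_mul] at e
      have ha : (Int.castRingHom ℚ).mapMatrix (alphaMat q) = !![(q : ℚ), 0; 0, 1] := by
        ext a b
        fin_cases a <;> fin_cases b <;> simp [alphaMat]
      rw [ha] at e
      exact e
    have h := hr ()
    change LR.wQ O.levN q * LR.emb (γ : SL(2, ℤ)) = LR.emb (g () : SL(2, ℤ)) * LR.wQ O.levN q at h
    rw [LR.wQ_eq O.prime O.not_dvd_levN, mul_assoc, ← hdel, LR.embG_apply, ← hg0, ← mul_assoc,
      ← mul_assoc] at h
    exact (LR.emb_injective ((_root_.map_mul LR.emb _ _).trans ((mul_right_cancel h).symm.trans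
      (_root_.map_mul LR.emb _ _).symm))).symm.symm
  rw [opA_apply, LR.Corr.op_apply _ hr, Fintype.sum_unique]
  show funPush A D.projXY ((O.onX.unshiftZ O.move_iff_X f).1 γ) D.baseY =
    (mapZ (D.isTwist_projXY (A := A)) f).1 (g () : SL(2, ℤ)) D.baseY
  -- the cocycle
  set F := mapZ (D.isTwist_projXY (A := A)) f with hF
  have hsmul : (red M g0)⁻¹ • D.baseY = O.y1Y := inv_smul_eq_iff.mpr O.gam0_smul_y1Y.symm
  have h1 := congrFun (congrArg (fun u => F.1 u) hrel) D.baseY
  rw [Z1_apply_mul _ F.2, Z1_apply_mul _ F.2, Pi.add_apply, Pi.add_apply, funRep_apply, funRep_apply,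
    D.inv_smul_baseY O.levN_mul (g ()).2, hsmul] at h1
  rw [show F.1 (g () : SL(2, ℤ)) D.baseY = F.1 δ O.y1Y by linear_combination h1]
  show _ = funPush A D.projXY (f.1 δ) O.y1Y
  rw [funPush_eq, funPush_eq, ← O.onX.move_bij.sum_comp]
  refine Finset.sum_congr rfl fun x _ => ?_
  by_cases h : D.projXY x = O.y1Y
  · rw [if_pos h, if_pos ((O.projXY_move_iff x).2 h),
      ShiftPt.On.unshiftZ_base O.onX O.move_iff_X f ⟨_, hγ0⟩
        (congrArg Prod.fst ((O.projXY_move_iff x).2 h) :),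
      Equiv.ofBijective_symm_apply_apply]
  · rw [if_neg h, if_neg fun e => h ((O.projXY_move_iff x).1 e)]

theorem evalXY_pushH (z : H1 (funRep A D.X (M := M))) :
    (D.lower q O.dvd).evalXY O.levN_eq A (O.pushH z) =
      opA A (LR.epsC O.prime O.not_dvd_levN) (D.evalXY O.levN_mul A z) := by
  classical
  obtain ⟨f, rfl⟩ := Submodule.mkQ_surjective _ z
  refine AddMonoidHom.ext fun x => ?_
  obtain ⟨γ, rfl⟩ := Additive.ofMul.surjective x
  obtain ⟨σ, g, hr⟩ := (LR.epsC O.prime O.not_dvd_levN).exists_rel γ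
  rw [opA_apply, LR.Corr.op_apply _ hr]
  show funPush A (D.lower q O.dvd).projXY (funPush A O.pushX (f.1 γ)) (D.lower q O.dvd).baseY =
    ∑ i, (mapZ (D.isTwist_projXY (A := A)) f).1 (g i : SL(2, ℤ)) D.baseY
  rw [funPush_funPush, show (D.lower q O.dvd).projXY ∘ O.pushX = O.pushY ∘ D.projXY from rfl,
    ← funPush_funPush]
  set F := mapZ (D.isTwist_projXY (A := A)) f with hF
  set k : OnePoint (ZMod q) → SL(2, ℤ) := fun i => LR.epsSL O.levN q i with hk
  have hg : ∀ i, k i * (γ : SL(2, ℤ)) = (g i : SL(2, ℤ)) * k (σ i) := fun i => LR.emb_injective (by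
    rw [_root_.map_mul, _root_.map_mul]
    exact hr i)
  rw [(sum_transfer F D.baseY k γ σ (fun i => (g i : SL(2, ℤ))) hg
    fun i => mem_stab.mpr (D.smul_baseY O.levN_mul (g i).2)).1]
  show funPush A O.pushY (F.1 γ) _ = _
  rw [funPush_sum_subtype]
  let ν : OnePoint (ZMod q) → {y : D.Y // O.pushY y = (D.lower q O.dvd).baseY} := fun i =>
    ⟨(red M (k i))⁻¹ • D.baseY, by
      rw [O.pushY_smul, O.pushY_baseY]
      exact (D.lower q O.dvd).inv_smul_baseY O.levN_eq (LR.epsSL_mem i)⟩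
  have hν : Function.Bijective ν := by
    refine (Fintype.bijective_iff_injective_and_card ν).2 ⟨fun i j h => ?_, ?_⟩
    · refine LR.eps_sep O.prime O.not_dvd_levN ?_
      have h' := congrArg (fun y : {y : D.Y // O.pushY y = (D.lower q O.dvd).baseY} => y.1.1) h
      change (red M (k i))⁻¹ • P1.base M D.N0 = (red M (k j))⁻¹ • P1.base M D.N0 at h'
      have hm : k i * (k j)⁻¹ ∈ Gamma0 D.N0 := (stab_base (M := M) D.dvd0).le (mem_stab.mpr (by
        rw [_root_.map_mul, _root_.map_inv, mul_smul, ← h', smul_inv_smul]))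
      exact (Int.natCast_dvd_natCast.mpr O.dvd).trans
        ((ZMod.intCast_zmod_eq_zero_iff_dvd _ _).mp (Gamma0_mem.mp hm))
    · rw [← Nat.card_eq_fintype_card (α := {y : D.Y // O.pushY y = (D.lower q O.dvd).baseY}), O.card_pushY]
      exact (Fintype.card_option (α := ZMod q)).trans (by rw [ZMod.card])
  exact (Fintype.sum_bijective ν hν _ _ fun i => rfl).symm

end OldPrime

end FLTAgent.LL

end
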