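import Fermat.Agent.MLT.TameUnipotent
import Fermat.Agent.S58.Transfer
import Fermat.Agent.Attach.Residual
import Fermat.Agent.SS2.NotUnipotent
import Fermat.Agent.Local.API
import Fermat.Prelude.Def_FLTPrelim_ModularRep

/-!
Area MLT, parcel C1: a prime `q` with `q² ≢ 1 (mod p)` divides the level of residual modularity of
a semistable curve at most once, when the level is cube-free away from `p`.

A newform of the eigensystem whose level still had `q²` would give a representation that is not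
unipotent on inertia at `q`, while its reduction is that of the curve, which is unipotent there.
-/

set_option autoImplicit false
set_option linter.unusedSectionVars false
set_option linter.style.haveILetI false

noncomputable section

open IsLocalRing Polynomial WeierstrassCurve
open FLTAgent.Local FLTAgent.Torsion
open FLTAgent.Attach (cyc powerTrace TFull)
open scoped WeierstrassCurve.Affine
open WeierstrassCurve.Affine.Point (galoisRepModuleEnd galoisRepModuleEnd_apply)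

namespace FLTAgent.MLT

local notation "Ω" => AlgebraicClosure ℚ
local notation "GalQ" => AlgebraicClosure ℚ ≃ₐ[ℚ] AlgebraicClosure ℚ

variable {W : WeierstrassCurve ℤ} {F : Type} [Field F]

/-- the representation has the Frobenius polynomials of `W` outside `S` -/
def ResMatches (W : WeierstrassCurve ℤ) (ρ : ResidualGaloisRep F) (S : Finset ℕ) : Prop :=
  ∀ ℓ : ℕ, ℓ.Prime → ℓ ∉ S → ¬ (ℓ : ℤ) ∣ W.Δ → ∀ A : ValuationSubring Ω, A.LiesOverPrime ℓ →
    ∀ τ : GalQ, A.IsFrobeniusAt τ ℓ →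
      LinearMap.charpoly (ρ.ρ τ) = X ^ 2 - C ((W.apOfModel ℓ : ℤ) : F) * X + C (ℓ : F)

theorem res_exists_relation (hΔ : W.Δ ≠ 0) {r : ℕ} (hr : r.Prime) [NeZero r]
    {ρ : ResidualGaloisRep F} {S : Finset ℕ} (hρ : ResMatches W ρ S) (σ : GalQ) :
    ∃ a d : ℤ, (∀ P : QPoint W, r • P = 0 → σ • (σ • P) - a • (σ • P) + d • P = 0) ∧
      (d : ZMod r) = cyc r σ ∧ LinearMap.trace F ρ.V (ρ.ρ σ) = (a : F) ∧
      LinearMap.det (ρ.ρ σ) = (d : F) := by
  classical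
  obtain ⟨L1, hL1, h1⟩ := EllFrob.exists_torsion_field hΔ r (NeZero.ne _)
  obtain ⟨L2, hL2, h2⟩ := Attach.exists_cyc_level r
  obtain ⟨L3, hL3, h3⟩ := ρ.factorsThroughFiniteLevel
  haveI := hL1; haveI := hL2; haveI := hL3
  obtain ⟨ℓ, A, τ, k, hℓ, hℓS, hA, hτ, hagree⟩ :=
    FLTAgent.Chebotarev.exists_frobenius_pow (L1 ⊔ L2 ⊔ L3) σ
      (insert r (S ∪ W.Δ.natAbs.primeFactors))
  simp only [Finset.mem_insert, Finset.mem_union, Nat.mem_primeFactors, not_or] at hℓS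
  obtain ⟨hℓr, hℓS, hℓΔ⟩ := hℓS
  have hgood : ¬ (ℓ : ℤ) ∣ W.Δ := fun h => hℓΔ ⟨hℓ, Int.natCast_dvd.1 h, by simpa using hΔ⟩
  have hℓn : ¬ ℓ ∣ r := fun h => hℓr ((Nat.prime_dvd_prime_iff_eq hℓ hr).1 h)
  set g : GalQ := σ⁻¹ * τ ^ k with hg
  have hτk : τ ^ k = σ * g := by rw [hg, mul_inv_cancel_left]
  have hfix : ∀ y ∈ L1 ⊔ L2 ⊔ L3, g y = y := fun y hy => by
    rw [hg, AlgEquiv.mul_apply, hagree y hy]
    exact σ.symm_apply_apply y
  have hρσ : ρ.ρ σ = ρ.ρ (τ ^ k) := by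
    rw [hτk, map_mul, h3 g fun y hy => hfix y (le_sup_right (a := L1 ⊔ L2) hy), mul_one]
  have hch := hρ ℓ hℓ hℓS hgood A hA τ hτ
  refine ⟨powerTrace (W.apOfModel ℓ) (ℓ : ℤ) k, (ℓ : ℤ) ^ k, fun P hP => ?_, ?_, ?_, ?_⟩
  · set G := galoisRepModuleEnd ℚ (K := Ω) (W.map (Int.castRingHom ℚ)) r
    have hrel : G τ * G τ - W.apOfModel ℓ • G τ + (ℓ : ℤ) • 1 = 0 := by
      refine LinearMap.ext fun x => Subtype.ext ?_
      simp only [LinearMap.add_apply, LinearMap.sub_apply, LinearMap.smul_apply,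
        Module.End.mul_apply, Module.End.one_apply, LinearMap.zero_apply, Submodule.coe_add,
        Submodule.coe_sub, Submodule.coe_smul_of_tower, ZeroMemClass.coe_zero, G,
        galoisRepModuleEnd_apply, coe_smul]
      exact EllFrob.torsion_relation hℓ hgood hA hτ hℓn _ (nsmul_tors x)
    have hk := SS2.quadratic_pow hrel k
    rw [← map_pow] at hk
    have hx := congrArg (fun x : Tors W r => (x : QPoint W))
      (LinearMap.congr_fun hk (mkTors P hP))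
    have hσ : ∀ x : Tors W r, τ ^ k • x = σ • x := fun x => h1 _ _ (fun z hz =>
      hagree z (le_sup_left (a := L1 ⊔ L2) (le_sup_left (a := L1) hz))) x
    simp only [LinearMap.add_apply, LinearMap.sub_apply, LinearMap.smul_apply,
      Module.End.mul_apply, Module.End.one_apply, LinearMap.zero_apply, Submodule.coe_add,
      Submodule.coe_sub, Submodule.coe_smul_of_tower, ZeroMemClass.coe_zero, G,
      galoisRepModuleEnd_apply, hσ, coe_smul] at hx
    exact hx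
  · have e : cyc r (τ ^ k) = cyc r σ := by
      rw [hτk, Attach.cyc_mul, h2 g fun y hy =>
        hfix y (le_sup_left (a := L1 ⊔ L2) (le_sup_right (a := L1) hy)), mul_one]
    rw [← e, EllFrob.cyc_pow, Attach.cyc_frobenius hℓ hℓn hA hτ]
    push_cast
    rfl
  · rw [hρσ, map_pow, Attach.trace_pow_eq ρ.finrank_eq hch k, ← eq_intCast (Int.castRingHom F),
      ← eq_intCast (Int.castRingHom F), Attach.map_powerTrace, map_natCast]
  · rw [hρσ, map_pow, map_pow, SS.det_of_charpoly ρ.finrank_eq hch]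
    push_cast
    rfl

/-- at a good prime the trace is `a_q` -/
theorem res_trace_good (hΔ : W.Δ ≠ 0) {r : ℕ} (hr : r.Prime) (hrF : (r : F) = 0)
    {ρ : ResidualGaloisRep F} {S : Finset ℕ} (hρ : ResMatches W ρ S) {q : ℕ} (hq : q.Prime)
    (hgood : ¬ (q : ℤ) ∣ W.Δ) (hqr : q ≠ r) {A : ValuationSubring Ω} (hA : A.LiesOverPrime q)
    {σ : GalQ} (hσ : A.IsFrobeniusAt σ q) :
    LinearMap.trace F ρ.V (ρ.ρ σ) = ((W.apOfModel q : ℤ) : F) := by
  haveI : NeZero r := ⟨hr.ne_zero⟩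
  have hqn : ¬ q ∣ r := fun h => hqr ((Nat.prime_dvd_prime_iff_eq hq hr).1 h)
  obtain ⟨a, d, hrel, hd, ht, -⟩ := res_exists_relation hΔ hr hρ σ
  rw [Attach.cyc_frobenius hq hqn hA hσ] at hd
  obtain ⟨c, hc⟩ : (r : ℤ) ∣ a - W.apOfModel q := by
    refine S58.dvd_of_forall_zsmul hΔ hr.ne_zero fun P hP => ?_
    obtain ⟨Q, rfl⟩ : ∃ Q, σ • Q = P := ⟨σ⁻¹ • P, smul_inv_smul σ P⟩
    have hQ : r • Q = 0 := by
      have := smul_torsion (σ := σ⁻¹) hP
      rwa [inv_smul_smul] at this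
    have e1 := hrel Q hQ
    have e2 := EllFrob.torsion_relation hq hgood hA hσ hqn Q hQ
    rw [S58.zsmul_eq_of_cast_eq hQ (show ((d : ℤ) : ZMod r) = ((q : ℤ) : ZMod r) by
      rw [hd, Int.cast_natCast])] at e1
    rw [sub_zsmul, ← sub_eq_add_neg]
    linear_combination (norm := abel) e2 - e1
  rw [ht, ← sub_eq_zero, ← Int.cast_sub, hc, Int.cast_mul, Int.cast_natCast, hrF, zero_mul]

/-- at a prime of semistable reduction away from `r` inertia is unipotent -/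
theorem res_inertia (hΔ : W.Δ ≠ 0) {r : ℕ} (hr : r.Prime) (hr2 : r ≠ 2) (hrF : (r : F) = 0)
    {ρ : ResidualGaloisRep F} {S : Finset ℕ} (hρ : ResMatches W ρ S) {q : ℕ} (hq : q.Prime)
    (hss : SemistableAt W q) (hqr : q ≠ r) {A : ValuationSubring Ω} (hA : A.LiesOverPrime q)
    {σ : GalQ} (hσ : σ ∈ A.inertiaSubgroupIn ℚ) :
    LinearMap.trace F ρ.V (ρ.ρ σ) = 2 ∧ LinearMap.det (ρ.ρ σ) = 1 := by
  haveI : NeZero r := ⟨hr.ne_zero⟩
  have hqn : ¬ q ∣ r := fun h => hqr ((Nat.prime_dvd_prime_iff_eq hq hr).1 h)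
  obtain ⟨a, d, hrel, hd, ht, hdet⟩ := res_exists_relation hΔ hr hρ σ
  rw [Attach.cyc_inertia hq hqn hA hσ] at hd
  obtain ⟨c, hc⟩ : (r : ℤ) ∣ 2 - a := by
    refine S58.dvd_of_forall_zsmul hΔ hr.ne_zero fun P hP => ?_
    obtain ⟨Q, rfl⟩ : ∃ Q, σ • Q = P := ⟨σ⁻¹ • P, smul_inv_smul σ P⟩
    have hQ : r • Q = 0 := by
      have := smul_torsion (σ := σ⁻¹) hP
      rwa [inv_smul_smul] at this
    have e1 := hrel Q hQ
    have e2 := inertia_unipotent hA hq hss hr hr2 hqr hσ hQ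
    rw [smul_sub] at e2
    rw [S58.zsmul_eq_of_cast_eq hQ (show ((d : ℤ) : ZMod r) = ((1 : ℤ) : ZMod r) by
      rw [hd, Int.cast_one]), one_zsmul] at e1
    rw [sub_zsmul, two_zsmul, ← sub_eq_add_neg]
    linear_combination (norm := abel) e1 - e2
  refine ⟨?_, ?_⟩
  · have h := congrArg (fun z : ℤ => (z : F)) hc
    push_cast at h
    rw [hrF, zero_mul, sub_eq_zero] at h
    rw [ht, h]
  · obtain ⟨e, he⟩ := (ZMod.intCast_eq_intCast_iff_dvd_sub d 1 r).1 (by rw [hd, Int.cast_one])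
    have h := congrArg (fun z : ℤ => (z : F)) he
    push_cast at h
    rw [hrF, zero_mul, sub_eq_zero] at h
    rw [hdet, ← h]

variable {M : ℕ} [NeZero M]

/-- a `p`-adic point of an eigencharacter over a given maximal ideal -/
theorem exists_point_over (χ : TFull M →+* integralClosure ℤ ℂ) {p : ℕ} (hp : p.Prime)
    (𝔪 : Ideal (integralClosure ℤ ℂ)) [h𝔪 : 𝔪.IsMaximal] (hpm : (p : integralClosure ℤ ℂ) ∈ 𝔪) :
    ∃ (O : Type) (_ : CommRing O) (_ : IsDomain O) (_ : IsDiscreteValuationRing O)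
      (_ : IsAdicComplete (maximalIdeal O) O) (_ : Finite (ResidueField O)) (_ : CharZero O),
      (p : O) ∈ maximalIdeal O ∧ ∃ f : TFull M →+* O,
        (∀ t, f t = 0 → χ t = 0) ∧ ∀ t, f t ∈ maximalIdeal O ↔ χ t ∈ 𝔪 := by
  haveI : Fact p.Prime := ⟨hp⟩
  haveI := Attach.finite_TFull M
  let K := integralClosure ℤ ℂ ⧸ 𝔪
  letI : Field K := Ideal.Quotient.field 𝔪
  haveI : CharP K p := (CharP.charP_iff_prime_eq_zero hp).2 (by
    rw [← map_natCast (Ideal.Quotient.mk 𝔪)]; exact Ideal.Quotient.eq_zero_iff_mem.2 hpm)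
  haveI : Module.Finite ℤ χ.range :=
    Module.Finite.of_surjective χ.rangeRestrict.toIntAlgHom.toLinearMap χ.rangeRestrict_surjective
  haveI : CharZero (integralClosure ℤ ℂ) :=
    ⟨fun a b h => Nat.cast_injective (R := ℂ) (by simpa using congrArg Subtype.val h)⟩
  haveI : CharZero χ.range := ⟨fun a b h =>
    Nat.cast_injective (R := integralClosure ℤ ℂ) (by simpa using congrArg Subtype.val h)⟩
  haveI : Module.IsTorsionFree ℤ χ.range :=
    Attach.isTorsionFree_of_injective (algebraMap ℤ χ.range).injective_int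
  obtain ⟨O, i1, i2, i3, i4, i5, i6, hpO, f, j, hj⟩ :=
    Attach.exists_adic_lift (T := χ.range) (p := p) ((Ideal.Quotient.mk 𝔪).comp χ.range.subtype)
  haveI : Algebra.IsIntegral ℤ χ.range := Algebra.IsIntegral.of_finite ℤ _
  have hinj : Function.Injective f := by
    rw [RingHom.injective_iff_ker_eq_bot]
    haveI := RingHom.ker_isPrime f
    refine Ideal.eq_bot_of_comap_eq_bot (R := ℤ) ?_
    rw [eq_bot_iff]
    intro z hz
    rw [Ideal.mem_comap, RingHom.mem_ker, eq_intCast, map_intCast] at hz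
    exact Int.cast_eq_zero.mp hz
  refine ⟨O, i1, i2, i3, i4, i5, i6, hpO, f.comp χ.rangeRestrict, fun t ht => ?_, fun t => ?_⟩
  · exact congrArg Subtype.val (hinj (ht.trans (map_zero f).symm))
  · rw [RingHom.comp_apply, ← residue_eq_zero_iff, ← map_eq_zero j, hj, map_eq_zero,
      RingHom.comp_apply, Ideal.Quotient.eq_zero_iff_mem]
    rfl

/-- a newform with unipotent reduction at `q`, `q² ≢ 1`, has level with `q` at most once -/
theorem not_sq_dvd_newform (hΔ : W.Δ ≠ 0) (hss : W.IsSemistableModel) {p q N : ℕ} [NeZero N]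
    (hp : p.Prime) (hp2 : p ≠ 2) (hq : q.Prime) (hqp : q ≠ p) (h1 : ¬ p ∣ q ^ 2 - 1)
    (hq3 : ¬ q ^ 3 ∣ N) {g : Attach.S2 N} (hg : g.IsNewform)
    (χ : TFull N →+* integralClosure ℤ ℂ)
    (hχ : ∀ (ℓ : ℕ) (hℓ : ℓ.Prime) (hℓN : ¬ ℓ ∣ N),
      (χ (CuspForm.heckeAlgebra.T hℓ hℓN (Set.notMem_empty _)) : ℂ) = ModularFormClass.qCoeff g ℓ)
    {O : Type} [CommRing O] [IsDomain O] [IsDiscreteValuationRing O]
    [IsAdicComplete (maximalIdeal O) O] [Finite (ResidueField O)] [CharZero O]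
    (hpO : (p : O) ∈ maximalIdeal O) (φ : TFull N →+* O) (hφ0 : ∀ t, φ t = 0 → χ t = 0)
    (ρ : GaloisRepAdic O)
    (hρ : ∀ (ℓ : ℕ) (hℓ : ℓ.Prime) (hℓN : ¬ ℓ ∣ N), ℓ ≠ p →
      ∀ A : ValuationSubring Ω, A.LiesOverPrime ℓ → ∀ τ : GalQ, A.IsFrobeniusAt τ ℓ →
        LinearMap.charpoly (ρ.ρ τ) =
          X ^ 2 - C (φ (CuspForm.heckeAlgebra.T hℓ hℓN (Set.notMem_empty _))) * X + C (ℓ : O))
    {S : Finset ℕ} (hres : ResMatches W ρ.residual S) : ¬ q ^ 2 ∣ N := by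
  intro hq2
  haveI : NeZero q := ⟨hq.ne_zero⟩
  obtain ⟨M0, hM0eq⟩ := hq2
  have hqM0 : ¬ q ∣ M0 := by
    rintro ⟨c, rfl⟩
    exact hq3 ⟨c, by rw [hM0eq]; ring⟩
  obtain rfl : N = M0 * q * q := by rw [hM0eq]; ring
  haveI : NeZero M0 := ⟨fun h => NeZero.ne (M0 * q * q) (by rw [h, zero_mul, zero_mul])⟩
  refine SS2.not_unipotent hq hqM0 hp hqp hpO hg χ hχ φ hφ0 ρ {p}
    (fun ℓ hℓ hℓN hℓS => hρ ℓ hℓ hℓN fun h => hℓS (Finset.mem_singleton.2 h))
    (unipotent_of_residual hp hq hqp hpO h1 ρ fun B hB τ hτ => ?_)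
  have hpF : (p : ResidueField O) = 0 := by
    rw [← map_natCast (residue O), residue_eq_zero_iff]; exact hpO
  have h := res_inertia hΔ hp hp2 hpF hres hq (hss q hq) hqp hB hτ
  change LinearMap.trace _ _ ((ρ.ρ τ).baseChange (ResidueField O)) = 2 ∧
    LinearMap.det ((ρ.ρ τ).baseChange (ResidueField O)) = 1 at h
  rw [LinearMap.trace_baseChange, LinearMap.det_baseChange, IsLocalRing.ResidueField.algebraMap_eq] at h
  exact h

/-- primes `q` with `q² ≢ 1` divide a residually modular cube-free level at most once -/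
theorem exists_drop_square (hΔ : W.Δ ≠ 0) (hss : W.IsSemistableModel) {p : ℕ} (hp : p.Prime)
    (hp2 : p ≠ 2) (hmod : W.IsResiduallyModularOfLevel p M)
    (hM3 : ∀ q : ℕ, q.Prime → q ≠ p → ¬ q ^ 3 ∣ M) :
    ∃ M' : ℕ, M' ∣ M ∧ 0 < M' ∧ W.IsResiduallyModularOfLevel p M' ∧
      ∀ q : ℕ, q.Prime → q ≠ p → ¬ p ∣ q ^ 2 - 1 → ¬ q ^ 2 ∣ M' := by
  classical
  obtain ⟨f, 𝔪, hf, hmax, hpm, hcong⟩ := hmod
  have hM0 : M ≠ 0 := NeZero.ne M
  have hex : ∃ M', M' ∣ M ∧ CuspForm.GoodEigensystemOccursAt f M' :=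
    ⟨M, dvd_rfl, CuspForm.GoodEigensystemOccursAt.refl hf⟩
  obtain ⟨hMN, g, hg, hgf⟩ := Nat.find_spec hex
  haveI : NeZero (Nat.find hex) := ⟨fun h => hM0 (Nat.eq_zero_of_zero_dvd (h ▸ hMN))⟩
  have hnew : g.IsNewform := by
    refine ⟨hg, fun M' hd hne => ?_⟩
    rintro ⟨g', hg', hg'g⟩
    have hlt : M' < Nat.find hex :=
      lt_of_le_of_ne (Nat.le_of_dvd (Nat.pos_of_ne_zero (NeZero.ne _)) hd) hne
    exact Nat.find_min hex hlt ⟨hd.trans hMN, g', hg', fun ℓ hℓ hℓN =>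
      (hg'g ℓ hℓ fun h => hℓN (h.trans hMN)).trans (hgf ℓ hℓ hℓN)⟩
  obtain ⟨χ, hχ⟩ := Attach.exists_eigenCharacter hg
  haveI := hmax
  obtain ⟨O, iC, iD, iV, iA, iF, iZ, hpO, φ, hφ0, hφm⟩ := exists_point_over χ hp 𝔪 hpm
  obtain ⟨D⟩ := Attach.exists_heckeLattice (Nat.find hex)
  obtain ⟨ρ, hρ, -⟩ := Attach.exists_galoisRepAdic hp hpO D (Attach.galoisInputs _) φ
  have hpF : (p : ResidueField O) = 0 := by
    rw [← map_natCast (residue O), residue_eq_zero_iff]; exact hpO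
  have hresch : ∀ (ℓ : ℕ) (hℓ : ℓ.Prime) (hℓN : ¬ ℓ ∣ Nat.find hex), ℓ ≠ p →
      ∀ A : ValuationSubring Ω, A.LiesOverPrime ℓ → ∀ τ : GalQ, A.IsFrobeniusAt τ ℓ →
        LinearMap.charpoly (ρ.residual.ρ τ) =
          X ^ 2 - C (residue O (φ (CuspForm.heckeAlgebra.T hℓ hℓN (Set.notMem_empty _)))) * X +
            C (ℓ : ResidueField O) := by
    intro ℓ hℓ hℓN hℓp A hA τ hτ
    change LinearMap.charpoly ((ρ.ρ τ).baseChange (ResidueField O)) = _
    rw [LinearMap.charpoly_baseChange, hρ ℓ hℓ hℓN hℓp A hA τ hτ]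
    simp [IsLocalRing.ResidueField.algebraMap_eq]
  have hmatch : ResMatches W ρ.residual (insert p M.primeFactors) := by
    intro ℓ hℓ hℓS hgood A hA τ hτ
    simp only [Finset.mem_insert, Nat.mem_primeFactors, not_or] at hℓS
    have hℓM : ¬ ℓ ∣ M := fun h => hℓS.2 ⟨hℓ, h, hM0⟩
    have hℓN : ¬ ℓ ∣ Nat.find hex := fun h => hℓM (h.trans hMN)
    obtain ⟨a, ha, ham⟩ := hcong ℓ hℓ hgood hℓM hℓS.1
    have e : residue O (φ (CuspForm.heckeAlgebra.T hℓ hℓN (Set.notMem_empty _))) =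
        ((W.apOfModel ℓ : ℤ) : ResidueField O) := by
      rw [← sub_eq_zero, ← map_intCast (residue O), ← map_sub, residue_eq_zero_iff,
        ← map_intCast φ, ← map_sub, hφm, map_sub, map_intCast]
      rwa [show χ (CuspForm.heckeAlgebra.T hℓ hℓN (Set.notMem_empty _)) = a from
        Subtype.ext ((hχ ℓ hℓ hℓN).trans ((hgf ℓ hℓ hℓM).trans ha.symm))]
    rw [hresch ℓ hℓ hℓN hℓS.1 A hA τ hτ, e]
  refine ⟨Nat.find hex, hMN, Nat.pos_of_ne_zero (NeZero.ne _), ⟨g, 𝔪, hg, hmax, hpm, ?_⟩, ?_⟩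
  · intro ℓ hℓ hgood hℓN hℓp
    refine ⟨χ (CuspForm.heckeAlgebra.T hℓ hℓN (Set.notMem_empty _)), hχ ℓ hℓ hℓN, ?_⟩
    obtain ⟨A, σ, hA, hσ⟩ := Alg.exists_place_frobenius ℓ hℓ
    have h := res_trace_good hΔ hp hpF hmatch hℓ hgood hℓp hA hσ
    rw [SS.trace_of_charpoly ρ.residual.finrank_eq (hresch ℓ hℓ hℓN hℓp A hA σ hσ),
      ← map_intCast (residue O), ← sub_eq_zero, ← map_sub, residue_eq_zero_iff, ← map_intCast φ,
      ← map_sub, hφm, map_sub, map_intCast] at h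
    exact h
  · intro q hq hqp h1
    exact not_sq_dvd_newform hΔ hss hp hp2 hq hqp h1 (fun h => hM3 q hq hqp (h.trans hMN)) hnew χ hχ
      hpO φ hφ0 ρ hρ hmatch

end FLTAgent.MLT

end
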