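import Fermat.Agent.MLT.World
import Fermat.Agent.S58.Level
import Fermat.Prelude.Def_WeierstrassCurve_Mlc1RowStatement

/-!
Area MLT, top: agreement away from a finite set at the conductor level gives the exact statement.
-/

set_option autoImplicit false

noncomputable section

open WeierstrassCurve

namespace FLTAgent.MLT

/-- a form at a cube-free level agreeing away from a finite set gives the exact conductor level -/
theorem exact_of_modularAway {W : WeierstrassCurve ℤ} (hΔ : W.Δ ≠ 0) (hW : W.IsSemistableModel)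
    {N : ℕ} [NeZero N] (hN3 : ∀ q : ℕ, q.Prime → ¬ q ^ 3 ∣ N) (h : ModularAway W N) :
    Mlc1IsModularModelOfExactConductorLevel W := by
  classical
  obtain ⟨S, f, hf, hfa⟩ := h
  have hN0 : N ≠ 0 := NeZero.ne N
  have hex : ∃ M, M ∣ N ∧ CuspForm.GoodEigensystemOccursAt f M :=
    ⟨N, dvd_rfl, CuspForm.GoodEigensystemOccursAt.refl hf⟩
  obtain ⟨hMN, g, hg, hgf⟩ := Nat.find_spec hex
  haveI : NeZero (Nat.find hex) := ⟨fun h => hN0 (Nat.eq_zero_of_zero_dvd (h ▸ hMN))⟩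
  have hnew : g.IsNewform := by
    refine ⟨hg, fun M' hd hne => ?_⟩
    rintro ⟨g', hg', hg'g⟩
    have hlt : M' < Nat.find hex :=
      lt_of_le_of_ne (Nat.le_of_dvd (Nat.pos_of_ne_zero (NeZero.ne _)) hd) hne
    exact Nat.find_min hex hlt ⟨hd.trans hMN, g', hg', fun ℓ hℓ hℓN =>
      (hg'g ℓ hℓ fun h => hℓN (h.trans hMN)).trans (hgf ℓ hℓ hℓN)⟩
  have hS : ∀ ℓ : ℕ, ℓ.Prime → ℓ ∉ S ∪ N.primeFactors → ¬ (ℓ : ℤ) ∣ W.Δ → ¬ ℓ ∣ Nat.find hex →
      ModularFormClass.qCoeff g ℓ = ((W.apOfModel ℓ : ℤ) : ℂ) := by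
    intro ℓ hℓ hℓS hgood _
    rw [Finset.mem_union, not_or] at hℓS
    have hℓN : ¬ ℓ ∣ N := fun h => hℓS.2 (Nat.mem_primeFactors.2 ⟨hℓ, h, hN0⟩)
    exact (hgf ℓ hℓ hℓN).trans (hfa ℓ hℓ hℓS.1 hgood hℓN)
  have hM := FLTAgent.S58.level_eq_conductorLevel hnew hΔ hW (S ∪ N.primeFactors) hS
    fun q hq hd => hN3 q hq (hd.trans hMN)
  refine ⟨W.conductorLevel, W.conductorLevel_pos, W.squarefree_conductorLevel,
    fun q hq => W.prime_dvd_conductorLevel_iff hΔ hq, ?_⟩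
  rw [← hM]
  exact ⟨g, hg, fun ℓ hℓ hgood hℓM =>
    FLTAgent.S58.qCoeff_eq hnew hΔ (S ∪ N.primeFactors) hS hℓ hgood hℓM⟩

end FLTAgent.MLT

end
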