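import Fermat.Agent.MLT.TresFlat
import Fermat.Agent.PT.TW.Conditions
import Fermat.Agent.EllFrob.DetCyc

/-!
Area MLT, parcel POINT (STRICTW): at a place over `p` of multiplicative reduction the `p ^ n`-torsion
is strictly ordinary.

The line is the torsion of the identity component. A decomposition element keeps the valuation of
abscissas, so moves a point of odd order into plus or minus itself modulo that component; inertia
moves it into itself, as it does so for `p`-torsion. The line has order `p ^ n` as otherwise inertia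
would fix all the `p`-torsion.
-/

set_option autoImplicit false
set_option linter.unusedSectionVars false
set_option linter.style.haveILetI false

noncomputable section

open WeierstrassCurve IsLocalRing
open FLTAgent.Local FLTAgent.Torsion FLTAgent.TOR
open FLTAgent.Attach (cyc cyc_spec)
open WeierstrassCurve.Affine.Point (galoisRepModuleEnd galoisRepModuleEnd_apply)
open scoped WeierstrassCurve.Affine

namespace FLTAgent.MLT

open FLTAgent.Reduction (Qb)

local notation "GalQ" => AlgebraicClosure ℚ ≃ₐ[ℚ] AlgebraicClosure ℚ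

section Model

variable {K : Type*} [Field K] {A : ValuationSubring K} [DecidableEq K] [CharZero K] [IsAlgClosed K]
  [DecidableEq (ResidueField A)] {W0 : WeierstrassCurve A}

/-- points of odd order avoid the middle component -/
theorem nonMid_of_odd (hW : Nodal W0) {m : ℕ} (hm : Odd m) {P : (genFib W0).toAffine.Point}
    (hP : m • P = 0) : NonMid P := by
  intro h1
  by_contra h2
  push Not at h2
  have h0 := hW.double_middle h1 h2
  obtain ⟨t, rfl⟩ := hm
  have hmem : t • (P + P) ∈ compZero W0 := (compZero W0).nsmul_mem h0 t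
  refine hW.inE0_iff.1 ?_ h1
  have e : P = -(t • (P + P)) := by
    rw [eq_neg_iff_add_eq_zero, ← two_nsmul, ← mul_nsmul, add_comm, ← succ_nsmul]
    exact hP
  rw [e]
  exact inE0_neg hmem

/-- points of odd order with abscissas of one valuation agree up to sign modulo the identity component -/
theorem add_or_sub_of_odd (hW : Nodal W0) {m : ℕ} (hm : Odd m)
    {P Q : (genFib W0).toAffine.Point} (hP : m • P = 0) (hQ : m • Q = 0)
    (h : dist1 P = dist1 Q) : InE0 (P + Q) ∨ InE0 (P - Q) := by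
  by_cases P0 : InE0 P
  · have Q0 : InE0 Q := hW.inE0_iff.2 (h ▸ hW.inE0_iff.1 P0)
    exact Or.inl ((compZero W0).add_mem P0 Q0)
  have P1 : dist1 P < 1 := by rwa [hW.inE0_iff, not_not] at P0
  have Q1 : dist1 Q < 1 := h ▸ P1
  have n := nonMid_of_odd hW hm hQ
  have hY0 : dist1 Q ≠ 0 := fun e => by
    have := n Q1; rw [e, zero_pow two_ne_zero] at this; exact not_lt_zero this
  rcases hW.pair P1 Q1 h.ge n
      (nonMid_of_odd hW hm (by rw [nsmul_add, hP, hQ, add_zero] : m • (P + Q) = 0))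
      (nonMid_of_odd hW hm (by rw [nsmul_sub, hP, hQ, sub_zero] : m • (P - Q) = 0)) with
    ⟨e, -⟩ | ⟨e, -⟩
  · left
    rw [hW.inE0_iff, e, h, div_self hY0]; exact lt_irrefl 1
  · right
    rw [hW.inE0_iff, e, h, div_self hY0]; exact lt_irrefl 1

theorem dist1_image {σ : K →+* K} (hσ : ∀ z, A.valuation (σ z) = A.valuation z)
    {P P' : (genFib W0).toAffine.Point} (hI : IsImage σ P P') : dist1 P' = dist1 P := by
  rcases P with _ | ⟨x, y, h⟩ <;> rcases P' with _ | ⟨x', y', h'⟩
  · rfl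
  · exact hI.elim
  · exact hI.elim
  · obtain ⟨rfl, rfl⟩ := hI; simp only [dist1, hσ]

end Model

variable {W : WeierstrassCurve ℤ} {A : ValuationSubring Qb} {p : ℕ}

local instance decEqResStrict (B : ValuationSubring Qb) : DecidableEq (ResidueField B) :=
  Classical.decEq _

/-- multiplicative reduction at a place over `p` -/
structure MultAt (W : WeierstrassCurve ℤ) (A : ValuationSubring Qb) (p : ℕ) : Prop where
  prime : p.Prime
  ne_two : p ≠ 2
  lies : A.LiesOverPrime p
  Δ_ne : W.Δ ≠ 0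
  dvd : (p : ℤ) ∣ W.Δ
  ss : SemistableAt W p

theorem smul_add_point (σ : GalQ) (P Q : QPoint W) : σ • (P + Q) = σ • P + σ • Q :=
  map_add (DistribSMul.toAddMonoidHom (QPoint W) σ) P Q

theorem smul_nsmul_point (σ : GalQ) (m : ℕ) (P : QPoint W) : σ • (m • P) = m • (σ • P) :=
  map_nsmul (DistribSMul.toAddMonoidHom (QPoint W) σ) m P

/-- the torsion is divisible -/
theorem exists_div (hΔ : W.Δ ≠ 0) {a b : ℕ} (ha : a ≠ 0) (hb : b ≠ 0) {P : QPoint W}
    (hP : b • P = 0) : ∃ y : QPoint W, a • y = P := by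
  have := isElliptic_curveBar hΔ
  have hab : a * b ≠ 0 := mul_ne_zero ha hb
  haveI : Finite (Tors W (a * b)) := finite_torsionBy (curveBar W) _ hab
  haveI : Finite (Tors W b) := finite_torsionBy (curveBar W) _ hb
  let f : Tors W (a * b) →+ Tors W b :=
    { toFun := fun y => mkTors (a • (y : QPoint W))
        (by rw [← mul_nsmul, nsmul_tors y])
      map_zero' := Subtype.ext (nsmul_zero _)
      map_add' := fun y z => Subtype.ext (nsmul_add _ _ _) }
  have hker : Nat.card f.ker = a ^ 2 := by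
    rw [← card_nsmul_kernel (curveBar W) a ha]
    exact Nat.card_congr
      { toFun := fun y => ⟨(y.1 : QPoint W), congrArg Subtype.val (f.mem_ker.1 y.2)⟩
        invFun := fun y => ⟨mkTors y.1 (by rw [mul_nsmul, y.2, nsmul_zero]),
          f.mem_ker.2 (Subtype.ext y.2)⟩
        left_inv := fun y => rfl
        right_inv := fun y => rfl }
  have hsrc : Nat.card (Tors W (a * b)) = (a * b) ^ 2 := natCard_torsionBy (curveBar W) _ hab
  have htgt : Nat.card (Tors W b) = b ^ 2 := natCard_torsionBy (curveBar W) _ hb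
  have hmul := AddSubgroup.card_eq_card_quotient_mul_card_addSubgroup f.ker
  rw [Nat.card_congr (QuotientAddGroup.quotientKerEquivRange f).toEquiv, hker, hsrc, mul_pow,
    mul_comm] at hmul
  have hrange : Nat.card f.range = b ^ 2 :=
    (mul_right_cancel₀ (pow_ne_zero 2 ha) hmul.symm)
  have htop : f.range = ⊤ := AddSubgroup.eq_top_of_card_eq _ (hrange.trans htgt.symm)
  obtain ⟨y, hy⟩ : mkTors P hP ∈ f.range := htop ▸ AddSubgroup.mem_top _
  exact ⟨y, congrArg Subtype.val hy⟩

namespace MultAt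

variable (h : MultAt W A p)
include h

theorem odd_pow (n : ℕ) : Odd (p ^ n) := (h.prime.odd_of_ne_two h.ne_two).pow

/-- decomposition elements act by a sign modulo the identity component -/
theorem smul_pm {σ : GalQ} (hσ : σ ∈ A.decompositionSubgroup ℚ) {n : ℕ} {P : QPoint W}
    (hP : p ^ n • P = 0) : σ • P - P ∈ zeroComp W A ∨ σ • P + P ∈ zeroComp W A := by
  obtain ⟨W1, φ, hN, -, -, h0, -, hσ'⟩ := exists_nodal_model h.lies h.prime h.dvd h.ss
  obtain ⟨-, hI⟩ := hσ' σ hσ
  rw [← h0, ← h0, map_sub, map_add]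
  refine (add_or_sub_of_odd hN (h.odd_pow n) ?_ ?_ (dist1_image (val_aut hσ) (hI P))).symm
  · rw [← map_nsmul, smul_torsion hP, map_zero]
  · rw [← map_nsmul, hP, map_zero]

/-- some `p`-torsion point is outside the identity component -/
theorem exists_notMem : ∃ P : QPoint W, p • P = 0 ∧ P ∉ zeroComp W A := by
  obtain ⟨W1, φ, hN, hδ, hinj, h0, -, -⟩ := exists_nodal_model h.lies h.prime h.dvd h.ss
  have hδ0 : A.valuation (W1.a₆ : Qb) ≠ 0 := by
    rw [hδ, Ne, map_eq_zero, Int.cast_eq_zero]; exact h.Δ_ne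
  obtain ⟨R, hR, hR0⟩ := exists_torsion_not_inE0 hN hδ0 h.prime h.ne_two
    (Reduction.charP_residue A h.prime h.lies)
  have := isElliptic_genFib hN hδ0
  have := isElliptic_curveBar h.Δ_ne
  let g : {P : QPoint W // p • P = 0} → {P : (genFib W1).toAffine.Point // p • P = 0} :=
    fun P => ⟨φ P.1, by rw [← map_nsmul, P.2, map_zero]⟩
  have c2 := card_nsmul_kernel (genFib W1) p h.prime.ne_zero
  have c1 : Nat.card {P : QPoint W // p • P = 0} = p ^ 2 :=
    card_nsmul_kernel (curveBar W) p h.prime.ne_zero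
  haveI : Finite {P : (genFib W1).toAffine.Point // p • P = 0} :=
    Nat.finite_of_card_ne_zero (by rw [c2]; exact pow_ne_zero _ h.prime.ne_zero)
  obtain ⟨⟨S, hS⟩, he⟩ := ((Nat.bijective_iff_injective_and_card g).2
    ⟨fun a b e => Subtype.ext (hinj (congrArg Subtype.val e)), c1.trans c2.symm⟩).2 ⟨R, hR⟩
  refine ⟨S, hS, fun hh => hR0 ?_⟩
  rw [← show φ S = R from congrArg Subtype.val he]
  exact (h0 S).2 hh

/-- inertia is trivial modulo the identity component -/
theorem smul_sub_mem {σ : GalQ} (hσ : σ ∈ A.inertiaSubgroupIn ℚ) {n : ℕ} {x : QPoint W}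
    (hx : p ^ n • x = 0) : σ • x - x ∈ zeroComp W A := by
  have hd := inertia_mem_decomposition hσ
  obtain ⟨P, hP, hP0⟩ := h.exists_notMem
  have hs := inertia_sub_mem_zeroComp h.lies h.prime h.ss h.prime h.ne_two hσ hP
  have hxP : p ^ (n + 1) • (x + P) = 0 := by
    rw [nsmul_add, pow_succ, mul_nsmul, hx, nsmul_zero, zero_add, mul_nsmul', hP, nsmul_zero]
  rcases h.smul_pm hd hx with e | e
  · exact e
  rcases h.smul_pm hd hxP with e' | e'
  · rw [smul_add_point, show σ • x + σ • P - (x + P) = (σ • x - x) + (σ • P - P) by abel] at e'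
    exact (AddSubgroup.add_mem_cancel_right _ hs).1 e'
  exfalso
  rw [smul_add_point, show σ • x + σ • P + (x + P) = (σ • x + x) + ((σ • P - P) + 2 • P) by
    rw [two_nsmul]; abel, AddSubgroup.add_mem_cancel_left _ e,
    AddSubgroup.add_mem_cancel_left _ hs] at e'
  obtain ⟨t, ht⟩ := h.prime.odd_of_ne_two h.ne_two
  refine hP0 ?_
  have h1 : P = -(t • (2 • P)) := by
    rw [eq_neg_iff_add_eq_zero, ← mul_nsmul, add_comm, ← succ_nsmul, ← ht, hP]
  rw [h1]
  exact neg_mem (AddSubgroup.nsmul_mem _ e' t)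

/-- the `p`-torsion of the identity component is cyclic -/
theorem exists_line : ∃ T : QPoint W, p • T = 0 ∧
    ∀ x ∈ zeroComp W A, p • x = 0 → ∃ a : ℕ, x = a • T := by
  haveI : Fact p.Prime := ⟨h.prime⟩
  haveI : NeZero p := ⟨h.prime.ne_zero⟩
  obtain ⟨P, hP, hP0⟩ := h.exists_notMem
  by_cases hne : ∃ T ∈ torsE0 W A p, T ≠ 0
  · obtain ⟨T, hT, hT0⟩ := hne
    refine ⟨T, nsmul_tors T, fun x hx hpx => ?_⟩
    obtain ⟨a, ha⟩ := line_of_mem h.Δ_ne hT0 hT (Q := mkTors P hP)
      (fun hh => hP0 hh) (y := mkTors x hpx) hx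
    refine ⟨a.val, ?_⟩
    have := congrArg Subtype.val ha
    rwa [zmod_smul_eq] at this
  · push Not at hne
    refine ⟨0, nsmul_zero _, fun x hx hpx => ⟨0, ?_⟩⟩
    rw [zero_nsmul]
    exact congrArg Subtype.val (hne (mkTors x hpx) hx)

/-- the torsion of the identity component has an element of full order -/
theorem exists_full {n : ℕ} : ∃ T ∈ zeroComp W A, p ^ (n + 1) • T = 0 ∧ p ^ n • T ≠ 0 := by
  haveI : Fact p.Prime := ⟨h.prime⟩
  by_contra hno
  push Not at hno
  obtain ⟨σ, hσ, hc⟩ := exists_cyc_ne_one h.prime h.ne_two h.lies (p := p)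
  have hfix : ∀ P : QPoint W, p • P = 0 → σ • P = P := by
    intro P hP
    obtain ⟨y, rfl⟩ := exists_div h.Δ_ne (pow_ne_zero n h.prime.ne_zero) h.prime.ne_zero hP
    have hy : p ^ (n + 1) • y = 0 := by rwa [pow_succ, mul_nsmul]
    rw [smul_nsmul_point, ← sub_eq_zero, ← nsmul_sub]
    exact hno _ (h.smul_sub_mem hσ hy) (by rw [nsmul_sub, smul_torsion hy, hy, sub_zero])
  obtain ⟨hfin, hrank⟩ := finrank_tors h.Δ_ne p
  obtain ⟨P, hP, hP0⟩ := h.exists_notMem
  have hP' : (mkTors P hP : Tors W p) ≠ 0 := fun e =>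
    hP0 (by rw [show P = 0 from congrArg Subtype.val e]; exact zero_mem _)
  obtain ⟨Q, hQ⟩ : ∃ Q : Tors W p, ∀ a : ZMod p, Q ≠ a • mkTors P hP := by
    by_contra hh
    push Not at hh
    have := finrank_le_one (mkTors P hP) fun x => (hh x).imp fun a e => e.symm
    omega
  exact hc (cyc_eq_of_shear h.Δ_ne hP' hQ (c := 1) (t := 0)
    (by rw [one_smul]; exact Subtype.ext (hfix P hP))
    (by rw [zero_smul, add_zero]; exact Subtype.ext (hfix Q (nsmul_tors Q))))

/-- the line: generated by `T`, and a complement -/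
theorem exists_adapted {n : ℕ} : ∃ T Q : Tors W (p ^ (n + 1)),
    ∃ b : Module.Basis (Fin 2) (ZMod (p ^ (n + 1))) (Tors W (p ^ (n + 1))), b 0 = T ∧ b 1 = Q ∧
      ∀ x : Tors W (p ^ (n + 1)), (x : QPoint W) ∈ zeroComp W A ↔ b.repr x 1 = 0 := by
  classical
  have hp := h.prime
  set N := p ^ (n + 1) with hN
  haveI : NeZero N := ⟨pow_ne_zero _ hp.ne_zero⟩
  obtain ⟨T, hTZ, hT, hTn⟩ := h.exists_full (n := n)
  obtain ⟨T0, hT0, hline⟩ := h.exists_line
  have hgen : ∀ j ≤ n + 1, ∀ x ∈ zeroComp W A, p ^ j • x = 0 → ∃ a : ℕ, x = a • T := by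
    intro j
    induction j with
    | zero =>
      intro _ x _ hx
      rw [pow_zero, one_nsmul] at hx
      exact ⟨0, by rw [hx, zero_nsmul]⟩
    | succ j ih =>
      intro hj x hxZ hx
      obtain ⟨a, ha⟩ := hline _ (AddSubgroup.nsmul_mem _ hxZ (p ^ j))
        (by rwa [← mul_nsmul, ← pow_succ])
      obtain ⟨c, hc⟩ := hline _ (AddSubgroup.nsmul_mem _ hTZ (p ^ n))
        (by rwa [← mul_nsmul, ← pow_succ])
      have hcp : ¬ p ∣ c := by
        rintro ⟨d, rfl⟩
        exact hTn (by rw [hc, mul_nsmul, hT0, nsmul_zero])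
      obtain ⟨e, he⟩ : ∃ e : ℕ, c * e ≡ 1 [MOD p] := by
        obtain ⟨k, hk⟩ := Nat.exists_mul_mod_eq_one_of_coprime
          (Nat.coprime_comm.1 (hp.coprime_iff_not_dvd.2 hcp)) hp.one_lt
        exact ⟨k, by rw [Nat.ModEq, hk.2, Nat.mod_eq_of_lt hp.one_lt]⟩
      have hT0' : T0 = e • (p ^ n • T) := by
        rw [hc, ← mul_nsmul]
        conv_lhs => rw [← one_nsmul T0]
        exact (nsmul_eq_nsmul_of_modEq he hT0).symm
      set m := a * e * p ^ (n - j) with hm
      obtain ⟨b, hb⟩ := ih (by omega) (x - m • T)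
        (sub_mem hxZ (AddSubgroup.nsmul_mem _ hTZ m)) (by
          rw [nsmul_sub, sub_eq_zero, ha, hT0', ← mul_nsmul, ← mul_nsmul, ← mul_nsmul]
          congr 1
          rw [hm, show p ^ n = p ^ (n - j) * p ^ j by rw [← pow_add]; congr 1; omega]
          ring)
      exact ⟨b + m, by rw [add_nsmul, ← hb, sub_add_cancel]⟩
  obtain ⟨P, hP, hP0⟩ := h.exists_notMem
  obtain ⟨Q, hQ⟩ := exists_div h.Δ_ne (pow_ne_zero n hp.ne_zero) hp.ne_zero hP
  have hQN : N • Q = 0 := by rw [hN, pow_succ, mul_nsmul, hQ, hP]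
  let v : Fin 2 → Tors W N := ![mkTors T hT, mkTors Q hQN]
  have hv : ∀ c : Fin 2 → ZMod N, ((Fintype.linearCombination (ZMod N) v c : Tors W N) : QPoint W) =
      (c 0).val • T + (c 1).val • Q := by
    intro c
    rw [Fintype.linearCombination_apply, Fin.sum_univ_two, zmod_smul_eq, zmod_smul_eq]
    rfl
  have hzero : ∀ a : ℕ, a • Q ∈ zeroComp W A → N ∣ a := by
    intro a ha
    by_contra hdvd
    obtain ⟨j, u, hu, rfl⟩ : ∃ j u, ¬ p ∣ u ∧ a = p ^ j * u :=
      Nat.exists_eq_pow_mul_and_not_dvd (by rintro rfl; exact hdvd (dvd_zero _)) p hp.ne_one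
    have hj : j ≤ n := by
      by_contra hj
      exact hdvd (Dvd.dvd.mul_right (pow_dvd_pow p (by omega)) u)
    have h1 : u • P ∈ zeroComp W A := by
      have h2 := AddSubgroup.nsmul_mem _ ha (p ^ (n - j))
      rwa [← hQ, ← mul_nsmul, show p ^ n * u = p ^ j * u * p ^ (n - j) by
        rw [show p ^ n = p ^ (n - j) * p ^ j by rw [← pow_add]; congr 1; omega]; ring,
        mul_nsmul]
    obtain ⟨k, hk⟩ := Nat.exists_mul_mod_eq_one_of_coprime
      (Nat.coprime_comm.1 (hp.coprime_iff_not_dvd.2 hu)) hp.one_lt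
    refine hP0 ?_
    have h2 := AddSubgroup.nsmul_mem _ h1 k
    rwa [← mul_nsmul, nsmul_eq_nsmul_of_modEq
      (show u * k ≡ 1 [MOD p] by rw [Nat.ModEq, hk.2, Nat.mod_eq_of_lt hp.one_lt]) hP, one_nsmul] at h2
  have horder : addOrderOf T = N := by
    obtain ⟨i, hi, e⟩ := (Nat.dvd_prime_pow hp).1 (addOrderOf_dvd_of_nsmul_eq_zero hT)
    by_cases hin : i ≤ n
    · exfalso
      apply hTn
      rw [← addOrderOf_dvd_iff_nsmul_eq_zero, e]
      exact pow_dvd_pow p hin
    · rw [e, show i = n + 1 by omega]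
  have hinj : Function.Injective (Fintype.linearCombination (ZMod N) v) := by
    rw [injective_iff_map_eq_zero]
    intro c hc
    have h1 : (c 0).val • T + (c 1).val • Q = 0 := by rw [← hv, hc]; rfl
    have hd1 := hzero (c 1).val (by
      rw [eq_neg_of_add_eq_zero_right h1]
      exact neg_mem (AddSubgroup.nsmul_mem _ hTZ _))
    have hc1 : c 1 = 0 := by
      rw [← ZMod.natCast_zmod_val (c 1)]; exact (ZMod.natCast_eq_zero_iff _ _).2 hd1
    rw [hc1, ZMod.val_zero, zero_nsmul, add_zero, ← addOrderOf_dvd_iff_nsmul_eq_zero, horder,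
      ← ZMod.natCast_eq_zero_iff, ZMod.natCast_zmod_val] at h1
    funext i
    fin_cases i
    · exact h1
    · exact hc1
  have := isElliptic_curveBar h.Δ_ne
  haveI : Finite (Tors W N) := finite_torsionBy (curveBar W) _ (NeZero.ne N)
  have hbij : Function.Bijective (Fintype.linearCombination (ZMod N) v) := by
    refine (Nat.bijective_iff_injective_and_card _).2 ⟨hinj, ?_⟩
    rw [show Nat.card (Tors W N) = N ^ 2 from natCard_torsionBy (curveBar W) _ (NeZero.ne N),
      Nat.card_fun, Nat.card_zmod, Nat.card_fin]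
  let e := LinearEquiv.ofBijective (Fintype.linearCombination (ZMod N) v) hbij
  refine ⟨mkTors T hT, mkTors Q hQN, Module.Basis.ofEquivFun e.symm, ?_, ?_, fun x => ?_⟩
  · simp [Module.Basis.coe_ofEquivFun, e, v, LinearEquiv.ofBijective_apply]
  · simp [Module.Basis.coe_ofEquivFun, e, v, LinearEquiv.ofBijective_apply]
  · have hx : ((x : Tors W N) : QPoint W) = (e.symm x 0).val • T + (e.symm x 1).val • Q := by
      rw [← hv]
      exact congrArg Subtype.val (e.apply_symm_apply x).symm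
    rw [Module.Basis.ofEquivFun_repr_apply, hx,
      AddSubgroup.add_mem_cancel_left _ (AddSubgroup.nsmul_mem _ hTZ _)]
    refine ⟨fun hh => ?_, fun hh => by rw [hh, ZMod.val_zero, zero_nsmul]; exact zero_mem _⟩
    rw [← ZMod.natCast_zmod_val (e.symm x 1)]
    exact (ZMod.natCast_eq_zero_iff _ _).2 (hzero _ hh)

/-- in the adapted basis: upper triangular, the lower entry a sign, one on inertia -/
theorem exists_triangular {n : ℕ} : ∃ b : Module.Basis (Fin 2) (ZMod (p ^ (n + 1))) (Tors W (p ^ (n + 1))),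
    ∀ σ ∈ A.decompositionSubgroup ℚ,
      LinearMap.toMatrix b b (galoisRepModuleEnd ℚ (K := AlgebraicClosure ℚ)
        (W.map (Int.castRingHom ℚ)) (p ^ (n + 1)) σ) 1 0 = 0 ∧
      (LinearMap.toMatrix b b (galoisRepModuleEnd ℚ (K := AlgebraicClosure ℚ)
          (W.map (Int.castRingHom ℚ)) (p ^ (n + 1)) σ) 1 1 = 1 ∨
        σ ∉ A.inertiaSubgroupIn ℚ ∧
          LinearMap.toMatrix b b (galoisRepModuleEnd ℚ (K := AlgebraicClosure ℚ)
            (W.map (Int.castRingHom ℚ)) (p ^ (n + 1)) σ) 1 1 = -1) := by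
  obtain ⟨T, Q, b, hb0, hb1, hmem⟩ := h.exists_adapted (n := n)
  refine ⟨b, fun σ hσ => ?_⟩
  simp only [LinearMap.toMatrix_apply, galoisRepModuleEnd_apply, hb0, hb1]
  have hTZ : (T : QPoint W) ∈ zeroComp W A := by
    rw [hmem, ← hb0, Module.Basis.repr_self, Finsupp.single_eq_of_ne (by decide)]
  have hQ1 : b.repr Q 1 = 1 := by rw [← hb1, Module.Basis.repr_self, Finsupp.single_eq_same]
  have hsub : ∀ x y : Tors W (p ^ (n + 1)), (x : QPoint W) - y ∈ zeroComp W A →
      b.repr x 1 = b.repr y 1 := by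
    intro x y hxy
    have h1 := (hmem (x - y)).1 hxy
    rwa [map_sub, Finsupp.sub_apply, sub_eq_zero] at h1
  have hT1 : b.repr T 1 = 0 := by
    rw [← hb0, Module.Basis.repr_self, Finsupp.single_eq_of_ne (by decide)]
  have hmv : (σ • T : Tors W (p ^ (n + 1))).1 ∈ zeroComp W A := by
    rw [coe_smul]
    rcases h.smul_pm hσ (nsmul_tors T) with e | e
    · have := add_mem e hTZ
      rwa [sub_add_cancel] at this
    · have := sub_mem e hTZ
      rwa [add_sub_cancel_right] at this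
  refine ⟨(hmem _).1 hmv, ?_⟩
  by_cases hI : σ ∈ A.inertiaSubgroupIn ℚ
  · left
    rw [hsub (σ • Q) Q (by rw [coe_smul]; exact h.smul_sub_mem hI (nsmul_tors Q)), hQ1]
  rcases h.smul_pm hσ (nsmul_tors Q) with e | e
  · exact Or.inl ((hsub (σ • Q) Q (by rw [coe_smul]; exact e)).trans hQ1)
  · refine Or.inr ⟨hI, ?_⟩
    rw [hsub (σ • Q) (-Q) (by rw [coe_smul, Submodule.coe_neg, sub_neg_eq_add]; exact e), map_neg,
      Finsupp.neg_apply, hQ1]

end MultAt

/-- the cyclotomic character modulo `p ^ N` from the action on the `p ^ n`-th roots of unity -/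
theorem cyc_sub_mem_span {p : ℕ} (hp : p.Prime) (N : ℕ) [NeZero (p ^ N)] {σ : GalQ} {n a : ℕ}
    (ha : ∀ μ : AlgebraicClosure ℚ, μ ^ p ^ n = 1 → σ μ = μ ^ a) :
    cyc (p ^ N) σ - (a : ZMod (p ^ N)) ∈ Ideal.span {((p ^ n : ℕ) : ZMod (p ^ N))} := by
  set m := min n N
  haveI : NeZero (p ^ m) := ⟨pow_ne_zero _ hp.ne_zero⟩
  obtain ⟨ζ, hζ⟩ := HasEnoughRootsOfUnity.exists_primitiveRoot (AlgebraicClosure ℚ) (p ^ m)
  have hN : ζ ^ p ^ N = 1 := by
    rw [← Nat.add_sub_cancel' (min_le_right n N), pow_add, pow_mul, hζ.pow_eq_one, one_pow]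
  have hn : ζ ^ p ^ n = 1 := by
    rw [← Nat.add_sub_cancel' (min_le_left n N), pow_add, pow_mul, hζ.pow_eq_one, one_pow]
  have e : ζ ^ (cyc (p ^ N) σ).val = ζ ^ a := (cyc_spec σ hN).symm.trans (ha ζ hn)
  have hmod : ((p ^ m : ℕ) : ℤ) ∣ ((cyc (p ^ N) σ).val : ℤ) - (a : ℤ) := by
    refine Nat.modEq_iff_dvd.1 (Nat.ModEq.symm ?_)
    have hu := hζ.isUnit (NeZero.ne (p ^ m))
    have h2 : hu.unit ^ (cyc (p ^ N) σ).val = hu.unit ^ a := Units.ext (by simpa using e)
    rw [pow_eq_pow_iff_modEq] at h2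
    rwa [← orderOf_units, hu.unit_spec, ← hζ.eq_orderOf] at h2
  obtain ⟨c, hc⟩ := hmod
  have hcast := congrArg (Int.cast : ℤ → ZMod (p ^ N)) hc
  push_cast at hcast
  rw [ZMod.natCast_zmod_val] at hcast
  rw [Ideal.mem_span_singleton, hcast]
  by_cases hnN : n ≤ N
  · rw [show m = n from min_eq_left hnN]
    exact Dvd.intro _ (by push_cast; rfl)
  · rw [show m = N from min_eq_right (by omega)]
    have h0 : ((p : ZMod (p ^ N)) ^ N) = 0 := by
      rw [← Nat.cast_pow]; exact ZMod.natCast_self _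
    rw [h0, zero_mul]
    exact dvd_zero _

/-- the `p ^ (n + 1)`-torsion at a prime of multiplicative reduction is strictly ordinary, in any
basis, the determinant being cyclotomic -/
theorem strictMat_torsion {n : ℕ} [NeZero (p ^ (n + 1))] [IsLocalRing (ZMod (p ^ (n + 1)))]
    (hp : p.Prime) (hp2 : p ≠ 2) (hΔ : W.Δ ≠ 0) (hd : (p : ℤ) ∣ W.Δ) (hss : SemistableAt W p)
    (β : Module.Basis (Fin 2) (ZMod (p ^ (n + 1))) (Tors W (p ^ (n + 1))))
    (hdet : ∀ σ : GalQ, LinearMap.det (galoisRepModuleEnd ℚ (K := AlgebraicClosure ℚ)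
      (W.map (Int.castRingHom ℚ)) (p ^ (n + 1)) σ) = cyc (p ^ (n + 1)) σ) :
    PT.TW.StrictMat p fun σ => LinearMap.toMatrix β β (galoisRepModuleEnd ℚ
      (K := AlgebraicClosure ℚ) (W.map (Int.castRingHom ℚ)) (p ^ (n + 1)) σ) := by
  refine ⟨?_, fun P hP => ?_⟩
  · rw [IsLocalRing.mem_maximalIdeal]
    intro hu
    have h0 : ((p : ZMod (p ^ (n + 1))) ^ (n + 1)) = 0 := by
      rw [← Nat.cast_pow]; exact ZMod.natCast_self _
    have h1 := hu.pow (n + 1)
    rw [h0, isUnit_zero_iff] at h1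
    exact zero_ne_one h1
  have h : MultAt W P p := ⟨hp, hp2, hP, hΔ, hd, hss⟩
  obtain ⟨b, hb⟩ := h.exists_triangular (n := n)
  set U := β.toMatrix b
  set U' := b.toMatrix β
  have hconj : ∀ σ : GalQ, U' * LinearMap.toMatrix β β (galoisRepModuleEnd ℚ
      (K := AlgebraicClosure ℚ) (W.map (Int.castRingHom ℚ)) (p ^ (n + 1)) σ) * U =
      LinearMap.toMatrix b b (galoisRepModuleEnd ℚ (K := AlgebraicClosure ℚ)
        (W.map (Int.castRingHom ℚ)) (p ^ (n + 1)) σ) := fun σ =>
    basis_toMatrix_mul_linearMap_toMatrix_mul_basis_toMatrix b β b β _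
  refine ⟨U, U', b.toMatrix_mul_toMatrix_flip β, β.toMatrix_mul_toMatrix_flip b, fun s hs => ?_,
    fun s hs => ?_, fun s hs m a hma => ?_⟩
  · rw [hconj]; exact (hb s hs).1
  · rw [hconj]
    obtain ⟨h10, h11⟩ := hb s (inertia_mem_decomposition hs)
    exact ⟨h10, h11.resolve_right fun hh => hh.1 hs⟩
  · rw [hconj]
    set M := LinearMap.toMatrix b b (galoisRepModuleEnd ℚ (K := AlgebraicClosure ℚ)
      (W.map (Int.castRingHom ℚ)) (p ^ (n + 1)) s) with hM
    obtain ⟨h10, h11⟩ := hb s hs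
    have hxz : M 0 0 * M 1 1 = cyc (p ^ (n + 1)) s := by
      rw [← hdet s, ← LinearMap.det_toMatrix b, ← hM, Matrix.det_fin_two,
        show M 1 0 = 0 from h10, mul_zero, sub_zero]
    have hz : M 1 1 * M 1 1 = 1 := by
      rcases h11 with e | ⟨-, e⟩
      · rw [show M 1 1 = 1 from e, one_mul]
      · rw [show M 1 1 = -1 from e, neg_one_mul, neg_neg]
    have e : M 0 0 - (a : ZMod (p ^ (n + 1))) * M 1 1 =
        (cyc (p ^ (n + 1)) s - (a : ZMod (p ^ (n + 1)))) * M 1 1 := by
      rw [← hxz, sub_mul, mul_assoc, hz, mul_one]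
    rw [e]
    exact Ideal.mul_mem_right _ _ (cyc_sub_mem_span hp (n + 1) hma)

end FLTAgent.MLT

end
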