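import Fermat.Prelude.Def_WeierstrassCurve_ConductorLevel
import Fermat.Prelude.Def_FLTPrelim_ModularRep

/-!
Area MLT, top: the minimal level of residual modularity of a semistable curve.
-/

set_option autoImplicit false

noncomputable section

open WeierstrassCurve

namespace FLTAgent.MLT

/-- the primes different from `p` at which the `p`-torsion of a semistable curve ramifies -/
def sMin (W : WeierstrassCurve ℤ) (p : ℕ) : Finset ℕ :=
  W.Δ.natAbs.primeFactors.filter fun r => r ≠ p ∧ ¬ p ∣ padicValInt r W.Δ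

/-- multiplicative and très ramifié at `p`: the strict world -/
def Tres (W : WeierstrassCurve ℤ) (p : ℕ) : Prop :=
  (p : ℤ) ∣ W.Δ ∧ ¬ p ∣ padicValInt p W.Δ

open Classical in
/-- the minimal level -/
def minLevel (W : WeierstrassCurve ℤ) (p : ℕ) : ℕ :=
  (if Tres W p then p else 1) * ∏ r ∈ sMin W p, r

theorem mem_sMin {W : WeierstrassCurve ℤ} (hΔ : W.Δ ≠ 0) {p r : ℕ} :
    r ∈ sMin W p ↔ r.Prime ∧ (r : ℤ) ∣ W.Δ ∧ r ≠ p ∧ ¬ p ∣ padicValInt r W.Δ := by
  simp [sMin, Nat.mem_primeFactors, Int.natCast_dvd, hΔ, and_assoc]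

theorem prime_of_mem_sMin {W : WeierstrassCurve ℤ} {p r : ℕ} (h : r ∈ sMin W p) : r.Prime :=
  Nat.prime_of_mem_primeFactors (Finset.mem_filter.1 h).1

theorem p_notMem_sMin (W : WeierstrassCurve ℤ) (p : ℕ) : p ∉ sMin W p := fun h =>
  (Finset.mem_filter.1 h).2.1 rfl

theorem prime_dvd_minLevel {W : WeierstrassCurve ℤ} {p r : ℕ} (hp : p.Prime) (hr : r.Prime) :
    r ∣ minLevel W p ↔ (r = p ∧ Tres W p) ∨ r ∈ sMin W p := by
  classical
  have hprod : r ∣ ∏ s ∈ sMin W p, s ↔ r ∈ sMin W p := by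
    refine ⟨fun h => ?_, fun h => Finset.dvd_prod_of_mem _ h⟩
    obtain ⟨s, hs, hrs⟩ := hr.prime.exists_mem_finset_dvd h
    exact ((Nat.prime_dvd_prime_iff_eq hr (prime_of_mem_sMin hs)).1 hrs) ▸ hs
  rw [minLevel, hr.dvd_mul, hprod]
  by_cases h : Tres W p <;> simp [h, Nat.prime_dvd_prime_iff_eq hr hp, hr.ne_one]

theorem squarefree_minLevel {W : WeierstrassCurve ℤ} {p : ℕ} (hp : p.Prime) :
    Squarefree (minLevel W p) := by
  classical
  have h : Squarefree (∏ r ∈ sMin W p, r) :=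
    Finset.squarefree_prod_of_pairwise_isCoprime
      (fun r hr s hs hne => Nat.coprime_iff_isRelPrime.1
        ((Nat.coprime_primes (prime_of_mem_sMin hr) (prime_of_mem_sMin hs)).2 hne))
      fun r hr => (prime_of_mem_sMin hr).squarefree
  by_cases ht : Tres W p
  · rw [minLevel, if_pos ht, Nat.squarefree_mul_iff]
    refine ⟨Nat.Coprime.prod_right fun r hr => ?_, hp.squarefree, h⟩
    exact (Nat.coprime_primes hp (prime_of_mem_sMin hr)).2
      fun e => p_notMem_sMin W p (e ▸ hr)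
  · rwa [minLevel, if_neg ht, one_mul]

/-- agreement with a form of level `N` away from a finite set -/
def ModularAway (W : WeierstrassCurve ℤ) (N : ℕ) : Prop :=
  ∃ (S : Finset ℕ) (f : CuspForm (CongruenceSubgroup.Gamma0 N) 2), f.IsNormalizedEigenform ∧
    ∀ l : ℕ, l.Prime → l ∉ S → W.IsGoodPrimeFor l → ¬ l ∣ N →
      ModularFormClass.qCoeff f l = (W.apOfModel l : ℂ)

end FLTAgent.MLT

end
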