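import Fermat.Agent.MLT.SquareAux
import Fermat.Agent.MLT.World
import Fermat.Agent.MLT.PointStrict
import Fermat.Agent.LL.Image
import Fermat.Agent.Chebotarev.Density

/-!
Area MLT, parcel A2: the residual representation of a semistable curve, irreducible at `p = 3, 5`.

The image spans on every subgroup of index two: otherwise every element outside such a subgroup has
trace zero, so the subgroup is the one where the determinant is a square; at `p = 3` this is excluded
by `exists_trace_ne_three`, at `p = 5` since the image on that subgroup would be commutative and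
inertia would generate a proper subgroup not containing complex conjugation.
-/

set_option autoImplicit false
set_option linter.unusedSectionVars false
set_option linter.style.haveILetI false

noncomputable section

open Matrix Polynomial WeierstrassCurve
open FLTAgent.Attach (cyc)
open FLTAgent.Torsion (Tors)
open FLTAgent.Local (QPoint SemistableAt)
open scoped Pointwise

namespace FLTAgent.MLT

local notation "Qb" => AlgebraicClosure ℚ
local notation "GalQ" => AlgebraicClosure ℚ ≃ₐ[ℚ] AlgebraicClosure ℚ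

section Linear

variable {F : Type} [Field F] {G : Type*} [Group G] {r : G →* Matrix (Fin 2) (Fin 2) F}

/-- an element outside a subgroup of index two with nonzero trace gives span on the subgroup -/
theorem span_of_outside (hspan : Submodule.span F (Set.range r) = ⊤) (H : Subgroup G)
    (hH : H.index = 2) {x : G} (hx : x ∉ H) (ht : (r x).trace ≠ 0) :
    Submodule.span F (r '' (H : Set G)) = ⊤ := by
  set S := Submodule.span F (r '' (H : Set G))
  have hmul : ∀ X ∈ S, ∀ Y ∈ S, X * Y ∈ S := by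
    intro X hX Y hY
    induction hX, hY using Submodule.span_induction₂ with
    | mem_mem x y hx hy =>
      obtain ⟨a, ha, rfl⟩ := hx
      obtain ⟨b, hb, rfl⟩ := hy
      exact Submodule.subset_span ⟨a * b, H.mul_mem ha hb, map_mul r a b⟩
    | zero_left y _ => simp
    | zero_right x _ => simp
    | add_left x y z _ _ _ h1 h2 => rw [add_mul]; exact add_mem h1 h2
    | add_right x y z _ _ _ h1 h2 => rw [mul_add]; exact add_mem h1 h2
    | smul_left c x y _ _ h => rw [smul_mul_assoc]; exact Submodule.smul_mem _ c h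
    | smul_right c x y _ _ h => rw [mul_smul_comm]; exact Submodule.smul_mem _ c h
  have h1S : (1 : Matrix (Fin 2) (Fin 2) F) ∈ S :=
    Submodule.subset_span ⟨1, H.one_mem, map_one r⟩
  have hxx : r x * r x ∈ S :=
    Submodule.subset_span ⟨x * x, Subgroup.mul_self_mem_of_index_two hH x, map_mul r x x⟩
  have hxS : r x ∈ S := by
    refine (Submodule.smul_mem_iff S ht).1 ?_
    have e : (r x).trace • r x = r x * r x + (r x).det • 1 := by
      rw [Attach.sq_fin_two, sub_add_cancel]
    rw [e]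
    exact add_mem hxx (S.smul_mem _ h1S)
  rw [eq_top_iff, ← hspan, Submodule.span_le]
  rintro _ ⟨g, rfl⟩
  by_cases hg : g ∈ H
  · exact Submodule.subset_span ⟨g, hg, rfl⟩
  · have h : x⁻¹ * g ∈ H := (Subgroup.mul_mem_iff_of_index_two hH).2
      ⟨fun h => absurd (H.inv_mem_iff.1 h) hx, fun h => absurd h hg⟩
    have e : r g = r x * r (x⁻¹ * g) := by rw [← map_mul, mul_inv_cancel_left]
    rw [e]
    exact hmul _ hxS _ (Submodule.subset_span ⟨_, h, rfl⟩)

/-- the adjugate appears when the product has trace zero -/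
theorem mul_eq_adjugate_mul (T h : Matrix (Fin 2) (Fin 2) F) (hT : T.trace = 0)
    (hTh : (T * h).trace = 0) : T * h = h.adjugate * T := by
  simp only [Matrix.trace_fin_two, Matrix.mul_apply, Fin.sum_univ_two] at hT hTh
  rw [Matrix.adjugate_fin_two]
  ext i j
  fin_cases i <;> fin_cases j <;> simp [Matrix.mul_apply, Fin.sum_univ_two]
  · linear_combination hTh - (h 1 1) * hT
  · linear_combination (h 0 1) * hT
  · linear_combination (h 1 0) * hT
  · linear_combination hTh - (h 0 0) * hT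

variable (hspan : Submodule.span F (Set.range r) = ⊤) (H : Subgroup G) {t : G} (ht : t ∉ H)
  (hz : ∀ g, g ∉ H → (r g).trace = 0)

include ht hz in
theorem conj_outside {h : G} (hh : h ∈ H) : r t * r h = (r h).adjugate * r t :=
  mul_eq_adjugate_mul _ _ (hz t ht) (by
    rw [← map_mul]
    exact hz _ fun h' => ht (by simpa using H.mul_mem h' (H.inv_mem hh)))

include ht hz in
theorem commute_inside {h k : G} (hh : h ∈ H) (hk : k ∈ H) : r h * r k = r k * r h := by
  have h1 := conj_outside H ht hz (H.mul_mem hh hk)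
  rw [map_mul, ← Matrix.mul_assoc, conj_outside H ht hz hh, Matrix.mul_assoc,
    conj_outside H ht hz hk, ← Matrix.mul_assoc] at h1
  have e : ∀ X : Matrix (Fin 2) (Fin 2) F, X * r t * r t⁻¹ = X := fun X => by
    rw [Matrix.mul_assoc, ← map_mul, mul_inv_cancel, map_one, mul_one]
  have h2 := congrArg (· * r t⁻¹) h1
  simp only [e, ← Matrix.adjugate_mul_distrib] at h2
  have inv : ∀ X : Matrix (Fin 2) (Fin 2) F, X.adjugate.adjugate = X := fun X => by
    rw [Matrix.adjugate_adjugate _ (by simp), Fintype.card_fin, pow_zero, one_smul]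
  rw [← inv (r h * r k), ← h2, inv]

end Linear

section Galois

theorem zmod_small_facts : (¬ IsSquare (-1 : ZMod 3)) ∧ IsSquare (-1 : ZMod 5) ∧
    (1 : ZMod 3) ≠ -1 ∧ (-1 : ZMod 3).val = 2 :=
  ⟨fun ⟨x, hx⟩ => by revert hx; revert x; decide, ⟨2, by decide⟩, by decide, by decide⟩

/-- the fixed field of an open normal subgroup, and tame inertia of two-power exponent in it -/
theorem exists_tame_mod (N : Subgroup GalQ) [N.Normal] (E : IntermediateField ℚ Qb)
    [FiniteDimensional ℚ E] (hEN : E.fixingSubgroup ≤ N) {q : ℕ} (hq : q.Prime) (hq2 : q ≠ 2)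
    {V : ValuationSubring Qb} (hV : V.LiesOverPrime q) (k : ℕ)
    (hk : ∀ τ ∈ V.inertiaSubgroupIn ℚ, τ ^ (2 ^ k) ∈ N) :
    ∃ t ∈ V.inertiaSubgroupIn ℚ, ∀ τ ∈ V.inertiaSubgroupIn ℚ, ∃ n : ℕ, (t ^ n)⁻¹ * τ ∈ N := by
  haveI := Common.isAlgebraic_qbar
  haveI := Common.isGalois_qbar
  have hopen : IsOpen (N : Set GalQ) :=
    Subgroup.isOpen_mono hEN (IntermediateField.fixingSubgroup_isOpen E)
  let Nc : ClosedSubgroup GalQ := ⟨N, Subgroup.isClosed_of_isOpen _ hopen⟩
  let L := IntermediateField.fixedField N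
  have hLfix : L.fixingSubgroup = N := InfiniteGalois.fixingSubgroup_fixedField Nc
  have hLE : L ≤ E := by
    rw [← InfiniteGalois.fixedField_fixingSubgroup E]
    exact IntermediateField.fixedField_le hEN
  haveI : FiniteDimensional ℚ L := FiniteDimensional.of_injective
    (IntermediateField.inclusion hLE).toLinearMap (IntermediateField.inclusion_injective hLE)
  have hL : ∀ g : GalQ, ∀ x ∈ L, g x ∈ L := by
    intro g x hx
    rw [IntermediateField.mem_fixedField_iff] at hx ⊢
    intro s hs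
    have := hx _ (by simpa using (inferInstance : N.Normal).conj_mem s hs g⁻¹ : g⁻¹ * s * g ∈ N)
    rw [AlgEquiv.mul_apply, AlgEquiv.mul_apply] at this
    have e := congrArg g this
    rwa [← AlgEquiv.mul_apply g g⁻¹, mul_inv_cancel, AlgEquiv.one_apply] at e
  obtain ⟨t, ht, hgen, -⟩ := EIS.exists_tame_generator (r := 2) (k := k) hq hV Nat.prime_two
    (Ne.symm hq2) L hL
    (fun ζ hζ => by
      rcases sq_eq_one_iff.mp hζ with rfl | rfl
      exacts [one_mem L, neg_mem (one_mem L)])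
    (fun τ hτ x hx => (IntermediateField.mem_fixingSubgroup_iff _ _).1
      (hLfix.symm ▸ hk τ hτ) x hx)
  refine ⟨t, ht, fun τ hτ => ?_⟩
  obtain ⟨n, hn⟩ := hgen τ hτ
  refine ⟨n, hLfix ▸ (IntermediateField.mem_fixingSubgroup_iff _ _).2 fun x hx => ?_⟩
  rw [AlgEquiv.mul_apply, hn x hx]
  exact (t ^ n).symm_apply_apply x

variable {p : ℕ} [Fact p.Prime]

/-- a prime modulo `p` gives every class -/
theorem exists_cyc_eq {c : ℕ} (hc : ¬ p ∣ c) : ∃ σ : GalQ, cyc p σ = (c : ZMod p) := by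
  have hp : p.Prime := Fact.out
  obtain ⟨ℓ, hℓp, hℓ, hℓc⟩ := Nat.forall_exists_prime_gt_and_modEq p hp.ne_zero
    (((hp.coprime_iff_not_dvd).2 hc).symm)
  obtain ⟨A, σ, hA, hσ⟩ := Alg.exists_place_frobenius ℓ hℓ
  refine ⟨σ, ?_⟩
  rw [Attach.cyc_frobenius hℓ (fun h => by
    have := (Nat.prime_dvd_prime_iff_eq hℓ hp).1 h
    omega) hA hσ]
  exact (ZMod.natCast_eq_natCast_iff _ _ _).2 hℓc

theorem exists_cyc_nonsquare (hp2 : p ≠ 2) : ∃ σ : GalQ, ¬ IsSquare (cyc p σ) := by
  obtain ⟨a, ha⟩ := FiniteField.exists_nonsquare (F := ZMod p)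
    (by rw [ZMod.ringChar_zmod_n]; exact hp2)
  have ha0 : a ≠ 0 := fun h => ha (h ▸ IsSquare.zero)
  obtain ⟨σ, hσ⟩ := exists_cyc_eq (p := p) (c := a.val) fun h => ha0 (by
    rw [← ZMod.natCast_zmod_val a, (ZMod.natCast_eq_zero_iff _ _).2 h])
  exact ⟨σ, by rwa [hσ, ZMod.natCast_zmod_val]⟩

theorem cyc_ne_zero (σ : GalQ) : cyc p σ ≠ 0 := by
  intro h
  have h1 := Attach.cyc_mul p σ σ⁻¹
  rw [mul_inv_cancel, Attach.cyc_one, h, zero_mul] at h1
  exact one_ne_zero h1

/-- in `ZMod p` the product of two nonsquares is a square -/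
theorem isSquare_mul_of_not {a b : ZMod p} (ha : a ≠ 0) (hb : b ≠ 0) (h1 : ¬ IsSquare a)
    (h2 : ¬ IsSquare b) : IsSquare (a * b) := by
  rw [← quadraticChar_neg_one_iff_not_isSquare] at h1 h2
  rw [← quadraticChar_one_iff_isSquare (mul_ne_zero ha hb), map_mul, h1, h2]
  norm_num

variable (p) in
/-- where the cyclotomic character is a square -/
def legKer : Subgroup GalQ where
  carrier := {σ | IsSquare (cyc p σ)}
  one_mem' := by
    show IsSquare (cyc p (1 : GalQ))
    rw [Attach.cyc_one]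
    exact IsSquare.one
  mul_mem' {a b} ha hb := by
    show IsSquare (cyc p (a * b))
    rw [Attach.cyc_mul]
    exact IsSquare.mul ha hb
  inv_mem' {a} ha := by
    show IsSquare (cyc p a⁻¹)
    have h := Attach.cyc_mul p a⁻¹ a
    rw [inv_mul_cancel, Attach.cyc_one] at h
    rw [eq_inv_of_mul_eq_one_left h.symm]
    exact (show IsSquare (cyc p a) from ha).inv

theorem mem_legKer {σ : GalQ} : σ ∈ legKer p ↔ IsSquare (cyc p σ) := Iff.rfl

instance legKer_normal : (legKer p).Normal where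
  conj_mem a ha g := by
    show IsSquare (cyc p (g * a * g⁻¹))
    rw [Attach.cyc_mul, Attach.cyc_mul, mul_right_comm, ← Attach.cyc_mul p g, mul_inv_cancel,
      Attach.cyc_one, one_mul]
    exact ha

theorem legKer_index (hp2 : p ≠ 2) : (legKer p).index = 2 := by
  rw [Subgroup.index_eq_two_iff]
  obtain ⟨a, ha⟩ := exists_cyc_nonsquare (p := p) hp2
  refine ⟨a, fun b => ?_⟩
  by_cases hb : b ∈ legKer p
  · refine Or.inr ⟨hb, fun h => ha ?_⟩
    have := (legKer p).mul_mem ((legKer p).inv_mem hb) h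
    rwa [inv_mul_cancel_left] at this
  · refine Or.inl ⟨?_, hb⟩
    show IsSquare (cyc p (b * a))
    rw [Attach.cyc_mul]
    exact isSquare_mul_of_not (cyc_ne_zero b) (cyc_ne_zero a) hb ha

variable {W : WeierstrassCurve ℤ} {r : GalQ →* Matrix (Fin 2) (Fin 2) (ZMod p)}
  {e : Tors W p ≃ₗ[ZMod p] (Fin 2 → ZMod p)} (hΔ : W.Δ ≠ 0) (hp2 : p ≠ 2)
  (he : ∀ σ x, e (σ • x) = r σ *ᵥ e x) (hdet : ∀ σ, (r σ).det = cyc p σ)

include hΔ he in
theorem exists_rep_level : ∃ L : IntermediateField ℚ Qb, FiniteDimensional ℚ L ∧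
    ∀ g : GalQ, (∀ z ∈ L, g z = z) → r g = 1 := by
  obtain ⟨L, hL, hfix⟩ := EllFrob.exists_torsion_field hΔ p (NeZero.ne p)
  refine ⟨L, hL, fun g hg => Matrix.ext_of_mulVec_single fun j => ?_⟩
  obtain ⟨x, hx⟩ := e.surjective (Pi.single j 1)
  rw [Matrix.one_mulVec, ← hx, ← he, hfix g 1 (fun z hz => hg z hz) x, one_smul]

include hp2 hdet in
/-- inertia away from `p` fixes the roots of unity and is unipotent -/
theorem det_one_inertia {q : ℕ} (hq : q.Prime) (hqp : q ≠ p) {V : ValuationSubring Qb}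
    (hV : V.LiesOverPrime q) {σ : GalQ} (hσ : σ ∈ V.inertiaSubgroupIn ℚ) :
    cyc p σ = 1 ∧ (r σ).det = 1 :=
  have h := Attach.cyc_inertia hq
    (fun h => hqp ((Nat.prime_dvd_prime_iff_eq hq Fact.out).mp h)) hV hσ
  ⟨h, (hdet σ).trans h⟩

include hΔ hp2 he hdet in
/-- at `p ≡ 1 (mod 4)` some element of nonsquare determinant has nonzero trace -/
theorem exists_trace_ne_of_sq (hss : W.IsSemistableModel)
    (hspan : Submodule.span (ZMod p) (Set.range r) = ⊤) (hm1 : IsSquare (-1 : ZMod p)) :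
    ∃ σ, ¬ IsSquare (cyc p σ) ∧ (r σ).trace ≠ 0 := by
  classical
  by_contra hcon
  push Not at hcon
  set H := legKer p
  have hp : p.Prime := Fact.out
  obtain ⟨t0, ht0⟩ := exists_cyc_nonsquare (p := p) hp2
  have hz : ∀ g, g ∉ H → (r g).trace = 0 := fun g hg => hcon g hg
  have hH2 : ∀ g : GalQ, g * g ∈ H := Subgroup.mul_self_mem_of_index_two (legKer_index hp2)
  obtain ⟨E, hE, hEfix⟩ := exists_rep_level hΔ he (r := r)
  obtain ⟨Ec, hEc, hcfix⟩ := Attach.exists_cyc_level p
  haveI := hE; haveI := hEc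
  -- no ramification away from `p`
  have hunr : ∀ q : ℕ, q.Prime → q ≠ p → ∀ V : ValuationSubring Qb, V.LiesOverPrime q →
      ∀ σ ∈ V.inertiaSubgroupIn ℚ, r σ = 1 := by
    intro q hq hqp V hV σ hσ
    obtain ⟨hc, hd⟩ := det_one_inertia hp2 hdet hq hqp hV hσ
    have hσH : σ ∈ H := by rw [mem_legKer, hc]; exact IsSquare.one
    have hsq := sub_one_sq_of_inertia hp2 he hq hqp (hss q hq) hV hσ
    set N := r σ - 1 with hN
    have hcomm : ∀ g, g ∈ H → N * r g = r g * N := fun g hg => by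
      rw [hN, sub_mul, mul_sub, one_mul, mul_one, commute_inside H ht0 hz hσH hg]
    have hanti : N * r t0 = -(r t0 * N) := by
      have h1 := conj_outside H ht0 hz hσH
      have hadj : (r σ).adjugate = (r σ).trace • 1 - r σ := by
        rw [Matrix.adjugate_fin_two]
        ext i j
        fin_cases i <;> fin_cases j <;> simp [Matrix.trace_fin_two]
      have htr : (r σ).trace = 2 := by
        have h3 := Attach.sq_fin_two (r σ)
        rw [hd, one_smul] at h3
        have h4 : r σ * r σ = (2 : ZMod p) • r σ - 1 := by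
          rw [two_smul, eq_sub_iff_add_eq, ← sub_eq_zero, ← hsq, hN, sub_mul, mul_sub, one_mul,
            mul_one]
          abel
        rw [h4, sub_left_inj] at h3
        have h5 := congrArg Matrix.det h3
        by_contra hne
        have h6 : ((r σ).trace - 2) • r σ = 0 := by rw [sub_smul, h3, sub_self]
        rw [(smul_eq_zero.1 h6).resolve_left (sub_ne_zero.2 hne), Matrix.det_zero] at hd
        exact zero_ne_one hd
      rw [hadj, htr, sub_mul, smul_mul_assoc, one_mul, two_smul] at h1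
      rw [hN, sub_mul, one_mul, mul_sub, mul_one, h1]
      abel
    have hNN : N * N = 0 := hsq
    have : N = 0 := eq_zero_of_sandwich hspan fun g => by
      by_cases hg : g ∈ H
      · rw [hcomm g hg, Matrix.mul_assoc, hNN, mul_zero]
      · have hh : g * t0⁻¹ ∈ H := (Subgroup.mul_mem_iff_of_index_two (legKer_index hp2)).2
          ⟨fun h => absurd h hg, fun h => absurd (H.inv_mem_iff.1 h) ht0⟩
        have e : r g = r (g * t0⁻¹) * r t0 := by rw [← map_mul, inv_mul_cancel_right]
        rw [e, ← Matrix.mul_assoc, hcomm _ hh, Matrix.mul_assoc, Matrix.mul_assoc,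
          ← Matrix.mul_assoc N (r t0), hanti, neg_mul, Matrix.mul_assoc, hNN, mul_zero, neg_zero,
          mul_zero]
    rwa [hN, sub_eq_zero] at this
  -- the exponent, split as `2 ^ a * m`
  set U := (Matrix (Fin 2) (Fin 2) (ZMod p))ˣ
  let rU : GalQ →* U := r.toHomUnits
  set n := Nat.card U with hn
  have hn0 : n ≠ 0 := Nat.card_pos.ne'
  set a := n.factorization 2
  set m := n / 2 ^ a
  have hnm : 2 ^ a * m = n := Nat.mul_div_cancel' (Nat.ordProj_dvd n 2)
  have hmodd : Odd m := by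
    rw [Nat.odd_iff, ← Nat.two_dvd_ne_zero]
    exact Nat.not_dvd_ordCompl Nat.prime_two hn0
  have hrn : ∀ g, r g ^ n = 1 := fun g => by
    have h := congrArg Units.val (pow_card_eq_one' (G := U) (x := rU g))
    rwa [Units.val_pow_eq_pow_val, Units.val_one] at h
  -- the odd part
  let Nm : Subgroup GalQ :=
    { carrier := {g | g ∈ H ∧ ∃ l : ZMod p, r g ^ m = l • 1}
      one_mem' := ⟨H.one_mem, 1, by simp⟩
      mul_mem' := fun {x y} ⟨hx, l, hl⟩ ⟨hy, l', hl'⟩ => ⟨H.mul_mem hx hy, l * l', by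
        rw [map_mul, (show Commute (r x) (r y) from commute_inside H ht0 hz hx hy).mul_pow, hl, hl',
          smul_mul_smul, mul_one]⟩
      inv_mem' := fun {x} ⟨hx, l, hl⟩ => ⟨H.inv_mem hx, l⁻¹, by
        have h1 : r x⁻¹ ^ m * r x ^ m = 1 := by
          rw [← map_pow, ← map_pow, ← map_mul, inv_pow, inv_mul_cancel, map_one]
        rw [hl, mul_smul_comm, mul_one] at h1
        have hl0 : l ≠ 0 := fun h0 => by rw [h0, zero_smul] at h1; exact zero_ne_one h1
        rw [← h1, smul_smul, inv_mul_cancel₀ hl0, one_smul]⟩ }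
  haveI : Nm.Normal := ⟨fun x ⟨hx, l, hl⟩ g => ⟨(inferInstance : H.Normal).conj_mem x hx g, l, by
    rw [← map_pow, conj_pow, map_mul, map_mul, map_pow, hl, mul_smul_comm, mul_one, smul_mul_assoc,
      ← map_mul, mul_inv_cancel, map_one]⟩⟩
  have hEN : (E ⊔ Ec).fixingSubgroup ≤ Nm := fun g hg => by
    have h := (IntermediateField.mem_fixingSubgroup_iff _ _).1 hg
    refine ⟨?_, 1, by rw [hEfix g fun z hz => h z ((le_sup_left : E ≤ E ⊔ Ec) hz), one_pow,
      one_smul]⟩
    rw [mem_legKer, hcfix g fun z hz => h z ((le_sup_right : Ec ≤ E ⊔ Ec) hz)]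
    exact IsSquare.one
  -- tame inertia at `p`
  obtain ⟨τ, V, hV, hτ, hτns⟩ : ∃ (τ : GalQ) (V : ValuationSubring Qb), V.LiesOverPrime p ∧
      τ ∈ V.inertiaSubgroupIn ℚ ∧ τ ∉ H := by
    by_contra hno
    push Not at hno
    have htop := Common.eq_top_of_inertia_le Ec H (fun g hg => by
        rw [mem_legKer, hcfix g fun z hz => (IntermediateField.mem_fixingSubgroup_iff _ _).1 hg z hz]
        exact IsSquare.one)
      fun q hq V hV σ hσ => by
        by_cases hqp : q = p
        · subst hqp; exact hno σ V hV hσ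
        · rw [mem_legKer, (det_one_inertia hp2 hdet hq hqp hV hσ).1]; exact IsSquare.one
    exact ht0 (htop ▸ Subgroup.mem_top t0 : t0 ∈ H)
  obtain ⟨t, ht, hgen⟩ := exists_tame_mod Nm (E ⊔ Ec) hEN hp hp2 hV (a + 1) fun σ _ => by
    refine ⟨?_, 1, ?_⟩
    · rw [pow_succ', pow_mul, sq]
      exact H.pow_mem (hH2 σ) _
    · rw [one_smul, map_pow, ← pow_mul, pow_succ', mul_assoc, hnm, mul_comm, pow_mul, hrn, one_pow]
  have htH : t ∉ H := fun h => hτns (by
    obtain ⟨j, hj⟩ := hgen τ hτ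
    simpa using H.mul_mem (H.pow_mem h j) hj.1)
  -- scalars times squares, and their translates by `t`
  let Sq : GalQ → Prop := fun g => ∃ k ∈ H, ∃ l : ZMod p, r g = l • (r k * r k)
  have hadj : ∀ k : GalQ, (r k).adjugate = (r k).det • r k⁻¹ := fun k => by
    have h1 := Matrix.mul_adjugate (r k)
    have h2 : r k⁻¹ * r k = 1 := by rw [← map_mul, inv_mul_cancel, map_one]
    have h3 := congrArg (r k⁻¹ * ·) h1
    simp only [← Matrix.mul_assoc, h2, one_mul, mul_smul_comm, mul_one] at h3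
    exact h3
  have hSq_mul : ∀ x y, Sq x → Sq y → Sq (x * y) := fun x y ⟨k, hk, l, hl⟩ ⟨k', hk', l', hl'⟩ =>
    ⟨k * k', H.mul_mem hk hk', l * l', by
      have c := commute_inside H ht0 hz hk' hk
      rw [map_mul, map_mul, hl, hl', smul_mul_smul]
      congr 1
      simp only [Matrix.mul_assoc]
      rw [← Matrix.mul_assoc (r k') (r k), c, Matrix.mul_assoc]⟩
  have hSq_t : ∀ y, Sq y → Sq (t * y * t⁻¹) := fun y ⟨k, hk, l, hl⟩ =>
    ⟨k⁻¹, H.inv_mem hk, l * ((r k).det * (r k).det), by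
      have c := conj_outside H htH hz hk
      have e : r t * r t⁻¹ = 1 := by rw [← map_mul, mul_inv_cancel, map_one]
      rw [map_mul, map_mul, hl, mul_smul_comm, ← Matrix.mul_assoc, c, Matrix.mul_assoc _ (r t),
        c, smul_mul_assoc, ← Matrix.mul_assoc, Matrix.mul_assoc _ (r t), e, mul_one, hadj,
        smul_mul_smul, smul_smul]⟩
  have hSq_one : Sq 1 := ⟨1, H.one_mem, 1, by simp⟩
  have hSq_tt : Sq (t * t) := ⟨1, H.one_mem, -(r t).det, by
    rw [map_mul, Attach.sq_fin_two, hz t htH, zero_smul, zero_sub, map_one, mul_one, neg_smul]⟩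
  have hSq_mem : ∀ y, Sq y → y ∈ H := fun y ⟨k, hk, l, hl⟩ => by
    have hd := congrArg Matrix.det hl
    rw [Matrix.det_smul, Fintype.card_fin, Matrix.det_mul, hdet, hdet] at hd
    rw [mem_legKer, hd]
    exact (IsSquare.sq l).mul (IsSquare.mul_self _)
  have hSq_inv : ∀ y, Sq y → Sq y⁻¹ := fun y ⟨k, hk, l, hl⟩ => ⟨k⁻¹, H.inv_mem hk, l⁻¹, by
    have hl0 : l ≠ 0 := fun h0 => by
      have := LR.det_ne_zero (r := r) y
      rw [hl, h0, zero_smul, Matrix.det_zero] at this
      exact this rfl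
    have e1 : r y⁻¹ * r y = 1 := by rw [← map_mul, inv_mul_cancel, map_one]
    have e2 : r k * r k⁻¹ = 1 := by rw [← map_mul, mul_inv_cancel, map_one]
    rw [hl, mul_smul_comm] at e1
    have e3 := congrArg (· * (r k⁻¹ * r k⁻¹)) e1
    simp only [smul_mul_assoc, Matrix.mul_assoc, one_mul] at e3
    rw [← Matrix.mul_assoc (r k) (r k⁻¹), e2, one_mul, e2, mul_one] at e3
    rw [← e3, smul_smul, inv_mul_cancel₀ hl0, one_smul]⟩
  let K : Subgroup GalQ :=
    { carrier := {g | Sq g ∨ Sq (g * t)}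
      one_mem' := Or.inl hSq_one
      mul_mem' := by
        rintro x y (hx | hx) (hy | hy)
        · exact Or.inl (hSq_mul x y hx hy)
        · exact Or.inr (by rw [mul_assoc]; exact hSq_mul x _ hx hy)
        · refine Or.inr ?_
          have h := hSq_mul _ _ (hSq_mul _ _ hx (hSq_inv _ hSq_tt)) (hSq_t y hy)
          have h' := hSq_mul _ _ h hSq_tt
          convert h' using 1
          group
        · refine Or.inl ?_
          have h := hSq_mul _ _ (hSq_mul _ _ hx (hSq_inv _ hSq_tt)) (hSq_t _ hy)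
          convert h using 1
          group
      inv_mem' := by
        rintro x (hx | hx)
        · exact Or.inl (hSq_inv x hx)
        · refine Or.inr ?_
          have h := hSq_t _ (hSq_inv _ hx)
          have h' := hSq_mul _ _ h hSq_tt
          convert h' using 1
          group }
  haveI hKn : K.Normal := by
    have hin : ∀ k, k ∈ H → ∀ x ∈ K, k * x * k⁻¹ ∈ K := by
      intro k hk x hx
      have hc : ∀ y, Sq y → Sq (k * y * k⁻¹) := fun y hy => by
        obtain ⟨j, hj, l, hl⟩ := hy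
        refine ⟨j, hj, l, ?_⟩
        have hyH := hSq_mem y ⟨j, hj, l, hl⟩
        rw [map_mul, map_mul, commute_inside H ht0 hz hk hyH, Matrix.mul_assoc, ← map_mul,
          mul_inv_cancel, map_one, mul_one, hl]
      rcases hx with hx | hx
      · exact Or.inl (hc x hx)
      · refine Or.inr ?_
        -- `k t⁻¹ k⁻¹ t` is a scalar times the square of `k`
        have hkk : Sq (k * t⁻¹ * k⁻¹ * t) := ⟨k, hk, (r k⁻¹).det, by
          have c := conj_outside H htH hz (H.inv_mem hk)
          rw [hadj, inv_inv, smul_mul_assoc] at c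
          have e : r k * r t⁻¹ * (r k⁻¹ * r t) = (r k⁻¹).det • (r k * r k) := by
            have c' := congrArg (fun X => r t⁻¹ * X * r t⁻¹) c
            simp only [← map_mul, mul_smul_comm, smul_mul_assoc] at c'
            simp only [inv_mul_cancel_left, mul_inv_cancel_right, ← mul_assoc] at c'
            calc r k * r t⁻¹ * (r k⁻¹ * r t) = r (k * (t⁻¹ * k⁻¹ * t)) := by
                  simp only [← map_mul, mul_assoc]
              _ = r k * r (t⁻¹ * k⁻¹ * t) := map_mul _ _ _
              _ = (r k⁻¹).det • (r k * r k) := by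
                  rw [show r (t⁻¹ * k⁻¹ * t) = (r k⁻¹).det • r k by
                    have c2 : r (t⁻¹ * (t * k⁻¹)) = r k⁻¹ := by rw [inv_mul_cancel_left]
                    have hti : t⁻¹ ∉ H := fun h => htH (H.inv_mem_iff.1 h)
                    have c3 := conj_outside H hti hz (H.inv_mem hk)
                    rw [hadj, inv_inv, smul_mul_assoc] at c3
                    rw [map_mul, map_mul, c3, smul_mul_assoc, Matrix.mul_assoc, ← map_mul r t⁻¹,
                      inv_mul_cancel, map_one, mul_one], mul_smul_comm]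
          simp only [← map_mul, mul_assoc] at e ⊢
          exact e⟩
        have h' := hSq_mul _ _ (hc _ hx) hkk
        convert h' using 1
        group
    have htK : t ∈ K := Or.inr hSq_tt
    refine ⟨fun x hx g => ?_⟩
    by_cases hg : g ∈ H
    · exact hin g hg x hx
    · have hk : g * t⁻¹ ∈ H := (Subgroup.mul_mem_iff_of_index_two (legKer_index hp2)).2
        ⟨fun h => absurd h hg, fun h => absurd (H.inv_mem_iff.1 h) htH⟩
      have h := hin _ hk _ (K.mul_mem (K.mul_mem htK hx) (K.inv_mem htK))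
      convert h using 1
      group
  have hNK : ∀ g ∈ Nm, g ∈ K := fun g ⟨hg, l, hl⟩ => by
    obtain ⟨i, hi⟩ := hmodd
    refine Or.inl ⟨g ^ (i + 1), H.pow_mem hg _, l⁻¹, ?_⟩
    have hl0 : l ≠ 0 := fun h0 => by
      have := pow_ne_zero m (LR.det_ne_zero (r := r) g)
      rw [← Matrix.det_pow, hl, h0, zero_smul, Matrix.det_zero] at this
      exact this rfl
    rw [map_pow, ← pow_add, show i + 1 + (i + 1) = m + 1 by omega, pow_succ, hl, smul_mul_assoc,
      one_mul, smul_smul, inv_mul_cancel₀ hl0, one_smul]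
  have hIV : V.inertiaSubgroupIn ℚ ≤ K := fun σ hσ => by
    obtain ⟨j, hj⟩ := hgen σ hσ
    have h1 : t ^ j ∈ K := K.pow_mem (Or.inr hSq_tt) j
    simpa using K.mul_mem h1 (hNK _ hj)
  have htop : K = ⊤ := Common.eq_top_of_inertia_le E K
    (fun g hg => Or.inl ⟨1, H.one_mem, 1, by
      rw [hEfix g fun z hz => (IntermediateField.mem_fixingSubgroup_iff _ _).1 hg z hz, map_one,
        one_mul, one_smul]⟩)
    fun q hq V' hV' => by
      by_cases hqp : q = p
      · subst hqp; exact Common.inertia_le_of_inertia_le hq hV hV' hIV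
      · intro σ hσ
        exact Or.inl ⟨1, H.one_mem, 1, by
          rw [hunr q hq hqp V' hV' σ hσ, map_one, one_mul, one_smul]⟩
  -- everything in `H` is a square up to scalars, so complex conjugation is scalar
  have hall : ∀ g ∈ H, Sq g := fun g hg => by
    rcases (htop ▸ Subgroup.mem_top g : g ∈ K) with h | h
    · exact h
    · exact absurd ((H.mul_mem_cancel_left hg).1 (hSq_mem _ h)) htH
  have hiter : ∀ (j : ℕ) g, g ∈ H → ∃ k ∈ H, ∃ l : ZMod p, r g = l • r k ^ (2 ^ j) := by
    intro j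
    induction j with
    | zero => exact fun g hg => ⟨g, hg, 1, by simp⟩
    | succ j ih =>
      intro g hg
      obtain ⟨k, hk, l, hl⟩ := hall g hg
      obtain ⟨k', hk', l', hl'⟩ := ih k hk
      refine ⟨k', hk', l * (l' * l'), ?_⟩
      rw [hl, hl', smul_mul_smul, smul_smul, pow_succ, pow_mul, sq]
  have hcH : complexConjugation ∈ H := by rw [mem_legKer, TOR.cyc_conj hp2]; exact hm1
  obtain ⟨k, -, l, hl⟩ := hiter a _ hcH
  obtain ⟨i, hi⟩ := hmodd
  have hcc : r complexConjugation * r complexConjugation = 1 := by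
    rw [← map_mul, complexConjugation_mul_self, map_one]
  have hcm : r complexConjugation ^ m = r complexConjugation := by
    rw [hi, pow_succ, pow_mul, sq, hcc, one_pow, one_mul]
  rw [hl, _root_.smul_pow, ← pow_mul, hnm, hrn, ← hl] at hcm
  set C := r complexConjugation
  have hd : C.det = -1 := by rw [hdet, TOR.cyc_conj hp2]
  have htr : C.trace = 0 := by
    have h1 := Attach.sq_fin_two C
    rw [hcc, hd, neg_smul, one_smul, sub_neg_eq_add, right_eq_add, smul_eq_zero] at h1
    refine h1.resolve_right fun h0 => ?_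
    rw [h0, Matrix.det_zero] at hd
    exact zero_ne_one (neg_eq_zero.1 hd.symm).symm
  rw [← hcm, Matrix.trace_smul, Matrix.trace_one, Fintype.card_fin, smul_eq_mul, mul_eq_zero] at htr
  rcases htr with h0 | h0
  · rw [← hcm, h0, zero_smul, Matrix.det_zero] at hd
    exact zero_ne_one (neg_eq_zero.1 hd.symm).symm
  · exact LR.two_ne_zero_zmod hp hp2 (by exact_mod_cast h0)

include hΔ he hdet in
/-- every subgroup of index two is left by an element of nonzero trace -/
theorem exists_outside (hss : W.IsSemistableModel) (hp35 : p = 3 ∨ p = 5)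
    (hspan : Submodule.span (ZMod p) (Set.range r) = ⊤) (G : Subgroup GalQ) (hG : G.index = 2) :
    ∃ x, x ∉ G ∧ (r x).trace ≠ 0 := by
  classical
  have hp : p.Prime := Fact.out
  have hp2 : p ≠ 2 := by rcases hp35 with rfl | rfl <;> norm_num
  by_contra hcon
  push Not at hcon
  haveI := Subgroup.normal_of_index_eq_two hG
  set H := legKer p
  have h2 : (2 : ZMod p) ≠ 0 := LR.two_ne_zero_zmod hp hp2
  obtain ⟨E, hE, hEfix⟩ := exists_rep_level hΔ he (r := r)
  obtain ⟨Ec, hEc, hcfix⟩ := Attach.exists_cyc_level p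
  haveI := hE; haveI := hEc
  have hfixG : (E ⊔ Ec).fixingSubgroup ≤ G ⊓ H := fun g hg => by
    have h := (IntermediateField.mem_fixingSubgroup_iff _ _).1 hg
    refine ⟨?_, ?_⟩
    · by_contra hgG
      have := hcon g hgG
      rw [hEfix g fun z hz => h z ((le_sup_left : E ≤ E ⊔ Ec) hz), Matrix.trace_one,
        Fintype.card_fin] at this
      exact h2 (by exact_mod_cast this)
    · show g ∈ H
      rw [mem_legKer, hcfix g fun z hz => h z ((le_sup_right : Ec ≤ E ⊔ Ec) hz)]
      exact IsSquare.one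
  have haway : ∀ q : ℕ, q.Prime → q ≠ p → ∀ V : ValuationSubring Qb, V.LiesOverPrime q →
      ∀ σ ∈ V.inertiaSubgroupIn ℚ, σ ∈ G ∧ σ ∈ H := by
    intro q hq hqp V hV σ hσ
    refine ⟨?_, ?_⟩
    · by_contra hσG
      have hsq := sub_one_sq_of_inertia hp2 he hq hqp (hss q hq) hV hσ
      have h1 := congrArg Matrix.det hsq
      rw [Matrix.det_mul, Matrix.det_zero, mul_self_eq_zero] at h1
      have htr := hcon σ hσG
      rw [Matrix.trace_fin_two] at htr
      simp [Matrix.det_fin_two] at h1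
      have hd := (det_one_inertia hp2 hdet hq hqp hV hσ).2
      rw [Matrix.det_fin_two] at hd
      exact h2 (by linear_combination htr - hd + h1)
    · rw [mem_legKer, (det_one_inertia hp2 hdet hq hqp hV hσ).1]; exact IsSquare.one
  obtain ⟨g0, hg0⟩ : ∃ g0, g0 ∉ G := by
    by_contra h
    push Not at h
    rw [show G = ⊤ from eq_top_iff.2 fun x _ => h x, Subgroup.index_top] at hG
    exact absurd hG (by norm_num)
  let K : Subgroup GalQ :=
    { carrier := {g | g ∈ G ↔ g ∈ H}
      one_mem' := iff_of_true G.one_mem H.one_mem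
      mul_mem' := fun {x y} (hx : x ∈ G ↔ x ∈ H) (hy : y ∈ G ↔ y ∈ H) => by
        show x * y ∈ G ↔ x * y ∈ H
        rw [Subgroup.mul_mem_iff_of_index_two hG,
          Subgroup.mul_mem_iff_of_index_two (legKer_index hp2), hx, hy]
      inv_mem' := fun {x} (hx : x ∈ G ↔ x ∈ H) => by
        show x⁻¹ ∈ G ↔ x⁻¹ ∈ H
        rw [G.inv_mem_iff, H.inv_mem_iff]
        exact hx }
  haveI : K.Normal := ⟨fun x (hx : x ∈ G ↔ x ∈ H) g => by
    show g * x * g⁻¹ ∈ G ↔ g * x * g⁻¹ ∈ H
    simp only [show H = legKer p from rfl, Subgroup.mul_mem_iff_of_index_two hG,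
      Subgroup.mul_mem_iff_of_index_two (legKer_index hp2), Subgroup.inv_mem_iff] at hx ⊢
    by_cases h1 : g ∈ G <;> by_cases h2 : g ∈ legKer p <;> simp [h1, h2, hx]⟩
  have hIK : ∀ V : ValuationSubring Qb, V.LiesOverPrime p → V.inertiaSubgroupIn ℚ ≤ K := by
    intro V hV
    obtain ⟨t, ht, hgen⟩ := exists_tame_mod (G ⊓ H) (E ⊔ Ec) hfixG hp hp2 hV 1 fun σ _ => by
      rw [pow_one, sq]
      exact ⟨Subgroup.mul_self_mem_of_index_two hG σ,
        Subgroup.mul_self_mem_of_index_two (legKer_index hp2) σ⟩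
    have hI : ∀ S : Subgroup GalQ, G ⊓ H ≤ S → t ∈ S → V.inertiaSubgroupIn ℚ ≤ S :=
      fun S hS htS σ hσ => by
        obtain ⟨j, hj⟩ := hgen σ hσ
        simpa using S.mul_mem (S.pow_mem htS j) (hS hj)
    refine hI K (fun x hx => iff_of_true hx.1 hx.2) ?_
    show t ∈ G ↔ t ∈ H
    refine iff_of_false (fun htG => hg0 ?_) (fun htH => ?_)
    · exact (Common.eq_top_of_inertia_le (E ⊔ Ec) G (hfixG.trans inf_le_left) fun q hq V' hV' => by
        by_cases hqp : q = p
        · subst hqp; exact Common.inertia_le_of_inertia_le hq hV hV' (hI G inf_le_left htG)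
        · exact fun σ hσ => (haway q hq hqp V' hV' σ hσ).1) ▸ Subgroup.mem_top g0
    · obtain ⟨σ, hσ⟩ := exists_cyc_nonsquare (p := p) hp2
      exact hσ ((Common.eq_top_of_inertia_le (E ⊔ Ec) H (hfixG.trans inf_le_right)
        fun q hq V' hV' => by
          by_cases hqp : q = p
          · subst hqp; exact Common.inertia_le_of_inertia_le hq hV hV' (hI H inf_le_right htH)
          · exact fun σ hσ => (haway q hq hqp V' hV' σ hσ).2) ▸ Subgroup.mem_top σ : σ ∈ H)
  have hK : K = ⊤ := Common.eq_top_of_inertia_le (E ⊔ Ec) K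
    (fun x hx => iff_of_true (hfixG hx).1 (hfixG hx).2) fun q hq V hV => by
      by_cases hqp : q = p
      · subst hqp; exact hIK V hV
      · exact fun σ hσ => iff_of_true (haway q hq hqp V hV σ hσ).1 (haway q hq hqp V hV σ hσ).2
  have hGH : ∀ g, g ∈ G ↔ g ∈ H := fun g => (hK ▸ Subgroup.mem_top g : g ∈ K)
  rcases hp35 with rfl | rfl
  · obtain ⟨σ, hσd, hσt⟩ := exists_trace_ne_three hΔ hss hspan he hdet
    refine hσt (hcon σ fun h => ?_)
    rw [hGH, mem_legKer, ← hdet, hσd] at h
    exact zmod_small_facts.1 h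
  · obtain ⟨σ, hσd, hσt⟩ := exists_trace_ne_of_sq hΔ hp2 he hdet hss hspan zmod_small_facts.2.1
    exact hσt (hcon σ fun h => hσd ((hGH σ).1 h))

end Galois

section Residual

/-- the residual representation of a semistable irreducible curve at `p = 3, 5`, with its big-image
properties -/
structure SemiResidual (W : WeierstrassCurve ℤ) (p : ℕ) [Fact p.Prime] {k : Type} [Field k]
    [Algebra (ZMod p) k] (ρbar : ResidualGaloisRep k) (r : GalQ →* GL (Fin 2) k) : Prop where
  setting : PT.TW.Setting p ρbar r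
  span : Submodule.span k (Set.range fun g => (r g : Matrix (Fin 2) (Fin 2) k)) = ⊤
  frob : ∀ ℓ : ℕ, ℓ.Prime → W.IsGoodPrimeFor ℓ → ℓ ≠ p →
    ∀ A : ValuationSubring Qb, A.LiesOverPrime ℓ → ∀ σ : GalQ,
      A.IsFrobeniusAt σ ℓ → (r σ : Matrix (Fin 2) (Fin 2) k).trace = (W.apOfModel ℓ : k) ∧
        (r σ : Matrix (Fin 2) (Fin 2) k).det = (ℓ : k)
  unipotent : ∀ s : ℕ, s.Prime → s ≠ p →
    ∀ A : ValuationSubring Qb, A.LiesOverPrime s → ∀ σ ∈ A.inertiaSubgroupIn ℚ,
      ((r σ : Matrix (Fin 2) (Fin 2) k) - 1) * ((r σ : Matrix (Fin 2) (Fin 2) k) - 1) = 0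
  unramified : ∀ s : ℕ, s.Prime → s ≠ p → s ∉ sMin W p →
    ∀ A : ValuationSubring Qb, A.LiesOverPrime s → ∀ σ ∈ A.inertiaSubgroupIn ℚ, r σ = 1
  ramified : ∀ s ∈ sMin W p, ∀ A : ValuationSubring Qb, A.LiesOverPrime s →
    ∃ σ ∈ A.inertiaSubgroupIn ℚ, r σ ≠ 1
  sigma0 : ∃ σ : GalQ, (∀ (n : ℕ) [NeZero n], cyc n σ = 1) ∧
    (r σ : Matrix (Fin 2) (Fin 2) k).trace ≠ 2
  ordinary : (p : ℤ) ∣ W.Δ → PT.TW.StrictMat p fun σ => (r σ : Matrix (Fin 2) (Fin 2) k)

/-- `strictMat_torsion` at `n = 0` -/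
theorem strictMat_tors_one {W : WeierstrassCurve ℤ} {p : ℕ} (hp : p.Prime) (hp2 : p ≠ 2)
    (hΔ : W.Δ ≠ 0) (hd : (p : ℤ) ∣ W.Δ) (hss : SemistableAt W p) {m : ℕ} (hm : m = p ^ (0 + 1))
    [NeZero m] [IsLocalRing (ZMod m)] (β : Module.Basis (Fin 2) (ZMod m) (Tors W m))
    (hdet : ∀ σ : GalQ, LinearMap.det (WeierstrassCurve.Affine.Point.galoisRepModuleEnd ℚ
      (K := AlgebraicClosure ℚ) (W.map (Int.castRingHom ℚ)) m σ) = cyc m σ) :
    PT.TW.StrictMat p fun σ => LinearMap.toMatrix β β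
      (WeierstrassCurve.Affine.Point.galoisRepModuleEnd ℚ (K := AlgebraicClosure ℚ)
        (W.map (Int.castRingHom ℚ)) m σ) := by
  subst hm
  exact strictMat_torsion hp hp2 hΔ hd hss β hdet

/-- over a field in which the quadratics over `ZMod p` split, a semistable curve with irreducible
`p`-torsion gives a residual representation with big image -/
theorem exists_semiResidual {W : WeierstrassCurve ℤ} (hΔ : W.Δ ≠ 0) (hss : W.IsSemistableModel)
    {p : ℕ} [Fact p.Prime] (hp35 : p = 3 ∨ p = 5) (hirr : W.ModRepIsIrreducible p)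
    (k : Type) [Field k] [Algebra (ZMod p) k]
    (hquad : ∀ a b : ZMod p, ∃ x : k,
      x * x + algebraMap (ZMod p) k a * x + algebraMap (ZMod p) k b = 0) :
    ∃ (ρbar : ResidualGaloisRep k) (r : GalQ →* GL (Fin 2) k), SemiResidual W p ρbar r := by
  classical
  have hp : p.Prime := Fact.out
  have hp2 : p ≠ 2 := by rcases hp35 with rfl | rfl <;> norm_num
  obtain ⟨r0, e, hspan0, he, htr, hdet⟩ := TOR.exists_matrix_rep (p := p) hΔ hp2 hirr
  set ι := algebraMap (ZMod p) k with hι
  have hιi : Function.Injective ι := ι.injective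
  let R : GalQ →* Matrix (Fin 2) (Fin 2) k := ι.mapMatrix.toMonoidHom.comp r0
  let r : GalQ →* GL (Fin 2) k := R.toHomUnits
  have hR : ∀ g, (r g : Matrix (Fin 2) (Fin 2) k) = (r0 g).map ι := fun g => rfl
  have hact : ∀ σ τ : GalQ, (∀ x : Tors W p, σ • x = τ • x) → r0 σ = r0 τ := fun σ τ h =>
    Matrix.ext_of_mulVec_single fun j => by
      obtain ⟨x, hx⟩ := e.surjective (Pi.single j 1)
      rw [← hx, ← he, ← he, h x]
  have hfix : ∀ σ : GalQ, r0 σ = 1 → ∀ x : Tors W p, σ • x = x := fun σ h x =>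
    e.injective (by rw [he, h, one_mulVec])
  have hdetR : ∀ g, (r g : Matrix (Fin 2) (Fin 2) k).det = ι (cyc p g) := fun g => by
    rw [hR, ← hdet g, ← RingHom.mapMatrix_apply, ← RingHom.map_det]
  have htrR : ∀ g, (r g : Matrix (Fin 2) (Fin 2) k).trace = ι (r0 g).trace := fun g => by
    rw [hR, AddMonoidHom.map_trace]
  have hspanK : ∀ S : Set GalQ, Submodule.span (ZMod p) (r0 '' S) = ⊤ →
      Submodule.span k ((fun g => (r g : Matrix (Fin 2) (Fin 2) k)) '' S) = ⊤ := by
    intro S hS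
    rw [eq_top_iff]
    intro M _
    have hmap : ∀ X : Matrix (Fin 2) (Fin 2) (ZMod p), X.map ι ∈
        Submodule.span k ((fun g => (r g : Matrix (Fin 2) (Fin 2) k)) '' S) := fun X => by
      have hX : X ∈ Submodule.span (ZMod p) (r0 '' S) := hS ▸ Submodule.mem_top
      induction hX using Submodule.span_induction with
      | mem x hx =>
        obtain ⟨g, hg, rfl⟩ := hx
        exact Submodule.subset_span ⟨g, hg, hR g⟩
      | zero => simp
      | add a b _ _ ha hb => rw [Matrix.map_add _ (map_add ι)]; exact add_mem ha hb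
      | smul c a _ ha =>
        rw [show (c • a).map ι = ι c • a.map ι by ext; simp]
        exact Submodule.smul_mem _ _ ha
    rw [Matrix.matrix_eq_sum_single M]
    refine sum_mem fun i _ => sum_mem fun j _ => ?_
    rw [show single i j (M i j) = M i j • (single i j (1 : ZMod p)).map ι by
      ext a b; simp [single, apply_ite ι]]
    exact Submodule.smul_mem _ _ (hmap _)
  obtain ⟨L, hL, hLfix⟩ := EllFrob.exists_torsion_field hΔ p hp.ne_zero
  have hlev : Deform.FinLevel fun g => (r g : Matrix (Fin 2) (Fin 2) k) := by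
    refine ⟨L, hL, fun σ hσ => ?_⟩
    show (r σ : Matrix (Fin 2) (Fin 2) k) = 1
    rw [hR, hact σ 1 (hLfix σ 1 fun z hz => hσ z hz), map_one,
      Matrix.map_one _ (map_zero ι) (map_one ι)]
  have h1 : ((r 1 : GL (Fin 2) k) : Matrix (Fin 2) (Fin 2) k) = 1 := by
    rw [map_one, Units.val_one]
  have hmul : ∀ σ τ : GalQ, ((r (σ * τ) : GL (Fin 2) k) : Matrix (Fin 2) (Fin 2) k) =
      (r σ : Matrix (Fin 2) (Fin 2) k) * (r τ : Matrix (Fin 2) (Fin 2) k) := fun σ τ => by
    rw [map_mul, Units.val_mul]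
  set ρbar := Attach.residualOfMat (fun g => (r g : Matrix (Fin 2) (Fin 2) k)) h1 hmul hlev
  have hrep : Deform.RepMat ρbar.ρ fun g => (r g : Matrix (Fin 2) (Fin 2) k) :=
    Deform.repMat_matEnd _ h1 hmul
  have hirrS : ∀ S : Set GalQ,
      Submodule.span k ((fun g => (r g : Matrix (Fin 2) (Fin 2) k)) '' S) = ⊤ →
      ∀ V : Submodule (AlgebraicClosure k) (ρbar.baseChange (AlgebraicClosure k)).V,
        (∀ σ ∈ S, ∀ x ∈ V, (ρbar.baseChange (AlgebraicClosure k)).ρ σ x ∈ V) →
          V = ⊥ ∨ V = ⊤ := by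
    intro S hS V hV
    obtain ⟨b, hb⟩ := Deform.repMat_baseChange_residual (k' := AlgebraicClosure k) hrep
    have h := LL.stable_eq_bot_or_top _ hS (V.map b.equivFun.toLinearMap) (by
      rintro _ ⟨g, hg, rfl⟩ _ ⟨x, hx, rfl⟩
      refine ⟨_, hV g hg x hx, ?_⟩
      have hb' := hb g
      simp only at hb'
      rw [LinearEquiv.coe_coe, ← hb']
      exact (LinearMap.toMatrix_mulVec_repr b b _ x).symm)
    rcases h with h | h
    · exact Or.inl (Submodule.map_injective_of_injective b.equivFun.injective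
        (by rw [h, Submodule.map_bot]))
    · exact Or.inr (Submodule.map_injective_of_injective b.equivFun.injective
        (by rw [h, Submodule.map_top, LinearEquiv.range]))
  have hspanU : Submodule.span k ((fun g => (r g : Matrix (Fin 2) (Fin 2) k)) '' Set.univ) = ⊤ :=
    hspanK _ (by rw [Set.image_univ]; exact hspan0)
  have hone : ∀ σ : GalQ, (∀ x : Tors W p, σ • x = x) → r σ = 1 := fun σ h => Units.ext (by
    rw [hR, hact σ 1 (fun x => by rw [h x, one_smul]), map_one,
      Matrix.map_one _ (map_zero ι) (map_one ι)]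
    rfl)
  refine ⟨ρbar, r, ⟨hp2, hrep, ?_, ?_, ?_, ?_, ?_⟩, by simpa using hspanU, ?_, ?_, ?_, ?_, ?_, ?_⟩
  · exact fun V hV => hirrS _ hspanU V fun σ _ x hx => hV σ x hx
  · intro G hG V hV
    obtain ⟨x, hx, ht⟩ := exists_outside hΔ he hdet hss hp35 hspan0 G hG
    exact hirrS _ (hspanK _ (span_of_outside hspan0 G hG hx ht)) V hV
  · intro g
    rw [hdetR, PT.TW.cycloChar_eq_cyc]
  · intro g
    obtain ⟨α, hα⟩ := hquad (-(r0 g).trace) (cyc p g)
    refine ⟨α, ι (r0 g).trace - α, ?_⟩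
    rw [map_neg] at hα
    have h2' : ι (cyc p g) = α * (ι (r0 g).trace - α) := by linear_combination hα
    rw [Matrix.charpoly_fin_two, htrR, hdetR, h2']
    simp only [map_sub, map_mul]
    ring
  · exact ⟨L, hL, fun g hg => hone g fun x =>
      (hLfix g 1 (fun z hz => hg ⟨z, hz⟩) x).trans (one_smul GalQ x)⟩
  · intro ℓ hℓ hgood hℓp A hA σ hσ
    obtain ⟨e1, -⟩ := EllFrob.galois_charpoly hℓ hgood hA hσ hp (Ne.symm hℓp)
    rw [htrR, hdetR, htr, e1, Attach.cyc_frobenius hℓ
      (fun h => hℓp ((Nat.prime_dvd_prime_iff_eq hℓ hp).1 h)) hA hσ, map_intCast, map_natCast]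
    exact ⟨rfl, rfl⟩
  · intro s hs hsp A hA σ hσ
    rw [hR, ← Matrix.map_one ι (map_zero ι) (map_one ι), ← Matrix.map_sub _ (map_sub ι),
      ← Matrix.map_mul, sub_one_sq_of_inertia hp2 he hs hsp (hss s hs) hA hσ,
      Matrix.map_zero _ (map_zero ι)]
  · intro s hs hsp hsmin A hA σ hσ
    refine hone σ fun x => Subtype.ext ?_
    have hx : p • (x : QPoint W) = 0 := by
      rw [← natCast_zsmul]; exact (Submodule.mem_torsionBy_iff _ _).mp x.2
    rw [Torsion.coe_smul]
    by_cases hd : (s : ℤ) ∣ W.Δ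
    · refine Local.inertia_fix_of_dvd hA hs (hss s hs) hΔ hp hp2 hsp ?_ hσ hx
      by_contra hv
      exact hsmin ((mem_sMin hΔ).2 ⟨hs, hd, hsp, hv⟩)
    · exact Local.inertia_fix_zeroComp hA hs hp hsp hσ hx (Local.mem_zeroComp_of_good hA hs hd _)
  · intro s hs A hA
    obtain ⟨hsP, hd, hsp, hv⟩ := (mem_sMin hΔ).1 hs
    obtain ⟨σ, hσ, P, hP, hne⟩ := LL.exists_moved_torsion hA hsP hd (hss s hsP) hΔ hp hp2 hsp hv
    let x : Tors W p := ⟨P, (Submodule.mem_torsionBy_iff _ _).mpr (by rw [natCast_zsmul]; exact hP)⟩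
    refine ⟨σ, hσ, fun h => hne ?_⟩
    have h0 : r0 σ = 1 := Matrix.map_injective hιi (by
      show (r0 σ).map ι = (1 : Matrix (Fin 2) (Fin 2) (ZMod p)).map ι
      rw [← hR, h, Matrix.map_one _ (map_zero ι) (map_one ι)]
      rfl)
    exact congrArg Subtype.val (hfix σ h0 x)
  · obtain ⟨σ, hσ, hσt⟩ := LR.exists_commutator_trace_ne hspan0
    refine ⟨σ, fun n _ => ?_, fun h => hσt (hιi ?_)⟩
    · exact LR.hom_eq_one_of_mem_commutator
        ({ toFun := cyc n, map_one' := Attach.cyc_one n, map_mul' := Attach.cyc_mul n } :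
          GalQ →* ZMod n) hσ
    · rw [map_ofNat, ← htrR, h]
  · intro hd
    have h2 := strictMat_tors_one hp hp2 hΔ hd (hss p hp) (pow_one p).symm (Module.Basis.ofEquivFun e)
      (fun σ => congrFun (EllFrob.repDet_eq_cyc hΔ p) σ)
    refine (congrArg (PT.TW.StrictMat p) (funext fun σ => ?_)).mp (h2.map ι)
    rw [hR]
    congr 1
    ext i j
    rw [LinearMap.toMatrix_apply]
    simp only [Module.Basis.coe_ofEquivFun, Module.Basis.ofEquivFun_repr_apply]
    show e (σ • e.symm (Pi.single j 1)) i = r0 σ i j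
    rw [he, LinearEquiv.apply_symm_apply, Matrix.mulVec_single_one]
    rfl

/-- at `p = 3`: primes `≡ 2 (mod 3)` with a unit eigenvalue -/
theorem exists_elliptic_prime {W : WeierstrassCurve ℤ} (hΔ : W.Δ ≠ 0) (hss : W.IsSemistableModel)
    [Fact (Nat.Prime 3)] (hirr : W.ModRepIsIrreducible 3) (F : Finset ℕ) :
    ∃ l : ℕ, l.Prime ∧ l ∉ F ∧ l % 3 = 2 ∧ W.IsGoodPrimeFor l ∧ l ≠ 3 ∧
      ¬ (3 : ℤ) ∣ W.apOfModel l := by
  classical
  obtain ⟨r, e, hspan, he, htr, hdet⟩ := TOR.exists_matrix_rep (p := 3) hΔ (by norm_num) hirr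
  obtain ⟨σ, hσd, hσt⟩ := exists_trace_ne_three hΔ hss hspan he hdet
  obtain ⟨L, hL, hLfix⟩ := EllFrob.exists_torsion_field hΔ 3 (by norm_num)
  haveI := hL
  obtain ⟨l, A, τ, i, j, hl, hlS, hA, hτ, hi, -⟩ :=
    LR.exists_frobenius_gen L σ (F ∪ {3} ∪ W.Δ.natAbs.primeFactors)
  simp only [Finset.mem_union, Finset.mem_singleton, not_or, Nat.mem_primeFactors] at hlS
  obtain ⟨⟨hlF, hl3⟩, hlΔ⟩ := hlS
  have hgood : W.IsGoodPrimeFor l := fun h =>
    hlΔ ⟨hl, Int.natCast_dvd.1 h, Int.natAbs_ne_zero.2 hΔ⟩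
  have hlin : r σ = r τ ^ i := by
    rw [← map_pow]
    refine Matrix.ext_of_mulVec_single fun a => ?_
    obtain ⟨x, hx⟩ := e.surjective (Pi.single a 1)
    rw [← hx, ← he, ← he, hLfix σ (τ ^ i) (fun z hz => (hi z hz).symm)]
  have hd : (r τ).det = (l : ZMod 3) := (hdet τ).trans
    (Attach.cyc_frobenius hl (fun h => hl3 ((Nat.prime_dvd_prime_iff_eq hl Nat.prime_three).1 h))
      hA hτ)
  obtain ⟨e1, -⟩ := EllFrob.galois_charpoly hl hgood hA hτ Nat.prime_three (Ne.symm hl3)
  have hdi : (r τ).det ^ i = -1 := by rw [← Matrix.det_pow, ← hlin, hσd]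
  have hd1 : (r τ).det = -1 := by
    refine hdet τ ▸ (cyc_cases (Or.inl rfl) τ).resolve_left fun h1 => ?_
    rw [hdet, h1, one_pow] at hdi
    exact zmod_small_facts.2.2.1 hdi
  refine ⟨l, hl, hlF, ?_, hgood, hl3, fun hdvd => hσt ?_⟩
  · rw [hd1] at hd
    have := congrArg ZMod.val hd
    rw [ZMod.val_natCast, zmod_small_facts.2.2.2] at this
    exact this.symm
  · have ht : (r τ).trace = 0 := by
      rw [htr, e1]
      exact (ZMod.intCast_zmod_eq_zero_iff_dvd _ 3).2 hdvd
    have hsq : r τ * r τ = 1 := by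
      rw [Attach.sq_fin_two, ht, zero_smul, hd1, neg_one_smul, zero_sub, neg_neg]
    rcases Nat.even_or_odd i with ⟨m, rfl⟩ | ⟨m, rfl⟩
    · rw [← two_mul, pow_mul, sq, hsq, one_pow] at hlin
      rw [hlin, Matrix.det_one] at hσd
      exact (zmod_small_facts.2.2.1 hσd).elim
    · rw [hlin, pow_succ, pow_mul, sq, hsq, one_pow, one_mul, ht]

end Residual

end FLTAgent.MLT

end
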