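import Fermat.Agent.MLT.World
import Fermat.Agent.TOR.MazurAbsent

/-!
Area MLT, parcel KFORM: if every killer of a level vanishes at the curve, a form of that level agrees
with the curve away from a finite set.
-/

set_option autoImplicit false

noncomputable section

open WeierstrassCurve

namespace FLTAgent.MLT

/-- the value of a polynomial in good Hecke operators at the curve -/
def valW (W : WeierstrassCurve ℤ) {N p : ℕ} {good : ℕ → Prop}
    (P : MvPolynomial (TOR.SubPrime N p good) ℤ) : ℤ :=
  MvPolynomial.aeval (fun x : TOR.SubPrime N p good => W.apOfModel (x.1.1 : ℕ)) P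

/-- the killers of a level vanish at the curve: then the curve is modular away from a finite set -/
theorem modularAway_of_killers {W : WeierstrassCurve ℤ} {N p : ℕ} [NeZero N] [NeZero p]
    (S : Finset ℕ)
    (h : ∀ P : MvPolynomial (TOR.SubPrime N p (fun l => l ∉ S)) ℤ,
      TOR.evalSub (fun l => l ∉ S) N (dvd_mul_right N p) P = 0 → valW W P = 0) :
    ModularAway W N := by
  classical
  set good : ℕ → Prop := fun l => l ∉ S
  set e0 := TOR.evalSub good N (dvd_mul_right N p) with he0
  let v : MvPolynomial (TOR.SubPrime N p good) ℤ →+* ℂ :=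
    (Int.castRingHom ℂ).comp
      (MvPolynomial.aeval (fun x : TOR.SubPrime N p good => W.apOfModel (x.1.1 : ℕ))).toRingHom
  have hker : RingHom.ker e0.rangeRestrict ≤ RingHom.ker v := fun P hP => by
    rw [RingHom.mem_ker] at hP ⊢
    have h0 : valW W P = 0 := h P (congrArg Subtype.val hP)
    show ((valW W P : ℤ) : ℂ) = 0
    rw [h0, Int.cast_zero]
  let θ : e0.range →+* ℂ :=
    RingHom.liftOfSurjective e0.rangeRestrict e0.rangeRestrict_surjective ⟨v, hker⟩
  have hθ : ∀ P, θ (e0.rangeRestrict P) = v P := fun P =>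
    RingHom.liftOfRightInverse_comp_apply _ _ _ ⟨v, hker⟩ P
  haveI := Attach.finite_TFull N
  haveI : IsNoetherian ℤ (Attach.TFull N) := isNoetherian_of_isNoetherianRing_of_finite ℤ _
  haveI : Module.Finite ℤ e0.range := by
    have := (inferInstance : Module.Finite ℤ ↥(AddSubgroup.toIntSubmodule e0.range.toAddSubgroup))
    exact Module.Finite.equiv (LinearEquiv.refl ℤ _ : ↥(AddSubgroup.toIntSubmodule e0.range.toAddSubgroup) ≃ₗ[ℤ] e0.range)
  obtain ⟨χ0, hχ0⟩ := Attach.exists_extension e0.range.subtype Subtype.val_injective θ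
  obtain ⟨g, hg, hgc⟩ := SS.exists_eigenform χ0
  refine ⟨insert p S ∪ p.primeFactors, g, hg, fun l hl hlS _ hlN => ?_⟩
  simp only [Finset.mem_union, Finset.mem_insert, Nat.mem_primeFactors, not_or] at hlS
  have hlNp : ¬ l ∣ N * p := fun hd => (hl.dvd_mul.1 hd).elim hlN fun h' =>
    hlS.2 ⟨hl, h', NeZero.ne p⟩
  let x : TOR.SubPrime N p good := ⟨⟨⟨l, hl⟩, hlNp, hlS.1.1⟩, hlS.1.2⟩
  rw [hgc l hl hlN]
  have h1 := RingHom.congr_fun hχ0 (e0.rangeRestrict (MvPolynomial.X x))
  rw [RingHom.comp_apply, hθ] at h1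
  have h2 : v (MvPolynomial.X x) = ((W.apOfModel l : ℤ) : ℂ) := by simp [v, x]
  rw [← h2, ← h1]
  congr 1
  exact (TOR.evalSub_X good N (dvd_mul_right N p) x).symm

end FLTAgent.MLT

end
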