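import Fermat.Agent.TOR.MazurLocal
import Fermat.Agent.PT.TW.Flat.Kummer
import Fermat.Agent.Flat.API

/-!
Area MLT, parcel SUP: at a place over `p` where the discriminant of a multiplicative curve has
valuation prime to `p` the `p`-torsion has no finite flat model.

A torsion point `Q` outside the identity component has an abscissa of valuation outside the
valuations of the tame field; adding a point of the kernel of reduction moves it by its valuation
times that of `ζ - 1`. Hence the Kummer generator of the extension has index prime to `p`, and a flat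
model would move an integer by at least `ζ - 1`, which such an extension does not allow.
-/

set_option autoImplicit false
set_option linter.unusedSectionVars false
set_option linter.style.haveILetI false
set_option maxHeartbeats 1000000

noncomputable section

open WeierstrassCurve IsLocalRing
open FLTAgent.Local FLTAgent.Torsion FLTAgent.TOR
open FLTAgent.Attach (cyc cyc_spec)
open scoped WeierstrassCurve.Affine

namespace FLTAgent.MLT

section Model

variable {K : Type*} [Field K] {A : ValuationSubring K} [DecidableEq K] [CharZero K]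
  [IsAlgClosed K] [DecidableEq (ResidueField A)] {W1 : WeierstrassCurve A} {p : ℕ}

/-- some `p`-torsion point is outside the identity component -/
theorem exists_torsion_not_inE0 (hW : Nodal W1) (hδ : A.valuation (W1.a₆ : K) ≠ 0) (hp : p.Prime)
    (hp2 : p ≠ 2) (hchar : CharP (ResidueField A) p) :
    ∃ R : (genFib W1).toAffine.Point, p • R = 0 ∧ ¬ InE0 R := by
  have := isElliptic_genFib hW hδ
  obtain ⟨-, hf0⟩ := preΨ'_genFib_lead (W1 := W1) hp hp2
  have hodd := hp.odd_of_ne_two hp2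
  have hp3 : 3 ≤ p := by have := hp.two_le; omega
  have h2 := two_ne_zero_residue hchar hp hp2
  obtain ⟨hne, -⟩ := preΨ'_specFib_natDegree hW h2 hodd hp3
  set f := W1.preΨ' p with hf
  have hred : f.map (residue A) = (specFib W1).preΨ' p := (W1.map_preΨ' (residue A) p).symm
  have h0 : (f.map (residue A)).eval 0 = 0 := by
    rw [hred]
    refine preΨ'_eval_eq_zero _ ?_ ?_ hodd hp3
    · simp [Ψ₂Sq, b₆, hW.a₃, Local.res_eq_zero.2 hW.a₆]
    · simp [Ψ₃, b₈, hW.a₃, hW.a₄, Local.res_eq_zero.2 hW.a₆]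
  obtain ⟨c, g, e, -, -, hc⟩ := exists_gauss f (by rwa [hf, preΨ'_map_subtype])
  have hcu : A.valuation (c : K) = 1 := by
    refine Local.res_ne_zero.1 fun h => hne ?_
    rw [← hred, e, Polynomial.map_mul, Polynomial.map_C, h, Polynomial.C_0, zero_mul]
  obtain ⟨r, hr, hr1⟩ : ∃ r ∈ (f.map A.subtype).roots, A.valuation r < 1 := by
    by_contra hno
    push Not at hno
    have h1 : A.valuation ((f.eval 0 : A) : K) = 1 := by
      have e0 : ((f.eval 0 : A) : K) = (f.map A.subtype).eval 0 := by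
        have h := (Polynomial.eval_map_apply (p := f) A.subtype (0 : A)).symm
        rwa [map_zero] at h
      rw [e0, (IsAlgClosed.splits (f.map A.subtype)).eq_prod_roots, Polynomial.eval_mul,
        Polynomial.eval_C, Polynomial.eval_multiset_prod, map_mul, map_multiset_prod,
        Multiset.map_map, Multiset.map_map, ← hcu, hc]
      congr 2
      refine Multiset.map_congr rfl fun r hr => ?_
      simp [max_eq_right (hno r hr)]
    have h2 : residue A (f.eval 0) = 0 := by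
      rw [← Polynomial.eval_map_apply, map_zero]; exact h0
    exact Local.res_ne_zero.2 h1 h2
  rw [hf, preΨ'_map_subtype, Polynomial.mem_roots hf0] at hr
  obtain ⟨y, hy⟩ := exists_nonsingular (genFib W1) r
  refine ⟨.some r y hy, (nsmul_eq_zero_iff hy p).mpr ?_, fun h => ?_⟩
  · rw [ΨSq_eval_eq hp hp2, hr, zero_pow two_ne_zero]
  · have := hW.dist1_eq_one h
    simp only [dist1, if_pos hr1] at this
    exact hr1.ne this

/-- adding a point of the kernel moves a point outside the identity component by its valuation -/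
theorem move_not_inE0 (hW : Nodal W1) (hp : p.Prime) (hp2 : p ≠ 2)
    {Q T : (genFib W1).toAffine.Point} (hQ : p • Q = 0) (hQ0 : ¬ InE0 Q) (hT : InE1 T)
    (hT0 : T ≠ 0) :
    A.valuation (xc (Q + T) - xc Q) ^ 2 * A.valuation (xc T) = A.valuation (xc Q) ^ 2 := by
  rcases T with _ | ⟨x₁, y₁, h₁⟩
  · exact absurd rfl hT0
  have hx₁ : x₁ ∉ A := hT
  have h1 := hW.dist1_lt hQ0
  obtain ⟨x, y, h, rfl, hd, hxlt⟩ := exists_of_dist1_lt h1
  have hn := hW.nonMid hp hp2 hQ h1
  rw [hd] at hn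
  have hμ := hW.val_psi h.1 hxlt hn
  obtain ⟨α, β, -, -, -, hwβ, -⟩ := hW.exists_branch h.1 hxlt hn
  set X := A.valuation (x : K) with hX
  have hX0 : X ≠ 0 := fun e => by rw [e, zero_pow two_ne_zero] at hn; exact not_lt_zero hn
  have hyX : A.valuation (y : K) ≤ X := by
    rw [show (y : K) = ((y : K) - β * x) + β * x by ring]
    refine Valuation.map_add_le _ hwβ.le ?_
    rw [map_mul]; exact mul_le_of_le_one_left' (A.valuation_le_one β)
  have hne : x₁ ≠ x := fun e => hx₁ (e ▸ x.2)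
  have hA' : A.valuation (3 * (x : K) ^ 2 + 2 * W1.a₂ * x - W1.a₁ * y) ≤
      A.valuation (2 * (y : K) + W1.a₁ * x) := by
    rw [hμ]
    refine Valuation.map_sub_le _ (Valuation.map_add_le _ ?_ ?_) ?_
    · rw [map_mul, map_pow]
      exact (mul_le_of_le_one_left' (by simpa using A.valuation_le_one (3 : A))).trans
        (pow_le_of_le_one zero_le hxlt.le two_ne_zero)
    · rw [map_mul, map_mul]
      exact mul_le_of_le_one_left' (mul_le_one' Nodal.val_two_le (A.valuation_le_one W1.a₂))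
    · rw [map_mul]
      exact (mul_le_of_le_one_left' (A.valuation_le_one W1.a₁)).trans hyX
  have hB' : A.valuation (-(x : K) ^ 3 + 2 * W1.a₆) ≤ A.valuation (2 * (y : K) + W1.a₁ * x) := by
    rw [hμ]
    refine Valuation.map_add_le _ ?_ ?_
    · rw [Valuation.map_neg, map_pow]
      exact pow_le_of_le_one zero_le hxlt.le (by norm_num)
    · rw [map_mul]
      exact (mul_le_of_le_one_left' Nodal.val_two_le).trans
        (hn.le.trans (pow_le_of_le_one zero_le hxlt.le two_ne_zero))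
  have key := val_addX_sub hW h₁.1 h.1 hx₁ (by rw [hμ]; exact hX0) hA' hB'
  rw [hμ] at key
  rw [add_comm (Affine.Point.some (x : K) y h), Affine.Point.add_of_X_ne hne, xc_some, xc_some,
    xc_some]
  exact key

/-- the parameter `x / ψ` of a point of the kernel -/
theorem val_param (hW : Nodal W1) (h2 : A.valuation (2 : K) = 1) {x y : K}
    (h : (genFib W1).toAffine.Equation x y) (hx : x ∉ A) :
    A.valuation (x / (2 * y + W1.a₁ * x)) ^ 2 * A.valuation x = 1 := by
  have hx1 : 1 < A.valuation x := not_mem_iff_val.1 hx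
  have hx0 : A.valuation x ≠ 0 := (zero_le.trans_lt hx1).ne'
  have h4 : A.valuation (4 : K) = 1 := by
    rw [show (4 : K) = 2 * 2 by norm_num, map_mul, h2, one_mul]
  have e : A.valuation ((2 * y + W1.a₁ * x) ^ 2) = A.valuation x ^ 3 := by
    have e3 : A.valuation (4 * x ^ 3) = A.valuation x ^ 3 := by
      rw [map_mul, map_pow, h4, one_mul]
    rw [hW.psi_sq h, add_assoc, Valuation.map_add_eq_of_lt_left, e3]
    rw [e3]
    refine Valuation.map_add_lt _ ?_ ?_
    · rw [map_mul, map_pow, hW.b₂, one_mul]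
      exact pow_lt_pow_right₀ hx1 (by norm_num)
    · rw [map_mul, h4, one_mul]
      exact hW.a₆.trans (one_lt_pow₀ hx1 (by norm_num))
  rw [map_div₀, div_pow, ← map_pow A.valuation (2 * y + W1.a₁ * x), e]
  field_simp

end Model

open FLTAgent.Reduction (Qb)
open FLTAgent.PT.TW

local notation "GalQ" => AlgebraicClosure ℚ ≃ₐ[ℚ] AlgebraicClosure ℚ

variable {p : ℕ} [hpr : Fact p.Prime]

/-- an element of non-integral valuation in a unit Kummer extension moves by more than `ζ - 1` -/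
theorem lt_move_of_lvl (P : PlaceData p) {h : GalQ → ZMod p} {j : ℕ} (hjp : ¬ p ∣ j)
    (hjt : j < p * (p + 1)) (hj : 1 ≤ j) (hh : h ∈ P.Lvl j) (hw : P.wL j h ≠ 0) {a : Qb}
    (ha : ∀ σ ∈ P.H, h σ = 0 → σ a = a) {i : ℤ} (hi : P.v a ^ p = P.v P.π ^ i)
    (hpi : ¬ (p : ℤ) ∣ i) {τ : GalQ} (hτ : τ ∈ P.H) (hτ1 : h τ = 1)
    (hadd : ∀ σ ∈ P.H, ∀ τ ∈ P.H, h (σ * τ) = h σ + h τ) :
    P.v a * P.v P.π ^ (p + 1) < P.v (τ a - a) := by
  classical
  obtain ⟨y, hy, hv, hl⟩ := hh
  have hexact : P.v (y ^ p - 1) = P.v P.π ^ j := by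
    refine le_antisymm hl (not_lt.mp fun hlt => hw ?_)
    rw [P.wL_eq hjp hjt hy hv hl]
    exact P.res_eq_zero_of_lt (by
      rw [map_div₀, map_pow P.v P.π, div_lt_one₀ (pow_pos P.vπ_pos _)]; exact hlt)
  set η := y - 1 with hη
  have hη1 : P.v η ≤ 1 := (Valuation.map_sub _ _ _).trans (max_le hv.le (map_one P.v).le)
  have hbig : P.v P.π ^ (p + 1) < P.v η := by
    by_contra hcon
    push Not at hcon
    have h1 := P.v_pow_small hcon
    rw [show 1 + η = y by simp [η], hexact, P.vpow_le] at h1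
    omega
  have hηp : P.v η ^ p = P.v P.π ^ j := by
    rw [← P.v_pow_big hη1 hbig, show 1 + η = y by simp [η], hexact]
  have hηlt : P.v η < 1 := by
    refine (pow_lt_one_iff_of_nonneg zero_le hpr.out.ne_zero).mp ?_
    rw [hηp]
    exact pow_lt_one₀ zero_le P.vπ_lt (by omega)
  have hη0 : 0 < P.v η := lt_of_le_of_lt zero_le hbig
  have hηne : η ≠ 0 := (Valuation.ne_zero_iff _).mp hη0.ne'
  obtain ⟨d, hd, had⟩ := P.exists_kum_coords hy (c₀ := 1) (fun σ _ => map_one σ) ha hτ hτ1 hadd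
  rw [← hη] at had
  set u := τ η / η
  set c := P.v (u - 1)
  have hc : c = P.v P.π ^ (p + 1) / P.v η := by
    show P.v (τ η / η - 1) = _
    rw [div_sub_one hηne, map_div₀, show τ η - η = (P.zp 1 - 1) * y by
      rw [hη, map_sub, map_one, hy.2 τ hτ, hτ1]; ring, map_mul, P.v_zp_sub_one one_ne_zero, hv,
      mul_one]
  have hc1 : c < 1 := by rw [hc]; exact (div_lt_one₀ hη0).mpr hbig
  have hgeo : ∀ k, 0 < k → k < p → P.v (u ^ k - 1) = c := by
    intro k hk0 hk
    rw [← geom_sum_mul u k, map_mul]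
    suffices h1 : P.v (∑ l ∈ Finset.range k, u ^ l) = 1 by rw [h1, one_mul]
    have hu : P.v u = 1 := by
      rw [show u = 1 + (u - 1) by ring]
      exact Valuation.map_one_add_of_lt P.v hc1
    have e : ∑ l ∈ Finset.range k, u ^ l = (k : Qb) + ∑ l ∈ Finset.range k, (u ^ l - 1) := by
      rw [Finset.sum_sub_distrib, Finset.sum_const, Finset.card_range, nsmul_one]; ring
    rw [e, Valuation.map_add_eq_of_lt_left, P.natCast_v_eq_one]
    · exact fun hd => absurd (Nat.le_of_dvd hk0 hd) (not_le.mpr hk)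
    rw [P.natCast_v_eq_one fun hd => absurd (Nat.le_of_dvd hk0 hd) (not_le.mpr hk)]
    refine Valuation.map_sum_lt _ one_ne_zero fun l _ => ?_
    rw [← geom_sum_mul u l, map_mul]
    refine lt_of_le_of_lt (mul_le_of_le_one_left' (Valuation.map_sum_le _ fun m _ => ?_)) hc1
    rw [map_pow, hu, one_pow]
  set f : ℕ → Qb := fun k => d k * η ^ k with hf
  have hexp : ∀ k, d k ≠ 0 → ∃ s : ℤ, P.v (f k) ^ p = P.v P.π ^ (s * p + (j : ℤ) * k) := by
    intro k hk
    obtain ⟨s, hs⟩ := P.exists_zpow_v (hd k) hk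
    refine ⟨s, ?_⟩
    simp only [f]
    rw [map_mul, map_pow, mul_pow, hs, ← pow_mul, mul_comm k, pow_mul, hηp, ← zpow_natCast,
      ← zpow_mul, ← pow_mul, ← zpow_natCast (P.v P.π), ← zpow_add₀ P.vπ_pos.ne', Nat.cast_mul]
  have ha0 : P.v a ≠ 0 := fun e => by
    rw [e, zero_pow hpr.out.ne_zero] at hi
    exact zpow_ne_zero i P.vπ_pos.ne' hi.symm
  obtain ⟨k₀, hk₀, hmax⟩ := Finset.exists_max_image (Finset.range p)
    (fun k => P.v (f k)) ⟨0, Finset.mem_range.mpr hpr.out.pos⟩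
  have hd0 : d k₀ ≠ 0 := fun h0 => by
    refine ha0 (le_antisymm ?_ zero_le)
    rw [had]
    refine Valuation.map_sum_le _ fun k hk => (hmax k hk).trans ?_
    simp [f, h0]
  have hf0 : P.v (f k₀) ≠ 0 := (Valuation.ne_zero_iff _).mpr (mul_ne_zero hd0 (pow_ne_zero _ hηne))
  have hstrict : ∀ s ∈ Finset.range p \ {k₀}, P.v (f s) < P.v (f k₀) := by
    intro s hs
    rw [Finset.mem_sdiff, Finset.mem_singleton] at hs
    rcases eq_or_ne (d s) 0 with hs0 | hs0
    · simp only [f, hs0, zero_mul, map_zero]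
      exact zero_lt_iff.mpr hf0
    refine lt_of_le_of_ne (hmax s hs.1) fun he => ?_
    obtain ⟨x, hx⟩ := hexp s hs0
    obtain ⟨z, hz⟩ := hexp k₀ hd0
    rw [he, hz, P.vzpow_inj] at hx
    have hd' : (p : ℤ) ∣ (j : ℤ) * ((k₀ : ℤ) - s) := ⟨x - z, by linear_combination hx⟩
    rcases (Nat.prime_iff_prime_int.mp hpr.out).dvd_or_dvd hd' with h | h
    · exact hjp (Int.natCast_dvd_natCast.mp h)
    · have h1 := Finset.mem_range.mp hk₀
      have h2 := Finset.mem_range.mp hs.1
      refine hs.2 ?_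
      have := Int.eq_zero_of_abs_lt_dvd h (by rw [abs_lt]; constructor <;> omega)
      omega
  have hva : P.v a = P.v (f k₀) := by
    rw [had]; exact Valuation.map_sum_eq_of_lt P.v hk₀ hstrict
  have hk0 : 0 < k₀ := by
    rcases Nat.eq_zero_or_pos k₀ with rfl | h0
    swap
    · exact h0
    obtain ⟨z, hz⟩ := hexp 0 hd0
    rw [← hva, hi, P.vzpow_inj] at hz
    exact absurd ⟨z, by rw [hz]; push_cast; ring⟩ hpi
  have hterm : ∀ k ∈ Finset.range p, τ (f k) - f k = f k * (u ^ k - 1) := by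
    intro k _
    simp only [f, u]
    rw [map_mul, map_pow, hd k τ hτ, div_pow]
    field_simp
  have hmain : P.v (τ a - a) = P.v (f k₀) * c := by
    rw [had, map_sum, ← Finset.sum_sub_distrib, Finset.sum_congr rfl hterm,
      Valuation.map_sum_eq_of_lt P.v hk₀, map_mul, hgeo k₀ hk0 (Finset.mem_range.mp hk₀)]
    intro s hs
    rw [map_mul P.v (f k₀), map_mul P.v (f s), hgeo k₀ hk0 (Finset.mem_range.mp hk₀)]
    have hc0 : 0 < c := by rw [hc]; exact div_pos (pow_pos P.vπ_pos _) hη0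
    rcases Nat.eq_zero_or_pos s with rfl | hs0
    · rw [pow_zero, sub_self, map_zero, mul_zero]
      exact mul_pos (zero_lt_iff.mpr hf0) hc0
    rw [hgeo s hs0 (Finset.mem_range.mp (Finset.mem_sdiff.mp hs).1)]
    exact mul_lt_mul_of_pos_right (hstrict s hs) hc0
  rw [hmain, hva, hc]
  refine mul_lt_mul_of_pos_left ?_ (zero_lt_iff.mpr hf0)
  rw [lt_div_iff₀ hη0]
  exact mul_lt_of_lt_one_right (pow_pos P.vπ_pos _) hηlt

variable {W : WeierstrassCurve ℤ}

/-- a point whose coordinates are fixed is fixed -/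
theorem smul_eq_of_coords {τ : GalQ} (P : QPoint W) (h1 : τ (xcoord P) = xcoord P)
    (h2 : τ (ycoord P) = ycoord P) : τ • P = P := by
  rcases P with _ | ⟨a, b, hns⟩
  · rfl
  · show Affine.Point.map τ.toAlgHom (Affine.Point.some a b hns) = _
    rw [Affine.Point.map_some, Affine.Point.some.injEq]
    exact ⟨h1, h2⟩

/-- très ramifié torsion has no finite flat model -/
theorem no_flat_of_tres (hΔ : W.Δ ≠ 0) (hp2 : p ≠ 2) (hd : (p : ℤ) ∣ W.Δ)
    (hss : SemistableAt W p) (hn : ¬ p ∣ padicValInt p W.Δ)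
    (hflat : Flat.HasFlatModel (Tors W p) p) : False := by
  classical
  have hp := hpr.out
  obtain ⟨A, -, hA, -⟩ := Alg.exists_place_frobenius p hp
  obtain ⟨P, hPA⟩ := exists_placeData (p := p) hA hp2
  subst hPA
  set n := padicValInt p W.Δ
  obtain ⟨hfin, hrank⟩ := finrank_tors hΔ p
  haveI : Finite (Tors W p) := Module.finite_of_finite (ZMod p)
  obtain ⟨M, hMW⟩ := exists_mdl_of_flat hA hflat (AddEquiv.refl _) fun _ _ => rfl
  obtain ⟨W1, φ, hN, hδ, hinj, h0, h1, hσ⟩ := exists_nodal_model hA hp hd hss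
  rw [val_int_padic hA hp hΔ] at hδ
  have hδ0 : P.A.valuation (W1.a₆ : Qb) ≠ 0 := by
    rw [hδ]
    exact pow_ne_zero _ ((Valuation.ne_zero_iff _).2 (Nat.cast_ne_zero.2 hp.ne_zero))
  have := isElliptic_genFib hN hδ0
  have := isElliptic_curveBar hΔ
  -- a point outside the identity component
  obtain ⟨Q, hQ⟩ : ∃ Q : Tors W p, (Q : QPoint W) ∉ zeroComp W P.A := by
    obtain ⟨R, hR, hR0⟩ := exists_torsion_not_inE0 hN hδ0 hp hp2
      (Reduction.charP_residue P.A hp hA)
    let g : {P : QPoint W // p • P = 0} → {P : (genFib W1).toAffine.Point // p • P = 0} :=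
      fun P => ⟨φ P.1, by rw [← map_nsmul, P.2, map_zero]⟩
    have c2 := card_nsmul_kernel (genFib W1) p hp.ne_zero
    have c1 : Nat.card {P : QPoint W // p • P = 0} = p ^ 2 :=
      card_nsmul_kernel (curveBar W) p hp.ne_zero
    haveI : Finite {P : (genFib W1).toAffine.Point // p • P = 0} :=
      Nat.finite_of_card_ne_zero (by rw [c2]; exact pow_ne_zero _ hp.ne_zero)
    obtain ⟨⟨S, hS⟩, he⟩ := ((Nat.bijective_iff_injective_and_card g).2
      ⟨fun a b e => Subtype.ext (hinj (congrArg Subtype.val e)), c1.trans c2.symm⟩).2 ⟨R, hR⟩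
    refine ⟨mkTors S hS, fun h => hR0 ?_⟩
    rw [← show φ S = R from congrArg Subtype.val he]
    exact (h0 S).2 h
  have hQp : p • (Q : QPoint W) = 0 := nsmul_tors Q
  -- a point of the identity component
  let E0 : Submodule (ZMod p) (Tors W p) := torsE0 W P.A p
  let E1 : Submodule (ZMod p) (Tors W p) := torsE1 W P.A p
  have hQE : Q ∉ E0 := hQ
  obtain ⟨T, hTE, hT0⟩ : ∃ T ∈ E0, T ≠ 0 := by
    by_contra hno
    push Not at hno
    have hle : ∀ x : Tors W p, ∃ a : ZMod p, x = a • Q := by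
      intro x
      obtain ⟨m, hm⟩ := exists_nsmul_sub_mem_zeroComp hA hp hss hΔ hp hp2 hQp
        (nsmul_tors x) hQ
      refine ⟨(m : ZMod p), ?_⟩
      rw [Nat.cast_smul_eq_nsmul, ← sub_eq_zero]
      exact hno _ (by simpa [E0, torsE0] using hm)
    have := finrank_le_one Q fun x => (hle x).imp fun a e => e.symm
    omega
  have hQT : ∀ a : ZMod p, Q ≠ a • T := fun a e => hQE (e ▸ E0.smul_mem a hTE)
  have hline : ∀ {y}, y ∈ E0 → ∃ a : ZMod p, y = a • T := fun hy =>
    line_of_mem hΔ hT0 hTE hQE hy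
  have hstep0 : ∀ σ ∈ P.I, ∀ x : Tors W p, σ • x - x ∈ E0 :=
    fun σ hσ x => inertia_sub_mem_zeroComp hA hp hss hp hp2 hσ (nsmul_tors x)
  have hstep1 : ∀ σ ∈ P.I, ∀ x ∈ E0, σ • x - x ∈ E1 :=
    fun σ hσ x hx => inertia_sub_mem_redKernel hσ hx
  have hact : ∀ σ ∈ P.I, σ • T = cyc p σ • T ∧ ∃ t : ZMod p, σ • Q = Q + t • T := by
    intro σ hσ'
    obtain ⟨a, ha⟩ := hline (redKernel_le_zeroComp W P.A (hstep1 σ hσ' T hTE))
    obtain ⟨t, ht⟩ := hline (hstep0 σ hσ' Q)
    have hσT : σ • T = (a + 1) • T := by rw [add_smul, one_smul, ← ha, sub_add_cancel]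
    have hσQ : σ • Q = Q + t • T := by rw [← ht, add_sub_cancel]
    rw [cyc_eq_of_shear hΔ hT0 hQT hσT hσQ]
    exact ⟨hσT, t, hσQ⟩
  obtain ⟨_, rfl, hfixJ, hcyc⟩ := exists_inertia_cyc hp hA
  have hT1 : T ∈ E1 := by
    obtain ⟨σ, hσ', hc⟩ := hcyc (-1) (neg_ne_zero.mpr one_ne_zero)
    have h2 : σ • T - T ∈ E1 := hstep1 σ hσ' T hTE
    rw [(hact σ hσ').1, hc, show (-1 : ZMod p) • T - T = (-2 : ZMod p) • T by
      rw [show (-2 : ZMod p) = -1 - 1 by norm_num, sub_smul, one_smul]] at h2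
    refine (E1.smul_mem_iff ?_).mp h2
    rw [neg_ne_zero]
    intro h
    have h' : ((2 : ℕ) : ZMod p) = 0 := by exact_mod_cast h
    rw [ZMod.natCast_eq_zero_iff] at h'
    exact hp2 ((Nat.prime_dvd_prime_iff_eq hp Nat.prime_two).1 h')
  have hcycH : ∀ σ ∈ P.H, cyc p σ = 1 := fun σ hσ' => by
    have h1 := cyc_spec (n := p) σ P.hζ.pow_eq_one
    rw [P.ζ_fixed_H hσ'] at h1
    have h2 : P.ζ ^ 1 = P.ζ ^ (cyc p σ).val := by rw [pow_one]; exact h1
    have h3 := P.hζ.pow_inj hp.one_lt (ZMod.val_lt _) h2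
    rw [← ZMod.natCast_zmod_val (cyc p σ), ← h3, Nat.cast_one]
  -- the homomorphism
  let h : GalQ → ZMod p := fun σ => if hσ : σ ∈ P.I then (hact σ hσ).2.choose else 0
  have hh : ∀ σ ∈ P.I, σ • Q = Q + h σ • T := fun σ hσ' => by
    simp only [h, dif_pos hσ']; exact (hact σ hσ').2.choose_spec
  have huniq : ∀ a b : ZMod p, a • T = b • T → a = b := fun a b e => by
    rw [← sub_eq_zero, ← sub_smul] at e
    exact sub_eq_zero.mp ((smul_eq_zero.mp e).resolve_right hT0)
  have hadd : ∀ σ ∈ P.H, ∀ τ ∈ P.H, h (σ * τ) = h σ + h τ := by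
    intro σ hσ' τ hτ'
    refine huniq _ _ (add_left_cancel (a := Q) ?_)
    rw [← hh _ (P.H_le (mul_mem hσ' hτ')), mul_smul, hh τ (P.H_le hτ'), smul_add, smul_zmod_smul,
      hh σ (P.H_le hσ'), (hact σ (P.H_le hσ')).1, hcycH σ hσ', one_smul, add_smul]
    abel
  have hzero : ∀ σ ∈ P.H, h σ = 0 → σ • Q = Q := fun σ hσ' e => by
    rw [hh σ (P.H_le hσ'), e, zero_smul, add_zero]
  have hKum : h ∈ P.KumS := by
    let F : IntermediateField ℚ Qb :=
      IntermediateField.adjoin ℚ {xcoord (Q : QPoint W), ycoord (Q : QPoint W)}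
    haveI : FiniteDimensional ℚ F := IntermediateField.finiteDimensional_adjoin
      fun x _ => ((AlgebraicClosure.isAlgebraic ℚ).isAlgebraic x).isIntegral
    refine P.exists_kum hadd F fun σ hσ' hF => huniq _ _ (add_left_cancel (a := Q) ?_)
    rw [← hh σ (P.H_le hσ'), zero_smul, add_zero]
    apply Subtype.ext
    rw [coe_smul]
    exact smul_eq_of_coords _ (hF ⟨_, IntermediateField.subset_adjoin ℚ _ (Or.inl rfl)⟩)
      (hF ⟨_, IntermediateField.subset_adjoin ℚ _ (Or.inr rfl)⟩)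
  -- the abscissa of `Q`
  set xq := xc (φ (Q : QPoint W)) with hxq
  have hQ0 : ¬ InE0 (φ (Q : QPoint W)) := fun e => hQ ((h0 _).1 e)
  have hQp' : p • φ (Q : QPoint W) = 0 := by rw [← map_nsmul, hQp, map_zero]
  have himg : ∀ σ ∈ P.I, xc (φ ((σ • Q : Tors W p) : QPoint W)) = σ xq := fun σ hσ' => by
    rw [coe_smul, xc_isImage ((hσ σ (inertia_mem_decomposition hσ')).2 _)]
    rfl
  have haxq : ∀ σ ∈ P.H, h σ = 0 → σ xq = xq := fun σ hσ' e => by
    rw [← himg σ (P.H_le hσ'), hzero σ hσ' e]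
  obtain ⟨k, hk0, hk2, hk⟩ := hN.exists_zpow hp hp2 hδ0 hQp' hQ0
  have hdist : dist1 (φ (Q : QPoint W)) = P.v xq := by
    obtain ⟨x, y, hns, e, hd1, -⟩ := exists_of_dist1_lt (hN.dist1_lt hQ0)
    rw [hd1, hxq, e, xc_some]
  rw [hdist, hδ, ← P.vπ_pow, ← pow_mul, ← zpow_natCast (P.v P.π), ← zpow_mul] at hk
  set i : ℤ := ((P.e * n : ℕ) : ℤ) * k
  have hpi : ¬ (p : ℤ) ∣ i := by
    intro hd'
    rcases (Nat.prime_iff_prime_int.mp hp).dvd_or_dvd hd' with h' | h'
    · rcases hp.dvd_mul.mp (Int.natCast_dvd_natCast.mp h') with h'' | h''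
      · exact P.not_dvd_e h''
      · exact hn h''
    · have := Int.le_of_dvd hk0 h'
      omega
  -- the extension is ramified
  obtain ⟨τ, hτ, hτ1⟩ : ∃ τ ∈ P.H, h τ = 1 := by
    obtain ⟨τ₀, hτ₀, hne⟩ : ∃ τ ∈ P.H, h τ ≠ 0 := by
      by_contra hno
      push Not at hno
      have hxq0 : xq ≠ 0 := fun e => by
        rw [e, map_zero, zero_pow hp.ne_zero] at hk
        exact zpow_ne_zero _ P.vπ_pos.ne' hk.symm
      obtain ⟨s, hs⟩ := P.exists_zpow_v (fun σ hσ' => haxq σ hσ' (hno σ hσ')) hxq0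
      rw [hs, ← zpow_natCast, ← zpow_mul, P.vzpow_inj] at hk
      exact hpi ⟨s, by rw [← hk]; ring⟩
    have hone : h 1 = 0 := by
      have := hadd 1 (one_mem _) 1 (one_mem _)
      rwa [one_mul, left_eq_add] at this
    have hpow : ∀ m : ℕ, h (τ₀ ^ m) = m * h τ₀ := by
      intro m
      induction m with
      | zero => rw [pow_zero, hone, Nat.cast_zero, zero_mul]
      | succ m ih => rw [pow_succ, hadd _ (pow_mem hτ₀ m) _ hτ₀, ih, Nat.cast_succ, add_mul, one_mul]
    exact ⟨τ₀ ^ (h τ₀)⁻¹.val, pow_mem hτ₀ _, by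
      rw [hpow, ZMod.natCast_zmod_val, inv_mul_cancel₀ hne]⟩
  have hτQ : τ • Q = Q + T := by rw [hh τ (P.H_le hτ), hτ1, one_smul]
  -- the index vanishes
  have hidx : P.idx h = 0 := by
    by_contra hidx
    obtain ⟨l, hl⟩ := M.exists_diff Q T
    have hTW : T ∉ M.W := by rw [hMW, AddSubgroup.mem_bot]; exact hT0
    have hkey := (P.key_bound M hTW (by rw [show p • T = 0 from Subtype.ext (nsmul_tors T)]; exact M.W.zero_mem)).trans hl
    rw [← hτQ, M.equiv τ trivial] at hkey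
    exact absurd hkey (not_le.mpr (P.crit_idx hKum hidx
      ((P.A.valuation_le_one_iff _).mp (M.val l Q))
      (fun σ hσ' e => by rw [← M.equiv σ trivial, hzero σ hσ' e]) hτ hτ1 hadd))
  obtain ⟨j, hj1, hjt, hjp, hjh, hjw⟩ : ∃ j, 1 ≤ j ∧ j < p * (p + 1) ∧ ¬ p ∣ j ∧ h ∈ P.Lvl j ∧
      P.wL j h ≠ 0 := by
    by_contra hno
    push Not at hno
    have htop := P.lvl_climb le_rfl (le_refl (p * (p + 1))) (P.lvl_one_of_idx hKum hidx)
      fun l h1 h2 h3 h4 => hno l h1 h2 h3 h4
    exact one_ne_zero (hτ1.symm.trans (P.eq_zero_of_lvl_top le_rfl htop hτ))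
  have hlow := lt_move_of_lvl P hjp hjt hj1 hjh hjw haxq hk hpi hτ hτ1 hadd
  -- the bound
  have hT1' : InE1 (φ (T : QPoint W)) := (h1 _).2 hT1
  have hφT : φ (T : QPoint W) ≠ 0 := fun e => hT0 (Subtype.ext (hinj (e.trans (map_zero φ).symm)))
  have hmv := move_not_inE0 hN hp hp2 hQp' hQ0 hT1' hφT
  rw [← map_add, ← AddMemClass.coe_add, ← hτQ, himg τ (P.H_le hτ), ← hxq] at hmv
  obtain ⟨x, y, hns, he⟩ : ∃ x y hns, φ (T : QPoint W) = Affine.Point.some x y hns := by
    rcases hp' : φ (T : QPoint W) with _ | ⟨x, y, hns⟩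
    · exact absurd hp' hφT
    · exact ⟨x, y, hns, rfl⟩
  have hxA : x ∉ P.A := by rw [he] at hT1'; exact hT1'
  rw [he, xc_some] at hmv
  set z := x / (2 * y + W1.a₁ * x)
  have h2v : P.A.valuation (2 : Qb) = 1 := by
    have := P.natCast_v_eq_one (n := 2) fun h' => hp2 ((Nat.prime_dvd_prime_iff_eq hp Nat.prime_two).1 h')
    simpa using this
  have hz := val_param hN h2v hns.1 hxA
  have hz0 : z ≠ 0 := fun e => by
    have hz' := hz
    rw [show x / (2 * y + W1.a₁ * x) = z from rfl, e, map_zero, zero_pow two_ne_zero,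
      zero_mul] at hz'
    exact zero_ne_one hz'
  have hzfix : ∀ σ ∈ P.I, cyc p σ = 1 → σ z = z := by
    intro σ hσ' hc
    have hT' : σ • T = T := by rw [(hact σ hσ').1, hc, one_smul]
    obtain ⟨hf, hI⟩ := hσ σ (inertia_mem_decomposition hσ')
    have hI' := hI (T : QPoint W)
    rw [← coe_smul, hT', he] at hI'
    obtain ⟨e1, e2⟩ := hI'
    simp only [z, map_div₀, map_add, map_mul, map_ofNat]
    rw [show σ x = x from e1.symm, show σ y = y from e2.symm,
      show σ (W1.a₁ : Qb) = W1.a₁ from hf.h₁]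
  obtain ⟨m, hm⟩ := hfixJ z hz0 hzfix
  have hzlt : P.v z < 1 := by
    by_contra hge
    push Not at hge
    have hx1 : 1 < P.v x := not_mem_iff_val.1 hxA
    exact absurd hz (ne_of_gt (lt_of_lt_of_le hx1
      (le_mul_of_one_le_left zero_le (one_le_pow₀ hge))))
  have hzle : P.v z ≤ P.v P.π ^ (p + 1) := by
    refine le_of_pow_le_pow_left₀ (show p - 1 ≠ 0 by have := hp.two_le; omega) zero_le ?_
    rw [← pow_mul, mul_comm, ← P.e_eq, P.vπ_pow]
    have h1 : P.v z ^ (p - 1) < 1 := pow_lt_one₀ zero_le hzlt (by have := hp.two_le; omega)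
    rw [hm] at h1 ⊢
    have := (zpow_lt_one_iff_right_of_lt_one₀ P.vp_pos P.vp_lt).mp h1
    exact (zpow_le_zpow_right_of_le_one₀ P.vp_pos P.vp_lt.le (show (1 : ℤ) ≤ m by omega)).trans
      (zpow_one _).le
  have hupp : P.v (τ xq - xq) = P.v xq * P.v z := by
    refine (pow_left_inj₀ zero_le zero_le two_ne_zero).mp ?_
    rw [mul_pow]
    calc P.v (τ xq - xq) ^ 2 = P.v (τ xq - xq) ^ 2 * (P.v z ^ 2 * P.v x) := by rw [hz, mul_one]
      _ = (P.v (τ xq - xq) ^ 2 * P.v x) * P.v z ^ 2 := by ac_rfl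
      _ = P.v xq ^ 2 * P.v z ^ 2 := by rw [hmv]
  rw [hupp] at hlow
  exact absurd (mul_le_mul' le_rfl hzle) (not_le.mpr hlow)

end FLTAgent.MLT

end
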