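import Fermat.Agent.MLT.World
import Fermat.Agent.LL.Curve
import Fermat.Agent.MLT.TresFlat

/-!
Area MLT, parcel SUP: the primes that every level of residual modularity contains.
-/

set_option autoImplicit false
set_option linter.style.haveILetI false

noncomputable section

open WeierstrassCurve

namespace FLTAgent.MLT

/-- a prime at which the torsion ramifies divides every level -/
theorem sMin_dvd_level {W : WeierstrassCurve ℤ} (hΔ : W.Δ ≠ 0) (hW : W.IsSemistableModel) {p : ℕ}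
    (hp : p.Prime) (hp2 : p ≠ 2) (hirr : W.ModRepIsIrreducible p) {N : ℕ} [NeZero N]
    (hmod : W.IsResiduallyModularOfLevel p N) {r : ℕ} (hr : r ∈ sMin W p) : r ∣ N := by
  by_contra h2
  obtain ⟨hrP, hrd, hrp, hv⟩ := (mem_sMin hΔ).1 hr
  haveI : Fact p.Prime := ⟨hp⟩
  obtain ⟨f, 𝔪, hf, hmax, hpm, hcong⟩ := hmod
  obtain ⟨D⟩ := Attach.exists_heckeLattice N
  have G := Attach.galoisInputs N
  obtain ⟨y, hy, hpy, hyT⟩ := TOR.exists_eigen_torsion D hf hp hmax hpm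
  obtain ⟨ι, hι, hιe, hιm⟩ := TOR.exists_embedding hΔ hp hp2 hirr D G hy
    ⟨hpy, fun ℓ hℓ h1 h3 h4 => hyT ℓ hℓ h3 _ (hcong ℓ hℓ h1 h3 h4)⟩
  obtain ⟨B, -, hB, -⟩ := Alg.exists_place_frobenius r hrP
  obtain ⟨σ, hσ, P, hP, hne⟩ := LL.exists_moved_torsion hB hrP hrd (hW r hrP) hΔ hp hp2 hrp hv
  let x : Torsion.Tors W p := ⟨P, (Submodule.mem_torsionBy_iff _ _).mpr
    (by rw [natCast_zsmul]; exact hP)⟩
  have hx : σ • x = x := hι (by
    rw [hιe]
    exact G.inertia_trivial r hrP h2 B hB σ hσ _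
      ⟨p, hp.pos, fun h => hrp ((Nat.prime_dvd_prime_iff_eq hrP hp).mp h), (hιm x).1⟩)
  exact hne (congrArg Subtype.val hx)

/-- très ramifié at `p`: the level contains `p` -/
theorem tres_dvd_level {W : WeierstrassCurve ℤ} (hΔ : W.Δ ≠ 0) (hW : W.IsSemistableModel) {p : ℕ}
    (hp : p = 3 ∨ p = 5) (hirr : W.ModRepIsIrreducible p) {N : ℕ} [NeZero N]
    (hmod : W.IsResiduallyModularOfLevel p N) (ht : Tres W p) : p ∣ N := by
  by_contra h2
  have hp' : p.Prime := by rcases hp with rfl | rfl <;> norm_num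
  have hp2 : p ≠ 2 := by rcases hp with rfl | rfl <;> norm_num
  haveI : Fact p.Prime := ⟨hp'⟩
  obtain ⟨f, 𝔪, hf, hmax, hpm, hcong⟩ := hmod
  obtain ⟨D⟩ := Attach.exists_heckeLattice N
  have G := Attach.galoisInputs N
  obtain ⟨y, hy, hpy, hyT⟩ := TOR.exists_eigen_torsion D hf hp' hmax hpm
  obtain ⟨ι, hι, hιe, -⟩ := TOR.exists_embedding hΔ hp' hp2 hirr D G hy
    ⟨hpy, fun ℓ hℓ h1 h3 h4 => hyT ℓ hℓ h3 _ (hcong ℓ hℓ h1 h3 h4)⟩
  haveI := (Torsion.finrank_tors hΔ p).1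
  haveI : Finite (Torsion.Tors W p) := Module.finite_of_finite (ZMod p)
  exact no_flat_of_tres hΔ hp2 ht.1 (hW p hp') ht.2
    (Flat.hasFlatModel_of_embedding h2 _ (ι := Unit) (fun _ => ι) (fun _ _ h => hι (h ()))
      fun _ σ c => hιe σ c)

end FLTAgent.MLT

end
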