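import Fermat.Agent.PT.TW.Conditions
import Fermat.Agent.PT.Tool.Places
import Fermat.Agent.Deform.Span
import Fermat.Agent.Deform.Mat
import Fermat.Agent.Attach.Cyclotomic

/-!
Area MLT, parcel REP: frames adapted to an ordinary representation, the unramified character on the
quotient line, and the span of the image of an absolutely irreducible representation.
-/

set_option autoImplicit false
set_option linter.unusedSectionVars false
set_option linter.style.haveILetI false

noncomputable section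

open IsLocalRing Matrix

namespace FLTAgent.MLT

open Deform

variable {T : Type} [CommRing T] [IsLocalRing T]

/-- an ordinary representation is triangular in a frame, with trivial quotient on inertia -/
theorem exists_frame_of_ordinary {ρ : GaloisRepAdic T} {R : Deform.GQ → Mt T}
    (h : RepMat ρ.ρ R) {p : ℕ} (ho : ρ.IsOrdinaryAt p)
    {P : ValuationSubring (AlgebraicClosure ℚ)} (hP : P.LiesOverPrime p) :
    ∃ U U' : Mt T, U' * U = 1 ∧ U * U' = 1 ∧
      (∀ s ∈ P.decompositionSubgroup ℚ, (U' * R s * U) 1 0 = 0) ∧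
      ∀ s ∈ P.inertiaSubgroupIn ℚ, (U' * R s * U) 1 0 = 0 ∧ (U' * R s * U) 1 1 = 1 := by
  obtain ⟨L, ⟨b, rfl⟩, hD, hI⟩ := ho P hP
  obtain ⟨U', U, hUU', hU'U, hconj⟩ :=
    h.conjugate (r' := fun σ => LinearMap.toMatrix b b (ρ.ρ σ)) ⟨b, fun σ => rfl⟩
  refine ⟨U, U', hU'U, hUU', ?_, ?_⟩
  · intro s hs'
    rw [← hconj, LinearMap.toMatrix_apply]
    exact (PT.TW.mem_span_b0_iff b _).mp (hD s hs' _ (Submodule.mem_span_singleton_self _))
  · intro s hs'
    rw [← hconj, LinearMap.toMatrix_apply, LinearMap.toMatrix_apply]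
    have h0 := (PT.TW.mem_span_b0_iff b _).mp (hI s hs' (b 0))
    have h1 := (PT.TW.mem_span_b0_iff b _).mp (hI s hs' (b 1))
    simp only [map_sub, Finsupp.sub_apply, Module.Basis.repr_self, Finsupp.single_apply] at h0 h1
    exact ⟨by simpa using h0, by simpa [sub_eq_zero] using h1⟩

/-- the square of the character on the quotient line is one modulo its value at Frobenius -/
theorem sq_sub_one_mem_of_frobenius [IsNoetherianRing T] {ρ : GaloisRepAdic T}
    {R : Deform.GQ → Mt T} (h : RepMat ρ.ρ R) {p : ℕ} (hp : p.Prime)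
    {P : ValuationSubring (AlgebraicClosure ℚ)} (hP : P.LiesOverPrime p)
    {φ : Deform.GQ} (hφ : P.IsFrobeniusAt φ p) {U U' : Mt T} (hU' : U' * U = 1) (hU : U * U' = 1)
    (hD : ∀ s ∈ P.decompositionSubgroup ℚ, (U' * R s * U) 1 0 = 0)
    (hI : ∀ s ∈ P.inertiaSubgroupIn ℚ, (U' * R s * U) 1 0 = 0 ∧ (U' * R s * U) 1 1 = 1)
    {d : Deform.GQ} (hd : d ∈ P.decompositionSubgroup ℚ) :
    (U' * R d * U) 1 1 ^ 2 - 1 ∈ Ideal.span {(U' * R φ * U) 1 1 ^ 2 - 1} := by
  classical
  set z : Deform.GQ → T := fun s => (U' * R s * U) 1 1 with hz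
  set J := Ideal.span {z φ ^ 2 - 1} with hJ
  show z d ^ 2 - 1 ∈ J
  have hmul : ∀ s ∈ P.decompositionSubgroup ℚ, ∀ t, z (s * t) = z s * z t := by
    intro s hs t
    have e : U' * R (s * t) * U = (U' * R s * U) * (U' * R t * U) := by
      rw [h.map_mul, show (U' * R s * U) * (U' * R t * U) = U' * R s * (U * U') * R t * U by
        simp only [Matrix.mul_assoc], hU, Matrix.mul_one]
      simp only [Matrix.mul_assoc]
    simp only [hz]
    rw [e, Matrix.mul_apply, Fin.sum_univ_two, hD s hs, zero_mul, zero_add]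
  have hz1 : z 1 = 1 := by
    simp only [hz]
    rw [h.map_one, Matrix.mul_one, hU', Matrix.one_apply_eq]
  have hpow : ∀ i : ℕ, z (φ ^ i) = z φ ^ i := by
    intro i
    induction i with
    | zero => rw [pow_zero, pow_zero, hz1]
    | succ i ih =>
      rw [pow_succ', hmul φ hφ.mem_decompositionSubgroup, ih, pow_succ']
  -- it suffices modulo every power of the maximal ideal
  suffices key : ∀ n : ℕ, z d ^ 2 - 1 ∈ J ⊔ maximalIdeal T ^ n by
    rw [← Ideal.Quotient.eq_zero_iff_mem]
    have hbot := Ideal.iInf_pow_smul_eq_bot_of_isLocalRing (M := T ⧸ J) (maximalIdeal T)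
      (IsLocalRing.maximalIdeal.isMaximal T).ne_top
    rw [← Submodule.mem_bot (R := T), ← hbot, Submodule.mem_iInf]
    intro n
    obtain ⟨u, hu, v, hv, huv⟩ := Submodule.mem_sup.mp (key n)
    rw [← huv, map_add, Ideal.Quotient.eq_zero_iff_mem.mpr hu, zero_add]
    have e : Ideal.Quotient.mk J v = v • (1 : T ⧸ J) := (Algebra.smul_def v (1 : T ⧸ J)).trans
      (mul_one _) |>.symm
    rw [e]
    exact Submodule.smul_mem_smul hv Submodule.mem_top
  intro n
  obtain ⟨L, hL, hfix⟩ := repMat_matCont h n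
  haveI := hL
  haveI := FLTAgent.Common.isGalois_qbar
  let K := IntermediateField.normalClosure ℚ L (AlgebraicClosure ℚ)
  haveI : Normal ℚ K := normalClosure.normal ℚ L _
  haveI : IsGalois ℚ K := { }
  obtain ⟨i, s, hs, hsK⟩ := PT.exists_pow_frob_inertia hp hP hφ hd K
  set g := s⁻¹ * ((φ ^ i)⁻¹ * d) with hg
  have hsD : s ∈ P.decompositionSubgroup ℚ := (Attach.inertia_smul_residue hs).1
  have hdg : d = φ ^ i * (s * g) := by rw [hg]; group
  have hgL : ∀ x ∈ L, g x = x := fun x hx => by
    rw [hg, AlgEquiv.mul_apply, ← hsK x (L.le_normalClosure hx), ← AlgEquiv.mul_apply,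
      inv_mul_cancel, AlgEquiv.one_apply]
  have hzg : z g - 1 ∈ maximalIdeal T ^ n := by
    have e : z g - 1 = (U' * (R g - 1) * U) 1 1 := by
      rw [Matrix.mul_sub, Matrix.sub_mul, Matrix.sub_apply, Matrix.mul_one, hU', Matrix.one_apply_eq]
    rw [e, Matrix.mul_apply]
    refine Ideal.sum_mem _ fun j _ => Ideal.mul_mem_right _ _ ?_
    rw [Matrix.mul_apply]
    exact Ideal.sum_mem _ fun k _ => Ideal.mul_mem_left _ _ (by
      rw [Matrix.sub_apply]; exact hfix g hgL k j)
  have hzd : z d = z φ ^ i * z g := by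
    rw [hdg, hmul _ (pow_mem hφ.mem_decompositionSubgroup i), hpow, hmul s hsD,
      show z s = 1 from (hI s hs).2, one_mul]
  rw [hzd, show (z φ ^ i * z g) ^ 2 - 1 =
    ((z φ ^ 2) ^ i - 1) + (z φ ^ 2) ^ i * (z g + 1) * (z g - 1) by ring]
  refine add_mem (Ideal.mem_sup_left ?_) (Ideal.mem_sup_right (Ideal.mul_mem_left _ _ hzg))
  exact Ideal.mem_span_singleton.mpr (sub_one_dvd_pow_sub_one (z φ ^ 2) i)

/-- absolutely irreducible residually: the image spans the matrices -/
theorem span_range_rep_eq_top {ρ : GaloisRepAdic T} (habs : ρ.residual.IsAbsolutelyIrreducible)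
    {R : Deform.GQ → Mt T} (h : RepMat ρ.ρ R) : Submodule.span T (Set.range R) = ⊤ := by
  classical
  have hres := Deform.span_range_eq_top ρ.residual habs (repMat_residual h)
  refine top_unique (Submodule.le_of_le_smul_of_le_jacobson_bot Module.Finite.fg_top
    (IsLocalRing.maximalIdeal_le_jacobson ⊥) ?_)
  intro X _
  have hX : X.map (residue T) ∈ Submodule.span (ResidueField T)
      (Set.range fun σ => (R σ).map (residue T)) := by rw [hres]; trivial
  obtain ⟨c, hc⟩ := Finsupp.mem_span_range_iff_exists_finsupp.mp hX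
  choose c' hc' using fun σ => residue_surjective (R := T) (c σ)
  set Y := ∑ σ ∈ c.support, c' σ • R σ with hY
  have hYm : Y ∈ Submodule.span T (Set.range R) :=
    Submodule.sum_mem _ fun σ _ => Submodule.smul_mem _ _ (Submodule.subset_span ⟨σ, rfl⟩)
  have hsub : ∀ a b, (X - Y) a b ∈ maximalIdeal T := fun a b => by
    rw [← residue_eq_zero_iff, Matrix.sub_apply, map_sub, hY, Matrix.sum_apply, map_sum, sub_eq_zero,
      show residue T (X a b) = (X.map (residue T)) a b from rfl, ← hc, Finsupp.sum,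
      Matrix.sum_apply]
    refine Finset.sum_congr rfl fun σ _ => ?_
    rw [Matrix.smul_apply, Matrix.smul_apply, Matrix.map_apply, smul_eq_mul, smul_eq_mul, map_mul,
      hc']
  rw [show X = Y + (X - Y) by abel]
  refine Submodule.add_mem_sup hYm ?_
  rw [Matrix.matrix_eq_sum_single (X - Y)]
  refine Submodule.sum_mem _ fun a _ => Submodule.sum_mem _ fun b _ => ?_
  rw [show Matrix.single a b ((X - Y) a b) = ((X - Y) a b) • Matrix.single a b (1 : T) by simp]
  exact Submodule.smul_mem_smul (hsub a b) Submodule.mem_top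

end FLTAgent.MLT

end
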