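import Fermat.Agent.MLT.RepStrictVec
import Fermat.Agent.MLT.RepStrictFrame
import Fermat.Agent.LL.KillInertia
import Fermat.Agent.LL.LamHecke
import Fermat.Agent.LL.LevelRepAux
import Fermat.Agent.TOR.InertiaVal

/-!
Area MLT, parcel REP: at a prime exactly dividing the level, an ordinary representation acting on the
lattice is strictly ordinary on any family of vectors with vanishing sums at that prime.
-/

set_option autoImplicit false
set_option linter.unusedSectionVars false
set_option linter.style.haveILetI false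
set_option maxHeartbeats 4000000

noncomputable section

open scoped TensorProduct Matrix
open IsLocalRing

namespace FLTAgent.MLT

open FLTAgent.Attach (GalQ cyc)

/-- `X` plus its adjugate is the trace, for two by two matrices -/
theorem add_adjugate_fin_two {T : Type} [CommRing T] (X : Matrix (Fin 2) (Fin 2) T) :
    X + X.adjugate = algebraMap T (Matrix (Fin 2) (Fin 2) T) X.trace := by
  rw [Matrix.adjugate_fin_two, Matrix.algebraMap_eq_diagonal]
  ext i j
  fin_cases i <;> fin_cases j <;> simp [Matrix.trace_fin_two, Matrix.diagonal] <;> ring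

/-- the quadratic relation of a matrix of trace `1 + c` and determinant `c` -/
theorem quad_fin_two {T : Type} [CommRing T] {c : T} {X : Matrix (Fin 2) (Fin 2) T}
    (ht : X.trace = 1 + c) (hd : X.det = c) : X * X + c • 1 = X + c • X := by
  rw [Matrix.det_fin_two] at hd
  rw [Matrix.trace_fin_two] at ht
  ext i j
  fin_cases i <;> fin_cases j <;>
    simp [Matrix.mul_apply, Fin.sum_univ_two]
  · linear_combination (X 0 0) * ht - hd
  · linear_combination (X 0 1) * ht
  · linear_combination (X 1 0) * ht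
  · linear_combination (X 1 1) * ht - hd

/-- the entry on the quotient line of the product of the two operators in a frame -/
theorem frame_entry {T : Type} [CommRing T] {c : T} {X Y : Matrix (Fin 2) (Fin 2) T}
    (hX : X 1 0 = 0) (hX' : X 1 1 = 1) (hY : Y 1 0 = 0) :
    ((X - c • 1) * (Y * Y - 1)) 1 1 = (1 - c) * (Y 1 1 ^ 2 - 1) := by
  simp [Matrix.mul_apply, Fin.sum_univ_two, hX, hX', hY]
  ring

/-- the diagonal entries moved to the scalar matrices -/
theorem sum_single_mul_single {T : Type} [CommRing T] (Z : Matrix (Fin 2) (Fin 2) T) :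
    ∑ a : Fin 2, Matrix.single a 1 1 * Z * Matrix.single 1 a 1 = Matrix.scalar (Fin 2) (Z 1 1) := by
  ext i j
  fin_cases i <;> fin_cases j <;>
    simp [Matrix.mul_apply, Fin.sum_univ_two, Matrix.single_apply]

variable {A : Type} [CommRing A] [IsDomain A] [IsDiscreteValuationRing A]
  [IsAdicComplete (maximalIdeal A) A] [CharZero A] {p : ℕ}
  {T : Type} [CommRing T] [IsLocalRing T] [IsNoetherianRing T] [Algebra A T]
  [IsLocalHom (algebraMap A T)]

/-- strictly ordinary on the vectors with vanishing sums -/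
theorem strictMat_of_sumsZero (hp : p.Prime) (hp2 : p ≠ 2) (hpA : (p : A) ∈ maximalIdeal A)
    {L M : ℕ} [NeZero L] (hL : L = M * p) (hpM : ¬ p ∣ M) (LD : JTors.LatticeData L)
    (W : Submodule A (A ⊗[ℤ] JTors.Lam L))
    (ρ : GaloisRepAdic T) (b : Module.Basis (Fin 2) T ρ.V)
    (hord : ρ.IsOrdinaryAt p) (habs : ρ.residual.IsAbsolutelyIrreducible)
    (hdet : ∀ σ : GalQ, LinearMap.det (ρ.ρ σ) = algebraMap A T (Attach.cycR hp hpA σ))
    (hgen : Algebra.adjoin A (Set.range fun σ : GalQ =>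
      (LinearMap.toMatrix b b (ρ.ρ σ)).trace) = ⊤)
    (Θ : Matrix (Fin 2) (Fin 2) T →ₐ[A] Module.End A W)
    (hΘgal : ∀ (σ : GalQ) (x : W),
      ((Θ (LinearMap.toMatrix b b (ρ.ρ σ)) x : W) : A ⊗[ℤ] JTors.Lam L) =
        LL.galLam LD hp hpA σ x.1)
    (X : Set W) (hX : ∀ y ∈ X, LL.SumsZero M p (LL.lamCast A L (y : A ⊗[ℤ] JTors.Lam L)))
    {B : Type} [CommRing B] [IsLocalRing B] (ψ : T →+* B) [IsLocalHom ψ]
    (hψ : ∀ t : T, (∀ y ∈ X, Θ (Matrix.scalar (Fin 2) t) y = 0) → ψ t = 0) :
    PT.TW.StrictMat p fun σ => (LinearMap.toMatrix b b (ρ.ρ σ)).map ψ := by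
  classical
  subst hL
  haveI : NeZero M := ⟨fun h => hpM (h ▸ dvd_zero p)⟩
  haveI : NeZero p := ⟨hp.ne_zero⟩
  haveI := Fact.mk hp
  set R : GalQ → Matrix (Fin 2) (Fin 2) T := fun σ => LinearMap.toMatrix b b (ρ.ρ σ) with hR
  have hrep : Deform.RepMat ρ.ρ R := ⟨b, fun _ => rfl⟩
  have hdetR : ∀ σ, (R σ).det = algebraMap A T (Attach.cycR hp hpA σ) := fun σ =>
    (LinearMap.det_toMatrix b _).trans (hdet σ)
  have hpT : (p : T) ∈ maximalIdeal T := by
    rw [← map_natCast (algebraMap A T)]; exact map_nonunit (algebraMap A T) _ hpA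
  have hpB : (p : B) ∈ maximalIdeal B := by
    rw [← map_natCast ψ]; exact map_nonunit ψ _ hpT
  -- the vectors of `W` all whose points are killed
  set D := LL.latticeOf LD with hDdef
  let 𝒦 : Submodule A W :=
    { carrier := {y | KilledVec D (LL.coordOf LD (y : A ⊗[ℤ] JTors.Lam (M * p)))}
      add_mem' := fun {x y} hx hy => by
        show KilledVec D (LL.coordOf LD ((x : A ⊗[ℤ] JTors.Lam (M * p)) + y.1))
        rw [show LL.coordOf LD ((x : A ⊗[ℤ] JTors.Lam (M * p)) + y.1) =
          LL.coordOf LD x.1 + LL.coordOf LD y.1 from LinearEquiv.map_add _ _ _]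
        exact KilledVec.add hp D hx hy
      zero_mem' := by
        show KilledVec D (LL.coordOf LD (0 : A ⊗[ℤ] JTors.Lam (M * p)))
        rw [show LL.coordOf LD (0 : A ⊗[ℤ] JTors.Lam (M * p)) = 0 from LinearEquiv.map_zero _]
        exact KilledVec.zero hp D
      smul_mem' := fun a x hx => by
        show KilledVec D (LL.coordOf LD (a • (x : A ⊗[ℤ] JTors.Lam (M * p))))
        rw [show LL.coordOf LD (a • (x : A ⊗[ℤ] JTors.Lam (M * p))) = a • LL.coordOf LD x.1 from
          LinearEquiv.map_smul _ _ _]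
        exact KilledVec.smul D a hx }
  have hXK : ∀ y ∈ X, y ∈ 𝒦 := fun y hy => by
    refine killedVec_of_sumsZero hp LD _ ?_
    rw [LL.vecOf_coordOf]
    exact hX y hy
  -- stable under all matrices
  let 𝒮 : Subalgebra A (Module.End A W) :=
    { carrier := {f | ∀ y ∈ 𝒦, f y ∈ 𝒦}
      mul_mem' := fun {f g} hf hg y hy => hf _ (hg y hy)
      add_mem' := fun {f g} hf hg y hy => add_mem (hf y hy) (hg y hy)
      algebraMap_mem' := fun a y hy => 𝒦.smul_mem a hy }
  let 𝒜 : Subalgebra A (Matrix (Fin 2) (Fin 2) T) := 𝒮.comap Θ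
  have hRA : ∀ σ, R σ ∈ 𝒜 := fun σ y hy => by
    show KilledVec D (LL.coordOf LD ((Θ (R σ) y : W) : A ⊗[ℤ] JTors.Lam (M * p)))
    rw [show ((Θ (R σ) y : W) : A ⊗[ℤ] JTors.Lam (M * p)) = LL.galLam LD hp hpA σ y.1 from hΘgal σ y,
      LL.coordOf_galLam]
    exact KilledVec.galois hp hpA D σ hy
  let sc : T →ₐ[A] Matrix (Fin 2) (Fin 2) T := IsScalarTower.toAlgHom A T _
  have hscA : ∀ t : T, algebraMap T (Matrix (Fin 2) (Fin 2) T) t ∈ 𝒜 := by
    have htop : (⊤ : Subalgebra A T) ≤ 𝒜.comap sc := by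
      rw [← hgen, Algebra.adjoin_le_iff]
      rintro _ ⟨σ, rfl⟩
      show algebraMap T (Matrix (Fin 2) (Fin 2) T) (R σ).trace ∈ 𝒜
      have hadj : (R σ).adjugate = Attach.cycR hp hpA σ • R σ⁻¹ := by
        have h1 : R σ * R σ⁻¹ = 1 := by rw [← hrep.map_mul, mul_inv_cancel, hrep.map_one]
        calc (R σ).adjugate = (R σ).adjugate * (R σ * R σ⁻¹) := by rw [h1, Matrix.mul_one]
          _ = ((R σ).adjugate * R σ) * R σ⁻¹ := by rw [Matrix.mul_assoc]
          _ = algebraMap A T (Attach.cycR hp hpA σ) • R σ⁻¹ := by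
              rw [Matrix.adjugate_mul, hdetR, smul_mul_assoc, Matrix.one_mul]
          _ = _ := algebraMap_smul T _ _
      rw [← add_adjugate_fin_two, hadj]
      exact add_mem (hRA σ) (Subalgebra.smul_mem _ (hRA σ⁻¹) _)
    exact fun t => htop (Algebra.mem_top (x := t))
  have hA : ∀ Y : Matrix (Fin 2) (Fin 2) T, Y ∈ 𝒜 := fun Y => by
    have hY : Y ∈ Submodule.span T (Set.range R) := by
      rw [span_range_rep_eq_top habs hrep]; trivial
    induction hY using Submodule.span_induction with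
    | mem y hy => obtain ⟨σ, rfl⟩ := hy; exact hRA σ
    | zero => exact zero_mem _
    | add y z _ _ hy hz => exact add_mem hy hz
    | smul t y _ hy =>
      rw [Algebra.smul_def]
      exact mul_mem (hscA t) hy
  refine ⟨hpB, fun P hP => ?_⟩
  obtain ⟨U, U', hU'U, hUU', hD, hI⟩ := exists_frame_of_ordinary hrep hord hP
  obtain ⟨φ, hφ⟩ := PT.exists_frobenius_place hp hP
  obtain ⟨ζ, hζ⟩ := HasEnoughRootsOfUnity.exists_primitiveRoot (AlgebraicClosure ℚ) p
  obtain ⟨τ, hτ, hmove⟩ := TOR.exists_inertia_moves (A := P) (p := p) hp hP hp2 hζ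
  have hcyc : cyc p τ ≠ 1 := fun h => hmove (by
    rw [Attach.cyc_spec τ hζ.pow_eq_one, h, ZMod.val_one, pow_one])
  set c := Attach.cycR hp hpA τ with hc
  have hcu : IsUnit (c - 1) := by
    by_contra hcu
    haveI : NeZero (p ^ 1) := ⟨pow_ne_zero _ hp.ne_zero⟩
    have h1 : c - ((cyc (p ^ 1) τ).val : A) ∈ maximalIdeal A := by
      have := Attach.cycR_spec hp hpA τ 1
      rwa [pow_one] at this
    have h2 : (((cyc (p ^ 1) τ).val : ℤ) - 1 : A) ∈ maximalIdeal A := by
      have := sub_mem ((mem_maximalIdeal _).mpr hcu) h1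
      push_cast
      rwa [sub_sub_sub_cancel_left] at this
    apply hcyc
    haveI : CharP (ResidueField A) p := by
      refine (CharP.charP_iff_prime_eq_zero hp).mpr ?_
      rw [← map_natCast (residue A), residue_eq_zero_iff]
      exact hpA
    have h3 : ((((cyc (p ^ 1) τ).val : ℤ) - 1 : ℤ) : ResidueField A) = 0 := by
      rw [← map_intCast (residue A), residue_eq_zero_iff]
      push_cast at h2 ⊢
      exact h2
    rw [CharP.intCast_eq_zero_iff (ResidueField A) p, ← ZMod.intCast_zmod_eq_zero_iff_dvd,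
      Int.cast_sub, Int.cast_natCast, Int.cast_one, sub_eq_zero] at h3
    rw [← Attach.cyc_cast (dvd_pow_self p one_ne_zero) τ, ZMod.castHom_apply, ZMod.cast_eq_val]
    exact h3
  have hτD : τ ∈ P.decompositionSubgroup ℚ := (Attach.inertia_smul_residue hτ).1
  -- the triangular coordinates
  have hzdet : ∀ s ∈ P.decompositionSubgroup ℚ,
      (U' * R s * U) 0 0 * (U' * R s * U) 1 1 = algebraMap A T (Attach.cycR hp hpA s) := by
    intro s hs
    have h1 : (U' * R s * U).det = algebraMap A T (Attach.cycR hp hpA s) := by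
      rw [Matrix.det_mul, Matrix.det_mul, mul_comm U'.det, mul_assoc, ← Matrix.det_mul, hU'U,
        Matrix.det_one, mul_one, hdetR]
    rw [← h1, Matrix.det_fin_two, hD s hs, mul_zero, sub_zero]
  obtain ⟨h10, h11⟩ := hI τ hτ
  have h00 : (U' * R τ * U) 0 0 = algebraMap A T c := by
    have := hzdet τ hτD
    rwa [h11, mul_one] at this
  -- the quadratic relation and the killed commutator
  have htr : (R τ).trace = 1 + algebraMap A T c := by
    have h1 : (U' * R τ * U).trace = (R τ).trace := by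
      rw [Matrix.trace_mul_cycle, hUU', Matrix.one_mul]
    rw [← h1, Matrix.trace_fin_two, h00, h11, add_comm]
  have hquad : R τ * R τ + c • (1 : Matrix (Fin 2) (Fin 2) T) = R τ + c • R τ := by
    rw [← algebraMap_smul T c (1 : Matrix (Fin 2) (Fin 2) T), ← algebraMap_smul T c (R τ)]
    exact quad_fin_two htr (hdetR τ)
  set N := (R τ - c • (1 : Matrix (Fin 2) (Fin 2) T)) * (R (φ * φ) - 1) with hN
  have hkillN : ∀ y ∈ 𝒦, Θ N y = 0 := by
    intro y hy
    set w := Θ (R (φ * φ) - 1) y with hw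
    have hcoord : ∀ (σ : GalQ) (v : W), LL.coordOf LD ((Θ (R σ) v : W) : A ⊗[ℤ] JTors.Lam (M * p)) =
        D.galMat hp hpA σ *ᵥ LL.coordOf LD (v : A ⊗[ℤ] JTors.Lam (M * p)) := fun σ v => by
      rw [show ((Θ (R σ) v : W) : A ⊗[ℤ] JTors.Lam (M * p)) = LL.galLam LD hp hpA σ v.1 from
        hΘgal σ v, LL.coordOf_galLam]
    have hu : LL.coordOf LD (w : A ⊗[ℤ] JTors.Lam (M * p)) =
        D.galMat hp hpA (φ * φ) *ᵥ LL.coordOf LD y.1 - LL.coordOf LD y.1 := by
      rw [hw, map_sub Θ, map_one Θ, LinearMap.sub_apply, Module.End.one_apply, Submodule.coe_sub,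
        LL.coordOf_sub, hcoord]
    have hlin : ∀ (a : A) (x z : A ⊗[ℤ] JTors.Lam (M * p)),
        LL.coordOf LD (x + a • z) = LL.coordOf LD x + a • LL.coordOf LD z := fun a x z =>
      (LinearEquiv.map_add _ _ _).trans (congrArg _ (LinearEquiv.map_smul _ _ _))
    have hq := congrArg (fun Z => LL.coordOf LD ((Θ Z w : W) : A ⊗[ℤ] JTors.Lam (M * p))) hquad
    simp only [map_add, map_smul, map_mul, map_one, LinearMap.add_apply, LinearMap.smul_apply,
      Module.End.mul_apply, Module.End.one_apply, Submodule.coe_add, Submodule.coe_smul] at hq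
    rw [hlin, hlin, hcoord, hcoord] at hq
    have h := galMat_eq_cycR_smul hp hpA D hp2 hpM hP hφ hτ hcyc _ hy _ hu hq
    rw [hN, map_mul Θ, Module.End.mul_apply, ← hw, map_sub Θ, map_smul Θ, map_one Θ,
      LinearMap.sub_apply, LinearMap.smul_apply, Module.End.one_apply]
    refine Subtype.ext (LL.coordOf_injective LD ?_)
    rw [Submodule.coe_sub, LL.coordOf_sub, Submodule.coe_smul, hcoord, h, Submodule.coe_zero,
      show LL.coordOf LD (c • (w : A ⊗[ℤ] JTors.Lam (M * p))) = c • LL.coordOf LD w.1 from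
        LinearEquiv.map_smul _ _ _, sub_self]
    exact (LinearEquiv.map_zero _).symm
  set z : GalQ → T := fun s => (U' * R s * U) 1 1 with hz
  have hφD := hφ.mem_decompositionSubgroup
  -- the entry of `N` on the quotient line
  set e := (1 - algebraMap A T c) * (z φ ^ 2 - 1) with he
  have hN' : (U' * N * U) 1 1 = e := by
    have e1 : U' * N * U = (U' * R τ * U - algebraMap A T c • 1) *
        (U' * R φ * U * (U' * R φ * U) - 1) := by
      rw [hN, ← algebraMap_smul T c (1 : Matrix (Fin 2) (Fin 2) T), hrep.map_mul]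
      simp only [Matrix.mul_sub, Matrix.sub_mul, Matrix.mul_one, Matrix.one_mul, Matrix.mul_smul,
        Matrix.smul_mul, hU'U, ← Matrix.mul_assoc]
      simp only [Matrix.mul_assoc _ U U', hUU', Matrix.mul_one]
    rw [e1]
    exact frame_entry h10 h11 (hD φ hφD)
  have hψe : ψ e = 0 := hψ e fun y hy => by
    have hy' := hXK y hy
    let E : Fin 2 → Fin 2 → Matrix (Fin 2) (Fin 2) T := fun a a' => Matrix.single a a' 1
    have key : Matrix.scalar (Fin 2) e =
        ∑ a : Fin 2, E a 1 * U' * N * (U * E 1 a) := by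
      have e2 : ∀ a, E a 1 * U' * N * (U * E 1 a) = E a 1 * (U' * N * U) * E 1 a := fun a => by
        simp only [Matrix.mul_assoc]
      simp only [e2, E, sum_single_mul_single, hN']
    rw [key, map_sum, LinearMap.sum_apply]
    refine Finset.sum_eq_zero fun a _ => ?_
    rw [map_mul Θ, map_mul Θ, Module.End.mul_apply, Module.End.mul_apply]
    exact (congrArg _ (hkillN _ (hA (U * E 1 a) y hy'))).trans (map_zero _)
  have hψz : ψ (z φ ^ 2 - 1) = 0 := by
    rw [he, map_mul] at hψe
    have hu : IsUnit (ψ (1 - algebraMap A T c)) := by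
      rw [← map_one (algebraMap A T), ← map_sub, ← neg_sub, map_neg, map_neg]
      exact ((hcu.map (algebraMap A T)).map ψ).neg
    exact hu.mul_right_eq_zero.mp hψe
  have hsq : ∀ s ∈ P.decompositionSubgroup ℚ, ψ (z s) ^ 2 = 1 := by
    intro s hs
    obtain ⟨r, hr⟩ := Ideal.mem_span_singleton'.mp
      (sq_sub_one_mem_of_frobenius hrep hp hP hφ hU'U hUU' hD hI hs)
    rw [← sub_eq_zero, ← map_pow, ← map_one ψ, ← map_sub,
      show z s ^ 2 - 1 = r * (z φ ^ 2 - 1) from hr.symm, map_mul, hψz, mul_zero]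
  have em : ∀ σ, U'.map ψ * (R σ).map ψ * U.map ψ = (U' * R σ * U).map ψ := fun σ => by
    rw [Matrix.map_mul, Matrix.map_mul]
  have hDet : PT.TW.DetMat p R := (PT.TW.detIsCyclotomic_iff hrep).mp
    (LL.detIsCyclotomic_of_cycR hp hpA ρ hdet)
  refine ⟨U.map ψ, U'.map ψ,
    by rw [← Matrix.map_mul, hU'U, Matrix.map_one _ (map_zero _) (map_one _)],
    by rw [← Matrix.map_mul, hUU', Matrix.map_one _ (map_zero _) (map_one _)], ?_, ?_, ?_⟩
  · intro s hs; rw [em, Matrix.map_apply, hD s hs, map_zero]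
  · intro s hs
    rw [em, Matrix.map_apply, Matrix.map_apply, (hI s hs).1, (hI s hs).2, map_zero, map_one]
    exact ⟨rfl, rfl⟩
  · intro s hs n a hna
    rw [em, Matrix.map_apply, Matrix.map_apply]
    have h1 := PT.TW.natCast_pow_mem_map ψ (hDet.2 n s a hna)
    rw [map_sub, map_natCast, hdetR, ← hzdet s hs, map_mul] at h1
    have h2 := Ideal.mul_mem_right (ψ (z s)) _ h1
    convert h2 using 1
    have h3 := hsq s hs
    simp only [hz] at h3
    linear_combination (-ψ ((U' * R s * U) 0 0)) * h3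

end FLTAgent.MLT

end
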