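import Fermat.Agent.MLT.PointAPVec
import Fermat.Agent.MLT.RepStrict
import Fermat.Agent.LL.LamGal
import Fermat.Agent.LL.TraceExt

/-!
Area MLT, parcel APW: on the part of the lattice of a level prime to `p` cut out by a system whose
residual representation is strictly ordinary at `p`, some power of `T_p² - (1 + p)²` is divisible by
the uniformiser.
-/

set_option autoImplicit false
set_option linter.unusedSectionVars false
set_option linter.style.haveILetI false
set_option maxHeartbeats 8000000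

noncomputable section

open scoped TensorProduct Matrix
open IsLocalRing

namespace FLTAgent.MLT

open FLTAgent.Attach (GalQ cyc)
open FLTAgent.LL (coordOf lamPart lamT lamOp galLam latticeOf)

variable {A : Type} [CommRing A] [IsDomain A] [IsDiscreteValuationRing A]
  [IsAdicComplete (maximalIdeal A) A] [CharZero A] [Finite (ResidueField A)] {p : ℕ}
  {T : Type} [CommRing T] [IsLocalRing T] [IsNoetherianRing T] [Algebra A T]
  [IsLocalHom (algebraMap A T)] [Module.Finite A T]

/-- coordinates of a Hecke operator -/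
theorem coordOf_lamOp {L : ℕ} [NeZero L] (LD : JTors.LatticeData L) (ℓ : Nat.Primes)
    (y : A ⊗[ℤ] JTors.Lam L) :
    coordOf LD (lamOp LD A ℓ y) =
      ((latticeOf LD).mat ((latticeOf LD).T ℓ) :
        Matrix (latticeOf LD).Idx (latticeOf LD).Idx A) *ᵥ coordOf LD y := by
  classical
  let b := Module.Free.chooseBasis ℤ (latticeOf LD).Lam
  have h := LinearMap.toMatrix_mulVec_repr (b.baseChange A) (b.baseChange A)
    ((((latticeOf LD).T ℓ)).baseChange A) y
  refine h.symm.trans ?_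
  congr 1
  ext i j
  rw [SS2.mat_entry (latticeOf LD), LinearMap.toMatrix_apply, Module.Basis.baseChange_apply,
    LinearMap.baseChange_tmul, Module.Basis.baseChange_repr_tmul, zsmul_one]

/-- moving `f - w` from a vector to a nearby one -/
theorem sub_smul_split {A V : Type} [CommRing A] [AddCommGroup V] [Module A V] (f : Module.End A V)
    (w : A) (y y' : V) : f y - w • y = (f y' - w • y') - (f (y' - y) - w • (y' - y)) := by
  rw [map_sub, smul_sub]; abel

/-- `f - w` commutes with what commutes with `f` -/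
theorem sub_smul_comm {A V : Type} [CommRing A] [AddCommGroup V] [Module A V] (f g : Module.End A V)
    (h : ∀ y, g (f y) = f (g y)) (w : A) (x : V) : g (f x - w • x) = f (g x) - w • g x := by
  rw [map_sub, map_smul, h]

/-- a vector fixed by a triangular matrix -/
theorem frame_fix {T : Type} [CommRing T] {X : Matrix (Fin 2) (Fin 2) T} {β c : T} (h10 : X 1 0 = 0)
    (h11 : X 1 1 = 1) (h00 : X 0 0 = c) (hb : c * β + X 0 1 = β) :
    X * !![0, β; 0, 1] = !![0, β; 0, 1] := by
  ext i j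
  fin_cases i <;> fin_cases j <;> simp [Matrix.mul_apply, Fin.sum_univ_two, h10, h11, h00, hb]

/-- what is left of Frobenius on that vector lies on the line -/
theorem frame_move {T : Type} [CommRing T] {X Y : Matrix (Fin 2) (Fin 2) T} {β c w : T}
    (h10 : X 1 0 = 0) (h00 : X 0 0 = c) (hY : Y 1 0 = 0) (hw : Y 1 1 = w) :
    X * ((Y - w • 1) * !![0, β; 0, 1]) = c • ((Y - w • 1) * !![0, β; 0, 1]) := by
  ext i j
  fin_cases i <;> fin_cases j <;> simp [Matrix.mul_apply, Fin.sum_univ_two, h10, h00, hY, hw]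

/-- the projector on the unramified quotient of a strictly ordinary residual matrix representation -/
theorem exists_proj_of_strictMat {k : Type} [Field k] (hp : p.Prime) (hp2 : p ≠ 2)
    (hpk : (p : k) = 0) [NeZero (p ^ 1)] (r : GalQ → Matrix (Fin 2) (Fin 2) k)
    (hdet : ∀ σ, (r σ).det = ((cyc (p ^ 1) σ).val : k)) (hu : ∀ σ, (r σ).det ≠ 0)
    (hstr : PT.TW.StrictMat p r) :
    ∃ (w : ℤ) (P : ValuationSubring (AlgebraicClosure ℚ)) (φ τ : GalQ)
      (E : Matrix (Fin 2) (Fin 2) k) (Ya Za : Fin 2 → Matrix (Fin 2) (Fin 2) k),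
      w * w = 1 ∧ P.LiesOverPrime p ∧ P.IsFrobeniusAt φ p ∧ τ ∈ P.inertiaSubgroupIn ℚ ∧
      (haveI : NeZero p := ⟨hp.ne_zero⟩; cyc p τ ≠ 1) ∧ r τ * E = E ∧
      (∀ σ ∈ P.inertiaSubgroupIn ℚ,
        r σ * r σ + (r σ).det • (1 : Matrix (Fin 2) (Fin 2) k) = r σ + (r σ).det • r σ) ∧
      r τ * (r φ * E - (w : k) • E) = (r τ).det • (r φ * E - (w : k) • E) ∧
      ∑ a, Ya a * E * Za a = 1 := by
  classical
  haveI : NeZero p := ⟨hp.ne_zero⟩
  haveI := Fact.mk hp
  obtain ⟨P, φ, hP, hφ⟩ := Alg.exists_place_frobenius p hp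
  obtain ⟨ζ, hζ⟩ := HasEnoughRootsOfUnity.exists_primitiveRoot (AlgebraicClosure ℚ) p
  obtain ⟨τ, hτ, hmove⟩ := TOR.exists_inertia_moves (A := P) (p := p) hp hP hp2 hζ
  have hcyc : cyc p τ ≠ 1 := fun h => hmove (by
    rw [Attach.cyc_spec τ hζ.pow_eq_one, h, ZMod.val_one, pow_one])
  obtain ⟨U, U', hU'U, hUU', hD, hI, hx⟩ := hstr.2 P hP
  have hfd : ∀ s ∈ P.decompositionSubgroup ℚ,
      (U' * r s * U) 0 0 * (U' * r s * U) 1 1 = (r s).det := by
    intro s hs
    have h1 : (U' * r s * U).det = (r s).det := by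
      rw [Matrix.det_mul, Matrix.det_mul, mul_comm U'.det, mul_assoc, ← Matrix.det_mul, hU'U,
        Matrix.det_one, mul_one]
    rw [← h1, Matrix.det_fin_two, hD s hs, mul_zero, sub_zero]
  have hφD := hφ.mem_decompositionSubgroup
  set z := (U' * r φ * U) 1 1 with hz
  have hz2 : z * z = 1 := by
    have h1 := hx φ hφD 1 _ fun μ hμ => Attach.cyc_spec φ hμ
    rw [show ((p ^ 1 : ℕ) : k) = 0 by simp [hpk], Ideal.span_singleton_zero,
      Ideal.mem_bot, sub_eq_zero, ← hdet] at h1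
    have h2 := hfd φ hφD
    rw [h1, mul_assoc] at h2
    exact mul_left_cancel₀ (hu φ) (h2.trans (mul_one _).symm)
  obtain ⟨w, hw, hw2⟩ : ∃ w : ℤ, (w : k) = z ∧ w * w = 1 := by
    rcases mul_self_eq_one_iff.mp hz2 with h | h
    · exact ⟨1, by rw [Int.cast_one, h], by norm_num⟩
    · exact ⟨-1, by rw [Int.cast_neg, Int.cast_one, h], by norm_num⟩
  obtain ⟨h10, h11⟩ := hI τ hτ
  have hcτ : (r τ).det ≠ 1 := fun h => hcyc (by
    haveI : CharP k p := (CharP.charP_iff_prime_eq_zero hp).mpr hpk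
    have h' : ((cyc (p ^ 1) τ).val : k) = ((1 : ℕ) : k) :=
      (hdet τ).symm.trans (h.trans Nat.cast_one.symm)
    rw [CharP.natCast_eq_natCast k p] at h'
    rw [← Attach.cyc_cast (dvd_pow_self p one_ne_zero) τ, ZMod.castHom_apply, ZMod.cast_eq_val]
    exact ((ZMod.natCast_eq_natCast_iff _ _ _).mpr h').trans Nat.cast_one)
  set β := (U' * r τ * U) 0 1 / (1 - (r τ).det) with hβ
  set E0 : Matrix (Fin 2) (Fin 2) k := !![0, β; 0, 1] with hE0
  set E := U * E0 * U' with hE
  have hconj : ∀ Y, ∀ X : Matrix (Fin 2) (Fin 2) k,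
      X * (U * Y * U') = U * (U' * X * U * Y) * U' := fun Y X => by
    simp only [← Matrix.mul_assoc, hUU', Matrix.one_mul]
  have h00 : (U' * r τ * U) 0 0 = (r τ).det := by
    have := hfd τ (Attach.inertia_smul_residue hτ).1
    rwa [h11, mul_one] at this
  refine ⟨w, P, φ, τ, E, fun a => U * Matrix.single a 1 1 * U', fun a => U * Matrix.single 1 a 1 * U',
    hw2, hP, hφ, hτ, hcyc, ?_, ?_, ?_, ?_⟩
  · rw [hE, hconj]
    congr 2
    refine frame_fix h10 h11 h00 ?_
    have : 1 - (r τ).det ≠ 0 := sub_ne_zero.mpr (Ne.symm hcτ)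
    rw [hβ]; field_simp; ring
  · intro σ hσ
    refine quad_fin_two ?_ rfl
    have h1 : (U' * r σ * U).trace = (r σ).trace := by
      rw [Matrix.trace_mul_cycle, hUU', Matrix.one_mul]
    have h2 := hfd σ (Attach.inertia_smul_residue hσ).1
    rw [(hI σ hσ).2, mul_one] at h2
    rw [← h1, Matrix.trace_fin_two, h2, (hI σ hσ).2, add_comm]
  · have e : r φ * E - (w : k) • E = U * ((U' * r φ * U - (w : k) • 1) * E0) * U' := by
      rw [hE, hconj, Matrix.sub_mul, Matrix.mul_sub, Matrix.sub_mul, smul_mul_assoc,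
        Matrix.one_mul, Matrix.mul_smul, smul_mul_assoc]
    rw [e, hconj, ← smul_mul_assoc, ← Matrix.mul_smul]
    congr 2
    exact frame_move h10 h00 (hD φ hφD) hw.symm
  · have e : ∀ a, U * Matrix.single a 1 1 * U' * E * (U * Matrix.single 1 a 1 * U') =
        U * (Matrix.single a 1 1 * (U' * E * U) * Matrix.single 1 a 1) * U' := fun a => by
      simp only [Matrix.mul_assoc]
    simp only [e]
    rw [← Matrix.sum_mul, ← Matrix.mul_sum, sum_single_mul_single, hE,
      show U' * (U * E0 * U') * U = (U' * U) * E0 * (U' * U) by simp only [Matrix.mul_assoc],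
      hU'U, Matrix.one_mul, Matrix.mul_one, hE0]
    simp [hUU']

/-- coordinates of a vector divisible by the uniformiser -/
theorem coord_mem_of_smul_top {L : ℕ} [NeZero L] (LD : JTors.LatticeData L) (z : A ⊗[ℤ] JTors.Lam L)
    (hz : z ∈ maximalIdeal A • (⊤ : Submodule A (A ⊗[ℤ] JTors.Lam L)))
    (i : (latticeOf LD).Idx) : coordOf LD z i ∈ maximalIdeal A := by
  refine Submodule.smul_induction_on hz (fun a ha m _ => ?_) fun x y hx hy => ?_
  · rw [show coordOf LD (a • m) = a • coordOf LD m from LinearEquiv.map_smul _ _ _, Pi.smul_apply,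
      smul_eq_mul]
    exact Ideal.mul_mem_right _ _ ha
  · rw [show coordOf LD (x + y) = coordOf LD x + coordOf LD y from LinearEquiv.map_add _ _ _,
      Pi.add_apply]
    exact add_mem hx hy

/-- a vector with divisible coordinates is divisible -/
theorem mem_smul_top_of_coord {L : ℕ} [NeZero L] (LD : JTors.LatticeData L) (z : A ⊗[ℤ] JTors.Lam L)
    (hz : ∀ i, coordOf LD z i ∈ maximalIdeal A) :
    z ∈ maximalIdeal A • (⊤ : Submodule A (A ⊗[ℤ] JTors.Lam L)) := by
  refine (((Module.Free.chooseBasis ℤ (latticeOf LD).Lam).baseChange A).sum_equivFun z) ▸ ?_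
  exact Submodule.sum_mem _ fun i _ => Submodule.smul_mem_smul (hz i) Submodule.mem_top

theorem map_mul_residue (Y Y' : Matrix (Fin 2) (Fin 2) T) :
    (Y * Y').map (residue T) = Y.map (residue T) * Y'.map (residue T) := Matrix.map_mul

theorem map_smul_residue (a : A) (Y : Matrix (Fin 2) (Fin 2) T) :
    (a • Y).map (residue T) = residue T (algebraMap A T a) • Y.map (residue T) := by
  ext i j
  simp only [Matrix.map_apply, Matrix.smul_apply]
  rw [Algebra.smul_def a (Y i j), map_mul]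
  rfl

/-- `T_p ≡ w` on the image of the projector -/
theorem hecke_frame_coord (hp : p.Prime) (hp2 : p ≠ 2) (hpA : (p : A) ∈ maximalIdeal A)
    {L : ℕ} [NeZero L] (hpL : ¬ p ∣ L) (LD : JTors.LatticeData L) {M : ℕ} (s : LL.Sys M A)
    (R : GalQ → Matrix (Fin 2) (Fin 2) T)
    (Θ : Matrix (Fin 2) (Fin 2) T →ₐ[A] Module.End A (lamPart LD s))
    (hcoord : ∀ (σ : GalQ) (v : lamPart LD s), coordOf LD (Θ (R σ) v).1 =
      (latticeOf LD).galMat hp hpA σ *ᵥ coordOf LD v.1)
    {P : ValuationSubring (AlgebraicClosure ℚ)} {φ τ : GalQ} (hP : P.LiesOverPrime p)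
    (hφ : P.IsFrobeniusAt φ p) (hτ : τ ∈ P.inertiaSubgroupIn ℚ)
    (hcyc : haveI : NeZero p := ⟨hp.ne_zero⟩; cyc p τ ≠ 1) (w : ℤ) (Ê : Matrix (Fin 2) (Fin 2) T)
    (E : Matrix (Fin 2) (Fin 2) (ResidueField T)) (hlft : Ê.map (residue T) = E)
    (hτE : (R τ).map (residue T) * E = E)
    (hquad : ∀ σ ∈ P.inertiaSubgroupIn ℚ, (R σ).map (residue T) * (R σ).map (residue T) +
      residue T (algebraMap A T (Attach.cycR hp hpA σ)) • 1 = (R σ).map (residue T) +
        residue T (algebraMap A T (Attach.cycR hp hpA σ)) • (R σ).map (residue T))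
    (hτu : (R τ).map (residue T) *
        ((R φ).map (residue T) * E - (w : ResidueField T) • E) =
      residue T (algebraMap A T (Attach.cycR hp hpA τ)) •
        ((R φ).map (residue T) * E - (w : ResidueField T) • E))
    (v : lamPart LD s)
    (hΘY : ∀ Y Y' : Matrix (Fin 2) (Fin 2) T,
      (Y * Ê).map (residue T) = (Y' * Ê).map (residue T) →
        ∀ i, coordOf LD (Θ Y v).1 i - coordOf LD (Θ Y' v).1 i ∈ maximalIdeal A)
    (i : (latticeOf LD).Idx) :
    coordOf LD (lamT LD s ⟨p, hp⟩ v - (w : A) • v).1 i ∈ maximalIdeal A := by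
  classical
  haveI : NeZero p := ⟨hp.ne_zero⟩
  have hlin : ∀ (a : A) (x : lamPart LD s), coordOf LD (a • x).1 = a • coordOf LD x.1 :=
    fun a x => LinearEquiv.map_smul _ _ _
  have hadd : ∀ (x x' : lamPart LD s), coordOf LD (x + x').1 = coordOf LD x.1 + coordOf LD x'.1 :=
    fun x x' => LinearEquiv.map_add _ _ _
  rw [Submodule.coe_sub, LL.coordOf_sub, Pi.sub_apply, hlin, Pi.smul_apply, smul_eq_mul,
    show coordOf LD (lamT LD s ⟨p, hp⟩ v).1 = _ from coordOf_lamOp LD ⟨p, hp⟩ v.1]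
  refine mat_T_eq_smul_of_fixed hp hpA (latticeOf LD) hp2 hpL hP hφ hτ hcyc w (coordOf LD v.1)
    ?_ ?_ _ rfl ?_ i
  · intro l
    have := hΘY (R τ) 1 (by rw [Matrix.one_mul, map_mul_residue, hlft, hτE]) l
    rwa [map_one, Module.End.one_apply, hcoord] at this
  · intro σ hσ l
    have := hΘY (R σ * R σ + Attach.cycR hp hpA σ • 1) (R σ + Attach.cycR hp hpA σ • R σ) (by
      rw [map_mul_residue, map_mul_residue _ Ê, Matrix.map_add _ (map_add (residue T)),
        Matrix.map_add _ (map_add (residue T)), map_mul_residue, map_smul_residue, map_smul_residue,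
        Matrix.map_one _ (map_zero (residue T)) (map_one (residue T))]
      exact congrArg (· * _) (hquad σ hσ)) l
    rw [map_add, map_add, map_mul, map_smul, map_smul, map_one, LinearMap.add_apply,
      LinearMap.add_apply, LinearMap.smul_apply, LinearMap.smul_apply, Module.End.mul_apply,
      Module.End.one_apply, hadd, hadd, hlin, hlin, hcoord, hcoord, Pi.add_apply, Pi.add_apply,
      Pi.smul_apply, Pi.smul_apply, smul_eq_mul, smul_eq_mul] at this
    exact this
  · intro l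
    have hu : coordOf LD (Θ (R φ - (w : A) • 1) v).1 =
        (latticeOf LD).galMat hp hpA φ *ᵥ coordOf LD v.1 - (w : A) • coordOf LD v.1 := by
      rw [map_sub, map_smul, map_one, LinearMap.sub_apply, LinearMap.smul_apply,
        Module.End.one_apply, Submodule.coe_sub, LL.coordOf_sub, hlin, hcoord]
    have := hΘY (R τ * (R φ - (w : A) • 1)) (Attach.cycR hp hpA τ • (R φ - (w : A) • 1)) (by
      rw [map_mul_residue, map_mul_residue, map_mul_residue, map_smul_residue, hlft,
        Matrix.map_sub _ (map_sub (residue T)), map_smul_residue,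
        Matrix.map_one _ (map_zero (residue T)) (map_one (residue T)), map_intCast, map_intCast]
      rw [smul_mul_assoc, Matrix.mul_assoc, Matrix.sub_mul, smul_mul_assoc, Matrix.one_mul]
      exact hτu) l
    rw [map_mul, map_smul, Module.End.mul_apply, LinearMap.smul_apply, hlin, hcoord, hu,
      Pi.smul_apply, smul_eq_mul] at this
    exact this

/-- `T_p² - (1 + p)²` is topologically nilpotent -/
theorem exists_pow_hecke_sq_sub_mem (hp : p.Prime) (hp2 : p ≠ 2) (hpA : (p : A) ∈ maximalIdeal A)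
    {L : ℕ} [NeZero L] (hpL : ¬ p ∣ L) (LD : JTors.LatticeData L) {M : ℕ} (s : LL.Sys M A)
    (ρ : GaloisRepAdic T) (b : Module.Basis (Fin 2) T ρ.V)
    (habs : ρ.residual.IsAbsolutelyIrreducible)
    (hdet : ∀ σ : GalQ, LinearMap.det (ρ.ρ σ) = algebraMap A T (Attach.cycR hp hpA σ))
    (hgen : Algebra.adjoin A (Set.range fun σ : GalQ =>
      (LinearMap.toMatrix b b (ρ.ρ σ)).trace) = ⊤)
    (Θ : Matrix (Fin 2) (Fin 2) T →ₐ[A] Module.End A (lamPart LD s))
    (hΘgal : ∀ (σ : GalQ) (x : lamPart LD s),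
      ((Θ (LinearMap.toMatrix b b (ρ.ρ σ)) x : lamPart LD s) : A ⊗[ℤ] JTors.Lam L) =
        galLam LD hp hpA σ x.1)
    (hstr : PT.TW.StrictMat p fun σ => (LinearMap.toMatrix b b (ρ.ρ σ)).map (residue T)) :
    ∃ n : ℕ, ∀ y : lamPart LD s,
      (((lamT LD s ⟨p, hp⟩ * lamT LD s ⟨p, hp⟩ -
          ((1 + p : ℕ) : A) ^ 2 • (1 : Module.End A (lamPart LD s))) ^ n) y :
        A ⊗[ℤ] JTors.Lam L) ∈ maximalIdeal A • (⊤ : Submodule A (A ⊗[ℤ] JTors.Lam L)) := by
  classical
  haveI : NeZero p := ⟨hp.ne_zero⟩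
  haveI := Fact.mk hp
  set R : GalQ → Matrix (Fin 2) (Fin 2) T := fun σ => LinearMap.toMatrix b b (ρ.ρ σ) with hR
  have hrep : Deform.RepMat ρ.ρ R := ⟨b, fun _ => rfl⟩
  have hdetR : ∀ σ, (R σ).det = algebraMap A T (Attach.cycR hp hpA σ) := fun σ =>
    (LinearMap.det_toMatrix b _).trans (hdet σ)
  let 𝒲 : Submodule A (lamPart LD s) :=
    (maximalIdeal A • (⊤ : Submodule A (A ⊗[ℤ] JTors.Lam L))).comap (lamPart LD s).subtype
  set Tp : Module.End A (lamPart LD s) := lamT LD s ⟨p, hp⟩ with hTp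
  -- stable under matrices, commuting with `T_p`
  let 𝒮 : Subalgebra A (Module.End A (lamPart LD s)) :=
    { carrier := {f | (∀ y ∈ 𝒲, f y ∈ 𝒲) ∧ ∀ y, f (Tp y) = Tp (f y)}
      mul_mem' := fun {f g} hf hg => ⟨fun y hy => hf.1 _ (hg.1 y hy), fun y => by
        rw [Module.End.mul_apply, Module.End.mul_apply, hg.2, hf.2]⟩
      add_mem' := fun {f g} hf hg => ⟨fun y hy => add_mem (hf.1 y hy) (hg.1 y hy), fun y => by
        rw [LinearMap.add_apply, LinearMap.add_apply, hf.2, hg.2, map_add]⟩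
      algebraMap_mem' := fun a => ⟨fun y hy => 𝒲.smul_mem a hy, fun y => (map_smul Tp a y).symm⟩ }
  let 𝒜 : Subalgebra A (Matrix (Fin 2) (Fin 2) T) := 𝒮.comap Θ
  have hRA : ∀ σ, R σ ∈ 𝒜 := fun σ => by
    refine ⟨fun y hy => ?_, fun y => Subtype.ext ?_⟩
    · show ((Θ (R σ) y : lamPart LD s) : A ⊗[ℤ] JTors.Lam L) ∈
        maximalIdeal A • (⊤ : Submodule A (A ⊗[ℤ] JTors.Lam L))
      rw [show ((Θ (R σ) y : lamPart LD s) : A ⊗[ℤ] JTors.Lam L) = galLam LD hp hpA σ y.1 from
        hΘgal σ y]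
      have := LL.Fitting.map_mem_pow_smul (maximalIdeal A) 1 (galLam LD hp hpA σ)
        (show (y : A ⊗[ℤ] JTors.Lam L) ∈ (maximalIdeal A ^ 1) • (⊤ : Submodule A _) by
          rw [pow_one]; exact hy)
      rwa [pow_one] at this
    · show ((Θ (R σ) (Tp y) : lamPart LD s) : A ⊗[ℤ] JTors.Lam L) = _
      rw [show ((Θ (R σ) (Tp y) : lamPart LD s) : A ⊗[ℤ] JTors.Lam L) =
        galLam LD hp hpA σ (Tp y).1 from hΘgal σ (Tp y)]
      show galLam LD hp hpA σ (lamOp LD A ⟨p, hp⟩ y.1) = lamOp LD A ⟨p, hp⟩ (Θ (R σ) y).1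
      rw [show ((Θ (R σ) y : lamPart LD s) : A ⊗[ℤ] JTors.Lam L) = galLam LD hp hpA σ y.1 from
        hΘgal σ y]
      exact LinearMap.congr_fun (LL.galLam_comm LD hp hpA σ ⟨p, hp⟩).eq y.1
  let sc : T →ₐ[A] Matrix (Fin 2) (Fin 2) T := IsScalarTower.toAlgHom A T _
  have hscA : ∀ t : T, algebraMap T (Matrix (Fin 2) (Fin 2) T) t ∈ 𝒜 := by
    have htop : (⊤ : Subalgebra A T) ≤ 𝒜.comap sc := by
      rw [← hgen, Algebra.adjoin_le_iff]
      rintro _ ⟨σ, rfl⟩
      show algebraMap T (Matrix (Fin 2) (Fin 2) T) (R σ).trace ∈ 𝒜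
      have hadj : (R σ).adjugate = Attach.cycR hp hpA σ • R σ⁻¹ := by
        have h1 : R σ * R σ⁻¹ = 1 := by rw [← hrep.map_mul, mul_inv_cancel, hrep.map_one]
        calc (R σ).adjugate = (R σ).adjugate * (R σ * R σ⁻¹) := by rw [h1, Matrix.mul_one]
          _ = ((R σ).adjugate * R σ) * R σ⁻¹ := by rw [Matrix.mul_assoc]
          _ = algebraMap A T (Attach.cycR hp hpA σ) • R σ⁻¹ := by
              rw [Matrix.adjugate_mul, hdetR, smul_mul_assoc, Matrix.one_mul]
          _ = _ := algebraMap_smul T _ _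
      rw [← add_adjugate_fin_two, hadj]
      exact add_mem (hRA σ) (Subalgebra.smul_mem _ (hRA σ⁻¹) _)
    exact fun t => htop (Algebra.mem_top (x := t))
  have hA : ∀ Y : Matrix (Fin 2) (Fin 2) T, Y ∈ 𝒜 := fun Y => by
    have hY : Y ∈ Submodule.span T (Set.range R) := by
      rw [span_range_rep_eq_top habs hrep]; trivial
    induction hY using Submodule.span_induction with
    | mem y hy => obtain ⟨σ, rfl⟩ := hy; exact hRA σ
    | zero => exact zero_mem _
    | add y z _ _ hy hz => exact add_mem hy hz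
    | smul t y _ hy =>
      rw [Algebra.smul_def]
      exact mul_mem (hscA t) hy
  have hΘW : ∀ (Y : Matrix (Fin 2) (Fin 2) T), ∀ y ∈ 𝒲, Θ Y y ∈ 𝒲 := fun Y => (hA Y).1
  have hΘT : ∀ (Y : Matrix (Fin 2) (Fin 2) T) (y : lamPart LD s), Θ Y (Tp y) = Tp (Θ Y y) :=
    fun Y => (hA Y).2
  have hTW : ∀ y ∈ 𝒲, Tp y ∈ 𝒲 := fun y hy => by
    have := LL.Fitting.map_mem_pow_smul (maximalIdeal A) 1 (lamOp LD A ⟨p, hp⟩)
      (show (y : A ⊗[ℤ] JTors.Lam L) ∈ (maximalIdeal A ^ 1) • (⊤ : Submodule A _) by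
        rw [pow_one]; exact hy)
    rw [pow_one] at this
    exact this
  have hmW : ∀ a ∈ maximalIdeal A, ∀ y : lamPart LD s, a • y ∈ 𝒲 := fun a ha y =>
    Submodule.smul_mem_smul ha Submodule.mem_top
  -- what the residual matrices see
  let S1 : Set (lamPart LD s) := {y | ∀ t ∈ maximalIdeal T, Θ (Matrix.scalar (Fin 2) t) y ∈ 𝒲}
  have hcomm : ∀ (t : T) (Y : Matrix (Fin 2) (Fin 2) T) (y : lamPart LD s),
      Θ (Matrix.scalar (Fin 2) t) (Θ Y y) = Θ Y (Θ (Matrix.scalar (Fin 2) t) y) := fun t Y y => by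
    rw [← Module.End.mul_apply, ← map_mul, ← Module.End.mul_apply, ← map_mul,
      (Matrix.scalar_commute t (fun r => mul_comm t r) Y).eq]
  have hS1Θ : ∀ y ∈ S1, ∀ Y, Θ Y y ∈ S1 := fun y hy Y t ht => by
    rw [hcomm]
    exact hΘW Y _ (hy t ht)
  have hlift : ∀ y ∈ S1, ∀ Y Y' : Matrix (Fin 2) (Fin 2) T,
      Y.map (residue T) = Y'.map (residue T) → Θ Y y - Θ Y' y ∈ 𝒲 := by
    intro y hy Y Y' h
    have e : Y - Y' = ∑ a, ∑ c, Matrix.single a c 1 * Matrix.scalar (Fin 2) ((Y - Y') a c) := by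
      conv_lhs => rw [Matrix.matrix_eq_sum_single (Y - Y')]
      refine Finset.sum_congr rfl fun a _ => Finset.sum_congr rfl fun c _ => ?_
      rw [Matrix.scalar_apply, ← Matrix.smul_one_eq_diagonal, mul_smul_comm, mul_one,
        Matrix.smul_single, smul_eq_mul, mul_one]
    rw [show Θ Y y - Θ Y' y = Θ (Y - Y') y by rw [map_sub]; rfl, e, map_sum, LinearMap.sum_apply]
    refine Submodule.sum_mem _ fun a _ => ?_
    rw [map_sum, LinearMap.sum_apply]
    refine Submodule.sum_mem _ fun c _ => ?_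
    rw [map_mul, Module.End.mul_apply]
    refine hΘW _ _ (hy _ ?_)
    rw [← residue_eq_zero_iff, Matrix.sub_apply, map_sub, sub_eq_zero]
    exact congrFun (congrFun h a) c
  -- the residual frame
  haveI : NeZero (p ^ 1) := ⟨pow_ne_zero _ hp.ne_zero⟩
  have hdetr : ∀ σ, ((R σ).map (residue T)).det =
      residue T (algebraMap A T (Attach.cycR hp hpA σ)) := fun σ => by
    rw [← RingHom.mapMatrix_apply, ← RingHom.map_det, hdetR]
  have hpk : (p : ResidueField T) = 0 := by
    rw [← map_natCast (residue T), residue_eq_zero_iff, ← map_natCast (algebraMap A T)]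
    exact map_nonunit (algebraMap A T) _ hpA
  obtain ⟨w, P, φ, τ, E, Ya₀, Za₀, hw2, hP, hφ, hτ, hcyc, hτE, hquad, hτu, hsum⟩ :=
    exists_proj_of_strictMat hp hp2 hpk (fun σ => (R σ).map (residue T)) (fun σ => by
      have h1 := Attach.cycR_spec hp hpA σ 1
      rw [pow_one] at h1
      rw [hdetr, ← map_natCast (residue T), ← map_natCast (algebraMap A T), ← sub_eq_zero,
        ← map_sub, ← map_sub, residue_eq_zero_iff]
      refine map_nonunit (algebraMap A T) _ ?_
      simpa using h1) (fun σ h => by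
      rw [hdetr] at h
      exact ((mem_maximalIdeal _).1 ((residue_eq_zero_iff _).1 h))
        ((Attach.isUnit_cycR hp hpA σ).map (algebraMap A T))) hstr
  simp only [hdetr] at hquad hτu
  choose lift hlft using fun Y : Matrix (Fin 2) (Fin 2) (ResidueField T) =>
    (show ∃ Y' : Matrix (Fin 2) (Fin 2) T, Y'.map (residue T) = Y from
      ⟨fun i j => (residue_surjective (Y i j)).choose, by
        ext i j; exact (residue_surjective (Y i j)).choose_spec⟩)
  -- `T_p ≡ w` on `S1`
  set Ê := lift E with hÊ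
  have hkey : ∀ y ∈ S1, Tp (Θ Ê y) - (w : A) • Θ Ê y ∈ 𝒲 := fun y hy => by
    refine mem_smul_top_of_coord LD _ fun i => ?_
    refine hecke_frame_coord hp hp2 hpA hpL LD s R Θ (fun σ v => ?_) hP hφ hτ hcyc w Ê E (hlft E)
      hτE hquad hτu (Θ Ê y) (fun Y Y' h i => ?_) i
    · rw [show ((Θ (R σ) v : lamPart LD s) : A ⊗[ℤ] JTors.Lam L) = galLam LD hp hpA σ v.1 from
        hΘgal σ v, LL.coordOf_galLam]
    · have h1 := coord_mem_of_smul_top LD _ (hlift y hy _ _ h) i
      rw [map_mul Θ Y Ê, map_mul Θ Y' Ê, Module.End.mul_apply, Module.End.mul_apply,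
        Submodule.subtype_apply, Submodule.coe_sub, LL.coordOf_sub, Pi.sub_apply] at h1
      exact h1
  have hT1 : ∀ y ∈ S1, Tp y - (w : A) • y ∈ 𝒲 := by
    intro y hy
    let Ya : Fin 2 → Matrix (Fin 2) (Fin 2) T := fun a => lift (Ya₀ a)
    let Za : Fin 2 → Matrix (Fin 2) (Fin 2) T := fun a => lift (Za₀ a)
    have h1 : (∑ a, Ya a * Ê * Za a).map (residue T) = (1 : Matrix (Fin 2) (Fin 2) T).map (residue T) := by
      rw [Matrix.map_one _ (map_zero (residue T)) (map_one (residue T)),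
        ← RingHom.mapMatrix_apply, map_sum]
      simp only [RingHom.mapMatrix_apply, map_mul_residue, Ya, Za, hÊ, hlft]
      exact hsum
    have h2 := hlift y hy _ _ h1
    rw [map_one, Module.End.one_apply] at h2
    set y' := Θ (∑ a, Ya a * Ê * Za a) y
    have h3 : Tp y' - (w : A) • y' ∈ 𝒲 := by
      show Tp (Θ _ y) - (w : A) • Θ _ y ∈ 𝒲
      rw [map_sum, LinearMap.sum_apply, map_sum, Finset.smul_sum, ← Finset.sum_sub_distrib]
      refine Submodule.sum_mem _ fun a _ => ?_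
      rw [map_mul Θ (Ya a * Ê) (Za a), map_mul Θ (Ya a) Ê, Module.End.mul_apply, Module.End.mul_apply]
      exact (sub_smul_comm Tp (Θ (Ya a)) (hΘT (Ya a)) (w : A) (Θ Ê (Θ (Za a) y))) ▸
        hΘW (Ya a) _ (hkey _ (hS1Θ y hy (Za a)))
    rw [sub_smul_split Tp (w : A) y y']
    exact sub_mem h3 (sub_mem (hTW _ h2) (𝒲.smul_mem _ h2))
  set Q := Tp * Tp - ((1 + p : ℕ) : A) ^ 2 • (1 : Module.End A (lamPart LD s)) with hQ
  have hQ1 : ∀ y ∈ S1, Q y ∈ 𝒲 := by
    intro y hy
    have h1 := hT1 y hy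
    have hw' : (w : A) * w = 1 := by rw [← Int.cast_mul, hw2, Int.cast_one]
    have e : Q y = (Tp (Tp y - (w : A) • y) + (w : A) • (Tp y - (w : A) • y)) +
        (1 - ((1 + p : ℕ) : A) ^ 2) • y := by
      rw [hQ, LinearMap.sub_apply, LinearMap.smul_apply, Module.End.mul_apply, Module.End.one_apply,
        map_sub, map_smul]
      refine Eq.trans ?_ (congrArg₂ (· + ·) rfl (sub_smul (1 : A) _ y).symm)
      rw [smul_sub, smul_smul, hw', one_smul]
      abel
    rw [e]
    refine add_mem (add_mem (hTW _ h1) (𝒲.smul_mem _ h1)) (hmW _ ?_ y)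
    rw [show (1 : A) - ((1 + p : ℕ) : A) ^ 2 = -((2 + (p : A)) * p) by push_cast; ring]
    exact neg_mem (Ideal.mul_mem_left _ _ hpA)
  have hQΘ : ∀ (Y : Matrix (Fin 2) (Fin 2) T) (y : lamPart LD s), Θ Y (Q y) = Q (Θ Y y) := fun Y y => by
    rw [hQ, LinearMap.sub_apply, LinearMap.smul_apply, Module.End.mul_apply, Module.End.one_apply,
      map_sub, map_smul, hΘT, hΘT, LinearMap.sub_apply, LinearMap.smul_apply, Module.End.mul_apply,
      Module.End.one_apply]
  have hind : ∀ (i : ℕ) (y : lamPart LD s),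
      (∀ t ∈ maximalIdeal T ^ i, Θ (Matrix.scalar (Fin 2) t) y ∈ 𝒲) → (Q ^ i) y ∈ 𝒲 := by
    intro i
    induction i with
    | zero =>
      intro y hy
      have := hy 1 (by rw [pow_zero, Ideal.one_eq_top]; exact Submodule.mem_top)
      rwa [map_one, map_one, Module.End.one_apply] at this
    | succ i ih =>
      intro y hy
      rw [pow_succ, Module.End.mul_apply]
      refine ih _ fun t ht => ?_
      rw [hQΘ]
      refine hQ1 _ fun t' ht' => ?_
      rw [← Module.End.mul_apply, ← map_mul, ← map_mul]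
      exact hy _ (by rw [pow_succ']; exact Ideal.mul_mem_mul ht' ht)
  obtain ⟨e, he⟩ := LL.exists_pow_le_map (O := A) T
  refine ⟨e, fun y => hind e y fun t ht => ?_⟩
  have hmap : ∀ t ∈ (maximalIdeal A).map (algebraMap A T),
      ∀ y : lamPart LD s, Θ (Matrix.scalar (Fin 2) t) y ∈ 𝒲 := by
    intro t ht
    refine Submodule.span_induction (p := fun t _ => ∀ y : lamPart LD s,
      Θ (Matrix.scalar (Fin 2) t) y ∈ 𝒲) ?_ ?_ ?_ ?_ ht
    · rintro _ ⟨a, ha, rfl⟩ y
      rw [show Matrix.scalar (Fin 2) (algebraMap A T a) = algebraMap A (Matrix (Fin 2) (Fin 2) T) a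
        from rfl, AlgHom.commutes, Module.algebraMap_end_apply]
      exact hmW a ha y
    · intro y
      rw [map_zero, map_zero, LinearMap.zero_apply]
      exact zero_mem _
    · intro a c _ _ ha hc y
      rw [map_add, map_add, LinearMap.add_apply]
      exact add_mem (ha y) (hc y)
    · intro a c _ hc y
      rw [smul_eq_mul, map_mul, map_mul, Module.End.mul_apply]
      exact hΘW _ _ (hc y)
  exact hmap t (he ht) y

end FLTAgent.MLT

end
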