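import Fermat.Agent.MLT.TowersCommon
import Fermat.Agent.MLT.Mk.CoreStep
import Fermat.Agent.MLT.Mk.AtPOpFacts

/-!
Area MLT, parcel LEVEL (peu): the patching levels of the flat world and of the step at `p`.
-/

set_option autoImplicit false
set_option linter.style.haveILetI false
set_option linter.unusedSectionVars false
set_option maxHeartbeats 1000000

noncomputable section

open WeierstrassCurve IsLocalRing FLTAgent.LL FLTAgent.PT FLTAgent.PT.TW

namespace FLTAgent.MLT

/-- the levels of the flat world and of the step at `p`, with a given killer -/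
theorem exists_bridges_peu {W : WeierstrassCurve ℤ} (hΔ : W.Δ ≠ 0) (hW : W.IsSemistableModel)
    {p : ℕ} [NeZero p] (hp : p = 3 ∨ p = 5) (hirr : W.ModRepIsIrreducible p)
    (hbad : (p : ℤ) ∣ W.Δ) (hv : p ∣ padicValInt p W.Δ)
    (hmod : W.IsResiduallyModularOfLevel p (minLevel W p)) (S : Finset ℕ)
    (hS : W.Δ.natAbs.primeFactors ∪ {p} ⊆ S)
    (P : MvPolynomial (TOR.SubPrime W.conductorLevel p (fun l => l ∉ S)) ℤ)
    (hP : TOR.evalSub (fun l => l ∉ S) W.conductorLevel (dvd_mul_right _ p) P = 0) :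
    ∃ (O : Type) (_ : CommRing O) (_ : IsDomain O) (_ : IsDiscreteValuationRing O)
      (_ : IsAdicComplete (maximalIdeal O) O) (_ : Finite (ResidueField O)) (_ : CharZero O)
      (k g : ℕ) (F : Fin k → FPlace O) (d : Fin (k + 1) → ℕ) (dY dS : ℕ) (t0 : Fin g) (e : O),
      (∀ j, 0 < d j) ∧ IsUnit e ∧
        ∀ n, ∃ n', n ≤ n' ∧ Nonempty (BridgeLevel F g d dY dS t0 e ((valW W P : ℤ) : O) n') := by
  classical
  have hpp : p.Prime := by rcases hp with rfl | rfl <;> norm_num
  haveI : Fact p.Prime := ⟨hpp⟩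
  have hp2 : p ≠ 2 := by rcases hp with rfl | rfl <;> norm_num
  have ht : ¬ Tres W p := fun h => h.2 hv
  obtain ⟨T⟩ := exists_towerSetup hΔ hW hp hirr
  obtain ⟨pr⟩ := exists_pointRep (W := W) hΔ hW T.res
  have he := T.chain_mul_eq_conductor hΔ hbad ht
  obtain ⟨frob, tame, w, F, U, hpl, hF, hsign⟩ := T.exists_frames pr
  obtain ⟨s, hs, bound, hsupply⟩ := T.exists_supply (varPrimes P) hΔ hW hp hirr he hmod
  obtain ⟨d, dY, dS, t0, ec, hd, hec, hlev⟩ := exists_bridgeLevels T.res.setting
    (Finset.mem_insert_self _ _) T.smin_iff T.Wq_notMem hpl hF (bound := bound) hs T.pO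
    (v := ((valW W P : ℤ) : T.O)) fun n => by
    obtain ⟨L⟩ := hsupply n
    obtain ⟨C⟩ := exists_coreSupply hΔ hirr T.res hs T.root T.Wq_ne T.Wq_notMem hpl
      TowerSetup.prime_minLevel (fun l hl h => (Nat.prime_dvd_prime_iff_eq hl hpp).1 h) T.cover L
      pr.toCorePoint hsign
    have hbase : L.base.N0 = W.conductorLevel := L.base_N0.trans he
    have hdiv : L.base.N0 / p = chainLevel (minLevel W p) T.Wq T.k := by
      rw [L.base_N0, Nat.mul_div_cancel _ hpp.pos]
    have Old : OldPrime L.base p := ⟨hpp, by rw [L.base_N0]; exact dvd_mul_left p _, by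
      rw [hdiv]; exact T.p_not_dvd_chain hΔ ht (Fin.last T.k)⟩
    have hlow : L.base.lower p Old.dvd = L.level (Fin.last T.k) :=
      withN0_congr L.base hdiv (Nat.div_dvd_of_dvd Old.dvd) _
    have hpt : StrictMat p fun σ => (C.core.cd.R₀ σ).map C.core.pt.toRingHom :=
      strictMat_of_isStrictOrdinaryAt C.pt_rep (pr.strict hbad)
    have hinj : Function.Injective (Old.tqQuart L.sys) :=
      tqQuart_injective Old L.sys L.elliptic.1
    have hnil : ∃ N : ℕ, ∀ x, (Old.tqQuart L.sys ^ N) x ∈
        LinearMap.ker ((L.base.lower p Old.dvd).toY L.sys) ⊔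
          maximalIdeal T.O • (⊤ : Submodule T.O ((L.base.lower p Old.dvd).Mod L.sys)) := by
      obtain ⟨F₀, hF₀, hr⟩ := T.res.setting.level
      obtain ⟨σ₀, α, β, hαβ, hσ₀⟩ := T.res.exists_split
      have hR := Deform.repMat_residual pr.rep
      obtain ⟨N, hN⟩ := exists_pow_tqQuart_small Old L.sys L.S T.pO L.elliptic L.pS L.MS L.S_iff
        L.l0_S T.r ⟨F₀, hF₀, fun σ hσ => congrArg Units.val (hr σ fun x => hσ x x.2)⟩ L.frobS
        σ₀ hαβ hσ₀ (fun v hv => T.res.no_line hv)
        { toFun := fun σ => (pr.R₀ σ).map (residue T.O)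
          map_one' := hR.map_one
          map_mul' := hR.map_mul }
        (Deform.span_range_eq_top pr.ρ.residual pr.absIrr hR)
        (fun σ => (AddMonoidHom.map_trace (residue T.O) (pr.R₀ σ)).symm.trans (pr.residual_trace σ))
        (PT.TW.StrictMat.map (residue T.O) (pr.strictMat hbad))
      exact ⟨N, fun x => Submodule.mem_sup_right (hN x)⟩
    obtain ⟨hOp, hOa, hOi, hOs, G, hG⟩ := exists_degP Old hlow C.linkY.L
      (C.link (Fin.last T.k)).L C.linkY.π (C.link (Fin.last T.k)).π
      (fun σ => (C.core.cd.R₀ σ).trace) C.linkY.trace (C.link (Fin.last T.k)).trace C.core.gen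
      L.elliptic (sysOf_iharaAt hΔ hpp hp2 hirr T.pO L.prime_l0 L.l0_one hpp.two_le) T.pO hinj hnil
      (C.core.lev (Fin.last T.k)) C.Y (C.link (Fin.last T.k)).e C.linkY.e
      (C.link (Fin.last T.k)).act C.linkY.act (C.link (Fin.last T.k)).aug C.linkY.aug
    haveI : NeZero W.conductorLevel := ⟨W.conductorLevel_pos.ne'⟩
    have hkill : KillsLevel P L.base L.sys :=
      killsLevel_of_evalSub L L.base rfl hbase hΔ hS P Finset.Subset.rfl hP
    exact ⟨fun j => (L.level j).rkY L.sys, L.base.rkY L.sys, fun j => L.rank j, L.rank_base.2,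
      ⟨{ core := C.core
         Y := C.Y
         hOp := hOp
         hOp_act := hOa
         hOp_inj := hOi
         hOp_small := hOs
         degP := G
         flat := C.flat_chain fun j => (C.link j).L.flat (T.p_not_dvd_chain hΔ ht j)
         strict := atP_strict_push C.strict_family C.linkY hpt Old G.push hG
         κ := killerElt (fun σ => (C.core.cd.R₀ σ).trace) P
         pt_κ := C.pt_killerElt hΔ hS P
         κ_Y := C.linkY.killerElt_mem L hΔ hS P Finset.Subset.rfl hkill }⟩⟩
  exact ⟨T.O, inferInstance, inferInstance, inferInstance, inferInstance, inferInstance,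
    inferInstance, T.k, s + (T.k - 1), F, d, dY, dS, t0, ec, hd, hec, hlev⟩

end FLTAgent.MLT

end
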