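import Fermat.Agent.MLT.TowersCommon
import Fermat.Agent.MLT.Mk.TresAtP

/-!
Area MLT, parcel LEVEL (tres): the patching levels of the strict world.
-/

set_option autoImplicit false

noncomputable section

open WeierstrassCurve IsLocalRing FLTAgent.LL

namespace FLTAgent.MLT

/-- the levels of the strict world with the point of the curve and a given killer -/
theorem exists_towers_tres {W : WeierstrassCurve ℤ} (hΔ : W.Δ ≠ 0) (hW : W.IsSemistableModel) {p : ℕ}
    [NeZero p] (hp : p = 3 ∨ p = 5) (hirr : W.ModRepIsIrreducible p) (ht : Tres W p)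
    (hmod : W.IsResiduallyModularOfLevel p (minLevel W p)) (S : Finset ℕ)
    (hS : W.Δ.natAbs.primeFactors ∪ {p} ⊆ S)
    (P : MvPolynomial (TOR.SubPrime W.conductorLevel p (fun l => l ∉ S)) ℤ)
    (hP : TOR.evalSub (fun l => l ∉ S) W.conductorLevel (dvd_mul_right _ p) P = 0) :
    ∃ (O : Type) (_ : CommRing O) (_ : IsDomain O) (_ : IsDiscreteValuationRing O)
      (_ : IsAdicComplete (maximalIdeal O) O) (_ : Finite (ResidueField O)) (_ : CharZero O)
      (k g : ℕ) (F : Fin k → FPlace O) (d : Fin (k + 1) → ℕ),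
      (∀ j, 0 < d j) ∧
        ∀ n, ∃ n', n ≤ n' ∧ Nonempty (LevelTower F g d ((valW W P : ℤ) : O) n') := by
  classical
  haveI : Fact p.Prime := ⟨by rcases hp with rfl | rfl <;> norm_num⟩
  obtain ⟨T⟩ := exists_towerSetup hΔ hW hp hirr
  obtain ⟨pr⟩ := exists_pointRep (W := W) hΔ hW T.res
  have he := T.chain_eq_conductor hΔ fun _ => ht
  obtain ⟨A, hA⟩ := exists_tres_atP hΔ hW hp hirr ht T.Wq T.squarefree_chain
  exact exists_levelTowers_of_atp hΔ hW hp hirr T pr he hmod S hS P hP A
    fun s bound n L frob tame w C => Or.inr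
      (hA T.res T.pO Finset.subset_union_right L pr.toCorePoint (pr.strict ht.1) C)

end FLTAgent.MLT

end
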