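import Fermat.Agent.MLT.TowersGood
import Fermat.Agent.MLT.TowersTres
import Fermat.Agent.MLT.TowersPeu
import Fermat.Agent.MLT.Patch.Limit
import Fermat.Agent.MLT.Patch.Model

/-!
Area MLT, top: lifting from the minimal level in the three cases, from the patching levels.
-/

set_option autoImplicit false

noncomputable section

open WeierstrassCurve IsLocalRing

namespace FLTAgent.MLT

variable {W : WeierstrassCurve ℤ} {p : ℕ}

/-- good at `p`: the flat world -/
theorem lift_good (hΔ : W.Δ ≠ 0) (hW : W.IsSemistableModel) (hp : p = 3 ∨ p = 5)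
    (hirr : W.ModRepIsIrreducible p) (hgood : ¬ (p : ℤ) ∣ W.Δ)
    (hmod : W.IsResiduallyModularOfLevel p (minLevel W p)) :
    ModularAway W W.conductorLevel := by
  haveI : NeZero p := ⟨by rcases hp with rfl | rfl <;> norm_num⟩
  refine modularAway_of_killers (p := p) (W.Δ.natAbs.primeFactors ∪ {p}) fun P hP => ?_
  obtain ⟨O, _, _, _, _, _, _, k, g, F, d, hd, hlev⟩ :=
    exists_towers_good hΔ hW hp hirr hgood hmod _ subset_rfl P hP
  obtain ⟨Mo⟩ := exists_compModel F g
  exact Int.cast_eq_zero.1 (eq_zero_of_levelTowers Mo hd hlev)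

/-- très ramifié at `p`: the strict world -/
theorem lift_tres (hΔ : W.Δ ≠ 0) (hW : W.IsSemistableModel) (hp : p = 3 ∨ p = 5)
    (hirr : W.ModRepIsIrreducible p) (ht : Tres W p)
    (hmod : W.IsResiduallyModularOfLevel p (minLevel W p)) :
    ModularAway W W.conductorLevel := by
  haveI : NeZero p := ⟨by rcases hp with rfl | rfl <;> norm_num⟩
  refine modularAway_of_killers (p := p) (W.Δ.natAbs.primeFactors ∪ {p}) fun P hP => ?_
  obtain ⟨O, _, _, _, _, _, _, k, g, F, d, hd, hlev⟩ :=
    exists_towers_tres hΔ hW hp hirr ht hmod _ subset_rfl P hP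
  obtain ⟨Mo⟩ := exists_compModel F g
  exact Int.cast_eq_zero.1 (eq_zero_of_levelTowers Mo hd hlev)

/-- peu ramifié multiplicative at `p`: the flat world, then the step at `p` -/
theorem lift_peu (hΔ : W.Δ ≠ 0) (hW : W.IsSemistableModel) (hp : p = 3 ∨ p = 5)
    (hirr : W.ModRepIsIrreducible p) (hbad : (p : ℤ) ∣ W.Δ) (hv : p ∣ padicValInt p W.Δ)
    (hmod : W.IsResiduallyModularOfLevel p (minLevel W p)) :
    ModularAway W W.conductorLevel := by
  haveI : NeZero p := ⟨by rcases hp with rfl | rfl <;> norm_num⟩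
  refine modularAway_of_killers (p := p) (W.Δ.natAbs.primeFactors ∪ {p}) fun P hP => ?_
  obtain ⟨O, _, _, _, _, _, _, k, g, F, d, dY, dS, t0, e, hd, he, hlev⟩ :=
    exists_bridges_peu hΔ hW hp hirr hbad hv hmod _ subset_rfl P hP
  obtain ⟨Mo⟩ := exists_compModel F g
  exact Int.cast_eq_zero.1 (eq_zero_of_bridgeLevels Mo hd he hlev)

end FLTAgent.MLT

end
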