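import Mathlib

/-!
Area MLT, local rings at a place `q ≢ 1`: two-by-two algebra. With Frobenius diagonal, the tame
generator of determinant one has equal diagonal entries and its off-diagonal entries are bound to
the eigenvalue ratio.
-/

set_option autoImplicit false
set_option linter.style.haveILetI false
set_option linter.unusedSectionVars false

noncomputable section

namespace FLTAgent.MLT

open Matrix

section Alg

variable {R : Type*} [CommRing R]

/-- powers of a matrix of determinant one are combinations of itself and the identity -/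
theorem exists_pow_comb {T : Matrix (Fin 2) (Fin 2) R} (hT : T.det = 1) : ∀ n : ℕ, ∃ U V : R,
    T ^ n = U • T + V • (1 : Matrix (Fin 2) (Fin 2) R) ∧ T.trace - 2 ∣ U - (n : R) ∧
      T.trace - 2 ∣ V - (1 - (n : R))
  | 0 => ⟨0, 1, by simp, by simp, by simp⟩
  | n + 1 => by
    obtain ⟨U, V, h, hU, hV⟩ := exists_pow_comb hT n
    have hsq : T * T = T.trace • T - (1 : R) • (1 : Matrix (Fin 2) (Fin 2) R) := by
      rw [Matrix.det_fin_two] at hT
      ext i j
      fin_cases i <;> fin_cases j <;>
        simp [Matrix.mul_apply, Fin.sum_univ_two, Matrix.trace_fin_two] <;>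
        first | linear_combination hT | linear_combination -hT | ring
    refine ⟨U * T.trace + V, -U, ?_, ?_, ?_⟩
    · rw [pow_succ, h, add_mul, smul_mul_assoc, smul_mul_assoc, one_mul, hsq, smul_sub, smul_smul,
        smul_smul, mul_one]
      module
    · have e : U * T.trace + V - ((n + 1 : ℕ) : R) =
          U * (T.trace - 2) + 2 * (U - (n : R)) + (V - (1 - (n : R))) := by push_cast; ring
      rw [e]
      exact dvd_add (dvd_add (dvd_mul_left _ _) (dvd_mul_of_dvd_right hU _)) hV
    · have e : -U - (1 - ((n + 1 : ℕ) : R)) = -(U - (n : R)) := by push_cast; ring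
      rw [e, dvd_neg]
      exact hU

variable {T : Matrix (Fin 2) (Fin 2) R} {a d U V : R} {n : ℕ}

/-- the entries of the tame relation when Frobenius is diagonal -/
theorem diag_rel [IsDomain R] (hn : T ^ n = U • T + V • (1 : Matrix (Fin 2) (Fin 2) R))
    (ha : a ≠ 0) (hd : d ≠ 0) (hU : U ≠ 1)
    (hrel : !![a, 0; 0, d] * T = T ^ n * !![a, 0; 0, d]) :
    T 0 0 = T 1 1 ∧ T 0 1 * (a - U * d) = 0 ∧ T 1 0 * (d - U * a) = 0 := by
  rw [hn] at hrel
  have e00 := congrFun (congrFun hrel 0) 0
  have e01 := congrFun (congrFun hrel 0) 1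
  have e10 := congrFun (congrFun hrel 1) 0
  have e11 := congrFun (congrFun hrel 1) 1
  simp [Matrix.mul_apply, Fin.sum_univ_two] at e00 e01 e10 e11
  have h0 : T 0 0 * (1 - U) = V := mul_left_cancel₀ ha (by linear_combination e00)
  have h1 : T 1 1 * (1 - U) = V := mul_left_cancel₀ hd (by linear_combination e11)
  exact ⟨mul_right_cancel₀ (sub_ne_zero.2 (Ne.symm hU)) (h0.trans h1.symm),
    by linear_combination e01, by linear_combination e10⟩

/-- unipotent tame generator -/
theorem diag_unipotent [IsDomain R] (hT : T.det = 1) (htr : T.trace = 2) (h2 : (2 : R) ≠ 0)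
    (hn : (n : R) ≠ 1) (ha : a ≠ 0) (hd : d ≠ 0)
    (hrel : !![a, 0; 0, d] * T = T ^ n * !![a, 0; 0, d]) :
    T 0 0 = 1 ∧ T 1 1 = 1 ∧ T 0 1 * T 1 0 = 0 ∧ T 0 1 * (a - (n : R) * d) = 0 ∧
      T 1 0 * (d - (n : R) * a) = 0 := by
  obtain ⟨U, V, hc, hU, -⟩ := exists_pow_comb hT n
  rw [htr, sub_self, zero_dvd_iff, sub_eq_zero] at hU
  subst hU
  obtain ⟨h01, h1, h2'⟩ := diag_rel hc ha hd hn hrel
  rw [Matrix.trace_fin_two] at htr
  have h00 : T 0 0 = 1 := mul_left_cancel₀ h2 (by linear_combination htr + h01)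
  have h11 : T 1 1 = 1 := h01.symm.trans h00
  rw [Matrix.det_fin_two, h00, h11] at hT
  exact ⟨h00, h11, by linear_combination -hT, h1, h2'⟩

/-- semisimple tame generator: Frobenius exchanges the two eigenlines -/
theorem diag_semisimple [IsDomain R] {h : R} (hh : 2 * h = 1)
    (hc : T ^ n = U • T + V • (1 : Matrix (Fin 2) (Fin 2) R)) (hT : T.det = 1)
    (hne : (T.trace * h) ^ 2 ≠ 1) (hU : U ≠ 1) (ha : a ≠ 0) (hd : d ≠ 0)
    (hrel : !![a, 0; 0, d] * T = T ^ n * !![a, 0; 0, d]) :
    T 0 0 = T.trace * h ∧ T 1 1 = T.trace * h ∧ T 0 1 * T 1 0 = (T.trace * h) ^ 2 - 1 ∧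
      a = -d := by
  obtain ⟨h01, h1, h2⟩ := diag_rel hc ha hd hU hrel
  have h00 : T 0 0 = T.trace * h := by
    rw [Matrix.trace_fin_two, ← h01]
    linear_combination -(T 0 0) * hh
  have h11 : T 1 1 = T.trace * h := h01.symm.trans h00
  rw [Matrix.det_fin_two, h00, h11] at hT
  have hp : T 0 1 * T 1 0 = (T.trace * h) ^ 2 - 1 := by linear_combination -hT
  have hp0 : T 0 1 * T 1 0 ≠ 0 := by rw [hp]; exact sub_ne_zero.2 hne
  have e1 := (mul_eq_zero.1 h1).resolve_left (left_ne_zero_of_mul hp0)
  have e2 := (mul_eq_zero.1 h2).resolve_left (right_ne_zero_of_mul hp0)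
  have hUU : (U - 1) * (U + 1) = 0 := by
    refine (mul_eq_zero.1 (show a * ((U - 1) * (U + 1)) = 0 from ?_)).resolve_left ha
    linear_combination -e1 - U * e2
  have hU' : U + 1 = 0 := (mul_eq_zero.1 hUU).resolve_left (sub_ne_zero.2 hU)
  exact ⟨h00, h11, hp, by linear_combination e1 + d * hU'⟩

end Alg

section Frame

variable {R : Type*} [CommRing R] (u v e : R)

/-- the change of frame -/
def frameP : Matrix (Fin 2) (Fin 2) R := !![1, u; v, 1]

/-- its inverse when `(1 - u v) e = 1` -/
def framePi : Matrix (Fin 2) (Fin 2) R := e • !![1, -u; -v, 1]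

/-- a matrix read in the new frame -/
def frameConj (D : Matrix (Fin 2) (Fin 2) R) : Matrix (Fin 2) (Fin 2) R :=
  frameP u v * D * framePi u v e

/-- the reverse reading -/
def frameBack (F : Matrix (Fin 2) (Fin 2) R) : Matrix (Fin 2) (Fin 2) R :=
  framePi u v e * F * frameP u v

variable {u v e}

theorem frameP_mul_framePi (he : (1 - u * v) * e = 1) : frameP u v * framePi u v e = 1 := by
  ext i j
  fin_cases i <;> fin_cases j <;>
    simp [frameP, framePi, Matrix.mul_apply, Fin.sum_univ_two] <;>
    first | linear_combination he | ring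

theorem framePi_mul_frameP (he : (1 - u * v) * e = 1) : framePi u v e * frameP u v = 1 := by
  ext i j
  fin_cases i <;> fin_cases j <;>
    simp [frameP, framePi, Matrix.mul_apply, Fin.sum_univ_two] <;>
    first | linear_combination he | ring

theorem frameConj_mul (he : (1 - u * v) * e = 1) (A B : Matrix (Fin 2) (Fin 2) R) :
    frameConj u v e (A * B) = frameConj u v e A * frameConj u v e B := by
  simp only [frameConj, Matrix.mul_assoc]
  rw [← Matrix.mul_assoc (framePi u v e) (frameP u v), framePi_mul_frameP he, Matrix.one_mul]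

theorem frameConj_one (he : (1 - u * v) * e = 1) : frameConj u v e 1 = 1 := by
  rw [frameConj, Matrix.mul_one, frameP_mul_framePi he]

theorem frameConj_pow (he : (1 - u * v) * e = 1) (A : Matrix (Fin 2) (Fin 2) R) :
    ∀ n : ℕ, frameConj u v e (A ^ n) = frameConj u v e A ^ n
  | 0 => by simp [frameConj_one he]
  | n + 1 => by rw [pow_succ, pow_succ, frameConj_mul he, frameConj_pow he A n]

theorem frameConj_det (he : (1 - u * v) * e = 1) (A : Matrix (Fin 2) (Fin 2) R) :
    (frameConj u v e A).det = A.det := by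
  rw [frameConj, Matrix.det_mul, Matrix.det_mul, mul_comm _ A.det, mul_assoc, ← Matrix.det_mul,
    frameP_mul_framePi he, Matrix.det_one, mul_one]

theorem frameConj_trace (he : (1 - u * v) * e = 1) (A : Matrix (Fin 2) (Fin 2) R) :
    (frameConj u v e A).trace = A.trace := by
  rw [frameConj, Matrix.trace_mul_comm, ← Matrix.mul_assoc, framePi_mul_frameP he, Matrix.one_mul]

theorem frameConj_frameBack (he : (1 - u * v) * e = 1) (F : Matrix (Fin 2) (Fin 2) R) :
    frameConj u v e (frameBack u v e F) = F := by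
  simp only [frameConj, frameBack, Matrix.mul_assoc]
  rw [frameP_mul_framePi he, Matrix.mul_one, ← Matrix.mul_assoc, frameP_mul_framePi he,
    Matrix.one_mul]

theorem frameBack_frameConj (he : (1 - u * v) * e = 1) (F : Matrix (Fin 2) (Fin 2) R) :
    frameBack u v e (frameConj u v e F) = F := by
  simp only [frameConj, frameBack, Matrix.mul_assoc]
  rw [framePi_mul_frameP he, Matrix.mul_one, ← Matrix.mul_assoc, framePi_mul_frameP he,
    Matrix.one_mul]

theorem frameConj_inj (he : (1 - u * v) * e = 1) {A B : Matrix (Fin 2) (Fin 2) R}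
    (h : frameConj u v e A = frameConj u v e B) : A = B := by
  rw [← frameBack_frameConj he A, h, frameBack_frameConj he]

theorem map_frameConj {R' : Type*} [CommRing R'] (f : R →+* R')
    (A : Matrix (Fin 2) (Fin 2) R) :
    (frameConj u v e A).map f = frameConj (f u) (f v) (f e) (A.map f) := by
  have h1 : (frameP u v).map f = frameP (f u) (f v) := by
    ext i j
    fin_cases i <;> fin_cases j <;> simp [frameP]
  have h2 : (framePi u v e).map f = framePi (f u) (f v) (f e) := by
    ext i j
    fin_cases i <;> fin_cases j <;> simp [framePi]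
  rw [frameConj, Matrix.map_mul, Matrix.map_mul, h1, h2, frameConj]

/-- Frobenius with two separated eigenvalues is diagonal in a new frame -/
theorem exists_frame {F : Matrix (Fin 2) (Fin 2) R} {a d : R} (htr : a + d = F.trace)
    (hdet : a * d = F.det) (hu : IsUnit (d - F 0 0)) (hv : IsUnit (a - F 1 1))
    {I : Ideal R} (h01 : F 0 1 ∈ I) (h10 : F 1 0 ∈ I) :
    ∃ u v : R, u ∈ I ∧ v ∈ I ∧ F * frameP u v = frameP u v * !![a, 0; 0, d] := by
  obtain ⟨i1, hi1⟩ := hu.exists_right_inv
  obtain ⟨i2, hi2⟩ := hv.exists_right_inv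
  rw [Matrix.trace_fin_two] at htr
  rw [Matrix.det_fin_two] at hdet
  refine ⟨F 0 1 * i1, F 1 0 * i2, Ideal.mul_mem_right _ _ h01, Ideal.mul_mem_right _ _ h10, ?_⟩
  ext i j
  fin_cases i <;> fin_cases j <;> simp [frameP, Matrix.mul_apply, Fin.sum_univ_two]
  · linear_combination (a - F 0 0) * hi2 + i2 * (hdet - a * htr)
  · linear_combination -(F 0 1) * hi1
  · linear_combination -(F 1 0) * hi2
  · linear_combination (d - F 1 1) * hi1 + i1 * (hdet - d * htr)

theorem frameBack_eq (he : (1 - u * v) * e = 1) {F D : Matrix (Fin 2) (Fin 2) R}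
    (h : F * frameP u v = frameP u v * D) : F = frameConj u v e D := by
  rw [frameConj, ← h, Matrix.mul_assoc, frameP_mul_framePi he, Matrix.mul_one]

end Frame

end FLTAgent.MLT
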