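import Fermat.Agent.MLT.LocalRingsCusp

/-!
Area MLT, local rings at places `q ≡ -1`: both Steinberg lines of the special fibre lie on the
cuspidal component.
-/

set_option autoImplicit false
set_option linter.style.haveILetI false
set_option linter.unusedSectionVars false

noncomputable section

namespace FLTAgent.MLT

open IsLocalRing Matrix FLTAgent.LL

variable {O : Type} [CommRing O] [IsDomain O] [IsDiscreteValuationRing O]
  [IsAdicComplete (maximalIdeal O) O] [Finite (ResidueField O)]
  {I S : Type} [Finite I] [Finite S] [DecidableEq I]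
  (P : I → QPlace O) (i0 : I) (D0 : CuspData (P i0)) (τ : I → Kind)
  (hτ : ∀ i, (τ i).Valid (P i))

instance instCompleteSeriesResidue {σ : Type} [Finite σ] :
    IsAdicComplete (maximalIdeal (MvPowerSeries σ (ResidueField O)))
      (MvPowerSeries σ (ResidueField O)) := by
  haveI : IsAdicComplete (maximalIdeal (ResidueField O)) (ResidueField O) := by
    rw [IsLocalRing.maximalIdeal_eq_bot]
    infer_instance
  exact FLTAgent.LL.instIsAdicCompleteMaximalIdeal

/-- reduction of the coefficients -/
def redSeries (σ : Type) : MvPowerSeries σ O →+* MvPowerSeries σ (ResidueField O) :=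
  MvPowerSeries.map (IsLocalRing.residue O)

theorem redSeries_eq_zero_iff {σ : Type} [Finite σ] {ϖ : O} (hϖ : Irreducible ϖ)
    {f : MvPowerSeries σ O} : redSeries σ f = 0 ↔ f ∈ pIdeal ϖ σ := by
  rw [mem_pIdeal_iff, redSeries, MvPowerSeries.ext_iff]
  refine forall_congr' fun v => ?_
  rw [MvPowerSeries.coeff_map, map_zero, IsLocalRing.residue_eq_zero_iff,
    (IsDiscreteValuationRing.irreducible_iff_uniformizer ϖ).1 hϖ, Ideal.mem_span_singleton]

theorem redSeries_C_mem {σ : Type} {c : O} (hc : c ∈ maximalIdeal O) :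
    redSeries σ (MvPowerSeries.C c) = 0 := by
  rw [redSeries, MvPowerSeries.map_C, (IsLocalRing.residue_eq_zero_iff c).2 hc, map_zero]

theorem redSeries_C_congr {σ : Type} {a b : O} (h : a - b ∈ maximalIdeal O) :
    redSeries σ (MvPowerSeries.C a) = redSeries σ (MvPowerSeries.C b) := by
  rw [← sub_eq_zero, ← map_sub, ← map_sub, redSeries_C_mem h]

theorem X_mem_maximal_red {σ : Type} (l : σ) :
    (MvPowerSeries.X l : MvPowerSeries σ (ResidueField O)) ∈
      maximalIdeal (MvPowerSeries σ (ResidueField O)) := by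
  simp [IsLocalRing.mem_maximalIdeal, mem_nonunits_iff, MvPowerSeries.isUnit_iff_constantCoeff]

/-- the reduced values of a smooth component -/
theorem red_smoothVal (τ' : I → Kind) (l : PlaceVar I S) :
    redSeries _ (smoothVal P τ' l) =
      fullVal P ((redSeries (SmoothVar I S)).comp MvPowerSeries.C)
        (fun i => (MvPowerSeries.X (Sum.inl (i, 0)), MvPowerSeries.X (Sum.inl (i, 1))))
        (fun i => (smoothDiag (S := S) P τ' i).map (redSeries _))
        (fun t => MvPowerSeries.X (Sum.inr t)) l :=
  by
  unfold smoothVal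
  refine map_fullVal P (redSeries (SmoothVar I S)) (κ := MvPowerSeries.C) rfl
    (uv := smoothUV) isUnit_smoothUV (fun i => ?_) (D := smoothDiag P τ') (fun i => rfl)
    (z := fun t => MvPowerSeries.X (Sum.inr t)) (fun t => ?_) l
  · simp only [smoothUV, redSeries, MvPowerSeries.map_X]
  · simp only [redSeries, MvPowerSeries.map_X]

/-- a map out of the cuspidal model agreeing on the coordinates with a smooth component mod `ϖ` -/
theorem red_smoothHom_eq (τ' : I → Kind) (hτ' : ∀ i, (τ' i).Valid (P i))
    (θ : ModelRing O (SmoothVar I S) →+* MvPowerSeries (SmoothVar I S) (ResidueField O))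
    (hC : θ.comp cuspConst = (redSeries (SmoothVar I S)).comp MvPowerSeries.C)
    (huv : ∀ i, (θ (cuspUV i).1, θ (cuspUV i).2) =
      ((MvPowerSeries.X (Sum.inl (i, 0)), MvPowerSeries.X (Sum.inl (i, 1))) :
        MvPowerSeries (SmoothVar I S) (ResidueField O) × MvPowerSeries (SmoothVar I S) (ResidueField O)))
    (hD : ∀ i, (cuspDiag (S := S) P i0 D0 τ i).map θ = (smoothDiag P τ' i).map (redSeries _))
    (hz : ∀ t, θ (PowerSeries.C (MvPowerSeries.X (Sum.inr t))) = MvPowerSeries.X (Sum.inr t)) :
    θ.comp (cuspHom P i0 D0 τ hτ) = (redSeries _).comp (smoothHom P τ' hτ') := by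
  have hval : ∀ l, θ (cuspVal P i0 D0 τ l) = redSeries _ (smoothVal P τ' l) := fun l => by
    rw [red_smoothVal]
    exact map_fullVal P θ hC isUnit_cuspUV huv hD hz l
  refine hom_ext_adic (maximalIdeal (MvPowerSeries (SmoothVar I S) (ResidueField O))) (fun c => ?_)
    (fun l => ?_) (fun l => ?_)
  · rw [RingHom.comp_apply, cuspHom_C, RingHom.comp_apply, smoothHom_C, ← RingHom.comp_apply θ, hC]
    rfl
  · rw [RingHom.comp_apply, cuspHom_X, RingHom.comp_apply, smoothHom_X, hval]
  · rw [RingHom.comp_apply, cuspHom_X, hval, IsLocalRing.mem_maximalIdeal, mem_nonunits_iff,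
      redSeries, MvPowerSeries.isUnit_iff_constantCoeff, MvPowerSeries.constantCoeff_map]
    have h := smoothVal_mem P τ' hτ' l
    rw [IsLocalRing.mem_maximalIdeal, mem_nonunits_iff,
      MvPowerSeries.isUnit_iff_constantCoeff] at h
    intro hu
    exact h (isUnit_of_map_unit _ _ hu)

theorem valid_update {k : Kind} (hk : k.Valid (P i0)) (hτ : ∀ i, (τ i).Valid (P i)) (i : I) :
    (Function.update τ i0 k i).Valid (P i) := by
  by_cases h : i = i0
  · subst h; rwa [Function.update_self]
  · rw [Function.update_of_ne h]; exact hτ i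

/-- the upper Steinberg line lies on the cuspidal component -/
theorem cuspK_le_smoothQ_up : cuspK P i0 D0 τ hτ ≤
    smoothQ (S := S) P (Function.update τ i0 .stUp)
      (valid_update P i0 τ (k := .stUp) trivial hτ) D0.ϖ := by
  classical
  set τ' := Function.update τ i0 Kind.stUp
  let θ : ModelRing O (SmoothVar I S) →+* MvPowerSeries (SmoothVar I S) (ResidueField O) :=
    (redSeries (SmoothVar I S)).comp PowerSeries.constantCoeff
  have hθC : ∀ r, θ (PowerSeries.C r) = redSeries _ r := fun r => by simp [θ]
  have hθX : θ PowerSeries.X = 0 := by simp [θ]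
  have hC : θ.comp cuspConst = (redSeries (SmoothVar I S)).comp MvPowerSeries.C :=
    RingHom.ext fun c => hθC _
  have hcomp := red_smoothHom_eq (S := S) P i0 D0 τ hτ τ' (valid_update P i0 τ (k := .stUp) trivial hτ) θ hC
    (fun i => by simp [cuspUV, smoothUV, hθC, redSeries])
    (fun i => by
      simp only [cuspDiag, τ']
      by_cases hi : i = i0
      · subst hi
        rw [if_pos rfl, QPlace.map_cuspPair, hC, hθC, hθX, smoothDiag, Function.update_self]
        simp only [DiagPair.map, QPlace.cuspPair, QPlace.kindPair, RingHom.comp_apply]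
        congr 1
        · exact redSeries_C_congr D0.hαm
        · rw [← map_neg, ← map_neg]
          refine redSeries_C_congr ?_
          convert neg_mem (add_mem D0.hαm (Ideal.mul_mem_left _ (P i).w D0.hq)) using 1
          ring
        · have hs : redSeries (SmoothVar I S) (MvPowerSeries.C D0.s) = 1 := by
            rw [redSeries_C_congr D0.s_mem, map_one, map_one]
          ext a b
          fin_cases a <;> fin_cases b <;>
            simp [hs, redSeries_C_mem D0.hc0]
      · rw [if_neg hi, smoothDiag, smoothDiag, Function.update_of_ne hi,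
          QPlace.map_kindPair _ _ _ _ _ (isUnit_wq_add_X P i),
          QPlace.map_kindPair _ _ _ _ _ (isUnit_cuspConst_add P i),
          QPlace.map_kindPair _ _ _ _ _ (isUnit_wq_add_X P i)]
        congr 1)
    (fun t => by simp [hθC, redSeries])
  intro g hg
  rw [smoothQ, Ideal.mem_comap, ← redSeries_eq_zero_iff D0.hϖ, ← RingHom.comp_apply, ← hcomp]
  have h := modelIdeal_le_specialPrime D0.hϖ
    (X_notMem_pIdeal D0.hϖ (Sum.inl (i0, 2) : SmoothVar I S)) D0.c D0.dvd_c hg
  rw [specialPrime, Ideal.mem_comap] at h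
  exact (redSeries_eq_zero_iff D0.hϖ).2 h

/-- the lower Steinberg line lies on the cuspidal component -/
theorem cuspK_le_smoothQ_down : cuspK P i0 D0 τ hτ ≤
    smoothQ (S := S) P (Function.update τ i0 .stDown)
      (valid_update P i0 τ (k := .stDown) ⟨D0.hc0, D0.hq⟩ hτ) D0.ϖ := by
  classical
  set τ' := Function.update τ i0 Kind.stDown
  let z : (SmoothVar I S) → MvPowerSeries (SmoothVar I S) (ResidueField O) := fun l =>
    if l = Sum.inl (i0, 2) then 0 else MvPowerSeries.X l
  have hz : ∀ l, z l ^ 1 ∈ maximalIdeal (MvPowerSeries (SmoothVar I S) (ResidueField O)) := fun l => by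
    rw [pow_one]
    simp only [z]
    split
    · exact zero_mem _
    · exact X_mem_maximal_red l
  let μ : MvPowerSeries (SmoothVar I S) O →+* MvPowerSeries (SmoothVar I S) (ResidueField O) :=
    evalHom (O := O) (maximalIdeal (MvPowerSeries (SmoothVar I S) (ResidueField O))) z 1 hz
  have hμC : ∀ c, μ (MvPowerSeries.C c) = redSeries (SmoothVar I S) (MvPowerSeries.C c) := fun c => by
    refine (evalHom_C _ hz c).trans ?_
    rw [redSeries, MvPowerSeries.map_C, MvPowerSeries.algebraMap_apply]
    rfl
  have hμX : ∀ l, μ (MvPowerSeries.X l) = z l := fun l => evalHom_X _ hz l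
  letI : Algebra (MvPowerSeries (SmoothVar I S) O) (MvPowerSeries (SmoothVar I S) (ResidueField O)) := μ.toAlgebra
  let θ : ModelRing O (SmoothVar I S) →+* MvPowerSeries (SmoothVar I S) (ResidueField O) :=
    evalHom (O := MvPowerSeries (SmoothVar I S) O) (ι := Unit) (maximalIdeal (MvPowerSeries (SmoothVar I S) (ResidueField O)))
      (fun _ => MvPowerSeries.X (Sum.inl (i0, 2))) 1 fun _ => by
        rw [pow_one]; exact X_mem_maximal_red _
  have hθC : ∀ r, θ (PowerSeries.C r) = μ r := fun r =>
    evalHom_C (O := MvPowerSeries (SmoothVar I S) O) (ι := Unit) (maximalIdeal (MvPowerSeries (SmoothVar I S) (ResidueField O)))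
      (x := fun _ => MvPowerSeries.X (Sum.inl (i0, 2))) (N := 1) _ r
  have hθX : θ PowerSeries.X = MvPowerSeries.X (Sum.inl (i0, 2)) :=
    evalHom_X (O := MvPowerSeries (SmoothVar I S) O) (ι := Unit) (maximalIdeal (MvPowerSeries (SmoothVar I S) (ResidueField O)))
      (x := fun _ => MvPowerSeries.X (Sum.inl (i0, 2))) (N := 1) _ ()
  have hC : θ.comp cuspConst = (redSeries (SmoothVar I S)).comp MvPowerSeries.C :=
    RingHom.ext fun c => (hθC _).trans (hμC c)
  have hcomp := red_smoothHom_eq (S := S) P i0 D0 τ hτ τ'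
    (valid_update P i0 τ (k := .stDown) ⟨D0.hc0, D0.hq⟩ hτ) θ hC
    (fun i => by simp [cuspUV, smoothUV, hθC, hμX, z, Prod.ext_iff])
    (fun i => by
      simp only [cuspDiag, τ']
      by_cases hi : i = i0
      · subst hi
        rw [if_pos rfl, QPlace.map_cuspPair, hC, hθC, hθX, hμX, smoothDiag, Function.update_self]
        simp only [DiagPair.map, QPlace.cuspPair, QPlace.kindPair, RingHom.comp_apply, map_neg]
        congr 1
        · rw [← map_neg, ← map_neg]
          refine redSeries_C_congr ?_
          convert add_mem D0.hαm (Ideal.mul_mem_left _ (P i).w D0.hq) using 1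
          ring
        · rw [neg_inj]
          exact redSeries_C_congr D0.hαm
        · have hs : redSeries (SmoothVar I S) (MvPowerSeries.C D0.s) = 1 := by
            rw [redSeries_C_congr D0.s_mem, map_one, map_one]
          have hx : redSeries (O := O) (SmoothVar I S) (MvPowerSeries.X (Sum.inl (i, 2))) =
              MvPowerSeries.X (Sum.inl (i, 2)) := MvPowerSeries.map_X _ _
          refine Matrix.ext fun a b => ?_
          fin_cases a <;> fin_cases b <;> simp [hs, hx, z]
      · rw [if_neg hi, smoothDiag, smoothDiag, Function.update_of_ne hi,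
          QPlace.map_kindPair _ _ _ _ _ (isUnit_wq_add_X P i),
          QPlace.map_kindPair _ _ _ _ _ (isUnit_cuspConst_add P i),
          QPlace.map_kindPair _ _ _ _ _ (isUnit_wq_add_X P i)]
        congr 1
        rw [hθC, hμX]
        simp [z, hi, redSeries, Prod.ext_iff])
    (fun t => by simp [hθC, hμX, z])
  intro g hg
  rw [smoothQ, Ideal.mem_comap, ← redSeries_eq_zero_iff D0.hϖ, ← RingHom.comp_apply, ← hcomp,
    RingHom.comp_apply]
  have hker : pIdeal D0.ϖ (SmoothVar I S) ⊔ Ideal.span {MvPowerSeries.X (Sum.inl (i0, 2))} ≤ RingHom.ker μ := by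
    refine sup_le ?_ ?_ <;> rw [Ideal.span_le, Set.singleton_subset_iff, SetLike.mem_coe,
      RingHom.mem_ker]
    · rw [hμC]
      exact redSeries_C_mem ((IsLocalRing.mem_maximalIdeal _).2 D0.hϖ.not_isUnit)
    · simp [hμX, z]
  set h := cuspHom (S := S) P i0 D0 τ hτ g
  refine IsHausdorff.haus (I := maximalIdeal (MvPowerSeries (SmoothVar I S) (ResidueField O))) inferInstance _
    fun n => ?_
  rw [SModEq.zero, smul_eq_mul, Ideal.mul_top]
  obtain ⟨h', hh'⟩ := exists_split h n
  rw [hh', map_add, map_sum, map_mul, map_pow, hθX]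
  refine add_mem (sum_mem fun j _ => ?_) (Ideal.mul_mem_right _ _
    (Ideal.pow_mem_pow (X_mem_maximal_red _) n))
  rw [map_mul, hθC, RingHom.mem_ker.1 (hker (coeff_mem_sup D0.hϖ _ D0.dvd_c D0.c_ne_zero hg j)),
    zero_mul]
  exact zero_mem _

end FLTAgent.MLT
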