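import Fermat.Agent.LL.ChartPoint

/-!
Area MLT, local rings: both branches of the special fibre of the model `a X_l = c`.
-/

set_option autoImplicit false
set_option linter.style.haveILetI false
set_option linter.unusedSectionVars false

noncomputable section

namespace FLTAgent.MLT

open IsLocalRing FLTAgent.LL

variable {O : Type} [CommRing O] [IsDomain O] [IsDiscreteValuationRing O] {σ : Type} [Finite σ]
  {ϖ : O} (hϖ : Irreducible ϖ) (l : σ) {c : O} (hc : ϖ ∣ c)

include hϖ in
theorem X_notMem_pIdeal : (MvPowerSeries.X l : MvPowerSeries σ O) ∉ pIdeal ϖ σ := by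
  classical
  intro h
  have h1 := (mem_pIdeal_iff ϖ).1 h (Finsupp.single l 1)
  rw [MvPowerSeries.coeff_X, if_pos rfl] at h1
  exact hϖ.not_isUnit (isUnit_of_dvd_one h1)

theorem X_mul_C_sub_mem {g : MvPowerSeries σ O} :
    (PowerSeries.X * PowerSeries.C g - PowerSeries.C (MvPowerSeries.C c) : ModelRing O σ) ∈
      modelIdeal g c hc := by
  rw [modelIdeal, Submodule.mem_iInf]
  intro n
  rw [RingHom.mem_ker, modelHom]
  have hx := modelA_mem (ϖ := ϖ) g c hc
  have hX : evalMod (qIdeal (ϖ := ϖ) g) (fun _ : Unit => modelA g c) 1 n hx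
      (MvPowerSeries.X () : MvPowerSeries Unit (MvPowerSeries σ O)) =
        Ideal.Quotient.mk _ (modelA g c) := by
    rw [evalMod_apply, ← MvPolynomial.coe_X, Ideal.Quotient.eq]
    simpa using evalTrunc_coe_sub_mem (n := n) hx
      (MvPolynomial.X () : MvPolynomial Unit (MvPowerSeries σ O))
  have hC : ∀ r : MvPowerSeries σ O,
      evalMod (qIdeal (ϖ := ϖ) g) (fun _ : Unit => modelA g c) 1 n hx (MvPowerSeries.C r) =
        Ideal.Quotient.mk _ (algebraMap (MvPowerSeries σ O) (ModelLoc g) r) := by
    intro r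
    rw [evalMod_apply, ← MvPolynomial.coe_C, Ideal.Quotient.eq]
    simpa using evalTrunc_coe_sub_mem (n := n) hx
      (MvPolynomial.C r : MvPolynomial Unit (MvPowerSeries σ O))
  show evalMod (qIdeal (ϖ := ϖ) g) (fun _ : Unit => modelA g c) 1 n hx
    (MvPowerSeries.X () * MvPowerSeries.C g - MvPowerSeries.C (MvPowerSeries.C c) :
      MvPowerSeries Unit (MvPowerSeries σ O)) = 0
  rw [map_sub, map_mul, hX, hC, hC, ← map_mul, ← map_sub, modelA]
  rw [show algebraMap (MvPowerSeries σ O) (ModelLoc g) (MvPowerSeries.C c) *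
      IsLocalization.Away.invSelf g * algebraMap (MvPowerSeries σ O) (ModelLoc g) g =
      algebraMap (MvPowerSeries σ O) (ModelLoc g) (MvPowerSeries.C c) from by
    rw [mul_assoc, mul_comm (IsLocalization.Away.invSelf g), IsLocalization.Away.mul_invSelf,
      mul_one]]
  rw [sub_self, map_zero]

include hϖ in
/-- cleared truncations of a series of the ideal are divisible by high powers of `ϖ` -/
theorem pow_dvd_cleared {h : ModelRing O σ}
    (hh : h ∈ modelIdeal (MvPowerSeries.X l : MvPowerSeries σ O) c hc) (M : ℕ) :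
    (MvPowerSeries.C ϖ : MvPowerSeries σ O) ^ M ∣ ∑ i ∈ Finset.range (M + 1),
      MvPowerSeries.C c ^ i * MvPowerSeries.X l ^ (M - i) * PowerSeries.coeff i h := by
  classical
  set g : MvPowerSeries σ O := MvPowerSeries.X l
  refine dvd_of_algebraMap_dvd hϖ (X_notMem_pIdeal hϖ l) _ _ ?_
  have h0 := (mem_modelIdeal_iff c hc).1 hh M
  rw [qIdeal_eq, Ideal.span_singleton_pow, Ideal.mem_span_singleton] at h0
  set x := modelA g c with hx
  have hexp : evalTrunc (fun _ : Unit => x) 1 M h =
      ∑ i ∈ Finset.range (M + 1),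
        algebraMap (MvPowerSeries σ O) (ModelLoc g) (PowerSeries.coeff i h) * x ^ i := by
    have htr : MvPowerSeries.truncTotal (cutDeg Unit 1 M) h =
        ∑ i ∈ Finset.range (M + 1),
          MvPolynomial.monomial (Finsupp.single () i) (PowerSeries.coeff i h) := by
      refine MvPolynomial.ext _ _ fun v => ?_
      obtain ⟨j, rfl⟩ : ∃ j, v = Finsupp.single () j := ⟨v (), Finsupp.ext fun ⟨⟩ => by simp⟩
      rw [MvPolynomial.coeff_sum]
      simp only [MvPolynomial.coeff_monomial, Finsupp.single_eq_single_iff, true_and]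
      have hj : ∀ i : ℕ, (i = j ∨ i = 0 ∧ j = 0) ↔ i = j := fun i => by omega
      simp only [hj, Finset.sum_ite_eq', Finset.mem_range]
      by_cases hjM : j < M + 1
      · rw [MvPowerSeries.coeff_truncTotal _ (by simpa [cutDeg] using hjM), if_pos hjM]
        rfl
      · rw [MvPowerSeries.coeff_truncTotal_eq_zero _ (by simpa [cutDeg] using hjM), if_neg hjM]
    rw [evalTrunc, htr, map_sum]
    refine Finset.sum_congr rfl fun i _ => ?_
    rw [MvPolynomial.aeval_monomial, Finsupp.prod_single_index (by simp)]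
  have hA : algebraMap (MvPowerSeries σ O) (ModelLoc g) (∑ i ∈ Finset.range (M + 1),
      MvPowerSeries.C c ^ i * g ^ (M - i) * PowerSeries.coeff i h) =
      algebraMap (MvPowerSeries σ O) (ModelLoc g) g ^ M * ∑ i ∈ Finset.range (M + 1),
        algebraMap (MvPowerSeries σ O) (ModelLoc g) (PowerSeries.coeff i h) * x ^ i := by
    rw [map_sum, Finset.mul_sum]
    refine Finset.sum_congr rfl fun i hi => ?_
    have hL : algebraMap (MvPowerSeries σ O) (ModelLoc g) g ^ i *
        IsLocalization.Away.invSelf g ^ i = 1 := by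
      rw [← mul_pow, IsLocalization.Away.mul_invSelf, one_pow]
    have hpow : algebraMap (MvPowerSeries σ O) (ModelLoc g) g ^ M =
        algebraMap (MvPowerSeries σ O) (ModelLoc g) g ^ (M - i) *
          algebraMap (MvPowerSeries σ O) (ModelLoc g) g ^ i := by
      rw [← pow_add, Nat.sub_add_cancel (Nat.lt_succ_iff.1 (Finset.mem_range.1 hi))]
    rw [hpow, map_mul, map_mul, map_pow, map_pow, hx, modelA, mul_pow]
    linear_combination (-(algebraMap (MvPowerSeries σ O) (ModelLoc g) (MvPowerSeries.C c) ^ i *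
      algebraMap (MvPowerSeries σ O) (ModelLoc g) g ^ (M - i) *
      algebraMap (MvPowerSeries σ O) (ModelLoc g) (PowerSeries.coeff i h))) * hL
  rw [hA, ← hexp]
  exact dvd_mul_of_dvd_right h0 _

include hϖ in
/-- on the branch `X_l = 0` of the special fibre every coefficient of the ideal vanishes -/
theorem coeff_mem_sup (hc0 : c ≠ 0) {h : ModelRing O σ}
    (hh : h ∈ modelIdeal (MvPowerSeries.X l : MvPowerSeries σ O) c hc) (N : ℕ) :
    PowerSeries.coeff N h ∈ pIdeal ϖ σ ⊔ Ideal.span {MvPowerSeries.X l} := by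
  classical
  set g : MvPowerSeries σ O := MvPowerSeries.X l with hg
  obtain ⟨e, u, hu⟩ := IsDiscreteValuationRing.eq_unit_mul_pow_irreducible hc0 hϖ
  obtain ⟨M, hMe, hMN⟩ : ∃ M, e * (N + 1) ≤ M ∧ N ≤ M :=
    ⟨max (e * (N + 1)) N, le_max_left _ _, le_max_right _ _⟩
  have hdvd := pow_dvd_cleared hϖ l hc hh M
  rw [← map_pow] at hdvd
  let f := PowerSeries.coeff N h
  let f0 : MvPowerSeries σ O := fun v => if v l = 0 then MvPowerSeries.coeff v f else 0
  have hf0 : ∀ v, MvPowerSeries.coeff v f0 = if v l = 0 then MvPowerSeries.coeff v f else 0 :=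
    fun v => rfl
  have hp : f0 ∈ pIdeal ϖ σ := by
    refine (mem_pIdeal_iff ϖ).2 fun v => ?_
    rw [hf0]
    split
    swap
    · exact dvd_zero _
    rename_i hv
    obtain ⟨E, hE⟩ := hdvd
    have hcoef := congrArg (MvPowerSeries.coeff (v + Finsupp.single l (M - N))) hE
    rw [MvPowerSeries.coeff_C_mul, map_sum] at hcoef
    have hterm : ∀ i ∈ Finset.range (M + 1), MvPowerSeries.coeff (v + Finsupp.single l (M - N))
        (MvPowerSeries.C c ^ i * g ^ (M - i) * PowerSeries.coeff i h) =
          c ^ i * if N ≤ i then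
            MvPowerSeries.coeff (v + Finsupp.single l (i - N)) (PowerSeries.coeff i h) else 0 := by
      intro i hi
      have hiM : i ≤ M := Nat.lt_succ_iff.1 (Finset.mem_range.1 hi)
      rw [← map_pow, mul_assoc, MvPowerSeries.coeff_C_mul, hg, MvPowerSeries.X_pow_eq,
        MvPowerSeries.coeff_monomial_mul]
      by_cases hNi : N ≤ i
      · rw [if_pos hNi, if_pos (Finsupp.single_le_iff.2 (by simp [hv]; omega)), one_mul]
        congr 3
        ext j
        by_cases hj : j = l
        · subst hj
          simp [hv]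
          omega
        · simp [Finsupp.single_eq_of_ne hj]
      · rw [if_neg hNi, if_neg fun h' => ?_]
        have := Finsupp.single_le_iff.1 h'
        simp [hv] at this
        omega
    rw [Finset.sum_congr rfl hterm] at hcoef
    obtain ⟨r, hr⟩ : c ^ (N + 1) ∣
        (∑ i ∈ Finset.range (M + 1), c ^ i * if N ≤ i then
          MvPowerSeries.coeff (v + Finsupp.single l (i - N)) (PowerSeries.coeff i h) else 0) -
        c ^ N * MvPowerSeries.coeff v f := by
      rw [Finset.sum_eq_add_sum_sdiff_singleton_of_mem (Finset.mem_range.2 (by omega : N < M + 1)),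
        if_pos le_rfl, Nat.sub_self, Finsupp.single_zero, add_zero, add_sub_cancel_left]
      refine Finset.dvd_sum fun i hi => ?_
      simp only [Finset.mem_sdiff, Finset.mem_range, Finset.mem_singleton] at hi
      by_cases hNi : N ≤ i
      · exact dvd_mul_of_dvd_left (pow_dvd_pow _ (by omega)) _
      · rw [if_neg hNi, mul_zero]
        exact dvd_zero _
    obtain ⟨r', hr'⟩ : c ^ (N + 1) ∣ ϖ ^ M := by
      rw [hu, mul_pow, ← pow_mul]
      exact ((u.isUnit.pow _).mul_left_dvd).2 (pow_dvd_pow _ hMe)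
    have key : c ^ N * MvPowerSeries.coeff v f =
        c ^ N * (c * (r' * MvPowerSeries.coeff (v + Finsupp.single l (M - N)) E - r)) := by
      rw [hcoef] at hr
      rw [hr'] at hr
      rw [pow_succ] at hr
      linear_combination -hr
    rw [mul_left_cancel₀ (pow_ne_zero N hc0) key]
    exact dvd_mul_of_dvd_left hc _
  have hX : f - f0 ∈ Ideal.span {g} := by
    rw [Ideal.mem_span_singleton, hg, MvPowerSeries.X_dvd_iff]
    intro v hv
    rw [map_sub, hf0, if_pos hv, sub_self]
  have := add_mem (Ideal.mem_sup_left (T := Ideal.span {g}) hp)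
    (Ideal.mem_sup_right (S := pIdeal ϖ σ) hX)
  simpa using this

end FLTAgent.MLT
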