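import Fermat.Agent.MLT.LocalRingsSpecial
import Fermat.Agent.MLT.LocalRingsCuspModel

/-!
Area MLT, local rings at places `q ≡ -1`: the component of a cuspidal type at one place times smooth
components at the others. Its model is `X Y = ((ζ - ζ⁻¹)/2)²`; both Steinberg lines of the special
fibre lie on it.
-/

set_option autoImplicit false
set_option linter.style.haveILetI false
set_option linter.unusedSectionVars false

noncomputable section

namespace FLTAgent.MLT

open IsLocalRing Matrix FLTAgent.LL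

section General

variable {O : Type} [CommRing O] {I S : Type}

theorem map_ringInverse {R R' : Type} [CommRing R] [CommRing R'] (θ : R →+* R') {a : R}
    (ha : IsUnit a) : θ (Ring.inverse a) = Ring.inverse (θ a) := by
  refine (ha.map θ).mul_left_cancel ?_
  rw [← map_mul, Ring.mul_inverse_cancel _ ha, map_one, Ring.mul_inverse_cancel _ (ha.map θ)]

theorem QPlace.map_kindPair (P : QPlace O) {R R' : Type} [CommRing R] [CommRing R'] (θ : R →+* R')
    (κ : O →+* R) (x : R) (τ : Kind) (hA : IsUnit (κ (P.w * P.q) + x)) :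
    (P.kindPair κ x τ).map θ = P.kindPair (θ.comp κ) (θ x) τ := by
  cases τ <;> simp only [DiagPair.map, QPlace.kindPair] <;> congr 1 <;>
    try ext a b <;> fin_cases a <;> fin_cases b
  all_goals first
    | rw [map_mul θ, map_ringInverse θ hA, map_add, RingHom.comp_apply, RingHom.comp_apply]
    | simp

theorem QPlace.map_cuspPair {R R' : Type} [CommRing R] [CommRing R'] (θ : R →+* R') (κ : O →+* R)
    (α s : O) (x y : R) :
    (QPlace.cuspPair κ α s x y).map θ = QPlace.cuspPair (θ.comp κ) α s (θ x) (θ y) := by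
  simp only [DiagPair.map, QPlace.cuspPair]
  congr 1
  · simp
  · ext a b
    fin_cases a <;> fin_cases b <;> simp

/-- values of the coordinates commute with homomorphisms -/
theorem map_fullVal (P : I → QPlace O) {R R' : Type} [CommRing R] [CommRing R'] (θ : R →+* R')
    {κ : O →+* R} {η : O →+* R'} (hκ : θ.comp κ = η) {uv : I → R × R} {uv' : I → R' × R'}
    (hu : ∀ i, IsUnit (1 - (uv i).1 * (uv i).2)) (huv : ∀ i, (θ (uv i).1, θ (uv i).2) = uv' i)
    {D : I → DiagPair R} {D' : I → DiagPair R'} (hD : ∀ i, (D i).map θ = D' i) {z : S → R}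
    {z' : S → R'} (hz : ∀ t, θ (z t) = z' t) (l : PlaceVar I S) :
    θ (fullVal P κ uv D z l) = fullVal P η uv' D' z' l := by
  rcases l with ⟨i, s, a, b⟩ | t
  swap
  · exact hz t
  have hinv : θ (Ring.inverse (1 - (uv i).1 * (uv i).2)) =
      Ring.inverse (1 - (uv' i).1 * (uv' i).2) := by
    rw [map_ringInverse θ (hu i), map_sub, map_one, map_mul, ← huv i]
  have h1 := congrFun (congrFun (map_frameConj (u := (uv i).1) (v := (uv i).2)
    (e := Ring.inverse (1 - (uv i).1 * (uv i).2)) θ (D i).frob) a) b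
  have h2 := congrFun (congrFun (map_frameConj (u := (uv i).1) (v := (uv i).2)
    (e := Ring.inverse (1 - (uv i).1 * (uv i).2)) θ (D i).T) a) b
  have b1 := congrFun (congrFun ((P i).map_baseF κ θ) a) b
  have b2 := congrFun (congrFun ((P i).map_baseT κ θ) a) b
  have hT : (D i).T.map θ = (D' i).T := congrArg DiagPair.T (hD i)
  rw [DiagPair.frob_map, hD, hinv] at h1
  rw [hT, hinv] at h2
  rw [hκ] at b1 b2
  rw [← huv i] at h1 h2
  simp only [Matrix.map_apply] at h1 h2 b1 b2
  simp only [fullVal, QPlace.placeVal]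
  split <;> simp only [Matrix.sub_apply, map_sub, h1, h2, b1, b2, ← huv i]

/-- the coordinates of a point with given matrices -/
theorem X_eq_fullVal (P : I → QPlace O) {R : Type} [CommRing R]
    (π : MvPowerSeries (PlaceVar I S) O →+* R) {η : O →+* R} (hπ : π.comp MvPowerSeries.C = η)
    {uv : I → R × R} {D : I → DiagPair R}
    (hF : ∀ i, (frobC P i).map π =
      frameConj (uv i).1 (uv i).2 (Ring.inverse (1 - (uv i).1 * (uv i).2)) (D i).frob)
    (hT : ∀ i, (tameC P i).map π =
      frameConj (uv i).1 (uv i).2 (Ring.inverse (1 - (uv i).1 * (uv i).2)) (D i).T)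
    (l : PlaceVar I S) :
    π (MvPowerSeries.X l) = fullVal P η uv D (fun t => π (MvPowerSeries.X (Sum.inr t))) l := by
  rcases l with ⟨i, s, a, b⟩ | t
  swap
  · rfl
  have h1 := congrFun (congrFun (hF i) a) b
  have h2 := congrFun (congrFun (hT i) a) b
  rw [Matrix.map_apply, map_frobC, hπ, ← eq_sub_iff_add_eq'] at h1
  rw [Matrix.map_apply, map_tameC, hπ, ← eq_sub_iff_add_eq'] at h2
  fin_cases s <;> simp only [Fin.zero_eta, Fin.mk_one, Fin.isValue] at h1 h2 ⊢ <;>
    simp [fullVal, QPlace.placeVal, h1, h2]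

/-- the relations hold for the cuspidal data -/
theorem cuspPair_rel (P : QPlace O) {R : Type} [CommRing R] [IsDomain R] (κ : O →+* R)
    {α ζ ζi hlf : O} (hh : 2 * hlf = 1) (hα : α * α = -(P.q : O)) (hζ : ζ * ζi = 1)
    (hζq : ζ ^ (P.q + 1) = 1) (hne : κ (ζ - ζi) ≠ 0) {x y : R}
    (hxy : x * y = κ (((ζ - ζi) * hlf) ^ 2)) :
    (QPlace.cuspPair κ α ((ζ + ζi) * hlf) x y).frob.det = κ (P.q : O) ∧
      (QPlace.cuspPair κ α ((ζ + ζi) * hlf) x y).T.det = 1 ∧
      (QPlace.cuspPair κ α ((ζ + ζi) * hlf) x y).T.trace = κ (ζ + ζi) ∧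
      (QPlace.cuspPair κ α ((ζ + ζi) * hlf) x y).frob * (QPlace.cuspPair κ α ((ζ + ζi) * hlf) x y).T =
        (QPlace.cuspPair κ α ((ζ + ζi) * hlf) x y).T ^ P.q *
          (QPlace.cuspPair κ α ((ζ + ζi) * hlf) x y).frob := by
  set s := κ ((ζ + ζi) * hlf) with hs
  set z := κ ζ
  set zi := κ ζi
  have hz : z * zi = 1 := by rw [← map_mul, hζ, map_one]
  have hh' : (2 : R) * κ hlf = 1 := by rw [← map_ofNat κ, ← map_mul, hh, map_one]
  have hzz : z - zi ≠ 0 := by rwa [← map_sub]
  have hdet : s * s - x * y = 1 := by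
    rw [hs, hxy]
    simp only [map_mul, map_add, map_sub, map_pow]
    linear_combination 4 * κ hlf ^ 2 * hz + (2 * κ hlf + 1) * hh'
  have htr : s + s = κ (ζ + ζi) := by
    rw [hs, map_mul]
    linear_combination κ (ζ + ζi) * hh'
  have hα' : κ α * κ α = -κ (P.q : O) := by rw [← map_mul, hα, map_neg]
  refine ⟨?_, ?_, ?_, ?_⟩
  · simp only [DiagPair.frob, QPlace.cuspPair, Matrix.det_fin_two_of, mul_zero, sub_zero]
    linear_combination -hα'
  · simp only [QPlace.cuspPair, Matrix.det_fin_two_of, ← hs]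
    linear_combination hdet
  · simp [QPlace.cuspPair, Matrix.trace_fin_two, ← hs, htr]
  -- the power `q` of the tame generator is its inverse
  set T : Matrix (Fin 2) (Fin 2) R := !![s, x; y, s] with hT
  have hsum : z + zi = s + s := by rw [htr, map_add]
  have hsq : T * T = (z + zi) • T - (1 : Matrix (Fin 2) (Fin 2) R) := by
    ext a b
    fin_cases a <;> fin_cases b <;> simp [hT, Matrix.mul_apply, Fin.sum_univ_two, hsum]
    all_goals first | linear_combination -hdet | linear_combination hdet | ring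
  have key : ∀ n : ℕ, (z - zi) • T ^ n =
      (z ^ n - zi ^ n) • T + (z * zi ^ n - zi * z ^ n) • (1 : Matrix (Fin 2) (Fin 2) R) := by
    intro n
    induction n with
    | zero => simp
    | succ n ih =>
      rw [pow_succ, ← smul_mul_assoc, ih, add_mul, smul_mul_assoc, smul_mul_assoc, one_mul, hsq,
        smul_sub, smul_smul]
      match_scalars
      · linear_combination (0 : R) * hz
      · linear_combination (z ^ n - zi ^ n) * hz
  have hq : z ^ P.q = zi := by
    have h : z * z ^ P.q = z * zi := by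
      rw [hz, ← pow_succ', ← map_pow, hζq, map_one]
    exact mul_left_cancel₀ (left_ne_zero_of_mul_eq_one hz) h
  have hqi : zi ^ P.q = z := by
    have h : zi ^ P.q * z ^ P.q = z * z ^ P.q := by
      rw [← mul_pow, mul_comm zi, hz, one_pow, hq, hz]
    exact mul_right_cancel₀ (pow_ne_zero _ (left_ne_zero_of_mul_eq_one hz)) h
  have hpow : T ^ P.q = (z + zi) • (1 : Matrix (Fin 2) (Fin 2) R) - T := by
    have h := key P.q
    rw [hq, hqi] at h
    refine Matrix.ext fun a b => mul_left_cancel₀ hzz ?_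
    have h' := congrFun (congrFun h a) b
    simp only [Matrix.smul_apply, Matrix.add_apply, Matrix.sub_apply, smul_eq_mul] at h' ⊢
    linear_combination h'
  show (QPlace.cuspPair κ α ((ζ + ζi) * hlf) x y).frob * T = T ^ P.q * _
  rw [hpow]
  ext a b
  fin_cases a <;> fin_cases b <;>
    simp [hT, DiagPair.frob, QPlace.cuspPair, Matrix.mul_apply, Fin.sum_univ_two, hsum] <;> ring

end General

/-- the data of a cuspidal type at a place -/
structure CuspData {O : Type} [CommRing O] [IsLocalRing O] (P : QPlace O) : Type where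
  /-- the uniformiser -/
  ϖ : O
  /-- one half -/
  hlf : O
  /-- the eigenvalue of Frobenius -/
  α : O
  /-- an eigenvalue of the tame generator -/
  ζ : O
  /-- its inverse -/
  ζi : O
  hϖ : Irreducible ϖ
  hh : 2 * hlf = 1
  hc0 : P.c0 ∈ maximalIdeal O
  hq : (P.q : O) + 1 ∈ maximalIdeal O
  hα : α * α = -(P.q : O)
  hαm : α - P.w * P.q ∈ maximalIdeal O
  hζ : ζ * ζi = 1
  hζ1 : ζ - 1 ∈ maximalIdeal O
  hne : ζ ≠ ζi
  hζq : ζ ^ (P.q + 1) = 1

section Cusp

variable {O : Type} [CommRing O] [IsDomain O] [IsDiscreteValuationRing O]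
  [IsAdicComplete (maximalIdeal O) O] [Finite (ResidueField O)]
  {I S : Type} [Finite I] [Finite S] [DecidableEq I]
  (P : I → QPlace O) (i0 : I) (D0 : CuspData (P i0)) (τ : I → Kind)
  (hτ : ∀ i, (τ i).Valid (P i))

/-- `s = (ζ + ζ⁻¹)/2` -/
def CuspData.s {P : QPlace O} (D0 : CuspData P) : O := (D0.ζ + D0.ζi) * D0.hlf

/-- `π = ((ζ - ζ⁻¹)/2)²` -/
def CuspData.c {P : QPlace O} (D0 : CuspData P) : O := ((D0.ζ - D0.ζi) * D0.hlf) ^ 2

theorem CuspData.ζi_mem {P : QPlace O} (D0 : CuspData P) : D0.ζi - 1 ∈ maximalIdeal O := by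
  rw [show D0.ζi - 1 = -(D0.ζi * (D0.ζ - 1)) by linear_combination D0.hζ]
  exact neg_mem (Ideal.mul_mem_left _ _ D0.hζ1)

theorem CuspData.dvd_c {P : QPlace O} (D0 : CuspData P) : D0.ϖ ∣ D0.c := by
  rw [← Ideal.mem_span_singleton, ← (IsDiscreteValuationRing.irreducible_iff_uniformizer D0.ϖ).1 D0.hϖ]
  refine Ideal.pow_mem_of_mem _ (Ideal.mul_mem_right _ _ ?_) 2 two_pos
  convert sub_mem D0.hζ1 D0.ζi_mem using 1
  ring

theorem CuspData.s_mem {P : QPlace O} (D0 : CuspData P) : D0.s - 1 ∈ maximalIdeal O := by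
  rw [show D0.s - 1 = ((D0.ζ - 1) + (D0.ζi - 1)) * D0.hlf by
    simp only [CuspData.s]; linear_combination D0.hh]
  exact Ideal.mul_mem_right _ _ (add_mem D0.hζ1 D0.ζi_mem)

theorem CuspData.c_ne_zero {P : QPlace O} (D0 : CuspData P) : D0.c ≠ 0 :=
  pow_ne_zero _ (mul_ne_zero (sub_ne_zero.2 D0.hne) (right_ne_zero_of_mul_eq_one D0.hh))

/-- the constants of the cuspidal model -/
def cuspConst : O →+* ModelRing O (SmoothVar I S) :=
  (PowerSeries.C (R := MvPowerSeries (SmoothVar I S) O)).comp MvPowerSeries.C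

/-- frame coordinates of the cuspidal model -/
def cuspUV (i : I) : ModelRing O (SmoothVar I S) × ModelRing O (SmoothVar I S) :=
  (PowerSeries.C (smoothUV i).1, PowerSeries.C (smoothUV i).2)

/-- diagonal data of the cuspidal model -/
def cuspDiag (i : I) : DiagPair (ModelRing O (SmoothVar I S)) :=
  if i = i0 then QPlace.cuspPair cuspConst D0.α D0.s
      (PowerSeries.C (MvPowerSeries.X (Sum.inl (i0, 2)))) PowerSeries.X
  else (smoothDiag P τ i).map PowerSeries.C

/-- values of the coordinates on the cuspidal model -/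
def cuspVal : PlaceVar I S → ModelRing O (SmoothVar I S) :=
  fullVal P cuspConst cuspUV (cuspDiag P i0 D0 τ)
    fun t => PowerSeries.C (MvPowerSeries.X (Sum.inr t))

theorem C_mem_model {σ : Type} [Finite σ] {f : MvPowerSeries σ O}
    (hf : f ∈ maximalIdeal (MvPowerSeries σ O)) :
    (PowerSeries.C f : ModelRing O σ) ∈ maximalIdeal (ModelRing O σ) := by
  rw [IsLocalRing.mem_maximalIdeal, mem_nonunits_iff] at hf ⊢
  intro h
  exact hf (by simpa using h.map (PowerSeries.constantCoeff (R := MvPowerSeries σ O)))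

theorem PX_mem_model {σ : Type} [Finite σ] :
    (PowerSeries.X : ModelRing O σ) ∈ maximalIdeal (ModelRing O σ) := by
  rw [IsLocalRing.mem_maximalIdeal, mem_nonunits_iff]
  intro h
  simpa using h.map (PowerSeries.constantCoeff (R := MvPowerSeries σ O))

theorem cuspConst_mem {c : O} (hc : c ∈ maximalIdeal O) :
    cuspConst (I := I) (S := S) c ∈ maximalIdeal (ModelRing O (SmoothVar I S)) :=
  C_mem_model (C_mem_of_mem hc)

include hτ in
theorem cuspVal_mem (l : PlaceVar I S) :
    cuspVal P i0 D0 τ l ∈ maximalIdeal (ModelRing O (SmoothVar I S)) := by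
  rcases l with ⟨i, p⟩ | t
  swap
  · exact C_mem_model (X_mem_maximalIdeal _)
  refine (P i).placeVal_mem _ (C_mem_model (X_mem_maximalIdeal _)) (C_mem_model (X_mem_maximalIdeal _))
    ?_ ?_ ?_ p <;> simp only [cuspDiag] <;> by_cases hi : i = i0
  · rw [if_pos hi]
    subst hi
    rw [show (QPlace.cuspPair _ _ _ _ _).a = cuspConst D0.α from rfl, ← map_sub]
    exact cuspConst_mem D0.hαm
  · rw [if_neg hi]
    obtain ⟨h1, -, -⟩ := (P i).kindPair_mem (R := MvPowerSeries (SmoothVar I S) O)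
      MvPowerSeries.C (hτ i) (fun c hc => C_mem_of_mem hc) (X_mem_maximalIdeal (Sum.inl (i, 2)))
    have h := C_mem_model h1
    rw [map_sub] at h
    exact h
  · rw [if_pos hi]
    subst hi
    rw [show (QPlace.cuspPair _ _ _ _ _).d = -cuspConst D0.α from rfl, ← map_neg, ← map_sub]
    refine cuspConst_mem ?_
    convert neg_mem (add_mem D0.hαm (Ideal.mul_mem_left _ (P i).w D0.hq)) using 1
    ring
  · rw [if_neg hi]
    obtain ⟨-, h2, -⟩ := (P i).kindPair_mem (R := MvPowerSeries (SmoothVar I S) O)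
      MvPowerSeries.C (hτ i) (fun c hc => C_mem_of_mem hc) (X_mem_maximalIdeal (Sum.inl (i, 2)))
    have h := C_mem_model h2
    rw [map_sub] at h
    exact h
  · rw [if_pos hi]
    subst hi
    intro a b
    have h1 := cuspConst_mem (I := I) (S := S) D0.s_mem
    rw [map_sub, map_one] at h1
    fin_cases a <;> fin_cases b <;>
      simp only [QPlace.cuspPair, QPlace.baseT, Fin.zero_eta, Fin.mk_one, Fin.isValue,
        Matrix.sub_apply, Matrix.of_apply, Matrix.cons_val', Matrix.cons_val_zero,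
        Matrix.cons_val_one, Matrix.cons_val_fin_one, sub_zero] <;>
      first
        | exact h1
        | exact PX_mem_model
        | exact sub_mem (C_mem_model (X_mem_maximalIdeal _)) (cuspConst_mem D0.hc0)
  · rw [if_neg hi]
    intro a b
    obtain ⟨-, -, h3⟩ := (P i).kindPair_mem (R := MvPowerSeries (SmoothVar I S) O)
      MvPowerSeries.C (hτ i) (fun c hc => C_mem_of_mem hc) (X_mem_maximalIdeal (Sum.inl (i, 2)))
    have h := C_mem_model (h3 a b)
    have hb := congrFun (congrFun ((P i).map_baseT MvPowerSeries.C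
      (PowerSeries.C (R := MvPowerSeries (SmoothVar I S) O))) a) b
    rw [Matrix.map_apply] at hb
    rw [Matrix.sub_apply, map_sub, hb] at h
    exact h

/-- the map to the cuspidal model -/
def cuspHom : MvPowerSeries (PlaceVar I S) O →+* ModelRing O (SmoothVar I S) :=
  evalHom (A := ModelRing O (SmoothVar I S)) (maximalIdeal (ModelRing O (SmoothVar I S)))
    (cuspVal P i0 D0 τ) 1 fun l => by rw [pow_one]; exact cuspVal_mem P i0 D0 τ hτ l

theorem cuspHom_C (c : O) : cuspHom (S := S) P i0 D0 τ hτ (MvPowerSeries.C c) = cuspConst c := by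
  refine (evalHom_C _ _ c).trans ?_
  rw [MvPowerSeries.algebraMap_apply, MvPowerSeries.algebraMap_apply, Algebra.algebraMap_self_apply]
  rfl

theorem cuspHom_X (l : PlaceVar I S) :
    cuspHom P i0 D0 τ hτ (MvPowerSeries.X l) = cuspVal P i0 D0 τ l :=
  evalHom_X _ _ l

theorem isUnit_smoothUV (i : I) :
    IsUnit (1 - (smoothUV (O := O) (S := S) i).1 * (smoothUV i).2) :=
  QPlace.isUnit_one_sub_mul (X_mem_maximalIdeal _)

theorem isUnit_cuspUV (i : I) : IsUnit (1 - (cuspUV (O := O) (S := S) i).1 * (cuspUV i).2) :=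
  QPlace.isUnit_one_sub_mul (C_mem_model (X_mem_maximalIdeal _))

theorem isUnit_wq_add_X (i : I) : IsUnit (MvPowerSeries.C ((P i).w * ((P i).q : O)) +
    MvPowerSeries.X (Sum.inl (i, 2)) : MvPowerSeries (SmoothVar I S) O) :=
  QPlace.isUnit_of_sub_mem ((P i).isUnit_wq.map (MvPowerSeries.C (σ := SmoothVar I S) (R := O)))
    (by simpa [-IsLocalRing.mem_maximalIdeal] using
      X_mem_maximalIdeal (O := O) (σ := SmoothVar I S) (Sum.inl (i, 2)))

theorem isUnit_cuspConst_add (i : I) :
    IsUnit (((PowerSeries.C (R := MvPowerSeries (SmoothVar I S) O)).comp MvPowerSeries.C)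
      ((P i).w * ((P i).q : O)) + PowerSeries.C (MvPowerSeries.X (Sum.inl (i, 2)))) := by
  rw [RingHom.comp_apply, ← map_add]
  exact (isUnit_wq_add_X P i).map _

/-- the prime of the cuspidal component -/
def cuspK : Ideal (MvPowerSeries (PlaceVar I S) O) :=
  (modelIdeal (MvPowerSeries.X (Sum.inl (i0, 2)) : MvPowerSeries (SmoothVar I S) O) D0.c
    D0.dvd_c).comap (cuspHom P i0 D0 τ hτ)

theorem isPrime_cuspK : (cuspK (S := S) P i0 D0 τ hτ).IsPrime := by
  haveI := isPrime_modelIdeal D0.hϖ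
    (X_notMem_pIdeal D0.hϖ (Sum.inl (i0, 2) : SmoothVar I S)) D0.c D0.dvd_c
  exact Ideal.comap_isPrime _ _

/-! ### Points -/

section Points

variable {E : Type} [CommRing E] [IsDomain E] [IsLocalRing E] [IsNoetherianRing E]
  [IsAdicComplete (maximalIdeal E) E]
  [Finite (ResidueField E)] [Algebra O E] [IsLocalHom (algebraMap O E)]
  (π : MvPowerSeries (PlaceVar I S) O →+* E)

theorem cuspK_le_ker_of_kindPoint (hinj : Function.Injective (algebraMap O E))
    (hπ : ∀ c, π (MvPowerSeries.C c) = algebraMap O E c)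
    {u v x : I → E} {y : E} (hu : ∀ i, u i ∈ maximalIdeal E) (hv : ∀ i, v i ∈ maximalIdeal E)
    (hx : ∀ i, x i ∈ maximalIdeal E) (hy : y ∈ maximalIdeal E)
    (hxy : x i0 * y = algebraMap O E D0.c)
    (hF : ∀ i, (frobC P i).map π = frameConj (u i) (v i) (Ring.inverse (1 - u i * v i))
      (if i = i0 then QPlace.cuspPair (algebraMap O E) D0.α D0.s (x i0) y
        else (P i).kindPair (algebraMap O E) (x i) (τ i)).frob)
    (hT : ∀ i, (tameC P i).map π = frameConj (u i) (v i) (Ring.inverse (1 - u i * v i))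
      (if i = i0 then QPlace.cuspPair (algebraMap O E) D0.α D0.s (x i0) y
        else (P i).kindPair (algebraMap O E) (x i) (τ i)).T) :
    cuspK P i0 D0 τ hτ ≤ RingHom.ker π := by
  let z : SmoothVar I S → E := Sum.elim (fun p => ![u p.1, v p.1, x p.1] p.2)
    fun t => π (MvPowerSeries.X (Sum.inr t))
  have hz : ∀ l, z l ^ 1 ∈ maximalIdeal E := by
    intro l
    rw [pow_one]
    rcases l with ⟨i, r⟩ | t
    · fin_cases r
      · exact hu i
      · exact hv i
      · exact hx i
    · exact map_X_mem_maximalIdeal π _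
  let p0 : MvPowerSeries (SmoothVar I S) O →+* E := evalHom (O := O) (maximalIdeal E) z 1 hz
  have hpC : ∀ c, p0 (MvPowerSeries.C c) = algebraMap O E c := fun c => evalHom_C _ hz c
  have hpX : ∀ l, p0 (MvPowerSeries.X l) = z l := fun l => evalHom_X _ hz l
  letI : Algebra (MvPowerSeries (SmoothVar I S) O) E := p0.toAlgebra
  let p : ModelRing O (SmoothVar I S) →+* E :=
    evalHom (O := MvPowerSeries (SmoothVar I S) O) (ι := Unit) (maximalIdeal E) (fun _ => y) 1
      fun _ => by rw [pow_one]; exact hy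
  have hPC : ∀ r, p (PowerSeries.C r) = p0 r := fun r =>
    evalHom_C (O := MvPowerSeries (SmoothVar I S) O) (ι := Unit) (maximalIdeal E) (x := fun _ => y)
      (N := 1) _ r
  have hPX : p PowerSeries.X = y :=
    evalHom_X (O := MvPowerSeries (SmoothVar I S) O) (ι := Unit) (maximalIdeal E) (x := fun _ => y)
      (N := 1) _ ()
  have hκ : p.comp cuspConst = algebraMap O E := RingHom.ext fun c => by
    simp [cuspConst, hPC, hpC]
  have hval : ∀ l, p (cuspVal P i0 D0 τ l) = π (MvPowerSeries.X l) := by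
    intro l
    rw [X_eq_fullVal P π (RingHom.ext hπ) (uv := fun i => (u i, v i)) hF hT l]
    refine map_fullVal P p hκ isUnit_cuspUV (fun i => ?_) (fun i => ?_) (fun t => ?_) l
    · simp [cuspUV, smoothUV, hPC, hpX, z]
    · simp only [cuspDiag]
      by_cases hi : i = i0
      · rw [if_pos hi, if_pos hi, QPlace.map_cuspPair, hκ, hPX, hPC, hpX]
        simp [z]
      · rw [if_neg hi, if_neg hi, smoothDiag, QPlace.map_kindPair _ _ _ _ _ (isUnit_wq_add_X P i),
          QPlace.map_kindPair _ _ _ _ _ (isUnit_cuspConst_add P i), hPC, hpX]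
        congr 1
    · simp [hPC, hpX, z]
  have hcomp : p.comp (cuspHom P i0 D0 τ hτ) = π := by
    refine hom_ext_adic (maximalIdeal E) (fun c => ?_) (fun l => ?_) (fun l => ?_)
    · rw [RingHom.comp_apply, cuspHom_C, hπ, ← RingHom.comp_apply, hκ]
    · rw [RingHom.comp_apply, cuspHom_X, hval]
    · rw [RingHom.comp_apply, cuspHom_X, hval]
      exact map_X_mem_maximalIdeal π _
  intro g hg
  rw [RingHom.mem_ker, ← hcomp, RingHom.comp_apply, ← RingHom.mem_ker]
  refine modelIdeal_le_ker D0.hϖ (X_notMem_pIdeal D0.hϖ _) D0.c D0.dvd_c D0.c_ne_zero p ?_ ?_ ?_ hg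
  · rw [hPX, hPC, hPC, hpX, hpC, ← hxy]
    simp [z, mul_comm]
  · rw [hPX]; exact hy
  · rw [hPC, hpC]
    exact fun e => D0.c_ne_zero (hinj (e.trans (map_zero _).symm))

end Points

/-- a point of the relations of cuspidal type at `i0` and of smooth kinds elsewhere kills the prime -/
theorem cuspK_le_ker {C : Type} [CommRing C] [IsDomain C] [Algebra O C] [Module.Finite O C]
    (π : MvPowerSeries (PlaceVar I S) O →+* C)
    (hπ : ∀ c, π (MvPowerSeries.C c) = algebraMap O C c)
    (hinj : Function.Injective (algebraMap O C)) (hrel : ∀ i, PlaceRel P π i)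
    (hcusp : π ((tameC P i0).trace - MvPowerSeries.C (D0.ζ + D0.ζi)) = 0)
    (hcond : ∀ i, i ≠ i0 → KindCond P π i (τ i)) :
    cuspK P i0 D0 τ hτ ≤ RingHom.ker π := by
  haveI := Attach.isLocalRing_of_module_finite O C
  haveI : IsLocalHom (algebraMap O C) :=
    RingHom.IsIntegral.isLocalHom (algebraMap_isIntegral_iff.2 inferInstance) hinj
  haveI : IsNoetherianRing C := IsNoetherianRing.of_finite O C
  haveI : IsAdicComplete (maximalIdeal C) C := IsLocalRing.isAdicComplete_of_module_finite (𝒪 := O)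
  haveI : Finite (ResidueField C) :=
    IsLocalRing.ResidueField.finite_of_finite (R := O) inferInstance
  have hloc : ∀ c ∈ maximalIdeal O, algebraMap O C c ∈ maximalIdeal C := fun c hc =>
    algebraMap_mem_maximal hc
  rw [map_sub, hπ, sub_eq_zero, map_trace_two] at hcusp
  obtain ⟨u0, v0, x0, y, hu0, hv0, hx0, hy, hxy, hF0, hT0⟩ :=
    (isPointPair_of_placeRel P π hπ (hrel i0)).kindPoint_cusp hinj hloc D0.hc0 D0.hq D0.hh D0.hα
      D0.hαm D0.hζ D0.hne D0.hζ1 hcusp
  have hpt : ∀ i, ∃ u v x : C, u ∈ maximalIdeal C ∧ v ∈ maximalIdeal C ∧ x ∈ maximalIdeal C ∧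
      (i = i0 → x = x0) ∧
      (frobC P i).map π = frameConj u v (Ring.inverse (1 - u * v))
        (if i = i0 then QPlace.cuspPair (algebraMap O C) D0.α D0.s x0 y
          else (P i).kindPair (algebraMap O C) x (τ i)).frob ∧
      (tameC P i).map π = frameConj u v (Ring.inverse (1 - u * v))
        (if i = i0 then QPlace.cuspPair (algebraMap O C) D0.α D0.s x0 y
          else (P i).kindPair (algebraMap O C) x (τ i)).T := by
    intro i
    by_cases hi : i = i0
    · subst hi
      exact ⟨u0, v0, x0, hu0, hv0, hx0, fun _ => rfl, by rw [if_pos rfl]; exact hF0,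
        by rw [if_pos rfl]; exact hT0⟩
    · have hp := isPointPair_of_placeRel P π hπ (hrel i)
      have hc := hcond i hi
      have hv' := hτ i
      obtain ⟨u, v, x, hu, hv, hx, hF, hT⟩ :
          (P i).KindPoint (algebraMap O C) (τ i) ((frobC P i).map π) ((tameC P i).map π) := by
        revert hc hv'
        rcases τ i <;> intro hc hv'
        · exact hp.kindPoint_unr hc
        · obtain ⟨h1, h2⟩ := hc
          rw [map_sub, map_ofNat, sub_eq_zero, map_trace_two] at h1
          rw [map_sub, hπ, sub_eq_zero, map_trace_two] at h2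
          exact hp.kindPoint_stUp hinj h1 h2
        · obtain ⟨h1, h2⟩ := hc
          rw [map_sub, map_ofNat, sub_eq_zero, map_trace_two] at h1
          rw [map_add, hπ, add_eq_zero_iff_eq_neg, ← map_neg, map_trace_two] at h2
          exact hp.kindPoint_stDown hinj hloc hv' h1 h2
      exact ⟨u, v, x, hu, hv, hx, fun e => absurd e hi, by rw [if_neg hi]; exact hF,
        by rw [if_neg hi]; exact hT⟩
  choose u v x hu hv hx hx' hF hT using hpt
  refine cuspK_le_ker_of_kindPoint P i0 D0 τ hτ π hinj hπ hu hv hx hy ?_ (fun i => ?_) (fun i => ?_)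
  · rw [hx' i0 rfl]
    exact hxy
  · rw [hF i]
    by_cases hi : i = i0
    · rw [if_pos hi, if_pos hi, hx' i0 rfl]
    · rw [if_neg hi, if_neg hi]
  · rw [hT i]
    by_cases hi : i = i0
    · rw [if_pos hi, if_pos hi, hx' i0 rfl]
    · rw [if_neg hi, if_neg hi]

/-! ### Relations and parameters -/

theorem cuspK_placeRel (i : I) :
    PlaceRel P (Ideal.Quotient.mk (cuspK (S := S) P i0 D0 τ hτ)) i := by
  set J := modelIdeal (MvPowerSeries.X (Sum.inl (i0, 2)) : MvPowerSeries (SmoothVar I S) O) D0.c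
    D0.dvd_c with hJ
  haveI : J.IsPrime := isPrime_modelIdeal D0.hϖ (X_notMem_pIdeal D0.hϖ _) D0.c D0.dvd_c
  haveI : IsDomain (ModelRing O (SmoothVar I S) ⧸ J) := inferInstance
  set m := Ideal.Quotient.mk J
  set Φ := m.comp (cuspHom (S := S) P i0 D0 τ hτ) with hΦ
  have hmem : ∀ g, Φ g = 0 → Ideal.Quotient.mk (cuspK (S := S) P i0 D0 τ hτ) g = 0 := fun g hg =>
    Ideal.Quotient.eq_zero_iff_mem.2 (show cuspHom (S := S) P i0 D0 τ hτ g ∈ J from
      Ideal.Quotient.eq_zero_iff_mem.1 hg)
  have hκ : Φ.comp MvPowerSeries.C = m.comp cuspConst := RingHom.ext fun c => by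
    simp [hΦ, cuspHom_C]
  have hX : ∀ l, Φ (MvPowerSeries.X l) = fullVal P (m.comp cuspConst)
      (fun i => (m (cuspUV i).1, m (cuspUV i).2)) (fun i => (cuspDiag P i0 D0 τ i).map m)
      (fun t => m (PowerSeries.C (MvPowerSeries.X (Sum.inr t)))) l := by
    intro l
    rw [hΦ, RingHom.comp_apply, cuspHom_X]
    exact map_fullVal P m rfl isUnit_cuspUV (fun i => rfl) (fun i => rfl) (fun t => rfl) l
  obtain ⟨hF, hT⟩ := fullVal_frobC P Φ (fun c => RingHom.congr_fun hκ c) hX i
  have he : (1 - m (cuspUV (O := O) (S := S) i).1 * m (cuspUV i).2) *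
      Ring.inverse (1 - m (cuspUV (O := O) (S := S) i).1 * m (cuspUV i).2) = 1 := by
    refine Ring.mul_inverse_cancel _ ?_
    rw [← map_mul, ← map_one m, ← map_sub]
    exact (isUnit_cuspUV i).map m
  obtain ⟨r1, r2, r4⟩ : ((cuspDiag (S := S) P i0 D0 τ i).map m).frob.det =
        m (cuspConst ((P i).q : O)) ∧ ((cuspDiag (S := S) P i0 D0 τ i).map m).T.det = 1 ∧
      ((cuspDiag (S := S) P i0 D0 τ i).map m).frob * ((cuspDiag (S := S) P i0 D0 τ i).map m).T =
        ((cuspDiag (S := S) P i0 D0 τ i).map m).T ^ (P i).q *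
          ((cuspDiag (S := S) P i0 D0 τ i).map m).frob := by
    simp only [cuspDiag]
    by_cases hi : i = i0
    · subst hi
      rw [if_pos rfl, QPlace.map_cuspPair]
      have hxy : m (PowerSeries.C (MvPowerSeries.X (Sum.inl (i, 2)))) * m PowerSeries.X =
          (m.comp cuspConst) D0.c := by
        rw [← map_mul, mul_comm, RingHom.comp_apply, Ideal.Quotient.eq]
        exact X_mul_C_sub_mem D0.dvd_c
      have hne : (m.comp (cuspConst (I := I) (S := S))) (D0.ζ - D0.ζi) ≠ 0 := by
        intro e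
        have h0 : m (cuspConst D0.c) = 0 := by
          rw [CuspData.c, map_pow, map_mul, map_pow, map_mul,
            show m (cuspConst (D0.ζ - D0.ζi)) = 0 from e, zero_mul, zero_pow two_ne_zero]
        have h1 := Ideal.Quotient.eq_zero_iff_mem.1 h0
        exact const_notMem D0.hϖ _ D0.dvd_c D0.c_ne_zero D0.c_ne_zero h1
      obtain ⟨r1, r2, -, r4⟩ := cuspPair_rel (P i) (m.comp cuspConst) D0.hh D0.hα D0.hζ D0.hζq hne hxy
      exact ⟨r1, r2, r4⟩
    · rw [if_neg hi, smoothDiag, QPlace.map_kindPair _ _ _ _ _ (isUnit_wq_add_X P i),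
        QPlace.map_kindPair _ _ _ _ _ (isUnit_cuspConst_add P i)]
      obtain ⟨r1, r2, -, r4⟩ := kindPair_rel (P i)
        (m.comp ((PowerSeries.C (R := MvPowerSeries (SmoothVar I S) O)).comp MvPowerSeries.C))
        (m (PowerSeries.C (MvPowerSeries.X (Sum.inl (i, 2))))) (τ i)
        (by simpa using ((isUnit_wq_add_X (S := S) P i).map PowerSeries.C).map m)
      exact ⟨r1, r2, r4⟩
  refine ⟨hmem _ ?_, hmem _ ?_, fun a b => hmem _ ?_⟩
  · rw [map_sub, RingHom.map_det, RingHom.mapMatrix_apply, hF, frameConj_det he, sub_eq_zero, r1,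
      ← RingHom.comp_apply Φ, hκ]
    rfl
  · rw [map_sub, map_one, RingHom.map_det, RingHom.mapMatrix_apply, hT, frameConj_det he,
      sub_eq_zero]
    exact r2
  · have h : Φ.mapMatrix (frobC P i * tameC P i - tameC P i ^ (P i).q * frobC P i) = 0 := by
      rw [map_sub, map_mul, map_mul, map_pow, RingHom.mapMatrix_apply, RingHom.mapMatrix_apply, hF,
        hT, ← frameConj_pow he, ← frameConj_mul he, ← frameConj_mul he, sub_eq_zero]
      exact congrArg _ r4
    exact congrFun (congrFun h a) b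
where
  const_notMem {σ : Type} [Finite σ] {ϖ : O} (hϖ : Irreducible ϖ) (l : σ) {c e : O} (hc : ϖ ∣ c)
      (hc0 : c ≠ 0) (he : e ≠ 0) :
      (PowerSeries.C (MvPowerSeries.C e) : ModelRing O σ) ∉
        modelIdeal (MvPowerSeries.X l : MvPowerSeries σ O) c hc := by
    intro h
    obtain ⟨n, u, hu⟩ := IsDiscreteValuationRing.eq_unit_mul_pow_irreducible he hϖ
    haveI := isPrime_modelIdeal hϖ (X_notMem_pIdeal hϖ l) c hc
    have hp : (PowerSeries.C (MvPowerSeries.C ϖ) : ModelRing O σ) ∈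
        modelIdeal (MvPowerSeries.X l : MvPowerSeries σ O) c hc := by
      rw [hu, map_mul, map_mul, map_pow, map_pow] at h
      exact Ideal.IsPrime.mem_of_pow_mem inferInstance n
        ((Ideal.unit_mul_mem_iff_mem _ ((u.isUnit.map MvPowerSeries.C).map PowerSeries.C)).1 h)
    have h1 := (mem_modelIdeal_iff c hc).1 hp 2
    have hdvd := pow_dvd_cleared hϖ l hc hp 2
    classical
    rw [← map_pow] at hdvd
    obtain ⟨r, hr⟩ := hdvd
    have hcoef := congrArg (MvPowerSeries.coeff (Finsupp.single l 2)) hr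
    rw [MvPowerSeries.coeff_C_mul, Finset.sum_range_succ, Finset.sum_range_succ,
      Finset.sum_range_one] at hcoef
    simp [PowerSeries.coeff_C, MvPowerSeries.X_pow_eq, MvPowerSeries.coeff_monomial_mul] at hcoef
    refine hϖ.not_isUnit (IsUnit.of_mul_eq_one (MvPowerSeries.coeff (Finsupp.single l 2) r) ?_)
    refine mul_left_cancel₀ hϖ.ne_zero ?_
    rw [mul_one, ← mul_assoc, ← sq]
    exact hcoef.symm

theorem cuspK_tame_trace :
    (tameC P i0).trace - MvPowerSeries.C (D0.ζ + D0.ζi) ∈ cuspK (S := S) P i0 D0 τ hτ := by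
  obtain ⟨-, hT⟩ := fullVal_frobC P (cuspHom (S := S) P i0 D0 τ hτ) (cuspHom_C P i0 D0 τ hτ)
    (cuspHom_X P i0 D0 τ hτ) i0
  rw [cuspK, Ideal.mem_comap, map_sub, map_trace_two, hT,
    frameConj_trace (Ring.mul_inverse_cancel _ (isUnit_cuspUV i0)), cuspHom_C]
  convert zero_mem (modelIdeal (MvPowerSeries.X (Sum.inl (i0, 2)) :
    MvPowerSeries (SmoothVar I S) O) D0.c D0.dvd_c) using 1
  simp only [cuspDiag, if_pos, QPlace.cuspPair, Matrix.trace_fin_two, CuspData.s, Matrix.of_apply,
    Matrix.cons_val', Matrix.cons_val_zero, Matrix.cons_val_one, Matrix.cons_val_fin_one]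
  rw [← map_add, ← map_sub,
    show (D0.ζ + D0.ζi) * D0.hlf + (D0.ζ + D0.ζi) * D0.hlf - (D0.ζ + D0.ζi) = 0 by
      linear_combination (D0.ζ + D0.ζi) * D0.hh, map_zero]

theorem cuspK_trace_two_of_ne {i : I} (hi : i ≠ i0) :
    (tameC P i).trace - 2 ∈ cuspK (S := S) P i0 D0 τ hτ := by
  obtain ⟨-, hT⟩ := fullVal_frobC P (cuspHom (S := S) P i0 D0 τ hτ) (cuspHom_C P i0 D0 τ hτ)
    (cuspHom_X P i0 D0 τ hτ) i
  rw [cuspK, Ideal.mem_comap, map_sub, map_ofNat, map_trace_two, hT,
    frameConj_trace (Ring.mul_inverse_cancel _ (isUnit_cuspUV i))]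
  convert zero_mem (modelIdeal (MvPowerSeries.X (Sum.inl (i0, 2)) :
    MvPowerSeries (SmoothVar I S) O) D0.c D0.dvd_c) using 1
  rw [cuspDiag, if_neg hi, sub_eq_zero,
    show ((smoothDiag (S := S) P τ i).map PowerSeries.C).T =
      (smoothDiag (S := S) P τ i).T.map PowerSeries.C from rfl,
    ← map_trace_two]
  rw [smoothDiag, (kindPair_rel (P i) _ _ (τ i) (isUnit_wq_add_X P i)).2.2.1, map_ofNat]

/-- in a prime containing the component and the uniformiser the parameters cut out the closed point -/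
theorem X_mem_of_cuspK (Q : Ideal (MvPowerSeries (PlaceVar I S) O)) (hQ : Q.IsPrime)
    (hK : cuspK P i0 D0 τ hτ ≤ Q) (hϖQ : MvPowerSeries.C D0.ϖ ∈ Q)
    (hpar : ∀ i r, placeParam i r ∈ Q) (hS : ∀ t : S, MvPowerSeries.X (Sum.inr t) ∈ Q) :
    ∀ l, MvPowerSeries.X l ∈ Q := by
  refine X_mem_of_placeParam P D0.hϖ Q hQ hϖQ (fun i => ?_) (fun i => ?_) hpar hS
  · obtain ⟨h1, h2, h3⟩ := cuspK_placeRel (S := S) P i0 D0 τ hτ i
    exact ⟨Ideal.Quotient.eq_zero_iff_mem.2 (hK (Ideal.Quotient.eq_zero_iff_mem.1 h1)),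
      Ideal.Quotient.eq_zero_iff_mem.2 (hK (Ideal.Quotient.eq_zero_iff_mem.1 h2)),
      fun a b => Ideal.Quotient.eq_zero_iff_mem.2 (hK (Ideal.Quotient.eq_zero_iff_mem.1 (h3 a b)))⟩
  · by_cases hi : i = i0
    · subst hi
      have h1 := hK (cuspK_tame_trace (S := S) P i D0 τ hτ)
      have h2 : MvPowerSeries.C (D0.ζ + D0.ζi - 2) ∈ Q := by
        have hm : D0.ζ + D0.ζi - 2 ∈ maximalIdeal O := by
          convert add_mem D0.hζ1 D0.ζi_mem using 1
          ring
        rw [(IsDiscreteValuationRing.irreducible_iff_uniformizer D0.ϖ).1 D0.hϖ,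
          Ideal.mem_span_singleton] at hm
        obtain ⟨e, he⟩ := hm
        rw [he, map_mul]
        exact Ideal.mul_mem_right _ _ hϖQ
      convert add_mem h1 h2 using 1
      rw [map_sub, map_ofNat]
      ring
    · exact hK (cuspK_trace_two_of_ne P i0 D0 τ hτ hi)

end Cusp

end FLTAgent.MLT
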