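import Fermat.Agent.MLT.LocalRingsPlace

/-!
Area MLT, local rings at a place `q ≢ 1`: the points of the three smooth kinds and of the cuspidal
type, and the vanishing of the coordinates on the special fibre.
-/

set_option autoImplicit false
set_option linter.style.haveILetI false
set_option linter.unusedSectionVars false

noncomputable section

namespace FLTAgent.MLT

open IsLocalRing Matrix

namespace QPlace

variable {O : Type} [CommRing O] {P : QPlace O} {E : Type} [CommRing E] [IsDomain E]
  [IsLocalRing E] [IsAdicComplete (maximalIdeal E) E] {η : O →+* E}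
  {F S : Matrix (Fin 2) (Fin 2) E}

/-- a point of a kind, in coordinates -/
def KindPoint (P : QPlace O) (η : O →+* E) (τ : Kind) (F S : Matrix (Fin 2) (Fin 2) E) : Prop :=
  ∃ u v x : E, u ∈ maximalIdeal E ∧ v ∈ maximalIdeal E ∧ x ∈ maximalIdeal E ∧
    F = frameConj u v (Ring.inverse (1 - u * v)) (P.kindPair η x τ).frob ∧
    S = frameConj u v (Ring.inverse (1 - u * v)) (P.kindPair η x τ).T

theorem eta_w_sq (P : QPlace O) (η : O →+* E) : η P.w * η P.w = 1 := by
  rw [← map_mul, P.hw, map_one]

theorem two_ne_zero' (P : QPlace O) (η : O →+* E) : (2 : E) ≠ 0 := by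
  have := (P.htwo.map η).ne_zero
  rwa [map_ofNat] at this

theorem q_ne_one (P : QPlace O) (η : O →+* E) : (P.q : E) ≠ 1 := fun h => by
  have := (P.hq1.map η).ne_zero
  rw [map_sub, map_natCast, map_one, h, sub_self] at this
  exact this rfl

theorem sq_q_ne_one (P : QPlace O) (hinj : Function.Injective η) : (P.q : E) ^ 2 ≠ 1 := fun h =>
  P.hq2 (hinj (by rw [map_pow, map_natCast, map_one, h]))

theorem ne_zero_of_sub_mem {y : E} {c : O} (hc : IsUnit c) (h : y - η c ∈ maximalIdeal E) :
    y ≠ 0 := (isUnit_of_sub_mem (hc.map η) h).ne_zero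

/-- unramified points -/
theorem IsPointPair.kindPoint_unr (h : P.IsPointPair η F S) (hS : S = 1) :
    P.KindPoint η .unr F S := by
  obtain ⟨u, v, ⟨a, d, T⟩, hu, hv, hF, hS', ha, -, -, had, -, -, -, -⟩ := h.exists_diag
  have he := inv_spec (v := v) hu
  have hT : T = 1 := frameConj_inj he (by rw [← hS', hS, frameConj_one he])
  have hA : IsUnit a := isUnit_of_sub_mem (P.isUnit_wq.map η) ha
  refine ⟨u, v, a - η (P.w * P.q), hu, hv, ha, ?_, ?_⟩
  · rw [hF]
    congr 1
    have hd : d = η (P.q : O) * Ring.inverse a := by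
      rw [← had, mul_comm a, mul_assoc, Ring.mul_inverse_cancel _ hA, mul_one]
    simp [DiagPair.frob, kindPair, hd]
  · rw [hS', hT]
    rfl

/-- Steinberg points with the sign `w` -/
theorem IsPointPair.kindPoint_stUp (h : P.IsPointPair η F S) (hinj : Function.Injective η)
    (hS : S.trace = 2) (hF : F.trace = η (P.w * (1 + (P.q : O)))) :
    P.KindPoint η .stUp F S := by
  obtain ⟨u, v, ⟨a, d, T⟩, hu, hv, hF', hS', ha, hd, hTm, had, htr, hdT, htT, hrel⟩ := h.exists_diag
  simp only at ha hd hTm had htr hdT htT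
  rw [hF, map_mul, map_add, map_one, map_natCast] at htr
  rw [map_natCast] at had
  have hw := eta_w_sq P η
  have h0 : (a - η (P.w * P.q)) * (a - η P.w) = 0 := by
    rw [map_mul, map_natCast]
    linear_combination a * htr - had + (P.q : E) * hw
  have hne : a - η P.w ≠ 0 := by
    refine ne_zero_of_sub_mem (η := η) (c := P.w * ((P.q : O) - 1))
      ((IsUnit.of_mul_eq_one _ P.hw).mul P.hq1) ?_
    convert ha using 1
    simp only [map_mul, map_sub, map_one, map_natCast]
    ring
  have hA : a = η (P.w * P.q) := sub_eq_zero.1 ((mul_eq_zero.1 h0).resolve_right hne)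
  have hD : d = η P.w := by
    rw [hA, map_mul, map_natCast] at htr
    linear_combination htr
  obtain ⟨h00, h11, -, -, h10⟩ := diag_unipotent hdT (htT.trans hS) (two_ne_zero' P η)
    (q_ne_one P η) (ne_zero_of_sub_mem P.isUnit_wq ha)
    (ne_zero_of_sub_mem (IsUnit.of_mul_eq_one _ P.hw) hd) hrel
  have hT10 : T 1 0 = 0 := by
    refine (mul_eq_zero.1 h10).resolve_right fun e => ?_
    rw [hD, hA, map_mul, map_natCast] at e
    refine sq_q_ne_one P hinj ?_
    linear_combination -(η P.w) * e - ((P.q : E) ^ 2 - 1) * hw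
  refine ⟨u, v, T 0 1 - η P.c0, hu, hv, by simpa [baseT, -mem_maximalIdeal] using hTm 0 1, ?_, ?_⟩
  · rw [hF']
    simp [DiagPair.frob, kindPair, hA, hD]
  · rw [hS']
    congr 1
    ext i j
    fin_cases i <;> fin_cases j <;> simp [kindPair, h00, h11, hT10]

/-- Steinberg points with the sign `-w` -/
theorem IsPointPair.kindPoint_stDown [IsLocalRing O] (h : P.IsPointPair η F S)
    (hinj : Function.Injective η) (hloc : ∀ c ∈ maximalIdeal O, η c ∈ maximalIdeal E)
    (hτ : Kind.stDown.Valid P)
    (hS : S.trace = 2) (hF : F.trace = η (-(P.w * (1 + (P.q : O))))) :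
    P.KindPoint η .stDown F S := by
  obtain ⟨u, v, ⟨a, d, T⟩, hu, hv, hF', hS', ha, hd, hTm, had, htr, hdT, htT, hrel⟩ := h.exists_diag
  simp only at ha hd hTm had htr hdT htT
  rw [hF, map_neg, map_mul, map_add, map_one, map_natCast] at htr
  rw [map_natCast] at had
  have hw := eta_w_sq P η
  have h0 : (a + η P.w) * (a + η (P.w * P.q)) = 0 := by
    rw [map_mul, map_natCast]
    linear_combination a * htr - had + (P.q : E) * hw
  have hne : a + η (P.w * P.q) ≠ 0 := by
    refine ne_zero_of_sub_mem (η := η) (c := 2 * (P.w * P.q)) (P.htwo.mul P.isUnit_wq) ?_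
    convert ha using 1
    simp only [map_mul, map_natCast, map_ofNat]
    ring
  have hA : a = -η P.w := eq_neg_of_add_eq_zero_left ((mul_eq_zero.1 h0).resolve_right hne)
  have hD : d = -η (P.w * P.q) := by
    rw [hA] at htr
    rw [map_mul, map_natCast]
    linear_combination htr
  obtain ⟨h00, h11, -, h01, -⟩ := diag_unipotent hdT (htT.trans hS) (two_ne_zero' P η)
    (q_ne_one P η) (ne_zero_of_sub_mem P.isUnit_wq ha)
    (ne_zero_of_sub_mem (IsUnit.of_mul_eq_one _ P.hw) hd) hrel
  have hT01 : T 0 1 = 0 := by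
    refine (mul_eq_zero.1 h01).resolve_right fun e => ?_
    rw [hD, hA, map_mul, map_natCast] at e
    refine sq_q_ne_one P hinj ?_
    linear_combination η P.w * e - ((P.q : E) ^ 2 - 1) * hw
  refine ⟨u, v, T 1 0, hu, hv, by simpa [baseT, -mem_maximalIdeal] using hTm 1 0, ?_, ?_⟩
  · rw [hF']
    simp [DiagPair.frob, kindPair, hA, hD]
  · rw [hS']
    congr 1
    ext i j
    fin_cases i <;> fin_cases j <;> simp [kindPair, h00, h11, hT01]

/-- **classification** of the points with unipotent tame generator -/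
theorem IsPointPair.cases_of_trace_two [IsLocalRing O] (h : P.IsPointPair η F S)
    (hloc : ∀ c : O, η c ∈ maximalIdeal E → c ∈ maximalIdeal O) (hS : S.trace = 2) :
    S = 1 ∨ F.trace = η (P.w * (1 + (P.q : O))) ∨
      ((P.q : O) + 1 ∈ maximalIdeal O ∧ F.trace = η (-(P.w * (1 + (P.q : O))))) := by
  obtain ⟨u, v, ⟨a, d, T⟩, hu, hv, -, hS', ha, hd, -, had, htr, hdT, htT, hrel⟩ := h.exists_diag
  simp only at ha hd had htr hdT htT hS'
  rw [map_natCast] at had
  obtain ⟨h00, h11, h0110, h01, h10⟩ := diag_unipotent hdT (htT.trans hS) (two_ne_zero' P η)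
    (q_ne_one P η) (ne_zero_of_sub_mem P.isUnit_wq ha)
    (ne_zero_of_sub_mem (IsUnit.of_mul_eq_one _ P.hw) hd) hrel
  have hw := eta_w_sq P η
  have hq0 : (P.q : E) ≠ 0 := by
    have := (P.hqu.map η).ne_zero
    rwa [map_natCast] at this
  rw [← htr]
  by_cases hb : T 0 1 = 0
  · by_cases hc : T 1 0 = 0
    · refine Or.inl ?_
      rw [hS', ← frameConj_one (inv_spec (v := v) hu)]
      congr 1
      ext i j
      fin_cases i <;> fin_cases j <;> simp [h00, h11, hb, hc]
    · have e := (mul_eq_zero.1 h10).resolve_left hc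
      have ha2 : (a - η P.w) * (a + η P.w) = 0 := by
        refine (mul_eq_zero.1 (show (P.q : E) * ((a - η P.w) * (a + η P.w)) = 0 from
          ?_)).resolve_left hq0
        linear_combination -a * e + had - (P.q : E) * hw
      have hne : a - η P.w ≠ 0 := by
        refine ne_zero_of_sub_mem (η := η) (c := P.w * ((P.q : O) - 1))
          ((IsUnit.of_mul_eq_one _ P.hw).mul P.hq1) ?_
        convert ha using 1
        simp only [map_mul, map_sub, map_one, map_natCast]
        ring
      have hA := eq_neg_of_add_eq_zero_left ((mul_eq_zero.1 ha2).resolve_left hne)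
      refine Or.inr (Or.inr ⟨?_, ?_⟩)
      · refine (Ideal.mul_unit_mem_iff_mem _ (IsUnit.of_mul_eq_one _ P.hw)).1 (hloc _ ?_)
        convert neg_mem ha using 1
        rw [hA]
        simp only [map_mul, map_add, map_one, map_natCast]
        ring
      · simp only [map_neg, map_mul, map_add, map_one, map_natCast]
        linear_combination e + (1 + (P.q : E)) * hA
  · have e := (mul_eq_zero.1 h01).resolve_left hb
    have hd2 : (d - η P.w) * (d + η P.w) = 0 := by
      refine (mul_eq_zero.1 (show (P.q : E) * ((d - η P.w) * (d + η P.w)) = 0 from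
        ?_)).resolve_left hq0
      linear_combination -d * e + had - (P.q : E) * hw
    have hne : d + η P.w ≠ 0 := by
      refine ne_zero_of_sub_mem (η := η) (c := 2 * P.w) (P.htwo.mul (IsUnit.of_mul_eq_one _ P.hw)) ?_
      convert hd using 1
      simp only [map_mul, map_ofNat]
      ring
    have hD := sub_eq_zero.1 ((mul_eq_zero.1 hd2).resolve_right hne)
    refine Or.inr (Or.inl ?_)
    simp only [map_mul, map_add, map_one, map_natCast]
    linear_combination e + (1 + (P.q : E)) * hD

/-- a residual upper entry of the tame generator forces the sign `w` -/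
theorem IsPointPair.trace_of_entry (h : P.IsPointPair η F S) (hinj : Function.Injective η)
    [IsLocalRing O] (hloc : ∀ c ∈ maximalIdeal O, η c ∈ maximalIdeal E) (hS : S.trace = 2)
    (hc0 : ¬ η P.c0 ∈ maximalIdeal E) : F.trace = η (P.w * (1 + (P.q : O))) := by
  obtain ⟨u, v, ⟨a, d, T⟩, hu, hv, -, -, ha, hd, hTm, had, htr, hdT, htT, hrel⟩ := h.exists_diag
  simp only at ha hd hTm had htr hdT htT
  rw [map_natCast] at had
  obtain ⟨-, -, -, h01, -⟩ := diag_unipotent hdT (htT.trans hS) (two_ne_zero' P η)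
    (q_ne_one P η) (ne_zero_of_sub_mem P.isUnit_wq ha)
    (ne_zero_of_sub_mem (IsUnit.of_mul_eq_one _ P.hw) hd) hrel
  have hw := eta_w_sq P η
  have hb : T 0 1 ≠ 0 := fun e => hc0 (by
    have := neg_mem (hTm 0 1)
    simpa [baseT, e, -mem_maximalIdeal] using this)
  have e := (mul_eq_zero.1 h01).resolve_left hb
  have hq0 : (P.q : E) ≠ 0 := by
    have := (P.hqu.map η).ne_zero
    rwa [map_natCast] at this
  have hd2 : (d - η P.w) * (d + η P.w) = 0 := by
    refine (mul_eq_zero.1 (show (P.q : E) * ((d - η P.w) * (d + η P.w)) = 0 from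
      ?_)).resolve_left hq0
    linear_combination -d * e + had - (P.q : E) * hw
  have hne : d + η P.w ≠ 0 := by
    refine ne_zero_of_sub_mem (η := η) (c := 2 * P.w) (P.htwo.mul (IsUnit.of_mul_eq_one _ P.hw)) ?_
    convert hd using 1
    simp only [map_mul, map_ofNat]
    ring
  have hD := sub_eq_zero.1 ((mul_eq_zero.1 hd2).resolve_right hne)
  rw [← htr]
  simp only [map_mul, map_add, map_one, map_natCast]
  linear_combination e + (1 + (P.q : E)) * hD

/-- the diagonal data of the cuspidal type -/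
def cuspPair {R : Type} [CommRing R] (κ : O →+* R) (α s : O) (x y : R) : DiagPair R :=
  ⟨κ α, -κ α, !![κ s, x; y, κ s]⟩

/-- cuspidal points -/
theorem IsPointPair.kindPoint_cusp [IsLocalRing O] (h : P.IsPointPair η F S)
    (hinj : Function.Injective η) (hloc : ∀ c ∈ maximalIdeal O, η c ∈ maximalIdeal E)
    (hc0 : P.c0 ∈ maximalIdeal O) (hq : (P.q : O) + 1 ∈ maximalIdeal O) {α ζ ζi hlf : O}
    (hh : 2 * hlf = 1) (hα : α * α = -(P.q : O)) (hαm : α - P.w * P.q ∈ maximalIdeal O)
    (hζ : ζ * ζi = 1) (hne : ζ ≠ ζi) (hζ1 : ζ - 1 ∈ maximalIdeal O)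
    (hS : S.trace = η (ζ + ζi)) :
    ∃ u v x y : E, u ∈ maximalIdeal E ∧ v ∈ maximalIdeal E ∧ x ∈ maximalIdeal E ∧
      y ∈ maximalIdeal E ∧ x * y = η (((ζ - ζi) * hlf) ^ 2) ∧
      F = frameConj u v (Ring.inverse (1 - u * v)) (cuspPair η α ((ζ + ζi) * hlf) x y).frob ∧
      S = frameConj u v (Ring.inverse (1 - u * v)) (cuspPair η α ((ζ + ζi) * hlf) x y).T := by
  obtain ⟨u, v, ⟨a, d, T⟩, hu, hv, hF', hS', ha, hd, hTm, had, -, hdT, htT, hrel⟩ := h.exists_diag
  simp only at ha hd hTm had hdT htT
  rw [map_natCast] at had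
  have ht : T.trace = η (ζ + ζi) := htT.trans hS
  have hpi : ((ζ + ζi) * hlf) ^ 2 - 1 = ((ζ - ζi) * hlf) ^ 2 := by
    linear_combination 4 * hlf ^ 2 * hζ + (2 * hlf + 1) * hh
  have hs : T.trace * η hlf = η ((ζ + ζi) * hlf) := by rw [ht, map_mul]
  have hne1 : (T.trace * η hlf) ^ 2 ≠ 1 := by
    intro e
    rw [hs, ← map_pow, ← map_one η] at e
    have h1 := hinj e
    have h3 : ((ζ - ζi) * hlf) ^ 2 * 4 = 0 := by linear_combination 4 * h1 - 4 * hpi
    have h4 : (ζ - ζi) ^ 2 = 0 := by
      linear_combination h3 - (ζ - ζi) ^ 2 * (2 * hlf + 1) * hh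
    haveI : IsReduced O := isReduced_of_injective η hinj
    exact hne (sub_eq_zero.1 (sq_eq_zero_iff.1 h4))
  obtain ⟨U, V, hc, hU, -⟩ := exists_pow_comb hdT P.q
  have htm : T.trace - 2 ∈ maximalIdeal E := by
    rw [ht, show η (ζ + ζi) - 2 = η ((ζ - 1) + (ζi - 1)) by
      rw [← map_ofNat η, ← map_sub]; congr 1; ring]
    refine hloc _ (add_mem hζ1 ?_)
    rw [show ζi - 1 = -(ζi * (ζ - 1)) by linear_combination hζ]
    exact neg_mem (Ideal.mul_mem_left _ _ hζ1)
  have hUq : U - η (P.q : O) ∈ maximalIdeal E := by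
    rw [map_natCast]
    exact Ideal.mem_of_dvd _ hU htm
  have hU1 : U ≠ 1 := by
    refine sub_ne_zero.1 (ne_zero_of_sub_mem (η := η) P.hq1 ?_)
    convert hUq using 1
    simp only [map_sub, map_one]
    ring
  obtain ⟨h00, h11, hp, hA⟩ := diag_semisimple (h := η hlf)
    (by rw [← map_ofNat η, ← map_mul, hh, map_one]) hc hdT hne1 hU1
    (ne_zero_of_sub_mem P.isUnit_wq ha) (ne_zero_of_sub_mem (IsUnit.of_mul_eq_one _ P.hw) hd) hrel
  have hqE : η α * η α = -(P.q : E) := by rw [← map_mul, hα, map_neg, map_natCast]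
  have h2 : (a - η α) * (a + η α) = 0 := by
    linear_combination -had + a * hA - hqE
  have hne2 : a + η α ≠ 0 := by
    refine ne_zero_of_sub_mem (η := η) (c := 2 * (P.w * P.q)) (P.htwo.mul P.isUnit_wq) ?_
    convert add_mem ha (hloc _ hαm) using 1
    simp only [map_mul, map_natCast, map_ofNat, map_sub]
    ring
  have hA' : a = η α := sub_eq_zero.1 ((mul_eq_zero.1 h2).resolve_right hne2)
  have hD' : d = -η α := by linear_combination hA - hA'
  have hx : T 0 1 ∈ maximalIdeal E := by
    have := add_mem (hTm 0 1) (hloc _ hc0)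
    simpa [baseT, -mem_maximalIdeal] using this
  refine ⟨u, v, T 0 1, T 1 0, hu, hv, hx, by simpa [baseT, -mem_maximalIdeal] using hTm 1 0, ?_,
    ?_, ?_⟩
  · rw [hp, hs, ← map_pow, ← map_one η, ← map_sub, hpi]
  · rw [hF']
    simp [DiagPair.frob, cuspPair, hA', hD']
  · rw [hS']
    congr 1
    ext i j
    fin_cases i <;> fin_cases j <;> simp [cuspPair, h00, h11, ht, map_mul]

/-- on the special fibre the three parameters cut out the closed point -/
theorem coords_eq_zero {O R : Type} [CommRing O] [IsLocalRing O] (P : QPlace O) [CommRing R]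
    [IsDomain R] {η : O →+* R} (hη : ∀ c ∈ maximalIdeal O, η c = 0)
    {Y X : Matrix (Fin 2) (Fin 2) R}
    (hunit : ∀ (c : O), IsUnit c → ∀ i j, Y i j + η c ≠ 0 ∧ X i j + η c ≠ 0)
    (hdF : (P.baseF η + Y).det = η (P.q : O)) (hdS : (P.baseT η + X).det = 1)
    (hrel : (P.baseF η + Y) * (P.baseT η + X) = (P.baseT η + X) ^ P.q * (P.baseF η + Y))
    (htr : (P.baseT η + X).trace = 2) (p0 : Y 0 1 = 0) (p1 : Y 1 0 = 0)
    (p2 : Y 0 0 - Y 1 1 + X 0 1 + X 1 0 = 0) : X = 0 ∧ Y = 0 := by
  have hw : η P.w * η P.w = 1 := by rw [← map_mul, P.hw, map_one]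
  have hwu : IsUnit P.w := IsUnit.of_mul_eq_one _ P.hw
  obtain ⟨y, hy⟩ : ∃ y, Y 0 0 = y := ⟨_, rfl⟩
  obtain ⟨z, hz⟩ : ∃ z, Y 1 1 = z := ⟨_, rfl⟩
  obtain ⟨x, hx⟩ : ∃ x, X 0 1 = x := ⟨_, rfl⟩
  obtain ⟨x', hx'⟩ : ∃ x', X 1 0 = x' := ⟨_, rfl⟩
  rw [hy, hz, hx, hx'] at p2
  set a := η (P.w * P.q) + y with ha_def
  set d := η P.w + z with hd_def
  have hF : P.baseF η + Y = !![a, 0; 0, d] := by
    ext i j
    fin_cases i <;> fin_cases j <;> simp [baseF, ha_def, hd_def, hy, hz, p0, p1]
  rw [hF] at hdF hrel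
  simp [Matrix.det_fin_two] at hdF
  have ha0 : a ≠ 0 := by
    have := (hunit _ P.isUnit_wq 0 0).1
    rwa [hy, add_comm] at this
  have hd0 : d ≠ 0 := by
    have := (hunit _ hwu 1 1).1
    rwa [hz, add_comm] at this
  have h2 : (2 : R) ≠ 0 := by
    have := (P.htwo.map η).ne_zero
    rwa [map_ofNat] at this
  have hq1 : (P.q : R) ≠ 1 := fun h => by
    have := (P.hq1.map η).ne_zero
    rw [map_sub, map_natCast, map_one, h, sub_self] at this
    exact this rfl
  have hq0 : (P.q : R) ≠ 0 := by
    have := (P.hqu.map η).ne_zero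
    rwa [map_natCast] at this
  have hb : η (P.w * P.q) * η P.w = (P.q : R) := by
    rw [map_mul, map_natCast]
    linear_combination (P.q : R) * hw
  obtain ⟨h00, h11, -, h01, h10⟩ := diag_unipotent hdS htr h2 hq1 ha0 hd0 hrel
  simp [baseT, hx, hx'] at h00 h11 h01 h10
  -- the dichotomy on `q + 1`
  have hsum : IsUnit (P.w * ((P.q : O) + 1)) ∨ η (P.w * ((P.q : O) + 1)) = 0 := by
    by_cases hu : IsUnit ((P.q : O) + 1)
    · exact Or.inl (hwu.mul hu)
    · exact Or.inr (hη _ (Ideal.mul_mem_left _ _ ((IsLocalRing.mem_maximalIdeal _).2 hu)))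
  have hc0 : x + η P.c0 = 0 → x = 0 := by
    intro e
    by_cases hu : IsUnit P.c0
    · exact absurd (hx ▸ e) (hunit _ hu 0 1).2
    · rw [hη _ ((IsLocalRing.mem_maximalIdeal _).2 hu), add_zero] at e
      exact e
  have hx0 : x' = 0 := by
    by_contra hne
    have e := h10.resolve_left hne
    have hT01 : x + η P.c0 = 0 := by
      have h := hdS
      simp [Matrix.det_fin_two, baseT, hx, hx', h00, h11] at h
      rcases h with h | h
      · linear_combination h
      · exact absurd h hne
    have hxz := hc0 hT01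
    have ha2 : (a - η P.w) * (a + η P.w) = 0 := by
      refine (mul_eq_zero.1 (show (P.q : R) * ((a - η P.w) * (a + η P.w)) = 0 from
        ?_)).resolve_left hq0
      linear_combination -a * e + hdF - (P.q : R) * hw
    rcases mul_eq_zero.1 ha2 with hA | hA
    · refine (hunit (P.w * ((P.q : O) - 1)) (hwu.mul P.hq1) 0 0).1 ?_
      rw [hy]
      simp only [ha_def, map_mul, map_sub, map_one, map_natCast] at hA ⊢
      linear_combination hA
    · have hA' : y + η (P.w * ((P.q : O) + 1)) = 0 := by
        simp only [ha_def, map_mul, map_add, map_one, map_natCast] at hA ⊢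
        linear_combination hA
      rcases hsum with hu | h0
      · exact (hunit _ hu 0 0).1 (hy ▸ hA')
      · rw [h0, add_zero] at hA'
        have hz0 : z = 0 := by
          have hq1' : η P.w * (P.q : R) + η P.w = 0 := by
            simpa [mul_add, map_mul] using h0
          simp only [ha_def, hd_def, map_mul, map_natCast] at e
          rw [hA'] at e
          linear_combination e + ((P.q : R) - 1) * hq1'
        exact hne (by linear_combination p2 - hA' + hz0 - hxz)
  subst hx0
  have hyz : y = 0 ∧ z = 0 ∧ x = 0 := by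
    by_cases hT : x + η P.c0 = 0
    · have hxz := hc0 hT
      have hzy : z = y := by linear_combination -p2 + hxz
      have hy2 : y * (y + η (P.w * ((P.q : O) + 1))) = 0 := by
        rw [ha_def, hd_def, hzy] at hdF
        have e : η (P.w * ((P.q : O) + 1)) = η (P.w * P.q) + η P.w := by
          rw [← map_add]; congr 1; ring
        rw [e]
        linear_combination hdF - hb
      have hy0 : y = 0 := by
        rcases hsum with hu | h0
        · exact (mul_eq_zero.1 hy2).resolve_right fun e => (hunit _ hu 0 0).1 (hy ▸ e)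
        · rw [h0, add_zero] at hy2
          exact mul_self_eq_zero.1 hy2
      exact ⟨hy0, hzy.trans hy0, hxz⟩
    · have e := h01.resolve_left (by rwa [add_comm])
      have hd2 : (d - η P.w) * (d + η P.w) = 0 := by
        refine (mul_eq_zero.1 (show (P.q : R) * ((d - η P.w) * (d + η P.w)) = 0 from
          ?_)).resolve_left hq0
        linear_combination -d * e + hdF - (P.q : R) * hw
      rcases mul_eq_zero.1 hd2 with hD | hD
      · have hz0 : z = 0 := by
          simp only [hd_def] at hD
          linear_combination hD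
        have hy0 : y = 0 := by
          simp only [ha_def, hd_def, hz0, map_mul, map_natCast] at e
          linear_combination e
        exact ⟨hy0, hz0, by linear_combination p2 - hy0 + hz0⟩
      · refine absurd ?_ (hunit (2 * P.w) (P.htwo.mul hwu) 1 1).1
        rw [hz]
        simp only [hd_def] at hD
        simp only [map_mul, map_ofNat]
        linear_combination hD
  obtain ⟨rfl, rfl, rfl⟩ := hyz
  constructor <;>
  · refine Matrix.ext fun i j => ?_
    fin_cases i <;> fin_cases j <;> simp [hy, hz, hx, hx', p0, p1, h00, h11]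

end QPlace

end FLTAgent.MLT
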