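import Fermat.Agent.MLT.LocalRingsPoints
import Fermat.Agent.LL.ChartPoint

/-!
Area MLT, local rings at places `q ≢ 1`: the smooth components of a finite product of places, their
points, and their coordinates.
-/

set_option autoImplicit false
set_option linter.style.haveILetI false
set_option linter.unusedSectionVars false

noncomputable section

namespace FLTAgent.MLT

open IsLocalRing Matrix FLTAgent.LL

variable {O : Type} [CommRing O] {I S : Type}

/-- the deviations at a place -/
def devP (i : I) (s : Fin 2) : Matrix (Fin 2) (Fin 2) (MvPowerSeries (PlaceVar I S) O) :=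
  fun a b => MvPowerSeries.X (Sum.inl (i, s, a, b))

/-- Frobenius at a place -/
def frobC (P : I → QPlace O) (i : I) : Matrix (Fin 2) (Fin 2) (MvPowerSeries (PlaceVar I S) O) :=
  (P i).baseF (MvPowerSeries.C) + devP i 0

/-- the tame generator at a place -/
def tameC (P : I → QPlace O) (i : I) : Matrix (Fin 2) (Fin 2) (MvPowerSeries (PlaceVar I S) O) :=
  (P i).baseT (MvPowerSeries.C) + devP i 1

/-- the three parameters at a place -/
def placeParam (i : I) : Fin 3 → MvPowerSeries (PlaceVar I S) O :=
  ![devP i 0 0 1, devP i 0 1 0,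
    devP i 0 0 0 - devP i 0 1 1 + devP i 1 0 1 + devP i 1 1 0]

/-- the coordinates as functions of the frames and the diagonal data at each place -/
def fullVal (P : I → QPlace O) {R : Type} [CommRing R] (κ : O →+* R) (uv : I → R × R)
    (D : I → DiagPair R) (z : S → R) : PlaceVar I S → R
  | Sum.inl (i, p) => (P i).placeVal κ (uv i).1 (uv i).2 (D i) p
  | Sum.inr t => z t

theorem placeParam_constantCoeff (i : I) (r : Fin 3) :
    MvPowerSeries.constantCoeff (placeParam (O := O) (S := S) i r) = 0 := by
  fin_cases r <;> simp [placeParam, devP]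

/-- the relations at a place, read through a homomorphism -/
def PlaceRel (P : I → QPlace O) {C : Type} [CommRing C] (π : MvPowerSeries (PlaceVar I S) O →+* C)
    (i : I) : Prop :=
  π ((frobC P i).det - MvPowerSeries.C ((P i).q : O)) = 0 ∧ π ((tameC P i).det - 1) = 0 ∧
    ∀ a b, π ((frobC P i * tameC P i - tameC P i ^ (P i).q * frobC P i :
      Matrix (Fin 2) (Fin 2) (MvPowerSeries (PlaceVar I S) O)) a b) = 0

/-- the condition of a kind at a place, read through a homomorphism -/
def KindCond (P : I → QPlace O) {C : Type} [CommRing C] (π : MvPowerSeries (PlaceVar I S) O →+* C)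
    (i : I) : Kind → Prop
  | .unr => (tameC P i).map π = 1
  | .stUp => π ((tameC P i).trace - 2) = 0 ∧
      π ((frobC P i).trace - MvPowerSeries.C ((P i).w * (1 + ((P i).q : O)))) = 0
  | .stDown => π ((tameC P i).trace - 2) = 0 ∧
      π ((frobC P i).trace + MvPowerSeries.C ((P i).w * (1 + ((P i).q : O)))) = 0

theorem map_frobC {R : Type} [CommRing R] (P : I → QPlace O)
    (π : MvPowerSeries (PlaceVar I S) O →+* R) (i : I) (a b : Fin 2) :
    π (frobC P i a b) = (P i).baseF (π.comp MvPowerSeries.C) a b +
      π (MvPowerSeries.X (Sum.inl (i, 0, a, b))) := by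
  rw [← QPlace.map_baseF]
  simp [frobC, devP]

theorem map_tameC {R : Type} [CommRing R] (P : I → QPlace O)
    (π : MvPowerSeries (PlaceVar I S) O →+* R) (i : I) (a b : Fin 2) :
    π (tameC P i a b) = (P i).baseT (π.comp MvPowerSeries.C) a b +
      π (MvPowerSeries.X (Sum.inl (i, 1, a, b))) := by
  rw [← QPlace.map_baseT]
  simp [tameC, devP]

theorem fullVal_frobC {R : Type} [CommRing R] (P : I → QPlace O)
    (π : MvPowerSeries (PlaceVar I S) O →+* R) {κ : O →+* R} (hC : ∀ c, π (MvPowerSeries.C c) = κ c)
    {uv : I → R × R} {D : I → DiagPair R} {z : S → R}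
    (hX : ∀ l, π (MvPowerSeries.X l) = fullVal P κ uv D z l) (i : I) :
    (frobC P i).map π =
      frameConj (uv i).1 (uv i).2 (Ring.inverse (1 - (uv i).1 * (uv i).2)) (D i).frob ∧
    (tameC P i).map π =
      frameConj (uv i).1 (uv i).2 (Ring.inverse (1 - (uv i).1 * (uv i).2)) (D i).T := by
  have hκ : π.comp MvPowerSeries.C = κ := RingHom.ext hC
  constructor
  · ext a b
    rw [Matrix.map_apply, map_frobC, hκ, hX]
    simp [fullVal, QPlace.placeVal]
  · ext a b
    rw [Matrix.map_apply, map_tameC, hκ, hX]
    simp [fullVal, QPlace.placeVal]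

section Model

variable [IsDomain O] [IsDiscreteValuationRing O] [IsAdicComplete (maximalIdeal O) O]
  [Finite (ResidueField O)]
  [Finite I] [Finite S] (P : I → QPlace O) (τ : I → Kind) (hτ : ∀ i, (τ i).Valid (P i))

/-- the variables of the smooth model -/
abbrev SmoothVar (I S : Type) : Type := (I × Fin 3) ⊕ S

/-- the two frame coordinates in the model -/
def smoothUV (i : I) : MvPowerSeries (SmoothVar I S) O × MvPowerSeries (SmoothVar I S) O :=
  (MvPowerSeries.X (Sum.inl (i, 0)), MvPowerSeries.X (Sum.inl (i, 1)))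

/-- the diagonal data in the model -/
def smoothDiag (i : I) : DiagPair (MvPowerSeries (SmoothVar I S) O) :=
  (P i).kindPair MvPowerSeries.C (MvPowerSeries.X (Sum.inl (i, 2))) (τ i)

/-- the images of the coordinates in the model -/
def smoothVal : PlaceVar I S → MvPowerSeries (SmoothVar I S) O :=
  fullVal P MvPowerSeries.C smoothUV (smoothDiag P τ) fun t => MvPowerSeries.X (Sum.inr t)

theorem C_mem_of_mem {σ : Type} {c : O} (hc : c ∈ maximalIdeal O) :
    (MvPowerSeries.C c : MvPowerSeries σ O) ∈ maximalIdeal (MvPowerSeries σ O) :=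
  mem_maximalIdeal_of_constantCoeff (by rwa [MvPowerSeries.constantCoeff_C])

include hτ in
theorem smoothVal_mem (l : PlaceVar I S) :
    smoothVal P τ l ∈ maximalIdeal (MvPowerSeries (SmoothVar I S) O) := by
  rcases l with ⟨i, p⟩ | t
  · obtain ⟨h1, h2, h3⟩ := (P i).kindPair_mem (R := MvPowerSeries (SmoothVar I S) O)
      MvPowerSeries.C (hτ i) (fun c hc => C_mem_of_mem hc) (X_mem_maximalIdeal (Sum.inl (i, 2)))
    exact (P i).placeVal_mem _ (X_mem_maximalIdeal _) (X_mem_maximalIdeal _) h1 h2 h3 p
  · exact X_mem_maximalIdeal _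

/-- the map to the smooth model -/
def smoothHom : MvPowerSeries (PlaceVar I S) O →+* MvPowerSeries (SmoothVar I S) O :=
  evalHom (O := O) (maximalIdeal (MvPowerSeries (SmoothVar I S) O)) (smoothVal P τ) 1 fun l => by
    rw [pow_one]; exact smoothVal_mem P τ hτ l

theorem smoothHom_C (c : O) : smoothHom (S := S) P τ hτ (MvPowerSeries.C c) = MvPowerSeries.C c := by
  refine (evalHom_C _ _ c).trans ?_
  rw [MvPowerSeries.algebraMap_apply, Algebra.algebraMap_self_apply]

theorem smoothHom_X (l : PlaceVar I S) :
    smoothHom P τ hτ (MvPowerSeries.X l) = smoothVal P τ l :=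
  evalHom_X _ _ l

theorem smoothHom_mat (i : I) :
    (frobC (S := S) P i).map (smoothHom P τ hτ) =
      frameConj (MvPowerSeries.X (Sum.inl (i, 0))) (MvPowerSeries.X (Sum.inl (i, 1)))
        (Ring.inverse (1 - MvPowerSeries.X (Sum.inl (i, 0)) * MvPowerSeries.X (Sum.inl (i, 1))))
        (smoothDiag P τ i).frob ∧
    (tameC (S := S) P i).map (smoothHom P τ hτ) =
      frameConj (MvPowerSeries.X (Sum.inl (i, 0))) (MvPowerSeries.X (Sum.inl (i, 1)))
        (Ring.inverse (1 - MvPowerSeries.X (Sum.inl (i, 0)) * MvPowerSeries.X (Sum.inl (i, 1))))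
        (smoothDiag P τ i).T :=
  fullVal_frobC P _ (smoothHom_C P τ hτ) (smoothHom_X P τ hτ) i

/-- the prime of a product of smooth components -/
def smoothK : Ideal (MvPowerSeries (PlaceVar I S) O) := RingHom.ker (smoothHom P τ hτ)

theorem isPrime_smoothK : (smoothK (S := S) P τ hτ).IsPrime := RingHom.ker_isPrime _

end Model

section Points

variable [IsDomain O] [IsDiscreteValuationRing O] [IsAdicComplete (maximalIdeal O) O]
  [Finite (ResidueField O)]
  [Finite I] [Finite S] (P : I → QPlace O) (τ : I → Kind) (hτ : ∀ i, (τ i).Valid (P i))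
  {E : Type} [CommRing E] [IsDomain E] [IsLocalRing E] [IsAdicComplete (maximalIdeal E) E]
  [Finite (ResidueField E)] [Algebra O E] [IsLocalHom (algebraMap O E)]

theorem algebraMap_mem_maximal {c : O} (hc : c ∈ maximalIdeal O) :
    algebraMap O E c ∈ maximalIdeal E := fun hu => hc (isUnit_of_map_unit _ c hu)

variable (π : MvPowerSeries (PlaceVar I S) O →+* E)
  (hπ : ∀ c, π (MvPowerSeries.C c) = algebraMap O E c)

include hπ in
theorem isPointPair_of_placeRel {i : I} (h : PlaceRel P π i) :
    (P i).IsPointPair (algebraMap O E) ((frobC P i).map π) ((tameC P i).map π) := by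
  have hκ : π.comp MvPowerSeries.C = algebraMap O E := RingHom.ext hπ
  obtain ⟨h1, h2, h3⟩ := h
  refine ⟨?_, ?_, ?_, fun a b => ?_, fun a b => ?_⟩
  · rw [map_sub, hπ, sub_eq_zero, RingHom.map_det] at h1
    exact h1
  · rw [map_sub, map_one, sub_eq_zero, RingHom.map_det] at h2
    exact h2
  · have h : π.mapMatrix (frobC P i * tameC P i - tameC P i ^ (P i).q * frobC P i) = 0 :=
      Matrix.ext h3
    rw [map_sub, map_mul, map_mul, map_pow, sub_eq_zero, RingHom.mapMatrix_apply,
      RingHom.mapMatrix_apply] at h
    exact h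
  · rw [Matrix.sub_apply, Matrix.map_apply, map_frobC, hκ, add_sub_cancel_left]
    exact map_X_mem_maximalIdeal π _
  · rw [Matrix.sub_apply, Matrix.map_apply, map_tameC, hκ, add_sub_cancel_left]
    exact map_X_mem_maximalIdeal π _

include hπ in
/-- a point in coordinates kills the prime of the component -/
theorem smoothK_le_ker_of_kindPoint (h : ∀ i, (P i).KindPoint (algebraMap O E) (τ i)
      ((frobC P i).map π) ((tameC P i).map π)) :
    smoothK P τ hτ ≤ RingHom.ker π := by
  choose u v x hu hv hx hF hT using h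
  let z : SmoothVar I S → E := Sum.elim (fun p => ![u p.1, v p.1, x p.1] p.2)
    fun t => π (MvPowerSeries.X (Sum.inr t))
  have hz : ∀ l, z l ^ 1 ∈ maximalIdeal E := by
    intro l
    rw [pow_one]
    rcases l with ⟨i, r⟩ | t
    · fin_cases r
      · exact hu i
      · exact hv i
      · exact hx i
    · exact map_X_mem_maximalIdeal π _
  let θ : MvPowerSeries (SmoothVar I S) O →+* E := evalHom (O := O) (maximalIdeal E) z 1 hz
  have hθC : ∀ c, θ (MvPowerSeries.C c) = algebraMap O E c := fun c => evalHom_C _ hz c
  have hθX : ∀ l, θ (MvPowerSeries.X l) = z l := fun l => evalHom_X _ hz l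
  have hκθ : θ.comp MvPowerSeries.C = algebraMap O E := RingHom.ext hθC
  have hu0 : ∀ i, IsUnit (1 - MvPowerSeries.X (Sum.inl (i, 0)) * MvPowerSeries.X (Sum.inl (i, 1)) :
      MvPowerSeries (SmoothVar I S) O) := fun i =>
    QPlace.isUnit_one_sub_mul (X_mem_maximalIdeal _)
  have hinv : ∀ i, θ (Ring.inverse (1 - MvPowerSeries.X (Sum.inl (i, 0)) *
      MvPowerSeries.X (Sum.inl (i, 1)))) = Ring.inverse (1 - u i * v i) := by
    intro i
    refine (QPlace.isUnit_one_sub_mul (v := v i) (hu i)).mul_left_cancel ?_
    rw [Ring.mul_inverse_cancel _ (QPlace.isUnit_one_sub_mul (hu i))]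
    have h1 := congrArg θ (Ring.mul_inverse_cancel _ (hu0 i))
    simpa [hθX, z] using h1
  have hD : ∀ i, (smoothDiag (S := S) P τ i).map θ = (P i).kindPair (algebraMap O E) (x i) (τ i) := by
    intro i
    have hA : τ i = Kind.unr → θ (Ring.inverse (MvPowerSeries.C ((P i).w * ((P i).q : O)) +
        MvPowerSeries.X (Sum.inl (i, 2)))) =
          Ring.inverse (algebraMap O E ((P i).w * ((P i).q : O)) + x i) := by
      intro _
      have hB : IsUnit (MvPowerSeries.C ((P i).w * ((P i).q : O)) +
          MvPowerSeries.X (Sum.inl (i, 2)) : MvPowerSeries (SmoothVar I S) O) :=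
        QPlace.isUnit_of_sub_mem
          ((P i).isUnit_wq.map (MvPowerSeries.C (σ := SmoothVar I S) (R := O)))
          (by simpa [-IsLocalRing.mem_maximalIdeal] using X_mem_maximalIdeal (O := O) (σ := SmoothVar I S) (Sum.inl (i, 2)))
      have h1 := congrArg θ (Ring.mul_inverse_cancel _ hB)
      rw [map_mul, map_one, map_add, hθC, hθX] at h1
      have hB' : IsUnit (algebraMap O E ((P i).w * ((P i).q : O)) + x i) := by
        have := hB.map θ
        rwa [map_add, hθC, hθX] at this
      refine hB'.mul_left_cancel ?_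
      rw [Ring.mul_inverse_cancel _ hB']
      exact h1
    rw [smoothDiag]
    rcases hk : τ i <;> simp only [DiagPair.map, QPlace.kindPair] <;> congr 1 <;>
      try ext a b <;> fin_cases a <;> fin_cases b
    all_goals first
      | rw [map_mul, hθC, hA hk]
      | simp [hθC, hθX, z]
  have hcomp : θ.comp (smoothHom P τ hτ) = π := by
    refine hom_ext_adic (maximalIdeal E) (fun c => ?_) (fun l => ?_) (fun l => ?_)
    · rw [RingHom.comp_apply, smoothHom_C, hθC, hπ]
    · rw [RingHom.comp_apply, smoothHom_X]
      rcases l with ⟨i, s, a, b⟩ | t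
      · have hκ : π.comp MvPowerSeries.C = algebraMap O E := RingHom.ext hπ
        have h1 := congrFun (congrFun (hF i) a) b
        have h2 := congrFun (congrFun (hT i) a) b
        rw [Matrix.map_apply, map_frobC, hκ, ← eq_sub_iff_add_eq'] at h1
        rw [Matrix.map_apply, map_tameC, hκ, ← eq_sub_iff_add_eq'] at h2
        have e1 := congrFun (congrFun (map_frameConj (u := (smoothUV (O := O) (S := S) i).1)
          (v := (smoothUV (O := O) (S := S) i).2)
          (e := Ring.inverse (1 - (smoothUV i).1 * (smoothUV i).2)) θ (smoothDiag P τ i).frob) a) b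
        have e2 := congrFun (congrFun (map_frameConj (u := (smoothUV (O := O) (S := S) i).1)
          (v := (smoothUV (O := O) (S := S) i).2)
          (e := Ring.inverse (1 - (smoothUV i).1 * (smoothUV i).2)) θ (smoothDiag P τ i).T) a) b
        have b1 := congrFun (congrFun ((P i).map_baseF MvPowerSeries.C θ) a) b
        have b2 := congrFun (congrFun ((P i).map_baseT MvPowerSeries.C θ) a) b
        rw [hκθ] at b1 b2
        simp only [Matrix.map_apply, DiagPair.frob_map, hD, smoothUV, hθX, hinv, z, Sum.elim_inl]
          at e1 e2 b1 b2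
        have hD2 := congrArg DiagPair.T (hD i)
        simp only [DiagPair.map] at hD2
        rw [hD2] at e2
        fin_cases s <;> simp only [Fin.zero_eta, Fin.mk_one, Fin.isValue] at h1 h2 ⊢ <;>
          simp only [smoothVal, fullVal, QPlace.placeVal, smoothUV, if_true, one_ne_zero, if_false,
            Fin.isValue, Matrix.sub_apply, map_sub, e1, e2, b1, b2, h1, h2] <;> rfl
      · rw [smoothVal, fullVal, hθX]
        rfl
    · rw [RingHom.comp_apply]
      exact maximalIdeal_le_of_mem (Q := (maximalIdeal E).comap θ)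
        (IsDiscreteValuationRing.exists_irreducible O).choose_spec
        (by
          rw [Ideal.mem_comap, hθC]
          exact algebraMap_mem_maximal ((IsDiscreteValuationRing.exists_irreducible O).choose_spec.not_isUnit))
        (fun l => by rw [Ideal.mem_comap, hθX, ← pow_one (z l)]; exact hz l)
        (by rw [smoothHom_X]; exact smoothVal_mem P τ hτ l)
  intro g hg
  rw [RingHom.mem_ker, ← hcomp, RingHom.comp_apply, RingHom.mem_ker.1 hg, map_zero]

end Points

section FinitePoints

variable [IsDomain O] [IsDiscreteValuationRing O] [IsAdicComplete (maximalIdeal O) O]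
  [Finite (ResidueField O)] [Finite I] [Finite S] (P : I → QPlace O)
  {C : Type} [CommRing C] [IsDomain C] [Algebra O C] [Module.Finite O C]
  (π : MvPowerSeries (PlaceVar I S) O →+* C) (hπ : ∀ c, π (MvPowerSeries.C c) = algebraMap O C c)
  (hinj : Function.Injective (algebraMap O C))

include hinj hπ in
/-- a point of the relations and the conditions of a kind at every place kills the prime -/
theorem smoothK_le_ker (τ : I → Kind) (hτ : ∀ i, (τ i).Valid (P i))
    (hrel : ∀ i, PlaceRel P π i) (hcond : ∀ i, KindCond P π i (τ i)) :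
    smoothK P τ hτ ≤ RingHom.ker π := by
  haveI := Attach.isLocalRing_of_module_finite O C
  haveI : IsLocalHom (algebraMap O C) :=
    RingHom.IsIntegral.isLocalHom (algebraMap_isIntegral_iff.2 inferInstance) hinj
  haveI : IsNoetherianRing C := IsNoetherianRing.of_finite O C
  haveI : IsAdicComplete (maximalIdeal C) C := IsLocalRing.isAdicComplete_of_module_finite (𝒪 := O)
  haveI : Finite (ResidueField C) :=
    IsLocalRing.ResidueField.finite_of_finite (R := O) inferInstance
  refine smoothK_le_ker_of_kindPoint P τ hτ π hπ fun i => ?_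
  have hp := isPointPair_of_placeRel P π hπ (hrel i)
  have hc := hcond i
  have hv := hτ i
  revert hc hv
  rcases τ i <;> intro hc hv
  · exact hp.kindPoint_unr hc
  · obtain ⟨h1, h2⟩ := hc
    rw [map_sub, map_ofNat, sub_eq_zero, map_trace_two] at h1
    rw [map_sub, hπ, sub_eq_zero, map_trace_two] at h2
    exact hp.kindPoint_stUp hinj h1 h2
  · obtain ⟨h1, h2⟩ := hc
    rw [map_sub, map_ofNat, sub_eq_zero, map_trace_two] at h1
    rw [map_add, hπ, add_eq_zero_iff_eq_neg, ← map_neg, map_trace_two] at h2
    exact hp.kindPoint_stDown hinj (fun c hc => algebraMap_mem_maximal hc) hv h1 h2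

include hinj hπ in
/-- with unipotent tame generator one of the three kinds holds -/
theorem exists_kind_of_trace_two {i : I} (hrel : PlaceRel P π i)
    (htr : π ((tameC P i).trace - 2) = 0) :
    ∃ τ : Kind, τ.Valid (P i) ∧ KindCond P π i τ := by
  haveI := Attach.isLocalRing_of_module_finite O C
  haveI : IsLocalHom (algebraMap O C) :=
    RingHom.IsIntegral.isLocalHom (algebraMap_isIntegral_iff.2 inferInstance) hinj
  haveI : IsNoetherianRing C := IsNoetherianRing.of_finite O C
  haveI : IsAdicComplete (maximalIdeal C) C := IsLocalRing.isAdicComplete_of_module_finite (𝒪 := O)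
  haveI : Finite (ResidueField C) :=
    IsLocalRing.ResidueField.finite_of_finite (R := O) inferInstance
  have hp := isPointPair_of_placeRel P π hπ hrel
  have hloc : ∀ c, algebraMap O C c ∈ maximalIdeal C → c ∈ maximalIdeal O := fun c h hu =>
    h (hu.map _)
  have htr' := htr
  rw [map_sub, map_ofNat, sub_eq_zero, map_trace_two] at htr'
  have hc0 : ((tameC P i).map π) 0 1 = 0 → (P i).c0 ∈ maximalIdeal O := by
    intro h
    refine hloc _ ?_
    have := neg_mem (hp.devS 0 1)
    rw [Matrix.sub_apply, h] at this
    simpa [QPlace.baseT, -IsLocalRing.mem_maximalIdeal] using this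
  rcases hp.cases_of_trace_two hloc htr' with h | h | ⟨hq, h⟩
  · exact ⟨.unr, hc0 (by rw [h]; simp), h⟩
  · exact ⟨.stUp, trivial, htr, by rw [map_sub, hπ, map_trace_two, h, sub_self]⟩
  · by_cases hu : (P i).c0 ∈ maximalIdeal O
    · exact ⟨.stDown, ⟨hu, hq⟩, htr, by rw [map_add, hπ, map_trace_two, h, map_neg, neg_add_cancel]⟩
    · -- a residual upper entry forces the sign of the upper line
      refine ⟨.stUp, trivial, htr, ?_⟩
      rw [map_sub, hπ, map_trace_two]
      exact sub_eq_zero.2 (hp.trace_of_entry hinj (fun c hc => algebraMap_mem_maximal hc) htr'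
        (fun e => hu (hloc _ e)))

end FinitePoints

end FLTAgent.MLT
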