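import Fermat.Agent.MLT.LocalRingsSmooth

/-!
Area MLT, local rings at places `q ≢ 1`: relations and parameters of the smooth components, their
special fibres, and the separation of the components on the special fibre.
-/

set_option autoImplicit false
set_option linter.style.haveILetI false
set_option linter.unusedSectionVars false

noncomputable section

namespace FLTAgent.MLT

open IsLocalRing Matrix FLTAgent.LL

section Alg

variable {R : Type} [CommRing R]

theorem map_smul_mat {R' : Type} [CommRing R'] (f : R →+* R') (r : R)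
    (A : Matrix (Fin 2) (Fin 2) R) : (r • A).map f = f r • A.map f := by
  ext i j
  simp

theorem upper_pow (c : R) : ∀ n : ℕ,
    (!![1, c; 0, 1] : Matrix (Fin 2) (Fin 2) R) ^ n = !![1, (n : R) * c; 0, 1]
  | 0 => by simp [← Matrix.one_fin_two]
  | n + 1 => by
    rw [pow_succ, upper_pow c n]
    ext i j
    fin_cases i <;> fin_cases j <;> simp [Matrix.mul_apply, Fin.sum_univ_two, add_mul]
    all_goals ring

theorem lower_pow (c : R) : ∀ n : ℕ,
    (!![1, 0; c, 1] : Matrix (Fin 2) (Fin 2) R) ^ n = !![1, 0; (n : R) * c, 1]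
  | 0 => by simp [← Matrix.one_fin_two]
  | n + 1 => by
    rw [pow_succ, lower_pow c n]
    ext i j
    fin_cases i <;> fin_cases j <;> simp [Matrix.mul_apply, Fin.sum_univ_two, add_mul]

variable {O : Type} [CommRing O] (P : QPlace O) (κ : O →+* R)

/-- the relations hold for the data of each kind -/
theorem kindPair_rel (x : R) (τ : Kind) (hA : IsUnit (κ (P.w * P.q) + x)) :
    (P.kindPair κ x τ).frob.det = κ (P.q : O) ∧ (P.kindPair κ x τ).T.det = 1 ∧
      (P.kindPair κ x τ).T.trace = 2 ∧
      (P.kindPair κ x τ).frob * (P.kindPair κ x τ).T =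
        (P.kindPair κ x τ).T ^ P.q * (P.kindPair κ x τ).frob := by
  have hw : κ P.w * κ P.w = 1 := by rw [← map_mul, P.hw, map_one]
  cases τ
  · refine ⟨?_, by simp [QPlace.kindPair], by simp [QPlace.kindPair],
      by simp [QPlace.kindPair]⟩
    simp only [DiagPair.frob, QPlace.kindPair, Matrix.det_fin_two_of, mul_zero, sub_zero]
    linear_combination κ (P.q : O) * Ring.mul_inverse_cancel _ hA
  · refine ⟨?_, by simp [QPlace.kindPair, Matrix.det_fin_two],
      by simp [QPlace.kindPair, Matrix.trace_fin_two]; norm_num, ?_⟩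
    · simp only [DiagPair.frob, QPlace.kindPair, Matrix.det_fin_two_of, mul_zero, sub_zero, map_mul]
      linear_combination κ (P.q : O) * hw
    · simp only [DiagPair.frob, QPlace.kindPair, upper_pow]
      ext i j
      fin_cases i <;> fin_cases j <;> simp [Matrix.mul_apply, Fin.sum_univ_two]
      all_goals ring
  · refine ⟨?_, by simp [QPlace.kindPair, Matrix.det_fin_two],
      by simp [QPlace.kindPair, Matrix.trace_fin_two]; norm_num, ?_⟩
    · simp only [DiagPair.frob, QPlace.kindPair, Matrix.det_fin_two_of, mul_zero, sub_zero, map_mul]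
      linear_combination κ (P.q : O) * hw
    · simp only [DiagPair.frob, QPlace.kindPair, lower_pow]
      ext i j
      fin_cases i <;> fin_cases j <;> simp [Matrix.mul_apply, Fin.sum_univ_two]
      all_goals ring

end Alg

variable {O : Type} [CommRing O] [IsDomain O] [IsDiscreteValuationRing O]
  [IsAdicComplete (maximalIdeal O) O] [Finite (ResidueField O)]
  {I S : Type} [Finite I] [Finite S]

/-- on the special fibre the parameters at the places cut out the closed point -/
theorem X_mem_of_placeParam (P : I → QPlace O) {ϖ : O} (hϖ : Irreducible ϖ)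
    (Q : Ideal (MvPowerSeries (PlaceVar I S) O)) (hQ : Q.IsPrime) (hϖQ : MvPowerSeries.C ϖ ∈ Q)
    (hrel : ∀ i, PlaceRel P (Ideal.Quotient.mk Q) i) (htr : ∀ i, (tameC P i).trace - 2 ∈ Q)
    (hpar : ∀ i r, placeParam i r ∈ Q) (hS : ∀ t : S, MvPowerSeries.X (Sum.inr t) ∈ Q) :
    ∀ l, MvPowerSeries.X l ∈ Q := by
  haveI := hQ
  set f := Ideal.Quotient.mk Q with hf
  set η := f.comp (MvPowerSeries.C (σ := PlaceVar I S) (R := O))
  intro l
  rcases l with ⟨i, s, a, b⟩ | t
  swap
  · exact hS t
  have hη : ∀ c ∈ maximalIdeal O, η c = 0 := by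
    intro c hc
    rw [(IsDiscreteValuationRing.irreducible_iff_uniformizer ϖ).1 hϖ,
      Ideal.mem_span_singleton] at hc
    obtain ⟨e, rfl⟩ := hc
    rw [map_mul, show η ϖ = 0 from Ideal.Quotient.eq_zero_iff_mem.2 hϖQ, zero_mul]
  have hunit : ∀ (c : O), IsUnit c → ∀ a b, ((devP (O := O) (S := S) i 0).map f) a b + η c ≠ 0 ∧
      ((devP (O := O) (S := S) i 1).map f) a b + η c ≠ 0 := by
    intro c hc a b
    have key : ∀ l' : PlaceVar I S, f (MvPowerSeries.X l') + η c ≠ 0 := by
      intro l' h
      rw [RingHom.comp_apply, ← map_add, hf, Ideal.Quotient.eq_zero_iff_mem] at h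
      refine hQ.ne_top (Ideal.eq_top_of_isUnit_mem _ h (MvPowerSeries.isUnit_iff_constantCoeff.2 ?_))
      simpa using hc
    exact ⟨key _, key _⟩
  obtain ⟨h1, h2, h3⟩ := hrel i
  have hF : (frobC (S := S) P i).map f = (P i).baseF η + (devP i 0).map f := by
    rw [frobC, Matrix.map_add _ (map_add f), QPlace.map_baseF]
  have hT : (tameC (S := S) P i).map f = (P i).baseT η + (devP i 1).map f := by
    rw [tameC, Matrix.map_add _ (map_add f), QPlace.map_baseT]
  have hp : ∀ r, f (placeParam i r) = 0 := fun r => Ideal.Quotient.eq_zero_iff_mem.2 (hpar i r)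
  obtain ⟨hX, hY⟩ := QPlace.coords_eq_zero (P i) hη hunit
    (by
      rw [map_sub, sub_eq_zero, RingHom.map_det, RingHom.mapMatrix_apply, hF] at h1
      exact h1)
    (by
      rw [map_sub, map_one, sub_eq_zero, RingHom.map_det, RingHom.mapMatrix_apply, hT] at h2
      exact h2)
    (by
      have h : f.mapMatrix (frobC P i * tameC P i - tameC P i ^ (P i).q * frobC P i) = 0 :=
        Matrix.ext h3
      rw [map_sub, map_mul, map_mul, map_pow, sub_eq_zero, RingHom.mapMatrix_apply,
        RingHom.mapMatrix_apply, hF, hT] at h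
      exact h)
    (by
      have h := Ideal.Quotient.eq_zero_iff_mem.2 (htr i)
      rw [map_sub, map_ofNat, sub_eq_zero, map_trace_two, hT] at h
      exact h)
    (by simpa [placeParam] using hp 0) (by simpa [placeParam] using hp 1)
    (by simpa [placeParam] using hp 2)
  rw [← Ideal.Quotient.eq_zero_iff_mem]
  fin_cases s
  · exact congrFun (congrFun hY a) b
  · exact congrFun (congrFun hX a) b

variable (P : I → QPlace O) (τ : I → Kind) (hτ : ∀ i, (τ i).Valid (P i))

theorem smoothHom_placeRel (i : I) : PlaceRel P (smoothHom (S := S) P τ hτ) i ∧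
    smoothHom (S := S) P τ hτ ((tameC P i).trace - 2) = 0 := by
  set Ψ := smoothHom (S := S) P τ hτ
  obtain ⟨hF, hT⟩ := smoothHom_mat (S := S) P τ hτ i
  have he := QPlace.inv_spec (v := MvPowerSeries.X (Sum.inl (i, 1)))
    (X_mem_maximalIdeal (O := O) (σ := SmoothVar I S) (Sum.inl (i, 0)))
  obtain ⟨r1, r2, r3, r4⟩ := kindPair_rel (P i) (MvPowerSeries.C (σ := SmoothVar I S) (R := O))
    (MvPowerSeries.X (Sum.inl (i, 2))) (τ i)
    (QPlace.isUnit_of_sub_mem ((P i).isUnit_wq.map (MvPowerSeries.C (σ := SmoothVar I S) (R := O)))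
      (by simpa [-IsLocalRing.mem_maximalIdeal] using
        X_mem_maximalIdeal (O := O) (σ := SmoothVar I S) (Sum.inl (i, 2))))
  refine ⟨⟨?_, ?_, ?_⟩, ?_⟩
  · rw [map_sub, RingHom.map_det, RingHom.mapMatrix_apply, hF, frameConj_det he, smoothHom_C,
      sub_eq_zero]
    exact r1
  · rw [map_sub, map_one, RingHom.map_det, RingHom.mapMatrix_apply, hT, frameConj_det he,
      sub_eq_zero]
    exact r2
  · intro a b
    have h : Ψ.mapMatrix (frobC P i * tameC P i - tameC P i ^ (P i).q * frobC P i) = 0 := by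
      rw [map_sub, map_mul, map_mul, map_pow, RingHom.mapMatrix_apply, RingHom.mapMatrix_apply, hF,
        hT, ← frameConj_pow he, ← frameConj_mul he, ← frameConj_mul he, sub_eq_zero]
      exact congrArg _ r4
    exact congrFun (congrFun h a) b
  · rw [map_sub, map_ofNat, map_trace_two, hT, frameConj_trace he, sub_eq_zero]
    exact r3

/-- the conditions of the kinds hold on the component -/
theorem smoothHom_kindCond (i : I) : KindCond P (smoothHom (S := S) P τ hτ) i (τ i) := by
  obtain ⟨hF, hT⟩ := smoothHom_mat (S := S) P τ hτ i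
  have he := QPlace.inv_spec (v := MvPowerSeries.X (Sum.inl (i, 1)))
    (X_mem_maximalIdeal (O := O) (σ := SmoothVar I S) (Sum.inl (i, 0)))
  have htr := (smoothHom_placeRel (S := S) P τ hτ i).2
  have hd : (smoothDiag (S := S) P τ i) = (P i).kindPair MvPowerSeries.C
      (MvPowerSeries.X (Sum.inl (i, 2))) (τ i) := rfl
  rcases hk : τ i <;> rw [hk] at hd <;> simp only [KindCond]
  · rw [hT, hd]
    exact frameConj_one he
  · refine ⟨htr, ?_⟩
    rw [map_sub, map_trace_two, hF, frameConj_trace he, smoothHom_C, hd, Matrix.trace_fin_two]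
    simp [DiagPair.frob, QPlace.kindPair]
    ring
  · refine ⟨htr, ?_⟩
    rw [map_add, map_trace_two, hF, frameConj_trace he, smoothHom_C, hd, Matrix.trace_fin_two]
    simp [DiagPair.frob, QPlace.kindPair]
    ring

/-- in a prime containing a component and the uniformiser the parameters cut out the closed point -/
theorem X_mem_of_smoothK {ϖ : O} (hϖ : Irreducible ϖ)
    (Q : Ideal (MvPowerSeries (PlaceVar I S) O)) (hQ : Q.IsPrime)
    (hK : smoothK P τ hτ ≤ Q) (hϖQ : MvPowerSeries.C ϖ ∈ Q)
    (hpar : ∀ i r, placeParam i r ∈ Q) (hS : ∀ t : S, MvPowerSeries.X (Sum.inr t) ∈ Q) :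
    ∀ l, MvPowerSeries.X l ∈ Q := by
  have h : ∀ g, smoothHom (S := S) P τ hτ g = 0 → g ∈ Q := fun g hg => hK (RingHom.mem_ker.2 hg)
  refine X_mem_of_placeParam P hϖ Q hQ hϖQ (fun i => ?_) (fun i => ?_) hpar hS
  · obtain ⟨⟨h1, h2, h3⟩, -⟩ := smoothHom_placeRel (S := S) P τ hτ i
    exact ⟨Ideal.Quotient.eq_zero_iff_mem.2 (h _ h1), Ideal.Quotient.eq_zero_iff_mem.2 (h _ h2),
      fun a b => Ideal.Quotient.eq_zero_iff_mem.2 (h _ (h3 a b))⟩
  · exact h _ (smoothHom_placeRel (S := S) P τ hτ i).2

/-- the generic point of the special fibre of a component -/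
def smoothQ (ϖ : O) : Ideal (MvPowerSeries (PlaceVar I S) O) :=
  (pIdeal ϖ (SmoothVar I S)).comap (smoothHom P τ hτ)

theorem smoothK_le_smoothQ (ϖ : O) : smoothK (S := S) P τ hτ ≤ smoothQ P τ hτ ϖ := fun g hg => by
  rw [smoothQ, Ideal.mem_comap, RingHom.mem_ker.1 hg]
  exact zero_mem _

theorem C_mem_smoothQ (ϖ : O) : MvPowerSeries.C ϖ ∈ smoothQ (S := S) P τ hτ ϖ := by
  rw [smoothQ, Ideal.mem_comap, smoothHom_C]
  exact Ideal.mem_span_singleton_self _

theorem isPrime_smoothQ {ϖ : O} (hϖ : Irreducible ϖ) : (smoothQ (S := S) P τ hτ ϖ).IsPrime := by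
  haveI := isPrime_pIdeal (σ := SmoothVar I S) hϖ
  exact Ideal.comap_isPrime _ _

/-! ### Separation -/

theorem notMem_pIdeal_of_coeff {σ : Type} [Finite σ] {ϖ : O} (hϖ : Irreducible ϖ)
    {f : MvPowerSeries σ O} (v : σ →₀ ℕ) (h : IsUnit (MvPowerSeries.coeff v f)) :
    f ∉ pIdeal ϖ σ := fun hf =>
  hϖ.not_isUnit (isUnit_of_dvd_unit ((mem_pIdeal_iff ϖ).1 hf v) h)

/-- the values of the series at vanishing frame coordinates -/
def killFrame : MvPowerSeries (SmoothVar I S) O →+* MvPowerSeries (SmoothVar I S) O :=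
  evalHom (O := O) (maximalIdeal (MvPowerSeries (SmoothVar I S) O))
    (Sum.elim (fun p => if p.2 = 2 then MvPowerSeries.X (Sum.inl p) else 0)
      fun t => MvPowerSeries.X (Sum.inr t)) 1 fun l => by
    rw [pow_one]
    rcases l with p | t
    · simp only [Sum.elim_inl]
      split
      · exact X_mem_maximalIdeal _
      · exact zero_mem _
    · exact X_mem_maximalIdeal _

theorem killFrame_C (c : O) :
    killFrame (I := I) (S := S) (MvPowerSeries.C c) = MvPowerSeries.C c := by
  refine (evalHom_C _ _ c).trans ?_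
  rw [MvPowerSeries.algebraMap_apply, Algebra.algebraMap_self_apply]

theorem killFrame_mem {ϖ : O} {f : MvPowerSeries (SmoothVar I S) O}
    (hf : f ∈ pIdeal ϖ (SmoothVar I S)) : killFrame f ∈ pIdeal ϖ (SmoothVar I S) := by
  rw [Ideal.mem_span_singleton] at hf ⊢
  obtain ⟨e, rfl⟩ := hf
  exact ⟨killFrame e, by rw [map_mul, killFrame_C]⟩

theorem killFrame_X (p : I × Fin 3) :
    killFrame (O := O) (S := S) (MvPowerSeries.X (Sum.inl p)) =
      if p.2 = 2 then MvPowerSeries.X (Sum.inl p) else 0 :=
  evalHom_X _ _ _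

/-- with vanishing frame coordinates the matrices are the diagonal data -/
theorem killFrame_mat (i : I) :
    ((frobC (S := S) P i).map (smoothHom P τ hτ)).map killFrame = (smoothDiag P τ i).frob.map killFrame ∧
      ((tameC (S := S) P i).map (smoothHom P τ hτ)).map killFrame =
        (smoothDiag P τ i).T.map killFrame := by
  obtain ⟨hF, hT⟩ := smoothHom_mat (S := S) P τ hτ i
  set u : MvPowerSeries (SmoothVar I S) O := MvPowerSeries.X (Sum.inl (i, 0))
  set v : MvPowerSeries (SmoothVar I S) O := MvPowerSeries.X (Sum.inl (i, 1))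
  set e := Ring.inverse (1 - u * v)
  have hu : killFrame u = 0 := (killFrame_X (i, 0)).trans (if_neg (by simp))
  have hv : killFrame v = 0 := (killFrame_X (i, 1)).trans (if_neg (by simp))
  have he : killFrame e = 1 := by
    have h := congrArg killFrame
      (QPlace.inv_spec (v := v) (X_mem_maximalIdeal (O := O) (σ := SmoothVar I S) (Sum.inl (i, 0))))
    rw [map_mul, map_sub, map_mul, hu, hv, map_one, mul_zero, sub_zero, one_mul] at h
    exact h
  have key : ∀ A, (frameConj u v e A).map killFrame = A.map killFrame := by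
    intro A
    rw [map_frameConj, hu, hv, he, frameConj]
    have h1 : frameP (0 : MvPowerSeries (SmoothVar I S) O) 0 = 1 := by
      ext a b
      fin_cases a <;> fin_cases b <;> simp [frameP]
    have h2 : framePi (0 : MvPowerSeries (SmoothVar I S) O) 0 1 = 1 := by
      ext a b
      fin_cases a <;> fin_cases b <;> simp [framePi]
    rw [h1, h2, Matrix.one_mul, Matrix.mul_one]
  rw [hF, hT]
  exact ⟨key _, key _⟩

theorem coeff_C_add_X {σ : Type} [DecidableEq σ] (c : O) (l : σ) :
    MvPowerSeries.coeff (Finsupp.single l 1) (MvPowerSeries.C c + MvPowerSeries.X l) = 1 := by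
  rw [map_add, MvPowerSeries.coeff_C, MvPowerSeries.coeff_X, if_neg (by simp), if_pos rfl, zero_add]

/-- **separation**: a component passes through the generic point of another special fibre only if
it is that component -/
theorem eq_of_smoothK_le_smoothQ {ϖ : O} (hϖ : Irreducible ϖ) (τ' : I → Kind)
    (hτ' : ∀ i, (τ' i).Valid (P i)) (h : smoothK (S := S) P τ' hτ' ≤ smoothQ P τ hτ ϖ) :
    τ' = τ := by
  classical
  funext i
  by_contra hne
  set Ψ := smoothHom (S := S) P τ hτ
  set Ψ' := smoothHom (S := S) P τ' hτ'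
  set x : MvPowerSeries (SmoothVar I S) O := MvPowerSeries.X (Sum.inl (i, 2)) with hx_def
  have hkey : ∀ g, Ψ' g = 0 → killFrame (Ψ g) ∈ pIdeal ϖ (SmoothVar I S) := fun g hg =>
    killFrame_mem (h (RingHom.mem_ker.2 hg))
  obtain ⟨hkF, hkT⟩ := killFrame_mat (S := S) P τ hτ i
  have hkX : killFrame x = x := (killFrame_X (i, 2)).trans (if_pos rfl)
  have hK := smoothHom_kindCond (S := S) P τ' hτ' i
  have hd : (smoothDiag (S := S) P τ i) = (P i).kindPair MvPowerSeries.C x (τ i) := rfl
  have hwu : IsUnit (P i).w := IsUnit.of_mul_eq_one _ (P i).hw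
  have hTe : ∀ a b, killFrame (Ψ (tameC P i a b)) = killFrame ((smoothDiag (S := S) P τ i).T a b) :=
    fun a b => congrFun (congrFun hkT a) b
  have hFe : ∀ a b, killFrame (Ψ (frobC P i a b)) =
      killFrame ((smoothDiag (S := S) P τ i).frob a b) := fun a b => congrFun (congrFun hkF a) b
  obtain ⟨hF', hT'⟩ := smoothHom_mat (S := S) P τ' hτ' i
  have he := QPlace.inv_spec (v := MvPowerSeries.X (Sum.inl (i, 1)))
    (X_mem_maximalIdeal (O := O) (σ := SmoothVar I S) (Sum.inl (i, 0)))
  rcases hk' : τ' i <;> rcases hk : τ i <;> rw [hk', hk] at hne <;>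
    first | exact hne rfl | skip
  · -- unramified against the upper line
    rw [hk'] at hK
    rw [hk] at hd
    have h1 := hkey (tameC P i 0 1) (by simpa using congrFun (congrFun hK 0) 1)
    rw [hTe, hd] at h1
    refine notMem_pIdeal_of_coeff hϖ (Finsupp.single (Sum.inl (i, 2)) 1) ?_ h1
    simp [QPlace.kindPair, killFrame_C, hx_def, killFrame_X, MvPowerSeries.coeff_C,
      MvPowerSeries.coeff_X]
  · -- unramified against the lower line
    rw [hk'] at hK
    rw [hk] at hd
    have h1 := hkey (tameC P i 1 0) (by simpa using congrFun (congrFun hK 1) 0)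
    rw [hTe, hd] at h1
    refine notMem_pIdeal_of_coeff hϖ (Finsupp.single (Sum.inl (i, 2)) 1) ?_ h1
    simp [QPlace.kindPair, hx_def, killFrame_X, MvPowerSeries.coeff_X]
  · -- the upper line against unramified
    rw [hk'] at hK
    rw [hk] at hd
    refine quad_notMem (P i) hϖ (c := (P i).w * (1 + ((P i).q : O))) hkX (hkey _ hK.2) ?_
    rw [map_sub, map_sub, map_trace_two, Matrix.trace_fin_two]
    simp only [Matrix.map_apply, map_add, hFe, hd, DiagPair.frob, QPlace.kindPair, Matrix.of_apply,
      Matrix.cons_val', Matrix.cons_val_zero, Matrix.cons_val_one, Matrix.cons_val_fin_one]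
    simp only [Ψ, smoothHom_C, killFrame_C, hx_def]
  · -- the upper line against the lower line
    rw [hk] at hd
    set g : MvPowerSeries (PlaceVar I S) O :=
      ((frobC P i - (MvPowerSeries.C ((P i).w * ((P i).q : O)) : MvPowerSeries (PlaceVar I S) O) •
        (1 : Matrix (Fin 2) (Fin 2) (MvPowerSeries (PlaceVar I S) O))) * (tameC P i - 1) :
        Matrix (Fin 2) (Fin 2) (MvPowerSeries (PlaceVar I S) O)) 1 0
    have hg : Ψ' g = 0 := by
      have hM : Ψ'.mapMatrix ((frobC P i -
          (MvPowerSeries.C ((P i).w * ((P i).q : O)) : MvPowerSeries (PlaceVar I S) O) •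
          (1 : Matrix (Fin 2) (Fin 2) (MvPowerSeries (PlaceVar I S) O))) * (tameC P i - 1)) = 0 := by
        rw [map_mul, map_sub, map_sub, map_one, RingHom.mapMatrix_apply, RingHom.mapMatrix_apply,
          RingHom.mapMatrix_apply, map_smul_mat, Matrix.map_one _ (map_zero _) (map_one _),
          smoothHom_C, hF', hT']
        conv_lhs => rw [← frameConj_one he]
        simp only [frameConj]
        rw [← Matrix.smul_mul, ← Matrix.mul_smul, ← Matrix.sub_mul, ← Matrix.mul_sub,
          ← Matrix.sub_mul, ← Matrix.mul_sub]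
        simp only [Matrix.mul_assoc]
        rw [← Matrix.mul_assoc (framePi _ _ _) (frameP _ _), framePi_mul_frameP he, Matrix.one_mul,
          ← Matrix.mul_assoc (_ - _) (_ - _)]
        have h0 : ((smoothDiag (S := S) P τ' i).frob -
            (MvPowerSeries.C ((P i).w * ((P i).q : O)) : MvPowerSeries (SmoothVar I S) O) • 1) *
            ((smoothDiag (S := S) P τ' i).T - 1) = 0 := by
          ext a b
          fin_cases a <;> fin_cases b <;>
            simp [smoothDiag, hk', DiagPair.frob, QPlace.kindPair, Matrix.mul_apply,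
              Fin.sum_univ_two]
        rw [h0, Matrix.zero_mul, Matrix.mul_zero]
      exact congrFun (congrFun hM 1) 0
    have h1 := hkey g hg
    refine notMem_pIdeal_of_coeff hϖ (Finsupp.single (Sum.inl (i, 2)) 1) ?_ h1
    have e : killFrame (Ψ g) = MvPowerSeries.C (-(2 * ((P i).w * ((P i).q : O)))) * x := by
      simp [g, Ψ, Matrix.mul_apply, Fin.sum_univ_two, hFe, hTe, hd, DiagPair.frob, QPlace.kindPair,
        killFrame_C, hkX, smoothHom_C, map_ofNat]
      ring
    rw [e, MvPowerSeries.coeff_C_mul, hx_def, MvPowerSeries.coeff_X, if_pos rfl, mul_one]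
    exact ((P i).htwo.mul (P i).isUnit_wq).neg
  · -- the lower line against unramified
    rw [hk'] at hK
    rw [hk] at hd
    refine quad_notMem (P i) hϖ (c := -((P i).w * (1 + ((P i).q : O)))) hkX (hkey _ hK.2) ?_
    rw [map_add, map_add, map_trace_two, Matrix.trace_fin_two]
    simp only [Matrix.map_apply, map_add, hFe, hd, DiagPair.frob, QPlace.kindPair, Matrix.of_apply,
      Matrix.cons_val', Matrix.cons_val_zero, Matrix.cons_val_one, Matrix.cons_val_fin_one]
    simp only [Ψ, smoothHom_C, killFrame_C, hx_def, map_neg, sub_neg_eq_add]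
  · -- the lower line against the upper line
    rw [hk] at hd
    set g : MvPowerSeries (PlaceVar I S) O :=
      ((tameC P i - 1) * (frobC P i + (MvPowerSeries.C (P i).w : MvPowerSeries (PlaceVar I S) O) •
        (1 : Matrix (Fin 2) (Fin 2) (MvPowerSeries (PlaceVar I S) O))) :
        Matrix (Fin 2) (Fin 2) (MvPowerSeries (PlaceVar I S) O)) 0 1
    have hg : Ψ' g = 0 := by
      have hM : Ψ'.mapMatrix ((tameC P i - 1) * (frobC P i +
          (MvPowerSeries.C (P i).w : MvPowerSeries (PlaceVar I S) O) •
          (1 : Matrix (Fin 2) (Fin 2) (MvPowerSeries (PlaceVar I S) O)))) = 0 := by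
        rw [map_mul, map_add, map_sub, map_one, RingHom.mapMatrix_apply, RingHom.mapMatrix_apply,
          RingHom.mapMatrix_apply, map_smul_mat, Matrix.map_one _ (map_zero _) (map_one _),
          smoothHom_C, hF', hT']
        conv_lhs => rw [← frameConj_one he]
        simp only [frameConj]
        rw [← Matrix.smul_mul, ← Matrix.mul_smul, ← Matrix.sub_mul, ← Matrix.mul_sub,
          ← Matrix.add_mul, ← Matrix.mul_add]
        simp only [Matrix.mul_assoc]
        rw [← Matrix.mul_assoc (framePi _ _ _) (frameP _ _), framePi_mul_frameP he, Matrix.one_mul,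
          ← Matrix.mul_assoc (_ - _) (_ + _)]
        have h0 : ((smoothDiag (S := S) P τ' i).T - 1) * ((smoothDiag (S := S) P τ' i).frob +
            (MvPowerSeries.C (P i).w : MvPowerSeries (SmoothVar I S) O) • 1) = 0 := by
          ext a b
          fin_cases a <;> fin_cases b <;>
            simp [smoothDiag, hk', DiagPair.frob, QPlace.kindPair, Matrix.mul_apply,
              Fin.sum_univ_two]
        rw [h0, Matrix.zero_mul, Matrix.mul_zero]
      exact congrFun (congrFun hM 0) 1
    have h1 := hkey g hg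
    refine notMem_pIdeal_of_coeff hϖ (Finsupp.single (Sum.inl (i, 2)) 1) ?_ h1
    have e : killFrame (Ψ g) =
        MvPowerSeries.C (2 * (P i).w) * (MvPowerSeries.C (P i).c0 + x) := by
      simp [g, Ψ, Matrix.mul_apply, Fin.sum_univ_two, hFe, hTe, hd, DiagPair.frob, QPlace.kindPair,
        killFrame_C, hkX, smoothHom_C, map_ofNat]
      ring
    rw [e, MvPowerSeries.coeff_C_mul, hx_def, coeff_C_add_X, mul_one]
    exact (P i).htwo.mul hwu
where
  quad_notMem (Q : QPlace O) {ϖ : O} (hϖ : Irreducible ϖ) {l : SmoothVar I S}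
      (hkX : killFrame (MvPowerSeries.X l : MvPowerSeries (SmoothVar I S) O) = MvPowerSeries.X l)
      {y : MvPowerSeries (SmoothVar I S) O} (hy : y ∈ pIdeal ϖ (SmoothVar I S)) {c : O}
      (e : y = killFrame (MvPowerSeries.C (Q.w * (Q.q : O)) + MvPowerSeries.X l) +
        killFrame (MvPowerSeries.C (Q.q : O) *
          Ring.inverse (MvPowerSeries.C (Q.w * (Q.q : O)) + MvPowerSeries.X l)) -
        MvPowerSeries.C c) : False := by
    classical
    set a : MvPowerSeries (SmoothVar I S) O :=
      MvPowerSeries.C (Q.w * (Q.q : O)) + MvPowerSeries.X l with ha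
    have hA : IsUnit a := QPlace.isUnit_of_sub_mem
      (Q.isUnit_wq.map (MvPowerSeries.C (σ := SmoothVar I S) (R := O)))
      (by simpa [ha, -IsLocalRing.mem_maximalIdeal] using
        X_mem_maximalIdeal (O := O) (σ := SmoothVar I S) l)
    have hka : killFrame a = a := by rw [ha, map_add, killFrame_C, hkX]
    have h2 := Ideal.mul_mem_left _ a hy
    have e2 : a * y = a * a - MvPowerSeries.C c * a + MvPowerSeries.C (Q.q : O) := by
      have h1 : a * killFrame (Ring.inverse a) = 1 := by
        conv_lhs => rw [← hka]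
        rw [← map_mul, hka, Ring.mul_inverse_cancel _ hA, map_one]
      rw [e, map_mul, killFrame_C, hka]
      linear_combination MvPowerSeries.C (Q.q : O) * h1
    rw [e2] at h2
    refine notMem_pIdeal_of_coeff hϖ (Finsupp.single l 2) ?_ h2
    have e3 : a * a - MvPowerSeries.C c * a + MvPowerSeries.C (Q.q : O) =
        MvPowerSeries.X l ^ 2 +
          (MvPowerSeries.C (2 * (Q.w * (Q.q : O)) - c) * MvPowerSeries.X l +
          MvPowerSeries.C ((Q.w * (Q.q : O)) ^ 2 - c * (Q.w * (Q.q : O)) + (Q.q : O))) := by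
      simp only [ha, map_sub, map_add, map_mul, map_pow, map_ofNat]
      ring
    rw [e3, map_add, map_add, MvPowerSeries.coeff_C_mul, MvPowerSeries.coeff_X_pow, if_pos rfl,
      MvPowerSeries.coeff_X, if_neg (by simp [Finsupp.single_eq_single_iff]), MvPowerSeries.coeff_C,
      if_neg (by simp), mul_zero,
      add_zero, add_zero]
    exact isUnit_one

end FLTAgent.MLT
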