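import Fermat.Agent.MLT.Minimal
import Fermat.Agent.MLT.Lift
import Fermat.Agent.MLT.Endgame

/-!
Area MLT, top: modularity lifting at `3` and `5` from the parcels.
-/

set_option autoImplicit false

noncomputable section

open WeierstrassCurve

namespace FLTAgent.MLT

/-- modularity lifting with the exact conductor level -/
theorem modularity_lifting (p : ℕ) (hp : p = 3 ∨ p = 5)
    (W : WeierstrassCurve ℤ) (hΔ : W.Δ ≠ 0) (hW : W.IsSemistableModel)
    (hirr : W.ModRepIsIrreducible p)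
    (M₀ : ℕ) [NeZero M₀] (hres₀ : W.IsResiduallyModularOfLevel p M₀)
    (hM₀ : ¬ p ^ 2 ∣ M₀)
    (hM₀3 : ∀ q : ℕ, q.Prime → q ≠ p → ¬ q ^ 3 ∣ M₀) :
    Mlc1IsModularModelOfExactConductorLevel W := by
  have hmin := exists_minimal hΔ hW hp hirr M₀ (NeZero.ne M₀) hM₀ hM₀3 hres₀
  refine exact_of_modularAway hΔ hW (N := W.conductorLevel) (fun q hq h => ?_) ?_
  · exact hq.not_isUnit (W.squarefree_conductorLevel q (dvd_trans ⟨q, by ring⟩ h))
  by_cases hbad : (p : ℤ) ∣ W.Δ
  · by_cases hv : p ∣ padicValInt p W.Δ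
    · exact lift_peu hΔ hW hp hirr hbad hv hmin
    · exact lift_tres hΔ hW hp hirr ⟨hbad, hv⟩ hmin
  · exact lift_good hΔ hW hp hirr hbad hmin

end FLTAgent.MLT

end
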