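import Fermat.Agent.MLT.DropSquare
import Fermat.Agent.SS.Newform
import Fermat.Agent.SS.Fibre
import Fermat.Agent.LL.MazurAbsent

/-!
An auxiliary prime at which the residual system is not special can be removed from the level, and a
congruence outside finitely many primes holds at all good primes.
-/

set_option autoImplicit false
set_option linter.unusedSectionVars false
set_option linter.style.haveILetI false
set_option maxHeartbeats 1000000

noncomputable section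

open IsLocalRing Polynomial WeierstrassCurve
open ModularFormClass
open FLTAgent.Attach (TFull HeckeLattice S2 GaloisInputs)

namespace FLTAgent.MLT

local notation "Ω" => AlgebraicClosure ℚ
local notation "GalQ" => AlgebraicClosure ℚ ≃ₐ[ℚ] AlgebraicClosure ℚ

variable {W : WeierstrassCurve ℤ} {p : ℕ}

/-- the residual system of an eigenform with a congruence outside finitely many primes -/
theorem exists_matching (hΔ : W.Δ ≠ 0) (hp : p.Prime) {N : ℕ} [NeZero N] {f : S2 N}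
    (hf : f.IsNormalizedEigenform) {𝔪 : Ideal (integralClosure ℤ ℂ)} (hmax : 𝔪.IsMaximal)
    (hpm : (p : integralClosure ℤ ℂ) ∈ 𝔪) (S : Finset ℕ)
    (hcong : ∀ ℓ : ℕ, ℓ.Prime → W.IsGoodPrimeFor ℓ → ¬ ℓ ∣ N → ℓ ≠ p → ℓ ∉ S →
      ∃ a : integralClosure ℤ ℂ, (a : ℂ) = qCoeff f ℓ ∧
        a - ((W.apOfModel ℓ : ℤ) : integralClosure ℤ ℂ) ∈ 𝔪) :
    ∃ (χ : TFull N →+* integralClosure ℤ ℂ) (O : Type) (_ : CommRing O) (_ : IsDomain O)
      (_ : IsDiscreteValuationRing O) (_ : IsAdicComplete (maximalIdeal O) O)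
      (_ : Finite (ResidueField O)) (_ : CharZero O) (hpO : (p : O) ∈ maximalIdeal O)
      (φ : TFull N →+* O) (D : HeckeLattice N) (ρ : GaloisRepAdic O) (S' : Finset ℕ),
      (∀ (ℓ : ℕ) (hℓ : ℓ.Prime) (hℓN : ¬ ℓ ∣ N),
        (χ (CuspForm.heckeAlgebra.T hℓ hℓN (Set.notMem_empty _)) : ℂ) = qCoeff f ℓ) ∧
      (∀ t, φ t ∈ maximalIdeal O ↔ χ t ∈ 𝔪) ∧
      (∀ (ℓ : ℕ) (hℓ : ℓ.Prime) (hℓN : ¬ ℓ ∣ N), ℓ ≠ p →
        ∀ A : ValuationSubring Ω, A.LiesOverPrime ℓ → ∀ τ : GalQ, A.IsFrobeniusAt τ ℓ →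
          LinearMap.charpoly (ρ.ρ τ) =
            X ^ 2 - C (φ (CuspForm.heckeAlgebra.T hℓ hℓN (Set.notMem_empty _))) * X + C (ℓ : O)) ∧
      (∀ (σ : GalQ) (qq : ℕ), Attach.cycR hp hpO σ = (qq : O) →
        (∃ t : TFull N, φ t ≠ 0 ∧
          SS.quartic qq (D.galMat hp hpO (σ * σ)) * D.mat (D.act t) = 0) →
        LinearMap.charpoly (ρ.ρ σ) = X ^ 2 - C ((qq : O) + 1) * X + C (qq : O) ∨
        LinearMap.charpoly (ρ.ρ σ) = X ^ 2 + C ((qq : O) + 1) * X + C (qq : O)) ∧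
      ResMatches W ρ.residual S' := by
  classical
  obtain ⟨χ, hχ⟩ := Attach.exists_eigenCharacter hf
  haveI := hmax
  obtain ⟨O, iC, iD, iV, iA, iF, iZ, hpO, φ, -, hφm⟩ := exists_point_over χ hp 𝔪 hpm
  obtain ⟨D⟩ := Attach.exists_heckeLattice N
  obtain ⟨ρ, hρ, -, hsp⟩ := SS.exists_galoisRepAdic_special hp hpO D (Attach.galoisInputs N) φ
  refine ⟨χ, O, iC, iD, iV, iA, iF, iZ, hpO, φ, D, ρ, insert p (S ∪ N.primeFactors), hχ, hφm, hρ,
    hsp, ?_⟩
  intro ℓ hℓ hℓS hgood A hA τ hτ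
  simp only [Finset.mem_insert, Finset.mem_union, Nat.mem_primeFactors, not_or] at hℓS
  obtain ⟨hℓp, hℓS, hℓN'⟩ := hℓS
  have hℓN : ¬ ℓ ∣ N := fun h => hℓN' ⟨hℓ, h, NeZero.ne N⟩
  obtain ⟨a, ha, ham⟩ := hcong ℓ hℓ hgood hℓN hℓp hℓS
  change LinearMap.charpoly ((ρ.ρ τ).baseChange (ResidueField O)) = _
  rw [LinearMap.charpoly_baseChange, hρ ℓ hℓ hℓN hℓp A hA τ hτ]
  have e : residue O (φ (CuspForm.heckeAlgebra.T hℓ hℓN (Set.notMem_empty _))) =
      ((W.apOfModel ℓ : ℤ) : ResidueField O) := by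
    rw [← sub_eq_zero, ← map_intCast (residue O), ← map_sub, residue_eq_zero_iff,
      ← map_intCast φ, ← map_sub, hφm, map_sub, map_intCast,
      show χ (CuspForm.heckeAlgebra.T hℓ hℓN (Set.notMem_empty _)) = a from
        Subtype.ext ((hχ ℓ hℓ hℓN).trans ha.symm)]
    exact ham
  simp [IsLocalRing.ResidueField.algebraMap_eq, e]

/-- a congruence outside a finite set is a congruence at all good primes -/
theorem residuallyModular_of_outside (hΔ : W.Δ ≠ 0) (hp : p.Prime) {N : ℕ} [NeZero N] {g : S2 N}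
    (hg : g.IsNormalizedEigenform) {𝔪 : Ideal (integralClosure ℤ ℂ)} (hmax : 𝔪.IsMaximal)
    (hpm : (p : integralClosure ℤ ℂ) ∈ 𝔪) (S : Finset ℕ)
    (hcong : ∀ ℓ : ℕ, ℓ.Prime → W.IsGoodPrimeFor ℓ → ¬ ℓ ∣ N → ℓ ≠ p → ℓ ∉ S →
      ∃ a : integralClosure ℤ ℂ, (a : ℂ) = qCoeff g ℓ ∧
        a - ((W.apOfModel ℓ : ℤ) : integralClosure ℤ ℂ) ∈ 𝔪) :
    W.IsResiduallyModularOfLevel p N := by
  obtain ⟨χ, O, iC, iD, iV, iA, iF, iZ, hpO, φ, D, ρ, S', hχ, hφm, hρ, -, hmatch⟩ :=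
    exists_matching hΔ hp hg hmax hpm S hcong
  refine ⟨g, 𝔪, hg, hmax, hpm, fun ℓ hℓ hgood hℓN hℓp => ?_⟩
  refine ⟨χ (CuspForm.heckeAlgebra.T hℓ hℓN (Set.notMem_empty _)), hχ ℓ hℓ hℓN, ?_⟩
  obtain ⟨A, σ, hA, hσ⟩ := Alg.exists_place_frobenius ℓ hℓ
  have hpF : (p : ResidueField O) = 0 := by
    rw [← map_natCast (residue O), residue_eq_zero_iff]; exact hpO
  have h := res_trace_good hΔ hp hpF hmatch hℓ hgood hℓp hA hσ
  change LinearMap.trace _ _ ((ρ.ρ σ).baseChange (ResidueField O)) = _ at h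
  rw [LinearMap.trace_baseChange, IsLocalRing.ResidueField.algebraMap_eq,
    SS.trace_of_charpoly ρ.finrank_eq (hρ ℓ hℓ hℓN hℓp A hA σ hσ), ← map_intCast (residue O),
    ← sub_eq_zero, ← map_sub, residue_eq_zero_iff, ← map_intCast φ, ← map_sub, hφm, map_sub,
    map_intCast] at h
  exact h

/-- the value of an operator polynomial at a congruent character -/
theorem residue_evalSub {N r : ℕ} [NeZero N] [NeZero r] (hp : p.Prime) {f : S2 (N * r)}
    {𝔪 : Ideal (integralClosure ℤ ℂ)} (χ : TFull (N * r) →+* integralClosure ℤ ℂ)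
    (hχ : ∀ (ℓ : ℕ) (hℓ : ℓ.Prime) (hℓN : ¬ ℓ ∣ N * r),
      (χ (CuspForm.heckeAlgebra.T hℓ hℓN (Set.notMem_empty _)) : ℂ) = qCoeff f ℓ)
    (hcong : ∀ ℓ : ℕ, ℓ.Prime → W.IsGoodPrimeFor ℓ → ¬ ℓ ∣ N * r → ℓ ≠ p →
      ∃ a : integralClosure ℤ ℂ, (a : ℂ) = qCoeff f ℓ ∧
        a - ((W.apOfModel ℓ : ℤ) : integralClosure ℤ ℂ) ∈ 𝔪)
    (hpm : (p : integralClosure ℤ ℂ) ∈ 𝔪) (h𝔪 : 𝔪.IsMaximal)
    (P : MvPolynomial (LL.SubPrime N r p W.IsGoodPrimeFor) ℤ) :
    χ (LL.evalSub W.IsGoodPrimeFor (N * r) dvd_rfl P) -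
      ((LL.evalA W.apOfModel W.IsGoodPrimeFor P).val : integralClosure ℤ ℂ) ∈ 𝔪 := by
  haveI := Fact.mk hp
  haveI : NeZero p := ⟨hp.ne_zero⟩
  let π := Ideal.Quotient.mk 𝔪
  haveI : CharP (integralClosure ℤ ℂ ⧸ 𝔪) p := by
    haveI : Nontrivial (integralClosure ℤ ℂ ⧸ 𝔪) := Ideal.Quotient.nontrivial_iff.mpr h𝔪.ne_top
    refine (CharP.charP_iff_prime_eq_zero hp).mpr ?_
    rw [← map_natCast π]
    exact Ideal.Quotient.eq_zero_iff_mem.mpr hpm
  let c : ZMod p →+* integralClosure ℤ ℂ ⧸ 𝔪 := ZMod.castHom dvd_rfl _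
  have h : π.comp (χ.comp (LL.evalSub W.IsGoodPrimeFor (N * r) dvd_rfl)) =
      c.comp (LL.evalA W.apOfModel W.IsGoodPrimeFor) := by
    refine MvPolynomial.ringHom_ext (fun z => ?_) fun x => ?_
    · simp
    · have hl := x.1.1.2
      obtain ⟨a, ha, ham⟩ := hcong _ hl x.2 x.1.2.1 x.1.2.2
      rw [RingHom.comp_apply, RingHom.comp_apply, RingHom.comp_apply, LL.evalSub_X]
      rw [show χ (CuspForm.heckeAlgebra.T hl x.1.2.1 (Set.notMem_empty _)) = a from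
        Subtype.ext ((hχ _ hl x.1.2.1).trans ha.symm),
        show LL.evalA W.apOfModel W.IsGoodPrimeFor (MvPolynomial.X x) =
          ((W.apOfModel (x.1.1 : ℕ) : ℤ) : ZMod p) by simp [LL.evalA], map_intCast,
        ← map_intCast π]
      exact Ideal.Quotient.eq.mpr ham
  rw [← Ideal.Quotient.eq, map_natCast]
  refine (RingHom.congr_fun h P).trans ?_
  rw [RingHom.comp_apply]
  conv_lhs => rw [← ZMod.natCast_zmod_val (LL.evalA W.apOfModel W.IsGoodPrimeFor P)]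
  rw [map_natCast]

/-- a prime at which the residual system is not special leaves the level -/
theorem residuallyModular_of_mul_aux (hΔ : W.Δ ≠ 0) (hp : p.Prime) {N r : ℕ} [NeZero N]
    (hr : r.Prime) (hrN : ¬ r ∣ N) (hrp : r ≠ p) (hgood : W.IsGoodPrimeFor r)
    (hna : ¬ (p : ℤ) ∣ W.apOfModel r ^ 2 - ((r : ℤ) + 1) ^ 2)
    (hmod : W.IsResiduallyModularOfLevel p (N * r)) : W.IsResiduallyModularOfLevel p N := by
  haveI := Fact.mk hp
  haveI : NeZero r := ⟨hr.ne_zero⟩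
  rcases LL.exists_killer_or_form (M := N) (q := r) W.apOfModel W.IsGoodPrimeFor hp hr with
    ⟨P, hP, hPa⟩ | ⟨g, 𝔪', hg, hmax', hpm', hg'⟩
  · exfalso
    obtain ⟨f, 𝔪, hf, hmax, hpm, hcong⟩ := hmod
    obtain ⟨χ, O, iC, iD, iV, iA, iF, iZ, hpO, φ, D, ρ, S', hχ, hφm, hρ, hsp, hmatch⟩ :=
      exists_matching hΔ hp hf hmax hpm ∅ fun ℓ h1 h2 h3 h4 _ => hcong ℓ h1 h2 h3 h4
    obtain ⟨A, σ, hA, hσ⟩ := Alg.exists_place_frobenius r hr
    obtain ⟨D0⟩ := Attach.exists_heckeLattice N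
    have hne : φ (LL.evalSub W.IsGoodPrimeFor (N * r) dvd_rfl P) ≠ 0 := fun h0 => by
      have h1 := (hφm _).mp (by rw [h0]; exact zero_mem _)
      have h2 := residue_evalSub hp χ hχ hcong hpm hmax P
      set v := LL.evalA W.apOfModel W.IsGoodPrimeFor P
      have h3 : ((v.val : ℕ) : integralClosure ℤ ℂ) ∈ 𝔪 := by
        have := sub_mem h1 h2
        rwa [sub_sub_cancel] at this
      have hcop : Nat.Coprime v.val p := (hp.coprime_iff_not_dvd.mpr fun hd => hPa (by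
        rw [← ZMod.natCast_zmod_val v, ZMod.natCast_eq_zero_iff]; exact hd)).symm
      obtain ⟨a, b, hab⟩ := (Nat.isCoprime_iff_coprime.mpr hcop)
      refine hmax.ne_top ((Ideal.eq_top_iff_one 𝔪).mpr ?_)
      have e : ((a * (v.val : ℤ) + b * (p : ℤ) : ℤ) : integralClosure ℤ ℂ) = 1 := by
        rw [hab, Int.cast_one]
      rw [← e, Int.cast_add, Int.cast_mul, Int.cast_mul, Int.cast_natCast, Int.cast_natCast]
      exact add_mem (𝔪.mul_mem_left _ h3) (𝔪.mul_mem_left _ hpm)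
    have hpF : (p : ResidueField O) = 0 := by
      rw [← map_natCast (residue O), residue_eq_zero_iff]; exact hpO
    have h := res_trace_good hΔ hp hpF hmatch hr hgood hrp hA hσ
    change LinearMap.trace _ _ ((ρ.ρ σ).baseChange (ResidueField O)) = _ at h
    rw [LinearMap.trace_baseChange, IsLocalRing.ResidueField.algebraMap_eq] at h
    obtain ⟨ε, hε, ht⟩ : ∃ ε : ℤ, ε ^ 2 = 1 ∧
        LinearMap.trace O ρ.V (ρ.ρ σ) = ((ε * ((r : ℤ) + 1) : ℤ) : O) := by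
      rcases hsp σ r (Attach.cycR_frobenius hp hpO hr hrp hA hσ)
          ⟨LL.evalSub W.IsGoodPrimeFor (N * r) dvd_rfl P, hne,
            SS.quartic_galMat hr hp hrp hpO hA (SS.fibreInputs ⟨hr, hrN, hA⟩) D D0
              (Attach.galoisInputs _) (Attach.galoisInputs _)
              (P := MvPolynomial.rename Subtype.val P) hP hσ⟩ with hc | hc
      · exact ⟨1, one_pow 2, by rw [SS.trace_of_charpoly ρ.finrank_eq hc]; push_cast; ring⟩
      · refine ⟨-1, by norm_num, ?_⟩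
        rw [SS.trace_of_charpoly ρ.finrank_eq (a := -((r : O) + 1)) (c := (r : O))
          (by rw [hc, map_neg]; ring)]
        push_cast; ring
    rw [ht, map_intCast, ← sub_eq_zero, ← Int.cast_sub] at h
    haveI : CharP (ResidueField O) p := (CharP.charP_iff_prime_eq_zero hp).mpr hpF
    rw [CharP.intCast_eq_zero_iff (ResidueField O) p] at h
    refine hna ?_
    have e : W.apOfModel r ^ 2 - ((r : ℤ) + 1) ^ 2 =
        -(ε * ((r : ℤ) + 1) - W.apOfModel r) * (W.apOfModel r + ε * ((r : ℤ) + 1)) := by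
      linear_combination ((r : ℤ) + 1) ^ 2 * hε
    rw [e]
    exact dvd_mul_of_dvd_left (dvd_neg.mpr h) _
  · exact residuallyModular_of_outside hΔ hp hg hmax' hpm' {r} fun ℓ h1 h2 h3 h4 h5 =>
      hg' ℓ h1 h2 h3 h4 fun e => h5 (Finset.mem_singleton.mpr e)

end FLTAgent.MLT

end
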