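import Fermat.Agent.MLT.SquareDefs
import Fermat.Agent.LR.Galois
import Fermat.Agent.EIS.Tame
import Fermat.Agent.Common.InertiaConj
import Fermat.Agent.Local.API
import Fermat.Agent.S52.MinusOne

/-!
Auxiliary primes `≡ 11 (mod 12)`: a semistable irreducible residual system at `p` has infinitely many
at which it is not special. The congruence classes are adjusted by inertia at `2` and `3`; at
`p = 3` an element of determinant `-1` and nonzero trace exists since otherwise the image would be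
generated by one inertia group and commutative.
-/

set_option autoImplicit false
set_option linter.unusedSectionVars false
set_option linter.style.haveILetI false
set_option maxHeartbeats 1000000

noncomputable section

open Matrix WeierstrassCurve
open FLTAgent.Attach (cyc powerTrace)
open FLTAgent.Torsion (Tors xcoord ycoord)
open FLTAgent.Local (QPoint SemistableAt)
open scoped WeierstrassCurve.Affine

namespace FLTAgent.MLT

local notation "Qb" => AlgebraicClosure ℚ
local notation "GalQ" => AlgebraicClosure ℚ ≃ₐ[ℚ] AlgebraicClosure ℚ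

/-! ### two by two matrices -/

section Linear

variable {k : Type} [Field k] {G : Type*} [Group G] {r : G →* Matrix (Fin 2) (Fin 2) k}

theorem eq_zero_of_sandwich (hspan : Submodule.span k (Set.range r) = ⊤)
    {N : Matrix (Fin 2) (Fin 2) k} (h : ∀ g, N * r g * N = 0) : N = 0 := by
  ext i j
  have hX := LR.forall_of_span hspan
    ((LinearMap.proj j : (Fin 2 → k) →ₗ[k] k).comp ((LinearMap.proj i).comp
      ((LinearMap.mulLeft k N).comp (LinearMap.mulRight k N))))
    (fun g => by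
      show (N * (r g * N)) i j = 0
      rw [← Matrix.mul_assoc, h g, Matrix.zero_apply]) (single j i (1 : k))
  change (N * (single j i (1 : k) * N)) i j = 0 at hX
  simpa [Matrix.mul_apply, single, Fin.sum_univ_two, Matrix.zero_apply] using
    (show N i j * N i j = 0 by
      rw [← hX]
      fin_cases i <;> fin_cases j <;> simp [Matrix.mul_apply, single, Fin.sum_univ_two])

/-- a commutative span is scalar -/
theorem eq_scalar_of_commute (hspan : Submodule.span k (Set.range r) = ⊤)
    {T : Matrix (Fin 2) (Fin 2) k} (h : ∀ g, r g * T = T * r g) :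
    T 0 1 = 0 ∧ T 1 0 = 0 ∧ T 0 0 = T 1 1 := by
  have hX : ∀ (X : Matrix (Fin 2) (Fin 2) k) (i j : Fin 2), (X * T - T * X) i j = 0 := fun X i j =>
    LR.forall_of_span hspan
      ((LinearMap.proj j : (Fin 2 → k) →ₗ[k] k).comp ((LinearMap.proj i).comp
        (LinearMap.mulRight k T - LinearMap.mulLeft k T)))
      (fun g => by
        show (r g * T - T * r g) i j = 0
        rw [h g, sub_self, Matrix.zero_apply]) X
  refine ⟨?_, ?_, ?_⟩
  · simpa [Matrix.mul_apply, single, Fin.sum_univ_two] using hX (single 1 0 1) 1 1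
  · simpa [Matrix.mul_apply, single, Fin.sum_univ_two] using hX (single 0 1 1) 0 0
  · have := hX (single 0 1 1) 0 1
    simp [Matrix.mul_apply, single, Fin.sum_univ_two, sub_eq_zero] at this
    exact this.symm

variable (h3 : (3 : k) = 0) (hk : ∀ t : k, t ≠ 0 → t * t = 1) (hspan : Submodule.span k (Set.range r) = ⊤)
  (hd : ∀ g, (r g).det = 1 ∨ (r g).det = -1)
  (hz : ∀ g, (r g).det = -1 → (r g).trace = 0)
  {c : G} (hc : (r c).det = -1)

include h3 hz in
theorem sq_eq_one {g : G} (hg : (r g).det = -1) : r g * r g = 1 := by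
  rw [Attach.sq_fin_two, hz g hg, hg, zero_smul, zero_sub, neg_smul, one_smul, neg_neg]

include h3 hz in
theorem conj_eq_inv {g x : G} (hg : (r g).det = 1) (hx : (r x).det = -1) :
    r g * r x * r g = r x ∧ r x * r g * r x = r g⁻¹ := by
  have h1 : (r (x * g)).det = -1 := by rw [map_mul, det_mul, hx, hg, mul_one]
  have h2 := sq_eq_one h3 hz h1
  rw [map_mul] at h2
  have hxx := sq_eq_one h3 hz hx
  have e1 : r g * r g⁻¹ = 1 := by rw [← map_mul, mul_inv_cancel, map_one]
  constructor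
  · calc r g * r x * r g = r x * r x * (r g * r x * r g) := by rw [hxx, one_mul]
      _ = r x * (r x * r g * (r x * r g)) := by simp only [Matrix.mul_assoc]
      _ = r x := by rw [h2, mul_one]
  · calc r x * r g * r x = r x * r g * r x * (r g * r g⁻¹) := by rw [e1, mul_one]
      _ = (r x * r g * (r x * r g)) * r g⁻¹ := by simp only [Matrix.mul_assoc]
      _ = r g⁻¹ := by rw [h2, one_mul]

include h3 hk hspan hd hz hc in
theorem sq_eq_sign {g : G} (hg : (r g).det = 1) :
    r g * r g = 1 ∨ r g * r g = -1 := by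
  set t := (r g).trace
  have hch : r g * r g = t • r g - 1 := by rw [Attach.sq_fin_two, hg, one_smul]
  by_cases ht : t = 0
  · right; rw [hch, ht, zero_smul, zero_sub]
  have hinv : r g⁻¹ = t • 1 - r g := by
    have e1 : r g⁻¹ * r g = 1 := by rw [← map_mul, inv_mul_cancel, map_one]
    calc r g⁻¹ = r g⁻¹ * (r g * (t • 1 - r g)) := by
          rw [mul_sub, mul_smul_comm, mul_one, hch, sub_sub_cancel, mul_one]
      _ = t • 1 - r g := by rw [← Matrix.mul_assoc, e1, one_mul]
  -- `t = 2 μ` with `μ = ±1`: here `μ = -t`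
  set N := r g + t • (1 : Matrix (Fin 2) (Fin 2) k) with hN
  have hsemi : ∀ x, r x * N = N * r x ∨ r x * N = -(N * r x) := fun x => by
    rcases hd x with hx | hx
    · left
      have e : r (g * x) = r (x * g) := by
        have a := (conj_eq_inv h3 hz (g := g * x) (x := c)
          (by rw [map_mul, det_mul, hg, hx, one_mul]) hc).2
        have b := (conj_eq_inv h3 hz hg hc).2
        have b' := (conj_eq_inv h3 hz hx hc).2
        have hcc := sq_eq_one h3 hz hc
        have e' : r (g * x)⁻¹ = r (x * g)⁻¹ := by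
          rw [_root_.mul_inv_rev x g, map_mul, ← a, map_mul, ← b, ← b']
          calc r c * (r g * r x) * r c = r c * r g * (r c * r c) * (r x * r c) := by
                rw [hcc, mul_one]; simp only [Matrix.mul_assoc]
            _ = _ := by simp only [Matrix.mul_assoc]
        calc r (g * x) = r (g * x) * (r (x * g)⁻¹ * r (x * g)) := by
              rw [← map_mul r (x * g)⁻¹, inv_mul_cancel, map_one, mul_one]
          _ = r (g * x) * r (g * x)⁻¹ * r (x * g) := by rw [e', Matrix.mul_assoc]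
          _ = r (x * g) := by rw [← map_mul r (g * x), mul_inv_cancel, map_one, one_mul]
      rw [map_mul, map_mul] at e
      rw [hN, mul_add, add_mul, mul_smul_comm, smul_mul_assoc, mul_one, one_mul, e]
    · right
      have h1 := (conj_eq_inv h3 hz hg hx).2
      have hxx := sq_eq_one h3 hz hx
      have e : r x * N * r x = -N := by
        rw [hN, mul_add, add_mul, h1, mul_smul_comm, smul_mul_assoc, mul_one, hxx, hinv]
        have h2t : t + t + t = 0 := by linear_combination t * h3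
        rw [neg_add, sub_add_eq_add_sub, ← add_smul,
          show t + t = -t by linear_combination h2t, neg_smul]
        abel
      calc r x * N = r x * N * (r x * r x) := by rw [hxx, mul_one]
        _ = r x * N * r x * r x := by simp only [Matrix.mul_assoc]
        _ = -(N * r x) := by rw [e, neg_mul]
  have ht2 : t * t = 1 := hk t ht
  have hNN : N * N = 0 := by
    rw [hN, add_mul, mul_add, mul_add, hch, smul_mul_assoc, smul_mul_assoc, mul_smul_comm,
      one_mul, mul_one, one_mul, smul_smul, ht2, one_smul, sub_add_eq_add_sub, ← add_smul,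
      show t + t = -t by linear_combination t * h3, neg_smul]
    abel
  have hN0 : N = 0 := eq_zero_of_sandwich hspan fun x => by
    rcases hsemi x with h | h
    · rw [Matrix.mul_assoc, h, ← Matrix.mul_assoc, hNN, zero_mul]
    · rw [Matrix.mul_assoc, h, mul_neg, ← Matrix.mul_assoc, hNN, zero_mul, neg_zero]
  left
  rw [hch, eq_neg_of_add_eq_zero_left hN0, smul_neg, smul_smul, ht2, one_smul]
  rw [show -(1 : Matrix (Fin 2) (Fin 2) k) - 1 = ((-2 : k)) • 1 by rw [neg_smul, two_smul]; abel,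
    show (-2 : k) = 1 by linear_combination -h3, one_smul]

include h3 hk hspan hd hz hc in
theorem pow_four (g : G) : r g ^ 4 = 1 := by
  rw [show 4 = 2 * 2 from rfl, pow_mul, pow_two (r g)]
  rcases hd g with hg | hg
  · rcases sq_eq_sign h3 hk hspan hd hz hc hg with h | h <;> rw [h]
    · rw [one_pow]
    · rw [neg_one_sq]
  · rw [sq_eq_one h3 hz hg, one_pow]

include h3 hk hspan hd hz hc in
/-- conjugates of a reflection are the reflection up to sign -/
theorem conj_reflection {x : G} (hx : (r x).det = -1) (g : G) :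
    r g * r x = r x * r g ∨ r g * r x = -(r x * r g) := by
  have key : ∀ s : G, (r s).det = 1 →
      r s * r x = r x * r s ∨ r s * r x = -(r x * r s) := fun s hs => by
    obtain ⟨h1, -⟩ := conj_eq_inv h3 hz hs hx
    have e1 : r s * r s⁻¹ = 1 := by rw [← map_mul, mul_inv_cancel, map_one]
    have e2 : r s * r x = r x * r s⁻¹ := by
      calc r s * r x = r s * r x * (r s * r s⁻¹) := by rw [e1, mul_one]
        _ = r x * r s⁻¹ := by rw [← Matrix.mul_assoc, h1]
    rcases sq_eq_sign h3 hk hspan hd hz hc hs with h | h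
    · left
      rw [e2]; congr 1
      calc r s⁻¹ = r s * r s * r s⁻¹ := by rw [h, one_mul]
        _ = r s := by rw [Matrix.mul_assoc, e1, mul_one]
    · right
      rw [e2, ← mul_neg]; congr 1
      calc r s⁻¹ = -(r s * r s * r s⁻¹) := by rw [h, neg_one_mul, neg_neg]
        _ = -r s := by rw [Matrix.mul_assoc, e1, mul_one]
  rcases hd g with hg | hg
  · exact key g hg
  · have hxx := sq_eq_one h3 hz hx
    have hgeq : r g = r (g * x) * r x := by rw [map_mul, Matrix.mul_assoc, hxx, mul_one]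
    rcases key (g * x) (by rw [map_mul, det_mul, hg, hx, neg_one_mul, neg_neg]) with h | h
    · left; rw [hgeq, ← Matrix.mul_assoc (r x) (r (g * x)), ← h]
    · right; rw [hgeq, ← Matrix.mul_assoc (r x) (r (g * x)), ← neg_mul, h, neg_mul]

end Linear

/-! ### inertia and roots of unity -/

theorem cyc_conj_general (n : ℕ) [NeZero n] : cyc n complexConjugation = -1 := by
  rcases eq_or_ne n 1 with rfl | hn
  · exact Subsingleton.elim _ _
  haveI : Fact (1 < n) := ⟨by have := NeZero.ne n; omega⟩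
  refine Attach.cyc_unique _ _ fun z hz => ?_
  have h1 : complexConjugation z = z⁻¹ := by
    refine complexEmbedding.injective ?_
    show complexEmbedding (complexConjugation z) = complexEmbedding z⁻¹
    rw [complexEmbedding_complexConjugation, map_inv₀]
    have hn' : ‖complexEmbedding z‖ = 1 := Complex.norm_eq_one_of_pow_eq_one
      (by rw [← map_pow, hz, map_one]) (NeZero.ne n)
    rw [Complex.inv_def, Complex.normSq_eq_norm_sq, hn']
    simp
  rw [h1]
  refine inv_eq_of_mul_eq_one_right ?_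
  rw [← pow_succ', ZMod.neg_val, if_neg one_ne_zero, ZMod.val_one,
    Nat.sub_add_cancel (NeZero.one_le), hz]

/-- a root of unity moved by complex conjugation is moved by some inertia element -/
theorem exists_inertia_cyc_ne (n : ℕ) [NeZero n] (hn : (-1 : ZMod n) ≠ 1) :
    ∃ (q : ℕ) (V : ValuationSubring Qb), q.Prime ∧ q ∣ n ∧ V.LiesOverPrime q ∧
      ∃ τ ∈ V.inertiaSubgroupIn ℚ, cyc n τ ≠ 1 := by
  by_contra hcon
  push Not at hcon
  let φ : GalQ →* ZMod n :=
    { toFun := cyc n, map_one' := Attach.cyc_one n, map_mul' := Attach.cyc_mul n }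
  obtain ⟨L, hL, hfix⟩ := Attach.exists_cyc_level n
  haveI := hL
  have htop := Common.eq_top_of_inertia_le L (MonoidHom.ker φ)
    (fun g hg => (show cyc n g = 1 from hfix g fun z hz =>
      (IntermediateField.mem_fixingSubgroup_iff _ _).mp hg z hz))
    fun q hq V hV τ hτ => (show cyc n τ = 1 from by
      by_cases hqn : q ∣ n
      · exact hcon q V hq hqn hV τ hτ
      · exact Attach.cyc_inertia hq hqn hV hτ)
  have h : φ complexConjugation = 1 :=
    MonoidHom.mem_ker.mp (htop ▸ Subgroup.mem_top complexConjugation)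
  exact hn ((cyc_conj_general n).symm.trans h)

theorem cyc_pow_general (n : ℕ) [NeZero n] (σ : GalQ) : ∀ m : ℕ, cyc n (σ ^ m) = cyc n σ ^ m
  | 0 => by rw [pow_zero, pow_zero, Attach.cyc_one]
  | m + 1 => by rw [pow_succ, Attach.cyc_mul, cyc_pow_general n σ m, pow_succ]

theorem cyc_cases {n : ℕ} [NeZero n] (hn : n = 3 ∨ n = 4) (σ : GalQ) :
    cyc n σ = 1 ∨ cyc n σ = -1 := by
  have h : cyc n σ * cyc n σ⁻¹ = 1 := by rw [← Attach.cyc_mul, mul_inv_cancel, Attach.cyc_one]
  revert h
  generalize cyc n σ = a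
  generalize cyc n σ⁻¹ = b
  rcases hn with rfl | rfl <;> revert a b <;> decide

theorem zmod3_facts : (3 : ZMod 3) = 0 ∧ (∀ t : ZMod 3, t ≠ 0 → t * t = 1) ∧ (2 : ZMod 3) ≠ 0 := by
  decide

theorem det_one_of_inertia {W : WeierstrassCurve ℤ} {p : ℕ} [Fact p.Prime]
    {r : GalQ →* Matrix (Fin 2) (Fin 2) (ZMod p)}
    (hdet : ∀ σ, (r σ).det = cyc p σ) {q : ℕ} (hq : q.Prime) (hqp : q ≠ p)
    {A : ValuationSubring Qb} (hA : A.LiesOverPrime q) {σ : GalQ}
    (hσ : σ ∈ A.inertiaSubgroupIn ℚ) : (r σ).det = 1 := by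
  rw [hdet]
  exact Attach.cyc_inertia hq
    (fun h => hqp ((Nat.prime_dvd_prime_iff_eq hq Fact.out).mp h)) hA hσ

theorem sub_one_sq_of_inertia {W : WeierstrassCurve ℤ} {p : ℕ} [Fact p.Prime] (hp2 : p ≠ 2)
    {r : GalQ →* Matrix (Fin 2) (Fin 2) (ZMod p)} {e : Tors W p ≃ₗ[ZMod p] (Fin 2 → ZMod p)}
    (he : ∀ σ x, e (σ • x) = r σ *ᵥ e x) {q : ℕ} (hq : q.Prime) (hqp : q ≠ p)
    (hss : SemistableAt W q) {A : ValuationSubring Qb} (hA : A.LiesOverPrime q) {σ : GalQ}
    (hσ : σ ∈ A.inertiaSubgroupIn ℚ) : (r σ - 1) * (r σ - 1) = 0 := by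
  refine Matrix.ext_of_mulVec_single fun j => ?_
  obtain ⟨x, hx⟩ := e.surjective (Pi.single j 1)
  have h1 : σ • (σ • x - x) = σ • x - x := Subtype.ext (Local.inertia_unipotent hA hq hss Fact.out
    hp2 hqp hσ (by rw [← natCast_zsmul]; exact (Submodule.mem_torsionBy_iff _ _).mp x.2))
  rw [Matrix.zero_mulVec, ← Matrix.mulVec_mulVec, ← hx]
  simp only [Matrix.sub_mulVec, Matrix.one_mulVec, ← he, ← map_sub, Matrix.mulVec_sub, h1,
    sub_self, map_zero]

/-- at `p = 3` some element has determinant `-1` and nonzero trace -/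
theorem exists_trace_ne_three {W : WeierstrassCurve ℤ} (hΔ : W.Δ ≠ 0)
    (hss : W.IsSemistableModel) [Fact (Nat.Prime 3)]
    {r : GalQ →* Matrix (Fin 2) (Fin 2) (ZMod 3)} {e : Tors W 3 ≃ₗ[ZMod 3] (Fin 2 → ZMod 3)}
    (hspan : Submodule.span (ZMod 3) (Set.range r) = ⊤)
    (he : ∀ σ x, e (σ • x) = r σ *ᵥ e x) (hdet : ∀ σ, (r σ).det = cyc 3 σ) :
    ∃ σ, (r σ).det = -1 ∧ (r σ).trace ≠ 0 := by
  classical
  by_contra hcon
  push Not at hcon
  obtain ⟨h3, hk, h2⟩ := zmod3_facts
  have hd : ∀ g, (r g).det = 1 ∨ (r g).det = -1 := fun g =>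
    hdet g ▸ cyc_cases (Or.inl rfl) g
  have hc : (r complexConjugation).det = -1 := by rw [hdet, cyc_conj_general]
  have h4 := fun g => pow_four h3 hk hspan hd hcon hc g
  -- unramified away from `3`
  have hunr : ∀ q : ℕ, q.Prime → q ≠ 3 → ∀ A : ValuationSubring Qb, A.LiesOverPrime q →
      ∀ σ ∈ A.inertiaSubgroupIn ℚ, r σ = 1 := by
    intro q hq hq3 A hA σ hσ
    have hu := sub_one_sq_of_inertia (p := 3) (by norm_num) he hq hq3 (hss q hq) hA hσ
    have hd1 := det_one_of_inertia (W := W) hdet hq hq3 hA hσ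
    have e2 : r σ * r σ = (2 : ZMod 3) • r σ - 1 := by
      rw [two_smul, eq_sub_iff_add_eq, ← sub_eq_zero, ← hu, sub_mul, mul_sub, one_mul, mul_one]
      abel
    rcases sq_eq_sign h3 hk hspan hd hcon hc hd1 with h | h
    · rw [h, eq_sub_iff_add_eq, ← two_smul (ZMod 3)] at e2
      exact (smul_right_injective _ h2 e2).symm
    · rw [h, eq_sub_iff_add_eq, neg_add_cancel] at e2
      rw [(smul_eq_zero.mp e2.symm).resolve_left h2, det_zero] at hd1
      exact absurd hd1 zero_ne_one
  -- the field of the three-torsion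
  haveI := Torsion.isElliptic_curveBar hΔ
  haveI : Finite (Tors W 3) :=
    Torsion.finite_torsionBy (Torsion.curveBar W) 3 (by norm_num)
  set S0 : Set Qb := Set.range (fun x : Tors W 3 => xcoord (x : QPoint W)) ∪
    Set.range (fun x : Tors W 3 => ycoord (x : QPoint W))
  haveI : Finite S0 := ((Set.finite_range _).union (Set.finite_range _)).to_subtype
  haveI := Common.isAlgebraic_qbar
  set L := IntermediateField.adjoin ℚ S0
  haveI : FiniteDimensional ℚ L :=
    IntermediateField.finiteDimensional_adjoin fun z _ => Algebra.IsIntegral.isIntegral z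
  have hrfix : ∀ g : GalQ, (∀ z ∈ L, g z = z) → r g = 1 := fun g hg => by
    refine Matrix.ext_of_mulVec_single fun j => ?_
    obtain ⟨x, hx⟩ := e.surjective (Pi.single j 1)
    rw [Matrix.one_mulVec, ← hx, ← he]
    congr 1
    refine Subtype.ext ?_
    rw [Torsion.coe_smul]
    refine (S52.xcoord_ycoord_ext g 1 _ ?_ ?_).trans (one_smul GalQ _)
    · exact hg _ (IntermediateField.subset_adjoin ℚ S0 (Or.inl ⟨x, rfl⟩))
    · exact hg _ (IntermediateField.subset_adjoin ℚ S0 (Or.inr ⟨x, rfl⟩))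
  have hfix : ∀ g : GalQ, r g = 1 → ∀ z ∈ L, g z = z := by
    intro g hg
    have hx : ∀ x : Tors W 3, g • x = x := fun x => e.injective (by
      rw [he, hg, Matrix.one_mulVec])
    have hle : L ≤ IntermediateField.fixedField (Subgroup.zpowers g) := by
      rw [IntermediateField.adjoin_le_iff]
      rintro z hs ⟨h, n, rfl⟩
      show (g ^ n) • z = z
      refine MulAction.mem_stabilizer_iff.1 (Subgroup.zpow_mem _ (MulAction.mem_stabilizer_iff.2 ?_) n)
      rcases hs with ⟨x, rfl⟩ | ⟨x, rfl⟩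
      · show g (xcoord (x : QPoint W)) = _
        rw [← (Torsion.xcoord_smul g _).1, ← Torsion.coe_smul, hx]
      · show g (ycoord (x : QPoint W)) = _
        rw [← (Torsion.xcoord_smul g _).2, ← Torsion.coe_smul, hx]
    exact fun z hz => hle hz ⟨g, Subgroup.mem_zpowers g⟩
  have hLstab : ∀ σ : GalQ, ∀ z ∈ L, σ z ∈ L := fun σ z hz => by
    have hle : L.map (σ : Qb →ₐ[ℚ] Qb) ≤ L := by
      rw [IntermediateField.adjoin_map, IntermediateField.adjoin_le_iff]
      rintro _ ⟨_, ⟨x, rfl⟩ | ⟨x, rfl⟩, rfl⟩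
      · refine IntermediateField.subset_adjoin ℚ S0 (Or.inl ⟨σ • x, ?_⟩)
        show xcoord ((σ • x : Tors W 3) : QPoint W) = σ (xcoord (x : QPoint W))
        rw [Torsion.coe_smul, (Torsion.xcoord_smul σ _).1]
      · refine IntermediateField.subset_adjoin ℚ S0 (Or.inr ⟨σ • x, ?_⟩)
        show ycoord ((σ • x : Tors W 3) : QPoint W) = σ (ycoord (x : QPoint W))
        rw [Torsion.coe_smul, (Torsion.xcoord_smul σ _).2]
    exact hle ⟨z, hz, rfl⟩
  have hrn : ∀ g (m : ℕ) h, (∀ z ∈ L, h z = (g ^ m) z) → r h = r g ^ m := fun g m h hh => by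
    have h1 : r ((g ^ m)⁻¹ * h) = 1 := hrfix _ fun z hz => by
      rw [AlgEquiv.mul_apply, hh z hz]; exact (g ^ m).symm_apply_apply z
    calc r h = r (g ^ m * ((g ^ m)⁻¹ * h)) := by rw [mul_inv_cancel_left]
      _ = r g ^ m := by rw [map_mul, h1, mul_one, map_pow]
  -- tame inertia at `3`
  obtain ⟨q, V, hq, hq3, hV, τ, hτ, hτ1⟩ := exists_inertia_cyc_ne 3 (by decide)
  obtain rfl : q = 3 := (Nat.prime_dvd_prime_iff_eq hq Nat.prime_three).mp hq3
  obtain ⟨t, ht, htgen, -⟩ := EIS.exists_tame_generator (q := 3) (r := 2) (k := 3) hq hV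
    Nat.prime_two (by norm_num) L hLstab
    (fun ζ hζ => by
      rcases sq_eq_one_iff.mp hζ with rfl | rfl
      exacts [one_mem L, neg_mem (one_mem L)])
    (fun σ _ z hz => hfix _ (by
      rw [map_pow, show (2 : ℕ) ^ 3 = 4 * 2 from rfl, pow_mul, h4, one_pow]) z hz)
  have htd : (r t).det = -1 := by
    obtain ⟨m, hm⟩ := htgen τ hτ
    refine (hd t).resolve_left fun h1 => hτ1 ?_
    rw [← hdet, hrn t m τ hm, det_pow, h1, one_pow]
  let N : Subgroup GalQ :=
    { carrier := {g | r g * r t = r t * r g}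
      one_mem' := by simp
      mul_mem' := fun {a b} ha hb => by
        simp only [Set.mem_setOf_eq, map_mul] at *
        rw [Matrix.mul_assoc, hb, ← Matrix.mul_assoc, ha, Matrix.mul_assoc]
      inv_mem' := fun {a} ha => by
        simp only [Set.mem_setOf_eq] at *
        have e1 : r a⁻¹ * r a = 1 := by rw [← map_mul, inv_mul_cancel, map_one]
        have e2 : r a * r a⁻¹ = 1 := by rw [← map_mul, mul_inv_cancel, map_one]
        calc r a⁻¹ * r t = r a⁻¹ * (r t * r a) * r a⁻¹ := by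
              rw [Matrix.mul_assoc, Matrix.mul_assoc, e2, mul_one]
          _ = r t * r a⁻¹ := by rw [← ha, ← Matrix.mul_assoc, e1, one_mul] }
  haveI : N.Normal := ⟨fun g hg h => by
    show r (h * g * h⁻¹) * r t = r t * r (h * g * h⁻¹)
    simp only [map_mul]
    have e1 : r h⁻¹ * r h = 1 := by rw [← map_mul, inv_mul_cancel, map_one]
    have e2 : r h * r h⁻¹ = 1 := by rw [← map_mul, mul_inv_cancel, map_one]
    obtain ⟨ε, hε, hh⟩ : ∃ ε : ZMod 3, ε * ε = 1 ∧ r h * r t = ε • (r t * r h) := by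
      rcases conj_reflection h3 hk hspan hd hcon hc htd h with hh | hh
      exacts [⟨1, one_mul 1, by rw [one_smul, hh]⟩, ⟨-1, by ring, by rw [neg_one_smul, hh]⟩]
    have hh2 : r t * r h = ε • (r h * r t) := by rw [hh, smul_smul, hε, one_smul]
    have hi : r h⁻¹ * r t = ε • (r t * r h⁻¹) := by
      calc r h⁻¹ * r t = r h⁻¹ * r t * (r h * r h⁻¹) := by rw [e2, mul_one]
        _ = r h⁻¹ * (r t * r h) * r h⁻¹ := by simp only [Matrix.mul_assoc]
        _ = ε • (r t * r h⁻¹) := by
          rw [hh2, mul_smul_comm, smul_mul_assoc, ← Matrix.mul_assoc (r h⁻¹), e1, one_mul]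
    calc r h * r g * r h⁻¹ * r t = ε • (r h * (r g * r t) * r h⁻¹) := by
          rw [Matrix.mul_assoc _ (r h⁻¹), hi, mul_smul_comm]; simp only [Matrix.mul_assoc]
      _ = ε • (r h * r t * (r g * r h⁻¹)) := by
          rw [show r g * r t = r t * r g from hg]; simp only [Matrix.mul_assoc]
      _ = r t * (r h * r g * r h⁻¹) := by
          rw [hh, smul_mul_assoc, smul_smul, hε, one_smul]; simp only [Matrix.mul_assoc]⟩
  have hIV : V.inertiaSubgroupIn ℚ ≤ N := fun σ hσ => by
    obtain ⟨m, hm⟩ := htgen σ hσ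
    show r σ * r t = r t * r σ
    rw [hrn t m σ hm, ← pow_succ, ← pow_succ']
  have htop : N = ⊤ := Common.eq_top_of_inertia_le L N
    (fun g hg => by
      show r g * r t = r t * r g
      rw [hrfix g fun z hz => (IntermediateField.mem_fixingSubgroup_iff _ _).mp hg z hz, one_mul,
        mul_one])
    fun q' hq' V' hV' => by
      by_cases h : q' = 3
      · subst h; exact Common.inertia_le_of_inertia_le hq' hV hV' hIV
      · intro σ hσ
        show r σ * r t = r t * r σ
        rw [hunr q' hq' h V' hV' σ hσ, one_mul, mul_one]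
  obtain ⟨h01, -, h00⟩ := eq_scalar_of_commute hspan fun g =>
    (htop ▸ Subgroup.mem_top g : g ∈ N)
  have htr0 := hcon t htd
  rw [Matrix.trace_fin_two, ← h00] at htr0
  have h000 : r t 0 0 = 0 := (mul_eq_zero.mp
    (show (2 : ZMod 3) * r t 0 0 = 0 by rw [two_mul]; exact htr0)).resolve_left h2
  rw [Matrix.det_fin_two, h01, h000] at htd
  simp at htd

/-- inertia at `q` changes the residue class modulo `n` and not the image -/
theorem exists_adjust {W : WeierstrassCurve ℤ} {p : ℕ} [Fact p.Prime] (hp2 : p ≠ 2)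
    (hss : W.IsSemistableModel)
    {r : GalQ →* Matrix (Fin 2) (Fin 2) (ZMod p)} {e : Tors W p ≃ₗ[ZMod p] (Fin 2 → ZMod p)}
    (he : ∀ σ x, e (σ • x) = r σ *ᵥ e x) {n q₀ : ℕ} [NeZero n] (hn : n = 3 ∨ n = 4)
    (hq₀ : ∀ q : ℕ, q.Prime → q ∣ n → q = q₀) (hpq : q₀ ≠ p) {m : ℕ} [NeZero m] (hm : ¬ q₀ ∣ m) :
    ∃ τ : GalQ, r τ = 1 ∧ cyc n τ = -1 ∧ cyc m τ = 1 := by
  have hp : p.Prime := Fact.out
  obtain ⟨q, V, hq, hqn, hV, τ, hτ, hτ1⟩ := exists_inertia_cyc_ne n (by
    rcases hn with rfl | rfl <;> decide)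
  obtain rfl := hq₀ q hq hqn
  have hpow : ∀ (k : ℕ) [NeZero k] (c : ZMod k), cyc k τ = c → cyc k (τ ^ p) = c ^ p :=
    fun k _ c hc => by rw [cyc_pow_general, hc]
  refine ⟨τ ^ p, ?_, ?_, ?_⟩
  · set N := r τ - 1
    have hN : N * N = 0 := sub_one_sq_of_inertia hp2 he hq hpq (hss q hq) hV hτ
    have h : ∀ j : ℕ, r τ ^ j = 1 + (j : ZMod p) • N := by
      intro j
      induction j with
      | zero => simp
      | succ j ih =>
        rw [pow_succ, ih, show r τ = 1 + N from (add_sub_cancel _ _).symm, add_mul, one_mul,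
          mul_add, mul_one, smul_mul_assoc, hN, smul_zero, add_zero, Nat.cast_succ, add_smul,
          one_smul]
        abel
    rw [map_pow, h p, ZMod.natCast_self, zero_smul, add_zero]
  · rw [hpow n _ ((cyc_cases hn τ).resolve_left hτ1)]
    exact (hp.odd_of_ne_two hp2).neg_one_pow
  · rw [hpow m 1 (Attach.cyc_inertia hq hm hV hτ), one_pow]

/-- semistable irreducible systems have auxiliary primes -/
theorem auxPrimes {W : WeierstrassCurve ℤ} (hΔ : W.Δ ≠ 0) (hss : W.IsSemistableModel) {p : ℕ}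
    (hp : p.Prime) (hp2 : p ≠ 2) (hirr : W.ModRepIsIrreducible p) : AuxPrimes W p := by
  classical
  intro N
  haveI : Fact p.Prime := ⟨hp⟩
  obtain ⟨r, e, hspan, he, htr, hdet⟩ := TOR.exists_matrix_rep (p := p) hΔ hp2 hirr
  obtain ⟨σ, hσ, hσ3, hσ4⟩ : ∃ σ : GalQ,
      (r σ).trace ^ 2 ≠ (1 + (r σ).det) ^ 2 ∧ cyc 3 σ = -1 ∧ cyc 4 σ = -1 := by
    obtain ⟨g, hg, hg3⟩ : ∃ g : GalQ, (r g).trace ^ 2 ≠ (1 + (r g).det) ^ 2 ∧ cyc 3 g = -1 := by
      by_cases hp3 : p = 3
      · subst hp3
        obtain ⟨g, hgd, hgt⟩ := exists_trace_ne_three hΔ hss hspan he hdet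
        refine ⟨g, fun h => hgt ?_, hdet g ▸ hgd⟩
        rw [hgd, add_neg_cancel, zero_pow two_ne_zero] at h
        exact pow_eq_zero_iff two_ne_zero |>.mp h
      · obtain ⟨g, hg⟩ := LR.exists_trace_sq_ne hspan (LR.two_ne_zero_zmod hp hp2)
          complexConjugation_mul_self (by rw [hdet, TOR.cyc_conj hp2])
        rcases cyc_cases (Or.inl rfl) g (n := 3) with h3 | h3
        · obtain ⟨τ, hτ, hτn, -⟩ := exists_adjust hp2 hss he (n := 3) (Or.inl rfl) (q₀ := 3)
            (fun q hq h => (Nat.prime_dvd_prime_iff_eq hq Nat.prime_three).mp h) (Ne.symm hp3)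
            (m := 4) (by decide)
          exact ⟨g * τ, by rwa [map_mul, hτ, mul_one],
            by rw [Attach.cyc_mul, h3, hτn, one_mul]⟩
        · exact ⟨g, hg, h3⟩
    rcases cyc_cases (Or.inr rfl) g (n := 4) with h4 | h4
    · obtain ⟨τ, hτ, hτn, hτm⟩ := exists_adjust hp2 hss he (n := 4) (Or.inr rfl) (q₀ := 2)
        (fun q hq h => (Nat.prime_dvd_prime_iff_eq hq Nat.prime_two).mp
          (hq.dvd_of_dvd_pow (show q ∣ 2 ^ 2 from h)))
        (Ne.symm hp2) (m := 3) (by decide)
      exact ⟨g * τ, by rwa [map_mul, hτ, mul_one],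
        by rw [Attach.cyc_mul, hg3, hτm, mul_one],
        by rw [Attach.cyc_mul, h4, hτn, one_mul]⟩
    · exact ⟨g, hg, hg3, h4⟩
  obtain ⟨L2, hL2, hfix⟩ := EllFrob.exists_torsion_field hΔ p hp.ne_zero
  obtain ⟨L3, hL3, hc3⟩ := Attach.exists_cyc_level 3
  obtain ⟨L4, hL4, hc4⟩ := Attach.exists_cyc_level 4
  haveI := hL2; haveI := hL3; haveI := hL4
  obtain ⟨ℓ, A, τ, k, j, hℓ, hS, hA, hτ, hk, hj⟩ := LR.exists_frobenius_gen (L2 ⊔ (L3 ⊔ L4)) σ
    (insert p (insert 2 (insert 3 (W.Δ.natAbs.primeFactors ∪ Finset.range (N + 1)))))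
  simp only [Finset.mem_insert, Finset.mem_union, Finset.mem_range, not_or, not_lt] at hS
  obtain ⟨hℓp, hℓ2, hℓ3, hℓΔ, hℓN⟩ := hS
  have hgood : W.IsGoodPrimeFor ℓ := fun h => hℓΔ (Nat.mem_primeFactors.2
    ⟨hℓ, Int.natCast_dvd.1 h, by simpa using hΔ⟩)
  have hτc : ∀ n : ℕ, [NeZero n] → ∀ L : IntermediateField ℚ Qb, L ≤ L2 ⊔ (L3 ⊔ L4) →
      (∀ g : GalQ, (∀ z ∈ L, g z = z) → cyc n g = 1) → cyc n σ = -1 → ¬ ℓ ∣ n →
      (-1 : ZMod n) ≠ 1 → (ℓ : ZMod n) = -1 := by
    intro n _ L hL hc hσn hℓn hne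
    have hrel : ∀ g h : GalQ, (∀ z ∈ L2 ⊔ (L3 ⊔ L4), g z = h z) → cyc n g = cyc n h := by
      intro g h hgh
      calc cyc n g = cyc n (h * (h⁻¹ * g)) := by rw [mul_inv_cancel_left]
        _ = cyc n h := by
          rw [Attach.cyc_mul, hc (h⁻¹ * g) fun z hz => by
            rw [AlgEquiv.mul_apply, hgh z (hL hz)]; exact h.symm_apply_apply z, mul_one]
    have e1 := hrel _ _ hk
    have e2 := hrel _ _ hj
    rw [cyc_pow_general, hσn] at e1 e2
    rw [Attach.cyc_frobenius hℓ hℓn hA hτ] at e1 e2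
    rcases Nat.even_or_odd j with hje | hjo
    · rw [hje.neg_one_pow] at e2
      rw [e2, one_pow] at e1
      exact absurd e1.symm hne
    · rw [e2, hjo.neg_one_pow]
  have h3 := hτc 3 L3 (le_sup_of_le_right le_sup_left) hc3 hσ3
    (fun h => hℓ3 ((Nat.prime_dvd_prime_iff_eq hℓ Nat.prime_three).mp h)) (by decide)
  have h4 := hτc 4 L4 (le_sup_of_le_right le_sup_right) hc4 hσ4
    (fun h => hℓ2 ((Nat.prime_dvd_prime_iff_eq hℓ Nat.prime_two).mp
      (hℓ.dvd_of_dvd_pow (show ℓ ∣ 2 ^ 2 from h)))) (by decide)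
  refine ⟨ℓ, hℓ, ?_, by omega, hgood, fun hcon => ?_⟩
  · have e3 := congrArg ZMod.val h3
    have e4 := congrArg ZMod.val h4
    rw [ZMod.val_natCast] at e3 e4
    rw [show ((-1 : ZMod 3)).val = 2 from by decide] at e3
    rw [show ((-1 : ZMod 4)).val = 3 from by decide] at e4
    omega
  have hrk : r σ = r τ ^ k := by
    rw [← map_pow]
    refine Matrix.ext_of_mulVec_single fun i => ?_
    obtain ⟨x, hx⟩ := e.surjective (Pi.single i 1)
    rw [← hx, ← he, ← he, hfix σ (τ ^ k) (fun z hz => (hk z ((le_sup_left : L2 ≤ L2 ⊔ (L3 ⊔ L4)) hz)).symm)]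
  obtain ⟨e1, -⟩ := EllFrob.galois_charpoly hℓ hgood hA hτ hp (Ne.symm hℓp)
  have hd : (r τ).det = (ℓ : ZMod p) :=
    (hdet τ).trans (Attach.cyc_frobenius hℓ
      (fun h => hℓp ((Nat.prime_dvd_prime_iff_eq hℓ hp).1 h)) hA hτ)
  obtain ⟨s, hs, hs'⟩ : ∃ s : ZMod p, s * s = 1 ∧ (r τ).trace = s * (1 + (ℓ : ZMod p)) := by
    have h := (ZMod.intCast_zmod_eq_zero_iff_dvd _ p).2 hcon
    push_cast at h
    rw [htr, e1]
    rcases sq_eq_sq_iff_eq_or_eq_neg.1 (sub_eq_zero.1 h) with h' | h'
    · exact ⟨1, one_mul 1, by rw [h', one_mul, add_comm]⟩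
    · exact ⟨-1, by ring, by rw [h']; ring⟩
  refine hσ ?_
  rw [hrk, Matrix.det_pow, SS2.trace_pow_fin_two, hs', hd, LR.powerTrace_sign s _ hs, mul_pow,
    ← pow_mul, mul_comm k 2, pow_mul, pow_two s, hs, one_pow, one_mul]

end FLTAgent.MLT

end
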