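import Fermat.Agent.MLT.World
import Fermat.Agent.MLT.SquareAbsent
import Fermat.Agent.MLT.SquareAux
import Fermat.Agent.LL.Mazur

/-!
Area MLT, parcel MZQ: Mazur's principle away from `p` for semistable curves, also at `p = 3` and at
`r = 2`. An auxiliary prime `≡ 11 (mod 12)` at which the residual system is not special is kept in
the level, so that no elliptic point is met.
-/

set_option autoImplicit false
set_option linter.unusedSectionVars false
set_option linter.style.haveILetI false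
set_option synthInstance.maxHeartbeats 400000
set_option maxHeartbeats 1000000

noncomputable section

open ModularCurve AlgebraicCurve WeierstrassCurve ModularFormClass IsLocalRing
open FLTAgent.Reduction (Qb Ctx kA FB FS PS redS)
open FLTAgent.Attach (S2 GaloisInputs HeckeLattice)
open FLTAgent.Torsion (Tors)
open FLTAgent.TOR (eigTors)
open FLTAgent.LL FLTAgent.SS

namespace FLTAgent.MLT

local notation "GalQ" => AlgebraicClosure ℚ ≃ₐ[ℚ] AlgebraicClosure ℚ

variable {M q p : ℕ} [NeZero M] [NeZero q] {W : WeierstrassCurve ℤ} {A : ValuationSubring Qb}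

/-- with an auxiliary prime in the level the first residue of a flat class has all orders divisible
by `p` -/
theorem exists_resCls_aux (C : Ctx A M q) (hp : p.Prime) {r : ℕ} (hr : r.Prime) (h11 : r % 12 = 11)
    (hrM : r ∣ M) {y : JZero (M * q)} (hy : LL.Flat A p y) :
    ∃ φ, ResCls A p y φ ∧ ∀ Q : PS A M, (p : ℤ) ∣ Q.ord φ := by
  obtain ⟨E, f, hE, hord, hrat, hu⟩ := hy
  have hf0 : f ≠ 0 := fun h => (hu false).2 (by rw [h]; exact IsRed.zero.eq)
  refine ⟨_, ⟨E, f, hE, hord, isRed_redM C (hu false).1, (hu false).2⟩, fun Q => ?_⟩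
  by_cases hs : ∃ s, (fibreData C).pt false s = Q
  · obtain ⟨s, rfl⟩ := hs
    exact dvd_ord_double C hp.pos hr h11 hrM s hf0 hord hrat (fun b => (hu b).1) (fun b => (hu b).2)
      false
  · exact dvd_ord_off_double C hp E hf0 hord (isRed_redM C (hu false).1) (hu false).2
      (not_exists.mp hs)

/-- a residual class of an absent eigen system is a `p`-th power -/
theorem exists_pow_eig_aux [Fact p.Prime] (C : Ctx A M q) (hp2 : p ≠ 2) {r : ℕ} (hr : r.Prime) (h11 : r % 12 = 11)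
    (hrM : r ∣ M) (hΔ : W.Δ ≠ 0) (hirr : W.ModRepIsIrreducible p)
    {R : MvPolynomial (SubPrime M q p W.IsGoodPrimeFor) ℤ}
    (hR : evalSub W.IsGoodPrimeFor M (dvd_mul_right M q) R = 0)
    (hRa : evalA W.apOfModel W.IsGoodPrimeFor R ≠ 0) {y : JZero (M * q)}
    (hy : y ∈ eigTors (M * q) W p) (hfix : ∀ σ ∈ A.inertiaSubgroupIn ℚ, σ • y = y) :
    ∃ h, ResCls A p y (h ^ p) := by
  have hp : p.Prime := Fact.out
  haveI : NeZero p := ⟨hp.ne_zero⟩
  obtain ⟨φ, hφ, hord⟩ :=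
    exists_resCls_aux C hp hr h11 hrM (flat_eig C hp hp2 hΔ hirr hy hfix)
  obtain ⟨z, D, hD, hDφ⟩ := exists_res C hp.pos hφ.ne_zero hord
  obtain ⟨D₀, hD₀⟩ := exists_reduction C D
  have hm : Match A p y (Pic0.mk D₀) := by
    refine ⟨φ, hφ, ?_⟩
    rw [Reduction.reductionModL_mk_rP C]
    exact ⟨D, congrArg Pic0.mk (Subtype.ext hD₀.symm), hDφ⟩
  obtain ⟨D0⟩ := Attach.exists_heckeLattice M
  obtain ⟨ψ, hσψ, htors, hmatch⟩ := exists_op C D0 (Attach.galoisInputs M) R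
  set c := evalA W.apOfModel W.IsGoodPrimeFor R
  obtain ⟨φ', hφ', hr'⟩ := hmatch y hy _ hm
  rw [reduction_eq_zero C D0 hσψ (fun k v => by
    rw [htors, hR, map_zero, LinearMap.zero_apply, map_zero])
    (hr'.nsmul_eq_zero C hφ'.ne_zero)] at hr'
  obtain ⟨w, rfl⟩ := hr'.exists_pow C hp.pos hφ'.ne_zero
  refine ⟨w ^ (c⁻¹).val, ?_⟩
  have h1 := hφ'.nsmul (c⁻¹).val
  rw [← pow_mul, Nat.mul_comm p, pow_mul] at h1
  have e : (c⁻¹).val • c.val • y = y := by
    have e := zsmul_eq_val hy.1 (((c⁻¹).val * c.val : ℕ) : ℤ)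
    rw [natCast_zsmul, Int.cast_natCast, Nat.cast_mul, ZMod.natCast_zmod_val,
      ZMod.natCast_zmod_val, inv_mul_cancel₀ hRa, ZMod.val_one, one_nsmul, mul_nsmul'] at e
    exact e
  exact e ▸ h1

/-- a system absent from the lower level cannot be unramified at `q` -/
theorem mazur_absurd_aux (hp : p.Prime) (hp2 : p ≠ 2) (hqp : q ≠ p) (hq1 : ¬ p ∣ q - 1)
    (C : Ctx A M q) {s : ℕ} (hs : s.Prime) (hs11 : s % 12 = 11) (hsM : s ∣ M) (hΔ : W.Δ ≠ 0) (hirr : W.ModRepIsIrreducible p)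
    (hunr : ∀ σ ∈ A.inertiaSubgroupIn ℚ, ∀ x : Tors W p, σ • x = x)
    {R : MvPolynomial (SubPrime M q p W.IsGoodPrimeFor) ℤ}
    (hR : evalSub W.IsGoodPrimeFor M (dvd_mul_right M q) R = 0)
    (hRa : evalA W.apOfModel W.IsGoodPrimeFor R ≠ 0) {y0 : JZero (M * q)} (hy0 : y0 ≠ 0)
    (hy0' : y0 ∈ eigTors (M * q) W p) : False := by
  classical
  haveI : Fact p.Prime := ⟨hp⟩
  haveI : NeZero p := ⟨hp.ne_zero⟩
  have hqndvd : ¬ q ∣ p := fun h => hqp ((Nat.prime_dvd_prime_iff_eq C.prime hp).1 h)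
  have G := Attach.galoisInputs (M * q)
  obtain ⟨D⟩ := Attach.exists_heckeLattice (M * q)
  obtain ⟨ι, hιi, hιe, hιm⟩ := TOR.exists_embedding hΔ hp hp2 hirr D G hy0 hy0'
  have hfix : ∀ x, ∀ σ ∈ A.inertiaSubgroupIn ℚ, σ • ι x = ι x := fun x σ hσ => by
    rw [← hιe, hunr σ hσ x]
  have hwm : ∀ x, TOR.wJ C (ι x) ∈ eigTors (M * q) W p := fun x =>
    ⟨by rw [← map_nsmul, (hιm x).1, map_zero], fun ℓ hℓ h1 h2 h3 => by
      rw [wJ_hecke C G hℓ h2 (fun h => h3 ((Nat.prime_dvd_prime_iff_eq hℓ hp).1 h)) (hιm x).1,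
        (hιm x).2 ℓ hℓ h1 h2 h3, map_zsmul]⟩
  have htor : ∀ x, (SS.fibreData C).Toric p (ι x) := fun x => by
    obtain ⟨h, hh⟩ := exists_pow_eig_aux C hp2 hs hs11 hsM hΔ hirr hR hRa (hιm x) (hfix x)
    obtain ⟨h', hh'⟩ := exists_pow_eig_aux C hp2 hs hs11 hsM hΔ hirr hR hRa (hwm x)
      (fun σ hσ => by rw [← TOR.wJ_smul, hfix x σ hσ])
    exact toric_of_resCls C hp.ne_zero hh hh'
  obtain ⟨σ, hσ⟩ := EIS.exists_frobenius_at C.prime C.lies
  obtain ⟨r, e, -, he, -, hdet⟩ := TOR.exists_matrix_rep (p := p) hΔ hp2 hirr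
  have hdσ : (r σ).det = (q : ZMod p) :=
    (hdet σ).trans (Attach.cyc_frobenius C.prime hqndvd C.lies hσ)
  -- a scalar action
  have hscalar : ∀ (g : GalQ) (c : ZMod p), (∀ x : Tors W p, g • x = c • x) →
      r g = c • 1 := fun g c hg => by
    refine Matrix.ext_of_mulVec_single fun j => ?_
    obtain ⟨x, hx⟩ := e.surjective (Pi.single j 1)
    rw [← hx, ← he, hg, map_smul, Matrix.smul_mulVec, Matrix.one_mulVec]
  have hq0 : (q : ZMod p) ≠ 0 := fun h => by
    rw [ZMod.natCast_eq_zero_iff, Nat.prime_dvd_prime_iff_eq hp C.prime] at h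
    exact hqp h.symm
  have hq2 : (q : ZMod p) ^ 2 = 1 := by
    have h := congrArg Matrix.det (hscalar (σ * σ) ((q ^ 2 : ℕ) : ZMod p) fun x => hιi (by
      rw [hιe, Nat.cast_smul_eq_nsmul, map_nsmul, mul_smul]
      exact frobenius_sq_toric C hqndvd hσ (htor x)))
    rw [map_mul, Matrix.det_mul, hdσ, Matrix.det_smul, Fintype.card_fin, Matrix.det_one,
      mul_one] at h
    push_cast at h
    refine (mul_left_cancel₀ (pow_ne_zero 2 hq0) ?_).symm
    rw [mul_one]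
    linear_combination h
  have hqm : (q : ZMod p) = -1 := by
    refine ((sq_eq_one_iff.mp hq2).resolve_left fun h => hq1 ?_)
    rw [← ZMod.natCast_eq_zero_iff, Nat.cast_sub C.prime.one_le, h, Nat.cast_one, sub_self]
  have hne : ((-1 : ZMod p)) ≠ 1 := fun h => by
    have h2 : ((2 : ℕ) : ZMod p) = 0 := by push_cast; linear_combination -h
    rw [ZMod.natCast_eq_zero_iff] at h2
    exact hp2 ((Nat.prime_dvd_prime_iff_eq hp Nat.prime_two).1 h2)
  have hσw : ∀ x, σ • TOR.wJ C (ι x) = ι x := fun x => by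
    rw [frobenius_atkin_toric C hqndvd hσ (htor x), ← map_nsmul, ← map_neg]
    congr 1
    rw [← Nat.cast_smul_eq_nsmul (ZMod p), hqm, neg_smul, one_smul, neg_neg]
  have hσi : ∀ x, σ • ι x = TOR.wJ C (ι x) := fun x => by
    conv_rhs => rw [← hσw x]
    rw [← TOR.wJ_smul, TOR.wJ_wJ]
  let j : Tors W p →+ JZero (M * q) := ι + (TOR.wJ C).comp ι
  have hj : ∀ (g : GalQ) x, j (g • x) = g • j x := fun g x => by
    simp only [j, AddMonoidHom.add_apply, AddMonoidHom.comp_apply, hιe, smul_add, TOR.wJ_smul]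
  let K : Submodule (ZMod p) (Tors W p) :=
    { j.ker with
      smul_mem' := fun c x hx => by
        change j (c • x) = 0
        have hx' : j x = 0 := hx
        rw [← ZMod.natCast_zmod_val c, Nat.cast_smul_eq_nsmul, map_nsmul, hx', nsmul_zero] }
  rcases hirr.2 K (fun g x hx => by
    show j (g • x) = 0
    rw [hj, show j x = 0 from hx]
    exact smul_zero (A := JZero (M * q)) g) with hK | hK
  · have h1 := congrArg Matrix.det (hscalar σ 1 fun x => by
      rw [one_smul]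
      refine sub_eq_zero.mp ((Submodule.eq_bot_iff K).mp hK _ ?_)
      show j (σ • x - x) = 0
      rw [map_sub, hj]
      simp only [j, AddMonoidHom.add_apply, AddMonoidHom.comp_apply, smul_add, hσi, hσw]
      abel)
    rw [hdσ, one_smul, Matrix.det_one, hqm] at h1
    exact hne h1
  · have h1 := congrArg Matrix.det (hscalar σ (-1) fun x => hιi (by
      rw [hιe, hσi, neg_smul, one_smul, map_neg, eq_neg_iff_add_eq_zero, add_comm]
      exact (show x ∈ K from hK ▸ Submodule.mem_top)))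
    rw [hdσ, Matrix.det_smul, Fintype.card_fin, Matrix.det_one, mul_one, neg_one_sq, hqm] at h1
    exact hne h1

/-- eigen classes survive adding a prime to the level -/
theorem exists_eig_raise_aux (hp : p.Prime) {N r N' : ℕ} [NeZero N] [NeZero r] [NeZero N']
    (hN' : N' = N * r) (hr : r.Prime) (hrN : ¬ r ∣ N) {y : JZero N} (hy0 : y ≠ 0)
    (hy : y ∈ eigTors N W p) : ∃ y' : JZero N', y' ≠ 0 ∧ y' ∈ eigTors N' W p := by
  subst hN'
  refine ⟨pullJ (heckeAlphaBar Qb N r) y,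
    fun h => hy0 (eq_zero_of_pullJ_alpha hr hrN hp.pos hy.1 h),
    by rw [← map_nsmul, hy.1, map_zero], fun ℓ hℓ h1 h2 h3 => ?_⟩
  have h2' : ¬ ℓ ∣ N := fun h => h2 (h.mul_right r)
  rw [← pullJ_hecke _ (HeckeJ.intertwines_heckeAlphaBar N r) hℓ h2' h2 hp.pos
    (fun hd => h3 ((Nat.prime_dvd_prime_iff_eq hℓ hp).mp hd)) hy.1, hy.2 ℓ hℓ h1 h2' h3, map_zsmul]

/-- an unramified prime that cannot be removed is one modulo `p` -/
theorem mazur_away {W : WeierstrassCurve ℤ} (hΔ : W.Δ ≠ 0) (hW : W.IsSemistableModel) {p : ℕ}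
    (hp : p = 3 ∨ p = 5) (hirr : W.ModRepIsIrreducible p) {M r : ℕ} [NeZero M] (hr : r.Prime)
    (hrM : ¬ r ∣ M) (hrp : r ≠ p) (hrs : r ∉ sMin W p)
    (hmod : W.IsResiduallyModularOfLevel p (M * r))
    (habs : ¬ W.IsResiduallyModularOfLevel p M) : (r : ZMod p) = 1 := by
  classical
  have hp' : p.Prime := by rcases hp with rfl | rfl <;> norm_num
  have hp2 : p ≠ 2 := by rcases hp with rfl | rfl <;> norm_num
  haveI : Fact p.Prime := ⟨hp'⟩
  haveI : NeZero r := ⟨hr.ne_zero⟩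
  by_contra hne
  have hr1 : ¬ p ∣ r - 1 := fun h => hne (by
    have h' := (ZMod.natCast_eq_zero_iff (r - 1) p).mpr h
    rw [Nat.cast_sub hr.one_le, Nat.cast_one, sub_eq_zero] at h'
    exact h')
  obtain ⟨s, hs, hs11, hsgt, hsgood, hsna⟩ := auxPrimes hΔ hW hp' hp2 hirr (M * r * p)
  haveI : NeZero s := ⟨hs.ne_zero⟩
  have hM0 : 0 < M := Nat.pos_of_ne_zero (NeZero.ne M)
  have hle : M * r ≤ M * r * p := Nat.le_mul_of_pos_right _ hp'.pos
  have hsp : s ≠ p := by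
    have : p ≤ M * r * p := Nat.le_mul_of_pos_left _ (Nat.mul_pos hM0 hr.pos)
    omega
  have hsr : s ≠ r := by
    have : r ≤ M * r := Nat.le_mul_of_pos_left _ hM0
    omega
  have hsMr : ¬ s ∣ M * r := fun h => by
    have := Nat.le_of_dvd (Nat.mul_pos hM0 hr.pos) h
    omega
  have hsM : ¬ s ∣ M := fun h => hsMr (h.mul_right r)
  have hrMs : ¬ r ∣ M * s := fun h => (hr.dvd_mul.mp h).elim hrM fun h' =>
    hsr ((Nat.prime_dvd_prime_iff_eq hr hs).mp h').symm
  rcases LL.exists_killer_or_form (M := M * s) (q := r) W.apOfModel W.IsGoodPrimeFor hp' hr with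
    ⟨R, hR, hRa⟩ | ⟨g, 𝔪', hg, hmax', hpm', hg'⟩
  swap
  · refine habs (residuallyModular_of_mul_aux hΔ hp' hs hsM hsp hsgood hsna ?_)
    exact residuallyModular_of_outside hΔ hp' hg hmax' hpm' {r} fun ℓ h1 h2 h3 h4 h5 =>
      hg' ℓ h1 h2 h3 h4 fun e => h5 (Finset.mem_singleton.mpr e)
  obtain ⟨f, 𝔪, hf, hmax, hpm, hcong⟩ := hmod
  obtain ⟨D⟩ := Attach.exists_heckeLattice (M * r)
  obtain ⟨y0, hy0, hpy0, hy0T⟩ := TOR.exists_eigen_torsion D hf hp' hmax hpm
  obtain ⟨y1, hy1, hy1e⟩ := exists_eig_raise_aux (W := W) hp' (N' := M * s * r)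
    (show M * s * r = M * r * s by ring) hs hsMr hy0
    ⟨hpy0, fun ℓ hℓ h1 h2 h3 => hy0T ℓ hℓ h2 _ (hcong ℓ hℓ h1 h2 h3)⟩
  obtain ⟨A, -, hA, -⟩ := Alg.exists_place_frobenius r hr
  refine mazur_absurd_aux hp' hp2 hrp hr1 ⟨hr, hrMs, hA⟩ hs hs11 (dvd_mul_left s M) hΔ hirr ?_ hR hRa
    hy1 hy1e
  intro σ hσ x
  refine Subtype.ext ?_
  by_cases hd : (r : ℤ) ∣ W.Δ
  · have hv : p ∣ padicValInt r W.Δ := by
      by_contra hv
      exact hrs ((mem_sMin hΔ).2 ⟨hr, hd, hrp, hv⟩)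
    exact Local.inertia_fix_of_dvd hA hr (hW r hr) hΔ hp' hp2 hrp hv hσ (Torsion.nsmul_tors x)
  · exact Local.inertia_fix_zeroComp hA hr hp' hrp hσ (Torsion.nsmul_tors x)
      (Local.mem_zeroComp_of_good hA hr hd _)

end FLTAgent.MLT

end
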