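import Fermat.Agent.TOR.MazurEis
import Fermat.Agent.LL.MazurKill

/-!
Mazur's principle at an odd prime `p` with an auxiliary prime `r ≡ 11` modulo `12` in the level: over
a slope field the residue of a class killed by both pushforwards is a `p`-th power.

`T_ℓ` takes the Hasse polynomial in `j` to a constant times its power `ℓ + 1`, since it takes `Δ`
to a constant times `Δ ^ (ℓ + 1)`. Comparing the orders of `φ ^ 12` and of a power of the Hasse
polynomial at the double points modulo `12 p` removes the need to invert `12` modulo `p`.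
-/

set_option autoImplicit false
set_option linter.unusedSectionVars false
set_option synthInstance.maxHeartbeats 400000
set_option linter.style.haveILetI false
set_option maxHeartbeats 1000000

noncomputable section

open ModularCurve AlgebraicCurve IsLocalRing
open FLTAgent.RR (Bd)
open FLTAgent.Reduction (Qb kA FB FS PS Ctx tS jS twist)
open FLTAgent.SS2 (theta deltaC)
open FLTAgent.TOR (IsPhi IsTl SlopeField eigTors tlS lth)
open FLTAgent.SS (KilledByPush)

namespace FLTAgent.MLT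

local notation "GalQ" => AlgebraicClosure ℚ ≃ₐ[ℚ] AlgebraicClosure ℚ

/-! ### `T_ℓ` on `Δ` -/

theorem coeffMap_deltaC {R S : Type*} [CommRing R] [CommRing S] (φ : R →+* S) :
    coeffMap φ (deltaC R) = deltaC S := by
  rw [deltaC, map_mul, coeffMap_single, map_one, ModFun.coeffMap_ofPowerSeries, deltaC]
  congr 2
  ext n
  simp

/-- in characteristic zero `T_ℓ Δ` is a multiple of `Δ ^ (ℓ + 1)` -/
theorem tlS_deltaC_field {K : Type*} [Field K] [CharZero K] {ℓ : ℕ} [NeZero ℓ] (hℓ : ℓ.Prime)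
    {u : Kˣ} (hu : IsPrimitiveRoot u ℓ) :
    ∃ c : K, tlS ℓ u (deltaC K) = HahnSeries.C c * qExpand K ℓ (deltaC K ^ (ℓ + 1)) := by
  set D := deltaC K
  have hD : D ≠ 0 := (SS2.isUnit_deltaC K).ne_zero
  have hz : ∀ {g : LaurentSeries K}, g ≠ 0 → qExpand K ℓ g ≠ 0 := fun hg h =>
    hg (qExpand_injective (R := K) (N := ℓ) (h.trans (map_zero _).symm))
  set E := qExpand K ℓ (D ^ (ℓ + 1))
  have hE : E ≠ 0 := hz (pow_ne_zero _ hD)
  have htw : ∀ i : Fin ℓ, twist (u ^ (i : ℕ)) D ≠ 0 := fun i h0 =>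
    hD (TOR.twist_injective _ (h0.trans (map_zero _).symm))
  set r := tlS ℓ u D / E
  have hr0 : r ≠ 0 := div_ne_zero (TOR.tlS_ne_zero u hD) hE
  have hnat : ∀ (m : ℕ) (s : LaurentSeries K) (k : ℤ),
      ((m : LaurentSeries K) * s).coeff k = (m : K) * s.coeff k := fun m s k => by
    rw [← map_natCast (HahnSeries.C : K →+* LaurentSeries K) m, HahnSeries.C_apply,
      HahnSeries.coeff_single_zero_mul]
  have hlth : lth (tlS ℓ u D) = lth E := by
    ext k
    rw [TOR.tlS_apply, TOR.lth_mul (hz (hz hD)) (Finset.prod_ne_zero_iff.mpr fun i _ => htw i),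
      TOR.lth_prod _ _ (fun i _ => htw i), TOR.lth_qExpand, TOR.lth_qExpand, map_mul, map_natCast,
      TOR.lth_qExpand, TOR.lth_pow hD, map_mul, map_natCast, HahnSeries.coeff_add,
      HahnSeries.coeff_sum]
    simp only [hnat, TOR.lth_twist, Reduction.twist_coeff, D, TOR.coeff_lth_deltaC]
    rw [← Finset.sum_mul]
    by_cases hk : (ℓ : ℤ) ∣ k
    · obtain ⟨n, rfl⟩ := hk
      have hone : ∀ i : Fin ℓ, (((u ^ (i : ℕ)) ^ ((ℓ : ℤ) * n) : Kˣ) : K) = 1 := by
        intro i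
        rw [zpow_mul, zpow_natCast, ← pow_mul, mul_comm, pow_mul, hu.pow_eq_one, one_pow, one_zpow,
          Units.val_one]
      simp only [hone, Finset.sum_const, Finset.card_univ, Fintype.card_fin, nsmul_eq_mul, mul_one,
        qExpand_coeff_mul, TOR.coeff_lth_deltaC]
      have h2 := congrArg (fun z : ℤ => (z : K)) (TOR.e2c_hecke hℓ n)
      push_cast at h2 ⊢
      rw [mul_comm (ℓ : ℤ) n, ← h2, mul_add, add_comm]
      refine congrArg _ ?_
      split_ifs with hn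
      · obtain ⟨m, rfl⟩ := hn
        rw [qExpand_coeff_mul, Int.mul_ediv_cancel_left _ (Int.natCast_ne_zero.mpr hℓ.ne_zero),
          TOR.coeff_lth_deltaC]
      · rw [qExpand_coeff_of_not_dvd ℓ _ hn, mul_zero, mul_zero]
    · have hx : ((u ^ k : Kˣ) : K) ≠ 1 := fun h =>
        hk ((hu.zpow_eq_one_iff_dvd k).mp (Units.ext h))
      have hs : ∑ i : Fin ℓ, (((u ^ (i : ℕ)) ^ k : Kˣ) : K) = 0 := by
        have e : ∀ i : Fin ℓ, (((u ^ (i : ℕ)) ^ k : Kˣ) : K) = ((u ^ k : Kˣ) : K) ^ (i : ℕ) := by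
          intro i
          rw [← Units.val_pow_eq_pow_val, ← zpow_natCast u, ← zpow_natCast (u ^ k), ← zpow_mul,
            ← zpow_mul, mul_comm]
        have h1 : ((u ^ k : Kˣ) : K) ^ ℓ = 1 := by
          rw [← Units.val_pow_eq_pow_val, ← zpow_natCast (u ^ k), ← zpow_mul, mul_comm, zpow_mul,
            zpow_natCast, hu.pow_eq_one, one_zpow, Units.val_one]
        rw [Finset.sum_congr rfl (fun i _ => e i),
          Fin.sum_univ_eq_sum_range fun i => ((u ^ k : Kˣ) : K) ^ i, geom_sum_eq hx, h1, sub_self,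
          zero_div]
      rw [hs, qExpand_coeff_of_not_dvd ℓ _ hk, qExpand_coeff_of_not_dvd ℓ _ hk]
      simp
  have hr : lth r = 0 := by
    have e := TOR.lth_mul hr0 hE
    rw [div_mul_cancel₀ _ hE, hlth] at e
    linear_combination -e
  rw [lth, div_eq_zero_iff, or_iff_left hr0] at hr
  refine ⟨r.coeff 0, ?_⟩
  have hrC : r = HahnSeries.C (r.coeff 0) := by
    ext k
    rw [HahnSeries.C_apply]
    rcases eq_or_ne k 0 with rfl | hk
    · rw [HahnSeries.coeff_single_same]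
    · have h := congrArg (fun s : LaurentSeries K => s.coeff k) hr
      simp only [SS2.coeff_theta, HahnSeries.coeff_zero] at h
      rw [HahnSeries.coeff_single_of_ne hk]
      exact (mul_eq_zero.mp h).resolve_left (Int.cast_ne_zero.mpr hk)
  rw [← hrC, div_mul_cancel₀ _ hE]

variable {A : ValuationSubring Qb}

/-- `T_ℓ Δ` is a nonzero multiple of `Δ ^ (ℓ + 1)` on the residue field of a place -/
theorem tlS_deltaC {ℓ : ℕ} [NeZero ℓ] (hℓ : ℓ.Prime) {u : Aˣ} (hu : IsPrimitiveRoot u ℓ) :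
    ∃ c : kA A, c ≠ 0 ∧ tlS ℓ (TOR.uk u) (deltaC (kA A)) =
      HahnSeries.C c * qExpand (kA A) ℓ (deltaC (kA A) ^ (ℓ + 1)) := by
  set uQ : Qbˣ := Units.map (A.subtype : A →* Qb) u
  obtain ⟨c, hc⟩ := tlS_deltaC_field hℓ
    (hu.map_of_injective (Units.map_injective A.subtype_injective) : IsPrimitiveRoot uQ ℓ)
  obtain ⟨w, hw⟩ := (SS2.isUnit_deltaC A).pow (ℓ + 1) |>.map (qExpand A ℓ)
  set G := tlS ℓ u (deltaC A) * ((w⁻¹ : (LaurentSeries A)ˣ) : LaurentSeries A)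
  have hG : coeffMap A.subtype G = HahnSeries.C c := by
    have e1 : coeffMap A.subtype (w : LaurentSeries A) = qExpand Qb ℓ (deltaC Qb ^ (ℓ + 1)) := by
      rw [hw, ModFun.coeffMap_qExpand, map_pow, coeffMap_deltaC]
    have e2 : coeffMap A.subtype (tlS ℓ u (deltaC A)) =
        HahnSeries.C c * coeffMap A.subtype (w : LaurentSeries A) := by
      rw [TOR.coeffMap_tlS, coeffMap_deltaC, e1]
      exact hc
    rw [map_mul, e2, mul_assoc, ← map_mul, Units.mul_inv, map_one, mul_one]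
  have hG0 : G = HahnSeries.C (G.coeff 0) := by
    ext k
    have h := congrArg (fun s : LaurentSeries Qb => s.coeff k) hG
    simp only [coeffMap_coeff, HahnSeries.C_apply] at h ⊢
    rcases eq_or_ne k 0 with rfl | hk
    · rw [HahnSeries.coeff_single_same]
    · rw [HahnSeries.coeff_single_of_ne hk] at h ⊢
      exact h
  have hA : tlS ℓ u (deltaC A) = HahnSeries.C (G.coeff 0) * qExpand A ℓ (deltaC A ^ (ℓ + 1)) := by
    rw [← hG0, ← hw]
    simp [G]
  have hk' := congrArg (coeffMap (residue A)) hA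
  rw [TOR.coeffMap_tlS, map_mul, ModFun.coeffMap_qExpand, map_pow, coeffMap_deltaC, HahnSeries.C_apply,
    coeffMap_single, ← HahnSeries.C_apply] at hk'
  refine ⟨residue A (G.coeff 0), fun h0 => ?_, hk'⟩
  rw [h0, map_zero, zero_mul] at hk'
  exact TOR.tlS_ne_zero _ (SS2.isUnit_deltaC _).ne_zero hk'

variable {M p : ℕ} [NeZero M] [NeZero p] (C : Ctx A M p)
include C

/-- `T_ℓ` multiplies the orders of the Hasse polynomial in `j` by `ℓ + 1` -/
theorem ord_isTl_hasse_eq {P : Polynomial (kA A)} (hP0 : P ≠ 0)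
    (hP : Polynomial.aeval (jqModC (kA A)) P * deltaC (kA A) ^ (p - 1) = 1) {ℓ : ℕ} [NeZero ℓ]
    (hℓ : ℓ.Prime) {u : Aˣ} (hu : IsPrimitiveRoot u ℓ) {h : FS A M}
    (hh : IsTl u ℓ (Polynomial.aeval (jS A M) P) h) (Q : PS A M) :
    Q.ord h = ((ℓ : ℤ) + 1) * Q.ord (Polynomial.aeval (jS A M) P) := by
  set Ψ := Polynomial.aeval (jS A M) P
  have hΨ0 : Ψ ≠ 0 := SS2.aeval_ne_zero (N := M) hP0
  obtain ⟨c, hc0, hc⟩ := tlS_deltaC (A := A) hℓ hu
  have hcoe : ((Ψ : FS A M) : LaurentSeries (kA A)) = Polynomial.aeval (jqModC (kA A)) P :=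
    (Polynomial.aeval_algHom_apply (modularFunctionFieldFullC (kA A) M).val (jS A M) P).symm
  set D := deltaC (kA A)
  have e1 := congrArg (tlS ℓ (TOR.uk u)) hP
  rw [map_one, map_mul, map_pow, ← hcoe, ← hh, hc, mul_pow, ← map_pow, ← map_pow, ← mul_assoc,
    mul_comm (qExpand (kA A) ℓ (h : LaurentSeries (kA A))), mul_assoc, ← map_mul] at e1
  have e2 : HahnSeries.C (c ^ (p - 1)) *
      ((h : LaurentSeries (kA A)) * (D ^ (ℓ + 1)) ^ (p - 1)) = 1 := by
    refine qExpand_injective (R := kA A) (N := ℓ) ?_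
    rw [map_mul, map_one, HahnSeries.C_apply, qExpand_single, mul_zero, ← HahnSeries.C_apply]
    exact e1
  have e3 : (((h * algebraMap (kA A) (FS A M) (c ^ (p - 1))) : FS A M) : LaurentSeries (kA A)) =
      ((Ψ ^ (ℓ + 1) : FS A M) : LaurentSeries (kA A)) := by
    rw [MulMemClass.coe_mul, SubmonoidClass.coe_pow, hcoe,
      show ((algebraMap (kA A) (FS A M) (c ^ (p - 1)) : FS A M) : LaurentSeries (kA A)) =
        HahnSeries.C (c ^ (p - 1)) from
          (IsScalarTower.algebraMap_apply (kA A) (FS A M) (LaurentSeries (kA A)) _).symm.trans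
            (by rw [algebraMap_laurentSeries_eq_single, HahnSeries.C_apply])]
    have e4 := congrArg (fun s : LaurentSeries (kA A) => s ^ (ℓ + 1)) hP
    simp only [one_pow, mul_pow] at e4
    refine mul_right_cancel₀ (pow_ne_zero (p - 1) (pow_ne_zero (ℓ + 1) (SS2.isUnit_deltaC (kA A)).ne_zero)) ?_
    rw [pow_right_comm D (p - 1)] at e4
    linear_combination e2 - e4
  have e5 := congrArg Q.ord (Subtype.ext e3 : h * algebraMap (kA A) (FS A M) (c ^ (p - 1)) = Ψ ^ (ℓ + 1))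
  rw [Q.ord_mul (hh.ne_zero hΨ0) ((map_ne_zero _).mpr (pow_ne_zero _ hc0)), RR.ord_algebraMap,
    add_zero, RR.ord_pow] at e5
  rw [e5]
  push_cast
  rfl

/-! ### the residue of a class over a slope field -/

variable {W : WeierstrassCurve ℤ}

/-- the orders of the residue are divisible by `p` -/
theorem dvd_ord_slope (hp3 : 3 ≤ p) {r : ℕ} (hr : r.Prime) (h11 : r % 12 = 11) (hrM : r ∣ M)
    (hΔ : W.Δ ≠ 0) (hirr : W.ModRepIsIrreducible p)
    {L : IntermediateField ℚ Qb} (hL : SlopeField A p L) {y : JZero (M * p)}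
    (hy : y ∈ eigTors (M * p) W p) (hfix : ∀ τ : GalQ, (∀ a ∈ L, τ a = a) → τ • y = y)
    (hpush : KilledByPush M p y) {φ : FS A M} (hφ : IsPhi A y φ) (Q : PS A M) :
    (p : ℤ) ∣ Q.ord φ := by
  classical
  have hp := C.prime
  haveI := Fact.mk hp
  obtain ⟨E, f, hEy, hord, hfr, hφ0⟩ := id hφ
  subst hEy
  have hf := hfr.ne_zero hφ0
  set D := SS.fibreData C
  by_cases hQ : ∀ s, D.pt false s ≠ Q
  · exact TOR.dvd_ord_off_double C hp.two_le E hf hord hfr hφ0 hQ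
  push Not at hQ
  obtain ⟨s0, rfl⟩ := hQ
  -- the slope
  have hpr : f = algebraMap Qb (FB (M * p)) 1 * f := by rw [map_one, one_mul]
  have hslope : ∀ s s', (p : ℤ) ∣ (D.pt false s).ord φ - (D.pt false s').ord φ := fun s s' => by
    have := TOR.slope_dvd hp3 C hr h11 hrM hL E hf hord hfix hpush false one_ne_zero
      (by rw [← hpr]; exact hfr.1)
      (by
        rw [← hpr]
        show SS.redM M p A false f ≠ 0
        rw [hfr.eq]
        exact hφ0) s s'
    rwa [← hpr, show (SS.fibreData C).red false f = φ from hfr.eq] at this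
  set k : ℕ := (((D.pt false s0).ord φ : ℤ) : ZMod p).val
  have hk : ∀ s, (p : ℤ) ∣ (D.pt false s).ord φ - (k : ℤ) := fun s => by
    rw [show (D.pt false s).ord φ - (k : ℤ) =
      ((D.pt false s).ord φ - (D.pt false s0).ord φ) + ((D.pt false s0).ord φ - (k : ℤ)) by ring]
    refine dvd_add (hslope s s0) ((ZMod.intCast_zmod_eq_zero_iff_dvd _ p).1 ?_)
    push_cast
    rw [ZMod.natCast_zmod_val, sub_self]
  -- the Hasse polynomial
  obtain ⟨P, hPm, hPd, hP⟩ := SS2.exists_hasse_kA C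
  obtain ⟨hdbl12, hdbl⟩ := SS2.double_eq_zeros C (TOR.levelDataFibre C) hr h11 hrM hPm hPd hP
  set Ψ := Polynomial.aeval (jS A M) P
  have hΨ0 : Ψ ≠ 0 := SS2.aeval_ne_zero (N := M) hPm.ne_zero
  have hg0 : φ ^ 12 * (Ψ ^ k)⁻¹ ≠ 0 :=
    mul_ne_zero (pow_ne_zero _ hφ0) (inv_ne_zero (pow_ne_zero _ hΨ0))
  have hfin : ∀ R : PS A M, Bd R (tS A M false) 0 →
      (12 * p : ℤ) ∣ R.ord (φ ^ 12 * (Ψ ^ k)⁻¹) := fun R hR => by
    rw [R.ord_mul (pow_ne_zero _ hφ0) (inv_ne_zero (pow_ne_zero _ hΨ0)), R.ord_inv, RR.ord_pow,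
      RR.ord_pow]
    by_cases hs : ∃ s, D.pt false s = R
    · obtain ⟨s, rfl⟩ := hs
      rw [hdbl12 s]
      obtain ⟨d, hd⟩ := hk s
      exact ⟨d, by push_cast; linear_combination (12 : ℤ) * hd⟩
    · have h0 : R.ord Ψ = 0 := le_antisymm
        (not_lt.mp fun hpos => hs ((hdbl R).mp ⟨hR, hpos⟩))
        (SS2.ord_aeval_nonneg C hPm.ne_zero hR)
      obtain ⟨d, hd⟩ := TOR.dvd_ord_off_double C hp.two_le E hf hord hfr hφ0 (not_exists.mp hs)
      exact ⟨d, by rw [h0, hd]; push_cast; ring⟩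
  -- an operator that is not Eisenstein
  obtain ⟨ℓ, hℓ, hℓS, hgood, hℓp, hℓa⟩ :=
    TOR.exists_prime_trace_ne hΔ hp (by omega) hirr (M * p).primeFactors
  have hℓN : ¬ ℓ ∣ M * p := fun h => hℓS (Nat.mem_primeFactors.2
    ⟨hℓ, h, mul_ne_zero (NeZero.ne M) hp.ne_zero⟩)
  have hℓM : ¬ ℓ ∣ M := fun h => hℓN (h.trans (dvd_mul_right M p))
  haveI : NeZero ℓ := ⟨hℓ.ne_zero⟩
  obtain ⟨u, hu, -, -⟩ := TOR.exists_root hp C.lies hℓ hℓp
  obtain ⟨ψ, hψ, hψy⟩ := hφ.hecke C hℓ hℓN hu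
  obtain ⟨hΨ, hhΨ⟩ := TOR.exists_isTl C hℓ hℓM hu Ψ
  set a := W.apOfModel ℓ
  set m : ℕ := (a : ZMod p).val
  obtain ⟨d, hd⟩ : (p : ℤ) ∣ a - m := by
    rw [← ZMod.intCast_zmod_eq_zero_iff_dvd]
    push_cast
    rw [ZMod.natCast_zmod_val, sub_self]
  have hay : heckeOperatorBar (M * p) ⟨ℓ, hℓ⟩ (Pic0.mk E) = m • (Pic0.mk E : JZero (M * p)) := by
    rw [hy.2 ℓ hℓ hgood hℓN hℓp]
    show a • (Pic0.mk E : JZero (M * p)) = _
    rw [show a = (m : ℤ) + d * (p : ℤ) by linarith, add_zsmul, natCast_zsmul, mul_zsmul,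
      natCast_zsmul, hy.1, zsmul_zero, add_zero]
  rw [hay] at hψy
  obtain ⟨h, hh, hh'⟩ := IsPhi.samePow C hψy (hφ.nsmul m)
  set R := D.pt false s0
  have h1 := TOR.dvd_ord_isTl C hℓ hℓM hℓp hu hg0
    ((hψ.pow 12).mul ((hhΨ.pow k).inv (pow_ne_zero _ hΨ0))) hfin
    (Q := R) (SS.pointMap_fin C false s0)
  rw [R.ord_mul (pow_ne_zero _ hψy.ne_zero) (inv_ne_zero (pow_ne_zero _ (hhΨ.ne_zero hΨ0))),
    R.ord_inv, RR.ord_pow, RR.ord_pow, ord_isTl_hasse_eq C hPm.ne_zero hP hℓ hu hhΨ, hdbl12] at h1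
  obtain ⟨s1, hs1⟩ := h1
  obtain ⟨s2, hs2⟩ := hk s0
  have h4 := congrArg R.ord hh'
  rw [RR.ord_pow, R.ord_mul hψy.ne_zero (pow_ne_zero _ hh), RR.ord_pow] at h4
  push_cast at hs1
  have hdvd : (p : ℤ) ∣ (a - ((ℓ : ℤ) + 1)) * R.ord φ := by
    refine ⟨s1 + R.ord h + d * R.ord φ - ((ℓ : ℤ) + 1) * s2, ?_⟩
    refine mul_left_cancel₀ (show (12 : ℤ) ≠ 0 by norm_num) ?_
    linear_combination (12 : ℤ) * h4 + hs1 - (12 : ℤ) * ((ℓ : ℤ) + 1) * hs2 + 12 * R.ord φ * hd
  exact ((Nat.prime_iff_prime_int.mp hp).dvd_mul.mp hdvd).resolve_left hℓa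

/-- a residue with orders divisible by `p` of a system absent from the lower level is a `p`-th
power -/
theorem exists_pow_absent {R : MvPolynomial (TOR.SubPrime M p W.IsGoodPrimeFor) ℤ}
    (hR : TOR.evalSub W.IsGoodPrimeFor M (dvd_mul_right M p) R = 0)
    (hRa : TOR.evalA W.apOfModel W.IsGoodPrimeFor R ≠ 0) {y : JZero (M * p)}
    (hy : y ∈ eigTors (M * p) W p) {φ : FS A M} (hφ : IsPhi A y φ)
    (hord : ∀ Q : PS A M, (p : ℤ) ∣ Q.ord φ) : ∃ w, IsPhi A y (w ^ p) := by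
  have hp := C.prime
  haveI := Fact.mk hp
  obtain ⟨z, D, hD, hDφ⟩ := LL.exists_res C hp.pos hφ.ne_zero hord
  obtain ⟨D₀, hD₀⟩ := LL.exists_reduction C D
  have hm : LL.Match A p y (Pic0.mk D₀) := by
    refine ⟨φ, hφ, ?_⟩
    rw [Reduction.reductionModL_mk_rP C]
    exact ⟨D, congrArg Pic0.mk (Subtype.ext hD₀.symm), hDφ⟩
  obtain ⟨D0⟩ := Attach.exists_heckeLattice M
  obtain ⟨ψ, hσψ, htors, hmatch⟩ := LL.exists_op C D0 (Attach.galoisInputs M) R
  set c := LL.evalA W.apOfModel W.IsGoodPrimeFor R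
  have hc : c ≠ 0 := hRa
  obtain ⟨φ', hφ', hr'⟩ := hmatch y hy _ hm
  rw [LL.reduction_eq_zero C D0 hσψ (fun k v => by
    rw [htors, show LL.evalSub W.IsGoodPrimeFor M (dvd_mul_right M p) R = 0 from hR, map_zero,
      LinearMap.zero_apply, map_zero])
    (hr'.nsmul_eq_zero C hφ'.ne_zero)] at hr'
  obtain ⟨w, rfl⟩ := hr'.exists_pow C hp.pos hφ'.ne_zero
  refine ⟨w ^ (c⁻¹).val, ?_⟩
  have h1 := hφ'.nsmul (c⁻¹).val
  rw [← pow_mul, Nat.mul_comm p, pow_mul] at h1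
  have e : (c⁻¹).val • c.val • y = y := by
    have e := LL.zsmul_eq_val hy.1 (((c⁻¹).val * c.val : ℕ) : ℤ)
    rw [natCast_zsmul, Int.cast_natCast, Nat.cast_mul, ZMod.natCast_zmod_val,
      ZMod.natCast_zmod_val, inv_mul_cancel₀ hc, ZMod.val_one, one_nsmul, mul_nsmul'] at e
    exact e
  exact e ▸ h1

end FLTAgent.MLT

end
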