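import Fermat.Agent.TOR.MazurLocal

/-!
The `p`-torsion at `p` of a curve with good or peu ramifié multiplicative reduction, `p` odd: it is
fixed by the absolute Galois group of a slope field.

For good ordinary reduction the moved integer is the abscissa of a torsion point outside the kernel
of reduction. When all the torsion reduces to the origin, all abscissas have the same valuation and
inertia acts through a group of order prime to `p`.
-/

set_option autoImplicit false
set_option linter.unusedSectionVars false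
set_option linter.style.haveILetI false
set_option maxHeartbeats 1000000

noncomputable section

open WeierstrassCurve IsLocalRing Polynomial
open FLTAgent.Local FLTAgent.Torsion
open FLTAgent.Attach (cyc cyc_spec)
open WeierstrassCurve.Affine.Point (galoisRepModuleEnd galoisRepModuleEnd_apply)
open scoped WeierstrassCurve.Affine

namespace FLTAgent.MLT

open FLTAgent.Reduction (Qb)
open FLTAgent.TOR (torsE1 torsKer torsField mem_torsKer mem_torsField)

local notation "GalQ" => AlgebraicClosure ℚ ≃ₐ[ℚ] AlgebraicClosure ℚ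

variable {W : WeierstrassCurve ℤ} {A : ValuationSubring Qb} {p : ℕ}

local instance decEqResP (B : ValuationSubring Qb) : DecidableEq (ResidueField B) := Classical.decEq _

/-! ### ordinary reduction -/

/-- adding a point of the kernel moves an abscissa with unit `ψ₂` by its parameter -/
theorem val_addX_sub_unit {K : Type*} [Field K] [IsAlgClosed K] [DecidableEq K]
    {A : ValuationSubring K} {W0 : WeierstrassCurve A} {x₁ y₁ : K} {x₂ y₂ : A}
    (h₁ : (genFib W0).toAffine.Equation x₁ y₁) (h₂ : (genFib W0).toAffine.Equation (x₂ : K) y₂)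
    (hx₁ : x₁ ∉ A) (hμ : residue A (2 * y₂ + W0.a₁ * x₂ + W0.a₃) ≠ 0) :
    A.valuation ((genFib W0).toAffine.addX x₁ x₂
      ((genFib W0).toAffine.slope x₁ x₂ y₁ y₂) - x₂) ^ 2 * A.valuation x₁ = 1 := by
  obtain ⟨w, hwA, hw, hY⟩ := exists_scale h₁ hx₁
  have hne : x₁ ≠ x₂ := fun e => hx₁ (e ▸ x₂.2)
  have hd : x₁ - (x₂ : K) ≠ 0 := sub_ne_zero.2 hne
  have hw0 : w ≠ 0 := fun e => hwA (e ▸ A.zero_mem)
  set i : A := ⟨w⁻¹, inv_mem_of_not_mem hwA⟩ with hi
  set Y : A := ⟨y₁ / w ^ 3, hY⟩ with hYd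
  have hir : residue A i = 0 := res_eq_zero.2 (val_inv_lt_one hwA)
  have hYsq : Y ^ 2 + (W0.a₁ * i + W0.a₃ * i ^ 3) * Y =
      1 + W0.a₂ * i ^ 2 + W0.a₄ * i ^ 4 + W0.a₆ * i ^ 6 := by
    apply Subtype.ext
    rw [Affine.equation_iff, genFib_a₁, genFib_a₂, genFib_a₃, genFib_a₄, genFib_a₆] at h₁
    push_cast
    simp only [hi, hYd]
    subst hw
    field_simp
    linear_combination h₁
  have hYr : residue A Y ^ 2 = 1 := by simpa [hir] using congrArg (residue A) hYsq
  set R : A := (3 * x₂ ^ 2 + 2 * W0.a₂ * x₂ + W0.a₄ - W0.a₁ * y₂) * i +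
      (-x₂ ^ 3 + W0.a₄ * x₂ + 2 * W0.a₆ - W0.a₃ * y₂) * i ^ 3 -
      Y * (2 * y₂ + W0.a₁ * x₂ + W0.a₃) with hR
  set D : A := 1 - x₂ * i ^ 2 with hD
  have hDv : A.valuation (D : K) = 1 := res_ne_zero.1 (by simp [hD, hir])
  have hRv : A.valuation (R : K) = 1 := res_ne_zero.1 (by
    have hY0 : residue A Y ≠ 0 := fun e => one_ne_zero (hYr.symm.trans (by rw [e]; simp))
    rw [hR, map_sub, map_mul _ Y]
    simp only [map_add, map_mul, map_pow, hir]
    simpa [map_add, map_mul] using mul_ne_zero hY0 hμ)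
  have key : ((genFib W0).toAffine.addX x₁ x₂ ((genFib W0).toAffine.slope x₁ x₂ y₁ y₂) - x₂) *
      (D : K) ^ 2 = (i : K) * R := by
    rw [Affine.slope_of_X_ne hne]
    simp only [Affine.addX, hR, hD, genFib_a₁, genFib_a₂, WeierstrassCurve.toAffine]
    push_cast
    rw [Affine.equation_iff, genFib_a₁, genFib_a₂, genFib_a₃, genFib_a₄, genFib_a₆] at h₁ h₂
    simp only [hi, hYd, show ((2 : A) : K) = 2 from map_ofNat A.subtype 2,
      show ((3 : A) : K) = 3 from map_ofNat A.subtype 3]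
    subst hw
    field_simp
    linear_combination h₁ + h₂
  have hv := congrArg A.valuation key
  rw [map_mul, map_mul, map_pow, hDv, hRv, one_pow, mul_one, mul_one] at hv
  rw [hv, ← map_pow, ← map_mul, ← hw]
  show A.valuation (w⁻¹ ^ 2 * w ^ 2) = 1
  rw [inv_pow, inv_mul_cancel₀ (pow_ne_zero 2 hw0), map_one]

/-- adding a point of the kernel to a reduction of odd order -/
theorem val_move_unit {W0 : WeierstrassCurve A} (hp : p.Prime) (hp2 : p ≠ 2)
    {Q T : (genFib W0).toAffine.Point} (hQ0 : InE0 Q) (hQ : p • Q = 0) (hQ1 : ¬ InE1 Q)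
    (hT : InE1 T) (hT0 : T ≠ 0) :
    xc Q ∈ A ∧ A.valuation (xc (Q + T) - xc Q) ^ 2 * A.valuation (xc T) = 1 := by
  rcases inE0_cases hQ0 with h | ⟨x₂, y₂, h₂, rfl, n₂⟩
  · exact absurd h hQ1
  rcases T with _ | ⟨x₁, y₁, h₁⟩
  · exact absurd rfl hT0
  refine ⟨x₂.2, ?_⟩
  have hne : x₁ ≠ x₂ := fun e => hT (e ▸ x₂.2)
  have hμ : residue A (2 * y₂ + W0.a₁ * x₂ + W0.a₃) ≠ 0 := by
    intro h0
    have hneg : (specFib W0).toAffine.negY (residue A x₂) (residue A y₂) = residue A y₂ := by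
      rw [← red_neg_affine, ← sub_eq_zero, ← map_sub, ← neg_eq_zero, ← map_neg]
      refine Eq.trans (congrArg (residue A) ?_) h0
      simp only [Affine.negY]
      ring
    have e : red (Affine.Point.some _ _ h₂) = Affine.Point.some _ _ n₂ := red_some x₂.2 y₂.2 n₂
    have h2 : 2 • red (Affine.Point.some _ _ h₂) = 0 := by
      rw [e, two_nsmul, Affine.Point.add_of_Y_eq rfl hneg.symm]
    have hp' : p • red (Affine.Point.some _ _ h₂) = 0 := by rw [← red_nsmul hQ0, hQ, red_zero]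
    have hd := Nat.dvd_gcd (addOrderOf_dvd_of_nsmul_eq_zero h2)
      (addOrderOf_dvd_of_nsmul_eq_zero hp')
    rw [((Nat.coprime_primes Nat.prime_two hp).2 hp2.symm).gcd_eq_one, Nat.dvd_one,
      AddMonoid.addOrderOf_eq_one_iff, e] at hd
    exact Affine.Point.some_ne_zero _ hd
  rw [add_comm, Affine.Point.add_of_X_ne hne]
  exact val_addX_sub_unit h₁.1 h₂.1 hT hμ

/-- good ordinary reduction gives a slope field -/
theorem slopeField_ordinary [Fact p.Prime] (hp : p.Prime) (hp2 : p ≠ 2) (hA : A.LiesOverPrime p)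
    (hΔ : W.Δ ≠ 0) (hgood : ¬ (p : ℤ) ∣ W.Δ) (hord : ∃ Q : Tors W p, Q ∉ torsE1 W A p) :
    TOR.SlopeField A p (torsField W A p) := by
  classical
  obtain ⟨Q, hQ⟩ := hord
  have hstep : ∀ σ ∈ A.inertiaSubgroupIn ℚ, ∀ x : Tors W p, σ • x - x ∈ torsE1 W A p :=
    fun σ hσ x => inertia_sub_mem_redKernel hσ (mem_zeroComp_of_good hA hp hgood _)
  obtain ⟨T, hT, hT0⟩ : ∃ T ∈ torsE1 W A p, T ≠ 0 := by
    by_contra hno
    push Not at hno
    obtain ⟨σ, hσ, hne⟩ := TOR.exists_cyc_ne_one hp hp2 hA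
    have hid : ∀ x : Tors W p, σ • x = x := fun x => sub_eq_zero.mp (hno _ (hstep σ hσ x))
    obtain ⟨-, hrank⟩ := finrank_tors hΔ p
    have hQ0 : Q ≠ 0 := fun e => hQ (e ▸ zero_mem _)
    obtain ⟨Q', hQ'⟩ : ∃ Q' : Tors W p, ∀ a : ZMod p, Q' ≠ a • Q := by
      by_contra hc
      push Not at hc
      have := finrank_le_one Q fun x => (hc x).imp fun a e => e.symm
      omega
    exact hne (TOR.cyc_eq_of_shear hΔ hQ0 hQ' (c := 1) (t := 0)
      (by rw [hid, one_smul]) (by rw [hid, zero_smul, add_zero]))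
  have hQT : ∀ a : ZMod p, Q ≠ a • T := fun a e => hQ (by rw [e]; exact Submodule.smul_mem _ a hT)
  have hact : ∀ σ ∈ A.inertiaSubgroupIn ℚ,
      σ • T = cyc p σ • T ∧ ∃ t : ZMod p, σ • Q = Q + t • T := fun σ hσ => by
    obtain ⟨a, ha⟩ := TOR.line_of_mem hΔ hT0 hT hQ (hstep σ hσ T)
    obtain ⟨t, ht⟩ := TOR.line_of_mem hΔ hT0 hT hQ (hstep σ hσ Q)
    have hσT : σ • T = (a + 1) • T := by rw [add_smul, one_smul, ← ha, sub_add_cancel]
    have hσQ : σ • Q = Q + t • T := by rw [← ht, add_sub_cancel]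
    rw [TOR.cyc_eq_of_shear hΔ hT0 hQT hσT hσQ]
    exact ⟨hσT, t, hσQ⟩
  refine TOR.slopeField_of_adapted hp hA hΔ hT0 hQT hact fun σ₀ hσ₀ t₀ ht₀ _ hσ₀Q => ?_
  set T' : Tors W p := t₀ • T
  have hT'0 : T' ≠ 0 := smul_ne_zero ht₀ hT0
  set φ := toLoc A W
  have hφT : φ (T' : QPoint W) ≠ 0 := fun e =>
    hT'0 (Subtype.ext (toLoc_injective A W (e.trans (map_zero φ).symm)))
  obtain ⟨hxA, hmove⟩ := val_move_unit hp hp2 (Q := φ (Q : QPoint W)) (T := φ (T' : QPoint W))
    ((inE0_toLoc A W).2 (mem_zeroComp_of_good hA hp hgood _))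
    (by rw [← map_nsmul, nsmul_tors, map_zero]) (fun e => hQ ((inE1_toLoc W A).1 e))
    ((inE1_toLoc W A).2 (Submodule.smul_mem (torsE1 W A p) t₀ hT)) hφT
  refine ⟨xc (φ (Q : QPoint W)), mem_torsField.mpr fun σ hσ => ?_, hxA,
    TOR.le_move hp hp2 hA (fun σ _ P => isImage_toLoc A W σ P) hφT
      (fun σ hσ => by rw [smul_zmod_smul, (hact σ hσ).1, smul_comm]) ?_⟩
  · have h1 := TOR.xc_isImage (isImage_toLoc A W σ (Q : QPoint W))
    rw [← coe_smul, (mem_torsKer.mp hσ).2] at h1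
    exact h1.symm
  · have h1 := TOR.xc_isImage (isImage_toLoc A W σ₀ (Q : QPoint W))
    rw [← coe_smul, hσ₀Q, AddMemClass.coe_add, map_add] at h1
    show A.valuation ((σ₀ : Qb →+* Qb) (xc (φ (Q : QPoint W))) - _) ^ 2 * _ = 1
    rw [← h1]
    exact hmove

/-! ### supersingular reduction -/

/-- at a root of `ψ₂²` on a smooth curve `ψ₃` does not vanish -/
theorem Ψ₃_eval_ne_zero {k : Type*} [Field k] (E : WeierstrassCurve k) (h2 : (2 : k) ≠ 0)
    (hΔ : E.Δ ≠ 0) {x : k} (hx : E.Ψ₂Sq.eval x = 0) : E.Ψ₃.eval x ≠ 0 := by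
  intro h3
  simp only [WeierstrassCurve.Ψ₂Sq, eval_add, eval_mul, eval_pow, eval_C, eval_X] at hx
  simp only [WeierstrassCurve.Ψ₃, eval_add, eval_mul, eval_pow, eval_ofNat, eval_C, eval_X] at h3
  have hd : 6 * x ^ 2 + E.b₂ * x + E.b₄ = 0 := by
    have hb8 := E.b_relation
    refine pow_eq_zero_iff (n := 2) two_ne_zero |>.mp ?_
    linear_combination (-4 : k) * h3 + (12 * x + E.b₂) * hx + hb8
  refine hΔ ((mul_eq_zero.mp (?_ : (16 : k) * E.Δ = 0)).resolve_left ?_)
  · rw [← twoTorsionPolynomial_discr]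
    have e4 : E.b₄ = -(6 * x ^ 2 + E.b₂ * x) := by linear_combination hd
    have e6 : E.b₆ = -(4 * x ^ 3 + E.b₂ * x ^ 2 + 2 * E.b₄ * x) := by linear_combination hx
    simp only [Cubic.discr, WeierstrassCurve.twoTorsionPolynomial, e6, e4]
    ring
  · rw [show (16 : k) = 2 ^ 4 by norm_num]
    exact pow_ne_zero 4 h2

theorem genFib_locModel_eq : genFib (locModel A W) = curveBar W := by
  rw [← locModel_eq A W, one_smul]

variable [Fact p.Prime]

/-- when all the torsion reduces to the origin, all its abscissas have the same valuation -/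
theorem val_xcoord_eq (hp : p.Prime) (hp2 : p ≠ 2) (hA : A.LiesOverPrime p) (hΔ : W.Δ ≠ 0)
    (hgood : ¬ (p : ℤ) ∣ W.Δ) (hall : ∀ x : Tors W p, x ∈ torsE1 W A p) :
    ∃ R : A.ValueGroup, 1 < R ∧
      ∀ x : Tors W p, x ≠ 0 → A.valuation (xcoord (x : QPoint W)) = R := by
  classical
  have hodd := hp.odd_of_ne_two hp2
  have := isElliptic_curveBar hΔ
  set W1 := locModel A W
  set f : A[X] := W1.preΨ' p with hf
  obtain ⟨hlead, hf0⟩ := TOR.preΨ'_genFib_lead (W1 := W1) hp hp2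
  have hmap : f.map A.subtype = (genFib W1).preΨ' p := TOR.preΨ'_map_subtype p
  have hroot : ∀ r : Qb, r ∈ (f.map A.subtype).roots → r ∉ A := by
    intro r hr hrA
    rw [hmap, mem_roots hf0] at hr
    obtain ⟨y, hy⟩ := exists_nonsingular (curveBar W) r
    have hns := hy
    rw [← genFib_locModel_eq (A := A) (W := W)] at hns
    have hk : p • (Affine.Point.some r y hns : (genFib W1).toAffine.Point) = 0 := by
      rw [nsmul_eq_zero_iff hns, TOR.ΨSq_eval_eq hp hp2, show ((genFib W1).preΨ' p).eval r = 0 from hr,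
        zero_pow two_ne_zero]
    obtain ⟨h', e⟩ := toLoc_some A W hy
    have hP : p • (Affine.Point.some r y hy : QPoint W) = 0 := toLoc_injective A W (by
      rw [map_nsmul, map_zero, e]; exact hk)
    rcases hall (mkTors _ hP) with h | ⟨a, b, h, hab, ha⟩
    · exact Affine.Point.some_ne_zero _ h
    · exact ha ((Affine.Point.some.inj hab).1 ▸ hrA)
  -- the reduction is a nonzero constant
  haveI := Reduction.charP_residue A hp hA
  have h2 : (2 : ResidueField A) ≠ 0 :=
    TOR.two_ne_zero_residue (Reduction.charP_residue A hp hA) hp hp2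
  have hΔr : (specFib W1).Δ ≠ 0 := by
    rw [specFib, map_Δ, res_ne_zero, val_locModel_Δ]
    exact val_int_eq_one hA hp hgood
  have hres0 : f.map (residue A) ≠ 0 := by
    rw [hf, ← W1.map_preΨ' (residue A) p]
    intro h0
    obtain ⟨x, hx⟩ := IsAlgClosed.exists_root (specFib W1).Ψ₂Sq (by
      rw [degree_eq_natDegree (fun h => ?_), natDegree_Ψ₂Sq]
      · exact Nat.cast_ne_zero.mpr three_ne_zero
      · rw [show (4 : ResidueField A) = 2 ^ 2 by norm_num]; exact pow_ne_zero 2 h2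
      · have h4 := (specFib W1).coeff_Ψ₂Sq
        rw [h, coeff_zero] at h4
        exact pow_ne_zero 2 h2 (by rw [h4]; norm_num))
    exact TOR.preΨ'_eval_ne_zero (specFib W1) hx (Ψ₃_eval_ne_zero _ h2 hΔr hx) hodd
      (by rw [show (specFib W1).preΨ' p = 0 from h0, eval_zero])
  have hdeg : (f.map (residue A)).natDegree = 0 := by
    by_contra h
    obtain ⟨r, hr, hrA⟩ := TOR.exists_root_mem f (by rwa [hmap]) h
    exact hroot r hr hrA
  set v := A.valuation
  set N := ((genFib W1).preΨ' p).natDegree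
  have hc0 : v ((f.coeff 0 : A) : Qb) = 1 := by
    refine res_ne_zero.1 fun h => hres0 ?_
    rw [eq_C_of_natDegree_eq_zero hdeg, coeff_map, h, C_0]
  have hcoef : ∀ i, i ≠ 0 → v ((f.coeff i : A) : Qb) ≤ v (p : Qb) := by
    intro i hi
    have h : v ((f.coeff i : A) : Qb) < 1 := by
      refine res_eq_zero.1 ?_
      rw [← coeff_map, eq_C_of_natDegree_eq_zero hdeg, coeff_C, if_neg hi]
    obtain ⟨z, hz⟩ : ∃ z : ℤ, ((f.coeff i : A) : Qb) = (z : Qb) := ⟨(W.preΨ' p).coeff i, by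
      rw [hf, show W1.preΨ' p = (W.preΨ' p).map (Int.castRingHom A) from W.map_preΨ' _ _, coeff_map]
      simp⟩
    rw [hz] at h ⊢
    obtain ⟨c, rfl⟩ := (val_int_lt_one_iff hA hp z).1 h
    push_cast
    rw [map_mul]
    exact mul_le_of_le_one_right' ((A.valuation_le_one_iff _).2 (intCast_mem A c))
  have hN0 : N ≠ 0 := fun h => by
    have : v ((f.coeff 0 : A) : Qb) = v (p : Qb) := by
      rw [← hlead, leadingCoeff, show ((genFib W1).preΨ' p).natDegree = 0 from h, ← hmap, coeff_map]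
      rfl
    rw [hc0] at this
    exact (ne_of_lt hA) this.symm
  have hpv : v (p : Qb) ≠ 0 := (Valuation.ne_zero_iff _).2 (Nat.cast_ne_zero.2 hp.ne_zero)
  have hval : ∀ x : Qb, (f.map A.subtype).eval x = 0 → 1 < v x → v (p : Qb) * v x ^ N = 1 := by
    intro x hx hx1
    rw [hmap, eval_eq_sum_range, Finset.sum_range_succ, Finset.sum_range_eq_add_Ico _ (Nat.pos_of_ne_zero hN0),
      ← leadingCoeff, hlead, pow_zero, mul_one] at hx
    set S := ∑ i ∈ Finset.Ico 1 N, ((genFib W1).preΨ' p).coeff i * x ^ i with hS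
    have hc : ∀ i, ((genFib W1).preΨ' p).coeff i = ((f.coeff i : A) : Qb) := fun i => by
      rw [← hmap, coeff_map]; rfl
    have hlt : v S < v (p : Qb) * v x ^ N := by
      refine v.map_sum_lt (mul_ne_zero hpv (pow_ne_zero _ (ne_of_gt (zero_lt_one.trans hx1)))) ?_
      intro i hi
      rw [Finset.mem_Ico] at hi
      rw [map_mul, map_pow, hc]
      exact lt_of_le_of_lt (mul_le_mul' (hcoef i (by omega)) le_rfl)
        (mul_lt_mul_of_pos_left (pow_lt_pow_right₀ hx1 hi.2) (zero_lt_iff.2 hpv))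
    have ha : v ((p : Qb) * x ^ N) = v (p : Qb) * v x ^ N := by rw [map_mul, map_pow]
    have hc0' : v (((genFib W1).preΨ' p).coeff 0) = 1 := by rw [hc, hc0]
    rcases lt_trichotomy (v (p : Qb) * v x ^ N) 1 with h | h | h
    · exfalso
      have := congrArg v hx
      rw [Valuation.map_add_eq_of_lt_left, Valuation.map_add_eq_of_lt_left, hc0', map_zero] at this
      · exact one_ne_zero this
      · rw [hc0']; exact hlt.trans h
      · rw [Valuation.map_add_eq_of_lt_left _ (by rw [hc0']; exact hlt.trans h), hc0', ha]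
        exact h
    · exact h
    · exfalso
      have := congrArg v hx
      rw [Valuation.map_add_eq_of_lt_right, ha, map_zero] at this
      · exact ne_of_gt (zero_lt_one.trans h) this
      · rw [ha]
        exact Valuation.map_add_lt _ (by rwa [hc0']) hlt
  have hone : ∀ x : Tors W p, x ≠ 0 → 1 < v (xcoord (x : QPoint W)) ∧
      v (p : Qb) * v (xcoord (x : QPoint W)) ^ N = 1 := by
    intro x hx
    obtain ⟨P, hP⟩ : ∃ P : QPoint W, (x : QPoint W) = P := ⟨_, rfl⟩
    rcases P with _ | ⟨a, b, h⟩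
    · exact absurd (Subtype.ext hP) hx
    rcases hall x with h0 | ⟨a', b', h', hab, ha'⟩
    · exact absurd (Subtype.ext h0) hx
    change (x : QPoint W) = _ at hab
    rw [hP] at hab ⊢
    obtain ⟨rfl, rfl⟩ := Affine.Point.some.inj hab
    have h1 : 1 < v a := not_mem_iff_val.1 ha'
    refine ⟨h1, hval a ?_ h1⟩
    obtain ⟨h'', e⟩ := toLoc_some A W h
    have hk := congrArg (toLoc A W) (nsmul_tors x)
    rw [hP, map_nsmul, map_zero, e, nsmul_eq_zero_iff h'', TOR.ΨSq_eval_eq hp hp2] at hk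
    rw [hmap]
    exact (pow_eq_zero_iff two_ne_zero).mp hk
  obtain ⟨x0, hx0⟩ : ∃ x : Tors W p, x ≠ 0 := by
    haveI := Module.nontrivial_of_finrank_pos (R := ZMod p)
      (M := Tors W p) (by rw [(finrank_tors hΔ p).2]; norm_num)
    exact exists_ne 0
  refine ⟨_, (hone x0 hx0).1, fun x hx => ?_⟩
  refine (pow_left_inj₀ (n := N) zero_le zero_le hN0).mp (mul_left_cancel₀ hpv ?_)
  rw [(hone x hx).2, (hone x0 hx0).2]

/-- inertia has no shear on the torsion when all of it reduces to the origin -/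
theorem no_shear (hp : p.Prime) (hp2 : p ≠ 2) (hA : A.LiesOverPrime p) {R : A.ValueGroup} (hR : 1 < R)
    (hval : ∀ x : Tors W p, x ≠ 0 → A.valuation (xcoord (x : QPoint W)) = R) {σ : GalQ}
    (hσ : σ ∈ A.inertiaSubgroupIn ℚ) {T Q : Tors W p} (hT : T ≠ 0) (hσT : σ • T = T)
    (hσQ : σ • Q = Q + T) : False := by
  classical
  have hQ : Q ≠ 0 := fun e => hT (by rw [e, smul_zero, zero_add] at hσQ; exact hσQ.symm)
  obtain ⟨PT, hPT⟩ : ∃ P : QPoint W, (T : QPoint W) = P := ⟨_, rfl⟩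
  obtain ⟨PQ, hPQ⟩ : ∃ P : QPoint W, (Q : QPoint W) = P := ⟨_, rfl⟩
  have vT := hval T hT
  have vQ := hval Q hQ
  rw [hPT] at vT
  rw [hPQ] at vQ
  rcases PT with _ | ⟨xT, yT, hnT⟩
  · exact hT (Subtype.ext hPT)
  rcases PQ with _ | ⟨xQ, yQ, hnQ⟩
  · exact hQ (Subtype.ext hPQ)
  change A.valuation xT = R at vT
  change A.valuation xQ = R at vQ
  set v := A.valuation
  have hR0 : R ≠ 0 := ne_of_gt (zero_lt_one.trans hR)
  have hxT0 : xT ≠ 0 := (Valuation.ne_zero_iff v).1 (by rw [vT]; exact hR0)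
  -- the point moved
  have hcoe := congrArg (fun z : Tors W p => (z : QPoint W)) hσT
  simp only [coe_smul, hPT] at hcoe
  have hσxT : σ xT = xT := (congrArg xcoord hcoe).symm.trans (xcoord_smul σ _).1 |>.symm
  have hσyT : σ yT = yT := (congrArg ycoord hcoe).symm.trans (xcoord_smul σ _).2 |>.symm
  have hsum := congrArg (fun z : Tors W p => (z : QPoint W)) hσQ
  simp only [coe_smul, AddMemClass.coe_add, hPT, hPQ] at hsum
  obtain ⟨PR, hPR⟩ : ∃ P : QPoint W, σ • (Affine.Point.some xQ yQ hnQ : QPoint W) = P := ⟨_, rfl⟩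
  rw [hPR] at hsum
  have hxR : xcoord PR = σ xQ := by rw [← hPR]; exact (xcoord_smul σ _).1
  have hyR : ycoord PR = σ yQ := by rw [← hPR]; exact (xcoord_smul σ _).2
  rcases PR with _ | ⟨xR, yR, hnR⟩
  · have hxQ0 : xQ ≠ 0 := (Valuation.ne_zero_iff v).1 (by rw [vQ]; exact hR0)
    exact (_root_.map_ne_zero σ).2 hxQ0 hxR.symm
  change xR = σ xQ at hxR
  change yR = σ yQ at hyR
  have hI := inertial_of_mem hσ
  have vy : ∀ {a b : Qb}, (curveBar W).toAffine.Nonsingular a b → v a = R → v b ^ 2 = R ^ 3 :=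
    fun h ha => by rw [← ha]; exact valuation_sq_y h.1 (ha ▸ hR)
  have hyT0 : yT ≠ 0 := (Valuation.ne_zero_iff v).1 fun h => pow_ne_zero 3 hR0 (by
    rw [← vy hnT vT, h, zero_pow two_ne_zero])
  have hyy : v yQ = v yT := (pow_left_inj₀ (n := 2) zero_le zero_le two_ne_zero).mp
    ((vy hnQ vQ).trans (vy hnT vT).symm)
  have hdx : v (xR - xQ) < R := by
    rw [hxR, ← vT]
    exact hI.val_sub_lt hσxT hxT0 (by rw [vQ, vT])
  have hdy : v (yR - yQ) < v yQ := by
    rw [hyR, hyy]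
    exact hI.val_sub_lt hσyT hyT0 hyy.le
  have hne : xR ≠ xQ := by
    intro e
    rcases eq_or_eq_neg_of_xc_eq (W := curveBar W) (Q := Affine.Point.some xR yR hnR)
      (R := Affine.Point.some xQ yQ hnQ) (Affine.Point.some_ne_zero _)
      (Affine.Point.some_ne_zero _) e with h | h
    · rw [h, ← hPQ, ← hPT] at hsum
      exact hT (Subtype.ext (add_left_cancel (a := (Q : QPoint W))
        ((hsum.symm.trans (add_zero _).symm))))
    · have h1 : σ • Q = -Q := Subtype.ext (by rw [coe_smul, hPQ, hPR, h, NegMemClass.coe_neg, hPQ])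
      have h2 : T + 2 • Q = 0 := by
        rw [two_nsmul, ← add_assoc, add_comm T, ← hσQ, h1, neg_add_cancel]
      have h3 : σ • (T + 2 • Q) = 0 := by rw [h2, smul_zero]
      have h4 : σ • (2 • Q) = 2 • (σ • Q) := map_nsmul (DistribSMul.toAddMonoidHom _ σ) 2 Q
      rw [smul_add, hσT, h4, h1] at h3
      have h5 : 4 • Q = 0 := by
        have := congrArg₂ (· - ·) h2 h3
        simp only [sub_zero, neg_nsmul] at this
        rw [← this]; abel
      have hd := Nat.dvd_gcd (addOrderOf_dvd_of_nsmul_eq_zero h5)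
        (addOrderOf_dvd_of_nsmul_eq_zero (show p • Q = 0 from Subtype.ext (nsmul_tors Q)))
      have hc : Nat.Coprime 4 p := by
        rw [show 4 = 2 ^ 2 from rfl]
        exact ((Nat.coprime_primes Nat.prime_two hp).2 hp2.symm).pow_left 2
      rw [hc.gcd_eq_one, Nat.dvd_one, AddMonoid.addOrderOf_eq_one_iff] at hd
      exact hQ hd
  -- the abscissa of the difference
  set E := curveBar W with hE
  set lam := E.toAffine.slope xR xQ yR (E.toAffine.negY xQ yQ) with hlam
  have hx : xT = lam ^ 2 + E.a₁ * lam - E.a₂ - xR - xQ := by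
    have h : (Affine.Point.some xT yT hnT : QPoint W) =
        Affine.Point.some xR yR hnR + (-Affine.Point.some xQ yQ hnQ) := by
      rw [hsum]; abel
    rw [Affine.Point.neg_some, Affine.Point.add_of_X_ne hne] at h
    exact (Affine.Point.some.inj h).1
  have hn : ∀ n : ℤ, v (n : Qb) ≤ 1 := fun n => (A.valuation_le_one_iff _).2 (intCast_mem _ n)
  have ha : v E.a₁ ≤ 1 ∧ v E.a₂ ≤ 1 ∧ v E.a₃ ≤ 1 := by
    rw [hE, curveBar_eq]
    exact ⟨hn W.a₁, hn W.a₂, hn W.a₃⟩
  have hyR' : R < v yQ := by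
    refine (pow_lt_pow_iff_left₀ (n := 2) zero_le zero_le two_ne_zero).mp ?_
    rw [vy hnQ vQ]
    exact pow_lt_pow_right₀ hR (by norm_num)
  have hv2 : v ((2 : Qb)) = 1 := by
    rw [show (2 : Qb) = ((2 : ℤ) : Qb) by norm_num]
    exact val_int_eq_one hA hp fun h => hp2 ((Nat.prime_dvd_prime_iff_eq hp Nat.prime_two).1
      (by exact_mod_cast h))
  have hnum : v (yR - E.toAffine.negY xQ yQ) = v yQ := by
    rw [show yR - E.toAffine.negY xQ yQ = 2 * yQ + ((yR - yQ) + (E.a₁ * xQ + E.a₃)) by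
      simp only [Affine.negY]; ring]
    rw [Valuation.map_add_eq_of_lt_left] <;> rw [map_mul, hv2, one_mul]
    refine Valuation.map_add_lt _ hdy (Valuation.map_add_lt _ ?_ ?_)
    · rw [map_mul]
      exact lt_of_le_of_lt (mul_le_of_le_one_left' ha.1) (vQ ▸ hyR')
    · exact lt_of_le_of_lt ha.2.2 (hR.trans hyR')
  have hlam2 : R < v lam ^ 2 := by
    have hd0 : v (xR - xQ) ≠ 0 := (Valuation.ne_zero_iff v).2 (sub_ne_zero.2 hne)
    rw [hlam, Affine.slope_of_X_ne hne, map_div₀, hnum, div_pow, vy hnQ vQ,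
      lt_div_iff₀ (pow_pos (zero_lt_iff.2 hd0) 2), pow_succ' R 2]
    exact mul_lt_mul_of_pos_left (pow_lt_pow_left₀ hdx zero_le two_ne_zero)
      (zero_lt_iff.2 hR0)
  have hlam1 : 1 < v lam := by
    by_contra h
    exact absurd (hR.trans hlam2) (not_lt.2 (pow_le_one₀ zero_le (not_lt.1 h)))
  have hxv : v xT = v lam ^ 2 := by
    have vR : v xR = R := by rw [hxR]; exact (hI.val xQ).trans vQ
    have e1 : v (lam ^ 2 + E.a₁ * lam) = v lam ^ 2 := by
      rw [Valuation.map_add_eq_of_lt_left _ ?_, map_pow]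
      rw [map_mul, map_pow]
      exact lt_of_le_of_lt (mul_le_of_le_one_left' ha.1) (lt_self_pow₀ hlam1 one_lt_two)
    have e2 : v (lam ^ 2 + E.a₁ * lam - E.a₂) = v lam ^ 2 := by
      rw [Valuation.map_sub_eq_of_lt_left _ ?_, e1]
      rw [e1]
      exact lt_of_le_of_lt ha.2.1 (hR.trans hlam2)
    have e3 : v (lam ^ 2 + E.a₁ * lam - E.a₂ - xR) = v lam ^ 2 := by
      rw [Valuation.map_sub_eq_of_lt_left _ ?_, e2]
      rw [e2, vR]
      exact hlam2
    rw [hx, Valuation.map_sub_eq_of_lt_left _ ?_, e3]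
    rw [e3, vQ]
    exact hlam2
  exact ne_of_gt hlam2 (hxv.symm.trans vT)

/-- all the torsion reducing to the origin gives a tame slope field -/
theorem slopeField_supersingular (hp : p.Prime) (hp2 : p ≠ 2) (hA : A.LiesOverPrime p)
    (hΔ : W.Δ ≠ 0) (hgood : ¬ (p : ℤ) ∣ W.Δ) (hall : ∀ x : Tors W p, x ∈ torsE1 W A p) :
    TOR.SlopeField A p (torsField W A p) := by
  classical
  obtain ⟨R, hR, hval⟩ := val_xcoord_eq hp hp2 hA hΔ hgood hall
  haveI := (finrank_tors hΔ p).1
  haveI : Finite (Tors W p) := Module.finite_of_finite (ZMod p)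
  set I := A.inertiaSubgroupIn ℚ
  let f : I →* Equiv.Perm (Tors W p) := (MulAction.toPermHom GalQ (Tors W p)).comp I.subtype
  set U := f.range
  have hcop : ¬ p ∣ Nat.card U := by
    intro hd
    obtain ⟨⟨u, ⟨σ, hσ⟩, rfl⟩, hord⟩ := exists_prime_orderOf_dvd_card' p hd
    rw [← Subgroup.orderOf_coe] at hord
    have hσp : ∀ x : Tors W p, σ ^ p • x = x := fun x => by
      have h1 : f (⟨σ, hσ⟩ ^ p) = 1 := by
        rw [map_pow]
        exact orderOf_dvd_iff_pow_eq_one.mp hord.dvd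
      exact congrArg (fun e : Equiv.Perm (Tors W p) => e x) h1
    haveI : Nontrivial (Tors W p) :=
      Module.nontrivial_of_finrank_pos (R := ZMod p) (by rw [(finrank_tors hΔ p).2]; norm_num)
    set F : Module.End (ZMod p) (Tors W p) :=
      galoisRepModuleEnd ℚ (K := AlgebraicClosure ℚ) (W.map (Int.castRingHom ℚ)) p σ with hF
    haveI : CharP (Module.End (ZMod p) (Tors W p)) p :=
      charP_of_injective_ringHom (RingHom.injective (algebraMap (ZMod p) _)) p
    have hFx : ∀ (k : ℕ) (x : Tors W p), (F ^ k) x = σ ^ k • x := by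
      intro k
      induction k with
      | zero => intro x; simp
      | succ k ih =>
        intro x
        rw [pow_succ', Module.End.mul_apply, ih, pow_succ', mul_smul]
        rfl
    have hnil : (F - 1) ^ p = 0 := by
      rw [sub_pow_char_of_commute p (Commute.one_right F), one_pow, sub_eq_zero]
      exact LinearMap.ext fun x => (hFx p x).trans (hσp x)
    have hne : F - 1 ≠ 0 := by
      intro h0
      refine hp.one_lt.ne' (hord.symm.trans ?_)
      rw [orderOf_eq_one_iff]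
      exact Equiv.ext fun x => LinearMap.congr_fun (sub_eq_zero.mp h0) x
    have hex : ∃ k, (F - 1) ^ k = 0 := ⟨p, hnil⟩
    obtain ⟨k, hk, hmin⟩ : ∃ k, (F - 1) ^ k = 0 ∧ ∀ j < k, (F - 1) ^ j ≠ 0 :=
      ⟨Nat.find hex, Nat.find_spec hex, fun j hj => Nat.find_min hex hj⟩
    rcases k with _ | _ | k
    · exact hne (by rw [← one_mul (F - 1), ← pow_zero (F - 1), hk, zero_mul])
    · exact hne (by rwa [pow_one] at hk)
    obtain ⟨x, hx⟩ : ∃ x, ((F - 1) ^ (k + 1)) x ≠ 0 := by
      by_contra h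
      push Not at h
      exact hmin (k + 1) (by omega) (LinearMap.ext h)
    set Q := ((F - 1) ^ k) x with hQd
    set T := (F - 1) Q with hTd
    have hT : T ≠ 0 := by rwa [hTd, hQd, ← Module.End.mul_apply, ← pow_succ']
    have hT' : (F - 1) T = 0 := by
      rw [hTd, hQd, ← Module.End.mul_apply, ← Module.End.mul_apply, mul_assoc, ← pow_succ', ← pow_succ', hk,
        LinearMap.zero_apply]
    refine no_shear hp hp2 hA hR hval hσ (T := T) (Q := Q) hT (sub_eq_zero.mp hT') ?_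
    rw [hTd]
    exact (add_sub_cancel Q (F Q)).symm
  refine ⟨fun z hz => mem_torsField.mpr fun σ hσ => SS2.mem_inertiaFixed.mp hz σ hσ.1,
    Or.inl fun x hx hx0 => ?_⟩
  have hker : ∀ s : I, f s = 1 → (s : GalQ) x = x := fun s hs =>
    mem_torsField.mp hx s (mem_torsKer.mpr ⟨s.2, fun y =>
      congrArg (fun e : Equiv.Perm (Tors W p) => e y) hs⟩)
  choose τ hτ using fun u : U => u.2
  haveI : Fintype U := Fintype.ofFinite _
  set z := ∏ u : U, ((τ u : I) : GalQ) x with hz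
  have hzT : z ∈ SS2.inertiaFixed A := by
    rw [SS2.mem_inertiaFixed]
    intro σ hσ
    rw [hz, map_prod]
    refine Fintype.prod_equiv (Equiv.mulLeft (⟨f ⟨σ, hσ⟩, ⟨⟨σ, hσ⟩, rfl⟩⟩ : U)) _ _ fun u => ?_
    set u' := (Equiv.mulLeft (⟨f ⟨σ, hσ⟩, ⟨⟨σ, hσ⟩, rfl⟩⟩ : U)) u with hu'
    have h2 := hker ((τ u')⁻¹ * (⟨σ, hσ⟩ * τ u)) (by
      rw [map_mul, map_inv, map_mul, hτ u', hτ u, hu', Equiv.coe_mulLeft, Subgroup.coe_mul,
        inv_mul_cancel])
    change (τ u' : GalQ).symm (σ ((τ u : GalQ) x)) = x at h2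
    exact ((τ u' : GalQ).apply_symm_apply _).symm.trans (congrArg (τ u' : GalQ) h2)
  have hz0 : z ≠ 0 := Finset.prod_ne_zero_iff.mpr fun u _ => (_root_.map_ne_zero _).mpr hx0
  obtain ⟨i, hi⟩ := SS2.exists_zpow_valuation_T hp hA hzT hz0
  refine ⟨Nat.card U, i, hcop, ?_⟩
  rw [← hi, hz, map_prod, Finset.prod_congr rfl
    (fun u _ => TOR.valuation_inertia_eq hp hA (τ u).2 x), Finset.prod_const, Finset.card_univ,
    Nat.card_eq_fintype_card]

/-- good or peu ramifié multiplicative reduction gives a slope field -/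
theorem slopeField_peu (hp : p.Prime) (hp3 : 3 ≤ p) (hA : A.LiesOverPrime p) (hΔ : W.Δ ≠ 0)
    (hss : SemistableAt W p) (hpeu : (p : ℤ) ∣ W.Δ → p ∣ padicValInt p W.Δ) :
    TOR.SlopeField A p (torsField W A p) := by
  by_cases hd : (p : ℤ) ∣ W.Δ
  · exact TOR.slopeField_torsField ⟨hp, hp3, hA, hΔ, hd, hss, hpeu hd⟩
  by_cases hord : ∃ Q : Tors W p, Q ∉ torsE1 W A p
  · exact slopeField_ordinary hp (by omega) hA hΔ hd hord
  · push Not at hord
    exact slopeField_supersingular hp (by omega) hA hΔ hd hord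

end FLTAgent.MLT

end
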