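import Fermat.Agent.SS2.Kill

/-!
Ratios of twisted sections at the points where the three components of a fibre meet: they add up,
they decide whether a twist is principal, and those of a twist coming from one projection are one on
that side.
-/

set_option autoImplicit false
set_option linter.unusedSectionVars false
set_option linter.unusedVariables false
set_option linter.style.haveILetI false

noncomputable section

open AlgebraicCurve IsLocalRing
open FLTAgent.RR (Bd KK)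
open FLTAgent.Reduction (Val)

namespace FLTAgent.SS2.Fib

variable {K : Type*} [Field K] [IsAlgClosed K] [CharZero K] {A : ValuationSubring K}
  {F : Type*} [Field F] [Algebra K F] [RR.FnField K F]
  {Fs : Type*} [Field Fs] [Algebra (ResidueField A) Fs] (M : Fib K A F Fs) {n : ℕ}

/-- the product of two twists -/
def Twist.mulTwist (W W' : M.Twist n) : M.Twist n where
  D := W.D + W'.D
  f := W.f * W'.f
  degree_D := by rw [map_add, W.degree_D, W'.degree_D, add_zero]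
  f_ne := mul_ne_zero W.f_ne W'.f_ne
  ord_f P := by rw [P.ord_mul W.f_ne W'.f_ne, Finsupp.add_apply, mul_add, W.ord_f, W'.ord_f]
  f_mem b := mul_mem (W.f_mem b) (W'.f_mem b)
  red_f b := by rw [M.red_mul b _ (W.f_mem b) _ (W'.f_mem b), W.red_f, W'.red_f, one_mul]

/-- the trivial twist -/
def Twist.oneTwist : M.Twist n where
  D := 0
  f := 1
  degree_D := map_zero _
  f_ne := one_ne_zero
  ord_f P := by simp
  f_mem b := one_mem _
  red_f b := M.red_one b

theorem mul_mem_I {D D' : Divisor K F} {s : Bool} {g g' : F} (hg : g ∈ M.I D s)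
    (hg' : g' ∈ M.I D' s) : g * g' ∈ M.I (D + D') s :=
  ⟨mul_mem hg.1 hg'.1, fun P hP => by
    rw [Finsupp.add_apply]; exact (hg.2 P hP).mul (hg'.2 P hP)⟩

theorem one_mem_I (s : Bool) : (1 : F) ∈ M.I 0 s :=
  ⟨one_mem _, (one_mem (M.R s) : (1 : F) ∈ M.R s).2⟩

/-- roots of chart functions -/
theorem mem_R_of_pow {s : Bool} {k : ℕ} (hk : k ≠ 0) {x : F} (hx : ∀ b, x ∈ M.G b)
    (h : x ^ k ∈ M.R s) : x ∈ M.R s :=
  ⟨M.GI_iff.mpr hx, fun P hP => by
    simpa using bd_of_pow hk (by simpa using h.2 P hP)⟩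

/-- the power of a section times the trivialisation is a chart function -/
theorem pow_mul_f_mem_R (W : M.Twist n) {s : Bool} {g : F} (hg : g ∈ M.I W.D s) :
    g ^ n * W.f ∈ M.R s := by
  refine ⟨M.GI_iff.mpr fun b => mul_mem (pow_mem (M.GI_iff.mp hg.1 b) n) (W.f_mem b),
    fun P hP => ?_⟩
  have h1 := (hg.2 P hP).pow n
  have h2 : Bd P W.f (-((n : ℤ) * W.D P)) := by
    rw [RR.bd_iff_ord W.f_ne, ← W.ord_f]; omega
  simpa using h1.mul h2

/-- a point where the three components meet -/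
structure Node (s : Bool) (Q : Place (ResidueField A) Fs) : Prop where
  inChart : ∀ b, InChart s (Q.ord (M.Jbar b))
  same : ∀ b b', M.SamePt s b Q b' Q

variable {M} in
theorem Node.val {s : Bool} {Q : Place (ResidueField A) Fs} (hQ : M.Node s Q) {x : F}
    (hx : x ∈ M.R s) : ∃ c, ∀ b, Val Q (M.red b x) c := by
  obtain ⟨c, hc⟩ := M.val_exists (hQ.inChart 2) hx
  exact ⟨c, fun b => (hQ.same 2 b).val_eq M hx hc⟩

variable {M} in
theorem Node.val_eq {s : Bool} {Q : Place (ResidueField A) Fs} (hQ : M.Node s Q) {x : F}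
    (hx : x ∈ M.R s) {v : Fin 3 → ResidueField A} (hv : ∀ b, Val Q (M.red b x) (v b))
    (b b' : Fin 3) : v b = v b' := by
  obtain ⟨c, hc⟩ := hQ.val hx
  rw [(hv b).unique (hc b), (hv b').unique (hc b')]

/-- the ratios of a twist at a node, normalised on the middle component -/
def HasRat (W : M.Twist n) (Q : Place (ResidueField A) Fs) (a : Fin 3 → ResidueField A) : Prop :=
  a 2 = 1 ∧ ∃ g ∈ M.I W.D false, ∃ c : ResidueField A, c ≠ 0 ∧ ∀ b, Val Q (M.red b g) (c * a b)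

variable {M} {Q : Place (ResidueField A) Fs}

theorem val_pow_mul_f (W : M.Twist n) {s : Bool} {g : F} (hg : g ∈ M.I W.D s)
    {b : Fin 3} {ζ : ResidueField A} (h : Val Q (M.red b g) ζ) :
    Val Q (M.red b (g ^ n * W.f)) (ζ ^ n) := by
  have hG := M.GI_iff.mp hg.1 b
  rw [M.red_mul b _ (pow_mem hG n) _ (W.f_mem b), W.red_f, mul_one, M.red_pow b hG]
  exact h.pow n

theorem HasRat.pow_eq_one (hQ : M.Node false Q) {W : M.Twist n} {a : Fin 3 → ResidueField A}
    (h : M.HasRat W Q a) (b : Fin 3) : a b ^ n = 1 := by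
  obtain ⟨h2, g, hg, c, hc, hv⟩ := h
  have := hQ.val_eq (M.pow_mul_f_mem_R W hg) (fun b => val_pow_mul_f W hg (hv b)) b 2
  rw [h2, mul_one, mul_pow] at this
  exact mul_left_cancel₀ (pow_ne_zero n hc) (this.trans (mul_one _).symm)

theorem HasRat.ne_zero (hn : n ≠ 0) (hQ : M.Node false Q) {W : M.Twist n}
    {a : Fin 3 → ResidueField A} (h : M.HasRat W Q a) (b : Fin 3) : a b ≠ 0 := fun h0 => by
  have := h.pow_eq_one hQ b
  rw [h0, zero_pow hn] at this
  exact zero_ne_one this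

/-- any section with nonzero values has the ratios of the twist -/
theorem HasRat.eq_of_section (hn : n ≠ 0) (hQ : M.Node false Q) {W : M.Twist n}
    {a : Fin 3 → ResidueField A} (h : M.HasRat W Q a) {g' : F} (hg' : g' ∈ M.I W.D false)
    {ζ : Fin 3 → ResidueField A} (hζ : ∀ b, Val Q (M.red b g') (ζ b)) (b : Fin 3) :
    ζ b = ζ 2 * a b := by
  obtain ⟨k, rfl⟩ := Nat.exists_eq_succ_of_ne_zero hn
  have ha1 := h.pow_eq_one hQ b
  obtain ⟨h2, g, hg, c, hc, hv⟩ := h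
  have hG := fun b => M.GI_iff.mp hg.1 b
  have hG' := fun b => M.GI_iff.mp hg'.1 b
  have hR : g' * g ^ k * W.f ∈ M.R false := by
    refine M.mem_R_of_pow (k := k + 1) (Nat.succ_ne_zero k)
      (fun b => mul_mem (mul_mem (hG' b) (pow_mem (hG b) k)) (W.f_mem b)) ?_
    have e : (g' * g ^ k * W.f) ^ (k + 1) =
        g' ^ (k + 1) * W.f * (g ^ (k + 1) * W.f) ^ k := by ring
    rw [e]
    exact mul_mem (M.pow_mul_f_mem_R W hg') (pow_mem (M.pow_mul_f_mem_R W hg) k)
  have hval : ∀ b, Val Q (M.red b (g' * g ^ k * W.f)) (ζ b * (c * a b) ^ k) := fun b => by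
    rw [M.red_mul b _ (mul_mem (hG' b) (pow_mem (hG b) k)) _ (W.f_mem b), W.red_f, mul_one,
      M.red_mul b _ (hG' b) _ (pow_mem (hG b) k), M.red_pow b (hG b)]
    exact (hζ b).mul ((hv b).pow k)
  have h1 := hQ.val_eq hR hval b 2
  rw [h2, mul_one, mul_pow, mul_left_comm, mul_comm (ζ 2)] at h1
  have h3 := mul_left_cancel₀ (pow_ne_zero k hc) h1
  calc ζ b = ζ b * a b ^ k * a b := by
        rw [mul_assoc, ← pow_succ, ha1, mul_one]
    _ = ζ 2 * a b := by rw [h3]

theorem HasRat.unique (hn : n ≠ 0) (hQ : M.Node false Q) {W : M.Twist n}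
    {a a' : Fin 3 → ResidueField A} (h : M.HasRat W Q a) (h' : M.HasRat W Q a') : a = a' := by
  obtain ⟨h2, g, hg, c, hc, hv⟩ := h'
  refine funext fun b => mul_left_cancel₀ hc ?_
  have := h.eq_of_section hn hQ hg hv b
  rw [h2, mul_one] at this
  exact this.symm

theorem HasRat.mulTwist {W W' : M.Twist n} {a a' : Fin 3 → ResidueField A} (h : M.HasRat W Q a)
    (h' : M.HasRat W' Q a') : M.HasRat (Twist.mulTwist M W W') Q (a * a') := by
  obtain ⟨h2, g, hg, c, hc, hv⟩ := h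
  obtain ⟨h2', g', hg', c', hc', hv'⟩ := h'
  refine ⟨by simp [h2, h2'], g * g', M.mul_mem_I hg hg', c * c', mul_ne_zero hc hc', fun b => ?_⟩
  rw [M.red_mul b _ (M.GI_iff.mp hg.1 b) _ (M.GI_iff.mp hg'.1 b), Pi.mul_apply, mul_mul_mul_comm]
  exact (hv b).mul (hv' b)

theorem HasRat.smul {W : M.Twist n} {a : Fin 3 → ResidueField A} (h : M.HasRat W Q a) (m : ℕ) :
    M.HasRat (Twist.smul M W m) Q (a ^ m) := by
  obtain ⟨h2, g, hg, c, hc, hv⟩ := h
  refine ⟨by simp [h2], g ^ m, M.pow_mem_I hg m, c ^ m, pow_ne_zero m hc, fun b => ?_⟩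
  rw [M.red_pow b (M.GI_iff.mp hg.1 b), Pi.pow_apply, ← mul_pow]
  exact (hv b).pow m

theorem hasRat_one : M.HasRat (Twist.oneTwist M (n := n)) Q 1 :=
  ⟨rfl, 1, M.one_mem_I false, 1, one_ne_zero, fun b => by
    simpa [M.red_one] using Val.one (v := Q)⟩

/-- ratios from a generator -/
theorem exists_hasRat (hn : n ≠ 0) (W : M.Twist n) {g : F} (hg : g ∈ M.I W.D false)
    {c : ResidueField A} (hc : c ≠ 0) (hv : ∀ b, ∃ ζ, Val Q (M.red b g) ζ ∧ ζ ^ n = c) :
    ∃ a, M.HasRat W Q a := by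
  choose ζ hζ hζn using hv
  have h0 : ζ 2 ≠ 0 := fun h0 => hc (by rw [← hζn 2, h0, zero_pow hn])
  refine ⟨fun b => ζ b / ζ 2, div_self h0, g, hg, ζ 2, h0, fun b => ?_⟩
  rw [mul_div_cancel₀ _ h0]
  exact hζ b

variable (M)

/-- a twist in the class of a divisor, with the restrictions of the correction prescribed -/
theorem exists_twist_red [IsAlgClosed (ResidueField A)] {t : Fs}
    (ht : Transcendental (ResidueField A) t)
    [FiniteDimensional (KK (ResidueField A) t) Fs] [Algebra.IsSeparable (KK (ResidueField A) t) Fs]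
    (hchart : ∀ b (Q : Place (ResidueField A) Fs), InChart false (Q.ord (M.Jbar b)) → Bd Q t 0)
    {D : Divisor K F} {f : F} (hD : Divisor.degree D = 0) (hf0 : f ≠ 0)
    (hord : ∀ P : Place K F, (n : ℤ) * D P = P.ord f) (h : Fin 3 → Fs)
    (hh : ∀ b, h b ≠ 0) (hfb : ∀ b, f ∈ M.G b ∧ M.red b f = h b ^ n) :
    ∃ (φ : F) (W : M.Twist n), φ ≠ 0 ∧ (∀ b, φ ∈ M.G b ∧ M.red b φ = h b) ∧
      (∀ P : Place K F, W.D P = D P - P.ord φ) ∧ W.f * φ ^ n = f := by
  obtain ⟨φ, hφΩ, hφ⟩ := M.exists_approx ht hchart (fun _ => 0) h hh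
  simp only [neg_zero, zpow_zero, mul_one] at hφ
  have hφ0 : φ ≠ 0 := fun h0 => hh 0 (by rw [← (hφ 0).2, h0, M.red_zero])
  have hne : φ ^ n ≠ 0 := pow_ne_zero n hφ0
  haveI : HasPrincipalDivisors K F := RR.hasPrincipalDivisors
  obtain ⟨E, hE, hE0⟩ := HasPrincipalDivisors.exists_divisor (K := K) (F := F) φ hφ0
  have hi : ∀ b, (φ ^ n)⁻¹ ∈ M.G b ∧ M.red b (φ ^ n)⁻¹ = (h b ^ n)⁻¹ := fun b => by
    have hr : M.red b (φ ^ n) = h b ^ n := by rw [M.red_pow b (hφ b).1, (hφ b).2]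
    have := M.inv_mem_G b (pow_mem (hφ b).1 n) (hr ▸ pow_ne_zero n (hh b))
    exact ⟨this.1, by rw [this.2, hr]⟩
  refine ⟨φ, ⟨D - E, f * (φ ^ n)⁻¹, by rw [map_sub, hD, hE0, sub_zero],
    mul_ne_zero hf0 (inv_ne_zero hne), fun P => ?_, fun b => mul_mem (hfb b).1 (hi b).1,
    fun b => ?_⟩, hφ0, hφ, fun P => by rw [Finsupp.sub_apply, hE], inv_mul_cancel_right₀ hne f⟩
  · rw [Finsupp.sub_apply, hE, mul_sub, hord, P.ord_mul hf0 (inv_ne_zero hne), P.ord_inv,
      RR.ord_pow, sub_eq_add_neg]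
  · rw [M.red_mul b _ (hfb b).1 _ (hi b).1, (hfb b).2, (hi b).2,
      mul_inv_cancel₀ (pow_ne_zero n (hh b))]

/-- a rational trivialisation with constant times a power is an `n`-th power of a unit with
constant restrictions -/
theorem exists_unit_const [IsAlgClosed (ResidueField A)] (hn : n ≠ 0) (he : M.e 0 = 1)
    (W : M.Twist n) {G : F} {lam : K} (hG : G ∈ M.Ω) (hG0 : G ≠ 0) (hlam : lam ∈ M.T)
    (hlam0 : lam ≠ 0) (hf : W.f = algebraMap K F lam * G ^ n) :
    ∃ (x : F) (ω : Fin 3 → ResidueField A), x ≠ 0 ∧ (∀ P : Place K F, W.D P = P.ord x) ∧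
      (∀ b, ω b ≠ 0 ∧ x ∈ M.G b ∧ M.red b x = algebraMap (ResidueField A) Fs (ω b)) := by
  have hι : algebraMap K F lam ≠ 0 := (_root_.map_ne_zero _).mpr hlam0
  choose g hg using fun b => M.exists_hasExp b hG hG0
  obtain ⟨l, -, hl⟩ := M.exists_hasExp_const hlam hlam0
  have hexp : ∀ b, l * (M.e b : ℤ) + n * g b = 0 := fun b => by
    refine (hf ▸ (hl b).mul ((hg b).pow n) : M.HasExp b W.f _).unique (HasExp.zero_iff.mpr ?_)
    exact ⟨W.f_mem b, by rw [W.red_f]; exact one_ne_zero⟩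
  set w := g 0
  set C : F := algebraMap K F ((M.q : K) ^ w) with hC
  have hC0 : C ≠ 0 := (_root_.map_ne_zero _).mpr (zpow_ne_zero _ M.q_ne)
  have hCe : ∀ b, M.HasExp b C (w * M.e b) := fun b => by
    rw [hC, map_zpow₀]; exact (M.hasExp_q b).zpow w
  set x := G * C⁻¹
  set u := lam * ((M.q : K) ^ w) ^ n
  have hl' : l = -((n : ℤ) * w) := by
    have := hexp 0; rw [he] at this; push_cast at this; linarith
  have hu : ∀ b, M.HasExp b (algebraMap K F u) 0 := fun b => by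
    have h := (hl b).mul ((hCe b).pow n)
    rw [show l * (M.e b : ℤ) + n * (w * M.e b) = 0 by rw [hl']; ring, hC, ← map_pow, ← map_mul] at h
    exact h
  have hx : ∀ b, M.HasExp b x 0 := fun b => by
    have h := (hg b).mul (hCe b).inv
    have h0 : (n : ℤ) * (g b + -(w * M.e b)) = 0 := by
      have := hexp b; rw [hl'] at this; linear_combination this
    rwa [(mul_eq_zero.mp h0).resolve_left (by exact_mod_cast hn)] at h
  have hu0 : u ≠ 0 := mul_ne_zero hlam0 (pow_ne_zero n (zpow_ne_zero _ M.q_ne))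
  have huT : u ∈ M.T := mul_mem hlam (pow_mem (zpow_mem M.q_mem_T _) n)
  have huA : u ∈ A := M.mem_A_of_hasExp huT hu0 (hu 0)
  set ν := residue A ⟨u, huA⟩
  have hfx : W.f = algebraMap K F u * x ^ n := by
    rw [hf, map_mul, map_pow, ← hC, mul_assoc, ← mul_pow]
    congr 2
    rw [mul_comm C, inv_mul_cancel_right₀ hC0]
  have hone : ∀ b, algebraMap (ResidueField A) Fs ν * M.red b x ^ n = 1 := fun b => by
    rw [← M.red_const b ⟨u, huA⟩ huT, ← M.red_pow b (hx b).mem_G,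
      ← M.red_mul b _ (hu b).mem_G _ (pow_mem (hx b).mem_G n), ← hfx, W.red_f]
  choose ω hω hωn using fun b => exists_const_root hn (x := M.red b x) (c := ν⁻¹)
    (by rw [map_inv₀]; exact eq_inv_of_mul_eq_one_right (hone b))
  refine ⟨x, ω, (hx 0).ne_zero, fun P => ?_, fun b => ⟨fun h0 => ?_, (hx b).mem_G, hω b⟩⟩
  · refine mul_left_cancel₀ (Int.natCast_ne_zero.mpr hn) ?_
    rw [W.ord_f, hfx, P.ord_mul ((_root_.map_ne_zero _).mpr hu0) (pow_ne_zero n (hx 0).ne_zero),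
      RR.ord_algebraMap, RR.ord_pow, zero_add]
  · exact (hx b).red_ne (by rw [hω, h0, map_zero])

variable {M}

/-- a principal twist has the same ratios at all nodes -/
theorem HasRat.of_principal (hn : n ≠ 0) (hQ : M.Node false Q) {W : M.Twist n} {x : F}
    {ω a : Fin 3 → ResidueField A} (hx0 : x ≠ 0) (hWx : ∀ P : Place K F, W.D P = P.ord x)
    (hx : ∀ b, ω b ≠ 0 ∧ x ∈ M.G b ∧ M.red b x = algebraMap (ResidueField A) Fs (ω b))
    (h : M.HasRat W Q a) (b : Fin 3) : a b = ω 2 / ω b := by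
  have hi : ∀ b, x⁻¹ ∈ M.G b ∧ M.red b x⁻¹ = algebraMap (ResidueField A) Fs (ω b)⁻¹ := fun b => by
    have := M.inv_mem_G b (hx b).2.1
      (by rw [(hx b).2.2]; exact (_root_.map_ne_zero _).mpr (hx b).1)
    exact ⟨this.1, by rw [this.2, (hx b).2.2, map_inv₀]⟩
  have hmem : x⁻¹ ∈ M.I W.D false := ⟨M.GI_iff.mpr fun b => (hi b).1, fun P _ => by
    rw [RR.bd_iff_ord (inv_ne_zero hx0), P.ord_inv, hWx]⟩
  have hval : ∀ b, Val Q (M.red b x⁻¹) (ω b)⁻¹ := fun b => by
    rw [(hi b).2]; exact Val.const _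
  have := h.eq_of_section hn hQ hmem hval b
  rw [eq_div_iff (hx b).1]
  calc a b * ω b = ω 2 * ((ω 2)⁻¹ * a b) * ω b := by
        rw [mul_inv_cancel_left₀ (hx 2).1]
    _ = ω 2 := by rw [← this, mul_assoc, inv_mul_cancel₀ (hx b).1, mul_one]

/-- the ratio on the side of a projection of a twist coming from that projection is one -/
theorem HasRat.side_eq_one (Nm : Norms M) (hn : n ≠ 0) (hqn : Nat.Coprime M.q n)
    (hQ : M.Node false Q) (t : Bool) {W : M.Twist n} {φ : F}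
    (hφ : ∀ b, φ ∈ M.G b ∧ M.red b φ ≠ 0) (hφs : M.red (side t) φ = M.red 2 φ)
    (hN : Nm.N t (W.f * φ ^ n) = (W.f * φ ^ n) ^ M.q) {a : Fin 3 → ResidueField A}
    (h : M.HasRat W Q a) : a (side t) = 1 := by
  have ha := h.pow_eq_one hQ (side t)
  obtain ⟨h2, g, hg, c, hc, hv⟩ := h
  obtain ⟨k, rfl⟩ := Nat.exists_eq_succ_of_ne_zero hn
  have hgG := fun b => M.GI_iff.mp hg.1 b
  set x := g ^ (k + 1) * W.f with hxdef
  have hxR : x ∈ M.R false := M.pow_mul_f_mem_R W hg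
  obtain ⟨U, hU, hUN, μ, hμ, hUr⟩ := Nm.regular t false x hxR
  have hUG := M.GI_iff.mp hU.1
  obtain ⟨hNg, hNg1, hNg2, -⟩ := Nm.red_unit t hgG
  obtain ⟨hNφ, hNφ1, hNφ2, hNφ3⟩ := Nm.red_unit t fun b => (hφ b).1
  have hNφne : ∀ b, M.red b (Nm.N t φ) ≠ 0 := fun b => by
    rcases side_or b t with rfl | rfl | rfl
    · rw [hNφ1]; exact mul_ne_zero (hφ _).2 (pow_ne_zero _ (hφ 2).2)
    · rw [hNφ3]; exact pow_ne_zero _ (hφ _).2
    · rw [hNφ2]; exact mul_ne_zero (hφ _).2 (pow_ne_zero _ (hφ 2).2)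
  have hNi := fun b => M.inv_mem_G b (hNφ b) (hNφne b)
  have hφ0 : φ ≠ 0 := fun h0 => (hφ 0).2 (by rw [h0, M.red_zero])
  have hNφ0 : Nm.N t φ ≠ 0 := Nm.ne_zero t φ hφ0
  set H := U * Nm.N t g * φ ^ M.q * (Nm.N t φ)⁻¹ with hH
  have hHG : ∀ b, H ∈ M.G b := fun b =>
    mul_mem (mul_mem (mul_mem (hUG b) (hNg b)) (pow_mem (hφ b).1 _)) (hNi b).1
  have hHpow : H ^ (k + 1) * W.f ^ M.q = U ^ k * (U * Nm.N t x) := by
    have e : Nm.N t W.f * Nm.N t φ ^ (k + 1) = W.f ^ M.q * (φ ^ M.q) ^ (k + 1) := by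
      rw [← map_pow, ← map_mul, hN, mul_pow, ← pow_mul, ← pow_mul, mul_comm M.q]
    calc H ^ (k + 1) * W.f ^ M.q
        = U ^ (k + 1) * Nm.N t g ^ (k + 1) * (W.f ^ M.q * (φ ^ M.q) ^ (k + 1)) *
            (Nm.N t φ ^ (k + 1))⁻¹ := by
          rw [hH, mul_pow, mul_pow, mul_pow, inv_pow]; ring
      _ = U ^ k * (U * Nm.N t x) := by
          rw [← e, hxdef, map_mul, map_pow, ← mul_assoc,
            mul_inv_cancel_right₀ (pow_ne_zero _ hNφ0), pow_succ U]
          ring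
  set E := g ^ M.q * H ^ k * W.f ^ M.q with hE
  have hER : E ∈ M.R false := by
    refine M.mem_R_of_pow (k := k + 1) (Nat.succ_ne_zero k) (fun b => mul_mem
      (mul_mem (pow_mem (hgG b) _) (pow_mem (hHG b) _)) (pow_mem (W.f_mem b) _)) ?_
    have e : E ^ (k + 1) = x ^ M.q * (H ^ (k + 1) * W.f ^ M.q) ^ k := by
      simp only [hE, hxdef]
      ring
    rw [e, hHpow]
    exact mul_mem (pow_mem hxR _) (pow_mem (mul_mem (pow_mem hU _) hUN) _)
  -- the values on the side and on the middle component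
  have hside : ∀ b, b = side t ∨ b = 2 → M.red b H =
      algebraMap _ Fs μ * (M.red (side t) g * M.red 2 g ^ (M.q - 1)) *
        (M.red 2 φ ^ M.q * (M.red 2 φ * M.red 2 φ ^ (M.q - 1))⁻¹) := by
    intro b hb
    rw [hH, M.red_mul b _ (mul_mem (mul_mem (hUG b) (hNg b)) (pow_mem (hφ b).1 _)) _ (hNi b).1,
      M.red_mul b _ (mul_mem (hUG b) (hNg b)) _ (pow_mem (hφ b).1 _), M.red_mul b _ (hUG b) _ (hNg b),
      hUr, M.red_pow b (hφ b).1, (hNi b).2]
    rcases hb with rfl | rfl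
    · rw [hNg1, hNφ1, hφs]; ring
    · rw [hNg2, hNφ2, hφs]; ring
  have hφq : M.red 2 φ ^ M.q * (M.red 2 φ * M.red 2 φ ^ (M.q - 1))⁻¹ = 1 := by
    rw [← pow_succ', Nat.sub_add_cancel
      (Nat.one_le_iff_ne_zero.mpr fun h0 => M.q_ne (by rw [h0, Nat.cast_zero])),
      mul_inv_cancel₀ (pow_ne_zero _ (hφ 2).2)]
  set v := μ * (c * a (side t) * (c * a 2) ^ (M.q - 1)) with hvdef
  have hv0 : v ≠ 0 := by
    have hs : a (side t) ≠ 0 := fun h0 => by
      rw [h0, zero_pow hn] at ha; exact zero_ne_one ha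
    rw [hvdef, h2, mul_one]
    exact mul_ne_zero hμ (mul_ne_zero (mul_ne_zero hc hs) (pow_ne_zero _ hc))
  have hEv : ∀ b, b = side t ∨ b = 2 → Val Q (M.red b E) ((c * a b) ^ M.q * v ^ k) := by
    intro b hb
    rw [hE, M.red_mul b _ (mul_mem (pow_mem (hgG b) _) (pow_mem (hHG b) _)) _
      (pow_mem (W.f_mem b) _), M.red_mul b _ (pow_mem (hgG b) _) _ (pow_mem (hHG b) _),
      M.red_pow b (W.f_mem b), W.red_f, one_pow, mul_one, M.red_pow b (hgG b),
      M.red_pow b (hHG b), hside b hb, hφq, mul_one]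
    exact ((hv b).pow _).mul (((Val.const μ).mul ((hv _).mul ((hv 2).pow _))).pow k)
  obtain ⟨e, he⟩ := hQ.val hER
  have key : (c * a (side t)) ^ M.q * v ^ k = (c * a 2) ^ M.q * v ^ k := by
    rw [(hEv _ (Or.inl rfl)).unique (he _), (hEv 2 (Or.inr rfl)).unique (he 2)]
  have hq1 : a (side t) ^ M.q = 1 := by
    have h1 := mul_right_cancel₀ (pow_ne_zero k hv0) key
    rw [h2, mul_one, mul_pow] at h1
    exact mul_left_cancel₀ (pow_ne_zero _ hc) (h1.trans (mul_one _).symm)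
  have := pow_gcd_eq_one.mpr ⟨hq1, (ha : a (side t) ^ (k + 1) = 1)⟩
  rwa [Nat.Coprime.gcd_eq_one hqn, pow_one] at this

section

variable (M) (t : Bool → Fs) (htr : ∀ s, Transcendental (ResidueField A) (t s))
  (hfd : ∀ s, FiniteDimensional (KK (ResidueField A) (t s)) Fs)
  (hsep : ∀ s, Algebra.IsSeparable (KK (ResidueField A) (t s)) Fs)
  (hchart : ∀ s b (Q : Place (ResidueField A) Fs), InChart s (Q.ord (M.Jbar b)) ↔ Bd Q (t s) 0)
  (p : ℕ) [Fact p.Prime] [CharP (ResidueField A) p] [IsAlgClosed (ResidueField A)]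

include htr hfd hsep hchart p in
/-- a twist with constant ratios at the nodes `S` is principal when there are no other nodes -/
theorem exists_principal_of_hasRat (hA : SS.Arch A) (hn : (n : ResidueField A) ≠ 0)
    (W : M.Twist n) (S : Set (Place (ResidueField A) Fs))
    (hnode : ∀ Q ∈ S, M.Node false Q)
    (hclass : ∀ s b (Q : Place (ResidueField A) Fs), InChart s (Q.ord (M.Jbar b)) →
      (Q ∉ S ∧ ∀ b' (Q' : Place (ResidueField A) Fs), InChart s (Q'.ord (M.Jbar b')) →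
        M.SamePt s b Q b' Q' → b' = b ∧ Q' = Q) ∨
      (Q ∈ S ∧ M.Node s Q ∧ ∀ b' (Q' : Place (ResidueField A) Fs),
        InChart s (Q'.ord (M.Jbar b')) → M.SamePt s b Q b' Q' → Q' = Q))
    (hgen : ∀ s b (Q : Place (ResidueField A) Fs), InChart s (Q.ord (M.Jbar b)) →
      ∃ g ∈ M.I W.D s, ∃ c : ResidueField A, c ≠ 0 ∧ ∀ b' (Q' : Place (ResidueField A) Fs),
        InChart s (Q'.ord (M.Jbar b')) → M.SamePt s b Q b' Q' →
          ∃ ζ, Val Q' (M.red b' g) ζ ∧ ζ ^ n = c)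
    (ω : Fin 3 → ResidueField A) (hω : ∀ b, ω b ^ n = 1)
    (hrat : ∀ Q ∈ S, M.HasRat W Q ω) :
    ∃ x : F, x ≠ 0 ∧ ∀ P : Place K F, W.D P = P.ord x := by
  have hn0 : n ≠ 0 := fun h => hn (by simp [h])
  have hω0 : ∀ b, ω b ≠ 0 := fun b h0 => by
    have := hω b; rw [h0, zero_pow hn0] at this; exact zero_ne_one this
  obtain ⟨x, hx, hxD⟩ := M.exists_principal_of_ratios t htr hfd hsep hchart p hA hn W 1 ω hω
    (fun s b Q hQ => by
      obtain ⟨g, hg, c, hc, hgv⟩ := hgen s b Q hQ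
      have hne : ∀ ζ : ResidueField A, ζ ^ n = c → ζ ≠ 0 := fun ζ h h0 =>
        hc (by rw [← h, h0, zero_pow hn0])
      rcases hclass s b Q hQ with ⟨-, hsing⟩ | ⟨hQS, hnd, huniq⟩
      · obtain ⟨ζ, hζ, hζn⟩ := hgv b Q hQ (fun x _ => Iff.rfl)
        refine ⟨g, hg, ζ / ω b, div_ne_zero (hne ζ hζn) (hω0 b), fun b' Q' hQ' hs => ?_⟩
        obtain ⟨rfl, rfl⟩ := hsing b' Q' hQ' hs
        exact ⟨ζ, hζ, by rw [pow_one, div_mul_cancel₀ _ (hω0 _)]⟩
      · choose ζ hζ hζn using fun b' => hgv b' Q (hnd.inChart b') (hnd.same b b')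
        refine ⟨g, hg, ζ 2, hne _ (hζn 2), fun b' Q' hQ' hs => ?_⟩
        obtain rfl := huniq b' Q' hQ' hs
        refine ⟨ζ b', hζ b', ?_⟩
        rw [pow_one]
        have h0 := hnode Q' hQS
        cases s with
        | false => exact (hrat Q' hQS).eq_of_section hn0 h0 hg hζ b'
        | true =>
          obtain ⟨m, hm⟩ := M.exists_pow_onChart true hg.2
          have hJR : M.J ∈ M.R false := M.Jc_mem_R false
          obtain ⟨j, hj⟩ := h0.val hJR
          have hj0 : j ≠ 0 := fun hj0 => by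
            have h1 := hj 2
            rw [hj0, M.red_J] at h1
            have h2 := h1.ord_pos (M.Jbar_ne_zero 2)
            have h3 : Q'.ord (M.Jbar 2) ≤ 0 := by simpa [InChart] using hnd.inChart 2
            omega
          have hg1 : M.J ^ m * g ∈ M.I W.D false :=
            ⟨mul_mem (pow_mem hJR.1 m) hg.1, by simpa [Jc] using hm⟩
          have hv1 : ∀ b, Val Q' (M.red b (M.J ^ m * g)) (j ^ m * ζ b) := fun b => by
            rw [M.red_mul b _ (pow_mem (M.J_mem b) m) _ (M.GI_iff.mp hg.1 b),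
              M.red_pow b (M.J_mem b)]
            exact ((hj b).pow m).mul (hζ b)
          refine mul_left_cancel₀ (pow_ne_zero m hj0) ?_
          rw [(hrat Q' hQS).eq_of_section hn0 h0 hg1 hv1 b', mul_assoc])
  exact ⟨x, hx, fun P => by simpa using hxD P⟩

end

end FLTAgent.SS2.Fib

end
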