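import Fermat.Agent.MLT.SquareDefs
import Fermat.Agent.MLT.SquareRatio

/-!
Square lowering, jumps at the supersingular points: a class with a twist congruent to one comes from
level `Mq` by the two pullbacks.
-/

set_option autoImplicit false
set_option linter.unusedSectionVars false
set_option synthInstance.maxHeartbeats 400000
set_option maxHeartbeats 1000000
set_option linter.style.haveILetI false

noncomputable section

open ModularCurve AlgebraicCurve IsLocalRing
open FLTAgent.Reduction (Qb kA FB FS PS Ctx Val tS)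
open FLTAgent.SS2 (DblSet degMap rationalFn normAlong)
open FLTAgent.SS (GS redM)

namespace FLTAgent.MLT

variable {M q p : ℕ} [NeZero M] [NeZero q] {A : ValuationSubring Qb}

/-- the nodes are the double points -/
theorem node_double (C : Ctx A M q) {r : ℕ} (hr : r.Prime) (h11 : r % 12 = 11) (hrM : r ∣ M)
    {Q : PS A M} (hQ : Q ∈ DblSet (SS.fibreData C)) : (SS2.model C).Node false Q := by
  obtain ⟨i, hi⟩ := id hQ
  have hQs : RR.Bd Q (tS A M false) 0 := hi ▸ (SS2.levelData C).fin_pt false i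
  exact ⟨fun b => ((SS2.isModel_model C).inChart_iff false b Q).mpr hQs,
    SS2.samePt_double C (SS2.levelData C) hr h11 hrM (SS2.isModel_model C) hQ hQs⟩

theorem exists_hasRat_double (C : Ctx A M q) {r : ℕ} (hr : r.Prime) (h11 : r % 12 = 11)
    (hrM : r ∣ M) (hp : p ≠ 0) (W : (SS2.model C).Twist p) {Q : PS A M}
    (hQ : Q ∈ DblSet (SS.fibreData C)) : ∃ a, (SS2.model C).HasRat W Q a := by
  have hnd := node_double C hr h11 hrM hQ
  obtain ⟨g, hg, c, hc, hv⟩ := SS2.exists_gen C (SS2.isModel_model C) (SS2.levelData C)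
    (fun σ hσ => SS.compat_inertia C σ hσ) hr h11 hrM hp W false 2 Q (hnd.inChart 2)
  exact SS2.Fib.exists_hasRat hp W hg hc fun b => hv b Q (hnd.inChart b) (hnd.same 2 b)

/-- constant ratios at the double points: the twist is principal -/
theorem mk_eq_zero_of_hasRat (C : Ctx A M q) {r : ℕ} (hr : r.Prime) (h11 : r % 12 = 11)
    (hrM : r ∣ M) (hp : p.Prime) (hqp : q ≠ p) (W : (SS2.model C).Twist p)
    {ω : Fin 3 → kA A} (hω : ∀ b, ω b ^ p = 1)
    (h : ∀ Q ∈ DblSet (SS.fibreData C), (SS2.model C).HasRat W Q ω) :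
    Pic0.mk ⟨W.D, Divisor.mem_degZero.mpr W.degree_D⟩ = (0 : JZero (M * q * q)) := by
  haveI := Fact.mk C.prime
  haveI := Reduction.charP_residue A C.prime C.lies
  have hM := SS2.isModel_model C
  have L := SS2.levelData C
  have hn : (p : kA A) ≠ 0 := Reduction.natCast_residue_ne_zero A C.prime C.lies fun hd =>
    hqp ((Nat.prime_dvd_prime_iff_eq C.prime hp).mp hd)
  obtain ⟨x, hx, hxD⟩ := (SS2.model C).exists_principal_of_hasRat (fun s => tS A M s)
    (fun s => Reduction.transcendental_tS A M s) (fun s => Reduction.finite_tS C s)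
    (fun s => Reduction.separable_tS C s) (fun s b Q => hM.inChart_iff s b Q) q
    (SS.arch C.prime C.lies) hn W (DblSet (SS.fibreData C))
    (fun Q hQ => node_double C hr h11 hrM hQ)
    (fun s b Q hQ => by
      have hQs : RR.Bd Q (tS A M s) 0 := (hM.inChart_iff s b Q).mp hQ
      haveI := Reduction.finite_tS C s
      haveI := Reduction.separable_tS C s
      have ht := Reduction.transcendental_tS A M s
      by_cases hQD : Q ∈ DblSet (SS.fibreData C)
      · have hd := SS2.samePt_double C L hr h11 hrM hM hQD hQs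
        refine Or.inr ⟨hQD, ⟨fun b' => (hM.inChart_iff s b' Q).mpr hQs, hd⟩, fun b' Q' hQ' h => ?_⟩
        exact SS2.Fib.SamePt.eq_of_same (SS2.model C) s b' ht (hM.inChart_iff s b')
          ((hM.inChart_iff s b' Q).mpr hQs) hQ' fun x hx => (hd b' b x hx).trans (h x hx)
      · obtain ⟨ε, hεR, hεQ, hε0⟩ := SS2.exists_eps_off C hM L
          (fun σ hσ => SS.compat_inertia C σ hσ) hr h11 hrM s b hQs hQD
        exact Or.inl ⟨hQD, fun b' Q' hQ' h => ((SS2.model C).samePt_off_iff s b ht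
          (hM.inChart_iff s b) hQ hεR hεQ hε0 hQ').mp h⟩)
    (fun s b Q hQ => SS2.exists_gen C hM L (fun σ hσ => SS.compat_inertia C σ hσ) hr h11 hrM
      hp.ne_zero W s b Q hQ) ω hω h
  exact (SS2.pic0_mk_eq_zero_iff _).mpr ⟨x, hx, hxD⟩

/-- a principal twist has constant ratios -/
theorem ratio_const_of_mk_eq_zero (C : Ctx A M q) {r : ℕ} (hr : r.Prime) (h11 : r % 12 = 11)
    (hrM : r ∣ M) (hp : p ≠ 0) (W : (SS2.model C).Twist p)
    (h : Pic0.mk ⟨W.D, Divisor.mem_degZero.mpr W.degree_D⟩ = (0 : JZero (M * q * q))) :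
    ∃ ω : Fin 3 → kA A, ∀ Q ∈ DblSet (SS.fibreData C), ∀ a,
      (SS2.model C).HasRat W Q a → a = ω := by
  haveI := Fact.mk C.prime
  haveI := Reduction.charP_residue A C.prime C.lies
  have hM := SS2.isModel_model C
  obtain ⟨x₀, hx₀, hx₀D⟩ := (SS2.pic0_mk_eq_zero_iff _).mp h
  obtain ⟨c, hc⟩ := SS2.exists_const_of_ord (h := W.f * (x₀ ^ p)⁻¹) (fun v => by
    rw [v.ord_mul W.f_ne (inv_ne_zero (pow_ne_zero p hx₀)), v.ord_inv, RR.ord_pow, ← W.ord_f,
      show W.D v = v.ord x₀ from hx₀D v]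
    ring)
  have hf : W.f = algebraMap Qb (FB (M * q * q)) c * x₀ ^ p := by
    rw [← hc, inv_mul_cancel_right₀ (pow_ne_zero p hx₀)]
  obtain ⟨G, hG, lam, hlam, hlam0, hG0, hfG⟩ := SS2.exists_rational_root hp
    ((hM.mem_Ω _).mp ((SS2.model C).G_le 0 _ (W.f_mem 0))) hx₀
    (fun h0 => W.f_ne (by rw [hf, h0, map_zero, zero_mul])) hf
  obtain ⟨x, ω, hx, hxD, hxω⟩ := (SS2.model C).exists_unit_const hp
    (by rw [SS2.model_e C]; rfl) W ((hM.mem_Ω G).mpr hG) hG0 ((hM.mem_T lam).mpr hlam) hlam0 hfG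
  exact ⟨fun b => ω 2 / ω b, fun Q hQ a ha => funext fun b =>
    ha.of_principal hp (node_double C hr h11 hrM hQ) hx hxD hxω b⟩

/-- pullbacks of classes with `p`-th power residues have twists with ratio one on that side -/
theorem exists_twist_degMap (C : Ctx A M q) {r : ℕ} (hr : r.Prime) (h11 : r % 12 = 11)
    (hrM : r ∣ M) (hp : p.Prime) (hqp : q ≠ p) (t : Bool) {z : JZero (M * q)}
    (hz : PowTriv A p z) :
    ∃ W : (SS2.model C).Twist p,
      Pic0.mk ⟨W.D, Divisor.mem_degZero.mpr W.degree_D⟩ = pullJ (degMap M q t) z ∧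
      ∀ Q ∈ DblSet (SS.fibreData C), ∀ a, (SS2.model C).HasRat W Q a →
        a (SS2.Fib.side t) = 1 := by
  haveI := Fact.mk C.prime
  haveI := Reduction.charP_residue A C.prime C.lies
  have hM := SS2.isModel_model C
  have L := SS2.levelData C
  obtain ⟨E, f, rfl, hE, hf, hb⟩ := hz
  choose hG h hh hred using hb
  have hr' : ∀ b, (SS.fibreData C).red b f = h b ^ p := hred
  have hG' : ∀ b, f ∈ (SS.fibreData C).G b := hG
  have hf0 : f ≠ 0 := fun h0 => by
    have h1 := hred false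
    rw [h0] at h1
    have h2 : (SS.fibreData C).red false 0 = h false ^ p := h1
    rw [(SS.fibreData C).toCore.red_zero false] at h2
    exact pow_ne_zero p (hh false) h2.symm
  set f' := degMap M q t f
  have hf' : f' ∈ rationalFn A (M * q * q) := fun σ hσ => by
    rw [← SS2.degMap_galois, hf σ hσ]
  have hFr : ∀ x : FS A M, x ≠ 0 → SS.Fr C x ≠ 0 := fun x hx => (_root_.map_ne_zero _).mpr hx
  obtain ⟨h', hh', hs, hres⟩ : ∃ h' : Fin 3 → FS A M, (∀ b, h' b ≠ 0) ∧
      h' (SS2.Fib.side t) = h' 2 ∧ ∀ b, SS2.KRes C b f' (h' b ^ p) := by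
    cases t
    · obtain ⟨a1, a2⟩ := SS2.kRes_alpha (C := C) L (g := f)
      refine ⟨![h false, SS.Fr C (h true), h false], fun b => ?_, rfl, fun b => ?_⟩ <;>
        fin_cases b
      exacts [hh _, hFr _ (hh _), hh _, hr' false ▸ (a1 (hG' _)).1,
        map_pow (SS.Fr C) (h true) p ▸ hr' true ▸ a2 (hG' _), hr' false ▸ (a1 (hG' _)).2]
    · obtain ⟨a1, a2⟩ := SS2.kRes_beta (C := C) L (g := f)
      refine ⟨![SS.Fr C (h false), h true, h true], fun b => ?_, rfl, fun b => ?_⟩ <;>
        fin_cases b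
      exacts [hFr _ (hh _), hh _, hh _, map_pow (SS.Fr C) (h false) p ▸ hr' false ▸ a1 (hG' _),
        hr' true ▸ (a2 (hG' _)).1, hr' true ▸ (a2 (hG' _)).2]
  haveI := Reduction.finite_tS C false
  haveI := Reduction.separable_tS C false
  obtain ⟨φ, W, hφ0, hφ, hWD, hWf⟩ := (SS2.model C).exists_twist_red
    (Reduction.transcendental_tS A M false) (fun b Q hQ => (hM.inChart_iff false b Q).mp hQ)
    (Divisor.mem_degZero.mp (pullD (degMap M q t) E).2) ((_root_.map_ne_zero _).mpr hf0)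
    (fun P => ord_pullD (degMap M q t) hE P) h' hh' (fun b => hM.of_res b f' _ hf' (hres b))
  refine ⟨W, ?_, fun Q hQ a ha => ?_⟩
  · rw [pullJ_mk, ← sub_eq_zero]
    refine (SS2.pic0_mk_eq_zero_iff (⟨W.D, Divisor.mem_degZero.mpr W.degree_D⟩ -
      pullD (degMap M q t) E)).mpr ⟨φ⁻¹, inv_ne_zero hφ0, fun P => ?_⟩
    rw [P.ord_inv, AddSubgroupClass.coe_sub, Finsupp.sub_apply, hWD]
    ring
  · refine ha.side_eq_one (SS2.modelNorms C) hp.ne_zero ?_ (node_double C hr h11 hrM hQ) t
      (fun b => ⟨(hφ b).1, (hφ b).2 ▸ hh' b⟩) (by rw [(hφ _).2, (hφ 2).2, hs]) ?_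
    · rw [hM.q_eq]
      exact (Nat.coprime_primes C.prime hp).mpr hqp
    · rw [hWf, hM.q_eq]
      exact SS2.normN_map C t f

/-- pullback along the degeneracy maps is injective on torsion prime to `q` -/
theorem eq_zero_of_pullJ_degMap (C : Ctx A M q) (hp : p.Prime) (hqp : q ≠ p) (t : Bool)
    {z : JZero (M * q)} (hz : p • z = 0) (h : pullJ (degMap M q t) z = 0) : z = 0 := by
  haveI : NeZero p := ⟨hp.ne_zero⟩
  obtain ⟨D, rfl⟩ := Pic0.mk_surjective z
  obtain ⟨f, hf, hfD⟩ := TOR.exists_trivialisation hz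
  rw [pullJ_mk] at h
  obtain ⟨g, hg, hgD⟩ := (SS2.pic0_mk_eq_zero_iff _).mp h
  set φ := degMap M q t
  have hφf : φ f ≠ 0 := (_root_.map_ne_zero _).mpr hf
  have hgp := pow_ne_zero p hg
  obtain ⟨c, hc⟩ := SS2.exists_const_of_ord (h := φ f * (g ^ p)⁻¹) fun v => by
    rw [v.ord_mul hφf (inv_ne_zero hgp), v.ord_inv, RR.ord_pow, ← ord_pullD φ hfD, hgD]
    ring
  have hc0 : c ≠ 0 := fun h0 => by
    rw [h0, map_zero, mul_eq_zero] at hc
    exact hc.elim hφf (inv_ne_zero hgp)
  have hfg : φ f = φ (algebraMap Qb (FB (M * q)) c) * g ^ p := by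
    rw [AlgHom.commutes, ← hc, inv_mul_cancel_right₀ hgp]
  have hN := congrArg (normAlong φ) hfg
  rw [map_mul, SS2.normAlong_map, SS2.normAlong_map, map_pow, SS2.finrankAlong_degMap C,
    ← map_pow] at hN
  have hG : normAlong φ g ≠ 0 := SS2.normAlong_ne_zero φ hg
  have hq : q • (Pic0.mk D : JZero (M * q)) = 0 := by
    rw [show q • (Pic0.mk D : JZero (M * q)) = Pic0.mk (q • D) from
      (map_nsmul (QuotientAddGroup.mk' _) q D).symm, SS2.pic0_mk_eq_zero_iff]
    refine ⟨normAlong φ g, hG, fun P => ?_⟩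
    have h1 := congrArg P.ord hN
    rw [RR.ord_pow, P.ord_mul ((_root_.map_ne_zero _).mpr (pow_ne_zero _ hc0)) (pow_ne_zero p hG),
      RR.ord_algebraMap, RR.ord_pow, zero_add, ← hfD] at h1
    rw [AddSubgroupClass.coe_nsmul, Finsupp.smul_apply, nsmul_eq_mul]
    refine mul_left_cancel₀ (Int.natCast_ne_zero.mpr hp.ne_zero) ?_
    linear_combination h1
  have hd := Nat.dvd_gcd (addOrderOf_dvd_of_nsmul_eq_zero hz) (addOrderOf_dvd_of_nsmul_eq_zero hq)
  rw [Nat.Coprime.gcd_eq_one ((Nat.coprime_primes hp C.prime).mpr hqp.symm)] at hd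
  exact AddMonoid.addOrderOf_eq_one_iff.mp (Nat.dvd_one.mp hd)

/-- twist classes are old, given enough classes of level `M * q` -/
theorem exists_pull_of_twistCls (C : Ctx A M q) {r : ℕ} (hr : r.Prime) (h11 : r % 12 = 11)
    (hrM : r ∣ M) (hp : p.Prime) (hp2 : p ≠ 2) (hqp : q ≠ p) {T : AddSubgroup (JZero (M * q))}
    [Finite T] (hT : ∀ z ∈ T, p • z = 0 ∧ PowTriv A p z)
    (hcard : p ^ (Nat.card (SS.fibreData C).ι - 1) ≤ Nat.card T) {y : JZero (M * q * q)}
    (hy : TwistCls C p y) :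
    ∃ z₁ z₂ : JZero (M * q), p • z₁ = 0 ∧ p • z₂ = 0 ∧
      y = pullJ (heckeAlphaBar Qb (M * q) q) z₁ + pullJ (heckeBetaBar Qb (M * q) q) z₂ := by
  classical
  haveI := Fact.mk C.prime
  haveI := (SS.fibreData C).fintype
  have hp0 := hp.ne_zero
  set Mo := SS2.model C
  set D := SS.fibreData C
  haveI hne : Nonempty D.ι := by
    have h12 := SS2.card_double C (SS2.levelData C) hr h11 hrM
    refine (Nat.card_pos_iff.mp (Nat.pos_of_ne_zero fun h0 => ?_)).1
    rw [h0, Nat.cast_zero, mul_zero] at h12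
    rcases mul_eq_zero.mp h12.symm with h | h
    · have := C.prime.two_le; omega
    · have := Reduction.dedekindPsi_pos C; omega
  obtain ⟨i₀⟩ := hne
  have hnode := fun i => node_double C hr h11 hrM (Set.mem_range_self i : D.pt false i ∈ DblSet D)
  have hrat := fun (W : Mo.Twist p) i => exists_hasRat_double C hr h11 hrM hp0 W
    (Set.mem_range_self i : D.pt false i ∈ DblSet D)
  -- the classes
  let S : Set (JZero (M * q * q)) := {y | TwistCls C p y}
  choose Wy hWy using fun y : S => y.2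
  choose ay hay using fun (y : S) i => hrat (Wy y) i
  have hay1 : ∀ y i b, ay y i b ^ p = 1 := fun y i b => (hay y i).pow_eq_one (hnode i) b
  have hay0 : ∀ y i b, ay y i b ≠ 0 := fun y i b => (hay y i).ne_zero hp0 (hnode i) b
  have hmk : ∀ (W W' : Mo.Twist p),
      Pic0.mk (⟨(SS2.Fib.Twist.mulTwist Mo W W').D,
        Divisor.mem_degZero.mpr (SS2.Fib.Twist.mulTwist Mo W W').degree_D⟩ :
          Divisor.degZero (K := Qb) (F := FB (M * q * q))) =
      Pic0.mk ⟨W.D, Divisor.mem_degZero.mpr W.degree_D⟩ +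
        Pic0.mk ⟨W'.D, Divisor.mem_degZero.mpr W'.degree_D⟩ := fun W W' =>
    (congrArg Pic0.mk (Subtype.ext rfl)).trans (map_add (QuotientAddGroup.mk' _)
      (⟨W.D, Divisor.mem_degZero.mpr W.degree_D⟩ : Divisor.degZero (K := Qb) (F := FB (M * q * q)))
      ⟨W'.D, Divisor.mem_degZero.mpr W'.degree_D⟩)
  have htor : ∀ W : Mo.Twist p,
      p • (Pic0.mk ⟨W.D, Divisor.mem_degZero.mpr W.degree_D⟩ : JZero (M * q * q)) = 0 := fun W => by
    rw [show p • (Pic0.mk ⟨W.D, Divisor.mem_degZero.mpr W.degree_D⟩ : JZero (M * q * q)) =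
      Pic0.mk (p • ⟨W.D, Divisor.mem_degZero.mpr W.degree_D⟩) from
        (map_nsmul (QuotientAddGroup.mk' _) p _).symm, SS2.pic0_mk_eq_zero_iff]
    exact ⟨W.f, W.f_ne, fun P => by
      rw [AddSubgroupClass.coe_nsmul, Finsupp.smul_apply, nsmul_eq_mul]; exact W.ord_f P⟩
  -- the code of a class
  let μp := {x : kA A // x ^ p = 1}
  have hμfin : Finite μp := Finite.of_injective
    (fun x : μp => (⟨x.1, (Polynomial.mem_nthRootsFinset hp.pos 1).mpr x.2⟩ :
      Polynomial.nthRootsFinset p (1 : kA A))) fun x x' h => Subtype.ext (congrArg Subtype.val h :)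
  have hμcard : Nat.card μp ≤ p := by
    refine le_trans (Nat.card_le_card_of_injective
      (fun x : μp => (⟨x.1, (Polynomial.mem_nthRootsFinset hp.pos 1).mpr x.2⟩ :
        Polynomial.nthRootsFinset p (1 : kA A))) fun x x' h => Subtype.ext (congrArg Subtype.val h :)) ?_
    rw [Nat.card_eq_fintype_card, Fintype.card_coe, Polynomial.nthRootsFinset_def]
    exact (Multiset.toFinset_card_le _).trans (Polynomial.card_nthRoots p 1)
  let code : S → ({i : D.ι // i ≠ i₀} → Bool → μp) := fun y i t =>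
    ⟨ay y i (SS2.Fib.side t) / ay y i₀ (SS2.Fib.side t), by
      rw [div_pow, hay1, hay1, div_one]⟩
  have hcode : Function.Injective code := by
    intro y y' h
    have hsd : ∀ t i, ay y i (SS2.Fib.side t) / ay y i₀ (SS2.Fib.side t) =
        ay y' i (SS2.Fib.side t) / ay y' i₀ (SS2.Fib.side t) := fun t i => by
      by_cases hi : i = i₀
      · subst hi; rw [div_self (hay0 _ _ _), div_self (hay0 _ _ _)]
      · exact congrArg Subtype.val (congrFun (congrFun h ⟨i, hi⟩) t)
    set W := SS2.Fib.Twist.mulTwist Mo (Wy y) (SS2.Fib.Twist.smul Mo (Wy y') (p - 1))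
    set ω : Fin 3 → kA A := ay y i₀ * ay y' i₀ ^ (p - 1)
    have hW : ∀ i, Mo.HasRat W (D.pt false i) (ay y i * ay y' i ^ (p - 1)) := fun i =>
      (hay y i).mulTwist ((hay y' i).smul (p - 1))
    have hconst : ∀ i, ay y i * ay y' i ^ (p - 1) = ω := fun i => funext fun b => by
      have key : ∀ t, ay y i (SS2.Fib.side t) * ay y' i (SS2.Fib.side t) ^ (p - 1) =
          ay y i₀ (SS2.Fib.side t) * ay y' i₀ (SS2.Fib.side t) ^ (p - 1) := fun t => by
        have h1 : ∀ i, ay y i (SS2.Fib.side t) * ay y' i (SS2.Fib.side t) ^ (p - 1) =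
            ay y i (SS2.Fib.side t) / ay y' i (SS2.Fib.side t) := fun i => by
          rw [eq_div_iff (hay0 _ _ _), mul_assoc, ← pow_succ, Nat.sub_add_cancel hp.pos, hay1,
            mul_one]
        have h2 := hsd t i
        rw [div_eq_div_iff (hay0 _ _ _) (hay0 _ _ _)] at h2
        rw [h1, h1, div_eq_div_iff (hay0 _ _ _) (hay0 _ _ _), h2]
        ring
      rcases SS2.Fib.side_or b false with rfl | rfl | rfl
      · exact key false
      · exact key true
      · simp [ω, (hay y i).1, (hay y' i).1, (hay y i₀).1, (hay y' i₀).1]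
    have hω : ∀ b, ω b ^ p = 1 := fun b => (hconst i₀ ▸ hW i₀).pow_eq_one (hnode i₀) b
    have h0 := mk_eq_zero_of_hasRat C hr h11 hrM hp hqp W hω (by
      rintro _ ⟨i, rfl⟩; exact hconst i ▸ hW i)
    rw [hmk] at h0
    have h1 : (y : JZero (M * q * q)) + (p - 1) • (y' : JZero (M * q * q)) = 0 := by
      rw [← hWy y, ← hWy y']
      refine (congrArg (_ + ·) ?_).trans h0
      exact (map_nsmul (QuotientAddGroup.mk' _) (p - 1) _).symm.trans
        (congrArg Pic0.mk (Subtype.ext rfl))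
    have h2 : (p - 1) • (y' : JZero (M * q * q)) + y' = 0 := by
      rw [← succ_nsmul, Nat.sub_add_cancel hp.pos, ← hWy y', htor]
    exact Subtype.ext (add_right_cancel (h1.trans (by rw [add_comm]; exact h2.symm)))
  haveI hSfin : Finite S := Finite.of_injective code hcode
  have hScard : Nat.card S ≤ (p ^ (Nat.card D.ι - 1)) ^ 2 := by
    refine (Nat.card_le_card_of_injective code hcode).trans (le_of_eq_of_le ?_
      ((Nat.pow_le_pow_left (Nat.pow_le_pow_left hμcard 2) _).trans_eq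
        (by rw [← pow_mul, ← pow_mul, mul_comm])))
    rw [Nat.card_fun, Nat.card_fun, Nat.card_eq_fintype_card (α := Bool), Fintype.card_bool,
      Nat.card_eq_fintype_card (α := {i : D.ι // i ≠ i₀}), Fintype.card_subtype_compl,
      Fintype.card_subtype_eq, ← Nat.card_eq_fintype_card]
  -- the pullbacks
  choose V hV hVs using fun (t : Bool) (z : T) =>
    exists_twist_degMap C hr h11 hrM hp hqp t (hT z.1 z.2).2
  let Φ : T × T → S := fun z =>
    ⟨pullJ (degMap M q false) z.1 + pullJ (degMap M q true) z.2,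
      SS2.Fib.Twist.mulTwist Mo (V false z.1) (V true z.2), by rw [hmk, hV, hV]⟩
  have hqMq : ∀ {z : T}, p • (z : JZero (M * q)) = 0 := fun {z} => (hT z.1 z.2).1
  have hinj : ∀ t (z : T), pullJ (degMap M q t) (z : JZero (M * q)) = 0 → (z : JZero (M * q)) = 0 :=
    fun t z hz => eq_zero_of_pullJ_degMap C hp hqp t hqMq hz
  have hker : ∀ z₁ z₂ : T, pullJ (degMap M q false) (z₁ : JZero (M * q)) +
      pullJ (degMap M q true) (z₂ : JZero (M * q)) = 0 →
      (z₁ : JZero (M * q)) = 0 ∧ (z₂ : JZero (M * q)) = 0 := by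
    intro z₁ z₂ h
    obtain ⟨ω, hω⟩ := ratio_const_of_mk_eq_zero C hr h11 hrM hp0
      (SS2.Fib.Twist.mulTwist Mo (V false z₁) (V true z₂)) (by rw [hmk, hV, hV]; exact h)
    choose a ha using hrat (V false z₁)
    choose b hb using hrat (V true z₂)
    have hab := fun i => hω _ (Set.mem_range_self i) _ ((ha i).mulTwist (hb i))
    have hca : ∀ i, a i = a i₀ := fun i => funext fun c => by
      rcases SS2.Fib.side_or c false with rfl | rfl | rfl
      · rw [hVs false z₁ _ (Set.mem_range_self i) _ (ha i),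
          hVs false z₁ _ (Set.mem_range_self i₀) _ (ha i₀)]
      · have h1 := congrFun ((hab i).trans (hab i₀).symm) (SS2.Fib.side true)
        simp only [Pi.mul_apply, hVs true z₂ _ (Set.mem_range_self i) _ (hb i),
          hVs true z₂ _ (Set.mem_range_self i₀) _ (hb i₀), mul_one] at h1
        exact h1
      · rw [(ha i).1, (ha i₀).1]
    have hz1 : pullJ (degMap M q false) (z₁ : JZero (M * q)) = 0 := by
      rw [← hV false z₁]
      exact mk_eq_zero_of_hasRat C hr h11 hrM hp hqp _ ((ha i₀).pow_eq_one (hnode i₀))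
        (by rintro _ ⟨i, rfl⟩; exact hca i ▸ ha i)
    rw [hz1, zero_add] at h
    exact ⟨hinj false z₁ hz1, hinj true z₂ h⟩
  have hΦ : Function.Injective Φ := by
    rintro ⟨z₁, z₂⟩ ⟨z₁', z₂'⟩ h
    have h' : pullJ (degMap M q false) (z₁ : JZero (M * q)) +
        pullJ (degMap M q true) (z₂ : JZero (M * q)) =
        pullJ (degMap M q false) (z₁' : JZero (M * q)) +
        pullJ (degMap M q true) (z₂' : JZero (M * q)) := congrArg Subtype.val h
    obtain ⟨h1, h2⟩ := hker (z₁ - z₁') (z₂ - z₂') (by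
      rw [AddSubgroup.coe_sub, AddSubgroup.coe_sub, map_sub, map_sub, ← sub_eq_zero.mpr h']
      abel)
    rw [Prod.mk.injEq]
    exact ⟨sub_eq_zero.mp (Subtype.ext h1), sub_eq_zero.mp (Subtype.ext h2)⟩
  have hsurj := (hΦ.bijective_of_nat_card_le (hScard.trans (by
    rw [Nat.card_prod, ← sq]; exact Nat.pow_le_pow_left hcard 2))).2
  obtain ⟨⟨z₁, z₂⟩, hz⟩ := hsurj ⟨y, hy⟩
  exact ⟨z₁, z₂, hqMq, hqMq, (congrArg Subtype.val hz).symm⟩

end FLTAgent.MLT

end
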