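import Fermat.Agent.LL.MazurKill
import Fermat.Agent.AJ.Main
import Fermat.Agent.EIS.FrobQuot

/-!
Square lowering, level `Mq`: reduction is onto on the classes killed by `p`, so that the special
fibre of level `M` has at most `p ^ (2 g)` of them.
-/

set_option autoImplicit false
set_option linter.unusedSectionVars false
set_option synthInstance.maxHeartbeats 400000
set_option linter.style.haveILetI false
set_option maxHeartbeats 1000000

noncomputable section

open ModularCurve AlgebraicCurve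
open FLTAgent.Reduction (Qb kA FB FS Ctx frobS)

namespace FLTAgent.MLT

local notation "GalQ" => AlgebraicClosure ℚ ≃ₐ[ℚ] AlgebraicClosure ℚ

/-- the number of classes killed by `n` -/
theorem finite_card_killed (N : ℕ) [NeZero N] {n : ℕ} (hn : 0 < n) :
    Finite {x : JZero N // n • x = 0} ∧
      Nat.card {x : JZero N // n • x = 0} = n ^ (2 * genusFF Qb (FB N)) := by
  have e : {x : JZero N // n • x = 0} ≃ Pic0.torsion Qb (FB N) n :=
    Equiv.subtypeEquivRight fun x => by rw [Pic0.mem_torsion, natCast_zsmul]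
  have h : Nat.card {x : JZero N // n • x = 0} = n ^ (2 * genusFF Qb (FB N)) :=
    (Nat.card_congr e).trans (AJ.natCard_torsion n hn)
  exact ⟨Nat.finite_of_card_ne_zero (by rw [h]; exact pow_ne_zero _ hn.ne'), h⟩

variable {M q p : ℕ} [NeZero M] [NeZero q] {A : ValuationSubring Qb} (C : Ctx A M q)
include C

/-- classes killed by `p` on the special fibre lift to classes killed by `p` -/
theorem exists_killed_lift (hp : p.Prime) (hqp : q ≠ p) {z : JZeroC (kA A) M} (hz : p • z = 0) :
    ∃ x : JZero M, p • x = 0 ∧ reductionModL A M x = z := by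
  classical
  haveI := Fact.mk hp
  obtain ⟨D, rfl⟩ := Pic0.mk_surjective z
  obtain ⟨D₀, hD₀⟩ := LL.exists_reduction C D
  set x : JZero M := Pic0.mk D₀ with hxdef
  set z : JZeroC (kA A) M := Pic0.mk D with hzdef
  have hred : reductionModL A M x = z := by
    rw [hxdef, Reduction.reductionModL_mk_rP C]
    exact congrArg Pic0.mk (Subtype.ext hD₀)
  obtain ⟨L, hL, hLx⟩ := HeckeJ.exists_level M x
  haveI := hL
  obtain ⟨σ, hσ⟩ := EIS.exists_frobenius_at C.prime C.lies
  obtain ⟨f, hf, hfL⟩ := LL.exists_pow_fix σ L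
  let F : AddMonoid.End (JZeroC (kA A) M) :=
    DistribSMul.toAddMonoidHom (JZeroC (kA A) M) (frobS C ^ f)
  have hFn : ∀ (n : ℕ) w, (F ^ n) w = frobS C ^ (f * n) • w := by
    intro n
    induction n with
    | zero => intro w; rw [Nat.mul_zero, pow_zero, pow_zero, one_smul]; rfl
    | succ n ih =>
      intro w
      rw [pow_succ', Nat.mul_succ, Nat.add_comm, pow_add, mul_smul, ← ih]
      rfl
  have hfin : ∀ n, 1 ≤ n → (EIS.fixPts (F ^ n) : Set (JZeroC (kA A) M)).Finite := fun n hn =>
    (EIS.finite_fixed_frobS C (f := f * n) (Nat.one_le_iff_ne_zero.mpr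
      (Nat.mul_ne_zero (by omega) (by omega)))).subset fun w hw => by
      show frobS C ^ (f * n) • w = w
      rw [← hFn]
      exact (EIS.mem_fixPts _).mp hw
  have hper : ∀ w, ∃ n, 1 ≤ n ∧ (F ^ n) w = w := fun w => by
    obtain ⟨n, hn, hnw⟩ := EIS.exists_fixed_frobS C w
    exact ⟨n, hn, by rw [hFn]; exact EIS.smul_pow_dvd hnw (dvd_mul_left n f)⟩
  have hFred : ∀ t : JZero M, F (reductionModL A M t) = reductionModL A M (σ ^ f • t) := fun t =>
    (LL.frobenius_pow_red C hσ t f).symm
  let S : AddSubgroup (JZeroC (kA A) M) := (EIS.torR M p).map (reductionModL A M)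
  have hS : ∀ w ∈ S, F w ∈ S := by
    rintro _ ⟨t, ⟨m, hm⟩, rfl⟩
    refine ⟨σ ^ f • t, ⟨m, ?_⟩, (hFred t).symm⟩
    rw [← show σ ^ f • (p ^ m • t) = p ^ m • σ ^ f • t from
      map_nsmul (DistribSMul.toAddMonoidHom (JZero M) (σ ^ f)) _ _]
    exact (congrArg (fun u => σ ^ f • u) hm).trans (smul_zero (A := JZero M) (σ ^ f))
  choose xk hxk using fun k : ℕ => AJ.exists_nsmul_eq (p ^ k) (pow_pos hp.pos k) x
  have hfix : ∀ k, F (reductionModL A M (xk k)) - reductionModL A M (xk k) ∈ S := fun k => by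
    refine ⟨σ ^ f • xk k - xk k, ⟨k, ?_⟩, by rw [map_sub, hFred]⟩
    rw [nsmul_sub, ← show σ ^ f • (p ^ k • xk k) = p ^ k • σ ^ f • xk k from
      map_nsmul (DistribSMul.toAddMonoidHom (JZero M) (σ ^ f)) _ _, hxk, hLx _ hfL, sub_self]
  set B := Nat.card (EIS.fixPts F)
  let cls : ℕ → JZeroC (kA A) M ⧸ S := fun k => QuotientAddGroup.mk' S (reductionModL A M (xk k))
  obtain ⟨k, k', hkk, he⟩ : ∃ k k', k < k' ∧ cls k = cls k' := by
    have hc : ((Finset.range (B + 1)).image cls).card < (Finset.range (B + 1)).card := by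
      have := EIS.card_fixed_quotient_le F hfin hper S hS ((Finset.range (B + 1)).image cls)
        fun w hw => by
          obtain ⟨k, -, rfl⟩ := Finset.mem_image.mp hw
          exact ⟨_, rfl, hfix k⟩
      rw [Finset.card_range]
      omega
    obtain ⟨k, -, k', -, hne, he⟩ := Finset.exists_ne_map_eq_of_card_lt_of_maps_to hc
      fun k hk => Finset.mem_image_of_mem cls hk
    rcases Nat.lt_or_gt_of_ne hne with h | h
    exacts [⟨k, k', h, he⟩, ⟨k', k, h, he.symm⟩]
  obtain ⟨t, ⟨m, hm⟩, ht⟩ : reductionModL A M (xk k') - reductionModL A M (xk k) ∈ S := by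
    rw [← QuotientAddGroup.eq_iff_sub_mem]
    exact he.symm
  have hzk : ∀ n, z = p ^ n • reductionModL A M (xk n) := fun n => by
    rw [← map_nsmul, hxk, hred]
  refine ⟨p ^ k' • t, ?_, ?_⟩
  · refine Reduction.eq_zero_of_reductionModL_eq_zero M C.prime C.not_dvd A C.lies (m := p ^ m)
      (fun h => hqp ((Nat.prime_dvd_prime_iff_eq C.prime hp).mp (C.prime.dvd_of_dvd_pow h))) ?_ ?_
    · rw [smul_comm (p ^ m) p, smul_comm (p ^ m) (p ^ k'), hm, smul_zero, smul_zero]
    · rw [map_nsmul, map_nsmul, ht, nsmul_sub, ← hzk k',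
        show p ^ k' = p ^ (k' - k) * p ^ k by rw [← pow_add, Nat.sub_add_cancel hkk.le],
        mul_smul, ← hzk k, nsmul_sub, hz, smul_comm, hz, smul_zero, sub_zero]
  · rw [map_nsmul, ht, nsmul_sub, ← hzk k',
      show p ^ k' = p ^ (k' - k) * p ^ k by rw [← pow_add, Nat.sub_add_cancel hkk.le],
      mul_smul, ← hzk k, show p ^ (k' - k) = p ^ (k' - k - 1) * p by
        rw [← pow_succ]; congr 1; omega,
      mul_smul, hz, smul_zero, sub_zero]

/-- the classes killed by `p` on the special fibre of level `M` -/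
theorem finite_card_killed_red (hp : p.Prime) (hqp : q ≠ p) :
    Finite {z : JZeroC (kA A) M // p • z = 0} ∧
      Nat.card {z : JZeroC (kA A) M // p • z = 0} ≤ p ^ (2 * genusFF Qb (FB M)) := by
  obtain ⟨hfin, hcard⟩ := finite_card_killed M hp.pos
  let r : {x : JZero M // p • x = 0} → {z : JZeroC (kA A) M // p • z = 0} := fun x =>
    ⟨reductionModL A M x, by rw [← map_nsmul, x.2, map_zero]⟩
  have hr : Function.Surjective r := fun z =>
    let ⟨x, hx, hxz⟩ := exists_killed_lift C hp hqp z.2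
    ⟨⟨x, hx⟩, Subtype.ext hxz⟩
  exact ⟨Finite.of_surjective r hr, hcard ▸ Nat.card_le_card_of_surjective r hr⟩

end FLTAgent.MLT

end
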