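import Fermat.Agent.MLT.SquareToricCls
import Fermat.Agent.MLT.SquareToricRed
import Fermat.Agent.EIS.Tame
import Fermat.Agent.SS2.Elliptic

/-!
Square lowering, level `Mq`: the classes with a rational trivialisation whose residues are `p`-th
powers are at least as many as the supersingular points allow.
-/

set_option autoImplicit false
set_option linter.unusedSectionVars false
set_option synthInstance.maxHeartbeats 400000
set_option linter.style.haveILetI false
set_option maxHeartbeats 1000000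

noncomputable section

open ModularCurve AlgebraicCurve IsLocalRing
open FLTAgent.Reduction (Qb kA FB FS Ctx)
open FLTAgent.SS (GS redM isRed_redM)

namespace FLTAgent.MLT

local notation "GalQ" => AlgebraicClosure ℚ ≃ₐ[ℚ] AlgebraicClosure ℚ

variable {M q p : ℕ} [NeZero M] [NeZero q] {A : ValuationSubring Qb}

/-- a set whose map has fibres inside translates of a finite group -/
theorem card_le_mul_of_fibres {G X : Type*} [AddCommGroup G] [Finite X] (F T : AddSubgroup G)
    [Finite T] (f : F → X) (h : ∀ z z' : F, f z = f z' → (z : G) - z' ∈ T) :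
    Nat.card F ≤ Nat.card X * Nat.card T := by
  rw [← Nat.card_prod]
  refine Nat.card_le_card_of_injective
    (fun z : F => ((f z, ⟨(z : G) - Function.invFun f (f z),
      h _ _ (Function.invFun_eq ⟨z, rfl⟩).symm⟩) : X × T)) fun a b hab => ?_
  simp only [Prod.mk.injEq, Subtype.mk.injEq] at hab
  obtain ⟨h1, h2⟩ := hab
  rw [h1] at h2
  exact Subtype.ext (sub_left_inj.mp h2)

variable (C : Ctx A M q)
include C

/-- one element of inertia has the fixed classes of all of inertia -/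
theorem exists_inertia_generator (hp : p.Prime) (hqp : q ≠ p) :
    ∃ σ ∈ A.inertiaSubgroupIn ℚ, ∀ τ ∈ A.inertiaSubgroupIn ℚ, ∀ z : JZero (M * q),
      p • z = 0 → σ • z = z → τ • z = z := by
  classical
  haveI : NeZero p := ⟨hp.ne_zero⟩
  haveI := FLTAgent.Common.isAlgebraic_qbar
  haveI := FLTAgent.Common.isGalois_qbar
  have hqdvd : ¬ q ∣ p := fun h => hqp ((Nat.prime_dvd_prime_iff_eq C.prime hp).mp h)
  obtain ⟨hfin, -⟩ := finite_card_killed (M * q) hp.pos
  haveI := hfin
  let N : Subgroup GalQ :=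
    { carrier := {g | (∀ z : JZero (M * q), p • z = 0 → g • z = z) ∧ Attach.cyc p g = 1}
      one_mem' := ⟨fun z _ => one_smul _ z, Attach.cyc_one p⟩
      mul_mem' := fun {a b} ha hb => ⟨fun z hz => by rw [mul_smul, hb.1 z hz, ha.1 z hz],
        by rw [Attach.cyc_mul, ha.2, hb.2, mul_one]⟩
      inv_mem' := fun {a} ha => ⟨fun z hz => by
        conv_lhs => rw [← ha.1 z hz]
        rw [inv_smul_smul], by
        have h := Attach.cyc_mul p a⁻¹ a
        rw [inv_mul_cancel, Attach.cyc_one, ha.2, mul_one] at h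
        exact h.symm⟩ }
  choose Lz hLz hLzf using fun z : {z : JZero (M * q) // p • z = 0} =>
    HeckeJ.exists_level (M * q) z.1
  haveI := hLz
  obtain ⟨L₂, hL₂, hc₂⟩ := Attach.exists_cyc_level p
  haveI := hL₂
  let E : IntermediateField ℚ Qb := (⨆ z, Lz z) ⊔ L₂
  haveI : FiniteDimensional ℚ (⨆ z, Lz z : IntermediateField ℚ Qb) :=
    IntermediateField.finiteDimensional_iSup_of_finite
  have hEle : E.fixingSubgroup ≤ N := by
    intro g hg
    have hfix : ∀ K : IntermediateField ℚ Qb, K ≤ E → ∀ x ∈ K, g x = x :=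
      fun K hK x hx => (IntermediateField.mem_fixingSubgroup_iff _ _).1 hg x (hK hx)
    exact ⟨fun z hz => hLzf ⟨z, hz⟩ g (hfix _ ((le_iSup Lz ⟨z, hz⟩).trans le_sup_left)),
      hc₂ g (hfix L₂ le_sup_right)⟩
  have hNn : N.Normal := ⟨fun a ha g => ⟨fun z hz => by
    rw [mul_smul, mul_smul, ha.1 (g⁻¹ • z) (by
      rw [← show g⁻¹ • (p • z) = p • g⁻¹ • z from
        map_nsmul (DistribSMul.toAddMonoidHom (JZero (M * q)) g⁻¹) p z, hz]
      exact smul_zero (A := JZero (M * q)) g⁻¹), smul_inv_smul], by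
    rw [Attach.cyc_mul, Attach.cyc_mul, ha.2, mul_one, ← Attach.cyc_mul, mul_inv_cancel,
      Attach.cyc_one]⟩⟩
  have hopen : IsOpen (N : Set GalQ) :=
    Subgroup.isOpen_mono hEle (IntermediateField.fixingSubgroup_isOpen E)
  let Nc : ClosedSubgroup GalQ := ⟨N, Subgroup.isClosed_of_isOpen _ hopen⟩
  let L := IntermediateField.fixedField N
  have hLfix : L.fixingSubgroup = N := InfiniteGalois.fixingSubgroup_fixedField Nc
  haveI : FiniteDimensional ℚ L := (InfiniteGalois.isOpen_iff_finite L).mp (by rw [hLfix]; exact hopen)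
  have hfixN : ∀ g ∈ N, ∀ x ∈ L, g x = x := fun g hg =>
    (IntermediateField.mem_fixingSubgroup_iff _ _).1 (hLfix.symm ▸ hg)
  have hmemN : ∀ g, (∀ x ∈ L, g x = x) → g ∈ N := fun g hg =>
    hLfix ▸ (IntermediateField.mem_fixingSubgroup_iff _ _).2 hg
  have hL : ∀ g : GalQ, ∀ x ∈ L, g x ∈ L := by
    intro g x hx
    rw [IntermediateField.mem_fixedField_iff] at hx ⊢
    intro s hs
    have := hx _ (by simpa using hNn.conj_mem s hs g⁻¹ : g⁻¹ * s * g ∈ N)
    rw [AlgEquiv.mul_apply, AlgEquiv.mul_apply] at this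
    have e := congrArg g this
    rwa [← AlgEquiv.mul_apply g g⁻¹, mul_inv_cancel, AlgEquiv.one_apply] at e
  have hζ : ∀ y : Qb, y ^ p = 1 → y ∈ L := by
    intro y hy
    rw [IntermediateField.mem_fixedField_iff]
    rintro g ⟨-, hg⟩
    haveI : Fact (1 < p) := ⟨hp.one_lt⟩
    rw [Attach.cyc_spec g hy, hg, ZMod.val_one, pow_one]
  have hk : ∀ τ ∈ A.inertiaSubgroupIn ℚ, ∀ x ∈ L, (τ ^ (p ^ 1)) x = x := by
    intro τ hτ
    refine hfixN _ ⟨fun z hz => ?_, Attach.cyc_inertia C.prime hqdvd C.lies (pow_mem hτ _)⟩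
    set w := τ • z - z with hw
    have hτw : τ • w = w := toric_fixed C hqdvd hτ (toric_inertia_sub C hp.ne_zero hτ hz)
    have hn : ∀ n : ℕ, τ ^ n • z = z + n • w := by
      intro n
      induction n with
      | zero => rw [pow_zero, one_smul, zero_nsmul, add_zero]
      | succ n ih =>
        rw [pow_succ', mul_smul, ih, smul_add, show τ • (n • w) = n • τ • w from
          map_nsmul (DistribSMul.toAddMonoidHom (JZero (M * q)) τ) n w, hτw, succ_nsmul', ← add_assoc,
          hw, add_sub_cancel]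
    rw [hn, pow_one, hw, nsmul_sub, ← show τ • (p • z) = p • τ • z from
      map_nsmul (DistribSMul.toAddMonoidHom (JZero (M * q)) τ) p z, hz]
    rw [show τ • (0 : JZero (M * q)) = 0 from smul_zero (A := JZero (M * q)) τ, sub_zero, add_zero]
  obtain ⟨σ, hσ, hgen, -⟩ := EIS.exists_tame_generator (k := 1) C.prime C.lies hp
    (fun e => hqp e.symm) L hL hζ hk
  refine ⟨σ, hσ, fun τ hτ z hz hσz => ?_⟩
  obtain ⟨n, hn⟩ := hgen τ hτ
  have hmem : (σ ^ n)⁻¹ * τ ∈ N := hmemN _ fun x hx => by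
    rw [AlgEquiv.mul_apply, hn x hx]
    exact (σ ^ n).symm_apply_apply x
  have hfix : ∀ k : ℕ, σ ^ k • z = z := fun k => by
    induction k with
    | zero => rw [pow_zero, one_smul]
    | succ k ih => rw [pow_succ, mul_smul, hσz, ih]
  have h1 := hmem.1 z hz
  rw [mul_smul, inv_smul_eq_iff, hfix] at h1
  exact h1

/-- many classes with residues `p`-th powers -/
theorem exists_powTriv_subgroup {r : ℕ} (hr : r.Prime) (h11 : r % 12 = 11)
    (hrM : r ∣ M) (hp : p.Prime) (hqp : q ≠ p) :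
    ∃ T : AddSubgroup (JZero (M * q)), Finite T ∧ (∀ z ∈ T, p • z = 0 ∧ PowTriv A p z) ∧
      p ^ (Nat.card (SS.fibreData C).ι - 1) ≤ Nat.card T := by
  classical
  haveI : NeZero p := ⟨hp.ne_zero⟩
  have hqdvd : ¬ q ∣ p := fun h => hqp ((Nat.prime_dvd_prime_iff_eq C.prime hp).mp h)
  obtain ⟨hfinJ, hcardJ⟩ := finite_card_killed (M * q) hp.pos
  haveI := hfinJ
  let J : AddSubgroup (JZero (M * q)) := (nsmulAddMonoidHom (α := JZero (M * q)) p).ker
  haveI : Finite J := hfinJ
  have hsubfin : ∀ H : AddSubgroup (JZero (M * q)), (∀ z ∈ H, p • z = 0) → Finite H := fun H hH =>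
    Finite.of_injective (fun z : H => (⟨z.1, hH _ z.2⟩ : {z : JZero (M * q) // p • z = 0}))
      fun a b h => Subtype.ext (congrArg Subtype.val h :)
  have hnsub : ∀ z z' : JZero (M * q), p • z = 0 → p • z' = 0 → p • (z - z') = 0 :=
    fun z z' h h' => by rw [nsmul_sub, h, h', sub_zero]
  let T : AddSubgroup (JZero (M * q)) :=
    AddSubgroup.ofSub {z | p • z = 0 ∧ PowTriv A p z} ⟨0, smul_zero _, PowTriv.zero' C⟩
      fun z hz z' hz' => by
        rw [← sub_eq_add_neg]
        exact ⟨hnsub z z' hz.1 hz'.1, hz.2.sub' C hz'.2⟩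
  haveI : Finite T := hsubfin T fun z hz => hz.1
  refine ⟨T, inferInstance, fun z hz => hz, ?_⟩
  let F0 : AddSubgroup (JZero (M * q)) :=
    AddSubgroup.ofSub {z | p • z = 0 ∧ LL.Flat A p z}
      ⟨0, smul_zero _, (PowTriv.zero' C).flat⟩
      fun z hz z' hz' => by
        rw [← sub_eq_add_neg]
        exact ⟨hnsub z z' hz.1 hz'.1, Flat.sub' C hz.2 hz'.2⟩
  haveI : Finite F0 := hsubfin F0 fun z hz => hz.1
  have hcnt := SS2.card_double C (TOR.levelData C) hr h11 hrM
  have hgen := SS2.genus_diff (M := M) (q := q) hr h11 hrM C.prime C.not_dvd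
  have hι : 0 < Nat.card (SS.fibreData C).ι := by
    have h1 := Reduction.dedekindPsi_pos C
    have h2 := C.prime.two_le
    rcases Nat.eq_zero_or_pos (Nat.card (SS.fibreData C).ι) with h0 | h0
    · exfalso
      rw [h0, Nat.cast_zero, mul_zero] at hcnt
      rcases mul_eq_zero.mp hcnt.symm with h | h <;> omega
    · exact h0
  obtain ⟨⟨s⟩, -⟩ := Nat.card_pos_iff.mp hι
  obtain ⟨σ, hσ, hσfix⟩ := exists_inertia_generator C hp hqp
  let δ : J →+ JZero (M * q) :=
    AddMonoidHom.mk' (fun z => σ • (z : JZero (M * q)) - z) fun a b => by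
      rw [AddSubgroup.coe_add, smul_add]
      abel
  have hrange : δ.range ≤ T := by
    rintro _ ⟨z, rfl⟩
    have hz : p • (z : JZero (M * q)) = 0 := z.2
    have h0 : p • (σ • (z : JZero (M * q)) - z) = 0 := hnsub _ _ (by
      rw [← show σ • (p • (z : JZero (M * q))) = p • σ • (z : JZero (M * q)) from
        map_nsmul (DistribSMul.toAddMonoidHom (JZero (M * q)) σ) _ _, hz]
      exact smul_zero (A := JZero (M * q)) σ) hz
    exact ⟨h0, powTriv_of_toric C hp.pos hqdvd hr h11 hrM s h0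
      (toric_inertia_sub C hp.ne_zero hσ hz)⟩
  let F := δ.ker.map J.subtype
  have hF : ∀ z ∈ F, p • z = 0 ∧ σ • z = z := by
    rintro _ ⟨z, hz, rfl⟩
    exact ⟨z.2, sub_eq_zero.mp hz⟩
  haveI : Finite F := hsubfin F fun z hz => (hF z hz).1
  -- the exponents
  choose Ef ff ii hEf hff hordf hratf huf using fun z : F =>
    exists_rat_scales C (hF z z.2).1 fun τ hτ => hσfix τ hτ z (hF z z.2).1 (hF z z.2).2
  have hq0 : (q : Qb) ≠ 0 := Nat.cast_ne_zero.mpr C.prime.ne_zero
  let eF : F → ZMod p := fun z => ((ii z true - ii z false : ℤ) : ZMod p)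
  have heF : ∀ z z' : F, eF z = eF z' → (z : JZero (M * q)) - z' ∈ F0 := by
    intro z z' h
    refine ⟨hnsub _ _ (hF z z.2).1 (hF z' z'.2).1, ?_⟩
    have hdiv : (p : ℤ) ∣ (ii z true - ii z' true) - (ii z false - ii z' false) := by
      rw [← ZMod.intCast_zmod_eq_zero_iff_dvd]
      simp only [eF] at h
      push_cast at h ⊢
      linear_combination h
    set f := ff z * (ff z')⁻¹
    have e : ∀ b, algebraMap Qb (FB (M * q)) ((q : Qb) ^ (ii z b - ii z' b)) * f =
        algebraMap Qb (FB (M * q)) ((q : Qb) ^ ii z b) * ff z *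
          (algebraMap Qb (FB (M * q)) ((q : Qb) ^ ii z' b) * ff z')⁻¹ := fun b => by
      rw [zpow_sub₀ hq0, map_div₀, mul_inv, div_eq_mul_inv]
      ring
    have hu : ∀ b, algebraMap Qb (FB (M * q)) ((q : Qb) ^ (ii z b - ii z' b)) * f ∈ GS M q A b ∧
        redM M q A b (algebraMap Qb (FB (M * q)) ((q : Qb) ^ (ii z b - ii z' b)) * f) ≠ 0 := by
      intro b
      obtain ⟨h1, h2⟩ := (SS.fibreCore C).inv_mem b (huf z' b).1 (huf z' b).2
      rw [e]
      refine ⟨mul_mem (huf z b).1 h1, ?_⟩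
      show (SS.fibreCore C).red b _ ≠ 0
      rw [(SS.fibreCore C).red_mul b _ (huf z b).1 _ h1, h2]
      exact mul_ne_zero (huf z b).2 (inv_ne_zero (huf z' b).2)
    obtain ⟨E', f', h1, h2, h3, h4⟩ := exists_equal_scales C hr h11 hrM s
      (E := Ef z - Ef z') (mul_ne_zero (hff z) (inv_ne_zero (hff z')))
      (fun P => by
        rw [P.ord_mul (hff z) (inv_ne_zero (hff z')), P.ord_inv, ← hordf z, ← hordf z',
          AddSubgroupClass.coe_sub, Finsupp.sub_apply]
        ring)
      (mul_mem (hratf z) (inv_mem (hratf z'))) (i := fun b => ii z b - ii z' b)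
      (fun b => (hu b).1) hdiv
    refine ⟨E', f', h1.trans (by rw [mk_sub, hEf, hEf]), h2, h3, fun b => ⟨(h4 b).1, ?_⟩⟩
    obtain ⟨w, hw, hwe⟩ := (h4 b).2
    rw [hwe]
    exact mul_ne_zero (hu b).2 (pow_ne_zero _ hw)
  have h1 : Nat.card F ≤ p * Nat.card F0 := by
    have := card_le_mul_of_fibres F F0 eF heF
    rwa [Nat.card_zmod] at this
  -- the classes on the two components
  obtain ⟨hfinS, hcardS⟩ := finite_card_killed_red C hp hqp
  haveI := hfinS
  let JS := {z : JZeroC (kA A) M // p • z = 0}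
  choose E0 f0 hE0 hord0 hrat0 hu0 using fun z : F0 => z.2.2
  choose c hc using fun (z : F0) (b : Bool) => LL.exists_res C hp.pos (hu0 z b).2
    (dvd_ord_flat C hp hr h11 hrM (hord0 z) (hrat0 z) (hu0 z) b)
  let cF : F0 → JS × JS := fun z =>
    (⟨c z false, (hc z false).nsmul_eq_zero C (hu0 z false).2⟩,
      ⟨c z true, (hc z true).nsmul_eq_zero C (hu0 z true).2⟩)
  have hcF : ∀ z z' : F0, cF z = cF z' → (z : JZero (M * q)) - z' ∈ T := by
    intro z z' h
    refine ⟨hnsub _ _ z.2.1 z'.2.1, ?_⟩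
    have hcc : ∀ b, c z b = c z' b := fun b => by
      cases b
      · exact congrArg (fun x : JS × JS => (x.1 : JZeroC (kA A) M)) h
      · exact congrArg (fun x : JS × JS => (x.2 : JZeroC (kA A) M)) h
    obtain ⟨g1, g2, g3⟩ := flat_mul C (hord0 z) (hord0 z') (hrat0 z) (hrat0 z') (hu0 z) (hu0 z')
    refine ⟨E0 z - E0 z', f0 z * (f0 z')⁻¹, by rw [mk_sub, hE0, hE0], g1, g2,
      fun b => ⟨(g3 b).1, ?_⟩⟩
    have hne : redM M q A b (f0 z) * (redM M q A b (f0 z'))⁻¹ ≠ 0 :=
      mul_ne_zero (hu0 z b).2 (inv_ne_zero (hu0 z' b).2)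
    obtain ⟨D, hD, hDo⟩ := hc z b
    obtain ⟨D', hD', hDo'⟩ := hc z' b
    have hres : LL.Res p (redM M q A b (f0 z) * (redM M q A b (f0 z'))⁻¹) (0 : JZeroC (kA A) M) := by
      refine ⟨D - D', ?_, fun Q => ?_⟩
      · show (QuotientAddGroup.mk' _) (D - D') = _
        rw [map_sub, sub_eq_zero]
        exact hD.trans ((hcc b).trans hD'.symm)
      · rw [Q.ord_mul (hu0 z b).2 (inv_ne_zero (hu0 z' b).2), Q.ord_inv, ← hDo, ← hDo',
          AddSubgroupClass.coe_sub, Finsupp.sub_apply]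
        ring
    obtain ⟨k, hk⟩ := hres.exists_pow C hp.pos hne
    refine ⟨k, fun h0 => hne ?_, (g3 b).2.trans hk⟩
    rw [hk, h0, zero_pow hp.ne_zero]
  have h2 : Nat.card F0 ≤ p ^ (4 * genusFF Qb (FB M)) * Nat.card T := by
    refine (card_le_mul_of_fibres F0 T cF hcF).trans (Nat.mul_le_mul_right _ ?_)
    rw [Nat.card_prod, show 4 * genusFF Qb (FB M) = 2 * genusFF Qb (FB M) + 2 * genusFF Qb (FB M) by
      ring, pow_add]
    exact Nat.mul_le_mul hcardS hcardS
  -- count
  have h3 : Nat.card J ≤ Nat.card F * Nat.card T := by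
    have e1 : Nat.card δ.ker = Nat.card F :=
      Nat.card_congr (δ.ker.equivMapOfInjective J.subtype J.subtype_injective).toEquiv
    have e2 : Nat.card δ.range ≤ Nat.card T :=
      Nat.card_le_card_of_injective (AddSubgroup.inclusion hrange)
        (AddSubgroup.inclusion_injective hrange)
    calc Nat.card J = Nat.card δ.range * Nat.card δ.ker := by
          rw [← AddSubgroup.index_ker, AddSubgroup.index_mul_card]
      _ ≤ Nat.card T * Nat.card F := by rw [e1]; exact Nat.mul_le_mul_right _ e2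
      _ = _ := mul_comm _ _
  have hJ : Nat.card J = p ^ (2 * genusFF Qb (FB (M * q))) := hcardJ
  obtain ⟨k, -, hk⟩ : ∃ k ≤ 2 * genusFF Qb (FB (M * q)), Nat.card T = p ^ k := by
    refine (Nat.dvd_prime_pow hp).mp ?_
    rw [← hJ]
    exact AddSubgroup.card_dvd_of_le fun z hz => hz.1
  have h4 : p ^ (2 * genusFF Qb (FB (M * q))) ≤ p ^ (1 + 4 * genusFF Qb (FB M) + 2 * k) := by
    rw [← hJ]
    calc Nat.card J ≤ Nat.card F * Nat.card T := h3
      _ ≤ p * (p ^ (4 * genusFF Qb (FB M)) * Nat.card T) * Nat.card T :=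
          Nat.mul_le_mul_right _ (h1.trans (Nat.mul_le_mul_left _ h2))
      _ = _ := by rw [hk]; ring
  have h5 := (Nat.pow_le_pow_iff_right hp.one_lt).mp h4
  rw [hk]
  refine Nat.pow_le_pow_right hp.pos ?_
  have h6 : (Nat.card (SS.fibreData C).ι : ℤ) =
      (genusFF Qb (FB (M * q)) : ℤ) - 2 * genusFF Qb (FB M) + 1 := by
    have e : (12 : ℤ) * (Nat.card (SS.fibreData C).ι : ℤ) =
        12 * ((genusFF Qb (FB (M * q)) : ℤ) - 2 * genusFF Qb (FB M) + 1) := hcnt.trans hgen.symm
    linarith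
  omega

end FLTAgent.MLT

end
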