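import Fermat.Agent.MLT.SquareBranch
import Fermat.Agent.MLT.SquareToric
import Fermat.Agent.MLT.SquareJump
import Fermat.Agent.MLT.SquareAbsent
import Fermat.Agent.MLT.SquareAux
import Fermat.Agent.TOR.MazurW
import Fermat.Agent.SS2.Transfer
import Fermat.Agent.Local.API

/-!
Lowering a prime whose square exactly divides a residually modular level.
-/

set_option autoImplicit false
set_option linter.unusedSectionVars false
set_option linter.style.haveILetI false
set_option synthInstance.maxHeartbeats 400000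
set_option maxHeartbeats 1000000

noncomputable section

open ModularCurve AlgebraicCurve WeierstrassCurve
open ModularFormClass
open FLTAgent.Reduction (Qb FB Ctx)
open FLTAgent.Attach (HeckeLattice GaloisInputs)
open FLTAgent.Torsion (Tors)
open FLTAgent.TOR (eigTors)
open scoped Matrix

namespace FLTAgent.MLT

local notation "GalQ" => AlgebraicClosure ℚ ≃ₐ[ℚ] AlgebraicClosure ℚ

variable {W : WeierstrassCurve ℤ} {p : ℕ}

theorem eq_zero_of_nsmul_coprime {G : Type*} [AddGroup G] {a n : ℕ} (hc : a.Coprime n) {y : G}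
    (ha : a • y = 0) (hn : n • y = 0) : y = 0 := by
  have hd := Nat.dvd_gcd (addOrderOf_dvd_of_nsmul_eq_zero ha) (addOrderOf_dvd_of_nsmul_eq_zero hn)
  rw [hc.gcd_eq_one] at hd
  exact AddMonoid.addOrderOf_eq_one_iff.mp (Nat.dvd_one.mp hd)

/-- eigen classes survive adding an auxiliary prime to the level -/
theorem exists_eig_raise (hp : p.Prime) {N r N' : ℕ} [NeZero N] [NeZero r] [NeZero N']
    (hN' : N' = N * r) (hr : r.Prime) (hrN : ¬ r ∣ N) {y : JZero N} (hy0 : y ≠ 0)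
    (hy : y ∈ eigTors N W p) : ∃ y' : JZero N', y' ≠ 0 ∧ y' ∈ eigTors N' W p := by
  subst hN'
  refine ⟨pullJ (heckeAlphaBar Qb N r) y,
    fun h => hy0 (eq_zero_of_pullJ_alpha hr hrN hp.pos hy.1 h),
    by rw [← map_nsmul, hy.1, map_zero], fun ℓ hℓ h1 h2 h3 => ?_⟩
  have h2' : ¬ ℓ ∣ N := fun h => h2 (h.mul_right r)
  rw [← pullJ_hecke _ (HeckeJ.intertwines_heckeAlphaBar N r) hℓ h2' h2 hp.pos
    (fun hd => h3 ((Nat.prime_dvd_prime_iff_eq hℓ hp).mp hd)) hy.1, hy.2 ℓ hℓ h1 h2' h3, map_zsmul]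

/-- a nonzero torsion point fixed by inertia at a semistable prime -/
theorem exists_fixed_tors (hΔ : W.Δ ≠ 0) (hp : p.Prime) (hp2 : p ≠ 2)
    (hirr : W.ModRepIsIrreducible p) {q : ℕ} (hq : q.Prime) (hss : Local.SemistableAt W q) (hqp : q ≠ p)
    {A : ValuationSubring Qb} (hA : A.LiesOverPrime q) :
    ∃ x : Tors W p, x ≠ 0 ∧ ∀ σ ∈ A.inertiaSubgroupIn ℚ, σ • x = x := by
  haveI := Fact.mk hp
  obtain ⟨r, e, -, he, -, -⟩ := TOR.exists_matrix_rep (p := p) hΔ hp2 hirr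
  obtain ⟨y, hy0, hy⟩ := SS2.exists_common_fixed (A.inertiaSubgroupIn ℚ) (fun σ => r σ)
    (fun σ τ => map_mul r σ τ) fun σ hσ => Matrix.ext_of_mulVec_single fun j => by
      obtain ⟨x, hx⟩ := e.surjective (Pi.single j 1)
      have h1 : σ • (σ • x - x) = σ • x - x := Subtype.ext (Local.inertia_unipotent hA hq hss hp
        hp2 hqp hσ (by rw [← natCast_zsmul]; exact (Submodule.mem_torsionBy_iff _ _).mp x.2))
      rw [Matrix.zero_mulVec, ← Matrix.mulVec_mulVec, ← hx]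
      simp only [Matrix.sub_mulVec, Matrix.one_mulVec, ← he, ← map_sub, Matrix.mulVec_sub, h1,
        sub_self, map_zero]
  obtain ⟨x, rfl⟩ := e.surjective y
  exact ⟨x, fun h => hy0 (by rw [h, map_zero]), fun σ hσ => e.injective (by rw [he, hy σ hσ])⟩

variable [Fact p.Prime] {M q : ℕ} [NeZero M] [NeZero q]

/-- an operator polynomial on an old eigen class acts through the lower level -/
theorem evalA_nsmul_pull (hq : q.Prime) (hqM : q ∣ M) (D0 : HeckeLattice M)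
    (R : MvPolynomial (LL.SubPrime M q p W.IsGoodPrimeFor) ℤ) :
    ∀ y ∈ eigTors (M * q) W p, ∀ v₁ v₂ : D0.Lam,
      y = pullJ (heckeAlphaBar Qb M q) (D0.tors p v₁) +
          pullJ (heckeBetaBar Qb M q) (D0.tors p v₂) →
      (LL.evalA W.apOfModel W.IsGoodPrimeFor R).val • y =
        pullJ (heckeAlphaBar Qb M q)
            (D0.tors p (D0.act (LL.evalSub W.IsGoodPrimeFor M (dvd_mul_right M q) R) v₁)) +
          pullJ (heckeBetaBar Qb M q)
            (D0.tors p (D0.act (LL.evalSub W.IsGoodPrimeFor M (dvd_mul_right M q) R) v₂)) := by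
  have hp : p.Prime := Fact.out
  induction R using MvPolynomial.induction_on with
  | C z =>
    intro y hy v₁ v₂ h
    have e : (MvPolynomial.C z : MvPolynomial (LL.SubPrime M q p W.IsGoodPrimeFor) ℤ) =
      (z : MvPolynomial _ ℤ) := by simp
    rw [e, map_intCast, map_intCast, map_intCast, ← LL.zsmul_eq_val hy.1 z,
      Module.End.intCast_apply, Module.End.intCast_apply, map_zsmul, map_zsmul, map_zsmul, map_zsmul,
      ← zsmul_add, ← h]
  | add R S hR hS =>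
    intro y hy v₁ v₂ h
    rw [map_add, map_add, map_add, LinearMap.add_apply, LinearMap.add_apply, map_add, map_add,
      map_add, map_add]
    have e := LL.zsmul_eq_val (p := p) hy.1 (((LL.evalA W.apOfModel W.IsGoodPrimeFor R).val +
      (LL.evalA W.apOfModel W.IsGoodPrimeFor S).val : ℕ) : ℤ)
    push_cast at e
    rw [ZMod.natCast_zmod_val, ZMod.natCast_zmod_val, add_zsmul, natCast_zsmul,
      natCast_zsmul] at e
    rw [← e, hR y hy v₁ v₂ h, hS y hy v₁ v₂ h]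
    abel
  | mul_X R t ih =>
    intro y hy v₁ v₂ h
    have hl : (t.1.1 : ℕ).Prime := t.1.1.2
    have hlN : ¬ (t.1.1 : ℕ) ∣ M * q := t.1.2.1
    have hlM : ¬ (t.1.1 : ℕ) ∣ M := fun hd => hlN (hd.mul_right q)
    have hlp : ¬ (t.1.1 : ℕ) ∣ p := fun hd => t.1.2.2 ((Nat.prime_dvd_prime_iff_eq hl hp).mp hd)
    rw [map_mul, map_mul, map_mul, Module.End.mul_apply, Module.End.mul_apply, LL.evalSub_X,
      D0.act_T]
    have hT := congrArg (heckeOperatorBar (M * q) ⟨(t.1.1 : ℕ), hl⟩) h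
    rw [hy.2 _ hl t.2 hlN t.1.2.2, map_add,
      ← pullJ_hecke _ (HeckeJ.intertwines_heckeAlphaBar M q) hl hlM hlN hp.pos hlp
        (D0.nsmul_tors hp.pos v₁),
      ← pullJ_hecke _ (HeckeJ.intertwines_heckeBetaBar M q) hl hlM hlN hp.pos hlp
        (D0.nsmul_tors hp.pos v₂)] at hT
    rw [← ih _ (AddSubgroup.zsmul_mem _ hy _) _ _ (hT.trans (by
      rw [D0.tors_T _ hp.pos, D0.tors_T _ hp.pos]))]
    rw [show LL.evalA W.apOfModel W.IsGoodPrimeFor (MvPolynomial.X t) =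
      ((W.apOfModel (t.1.1 : ℕ) : ℤ) : ZMod p) by simp [LL.evalA]]
    conv_rhs => rw [← natCast_zsmul, ← mul_zsmul, LL.zsmul_eq_val hy.1]
    congr 1
    push_cast
    simp [mul_comm]

omit [Fact p.Prime] in
/-- `q ^ 2 ‖` level can be replaced by `q` -/
theorem square_lower {W : WeierstrassCurve ℤ} (hΔ : W.Δ ≠ 0) (hss : W.IsSemistableModel) {p : ℕ}
    (hp : p.Prime) (hp2 : p ≠ 2) (hirr : W.ModRepIsIrreducible p) (haux : AuxPrimes W p) {q : ℕ}
    [NeZero q] (hq : q.Prime) (hqp : q ≠ p) {M : ℕ} [NeZero M] (hqM : ¬ q ∣ M)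
    (hmod : W.IsResiduallyModularOfLevel p (M * q * q)) :
    W.IsResiduallyModularOfLevel p (M * q) := by
  classical
  by_contra hno
  haveI := Fact.mk hp
  obtain ⟨r, hr, h11, hrgt, hrgood, hrna⟩ := haux (M * q * p)
  haveI : NeZero r := ⟨hr.ne_zero⟩
  have hM0 : 0 < M := Nat.pos_of_ne_zero (NeZero.ne M)
  have hle : M * q ≤ M * q * p := Nat.le_mul_of_pos_right _ hp.pos
  have hrp : r ≠ p := by
    have : p ≤ M * q * p := Nat.le_mul_of_pos_left _ (Nat.mul_pos hM0 hq.pos)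
    omega
  have hrq : r ≠ q := by
    have : q ≤ M * q := Nat.le_mul_of_pos_left _ hM0
    omega
  have hrMq : ¬ r ∣ M * q := fun h => by
    have := Nat.le_of_dvd (Nat.mul_pos hM0 hq.pos) h
    omega
  have hqMr : ¬ q ∣ M * r := fun h => (hq.dvd_mul.mp h).elim hqM fun h' =>
    hrq ((Nat.prime_dvd_prime_iff_eq hq hr).mp h').symm
  rcases LL.exists_killer_or_form (M := M * r * q) (q := q) W.apOfModel W.IsGoodPrimeFor hp hq with
    ⟨R, hR, hRa⟩ | ⟨g, 𝔪', hg, hmax', hpm', hg'⟩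
  swap
  · refine hno (residuallyModular_of_mul_aux hΔ hp hr hrMq hrp hrgood hrna ?_)
    rw [mul_right_comm]
    exact residuallyModular_of_outside hΔ hp hg hmax' hpm' {q} fun ℓ h1 h2 h3 h4 h5 =>
      hg' ℓ h1 h2 h3 h4 fun e => h5 (Finset.mem_singleton.mpr e)
  obtain ⟨f, 𝔪, hf, hmax, hpm, hcong⟩ := hmod
  obtain ⟨D⟩ := Attach.exists_heckeLattice (M * q * q)
  obtain ⟨y0, hy0, hpy0, hy0T⟩ := TOR.exists_eigen_torsion D hf hp hmax hpm
  obtain ⟨y1, hy1, hy1e⟩ := exists_eig_raise (W := W) hp (N' := M * r * q * q)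
    (show M * r * q * q = M * q * q * r by ring) hr
    (fun h => (hr.dvd_mul.mp h).elim hrMq fun h' =>
      hrq ((Nat.prime_dvd_prime_iff_eq hr hq).mp h')) hy0
    ⟨hpy0, fun ℓ hℓ h1 h2 h3 => hy0T ℓ hℓ h2 _ (hcong ℓ hℓ h1 h2 h3)⟩
  obtain ⟨A, -, hA, -⟩ := Alg.exists_place_frobenius q hq
  have C : Ctx A (M * r) q := ⟨hq, hqMr, hA⟩
  obtain ⟨D'⟩ := Attach.exists_heckeLattice (M * r * q * q)
  obtain ⟨ι, hιi, hιe, hιm⟩ :=
    TOR.exists_embedding hΔ hp hp2 hirr D' (Attach.galoisInputs _) hy1 hy1e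
  obtain ⟨x, hx0, hxfix⟩ := exists_fixed_tors hΔ hp hp2 hirr hq (hss q hq) hqp hA
  have htw : TwistCls C p (ι x) := twistCls_of_eig C hr h11 (dvd_mul_left r M) hp hp2 hqp hΔ hirr
    hR hRa (hιm x) fun σ hσ => by rw [← hιe, hxfix σ hσ]
  obtain ⟨T, hTfin, hT, hTcard⟩ := exists_powTriv_subgroup C hr h11 (dvd_mul_left r M) hp hqp
  haveI := hTfin
  obtain ⟨z₁, z₂, hz₁, hz₂, he⟩ :=
    exists_pull_of_twistCls C hr h11 (dvd_mul_left r M) hp hp2 hqp hT hTcard htw
  obtain ⟨D0⟩ := Attach.exists_heckeLattice (M * r * q)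
  obtain ⟨v₁, hv₁⟩ := (D0.nsmul_eq_zero_iff p hp.pos z₁).1 hz₁
  obtain ⟨v₂, hv₂⟩ := (D0.nsmul_eq_zero_iff p hp.pos z₂).1 hz₂
  have key := evalA_nsmul_pull hq (dvd_mul_left q (M * r)) D0 R (ι x) (hιm x) v₁ v₂
    (by rw [hv₁, hv₂]; exact he)
  rw [hR, map_zero, LinearMap.zero_apply, LinearMap.zero_apply, map_zero, map_zero, map_zero,
    add_zero] at key
  refine hx0 (hιi ?_)
  rw [map_zero]
  refine eq_zero_of_nsmul_coprime (hp.coprime_iff_not_dvd.mpr fun hd => hRa ?_).symm key (hιm x).1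
  rw [← ZMod.natCast_zmod_val (LL.evalA W.apOfModel W.IsGoodPrimeFor R), ZMod.natCast_eq_zero_iff]
  exact hd

omit [Fact p.Prime] in
/-- `q ^ 2 ‖` level can be replaced by `q`, for semistable irreducible systems -/
theorem square_lower_semistable {W : WeierstrassCurve ℤ} (hΔ : W.Δ ≠ 0) (hss : W.IsSemistableModel)
    {p : ℕ} (hp : p.Prime) (hp2 : p ≠ 2) (hirr : W.ModRepIsIrreducible p) {q : ℕ} [NeZero q]
    (hq : q.Prime) (hqp : q ≠ p) {M : ℕ} [NeZero M] (hqM : ¬ q ∣ M)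
    (hmod : W.IsResiduallyModularOfLevel p (M * q * q)) :
    W.IsResiduallyModularOfLevel p (M * q) :=
  square_lower hΔ hss hp hp2 hirr (auxPrimes hΔ hss hp hp2 hirr) hq hqp hqM hmod

end FLTAgent.MLT

end
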