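import Fermat.Agent.TOR.Mazur
import Fermat.Agent.MLT.World
import Fermat.Agent.MLT.MazurPLocal
import Fermat.Agent.MLT.MazurPHasse
import Fermat.Agent.MLT.SquareLower

/-!
Area MLT, parcel MZP: Mazur's principle at `p` for good or peu ramifié reduction, also at `p = 3`.

An auxiliary prime `r ≡ 11` modulo `12` at which the system is not special is put in the level, so
that there are no elliptic points. A system absent from level `M r` would have classes at level
`M r p` fixed by the absolute Galois group of a slope field whose residues are `p`-th powers; inertia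
at `p` would then act on the torsion by scalars.
-/

set_option autoImplicit false
set_option linter.unusedSectionVars false
set_option linter.style.haveILetI false
set_option synthInstance.maxHeartbeats 400000
set_option maxHeartbeats 1000000

noncomputable section

open ModularCurve WeierstrassCurve
open FLTAgent.Reduction (Qb Ctx FS)
open FLTAgent.Attach (cyc cyc_spec)
open FLTAgent.Torsion (Tors)
open FLTAgent.TOR (eigTors)

namespace FLTAgent.MLT

local notation "GalQ" => AlgebraicClosure ℚ ≃ₐ[ℚ] AlgebraicClosure ℚ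

/-- a system absent from level `N` has no curve of good or peu ramifié type at `p` at level `N p` -/
theorem absurd_at_p {W : WeierstrassCurve ℤ} {p N r : ℕ} [NeZero N] [NeZero p] (hp : p.Prime)
    (hp3 : 3 ≤ p) (hΔ : W.Δ ≠ 0) (hW : W.IsSemistableModel) (hirr : W.ModRepIsIrreducible p)
    (ht : ¬ Tres W p) (hr : r.Prime) (h11 : r % 12 = 11) (hrN : r ∣ N) (hpN : ¬ p ∣ N)
    {R : MvPolynomial (TOR.SubPrime N p W.IsGoodPrimeFor) ℤ}
    (hR : TOR.evalSub W.IsGoodPrimeFor N (dvd_mul_right N p) R = 0)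
    (hRa : TOR.evalA W.apOfModel W.IsGoodPrimeFor R ≠ 0) {y0 : JZero (N * p)} (hy0 : y0 ≠ 0)
    (hy0' : y0 ∈ eigTors (N * p) W p) : False := by
  haveI : Fact p.Prime := ⟨hp⟩
  have hp2 : p ≠ 2 := by omega
  obtain ⟨A, -, hA, -⟩ := Alg.exists_place_frobenius p hp
  have C : Ctx A N p := ⟨hp, hpN, hA⟩
  obtain ⟨D⟩ := Attach.exists_heckeLattice (N * p)
  obtain ⟨D0⟩ := Attach.exists_heckeLattice N
  have G := Attach.galoisInputs (N * p)
  have G0 := Attach.galoisInputs N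
  obtain ⟨ι, hιi, hιe, hιm⟩ := TOR.exists_embedding hΔ hp hp2 hirr D G hy0 hy0'
  have hL := slopeField_peu (A := A) hp hp3 hA hΔ (hW p hp) fun hd =>
    not_not.mp fun h => ht ⟨hd, h⟩
  refine TOR.not_scalar hp hp2 hA hΔ fun σ hσ x => ?_
  have hfix : ∀ τ : GalQ, (∀ a ∈ TOR.torsField W A p, τ a = a) → τ • ι x = ι x := fun τ hτ => by
    rw [← hιe, TOR.torsField_fix hτ]
  have hk := TOR.killedByPush_eig hp D D0 G G0 hR hRa (hιm x)
  obtain ⟨φ, hφ⟩ := TOR.exists_isPhi C (hιm x).1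
  obtain ⟨w, hw⟩ := exists_pow_absent C hR hRa (hιm x) hφ
    (dvd_ord_slope C hp3 hr h11 hrN hΔ hirr hL (hιm x) hfix hk hφ)
  have hm' := TOR.wJ_mem_eigTors C G (hιm x)
  obtain ⟨φ', hφ'⟩ := TOR.exists_isPhi C hm'.1
  obtain ⟨w', hw'⟩ := exists_pow_absent C hR hRa hm' hφ'
    (dvd_ord_slope C hp3 hr h11 hrN hΔ hirr hL hm'
      (fun τ hτ => by rw [← TOR.wJ_smul, hfix τ hτ])
      (TOR.killedByPush_eig hp D D0 G G0 hR hRa hm') hφ')
  obtain ⟨ζ, hζ⟩ := HasEnoughRootsOfUnity.exists_primitiveRoot (AlgebraicClosure ℚ) p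
  have h := TOR.smul_eq_of_push (a := (cyc p σ).val) hp3 C (SS.fibreData C)
    (SS.fibreData_toCore C) (hιm x).1 (TOR.kerR_of_isPhi C hw hw') hk
    (SS.compat_inertia C σ hσ) hζ (cyc_spec σ hζ.pow_eq_one)
  refine hιi ?_
  rw [hιe, h, ← map_nsmul, ← Nat.cast_smul_eq_nsmul (ZMod p), ZMod.natCast_zmod_val]

/-- `p` can be removed from the level unless the reduction is très ramifié -/
theorem mazur_at_p {W : WeierstrassCurve ℤ} (hΔ : W.Δ ≠ 0) (hW : W.IsSemistableModel) {p : ℕ}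
    (hp : p = 3 ∨ p = 5) (hirr : W.ModRepIsIrreducible p) (ht : ¬ Tres W p) {M : ℕ} [NeZero M]
    (hpM : ¬ p ∣ M) (hmod : W.IsResiduallyModularOfLevel p (M * p)) :
    W.IsResiduallyModularOfLevel p M := by
  classical
  have hp' : p.Prime := by rcases hp with rfl | rfl <;> norm_num
  have hp3 : 3 ≤ p := by omega
  have hp2 : p ≠ 2 := by omega
  haveI : NeZero p := ⟨hp'.ne_zero⟩
  by_contra hno
  haveI := Fact.mk hp'
  obtain ⟨r, hr, h11, hrgt, hrgood, hrna⟩ := auxPrimes hΔ hW hp' hp2 hirr (M * p)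
  haveI : NeZero r := ⟨hr.ne_zero⟩
  have hM0 : 0 < M := Nat.pos_of_ne_zero (NeZero.ne M)
  have hrp : r ≠ p := by
    have : p ≤ M * p := Nat.le_mul_of_pos_left _ hM0
    omega
  have hrM : ¬ r ∣ M := fun h => by
    have := Nat.le_of_dvd hM0 h
    have : M ≤ M * p := Nat.le_mul_of_pos_right _ hp'.pos
    omega
  have hpMr : ¬ p ∣ M * r := fun h => (hp'.dvd_mul.mp h).elim hpM fun h' =>
    hrp ((Nat.prime_dvd_prime_iff_eq hp' hr).mp h').symm
  rcases TOR.exists_killer_or_form (M := M * r) W.apOfModel W.IsGoodPrimeFor hp' with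
    ⟨R, hR, hRa⟩ | ⟨g, 𝔪', hg, hmax', hpm', hg'⟩
  swap
  · exact hno (residuallyModular_of_mul_aux hΔ hp' hr hrM hrp hrgood hrna
      ⟨g, 𝔪', hg, hmax', hpm', hg'⟩)
  obtain ⟨f, 𝔪, hf, hmax, hpm, hcong⟩ := hmod
  obtain ⟨D⟩ := Attach.exists_heckeLattice (M * p)
  obtain ⟨y0, hy0, hpy0, hy0T⟩ := TOR.exists_eigen_torsion D hf hp' hmax hpm
  obtain ⟨y1, hy1, hy1e⟩ := exists_eig_raise (W := W) hp' (N' := M * r * p)
    (show M * r * p = M * p * r by ring) hr
    (fun h => (hr.dvd_mul.mp h).elim hrM fun h' =>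
      hrp ((Nat.prime_dvd_prime_iff_eq hr hp').mp h')) hy0
    ⟨hpy0, fun ℓ hℓ h1 h2 h3 => hy0T ℓ hℓ h2 _ (hcong ℓ hℓ h1 h2 h3)⟩
  exact absurd_at_p hp' hp3 hΔ hW hirr ht hr h11 (dvd_mul_left r M) hpMr hR hRa hy1 hy1e

end FLTAgent.MLT

end
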