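import Fermat.Agent.MLT.Prep
import Fermat.Agent.MLT.LevelSupport
import Fermat.Agent.MLT.MazurP
import Fermat.Agent.MLT.MazurAway
import Fermat.Agent.MLT.Avoid

/-!
Area MLT, top: residual modularity at the minimal level.
-/

set_option autoImplicit false

noncomputable section

open WeierstrassCurve

namespace FLTAgent.MLT

variable {W : WeierstrassCurve ℤ} {p : ℕ}

theorem sqfree_not_dvd {M r : ℕ} (h : Squarefree (M * r)) (hr : r.Prime) : ¬ r ∣ M := fun hd =>
  hr.not_isUnit (h r (Nat.mul_dvd_mul_right hd r))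

/-- from a squarefree level down to the minimal one -/
theorem minimal_of_squarefree (hΔ : W.Δ ≠ 0) (hW : W.IsSemistableModel) (hp : p = 3 ∨ p = 5)
    (hirr : W.ModRepIsIrreducible p) (N : ℕ) (hsq : Squarefree N)
    (hmod : W.IsResiduallyModularOfLevel p N) :
    W.IsResiduallyModularOfLevel p (minLevel W p) := by
  have hp' : p.Prime := by rcases hp with rfl | rfl <;> norm_num
  have hp2 : p ≠ 2 := by rcases hp with rfl | rfl <;> norm_num
  induction N using Nat.strong_induction_on with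
  | _ N ih =>
    haveI : NeZero N := ⟨hsq.ne_zero⟩
    by_cases h : ∃ M r : ℕ, N = M * r ∧ r.Prime ∧ W.IsResiduallyModularOfLevel p M
    · obtain ⟨M, r, rfl, hr, hM⟩ := h
      have hM0 : M ≠ 0 := fun e => NeZero.ne (M * r) (by rw [e, zero_mul])
      exact ih M (lt_mul_of_one_lt_right (Nat.pos_of_ne_zero hM0) hr.one_lt)
        (hsq.squarefree_of_dvd (dvd_mul_right M r)) hM
    push Not at h
    have hpN : p ∣ N ↔ Tres W p := by
      refine ⟨fun hd => ?_, tres_dvd_level hΔ hW hp hirr hmod⟩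
      by_contra ht
      obtain ⟨M, hM⟩ := hd
      rw [mul_comm] at hM
      subst hM
      haveI : NeZero M := ⟨fun e => NeZero.ne (M * p) (by rw [e, zero_mul])⟩
      exact h M p rfl hp' (mazur_at_p hΔ hW hp hirr ht (sqfree_not_dvd hsq hp') hmod)
    by_cases hext : ∃ q : ℕ, q.Prime ∧ q ∣ N ∧ q ≠ p ∧ q ∉ sMin W p
    · obtain ⟨q, hq, hqN, hqp, hqs⟩ := hext
      refine absurd ?_ (not_stuck hΔ hW hp hirr (N := N) (q := q))
      refine ⟨hsq, hq, hqp, hqs, hqN, hpN,
        fun r hr => sMin_dvd_level hΔ hW hp' hp2 hirr hmod hr, fun r hr hd hrp hrs => ?_, hmod,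
        fun M r e hr _ _ => h M r e hr, fun _ M e => h M p e hp'⟩
      obtain ⟨M, rfl⟩ := hd
      rw [mul_comm] at hsq hmod h
      haveI : NeZero M := ⟨fun e => by simp [e] at hsq⟩
      exact mazur_away hΔ hW hp hirr hr (sqfree_not_dvd hsq hr) hrp hrs hmod (h M r rfl hr)
    push Not at hext
    have e : N.primeFactors = (minLevel W p).primeFactors := by
      ext r
      simp only [Nat.mem_primeFactors]
      constructor
      · rintro ⟨hr, hd, -⟩
        refine ⟨hr, (prime_dvd_minLevel hp' hr).2 ?_, (squarefree_minLevel hp').ne_zero⟩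
        by_cases hrp : r = p
        · subst hrp
          exact Or.inl ⟨rfl, hpN.1 hd⟩
        · exact Or.inr (hext r hr hd hrp)
      · rintro ⟨hr, hd, -⟩
        refine ⟨hr, ?_, NeZero.ne N⟩
        rcases (prime_dvd_minLevel hp' hr).1 hd with ⟨rfl, ht⟩ | hs
        · exact hpN.2 ht
        · exact sMin_dvd_level hΔ hW hp' hp2 hirr hmod hs
    rw [← Nat.prod_primeFactors_of_squarefree (squarefree_minLevel hp'), ← e,
      Nat.prod_primeFactors_of_squarefree hsq]
    exact hmod

/-- residual modularity at the minimal level -/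
theorem exists_minimal (hΔ : W.Δ ≠ 0) (hW : W.IsSemistableModel) (hp : p = 3 ∨ p = 5)
    (hirr : W.ModRepIsIrreducible p) (M : ℕ) (hM0 : M ≠ 0) (hM : ¬ p ^ 2 ∣ M)
    (hM3 : ∀ q : ℕ, q.Prime → q ≠ p → ¬ q ^ 3 ∣ M) (hmod : W.IsResiduallyModularOfLevel p M) :
    W.IsResiduallyModularOfLevel p (minLevel W p) := by
  obtain ⟨N, hN, hmodN⟩ := exists_squarefree_level hΔ hW hp hirr M hM0 hM hM3 hmod
  exact minimal_of_squarefree hΔ hW hp hirr N hN hmodN

end FLTAgent.MLT

end
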