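import Fermat.Agent.LL.LevelRep
import Fermat.Agent.MLT.DegenMaps
import Fermat.Agent.MLT.RepStrict
import Fermat.Agent.S33

/-!
Area MLT, parcel REP: the representation of a level on the module of that level, with what the three
worlds use at `p`.

`WorldRep D s S rres` is `LL.LevelRep` with
* `flat`: flat at `p` when `p` does not divide the level;
* `strict`: strictly ordinary at `p` on what both pushes at `p` kill, when residually ordinary;
* `quartic`: at a prime exactly dividing the level, on what both pushes there kill.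
-/

set_option autoImplicit false
set_option linter.style.haveILetI false
set_option linter.unusedSectionVars false
set_option maxHeartbeats 3000000
set_option synthInstance.maxHeartbeats 100000

noncomputable section

open scoped TensorProduct Matrix
open IsLocalRing Polynomial FLTAgent.PT FLTAgent.LL

namespace FLTAgent.MLT

open FLTAgent.Attach (GalQ)

variable {A : Type} [CommRing A] [IsDomain A] [IsDiscreteValuationRing A]
  [IsAdicComplete (maximalIdeal A) A] [Finite (ResidueField A)] [CharZero A]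
  {M p r : ℕ} [NeZero M]

/-- a vector both of whose images vanish has twists with vanishing sums -/
theorem sumsZero_of_pushes {D : TWData M p r} {q : ℕ} [NeZero q] [∀ i, Fact (D.Q i).Prime]
    (O : OldPrime D q) (s : Sys M A) {L : ℕ} [NeZero L] (hL : L = D.N0 * D.R ^ 2) (d : D.Del)
    {x : D.Mod s} (h1 : O.push1 s x = 0) (h2 : O.push2 s x = 0) :
    SumsZero (L / q) q (D.evalPD A hL d (LL.map (D.isTwist_twMap (A := A)) x.1)) := by
  refine O.sumsZero_of_push_tw hL d (congrArg Subtype.val h1) ?_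
  haveI : ∀ i, Fact ((D.lower q O.dvd).Q i).Prime := fun i => ⟨D.prime i⟩
  rw [OldPrime.pushH', LinearMap.comp_apply, OldPrime.pushH, ← O.map_pushP_tw, O.map_shift_tw,
    ← O.map_tw_modShift s x, O.map_pushP_tw]
  exact (congrArg (LL.map ((D.lower q O.dvd).isTwist_twMap (A := A)))
    (congrArg Subtype.val h2)).trans (_root_.map_zero _)

/-- the representation of a level -/
structure WorldRep (D : TWData M p r) (s : Sys M A) (S : Finset ℕ)
    (rres : GalQ →* GL (Fin 2) (ResidueField A)) : Type 1 where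
  T : Type
  [instCommRing : CommRing T]
  [instIsLocalRing : IsLocalRing T]
  [instNoetherian : IsNoetherianRing T]
  [instHausdorff : IsHausdorff (maximalIdeal T) T]
  [instAlgebra : Algebra A T]
  [instLocalHom : IsLocalHom (algebraMap A T)]
  [instFinite : Module.Finite A T]
  residue_surjective : Function.Surjective (residue T ∘ algebraMap A T)
  ρ : GaloisRepAdic T
  absIrr : ρ.residual.IsAbsolutelyIrreducible
  R₀ : GalQ → Matrix (Fin 2) (Fin 2) T
  rep : Deform.RepMat ρ.ρ R₀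
  φ : T →ₐ[A] Module.End A (D.Mod s)
  residual_trace : ∀ σ, residue T (R₀ σ).trace = ResidueField.map (algebraMap A T)
    (rres σ : Matrix (Fin 2) (Fin 2) (ResidueField A)).trace
  det : ρ.DetIsCyclotomic p
  flat : ¬ p ∣ D.N0 → ρ.IsFlatAt p
  gen : Algebra.adjoin A (Set.range fun σ => (R₀ σ).trace) = ⊤
  unip : ∀ q : ℕ, q.Prime → q ≠ p → q ∣ D.N0 → ρ.IsUnipotentOnInertiaAt q
  unr : ∀ q : ℕ, q.Prime → q ≠ p → ¬ q ∣ D.N0 → (∀ i, D.Q i ≠ q) → ρ.IsUnramifiedAt q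
  frob : ∀ (l : ℕ) (hl : l.Prime), l ∉ S → ∀ P : ValuationSubring (AlgebraicClosure ℚ),
    P.LiesOverPrime l → ∀ τ : GalQ, P.IsFrobeniusAt τ l → ∃ a : T,
      (∃ hlM : ¬ l ∣ M, φ a = D.tOp s hl hlM) ∧
        LinearMap.charpoly (ρ.ρ τ) = X ^ 2 - C a * X + C (l : T)
  kill : ∀ (i : Fin r) (x : D.Mod s),
    (∑ᶠ v : (ZMod (D.Q i))ˣ ⧸ D.H i, D.dia s (Pi.mulSingle i v) x) = 0 →
      (∀ σ ∈ (D.place i).inertiaSubgroupIn ℚ, ∀ τ ∈ (D.place i).inertiaSubgroupIn ℚ,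
        ∀ a b : Fin 2, φ (((R₀ σ - 1) * (R₀ τ - 1)) a b) x = 0) → x = 0
  quartic : ∀ (q : ℕ) [NeZero q] (O : OldPrime D q), q ≠ p → ∀ x : D.Mod s,
    O.push1 s x = 0 → O.push2 s x = 0 →
      ∀ P : ValuationSubring (AlgebraicClosure ℚ), P.LiesOverPrime q →
        ∀ τ : GalQ, P.IsFrobeniusAt τ q → φ ((R₀ τ).trace ^ 2 - (1 + (q : T)) ^ 2) x = 0
  strict : ∀ [NeZero p] (O : OldPrime D p),
    (GaloisRepAdic.ofResidualGaloisRep ρ.residual).IsOrdinaryAt p →
      ∀ {B : Type} [CommRing B] [IsLocalRing B] (ψ : T →+* B) [IsLocalHom ψ],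
        (∀ t : T, (∀ x : D.Mod s, O.push1 s x = 0 → O.push2 s x = 0 →
          φ t x = 0) → ψ t = 0) →
        PT.TW.StrictMat p fun σ => (R₀ σ).map ψ

attribute [instance] WorldRep.instCommRing WorldRep.instIsLocalRing WorldRep.instNoetherian
  WorldRep.instHausdorff WorldRep.instAlgebra WorldRep.instLocalHom WorldRep.instFinite

/-- packaging of a datum acting on the part of the lattice -/
theorem nonempty_worldRep_of_datum (D : TWData M p r) (s : Sys M A) (S : Finset ℕ)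
    (hpA : (p : A) ∈ maximalIdeal A) (hsq : Squarefree M) (hpQ : ∀ i, D.Q i ≠ p)
    (hpS : p ∈ S) (hMS : ∀ q : ℕ, q.Prime → q ∣ M → q ∈ S)
    (hS : ∀ l : ℕ, l.Prime → (l ∉ S ↔ ¬ l ∣ M ∧ l ∉ s.bad))
    (rres : GalQ →* GL (Fin 2) (ResidueField A))
    {L : ℕ} [NeZero L] (hL : L = D.N0 * D.R ^ 2) (LD : JTors.LatticeData L)
    (Ψ : D.Del → (D.Mod s →ₗ[A] A ⊗[ℤ] JTors.Lam L))
    (hinj : ∀ x, (∀ d, Ψ d x = 0) → x = 0) (hmem : ∀ d x, Ψ d x ∈ lamPart LD s)
    (hint : ∀ (l : ℕ) (hl : l.Prime) (hlM : ¬ l ∣ M) (d : D.Del) (x : D.Mod s),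
      Ψ d (D.tOp s hl hlM x) = (LD.T ⟨l, hl⟩).baseChange A (Ψ d x))
    (hsum : ∀ (i : Fin r) (d : D.Del) (x : D.Mod s),
      (∑ᶠ v : (ZMod (D.Q i))ˣ ⧸ D.H i, D.dia s (Pi.mulSingle i v) x) = 0 →
        SumsZero (L / D.Q i) (D.Q i) (lamCast A L (Ψ d x)))
    {T : Type} [CommRing T] [IsLocalRing T] [IsNoetherianRing T]
    [IsAdicComplete (maximalIdeal T) T] [Algebra A T] [IsLocalHom (algebraMap A T)]
    [Module.Finite A T] [Module.Free A T]
    {θ : CuspForm.heckeAlgebra L 2 (↑S : Set ℕ) →+* ResidueField A}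
    (H : CuspForm.HeckeGaloisRepDatum L (↑S : Set ℕ) A θ T)
    (tT : ∀ ℓ : Nat.Primes, (ℓ : ℕ) ∉ S → T) (ιT : T → Module.End A (lamPart LD s))
    (hπ : ∀ (l : ℕ) (hl : l.Prime) (hlN : ¬ l ∣ L) (hlS : l ∉ S),
      H.π (CuspForm.heckeAlgebra.T hl hlN hlS) = tT ⟨l, hl⟩ hlS)
    (b : Module.Basis (Fin 2) T H.ρ.V)
    (Θ : Matrix (Fin 2) (Fin 2) T →ₐ[A] Module.End A (lamPart LD s))
    (hΘinj : Function.Injective Θ) (hΘt : ∀ t : T, Θ (Matrix.scalar (Fin 2) t) = ιT t)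
    (hΘgal : ∀ (σ : GalQ) (x : lamPart LD s),
      ((Θ (LinearMap.toMatrix b b (H.ρ.ρ σ)) x : lamPart LD s) : A ⊗[ℤ] JTors.Lam L) =
        galLam LD D.prime_p hpA σ x.1)
    (hdet : ∀ σ : GalQ, LinearMap.det (H.ρ.ρ σ) = algebraMap A T (Attach.cycR D.prime_p hpA σ))
    (hrt : ∀ σ : GalQ, residue T (LinearMap.trace T H.ρ.V (H.ρ.ρ σ)) =
      ResidueField.map (algebraMap A T)
        (rres σ : Matrix (Fin 2) (Fin 2) (ResidueField A)).trace)
    (hgen : ∀ {X : Set T}, (∀ ℓ hℓ, tT ℓ hℓ ∈ X) → Algebra.adjoin A X = ⊤)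
    (φ : T →ₐ[A] Module.End A (D.Mod s))
    (hφ : ∀ (ℓ : Nat.Primes) (h : (ℓ : ℕ) ∉ S) (hM : ¬ (ℓ : ℕ) ∣ M),
      φ (tT ℓ h) = D.tOp s ℓ.2 hM)
    (hsumP : ∀ (q : ℕ) [NeZero q] (O : OldPrime D q) (d : D.Del) (x : D.Mod s),
      O.push1 s x = 0 → O.push2 s x = 0 →
        SumsZero (L / q) q (lamCast A L (Ψ d x)))
    (hinter : ∀ Φ : D.Mod s →ₗ[A] lamPart LD s,
      (∀ (ℓ : Nat.Primes) (h : (ℓ : ℕ) ∉ S) (hM : ¬ (ℓ : ℕ) ∣ M) (x : D.Mod s),
        Φ (D.tOp s ℓ.2 hM x) = lamT LD s ℓ (Φ x)) →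
      ∀ (t : T) (x : D.Mod s), Φ (φ t x) = ιT t (Φ x)) :
    Nonempty (WorldRep D s S rres) := by
  classical
  have hp : p.Prime := D.prime_p
  haveI : NeZero D.N0 := ⟨fun h => NeZero.ne M (Nat.eq_zero_of_zero_dvd (h ▸ D.dvd0))⟩
  have hR0 : D.R ≠ 0 := Finset.prod_ne_zero_iff.2 fun i _ => (D.prime i).ne_zero
  have hdivL : ∀ q : ℕ, q.Prime → q ∣ L → q ∣ D.N0 ∨ ∃ i, q = D.Q i := by
    intro q hq h
    rw [hL] at h
    rcases hq.dvd_mul.mp h with h | h
    · exact Or.inl h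
    · obtain ⟨i, -, hi⟩ := (Prime.dvd_finsetProd_iff hq.prime _).mp (hq.dvd_of_dvd_pow h)
      exact Or.inr ⟨i, (Nat.prime_dvd_prime_iff_eq hq (D.prime i)).mp hi⟩
  have hLM : ∀ q : ℕ, q.Prime → q ∣ L → q ∣ M := fun q hq h => by
    rcases hdivL q hq h with h | ⟨i, rfl⟩
    · exact h.trans D.dvd0
    · exact D.dvd i
  have hNS : ∀ q : ℕ, q.Prime → q ∣ L → q ∈ S := fun q hq h => hMS q hq (hLM q hq h)
  have hlM : ∀ ℓ : Nat.Primes, (ℓ : ℕ) ∉ S → ¬ (ℓ : ℕ) ∣ M :=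
    fun ℓ h => ((hS _ ℓ.2).1 h).1
  let R₀ : GalQ → Matrix (Fin 2) (Fin 2) T :=
    fun σ => LinearMap.toMatrix b b (H.ρ.ρ σ)
  have hrep : Deform.RepMat H.ρ.ρ R₀ := ⟨b, fun _ => rfl⟩
  have htrace : ∀ σ, (R₀ σ).trace = LinearMap.trace _ H.ρ.V (H.ρ.ρ σ) := fun σ =>
    (LinearMap.trace_eq_matrix_trace _ b (H.ρ.ρ σ)).symm
  have hdetR : ∀ σ, (R₀ σ).det = algebraMap A _ (Attach.cycR hp hpA σ) := fun σ =>
    (LinearMap.det_toMatrix b _).trans (hdet σ)
  have hfr : ∀ (l : ℕ) (hl : l.Prime) (hlS : l ∉ S), ∀ P : ValuationSubring (AlgebraicClosure ℚ),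
      P.LiesOverPrime l → ∀ τ : GalQ, P.IsFrobeniusAt τ l →
        LinearMap.charpoly (H.ρ.ρ τ) = X ^ 2 - C (tT ⟨l, hl⟩ hlS) * X + C ((l : T)) ∧
          (R₀ τ).trace = tT ⟨l, hl⟩ hlS := by
    intro l hl hlS P hP τ hτ
    have hlL : ¬ l ∣ L := fun h => hlS (hNS l hl h)
    have h1 := H.charpoly_frob l hl hlL (by exact_mod_cast hlS) P hP τ hτ
    rw [hπ l hl hlL hlS] at h1
    exact ⟨h1, trace_of_charpoly ((LinearMap.charpoly_toMatrix (H.ρ.ρ τ) b).trans h1)⟩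
  have hΘv : ∀ (σ : GalQ) (v : lamPart LD s),
      coordOf LD ((Θ (R₀ σ) v : lamPart LD s) : A ⊗[ℤ] JTors.Lam L) =
        (latticeOf LD).galMat hp hpA σ *ᵥ coordOf LD (v : A ⊗[ℤ] JTors.Lam L) := fun σ v => by
    rw [← coordOf_galLam hp hpA LD σ]
    exact congrArg (coordOf LD) (hΘgal σ v)
  refine ⟨{ T := T
            residue_surjective := H.residue_surjective
            ρ := H.ρ
            absIrr := H.residual_absIrr
            R₀ := R₀
            rep := hrep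
            φ := φ
            residual_trace := fun σ => by rw [htrace]; exact hrt σ
            det := detIsCyclotomic_of_cycR hp hpA H.ρ hdet
            flat := ?flat
            gen := ?gen
            unip := ?unip
            unr := ?unr
            frob := ?frob
            kill := ?kill
            quartic := ?quartic
            strict := ?strict }⟩
  case gen =>
    refine hgen fun ℓ hℓ => ?_
    obtain ⟨P, τ, hP, hτ⟩ := Alg.exists_place_frobenius ℓ ℓ.2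
    exact ⟨τ, (hfr ℓ ℓ.2 hℓ P hP τ hτ).2⟩
  case unip =>
    intro q hq hqp hqN
    refine Fermat.Agent.S34.result hp hpA hpS hNS H q hq hqp (hL ▸ dvd_mul_of_dvd_left hqN _)
      fun h => ?_
    rw [hL] at h
    have hqR : ¬ q ∣ D.R := fun h => by
      obtain ⟨i, -, hi⟩ := (Prime.dvd_finsetProd_iff hq.prime _).mp h
      exact D.ndvd i ((Nat.prime_dvd_prime_iff_eq hq (D.prime i)).mp hi ▸ hqN)
    have hcop : Nat.Coprime (q ^ 2) (D.R ^ 2) := ((hq.coprime_iff_not_dvd).2 hqR).pow 2 2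
    have h1 : q * q ∣ M := by
      rw [← sq]
      exact (hcop.dvd_of_dvd_mul_right h).trans D.dvd0
    exact hq.one_lt.ne' (Nat.isUnit_iff.mp (hsq q h1))
  case unr =>
    intro q hq hqp hqN hqQ P hP σ hσ
    have hqL : ¬ q ∣ L := fun h => by
      rcases hdivL q hq h with h | ⟨i, rfl⟩
      · exact hqN h
      · exact hqQ i rfl
    have h1 : R₀ σ = 1 := hΘinj (LinearMap.ext fun v => Subtype.ext (coordOf_injective LD (by
      rw [hΘv, (latticeOf LD).galMat_inertia hp hpA (Attach.galoisInputs L) hq hqL hqp hP hσ,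
        Matrix.one_mulVec, _root_.map_one]
      rfl)))
    refine (LinearMap.toMatrix b b).injective ?_
    rw [LinearMap.toMatrix_one]
    exact h1
  case frob =>
    intro l hl hlS P hP τ hτ
    exact ⟨tT ⟨l, hl⟩ hlS, ⟨hlM ⟨l, hl⟩ hlS, hφ ⟨l, hl⟩ hlS _⟩,
      (hfr l hl hlS P hP τ hτ).1⟩
  case kill =>
    intro i x hx hσ
    haveI : NeZero (D.Q i) := ⟨(D.prime i).ne_zero⟩
    refine hinj x fun d => ?_
    have hq := D.prime i
    set M' := D.N0 * (∏ j ∈ Finset.univ.erase i, D.Q j) ^ 2 with hM'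
    have hqM' : ¬ D.Q i ∣ M' := by
      rw [hM']
      intro h
      rcases hq.dvd_mul.mp h with h | h
      · exact D.ndvd i h
      · obtain ⟨j, hj, hji⟩ := (Prime.dvd_finsetProd_iff hq.prime _).mp (hq.dvd_of_dvd_pow h)
        exact Finset.ne_of_mem_erase hj (D.inj ((Nat.prime_dvd_prime_iff_eq hq (D.prime j)).mp hji)).symm
    have hL' : L = M' * D.Q i * D.Q i := by
      have h1 : D.R = D.Q i * ∏ j ∈ Finset.univ.erase i, D.Q j :=
        (Finset.mul_prod_erase Finset.univ D.Q (Finset.mem_univ i)).symm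
      rw [hL, h1, hM']
      ring
    have hplace : (D.place i).LiesOverPrime (D.Q i) :=
      PT.TW.liesOver_primeLocalPlace ⟨D.Q i, D.prime i⟩
    refine eq_zero_of_galLam_double hp hpA hq (hpQ i) hplace LD hqM' hL' (Ψ d x) (hsum i d x hx)
      fun σ hσ' τ hτ' => ?_
    let Φ : D.Del → (D.Mod s →ₗ[A] lamPart LD s) := fun d => (Ψ d).codRestrict _ (hmem d)
    set y : lamPart LD s := ⟨Ψ d x, hmem d x⟩
    have hent : ∀ a c : Fin 2, ιT (((R₀ σ - 1) * (R₀ τ - 1)) a c) y = 0 := fun a c => by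
      have h1 := hinter (Φ d)
        (fun ℓ h hM x => Subtype.ext (hint _ ℓ.2 hM d x))
        (((R₀ σ - 1) * (R₀ τ - 1)) a c) x
      rw [hσ σ hσ' τ hτ' a c, _root_.map_zero] at h1
      exact h1.symm
    have h0 : Θ ((R₀ σ - 1) * (R₀ τ - 1)) y = 0 := by
      set Y := (R₀ σ - 1) * (R₀ τ - 1)
      have e : Y = ∑ a, ∑ c, Matrix.single a c 1 * Matrix.scalar (Fin 2) (Y a c) := by
        conv_lhs => rw [Matrix.matrix_eq_sum_single Y]
        refine Finset.sum_congr rfl fun a _ => Finset.sum_congr rfl fun c _ => ?_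
        rw [Matrix.scalar_apply, ← Matrix.smul_one_eq_diagonal, mul_smul_comm, mul_one,
          Matrix.smul_single, smul_eq_mul, mul_one]
      rw [e, _root_.map_sum, LinearMap.sum_apply]
      refine Finset.sum_eq_zero fun a _ => ?_
      rw [_root_.map_sum, LinearMap.sum_apply]
      refine Finset.sum_eq_zero fun c _ => ?_
      rw [_root_.map_mul, Module.End.mul_apply, hΘt, hent, _root_.map_zero]
    rw [_root_.map_mul, _root_.map_sub, _root_.map_sub, _root_.map_one, Module.End.mul_apply,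
      LinearMap.sub_apply, LinearMap.sub_apply, Module.End.one_apply, Module.End.one_apply,
      sub_eq_zero] at h0
    have e1 : galLam LD hp hpA τ (Ψ d x) = ((Θ (R₀ τ) y : lamPart LD s) : A ⊗[ℤ] JTors.Lam L) :=
      (hΘgal τ y).symm
    rw [e1]
    exact (hΘgal σ (Θ (R₀ τ) y - y)).symm.trans (congrArg Subtype.val h0)
  case quartic =>
    intro q _ O hqp x hx1 hx2 P hP τ hτ
    have hq := O.prime
    have hqL : q ∣ L := hL ▸ dvd_mul_of_dvd_left O.dvd _
    have hqM' : ¬ q ∣ L / q := by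
      have hdiv : L / q = D.N0 / q * D.R ^ 2 := by rw [hL, ← Nat.div_mul_right_comm O.dvd]
      rw [hdiv, hq.dvd_mul, not_or]
      exact ⟨O.exact_dvd, fun h => O.not_dvd_R (hq.dvd_of_dvd_pow h)⟩
    refine hinj _ fun d => ?_
    set y : lamPart LD s := ⟨Ψ d x, hmem d x⟩
    let Φ' : D.Mod s →ₗ[A] lamPart LD s := (Ψ d).codRestrict _ (hmem d)
    have h1 := hinter Φ'
      (fun ℓ h hM x => Subtype.ext (hint _ ℓ.2 hM d x))
      ((R₀ τ).trace ^ 2 - (1 + (q : T)) ^ 2) x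
    refine (congrArg Subtype.val h1).trans ?_
    rw [← hΘt]
    refine (congrArg Subtype.val (scalar_of_quartic Θ q (R₀ τ) (R₀ τ⁻¹) ?_ ?_ y ?_) : _)
    · rw [← hrep.map_mul, inv_mul_cancel, hrep.map_one]
    · rw [hdetR, Attach.cycR_frobenius hp hpA hq hqp hP hτ, map_natCast]
    · refine Subtype.ext (coordOf_injective LD ?_)
      have hz : coordOf LD (((0 : lamPart LD s)) : A ⊗[ℤ] JTors.Lam L) = 0 := _root_.map_zero _
      rw [hz]
      have hF : ∀ v : lamPart LD s,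
          coordOf LD ((Θ (R₀ τ * R₀ τ) v : lamPart LD s) : A ⊗[ℤ] JTors.Lam L) =
            (latticeOf LD).galMat hp hpA (τ * τ) *ᵥ coordOf LD (v : A ⊗[ℤ] JTors.Lam L) :=
        fun v => by rw [← hrep.map_mul]; exact hΘv _ v
      rw [quartic_eq_nsmul, _root_.map_add, _root_.map_sub, _root_.map_nsmul, _root_.map_nsmul,
        _root_.map_one, _root_.map_mul Θ (R₀ τ * R₀ τ) (R₀ τ * R₀ τ)]
      simp only [LinearMap.add_apply, LinearMap.sub_apply, LinearMap.smul_apply,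
        Module.End.one_apply, Module.End.mul_apply, Submodule.coe_add, Submodule.coe_sub,
        Submodule.coe_smul_of_tower]
      have hlin : ∀ (u v : A ⊗[ℤ] JTors.Lam L) (n m : ℕ) (w : A ⊗[ℤ] JTors.Lam L),
          coordOf LD (u - n • v + m • w) = coordOf LD u - n • coordOf LD v + m • coordOf LD w :=
        fun u v n m w => by
          let E := AddMonoidHom.mk' (coordOf (O := A) LD) (fun a b => LinearEquiv.map_add _ a b)
          show E (u - n • v + m • w) = E u - n • E v + m • E w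
          rw [_root_.map_add E, _root_.map_sub E, _root_.map_nsmul E, _root_.map_nsmul E]
      rw [hlin, hF, hF]
      obtain ⟨M₁, hM₁⟩ : ∃ M₁, L = M₁ * q := ⟨L / q, (Nat.div_mul_cancel hqL).symm⟩
      have hy' := hsumP q O d x hx1 hx2
      have hy0 : (y : A ⊗[ℤ] JTors.Lam L) = Ψ d x := rfl
      clear_value y
      subst hM₁
      have hne1 : NeZero M₁ := ⟨fun h => NeZero.ne (M₁ * q) (by rw [h, zero_mul])⟩
      rw [Nat.mul_div_left _ hq.pos] at hy' hqM'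
      have h3 := quartic_mulVec hp hpA hq hqM' hqp hP hτ LD (coordOf LD (Ψ d x))
        (by rwa [vecOf_coordOf])
      rw [quartic_eq_nsmul, Matrix.add_mulVec, Matrix.sub_mulVec, ← Matrix.mulVec_mulVec,
        Matrix.smul_mulVec, Matrix.smul_mulVec, Matrix.one_mulVec] at h3
      rw [hy0]
      exact h3

  case flat =>
    intro hpN
    refine Fermat.Agent.S32.result hp D.p_ne_two hpA (fun h => ?_) hpS hNS H
    rcases hdivL p hp h with h | ⟨i, h⟩
    · exact hpN h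
    · exact hpQ i h.symm
  case strict =>
    intro _ O hres B _ _ ψ _ hψ
    obtain ⟨M₁, hM₁⟩ : ∃ M₁, L = M₁ * p :=
      ⟨L / p, (Nat.div_mul_cancel (hL ▸ dvd_mul_of_dvd_left O.dvd _)).symm⟩
    have hdiv : L / p = M₁ := by rw [hM₁, Nat.mul_div_left _ hp.pos]
    have hpM₁ : ¬ p ∣ M₁ := by
      have h1 : M₁ = D.N0 / p * D.R ^ 2 := by rw [← hdiv, hL, ← Nat.div_mul_right_comm O.dvd]
      rw [h1, hp.dvd_mul, not_or]
      exact ⟨O.exact_dvd, fun h => O.not_dvd_R (hp.dvd_of_dvd_pow h)⟩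
    have hord : H.ρ.IsOrdinaryAt p :=
      Fermat.Agent.S33.result hp D.p_ne_two hpA ⟨hM₁ ▸ dvd_mul_left p M₁, fun h => hpM₁ (by
        rw [hM₁, pow_two] at h
        exact Nat.dvd_of_mul_dvd_mul_right hp.pos h)⟩ hNS H hres
    let Φ : D.Del → (D.Mod s →ₗ[A] lamPart LD s) := fun d => (Ψ d).codRestrict _ (hmem d)
    refine strictMat_of_sumsZero hp D.p_ne_two hpA hM₁ hpM₁ LD (lamPart LD s) H.ρ b hord
      H.residual_absIrr hdet (hgen fun ℓ hℓ => ?_) Θ hΘgal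
      {y | ∃ (d : D.Del) (x : D.Mod s), O.push1 s x = 0 ∧ O.push2 s x = 0 ∧
        Φ d x = y} ?_ ψ fun t ht => hψ t fun x hx1 hx2 => hinj _ fun d => ?_
    · obtain ⟨P, τ, hP, hτ⟩ := Alg.exists_place_frobenius ℓ ℓ.2
      exact ⟨τ, (hfr ℓ ℓ.2 hℓ P hP τ hτ).2⟩
    · rintro _ ⟨d, x, hx1, hx2, rfl⟩
      rw [← hdiv]
      exact hsumP p O d x hx1 hx2
    · have h1 := hinter (Φ d) (fun ℓ h hM x => Subtype.ext (hint _ ℓ.2 hM d x)) t x
      rw [← hΘt, ht (Φ d x) ⟨d, x, hx1, hx2, rfl⟩] at h1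
      exact congrArg Subtype.val h1

/-- a level carrying something has a representation -/
theorem exists_worldRep (D : TWData M p r) (s : Sys M A) (S : Finset ℕ)
    (hpA : (p : A) ∈ maximalIdeal A) (h6 : s.Elliptic) (hsq : Squarefree M) (hpQ : ∀ i, D.Q i ≠ p)
    (hpS : p ∈ S) (hMS : ∀ q : ℕ, q.Prime → q ∣ M → q ∈ S)
    (hS : ∀ l : ℕ, l.Prime → (l ∉ S ↔ ¬ l ∣ M ∧ l ∉ s.bad)) (hl0 : s.l0 ∉ S)
    (rres : GalQ →* GL (Fin 2) (ResidueField A))
    (hlev : Deform.FinLevel fun σ => (rres σ : Matrix (Fin 2) (Fin 2) (ResidueField A)))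
    (hfrob : ∀ l : ℕ, l.Prime → l ∉ S → ∀ P : ValuationSubring (AlgebraicClosure ℚ),
      P.LiesOverPrime l → ∀ σ : GalQ, P.IsFrobeniusAt σ l →
        (rres σ : Matrix (Fin 2) (Fin 2) (ResidueField A)).trace = residue A (s.eig l) ∧
        (rres σ : Matrix (Fin 2) (Fin 2) (ResidueField A)).det = (l : ResidueField A))
    (σ₀ : GalQ) {α β : ResidueField A} (hαβ : α ≠ β)
    (hσ₀ : (rres σ₀ : Matrix (Fin 2) (Fin 2) (ResidueField A)).charpoly = (X - C α) * (X - C β))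
    (hirr : ∀ v : Fin 2 → ResidueField A, v ≠ 0 → ∃ σ, ∀ a : ResidueField A,
      (rres σ : Matrix (Fin 2) (Fin 2) (ResidueField A)).mulVec v ≠ a • v)
    (hne : D.Mod s ≠ ⊥) : Nonempty (WorldRep D s S rres) := by
  classical
  have hp : p.Prime := D.prime_p
  haveI : NeZero D.N0 := ⟨fun h => NeZero.ne M (Nat.eq_zero_of_zero_dvd (h ▸ D.dvd0))⟩
  have hR0 : D.R ≠ 0 := Finset.prod_ne_zero_iff.2 fun i _ => (D.prime i).ne_zero
  obtain ⟨L, hL⟩ : ∃ L, L = D.N0 * D.R ^ 2 := ⟨_, rfl⟩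
  haveI : NeZero L := ⟨hL ▸ mul_ne_zero (NeZero.ne D.N0) (pow_ne_zero 2 hR0)⟩
  have hdivL : ∀ q : ℕ, q.Prime → q ∣ L → q ∣ D.N0 ∨ ∃ i, q = D.Q i := by
    intro q hq h
    rw [hL] at h
    rcases hq.dvd_mul.mp h with h | h
    · exact Or.inl h
    · obtain ⟨i, -, hi⟩ := (Prime.dvd_finsetProd_iff hq.prime _).mp (hq.dvd_of_dvd_pow h)
      exact Or.inr ⟨i, (Nat.prime_dvd_prime_iff_eq hq (D.prime i)).mp hi⟩
  have hLM : ∀ q : ℕ, q.Prime → q ∣ L → q ∣ M := fun q hq h => by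
    rcases hdivL q hq h with h | ⟨i, rfl⟩
    · exact h.trans D.dvd0
    · exact D.dvd i
  have hNS : ∀ q : ℕ, q.Prime → q ∣ L → q ∈ S := fun q hq h => hMS q hq (hLM q hq h)
  have hlM : ∀ ℓ : Nat.Primes, (ℓ : ℕ) ∉ S → ¬ (ℓ : ℕ) ∣ M :=
    fun ℓ h => ((hS _ ℓ.2).1 h).1
  obtain ⟨LD⟩ := JTors.exists_latticeData L
  haveI := fun i => Fact.mk (D.prime i)
  have hinj := D.twist_injective s h6 hL
  have hmem := D.twist_mem_lamPart s hpA h6 hL LD
  set Ψ := D.twist s h6 hL with hΨ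
  have hint := fun (l : ℕ) (hl : l.Prime) (hlM : ¬ l ∣ M) => D.twist_tOp s h6 hL LD hl hlM
  have hsum := D.sumsZero_twist s h6 hL
  have hsumP : ∀ (q : ℕ) [NeZero q] (O : OldPrime D q) (d : D.Del) (x : D.Mod s),
      O.push1 s x = 0 → O.push2 s x = 0 →
        SumsZero (L / q) q (lamCast A L (Ψ d x)) := fun q _ O d x h1 h2 => by
    rw [hΨ, D.lamCast_twist]
    exact sumsZero_of_pushes O s hL d h1 h2
  have hbot : lamPart LD s ≠ ⊥ := fun h => hne (by
    rw [Submodule.eq_bot_iff]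
    intro x hx
    have := hinj ⟨x, hx⟩ fun d => by
      have h1 := hmem d ⟨x, hx⟩
      rw [h] at h1
      exact h1
    exact congrArg Subtype.val this)
  obtain ⟨iL, iN, iC, iH, iF, iFr, θ, -, H, hπ, b, Θ, hΘinj, hΘt, hΘgal, hdet, hrt⟩ :=
    exists_lamDatum hp hpA LD s S hpS hNS hS hl0 hbot rres hlev hfrob σ₀ hαβ hσ₀ hirr
  let op : ∀ ℓ : Nat.Primes, (ℓ : ℕ) ∉ S → Module.End A (D.Mod s) :=
    fun ℓ h => D.tOp s ℓ.2 (hlM ℓ h)
  let Φ : D.Del → (D.Mod s →ₗ[A] lamPart LD s) := fun d => (Ψ d).codRestrict _ (hmem d)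
  obtain ⟨φ, hφ⟩ := exists_lamHecke_hom LD s op Φ
    (fun x hx => hinj x fun d => congrArg Subtype.val (hx d))
    (fun d ℓ h x => Subtype.ext (hint _ ℓ.2 (hlM ℓ h) d x))
  exact nonempty_worldRep_of_datum D s S hpA hsq hpQ hpS hMS hS rres hL LD Ψ hinj hmem hint hsum
    H (lamTT LD s S) (fun t => (t : Module.End A (lamPart LD s))) hπ b Θ hΘinj hΘt hΘgal hdet hrt
    (fun h => adjoin_lamHecke_eq_top LD s h) φ (fun ℓ h _ => hφ ℓ h) hsumP
    (fun Φ hΦ => lamHecke_intertwine LD s φ op hφ Φ fun ℓ h x => hΦ ℓ h _ x)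

end FLTAgent.MLT

end
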