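import Fermat.Agent.TOR.RedKernel
import Fermat.Agent.Reduction.Kronecker
import Fermat.Agent.Reduction.Galois
import Fermat.Agent.HeckeJ.Galois

/-!
Area MLT, parcel APW: on points of order `p` of `J₀(N)`, `p ∤ N`, where inertia at `p` acts through
`(σ - 1) (σ - χ σ) = 0`, the operator `T_p` is congruent to Frobenius on what inertia fixes.
-/

set_option autoImplicit false
set_option linter.unusedSectionVars false
set_option linter.style.haveILetI false
set_option synthInstance.maxHeartbeats 200000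

noncomputable section

open ModularCurve AlgebraicCurve IsLocalRing
open FLTAgent.Reduction (Qb Ctx frobS)

namespace FLTAgent.MLT

open FLTAgent.Attach (GalQ cyc)

variable {N p : ℕ} [NeZero N] [NeZero p] {A : ValuationSubring Qb}

/-- inertia does not see the classes moved to a multiple by another element of inertia -/
theorem red_eq_zero_of_nsmul (hp : p.Prime) (C : Ctx A N p) {τ : GalQ}
    (hτ : τ ∈ A.inertiaSubgroupIn ℚ) {a : ℕ} (ha : (a : ZMod p) ≠ 1) {u : JZero N}
    (hu : p • u = 0) (hτu : τ • u = a • u) : reductionModL A N u = 0 := by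
  haveI := Fact.mk hp
  have h1 : a • reductionModL A N u = reductionModL A N u := by
    rw [← map_nsmul, ← hτu, Reduction.reductionModL_inertia C hτ]
  have h2 : p • reductionModL A N u = 0 := by rw [← map_nsmul, hu, map_zero]
  by_contra h0
  apply ha
  have h3 : ((a : ℤ) - 1) • reductionModL A N u = 0 := by
    rw [sub_smul, natCast_zsmul, one_smul, h1, sub_self]
  rw [← addOrderOf_dvd_iff_zsmul_eq_zero, addOrderOf_eq_prime h2 h0,
    ← ZMod.intCast_zmod_eq_zero_iff_dvd, Int.cast_sub, Int.cast_natCast, Int.cast_one,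
    sub_eq_zero] at h3
  exact h3

/-- `T_p` is congruent to Frobenius on what inertia fixes -/
theorem hecke_eq_of_fixed (hp : p.Prime) (hp2 : p ≠ 2) (hpN : ¬ p ∣ N) (C : Ctx A N p)
    {φ : GalQ} (hφ : A.IsFrobeniusAt φ p) {τ : GalQ} (hτ : τ ∈ A.inertiaSubgroupIn ℚ)
    (hcyc : cyc p τ ≠ 1) {x u : JZero N} (hx : p • x = 0) (hτx : τ • x = x)
    (hnil : ∀ σ ∈ A.inertiaSubgroupIn ℚ, ∃ j : ℕ,
      (TOR.quadEnd (G := GalQ) (JZero N) ((cyc p σ).val : ℤ) σ ^ j) x = 0)
    (w : ℤ) (hφx : φ • x = w • x + u) (hu : reductionModL A N u = 0) :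
    heckeOperatorBar N ⟨p, hp⟩ x = w • x := by
  set T := heckeOperatorBar N ⟨p, hp⟩ with hT
  have hTσ : ∀ (σ : GalQ) (y : JZero N), T (σ • y) = σ • T y := fun σ y =>
    (HeckeJ.smul_hecke N σ _ y).symm
  let f : JZero N →+ JZero N := AddMonoidHom.mk' (fun y => T y - w • y) fun a b => by
    rw [map_add, zsmul_add]; abel
  have hf : ∀ (σ : GalQ) (y : JZero N), f (σ • y) = σ • f y := fun σ y => by
    show T (σ • y) - w • σ • y = σ • (T y - w • y)
    rw [hTσ]
    exact ((map_sub (DistribSMul.toAddMonoidHom (JZero N) σ) _ _).trans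
      (congrArg _ (map_zsmul (DistribSMul.toAddMonoidHom (JZero N) σ) w y))).symm
  rw [← sub_eq_zero]
  refine TOR.eq_zero_of_fixed (w := f x) hp hp2 hpN C.lies hτ hcyc (by rw [← map_nsmul, hx, map_zero])
    ?_ (by rw [← hf, hτx]) fun σ hσ => ?_
  · show reductionModL A N (T x - w • x) = 0
    rw [map_sub, map_zsmul, hT, Reduction.reductionModL_hecke C x,
      show p • (frobS C)⁻¹ • reductionModL A N x = (frobS C)⁻¹ • (p • reductionModL A N x) from
        (map_nsmul (DistribSMul.toAddMonoidHom _ (frobS C)⁻¹) p _).symm, ← map_nsmul, hx, map_zero,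
      show (frobS C)⁻¹ • (0 : JZeroC (Reduction.kA A) N) = 0 from
        map_zero (DistribSMul.toAddMonoidHom (JZeroC (Reduction.kA A) N) (frobS C)⁻¹),
      add_zero, ← Reduction.reductionModL_frobenius C hφ, hφx, map_add, map_zsmul, hu, add_zero,
      sub_self]
  · obtain ⟨j, hj⟩ := hnil σ hσ
    exact ⟨j, by rw [← TOR.quadEnd_pow_map f hf, hj, map_zero]⟩

end FLTAgent.MLT

end
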