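import Fermat.Agent.MLT.RepStrictGeom
import Fermat.Agent.LL.KillVec
import Fermat.Agent.SS2.Torsion
import Fermat.Agent.Attach.Tate

/-!
Area MLT, parcel REP: the vectors of the lattice all whose torsion points are killed by both
pushforwards to level `M`, and the strict relation on them.
-/

set_option autoImplicit false
set_option linter.unusedSectionVars false
set_option linter.style.haveILetI false

noncomputable section

open scoped MatrixGroups TensorProduct Matrix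
open Matrix IsLocalRing ModularCurve AlgebraicCurve

namespace FLTAgent.MLT

open FLTAgent.Attach (HeckeLattice GalQ cyc)

variable {O : Type} [CommRing O] [IsDomain O] [IsDiscreteValuationRing O]
  [IsAdicComplete (maximalIdeal O) O] [CharZero O] {M p : ℕ} [NeZero M] [NeZero p]
  (hp : p.Prime) (hpO : (p : O) ∈ maximalIdeal O) (D : HeckeLattice (M * p))

section Coord

variable {N : ℕ} [NeZero N] (D' : HeckeLattice N)

/-- a vector with prescribed coordinates modulo `n` -/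
theorem exists_vec_coord {n : ℕ} [NeZero n] (c : D'.Idx → ZMod n) :
    ∃ v : D'.Lam, ∀ l, (((Module.Free.chooseBasis ℤ D'.Lam).repr v l : ℤ) : ZMod n) = c l := by
  refine ⟨(Module.Free.chooseBasis ℤ D'.Lam).equivFun.symm fun l => ((c l).val : ℤ), fun l => ?_⟩
  rw [← Module.Basis.equivFun_apply, LinearEquiv.apply_symm_apply, Int.cast_natCast,
    ZMod.natCast_zmod_val]

/-- an additive map to `ℤ/pᵏ` kills the multiples of `pᵏ` -/
theorem char_eq_of_sub_mem {k : ℕ} (ψ : O →+ ZMod (p ^ k)) {a b : O}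
    (h : a - b ∈ Ideal.span {(p : O) ^ k}) : ψ a = ψ b := by
  obtain ⟨c, hc⟩ := Ideal.mem_span_singleton'.mp h
  rw [← sub_eq_zero, ← map_sub, ← hc, mul_comm, ← Nat.cast_pow, ← nsmul_eq_mul, map_nsmul,
    nsmul_eq_mul, ZMod.natCast_self, zero_mul]

/-- the lifts of Galois act on coordinates by the matrices of the representation -/
theorem coord_liftP {k j : ℕ} (ψ : O →+ ZMod (p ^ k))
    (hj : maximalIdeal O ^ j ≤ Ideal.span {(p : O) ^ k}) (σ : GalQ) (w : D'.Lam) (y : D'.Idx → O)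
    (hw : ∀ l, (((Module.Free.chooseBasis ℤ D'.Lam).repr w l : ℤ) : ZMod (p ^ k)) = ψ (y l))
    (l : D'.Idx) :
    (((Module.Free.chooseBasis ℤ D'.Lam).repr (D'.liftP hp (k + j) σ w) l : ℤ) : ZMod (p ^ k)) =
      ψ ((D'.galMat hp hpO σ *ᵥ y) l) := by
  rw [SS2.coord_apply, show (fun m => (((Module.Free.chooseBasis ℤ D'.Lam).repr w m : ℤ) :
    ZMod (p ^ k))) = fun m => ψ (y m) from funext hw, SS2.mulVec_char D' ψ]
  refine char_eq_of_sub_mem ψ ?_
  rw [Matrix.mulVec, dotProduct, Matrix.mulVec, dotProduct, ← Finset.sum_sub_distrib]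
  refine Ideal.sum_mem _ fun a _ => ?_
  rw [← sub_mul]
  refine Ideal.mul_mem_right _ _ ?_
  rw [← neg_sub]
  exact neg_mem (hj (Ideal.pow_le_pow_right (Nat.le_add_left j k)
    (D'.galMat_spec hp hpO σ (k + j) l a)))

end Coord

/-- every point of order a power of `p` given by the vector is killed by both pushforwards -/
def KilledVec (x : D.Idx → O) : Prop :=
  ∀ (k : ℕ) (ψ : O →+ ZMod (p ^ k)) (v : D.Lam),
    (∀ l, (((Module.Free.chooseBasis ℤ D.Lam).repr v l : ℤ) : ZMod (p ^ k)) = ψ (x l)) →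
      SS.KilledByPush M p (D.tors (p ^ k) v)

include hp in
theorem KilledVec.add {x y : D.Idx → O} (hx : KilledVec D x) (hy : KilledVec D y) :
    KilledVec D (x + y) := by
  intro k ψ v hv
  haveI : NeZero (p ^ k) := ⟨pow_ne_zero k hp.ne_zero⟩
  obtain ⟨u, hu⟩ := exists_vec_coord D fun l => ψ (x l)
  obtain ⟨w, hw⟩ := exists_vec_coord D fun l => ψ (y l)
  rw [SS2.tors_eq_of_coord D (pow_pos hp.pos k) (w := u + w) fun l => by
    rw [hv, Pi.add_apply, map_add ψ, map_add (Module.Free.chooseBasis ℤ D.Lam).repr,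
      Finsupp.add_apply, Int.cast_add, hu, hw], map_add]
  obtain ⟨h1, h2⟩ := LL.pushJ_of_killed (hx k ψ u hu)
  obtain ⟨h3, h4⟩ := LL.pushJ_of_killed (hy k ψ w hw)
  refine SS.killedByPush_of_pushJ M p ?_ ?_
  · rw [map_add, h1, h3, add_zero]
  · rw [map_add, h2, h4, add_zero]

include hp in
theorem KilledVec.zero : KilledVec D (0 : D.Idx → O) := by
  intro k ψ v hv
  rw [SS2.tors_eq_of_coord D (pow_pos hp.pos k) (w := 0) fun l => by
    rw [hv, Pi.zero_apply, map_zero ψ, map_zero (Module.Free.chooseBasis ℤ D.Lam).repr,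
      Finsupp.zero_apply, Int.cast_zero], map_zero]
  exact SS.killedByPush_of_pushJ M p (map_zero _) (map_zero _)

theorem KilledVec.smul (a : O) {x : D.Idx → O} (hx : KilledVec D x) : KilledVec D (a • x) :=
  fun k ψ v hv => hx k (ψ.comp (AddMonoidHom.mulLeft a)) v fun l => by rw [hv]; rfl

include hp hpO in
theorem KilledVec.galois (σ : GalQ) {x : D.Idx → O} (hx : KilledVec D x) :
    KilledVec D (D.galMat hp hpO σ *ᵥ x) := by
  intro k ψ v hv
  haveI : NeZero (p ^ k) := ⟨pow_ne_zero k hp.ne_zero⟩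
  obtain ⟨j, hj⟩ := SS2.exists_pow_le (O := O) (pow_ne_zero k (Nat.cast_ne_zero.2 hp.ne_zero :
    (p : O) ≠ 0))
  obtain ⟨u, hu⟩ := exists_vec_coord D fun l => ψ (x l)
  rw [SS2.tors_eq_of_coord D (pow_pos hp.pos k) (w := D.liftP hp (k + j) σ u) fun l => by
    rw [hv, coord_liftP hp hpO D ψ hj σ u x hu], SS2.tors_liftP_le D hp k j σ]
  exact killed_smul (hx k ψ u hu) σ

include hp in
/-- vectors with vanishing sums are killed -/
theorem killedVec_of_sumsZero (LD : JTors.LatticeData (M * p))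
    (x : (LL.latticeOf LD).Idx → O) (hx : LL.SumsZero M p (LL.lamCast O (M * p) (LL.vecOf LD x))) :
    KilledVec (LL.latticeOf LD) x := by
  obtain ⟨T, hT, hkill⟩ := LL.exists_projector hp LD x hx
  intro k ψ v hv
  rw [SS2.tors_eq_of_coord (LL.latticeOf LD) (pow_pos hp.pos k) (w := T v) fun l => by
    rw [hv, SS2.coord_apply, funext hv, SS2.mulVec_char (LL.latticeOf LD) ψ, hT]]
  exact hkill _ (pow_pos hp.pos k) v

include hp hpO in
/-- on killed vectors an inertia element with the quadratic relation acts by its cyclotomic value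
after `φ² - 1` -/
theorem galMat_eq_cycR_smul (hp2 : p ≠ 2) (hpM : ¬ p ∣ M)
    {A : ValuationSubring (AlgebraicClosure ℚ)} (hA : A.LiesOverPrime p) {φ : GalQ}
    (hφ : A.IsFrobeniusAt φ p) {σ : GalQ} (hσ : σ ∈ A.inertiaSubgroupIn ℚ) (ha : cyc p σ ≠ 1)
    (x : D.Idx → O) (hx : KilledVec D x) (u : D.Idx → O)
    (hu : u = D.galMat hp hpO (φ * φ) *ᵥ x - x)
    (hquad : D.galMat hp hpO σ *ᵥ (D.galMat hp hpO σ *ᵥ u) + Attach.cycR hp hpO σ • u =
      D.galMat hp hpO σ *ᵥ u + Attach.cycR hp hpO σ • (D.galMat hp hpO σ *ᵥ u)) :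
    D.galMat hp hpO σ *ᵥ u = Attach.cycR hp hpO σ • u := by
  classical
  set c := Attach.cycR hp hpO σ with hc
  funext i
  rw [Pi.smul_apply, smul_eq_mul, ← sub_eq_zero]
  set z := (D.galMat hp hpO σ *ᵥ u) i - c * u i with hz
  refine Attach.eq_zero_of_forall_mem_pow fun m => ?_
  set I := Ideal.span {(p : O) ^ (m + 1)} with hI
  suffices z ∈ I by
    have hle : I ≤ maximalIdeal O ^ m := by
      rw [hI, Ideal.span_singleton_le_iff_mem]
      exact Ideal.pow_le_pow_right m.le_succ (Ideal.pow_mem_pow hpO _)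
    exact hle this
  by_contra hcon
  have hn : 0 < p ^ (m + 1) := pow_pos hp.pos _
  haveI : NeZero (p ^ (m + 1)) := ⟨hn.ne'⟩
  obtain ⟨ψ₀, hψ₀⟩ := SS2.exists_zmod_char (A := O ⧸ I) hn (fun a => by
    obtain ⟨a, rfl⟩ := Ideal.Quotient.mk_surjective a
    rw [← map_nsmul, Ideal.Quotient.eq_zero_iff_mem, nsmul_eq_mul, Nat.cast_pow]
    exact Ideal.mul_mem_right _ _ (Ideal.mem_span_singleton_self _))
    (a := Ideal.Quotient.mk I z) (by rwa [Ne, Ideal.Quotient.eq_zero_iff_mem])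
  let ψ : O →+ ZMod (p ^ (m + 1)) := ψ₀.comp (Ideal.Quotient.mk I).toAddMonoidHom
  obtain ⟨j, hj⟩ := SS2.exists_pow_le (O := O) (pow_ne_zero (m + 1)
    (Nat.cast_ne_zero.2 hp.ne_zero : (p : O) ≠ 0))
  set a := (cyc (p ^ (m + 1)) σ).val with ha_def
  -- the cyclotomic value modulo `p ^ (m + 1)`
  have hca : c - (a : O) ∈ I := by
    obtain ⟨i', hi'⟩ : ∃ i', i' = max (m + 1) j := ⟨_, rfl⟩
    haveI : NeZero (p ^ i') := ⟨pow_ne_zero _ hp.ne_zero⟩
    have h1 : maximalIdeal O ^ i' ≤ I := (Ideal.pow_le_pow_right (hi'.symm ▸ le_max_right _ _)).trans hj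
    have h2 := h1 (Attach.cycR_spec hp hpO σ i')
    have h3 : ((p ^ (m + 1) : ℕ) : ℤ) ∣ ((cyc (p ^ i') σ).val : ℤ) - (a : ℤ) := by
      rw [← ZMod.intCast_zmod_eq_zero_iff_dvd, Int.cast_sub, Int.cast_natCast, Int.cast_natCast,
        sub_eq_zero, ha_def, ZMod.natCast_zmod_val,
        ← Attach.cyc_cast (Nat.pow_dvd_pow p (show m + 1 ≤ i' from hi'.symm ▸ le_max_left _ _)) σ,
        ZMod.castHom_apply,
        ZMod.cast_eq_val]
    obtain ⟨d, hd⟩ := h3
    have h4 : ((cyc (p ^ i') σ).val : O) - (a : O) ∈ I := by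
      refine Ideal.mem_span_singleton'.mpr ⟨(d : O), ?_⟩
      have := congrArg (fun t : ℤ => (t : O)) hd
      push_cast at this
      rw [this, mul_comm]
    have := add_mem h2 h4
    rwa [sub_add_sub_cancel] at this
  have hψc : ∀ t : O, ψ (c * t) = a • ψ t := fun t => by
    rw [← map_nsmul, nsmul_eq_mul]
    exact char_eq_of_sub_mem ψ (by rw [← sub_mul]; exact Ideal.mul_mem_right _ _ hca)
  let b := Module.Free.chooseBasis ℤ D.Lam
  obtain ⟨v, hv⟩ := exists_vec_coord D fun l => ψ (x l)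
  set y := D.tors (p ^ (m + 1)) v with hy_def
  have hky : SS.KilledByPush M p y := hx (m + 1) ψ v hv
  have hny : (p ^ (m + 1)) • y = 0 := D.nsmul_tors hn v
  set w := D.liftP hp (m + 1 + j) (φ * φ) v - v with hw_def
  have hwu : ∀ l, ((b.repr w l : ℤ) : ZMod (p ^ (m + 1))) = ψ (u l) := fun l => by
    rw [hw_def, map_sub b.repr, Finsupp.sub_apply, Int.cast_sub,
      coord_liftP hp hpO D ψ hj _ v x hv, hv, ← map_sub ψ, hu]
    rfl
  have htw : D.tors (p ^ (m + 1)) w = (φ * φ) • y - y := by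
    rw [hw_def, map_sub, SS2.tors_liftP_le D hp (m + 1) j]
  let C : Reduction.Ctx A M p := ⟨hp, hpM, hA⟩
  have hwR : D.tors (p ^ (m + 1)) w ∈ TOR.kerR (SS.fibreData C).toCore (p ^ (m + 1)) := by
    rw [htw]; exact frob_sq_sub_mem_kerR C hφ hn.ne' hny hky
  have hwk : SS.KilledByPush M p (D.tors (p ^ (m + 1)) w) := by
    rw [htw]; exact LL.killed_smul_sub _ hky
  -- the coordinates of the translates
  set w1 := D.liftP hp (m + 1 + j) σ w with hw1
  have hw1c : ∀ l, ((b.repr w1 l : ℤ) : ZMod (p ^ (m + 1))) = ψ ((D.galMat hp hpO σ *ᵥ u) l) := fun l =>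
    coord_liftP hp hpO D ψ hj σ w u hwu l
  have htw1 : D.tors (p ^ (m + 1)) w1 = σ • D.tors (p ^ (m + 1)) w := SS2.tors_liftP_le D hp (m + 1) j σ w
  set w2 := D.liftP hp (m + 1 + j) σ w1 with hw2
  have hw2c : ∀ l, ((b.repr w2 l : ℤ) : ZMod (p ^ (m + 1))) =
      ψ ((D.galMat hp hpO σ *ᵥ (D.galMat hp hpO σ *ᵥ u)) l) := fun l =>
    coord_liftP hp hpO D ψ hj σ w1 _ hw1c l
  have htw2 : D.tors (p ^ (m + 1)) w2 = σ • σ • D.tors (p ^ (m + 1)) w := by
    rw [hw2, SS2.tors_liftP_le D hp (m + 1) j σ, htw1]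
  have hquad' : σ • σ • D.tors (p ^ (m + 1)) w + a • D.tors (p ^ (m + 1)) w = σ • D.tors (p ^ (m + 1)) w + a • σ • D.tors (p ^ (m + 1)) w := by
    rw [← htw2, ← htw1, ← map_nsmul, ← map_add, ← map_nsmul, ← map_add]
    refine SS2.tors_eq_of_coord D hn fun l => ?_
    rw [map_add, map_add, map_nsmul, map_nsmul, Finsupp.add_apply, Finsupp.add_apply,
      Finsupp.smul_apply, Finsupp.smul_apply, Int.cast_add, Int.cast_add]
    simp only [nsmul_eq_mul, Int.cast_mul, Int.cast_natCast]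
    rw [hwu, hw2c, hw1c, ← nsmul_eq_mul, ← nsmul_eq_mul, ← hψc, ← hψc, ← map_add, ← map_add]
    exact congrArg ψ (congrFun hquad l)
  have h := smul_eq_nsmul_of_quadratic hp hp2 C hσ m ha hwR (D.nsmul_tors hn w) hwk hquad'
  rw [← htw1, ← ha_def, ← map_nsmul] at h
  have h' : D.tors (p ^ (m + 1)) (w1 - a • w) = 0 := by rw [map_sub, h, sub_self]
  have h1 := SS2.coord_of_tors_eq_zero D hn h' i
  rw [map_sub, map_nsmul, Finsupp.sub_apply, Finsupp.smul_apply, Int.cast_sub,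
    nsmul_eq_mul, Int.cast_mul, Int.cast_natCast, hwu, hw1c, ← nsmul_eq_mul, ← hψc,
    ← map_sub] at h1
  exact hψ₀ h1

end FLTAgent.MLT

end
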