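import Fermat.Agent.MLT.PointAP
import Fermat.Agent.MLT.RepStrictVec

/-!
Area MLT, parcel APW: `T_p` on the vectors of the lattice which, modulo the maximal ideal, inertia
fixes and on which Frobenius is `±1` up to what inertia moves by the cyclotomic character.
-/

set_option autoImplicit false
set_option linter.unusedSectionVars false
set_option linter.style.haveILetI false

noncomputable section

open scoped TensorProduct Matrix
open Matrix IsLocalRing ModularCurve AlgebraicCurve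

namespace FLTAgent.MLT

open FLTAgent.Attach (HeckeLattice GalQ cyc)

variable {O : Type} [CommRing O] [IsDomain O] [IsDiscreteValuationRing O]
  [IsAdicComplete (maximalIdeal O) O] [CharZero O] {N p : ℕ} [NeZero N] [NeZero p]
  (hp : p.Prime) (hpO : (p : O) ∈ maximalIdeal O) (D : HeckeLattice N)

include hp hpO in
/-- `T_p x ≡ w x` modulo the maximal ideal -/
theorem mat_T_eq_smul_of_fixed (hp2 : p ≠ 2) (hpN : ¬ p ∣ N)
    {A : ValuationSubring (AlgebraicClosure ℚ)} (hA : A.LiesOverPrime p) {φ : GalQ}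
    (hφ : A.IsFrobeniusAt φ p) {τ : GalQ} (hτ : τ ∈ A.inertiaSubgroupIn ℚ) (ha : cyc p τ ≠ 1)
    (w : ℤ) (x : D.Idx → O)
    (hfix : ∀ i, (D.galMat hp hpO τ *ᵥ x) i - x i ∈ maximalIdeal O)
    (hquad : ∀ σ ∈ A.inertiaSubgroupIn ℚ, ∀ i,
      (D.galMat hp hpO σ *ᵥ (D.galMat hp hpO σ *ᵥ x)) i + Attach.cycR hp hpO σ * x i -
        ((D.galMat hp hpO σ *ᵥ x) i + Attach.cycR hp hpO σ * (D.galMat hp hpO σ *ᵥ x) i)
          ∈ maximalIdeal O)
    (u : D.Idx → O) (hu : u = D.galMat hp hpO φ *ᵥ x - (w : O) • x)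
    (hτu : ∀ i, (D.galMat hp hpO τ *ᵥ u) i - Attach.cycR hp hpO τ * u i ∈ maximalIdeal O)
    (i : D.Idx) :
    ((D.mat (D.T ⟨p, hp⟩) : Matrix D.Idx D.Idx O) *ᵥ x) i - (w : O) * x i ∈ maximalIdeal O := by
  classical
  haveI := Fact.mk hp
  haveI : NeZero (p ^ 1) := ⟨pow_ne_zero _ hp.ne_zero⟩
  by_contra hcon
  obtain ⟨ψ₀, hψ₀⟩ := SS2.exists_zmod_char (A := ResidueField O) (pow_pos hp.pos 1) (fun a => by
    obtain ⟨a, rfl⟩ := residue_surjective (R := O) a
    rw [← map_nsmul, residue_eq_zero_iff, nsmul_eq_mul, pow_one]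
    exact Ideal.mul_mem_right _ _ hpO) (a := residue O
      (((D.mat (D.T ⟨p, hp⟩) : Matrix D.Idx D.Idx O) *ᵥ x) i - (w : O) * x i))
    (by rwa [Ne, residue_eq_zero_iff])
  let ψ : O →+ ZMod (p ^ 1) := ψ₀.comp (residue O).toAddMonoidHom
  have hψ : ∀ a b : O, a - b ∈ maximalIdeal O → ψ a = ψ b := fun a b hab =>
    congrArg ψ₀ (show residue O a = residue O b by
      rwa [← sub_eq_zero, ← map_sub, residue_eq_zero_iff])
  obtain ⟨j, hj⟩ := SS2.exists_pow_le (O := O) (pow_ne_zero 1 (Nat.cast_ne_zero.2 hp.ne_zero :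
    (p : O) ≠ 0))
  have hψc : ∀ (σ : GalQ) (t : O), ψ (Attach.cycR hp hpO σ * t) = (cyc (p ^ 1) σ).val • ψ t := by
    intro σ t
    rw [← map_nsmul, nsmul_eq_mul]
    refine hψ _ _ ?_
    rw [← sub_mul]
    refine Ideal.mul_mem_right _ _ ?_
    have := Attach.cycR_spec hp hpO σ 1
    rwa [pow_one] at this
  let b := Module.Free.chooseBasis ℤ D.Lam
  obtain ⟨v, hv⟩ := exists_vec_coord D fun l => ψ (x l)
  set y := D.tors (p ^ 1) v with hy_def
  have hny : p ^ 1 • y = 0 := D.nsmul_tors (pow_pos hp.pos 1) v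
  have hgal : ∀ (σ : GalQ) (v' : D.Lam) (x' : D.Idx → O),
      (∀ l, ((b.repr v' l : ℤ) : ZMod (p ^ 1)) = ψ (x' l)) →
      ∃ v'' : D.Lam, D.tors (p ^ 1) v'' = σ • D.tors (p ^ 1) v' ∧
        ∀ l, ((b.repr v'' l : ℤ) : ZMod (p ^ 1)) = ψ ((D.galMat hp hpO σ *ᵥ x') l) :=
    fun σ v' x' h => ⟨_, SS2.tors_liftP_le D hp 1 j σ v', coord_liftP hp hpO D ψ hj σ v' x' h⟩
  obtain ⟨v1, hv1, hv1c⟩ := hgal τ v x hv
  have hτy : τ • y = y := by
    rw [← hv1, hy_def]
    exact SS2.tors_eq_of_coord D (pow_pos hp.pos 1) fun l => by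
      rw [hv, hv1c]; exact hψ _ _ (hfix l)
  obtain ⟨vf, hvf, hvfc⟩ := hgal φ v x hv
  set vu := vf - (w : ℤ) • v with hvu
  have hvuc : ∀ l, ((b.repr vu l : ℤ) : ZMod (p ^ 1)) = ψ (u l) := fun l => by
    rw [hvu, map_sub b.repr, map_zsmul b.repr, Finsupp.sub_apply, Finsupp.smul_apply, Int.cast_sub,
      hvfc, smul_eq_mul, Int.cast_mul, hv, ← zsmul_eq_mul, ← map_zsmul, ← map_sub ψ, hu,
      zsmul_eq_mul]
    rfl
  have htu : D.tors (p ^ 1) vu = φ • y - w • y := by rw [hvu, map_sub, map_zsmul, hvf]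
  obtain ⟨vu1, hvu1, hvu1c⟩ := hgal τ vu u hvuc
  set a := (cyc (p ^ 1) τ).val with ha_def
  have hτu' : τ • (φ • y - w • y) = a • (φ • y - w • y) := by
    rw [← htu, ← hvu1, ← map_nsmul]
    refine SS2.tors_eq_of_coord D (pow_pos hp.pos 1) fun l => ?_
    rw [hvu1c, map_nsmul b.repr, Finsupp.smul_apply, nsmul_eq_mul, Int.cast_mul, Int.cast_natCast,
      hvuc, ← nsmul_eq_mul, ← hψc]
    exact hψ _ _ (hτu l)
  have hcast : ∀ σ : GalQ, ((cyc (p ^ 1) σ).val : ZMod p) = cyc p σ := fun σ => by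
    rw [← Attach.cyc_cast (dvd_pow_self p one_ne_zero) σ,
      ← map_natCast (ZMod.castHom (dvd_pow_self p one_ne_zero) (ZMod p))]
    exact congrArg _ (ZMod.natCast_zmod_val _)
  let C : Reduction.Ctx A N p := ⟨hp, hpN, hA⟩
  have hpy : p • y = 0 := by rwa [pow_one] at hny
  have hred : reductionModL A N (φ • y - w • y) = 0 := by
    refine red_eq_zero_of_nsmul hp C hτ (a := a) (by rw [ha_def, hcast]; exact ha) ?_ hτu'
    rw [← htu]
    have := D.nsmul_tors (pow_pos hp.pos 1) vu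
    rwa [pow_one] at this ⊢
  have hnil : ∀ σ ∈ A.inertiaSubgroupIn ℚ, ∃ j' : ℕ,
      (TOR.quadEnd (G := GalQ) (JZero N) ((cyc p σ).val : ℤ) σ ^ j') y = 0 := by
    intro σ hσ
    refine ⟨1, ?_⟩
    obtain ⟨s1, hs1, hs1c⟩ := hgal σ v x hv
    obtain ⟨s2, hs2, hs2c⟩ := hgal σ s1 _ hs1c
    have hmod : ∀ z : JZero N, p • z = 0 → (cyc p σ).val • z = (cyc (p ^ 1) σ).val • z := by
      intro z hz
      rw [← hcast σ, ZMod.val_natCast, FlatDatum.nsmul_mod_of_eq_zero hz]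
    have hpσ : p • σ • y = 0 := by
      rw [← hs1]
      have := D.nsmul_tors (pow_pos hp.pos 1) s1
      rwa [pow_one] at this ⊢
    rw [pow_one, TOR.quadEnd_apply, natCast_zsmul, hmod y hpy, sub_eq_zero, smul_sub,
      show σ • ((cyc (p ^ 1) σ).val • y) = (cyc (p ^ 1) σ).val • σ • y from
        map_nsmul (DistribSMul.toAddMonoidHom (JZero N) σ) _ y, sub_eq_sub_iff_add_eq_add,
      ← hs1, ← hs2, hy_def, ← map_nsmul, ← map_add, ← map_nsmul, ← map_add]
    refine SS2.tors_eq_of_coord D (pow_pos hp.pos 1) fun l => ?_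
    rw [map_add, map_add, map_nsmul, map_nsmul, Finsupp.add_apply, Finsupp.add_apply,
      Finsupp.smul_apply, Finsupp.smul_apply, Int.cast_add, Int.cast_add]
    simp only [nsmul_eq_mul, Int.cast_mul, Int.cast_natCast]
    rw [hv, hs2c, hs1c, ← nsmul_eq_mul, ← nsmul_eq_mul, ← hψc, ← hψc, ← map_add, ← map_add]
    exact hψ _ _ (hquad σ hσ l)
  have h := hecke_eq_of_fixed hp hp2 hpN C hφ hτ ha hpy hτy hnil w
    (show φ • y = w • y + (φ • y - w • y) by abel) hred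
  have hTv : D.tors (p ^ 1) (D.T ⟨p, hp⟩ v - w • v) = 0 := by
    rw [map_sub, map_zsmul, D.tors_T _ (pow_pos hp.pos 1), ← hy_def, h, sub_self]
  have h1 := SS2.coord_of_tors_eq_zero D (pow_pos hp.pos 1) hTv i
  rw [map_sub, map_zsmul, Finsupp.sub_apply, Finsupp.smul_apply, Int.cast_sub, smul_eq_mul,
    Int.cast_mul, SS2.coord_apply, funext hv, SS2.mulVec_char D ψ, congrFun (funext hv) i,
    ← zsmul_eq_mul, ← map_zsmul, ← map_sub ψ, zsmul_eq_mul] at h1
  exact hψ₀ h1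

end FLTAgent.MLT

end
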