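import Fermat.Agent.MLT.PointFlatAdd
import Fermat.Agent.Local.API
import Fermat.Agent.Flat.API
import Fermat.Agent.FlatDatum.Main

/-!
Area MLT, parcel POINT (FLATW): finite Galois modules inside the points of a curve with good
reduction at `p` have finite flat models over `ℤ_(p)`.

The coordinates are normalised by a linear form whose coefficients are fixed by inertia and which
vanishes at no reduced point; the sum is given by one formula (`PointFlat.exists_translation`), and a
function with unit values in an algebra of integral functions on a finite set is invertible there.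
-/

set_option autoImplicit false
set_option linter.style.haveILetI false
set_option linter.unusedSectionVars false

noncomputable section

namespace FLTAgent.MLT

open WeierstrassCurve IsLocalRing FLTAgent.Local FLTAgent.Flat PointFlat
open FLTAgent.Flat (Qb GalQ)
open scoped WeierstrassCurve.Affine WeierstrassCurve.Projective

local instance decEqResFlat (B : ValuationSubring Qb) : DecidableEq (ResidueField B) :=
  Classical.decEq _

/-- the linear form `X + zY + z²Z` -/
def linForm {S : Type*} [CommRing S] (z : S) (v : Fin 3 → S) : S := v 0 + z * v 1 + z ^ 2 * v 2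

theorem map_linForm {S T : Type*} [CommRing S] [CommRing T] (f : S →+* T) (z : S) (v : Fin 3 → S) :
    f (linForm z v) = linForm (f z) (f ∘ v) := by
  simp [linForm]

theorem linForm_smul {S : Type*} [CommRing S] (z u : S) (v : Fin 3 → S) :
    linForm z (u • v) = u * linForm z v := by
  simp [linForm]; ring

/-- functions with unit values are invertible in an algebra of integral functions -/
theorem exists_inv_mem {K : Type*} [Field K] {A : ValuationSubring K} {X : Type} [Finite X]
    (B : Subalgebra A (X → K)) {b : X → K} (hb : b ∈ B) (u : X → A) (hu : ∀ x, IsUnit (u x))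
    (hbu : ∀ x, b x = u x) : ∃ b' ∈ B, ∀ x, b' x * b x = 1 := by
  classical
  letI := Fintype.ofFinite X
  let P : Polynomial A := ∏ x, (Polynomial.X - Polynomial.C (u x))
  have h0 : IsUnit (P.coeff 0) := by
    rw [Polynomial.coeff_zero_eq_eval_zero, Polynomial.eval_prod]
    refine IsUnit.prod_iff.2 fun x _ => ?_
    simpa using (hu x).neg
  have hP : Polynomial.aeval b P = 0 := by
    funext x
    have e : Polynomial.aeval (b x) P = Polynomial.aeval b P x :=
      Polynomial.aeval_algHom_apply (Pi.evalAlgHom A (fun _ : X => K) x) b P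
    rw [Pi.zero_apply, ← e, map_prod]
    refine Finset.prod_eq_zero (Finset.mem_univ x) ?_
    rw [map_sub, Polynomial.aeval_X, Polynomial.aeval_C, hbu, sub_eq_zero]
    rfl
  refine ⟨-(((↑h0.unit⁻¹ : A)) • Polynomial.aeval b P.divX), ?_, fun x => ?_⟩
  · have hmem : Polynomial.aeval b P.divX ∈ B := by
      have e : Polynomial.aeval b P.divX =
          ((Polynomial.aeval (⟨b, hb⟩ : B) P.divX : B) : X → K) :=
        Polynomial.aeval_algHom_apply B.val (⟨b, hb⟩ : B) P.divX
      rw [e]
      exact SetLike.coe_mem _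
    exact neg_mem (Subalgebra.smul_mem _ hmem _)
  · have h1 := congrFun hP x
    conv_lhs at h1 => rw [← P.X_mul_divX_add, map_add, map_mul, Polynomial.aeval_X, Polynomial.aeval_C]
    simp only [Pi.add_apply, Pi.mul_apply, Pi.zero_apply] at h1
    have h2 : ((↑h0.unit⁻¹ : A) : K) * (P.coeff 0 : K) = 1 := congrArg A.subtype h0.val_inv_mul
    change -(((↑h0.unit⁻¹ : A) : K) * Polynomial.aeval b P.divX x) * b x = 1
    have h3 : algebraMap A (X → K) (P.coeff 0) x = (P.coeff 0 : K) := rfl
    rw [h3] at h1
    linear_combination h2 - ((↑h0.unit⁻¹ : A) : K) * h1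

theorem toAffine_image {K : Type*} [Field K] {Wc : WeierstrassCurve K} (σ : K →+* K)
    {P P' : Wc.toAffine.Point} (hI : IsImage σ P P') {v : Fin 3 → K}
    (hv : Wc.toProjective.Nonsingular v) (hP : Projective.Point.toAffine Wc v = P)
    (hv' : Wc.toProjective.Nonsingular (σ ∘ v)) :
    Projective.Point.toAffine Wc (σ ∘ v) = P' := by
  by_cases hz : v 2 = 0
  · rw [Projective.Point.toAffine_of_Z_eq_zero hz] at hP
    rw [Projective.Point.toAffine_of_Z_eq_zero (by simp [hz])]
    subst hP
    rcases P' with _ | ⟨x', y', h'⟩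
    · rfl
    · exact hI.elim
  · rw [Projective.Point.toAffine_of_Z_ne_zero hv hz] at hP
    rw [Projective.Point.toAffine_of_Z_ne_zero hv' (by simpa using hz)]
    subst hP
    rcases P' with _ | ⟨x', y', h'⟩
    · exact hI.elim
    · obtain ⟨rfl, rfl⟩ := hI
      simp

variable {W : WeierstrassCurve ℤ} {p : ℕ}

/-- finite Galois modules of points have local models at places of good reduction -/
theorem exists_rawModel_curve (hp : p.Prime) (hp2 : p ≠ 2) (hgood : ¬ (p : ℤ) ∣ W.Δ)
    {A : ValuationSubring Qb} (hA : A.LiesOverPrime p) (G : Type) [AddCommGroup G] [Finite G]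
    [DistribMulAction GalQ G] (φ : G →+ QPoint W) (hinj : Function.Injective φ)
    (hφ : ∀ (σ : GalQ) (c : G), φ (σ • c) = σ • φ c) : Nonempty (RawModel G A) := by
  classical
  set W0 := locModel A W
  have hΔ : IsUnit W0.Δ := by
    rw [ValuationSubring.valuation_eq_one_iff, val_locModel_Δ]
    exact val_int_eq_one hA hp hgood
  haveI := Reduction.charP_residue A hp hA
  haveI : Infinite (ResidueField A) :=
    IsAlgClosed.instInfinite (K := Reduction.kA A)
  have h2 : (2 : ResidueField A) ≠ 0 := by
    intro h
    have h' : ((2 : ℕ) : ResidueField A) = 0 := by exact_mod_cast h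
    exact hp2 ((Nat.prime_dvd_prime_iff_eq hp Nat.prime_two).1 ((CharP.cast_eq_zero_iff _ p 2).1 h'))
  set ψ : G →+ (genFib W0).toAffine.Point := (toLoc A W).comp φ
  have hψ : Function.Injective ψ := (toLoc_injective A W).comp hinj
  choose R₀ hR₀ using fun c => exists_intRep hΔ (ψ c)
  -- the linear form
  let g : G → Polynomial (ResidueField A) := fun c =>
    Polynomial.C (residue A (R₀ c 0)) + Polynomial.C (residue A (R₀ c 1)) * Polynomial.X +
      Polynomial.C (residue A (R₀ c 2)) * Polynomial.X ^ 2
  have hg : ∀ c, g c ≠ 0 := by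
    intro c e
    refine res_ne_zero_of_ns (hR₀ c).nsRes (funext fun i => ?_)
    have h := congrArg (fun q : Polynomial (ResidueField A) => q.coeff i) e
    fin_cases i <;> simpa [g] using h
  obtain ⟨s, hs⟩ :=
    (Set.finite_iUnion fun c => (g c).roots.toFinset.finite_toSet).exists_notMem
  obtain ⟨z, rfl, hzfix⟩ := exists_fixed_residue hp hA s
  simp only [Set.mem_iUnion, Finset.mem_coe, Multiset.mem_toFinset, not_exists] at hs
  have hL : ∀ c, IsUnit (linForm z (R₀ c)) := fun c => by
    rw [← IsLocalRing.residue_ne_zero_iff_isUnit, map_linForm]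
    intro h
    exact hs c ((Polynomial.mem_roots (hg c)).2 (by
      simp only [g, linForm, Function.comp_apply, Polynomial.IsRoot, Polynomial.eval_add,
        Polynomial.eval_mul, Polynomial.eval_C, Polynomial.eval_X, Polynomial.eval_pow] at h ⊢
      linear_combination h))
  let R : G → Fin 3 → A := fun c => (↑(hL c).unit⁻¹ : A) • R₀ c
  have hR : ∀ c, IntRep (ψ c) (R c) := fun c => by
    have hu : IsUnit (↑(hL c).unit⁻¹ : A) := Units.isUnit _
    refine ⟨?_, ?_, ?_⟩
    · rw [show A.subtype ∘ R c = A.subtype (↑(hL c).unit⁻¹ : A) • A.subtype ∘ R₀ c from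
        funext fun i => map_mul A.subtype _ _]
      exact (Projective.nonsingular_smul _ (hu.map _)).2 (hR₀ c).ns
    · rw [show A.subtype ∘ R c = A.subtype (↑(hL c).unit⁻¹ : A) • A.subtype ∘ R₀ c from
        funext fun i => map_mul A.subtype _ _, Projective.Point.toAffine_smul _ (hu.map _)]
      exact (hR₀ c).pt
    · rw [show residue A ∘ R c = residue A (↑(hL c).unit⁻¹ : A) • residue A ∘ R₀ c from
        funext fun i => map_mul (residue A) _ _]
      exact (Projective.nonsingular_smul _ (hu.map _)).2 (hR₀ c).nsRes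
  have hR1 : ∀ c, linForm z (R c) = 1 := fun c => by
    rw [linForm_smul, (hL c).val_inv_mul]
  let f : Fin 3 → G → Qb := fun i c => (R c i : Qb)
  refine ⟨{ gens := Set.range f, finite := Set.finite_range f, val_mem := ?_, inertia := ?_,
            separates := ?_, comul := ?_ }⟩
  · rintro _ ⟨i, rfl⟩ c
    exact (R c i).2
  · rintro σ hσ _ ⟨i, rfl⟩
    funext c
    rw [conjF_apply]
    have hI : IsImage (σ : Qb →+* Qb) (ψ (σ⁻¹ • c)) (ψ c) := by
      have h := isImage_toLoc A W σ (φ (σ⁻¹ • c))
      rw [← hφ, smul_inv_smul] at h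
      exact h
    have hW : (genFib W0).map (σ : Qb →+* Qb) = genFib W0 := by
      ext <;> simp [W0, genFib, locModel]
    set v := A.subtype ∘ R (σ⁻¹ • c)
    have hv : (genFib W0).toProjective.Nonsingular ((σ : Qb →+* Qb) ∘ v) := by
      have h := (Projective.map_nonsingular (W' := (genFib W0).toProjective)
        (f := (σ : Qb →+* Qb)) (RingHom.injective _) v).2 (hR _).ns
      change ((genFib W0).map (σ : Qb →+* Qb)).toProjective.Nonsingular _ at h
      rwa [hW] at h
    obtain ⟨u, hu⟩ := equiv_of_toAffine_eq _ hv (hR c).ns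
      ((toAffine_image _ hI (hR _).ns (hR _).pt hv).trans (hR c).pt.symm)
    have h1 : linForm (z : Qb) ((σ : Qb →+* Qb) ∘ v) = 1 := by
      have h := congrArg (fun a : A => σ (A.subtype a)) (hR1 (σ⁻¹ • c))
      simp only [map_linForm, map_one] at h
      rw [← h, show σ (linForm (A.subtype z) v) = (σ : Qb →+* Qb) (linForm (A.subtype z) v) from rfl,
        map_linForm]
      congr 1
      exact (hzfix σ hσ).symm
    have h2 : linForm (z : Qb) (A.subtype ∘ R c) = 1 := by
      have h := congrArg A.subtype (hR1 c)
      rw [map_linForm, map_one] at h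
      exact h
    rw [← hu, Units.smul_def, linForm_smul, h2, mul_one] at h1
    have h3 := congrFun hu i
    rw [Units.smul_def, Pi.smul_apply, h1, one_smul] at h3
    exact h3.symm
  · intro c d h
    refine hψ ((hR c).pt.symm.trans (Eq.trans ?_ (hR d).pt))
    congr 1
    exact funext fun i => h (f i) ⟨i, rfl⟩
  · rintro _ ⟨i, rfl⟩
    obtain ⟨T, T', hT⟩ := exists_translation hΔ h2 (fun c => ψ c) R hR
    refine adjoin_le_span_tensor _ ?_
    set S := (fun f (x : G × G) => f x.1) '' Set.range f ∪ (fun f (x : G × G) => f x.2) '' Set.range f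
    set B := Algebra.adjoin A S
    let e₁ : Fin 3 → B := fun l =>
      ⟨fun x => f l x.1, Algebra.subset_adjoin (Or.inl ⟨f l, ⟨l, rfl⟩, rfl⟩)⟩
    let e₂ : Fin 3 → B := fun l =>
      ⟨fun x => f l x.2, Algebra.subset_adjoin (Or.inr ⟨f l, ⟨l, rfl⟩, rfl⟩)⟩
    let ι := algebraMap A B
    let WB := (W0.map ι).toProjective
    let Sg : Fin 3 → B := WB.addXYZ (WB.addXYZ e₁ (ι ∘ T)) (WB.addXYZ e₂ (ι ∘ T'))
    let Sv : G × G → Fin 3 → A := fun x =>
      W0.toProjective.addXYZ (W0.toProjective.addXYZ (R x.1) T)
        (W0.toProjective.addXYZ (R x.2) T')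
    have hev : ∀ x l, (Sg l : G × G → Qb) x = (Sv x l : Qb) := by
      intro x l
      let ev : B →+* Qb := (Pi.evalRingHom (fun _ : G × G => Qb) x).comp B.subtype
      have hW : (W0.map ι).map ev = genFib W0 := by
        rw [WeierstrassCurve.map_map]
        rfl
      have key : ev ∘ Sg = A.subtype ∘ Sv x := by
        simp only [Sg, Sv, WB]
        rw [← Projective.map_addXYZ, ← Projective.map_addXYZ, ← Projective.map_addXYZ,
          ← Projective.map_addXYZ, ← Projective.map_addXYZ, ← Projective.map_addXYZ]
        change ((W0.map ι).map ev).toProjective.addXYZ _ _ = _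
        rw [hW]
        rfl
      exact congrFun key l
    have hu : ∀ x : G × G, ∃ u : A, IsUnit u ∧ Sv x = u • R (x.1 + x.2) := fun x => by
      have h := hT x.1 x.2
      rw [← map_add] at h
      exact h.exists_unit (hR _)
    choose u hu hue using hu
    obtain ⟨b', hb', hinv⟩ := exists_inv_mem B (linForm (ι z) Sg).2 u hu fun x => by
      have hev' : (fun l => (Sg l : G × G → Qb) x) = A.subtype ∘ Sv x := funext (hev x)
      calc ((linForm (ι z) Sg : B) : G × G → Qb) x = linForm (z : Qb) (fun l => (Sg l : G × G → Qb) x) := rfl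
        _ = (linForm z (Sv x) : A) := by
          rw [hev']; exact (map_linForm A.subtype z (Sv x)).symm
        _ = (u x : Qb) := by rw [hue, linForm_smul, hR1, mul_one]
    convert! B.mul_mem hb' (Sg i).2 using 1
    funext x
    have h1 : ((linForm (ι z) Sg : B) : G × G → Qb) x = u x := by
      have hev' : (fun l => (Sg l : G × G → Qb) x) = A.subtype ∘ Sv x := funext (hev x)
      calc ((linForm (ι z) Sg : B) : G × G → Qb) x = linForm (z : Qb) (fun l => (Sg l : G × G → Qb) x) := rfl
        _ = (linForm z (Sv x) : A) := by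
          rw [hev']; exact (map_linForm A.subtype z (Sv x)).symm
        _ = (u x : Qb) := by rw [hue, linForm_smul, hR1, mul_one]
    rw [Pi.mul_apply, hev, hue]
    have h3 := hinv x
    rw [h1] at h3
    change f i (x.1 + x.2) = b' x * ((u x : Qb) * (R (x.1 + x.2) i : Qb))
    rw [← mul_assoc, h3, one_mul]

/-- a finite Galois module killed by what kills the `n`-torsion of the curve is flat -/
theorem hasFlatModel_curve_of_annihilator (hp : p.Prime) (hp2 : p ≠ 2) (hgood : ¬ (p : ℤ) ∣ W.Δ)
    {X G : Type} [AddCommGroup X] [Finite X] [DistribMulAction GalQ X] [AddCommGroup G] [Fintype G]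
    [DistribMulAction GalQ G] (hX : IsContinuousModule X) (hG : IsContinuousModule G)
    (φ : X →+ QPoint W) (hinj : Function.Injective φ)
    (hφ : ∀ (σ : GalQ) (c : X), φ (σ • c) = σ • φ c)
    (hann : ∀ c : GalQ →₀ ℤ, (∀ x : X, FlatDatum.evAt x c = 0) → ∀ e : G, FlatDatum.evAt e c = 0) :
    HasFlatModel G p := by
  haveI : Fact p.Prime := ⟨hp⟩
  obtain ⟨A, -, hA, -⟩ := FLTAgent.Alg.exists_place_frobenius p hp
  obtain ⟨R⟩ := exists_rawModel_curve hp hp2 hgood hA X φ hinj hφ
  exact FlatDatum.hasFlatModel_of_subquotient hX hG hA R hann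

/-- finite Galois modules of points of a curve with good reduction at `p` are flat at `p` -/
theorem hasFlatModel_curve (hp : p.Prime) (hp2 : p ≠ 2) (hgood : ¬ (p : ℤ) ∣ W.Δ)
    (G : Type) [AddCommGroup G] [Finite G] [DistribMulAction GalQ G] (hG : IsContinuousModule G)
    (φ : G →+ QPoint W) (hinj : Function.Injective φ)
    (hφ : ∀ (σ : GalQ) (c : G), φ (σ • c) = σ • φ c) : HasFlatModel G p := by
  haveI : Fact p.Prime := ⟨hp⟩
  obtain ⟨A, -, hA, -⟩ := FLTAgent.Alg.exists_place_frobenius p hp
  obtain ⟨R⟩ := exists_rawModel_curve hp hp2 hgood hA G φ hinj hφ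
  exact hasFlatModel_of_rawModel hG hA R

end FLTAgent.MLT

end
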