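import Fermat.Agent.Local.Basic

/-!
Area MLT, parcel POINT (FLATW), algebra: on a Weierstrass curve with unit discriminant over a
valuation ring, sums of finitely many points have integral representatives given by one formula,
after translating by a point of generic reduction.
-/

set_option autoImplicit false
set_option linter.style.haveILetI false
set_option linter.unusedSectionVars false

noncomputable section

namespace FLTAgent.MLT.PointFlat

open WeierstrassCurve IsLocalRing FLTAgent.Local
open scoped WeierstrassCurve.Projective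

section Field

variable {F : Type*} [Field F] (W : WeierstrassCurve F)

/-- a nonzero solution of the equation of a curve with nonzero discriminant is nonsingular -/
theorem nonsingular_of_equation (hΔ : W.Δ ≠ 0) {v : Fin 3 → F} (he : W.toProjective.Equation v)
    (hv : v ≠ 0) : W.toProjective.Nonsingular v := by
  by_cases hz : v 2 = 0
  · have hx : v 0 = 0 := Projective.X_eq_zero_of_Z_eq_zero he hz
    have hy : v 1 ≠ 0 := fun hy => hv (funext fun i => by fin_cases i <;> assumption)
    refine (Projective.nonsingular_of_Z_eq_zero hz).2 ⟨he, Or.inr ?_⟩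
    simp [hx, hy]
  · exact (Projective.nonsingular_of_Z_ne_zero hz).2
      ((W.toAffine.equation_iff_nonsingular_of_Δ_ne_zero hΔ).1
        ((Projective.equation_of_Z_ne_zero hz).1 he))

/-- nonsingular representatives of one point are proportional -/
theorem equiv_of_toAffine_eq {v v' : Fin 3 → F} (hv : W.toProjective.Nonsingular v)
    (hv' : W.toProjective.Nonsingular v')
    (h : Projective.Point.toAffine W v = Projective.Point.toAffine W v') :
    ∃ u : Fˣ, u • v' = v := by
  show v ≈ v'
  by_cases hz : v 2 = 0 <;> by_cases hz' : v' 2 = 0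
  · exact Projective.equiv_of_Z_eq_zero hv hv' hz hz'
  · rw [Projective.Point.toAffine_of_Z_eq_zero hz,
      Projective.Point.toAffine_of_Z_ne_zero hv' hz'] at h
    exact absurd h.symm (Affine.Point.some_ne_zero _)
  · rw [Projective.Point.toAffine_of_Z_eq_zero hz',
      Projective.Point.toAffine_of_Z_ne_zero hv hz] at h
    exact absurd h (Affine.Point.some_ne_zero _)
  · rw [Projective.Point.toAffine_of_Z_ne_zero hv hz,
      Projective.Point.toAffine_of_Z_ne_zero hv' hz', Affine.Point.some.injEq] at h
    exact Projective.equiv_of_X_eq_of_Y_eq hz hz' ((div_eq_div_iff hz hz').1 h.1)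
      ((div_eq_div_iff hz hz').1 h.2)

variable [DecidableEq F]

/-- halving has finitely many answers -/
theorem finite_double (h2 : (2 : F) ≠ 0) (e : W.toAffine.Point) :
    {t : W.toAffine.Point | t + t = e}.Finite := by
  classical
  have hker : {t : W.toAffine.Point | t + t = 0}.Finite := by
    let xc : W.toAffine.Point → Option F := fun t => match t with
      | .zero => none
      | .some x _ _ => some x
    let g : Polynomial F := ⟨4, W.b₂, 2 * W.b₄, W.b₆⟩ |> Cubic.toPoly
    have hg : g ≠ 0 := Cubic.ne_zero_of_a_ne_zero (by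
      show (4 : F) ≠ 0
      rw [show (4 : F) = 2 * 2 by norm_num]
      exact mul_ne_zero h2 h2)
    have hy : ∀ x y (h : W.toAffine.Nonsingular x y), (Affine.Point.some x y h) +
        Affine.Point.some x y h = 0 → 2 * y + W.a₁ * x + W.a₃ = 0 := by
      intro x y h h0
      rw [add_eq_zero_iff_eq_neg, Affine.Point.neg_some, Affine.Point.some.injEq, Affine.negY] at h0
      linear_combination h0.2
    refine Set.Finite.of_finite_image (f := xc)
      (((g.roots.toFinset.finite_toSet.image some).insert none).subset ?_) ?_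
    · rintro _ ⟨t, ht, rfl⟩
      rcases t with _ | ⟨x, y, h⟩
      · exact Set.mem_insert _ _
      refine Set.mem_insert_of_mem _ ⟨x, ?_, rfl⟩
      have h1 := hy x y h ht
      have h3 := (Affine.equation_iff x y).1 h.1
      simp only [Finset.mem_coe, Multiset.mem_toFinset]
      rw [Polynomial.mem_roots hg]
      simp only [g, Cubic.toPoly, Polynomial.IsRoot, Polynomial.eval_add, Polynomial.eval_mul,
        Polynomial.eval_pow, Polynomial.eval_C, Polynomial.eval_X]
      simp only [WeierstrassCurve.b₂, WeierstrassCurve.b₄, WeierstrassCurve.b₆]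
      linear_combination (2 * y + W.a₁ * x + W.a₃) * h1 - 4 * h3
    · rintro (_ | ⟨x, y, h⟩) ht (_ | ⟨x', y', h'⟩) ht' e'
      · rfl
      · exact absurd e' (by simp [xc])
      · exact absurd e' (by simp [xc])
      · obtain rfl : x = x' := by simpa [xc] using e'
        obtain rfl : y = y' := mul_left_cancel₀ h2 (by linear_combination hy x y h ht - hy x y' h' ht')
        rfl
  by_cases he : ∃ t0 : W.toAffine.Point, t0 + t0 = e
  · obtain ⟨t0, ht0⟩ := he
    refine (hker.image fun t => t + t0).subset fun t ht => ⟨t - t0, ?_, sub_add_cancel t t0⟩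
    show t - t0 + (t - t0) = 0
    rw [show t - t0 + (t - t0) = (t + t) - (t0 + t0) by abel, show t + t = e from ht, ht0, sub_self]
  · exact Set.Finite.subset Set.finite_empty fun t ht => he ⟨t, ht⟩

end Field

variable {K : Type*} [Field K] {A : ValuationSubring K} {W0 : WeierstrassCurve A}

/-- an integral representative of a point, nonsingular modulo the maximal ideal -/
structure IntRep (P : (genFib W0).toAffine.Point) (R : Fin 3 → A) : Prop where
  ns : (genFib W0).toProjective.Nonsingular (A.subtype ∘ R)
  pt : Projective.Point.toAffine (genFib W0) (A.subtype ∘ R) = P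
  nsRes : (specFib W0).toProjective.Nonsingular (residue A ∘ R)

/-- the reduction of a representative -/
def redRep (W0 : WeierstrassCurve A) (R : Fin 3 → A) : (specFib W0).toAffine.Point :=
  Projective.Point.toAffine (specFib W0) (residue A ∘ R)

theorem res_ne_zero_of_ns {R : Fin 3 → A}
    (h : (specFib W0).toProjective.Nonsingular (residue A ∘ R)) : residue A ∘ R ≠ 0 := by
  intro e
  rw [e] at h
  exact Projective.Y_ne_zero_of_Z_eq_zero h rfl rfl

theorem Δ_map_ne_zero (hΔ : IsUnit W0.Δ) {S : Type*} [Field S] (f : A →+* S) :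
    (W0.map f).Δ ≠ 0 := by
  rw [WeierstrassCurve.map_Δ]
  exact (hΔ.map f).ne_zero

/-- an integral solution with a unit coordinate is nonsingular modulo the maximal ideal -/
theorem nsRes_of_equation (hΔ : IsUnit W0.Δ) {R : Fin 3 → A}
    (he : (genFib W0).toProjective.Equation (A.subtype ∘ R)) {i : Fin 3} (hi : IsUnit (R i)) :
    (specFib W0).toProjective.Nonsingular (residue A ∘ R) := by
  have h0 : W0.toProjective.Equation R :=
    (Projective.map_equation (W' := W0.toProjective) A.subtype_injective R).1 he
  exact nonsingular_of_equation _ (Δ_map_ne_zero hΔ _) (h0.map _)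
    fun e => (hi.map (residue A)).ne_zero (congrFun e i)

/-- integral representatives exist -/
theorem exists_intRep (hΔ : IsUnit W0.Δ) (P : (genFib W0).toAffine.Point) :
    ∃ R : Fin 3 → A, IntRep P R := by
  classical
  obtain ⟨v, hv, hvP, j, hj⟩ : ∃ v : Fin 3 → K, (genFib W0).toProjective.Nonsingular v ∧
      Projective.Point.toAffine (genFib W0) v = P ∧ ∃ j, v j ≠ 0 := by
    rcases P with _ | ⟨x, y, h⟩
    · exact ⟨![0, 1, 0], Projective.nonsingular_zero, Projective.Point.toAffine_zero, 1, by simp⟩
    · exact ⟨![x, y, 1], (Projective.nonsingular_some x y).2 h,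
        Projective.Point.toAffine_some ((Projective.nonsingular_some x y).2 h), 2, by simp⟩
  obtain ⟨i, hi⟩ := Finite.exists_max fun l => A.valuation (v l)
  have hi0 : v i ≠ 0 := fun e => hj ((map_eq_zero A.valuation).1
    (le_antisymm (by simpa [e] using hi j) zero_le))
  have hmem : ∀ l, v l * (v i)⁻¹ ∈ A := fun l => by
    rw [← A.valuation_le_one_iff, map_mul, map_inv₀]
    exact mul_inv_le_one_of_le₀ (hi l) zero_le
  let R : Fin 3 → A := fun l => ⟨v l * (v i)⁻¹, hmem l⟩
  have hR : A.subtype ∘ R = (v i)⁻¹ • v := funext fun l => mul_comm _ _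
  have hu : IsUnit (v i)⁻¹ := (inv_ne_zero hi0).isUnit
  have hns : (genFib W0).toProjective.Nonsingular (A.subtype ∘ R) := by
    rw [hR]
    exact (Projective.nonsingular_smul v hu).2 hv
  refine ⟨R, hns, by rw [hR, Projective.Point.toAffine_smul _ hu, hvP],
    nsRes_of_equation hΔ hns.1 (i := i) ?_⟩
  have h1 : R i = 1 := Subtype.ext (mul_inv_cancel₀ hi0)
  rw [h1]
  exact isUnit_one

/-- two representatives of one point differ by a unit -/
theorem IntRep.exists_unit {P : (genFib W0).toAffine.Point} {R S : Fin 3 → A} (hR : IntRep P R)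
    (hS : IntRep P S) : ∃ u : A, IsUnit u ∧ R = u • S := by
  obtain ⟨u, hu⟩ := equiv_of_toAffine_eq _ hR.ns hS.ns (hR.pt.trans hS.pt.symm)
  obtain ⟨i, hi⟩ : ∃ i, IsUnit (S i) := by
    by_contra h
    push Not at h
    exact res_ne_zero_of_ns hS.nsRes (funext fun i => by
      by_contra hne
      exact h i ((IsLocalRing.residue_ne_zero_iff_isUnit _).1 hne))
  have hSi : (S i : K) ≠ 0 := (hi.map A.subtype).ne_zero
  have hu' : ∀ l, (u : K) * (S l : K) = R l := fun l => congrFun hu l
  set w : A := R i * ↑hi.unit⁻¹
  have hw : (w : K) = u := by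
    have h1 : ((↑hi.unit⁻¹ : A) : K) * S i = 1 := congrArg A.subtype hi.val_inv_mul
    calc (w : K) = (R i : K) * ((↑hi.unit⁻¹ : A) : K) := rfl
      _ = u * (((↑hi.unit⁻¹ : A) : K) * S i) := by rw [← hu' i]; ring
      _ = u := by rw [h1, mul_one]
  have e : R = w • S := funext fun l => Subtype.ext (by
    show (R l : K) = w * S l
    rw [hw, hu'])
  refine ⟨w, ?_, e⟩
  by_contra hw'
  refine res_ne_zero_of_ns hR.nsRes (funext fun l => ?_)
  show residue A (R l) = 0
  rw [e, Pi.smul_apply, smul_eq_mul, map_mul,
    (residue_eq_zero_iff w).2 ((IsLocalRing.mem_maximalIdeal w).2 hw'), zero_mul]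

variable [DecidableEq K] [DecidableEq (ResidueField A)]

/-- the sum is given by the formula when the reductions differ -/
theorem IntRep.add {P Q : (genFib W0).toAffine.Point} {R S : Fin 3 → A} (hR : IntRep P R)
    (hS : IntRep Q S) (hne : redRep W0 R ≠ redRep W0 S) :
    IntRep (P + Q) (W0.toProjective.addXYZ R S) ∧
      redRep W0 (W0.toProjective.addXYZ R S) = redRep W0 R + redRep W0 S := by
  have hk : ¬ residue A ∘ R ≈ residue A ∘ S := fun h =>
    hne (Projective.Point.toAffine_of_equiv h)
  have hK : ¬ A.subtype ∘ R ≈ A.subtype ∘ S := by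
    intro h
    have hP : IntRep P S := ⟨hS.ns,
      (Projective.Point.toAffine_of_equiv h).symm.trans hR.pt, hS.nsRes⟩
    obtain ⟨u, hu, e⟩ := hR.exists_unit hP
    refine hne (Projective.Point.toAffine_of_equiv ⟨(hu.map (residue A)).unit, ?_⟩)
    funext l
    rw [e]
    exact (map_mul (residue A) u (S l)).symm
  have eK : A.subtype ∘ W0.toProjective.addXYZ R S =
      (genFib W0).toProjective.add (A.subtype ∘ R) (A.subtype ∘ S) := by
    rw [Projective.add_of_not_equiv hK]
    exact (Projective.map_addXYZ A.subtype R S).symm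
  have ek : residue A ∘ W0.toProjective.addXYZ R S =
      (specFib W0).toProjective.add (residue A ∘ R) (residue A ∘ S) := by
    rw [Projective.add_of_not_equiv hk]
    exact (Projective.map_addXYZ (residue A) R S).symm
  refine ⟨⟨?_, ?_, ?_⟩, ?_⟩
  · rw [eK]; exact Projective.nonsingular_add hR.ns hS.ns
  · rw [eK, Projective.Point.toAffine_add hR.ns hS.ns, hR.pt, hS.pt]
  · rw [ek]; exact Projective.nonsingular_add hR.nsRes hS.nsRes
  · rw [redRep, ek, Projective.Point.toAffine_add hR.nsRes hS.nsRes]
    rfl

theorem IntRep.neg {P : (genFib W0).toAffine.Point} {R : Fin 3 → A} (hR : IntRep P R) :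
    IntRep (-P) (W0.toProjective.neg R) ∧ redRep W0 (W0.toProjective.neg R) = -redRep W0 R := by
  have eK : A.subtype ∘ W0.toProjective.neg R = (genFib W0).toProjective.neg (A.subtype ∘ R) :=
    (Projective.map_neg A.subtype R).symm
  have ek : residue A ∘ W0.toProjective.neg R = (specFib W0).toProjective.neg (residue A ∘ R) :=
    (Projective.map_neg (residue A) R).symm
  refine ⟨⟨?_, ?_, ?_⟩, ?_⟩
  · rw [eK]; exact Projective.nonsingular_neg hR.ns
  · rw [eK, Projective.Point.toAffine_neg hR.ns, hR.pt]
  · rw [ek]; exact Projective.nonsingular_neg hR.nsRes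
  · rw [redRep, ek, Projective.Point.toAffine_neg hR.nsRes]
    rfl

/-- a point with reduction outside a finite set -/
theorem exists_generic [IsAlgClosed K] [Infinite (ResidueField A)] (hΔ : IsUnit W0.Δ)
    {bad : Set (specFib W0).toAffine.Point} (hbad : bad.Finite) :
    ∃ (P : (genFib W0).toAffine.Point) (R : Fin 3 → A), IntRep P R ∧ redRep W0 R ∉ bad := by
  classical
  let xc : (specFib W0).toAffine.Point → Option (ResidueField A) := fun t => match t with
    | .zero => none
    | .some x _ _ => some x
  obtain ⟨xb, hxb⟩ :=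
    ((hbad.image xc).preimage (Option.some_injective (ResidueField A)).injOn).exists_notMem
  obtain ⟨x, rfl⟩ := residue_surjective (R := A) xb
  set W := genFib W0
  obtain ⟨y, hy⟩ := IsAlgClosed.exists_root
    (Polynomial.C 1 * Polynomial.X ^ 2 + Polynomial.C (W.a₁ * (x : K) + W.a₃) * Polynomial.X
      + Polynomial.C (-((x : K) ^ 3 + W.a₂ * (x : K) ^ 2 + W.a₄ * (x : K) + W.a₆)))
    (by rw [Polynomial.degree_quadratic one_ne_zero]; norm_num)
  have he : W.toAffine.Equation (x : K) y := by
    rw [Affine.equation_iff]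
    simp [Polynomial.IsRoot] at hy
    linear_combination hy
  let R : Fin 3 → A := ![x, ⟨y, y_mem he x.2⟩, 1]
  have hR : A.subtype ∘ R = ![(x : K), y, 1] := by
    funext l; fin_cases l <;> rfl
  have hns : W.toProjective.Nonsingular (A.subtype ∘ R) := by
    rw [hR, Projective.nonsingular_some]
    exact (W.toAffine.equation_iff_nonsingular_of_Δ_ne_zero (Δ_map_ne_zero hΔ _)).1 he
  have hns' := nsRes_of_equation hΔ hns.1 (i := 2) isUnit_one
  refine ⟨_, R, ⟨hns, rfl, hns'⟩, fun h => hxb ⟨_, h, ?_⟩⟩
  have h2 : (residue A ∘ R) 2 ≠ 0 := by simp [R]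
  rw [redRep, Projective.Point.toAffine_of_Z_ne_zero hns' h2]
  simp [xc, R]

/-- one formula for all sums -/
theorem exists_translation [IsAlgClosed K] [Infinite (ResidueField A)] (hΔ : IsUnit W0.Δ)
    (h2 : (2 : ResidueField A) ≠ 0) {G : Type} [Finite G] (φ : G → (genFib W0).toAffine.Point)
    (R : G → Fin 3 → A) (hR : ∀ c, IntRep (φ c) (R c)) :
    ∃ T T' : Fin 3 → A, ∀ c d, IntRep (φ c + φ d)
      (W0.toProjective.addXYZ (W0.toProjective.addXYZ (R c) T)
        (W0.toProjective.addXYZ (R d) T')) := by
  classical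
  set r : G → (specFib W0).toAffine.Point := fun c => redRep W0 (R c)
  have hfin : ((⋃ c, {r c} ∪ {-r c}) ∪
      ⋃ cd : G × G, {t : (specFib W0).toAffine.Point | t + t = r cd.2 - r cd.1}).Finite :=
    (Set.finite_iUnion fun c => (Set.finite_singleton _).union (Set.finite_singleton _)).union
      (Set.finite_iUnion fun cd => finite_double (specFib W0) h2 _)
  obtain ⟨P, T, hT, hbad⟩ := exists_generic hΔ hfin
  simp only [Set.mem_union, Set.mem_iUnion, Set.mem_singleton_iff, Set.mem_ofPred_eq, not_or,
    not_exists] at hbad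
  obtain ⟨hT', hrT'⟩ := hT.neg
  refine ⟨T, W0.toProjective.neg T, fun c d => ?_⟩
  obtain ⟨h1, r1⟩ := (hR c).add hT fun e => (hbad.1 c).1 e.symm
  obtain ⟨h3, r3⟩ := (hR d).add hT' fun e => (hbad.1 d).2 (by
    rw [show r d = -redRep W0 T from e.trans hrT', neg_neg])
  have h5 := (h1.add h3 fun e => hbad.2 (c, d) (by
    rw [r1, r3, hrT'] at e
    show redRep W0 T + redRep W0 T = r d - r c
    simp only [r]
    rw [eq_sub_iff_add_eq, show redRep W0 T + redRep W0 T + redRep W0 (R c) =
      redRep W0 (R c) + redRep W0 T + redRep W0 T by abel, e]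
    abel)).1
  rwa [show φ c + P + (φ d + -P) = φ c + φ d by abel] at h5

end FLTAgent.MLT.PointFlat

end
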