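import Fermat.Agent.MLT.PointTateStrict
import Fermat.Agent.MLT.PointFlat
import Fermat.Agent.MLT.Image
import Fermat.Agent.LL.Residue
import Fermat.Agent.LL.LevelRepAux
import Fermat.Agent.SS2.Transfer
import Fermat.Agent.PT.TW.Conditions

/-!
Area MLT, parcel POINT: the representation of a semistable curve on its `p`-adic Tate module with
values in a complete coefficient ring, with the properties of the curve point: residual trace,
determinant, behaviour away from `p` and at `p`.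
-/

set_option autoImplicit false
set_option linter.unusedSectionVars false
set_option linter.style.haveILetI false

noncomputable section

open WeierstrassCurve IsLocalRing Matrix
open FLTAgent.Local FLTAgent.Torsion
open FLTAgent.Attach (cyc cyc_spec cycR)
open WeierstrassCurve.Affine.Point (galoisRepModuleEnd galoisRepModuleEnd_apply)
open scoped WeierstrassCurve.Affine

namespace FLTAgent.MLT

local notation "Qb" => AlgebraicClosure ℚ
local notation "GalQ" => AlgebraicClosure ℚ ≃ₐ[ℚ] AlgebraicClosure ℚ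

section PadicHom

variable {p : ℕ} [hp : Fact p.Prime] {O : Type} [CommRing O] [IsLocalRing O]
  [IsAdicComplete (maximalIdeal O) O] (hpO : (p : O) ∈ maximalIdeal O)

include hpO in
theorem exists_zmodLevel (n : ℕ) : Nonempty (ZMod (p ^ n) →+* O ⧸ maximalIdeal O ^ n) := by
  refine ⟨(Int.castRingHom (ZMod (p ^ n))).liftOfSurjective ZMod.intCast_surjective
    ⟨Int.castRingHom _, fun z hz => ?_⟩⟩
  rw [RingHom.mem_ker, eq_intCast, ← map_intCast (Ideal.Quotient.mk (maximalIdeal O ^ n)),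
    Ideal.Quotient.eq_zero_iff_mem]
  exact Attach.intCast_mem_pow hpO ((ZMod.intCast_zmod_eq_zero_iff_dvd z (p ^ n)).1 hz)

include hpO in
/-- `ℤ_p` maps to every complete local ring in whose maximal ideal `p` lies -/
theorem exists_padicHom : ∃ φ : ℤ_[p] →+* O,
    ∀ n x, x ∈ Ideal.span {(p : ℤ_[p]) ^ n} → φ x ∈ maximalIdeal O ^ n := by
  let g : ∀ n, ZMod (p ^ n) →+* O ⧸ maximalIdeal O ^ n := fun n => (exists_zmodLevel hpO n).some
  refine ⟨IsAdicComplete.liftRingHom (maximalIdeal O)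
    (fun n => (g n).comp (PadicInt.toZModPow n)) ?_, fun n x hx => ?_⟩
  · intro m n hle
    rw [← RingHom.comp_assoc,
      RingHom.ext_zmod ((Ideal.Quotient.factorPow (maximalIdeal O) hle).comp (g n))
        ((g m).comp (ZMod.castHom (pow_dvd_pow p hle) (ZMod (p ^ m)))),
      RingHom.comp_assoc, PadicInt.zmod_cast_comp_toZModPow m n hle]
  · rw [← Ideal.Quotient.eq_zero_iff_mem, IsAdicComplete.mk_liftRingHom, RingHom.comp_apply]
    rw [← PadicInt.ker_toZModPow, RingHom.mem_ker] at hx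
    rw [hx, map_zero]

end PadicHom

/-- equal traces transfer spanning -/
theorem span_eq_top_of_trace {k : Type} [Field k] {G : Type*} [Monoid G]
    (R R' : G →* Matrix (Fin 2) (Fin 2) k) (h : Submodule.span k (Set.range R') = ⊤)
    (htr : ∀ g, (R g).trace = (R' g).trace) : Submodule.span k (Set.range R) = ⊤ := by
  classical
  let ev : (G →* Matrix (Fin 2) (Fin 2) k) → (G →₀ k) →ₗ[k] Matrix (Fin 2) (Fin 2) k :=
    fun S => Finsupp.linearCombination k S
  have hker : ∀ c, ev R c = 0 → ev R' c = 0 := fun c hc => by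
    refine LL.mt_eq_zero_of_trace h ?_
    rintro _ ⟨τ, rfl⟩
    have e : ∀ S : G →* Matrix (Fin 2) (Fin 2) k,
        (ev S c * S τ).trace = c.sum fun σ a => a * (S (σ * τ)).trace := fun S => by
      simp [ev, Finsupp.linearCombination_apply, Finsupp.sum, Finset.sum_mul, Matrix.trace_sum]
    have e' := e R
    rw [hc, zero_mul, Matrix.trace_zero] at e'
    rw [e R', e']
    exact Finsupp.sum_congr fun σ _ => by rw [htr]
  have hs : LinearMap.range (ev R') = ⊤ := by rw [Finsupp.range_linearCombination, h]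
  obtain ⟨sec, hsec⟩ := (ev R').exists_rightInverse_of_surjective hs
  have hinj : Function.Injective ((ev R).comp sec) := (injective_iff_map_eq_zero _).2 fun M hM =>
    (LinearMap.congr_fun hsec M).symm.trans (hker _ hM)
  rw [← Finsupp.range_linearCombination, LinearMap.range_eq_top]
  exact fun M => by
    obtain ⟨N, hN⟩ := LinearMap.surjective_of_injective hinj M
    exact ⟨sec N, hN⟩

/-- a spanning image is absolutely irreducible -/
theorem absIrr_of_span {k : Type} [Field k] (ρ : ResidualGaloisRep k)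
    {r : Deform.GQ → Matrix (Fin 2) (Fin 2) k} (hr : Deform.RepMat ρ.ρ r)
    (h : Submodule.span k (Set.range r) = ⊤) : ρ.IsAbsolutelyIrreducible := by
  intro V hV
  obtain ⟨b, hb⟩ := Deform.repMat_baseChange_residual (k' := AlgebraicClosure k) hr
  set ι := algebraMap k (AlgebraicClosure k)
  rcases eq_or_ne V ⊥ with hbot | hne
  · exact Or.inl hbot
  refine Or.inr ?_
  set V' : Submodule (AlgebraicClosure k) (Fin 2 → AlgebraicClosure k) :=
    V.map b.equivFun.toLinearMap
  have hst : ∀ M : Matrix (Fin 2) (Fin 2) k, ∀ z ∈ V', M.map ι *ᵥ z ∈ V' := fun M => by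
    have hM : M ∈ Submodule.span k (Set.range r) := h ▸ Submodule.mem_top
    induction hM using Submodule.span_induction with
    | mem x hx =>
      obtain ⟨σ, rfl⟩ := hx
      rintro _ ⟨v, hv, rfl⟩
      refine ⟨_, hV σ v hv, ?_⟩
      have hbσ := hb σ
      simp only at hbσ
      rw [← hbσ]
      exact (LinearMap.toMatrix_mulVec_repr b b _ v).symm
    | zero =>
      intro z _
      rw [Matrix.map_zero _ (map_zero ι), Matrix.zero_mulVec]
      exact zero_mem _
    | add x y _ _ hx hy =>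
      intro z hz
      rw [Matrix.map_add _ (map_add ι), Matrix.add_mulVec]
      exact add_mem (hx z hz) (hy z hz)
    | smul a x _ hx =>
      intro z hz
      rw [show (a • x).map ι = ι a • x.map ι by ext i j; simp, Matrix.smul_mulVec]
      exact Submodule.smul_mem _ _ (hx z hz)
  obtain ⟨v, hvV, hv0⟩ := Submodule.exists_mem_ne_zero_of_ne_bot hne
  obtain ⟨i, hi⟩ : ∃ i, b.equivFun v i ≠ 0 := Function.ne_iff.1
    ((map_ne_zero_iff _ b.equivFun.injective).2 hv0)
  have htop : V' = ⊤ := by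
    refine eq_top_iff.2 fun z _ => ?_
    rw [pi_eq_sum_univ' z]
    refine sum_mem fun l _ => Submodule.smul_mem _ _ ?_
    have h1 := Submodule.smul_mem V' (b.equivFun v i)⁻¹
      (hst (Matrix.single l i 1) _ ⟨v, hvV, rfl⟩)
    convert h1 using 1
    have hi' : b.repr v i ≠ 0 := hi
    ext a
    simp [Matrix.mulVec, dotProduct, Matrix.single_apply, Pi.single_apply, ite_and, hi',
      apply_ite ι, eq_comm]
    fin_cases a <;> fin_cases l <;> fin_cases i <;> simp_all
  refine eq_top_iff.2 fun u _ => ?_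
  obtain ⟨w, hw, hwu⟩ := (htop ▸ Submodule.mem_top : b.equivFun u ∈ V')
  exact b.equivFun.injective hwu ▸ hw

variable (W : WeierstrassCurve ℤ) (p : ℕ) (O : Type) [CommRing O] [IsLocalRing O]

/-- the Tate module of the curve as a lift of the residual representation -/
structure PointRep (rres : GalQ →* GL (Fin 2) (ResidueField O)) : Type 1 where
  ρ : GaloisRepAdic O
  R₀ : GalQ → Matrix (Fin 2) (Fin 2) O
  rep : Deform.RepMat ρ.ρ R₀
  absIrr : ρ.residual.IsAbsolutelyIrreducible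
  residual_trace : ∀ σ, residue O (R₀ σ).trace =
    (rres σ : Matrix (Fin 2) (Fin 2) (ResidueField O)).trace
  det : ρ.DetIsCyclotomic p
  unr : ∀ q : ℕ, q.Prime → q ≠ p → ¬ (q : ℤ) ∣ W.Δ → ρ.IsUnramifiedAt q
  unip : ∀ q : ℕ, q.Prime → q ≠ p → ρ.IsUnipotentOnInertiaAt q
  tame_trace : ∀ q : ℕ, q.Prime → q ≠ p → ∀ P : ValuationSubring Qb, P.LiesOverPrime q →
    ∀ σ ∈ P.inertiaSubgroupIn ℚ, (R₀ σ).trace = 2
  frob : ∀ ℓ : ℕ, ℓ.Prime → ℓ ≠ p → ¬ (ℓ : ℤ) ∣ W.Δ → ∀ P : ValuationSubring Qb,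
    P.LiesOverPrime ℓ → ∀ τ : GalQ, P.IsFrobeniusAt τ ℓ →
      (R₀ τ).trace = (W.apOfModel ℓ : O) ∧ (R₀ τ).det = (ℓ : O)
  sign : ∀ q : ℕ, q.Prime → q ≠ p → (q : ℤ) ∣ W.Δ → ∀ P : ValuationSubring Qb,
    P.LiesOverPrime q → ∀ τ : GalQ, P.IsFrobeniusAt τ q →
      ∃ w : O, w * w = 1 ∧ (R₀ τ).trace = w * (1 + (q : O))
  flat : ¬ (p : ℤ) ∣ W.Δ → ρ.IsFlatAt p
  strict : (p : ℤ) ∣ W.Δ → ρ.IsStrictOrdinaryAt p
  strictMat : (p : ℤ) ∣ W.Δ → PT.TW.StrictMat p R₀

variable {W p O}

/-- the curve point -/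
theorem exists_pointRep {p : ℕ} [hp : Fact p.Prime] {O : Type} [CommRing O] [IsDomain O]
    [IsDiscreteValuationRing O] [IsAdicComplete (maximalIdeal O) O] [Finite (ResidueField O)]
    [CharZero O] [Algebra (ZMod p) (ResidueField O)] (hΔ : W.Δ ≠ 0) (hss : W.IsSemistableModel)
    {ρbar : ResidualGaloisRep (ResidueField O)} {rres : GalQ →* GL (Fin 2) (ResidueField O)}
    (hS : SemiResidual W p ρbar rres) : Nonempty (PointRep W p O rres) := by
  classical
  have hp2 : p ≠ 2 := hS.setting.hp2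
  have hssq : ∀ q : ℕ, q.Prime → SemistableAt W q := fun q hq => hss q hq
  have hpO : (p : O) ∈ maximalIdeal O := by
    rw [← residue_eq_zero_iff, map_natCast, ← map_natCast (algebraMap (ZMod p) (ResidueField O)),
      ZMod.natCast_self, map_zero]
  obtain ⟨T⟩ := exists_tateBasis (p := p) hΔ
  obtain ⟨φ, hφ⟩ := exists_padicHom (p := p) hpO
  haveI hφloc : IsLocalHom φ := ⟨fun x hx => by
    by_contra hn
    have h1 : x ∈ maximalIdeal ℤ_[p] := hn
    rw [PadicInt.maximalIdeal_eq_span_p] at h1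
    have h2 := hφ 1 x (by rwa [pow_one])
    rw [pow_one] at h2
    exact h2 hx⟩
  have hφcyc : ∀ σ : GalQ, φ (cycR hp.out TateBasis.natCast_mem_maximalIdeal σ) =
      cycR hp.out hpO σ := fun σ => by
    refine (Attach.cycR_eq_of_forall hp.out hpO (x := φ (cycR hp.out _ σ))
      (a := fun n => haveI : NeZero (p ^ n) := ⟨pow_ne_zero n hp.out.ne_zero⟩;
        (cyc (p ^ n) σ).val) (fun n => ?_) fun n _ => (ZMod.natCast_zmod_val _).symm).symm
    haveI : NeZero (p ^ n) := ⟨pow_ne_zero n hp.out.ne_zero⟩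
    have h := Attach.cycR_spec hp.out (TateBasis.natCast_mem_maximalIdeal (p := p)) σ n
    rw [PadicInt.maximalIdeal_eq_span_p, Ideal.span_singleton_pow] at h
    have h2 := hφ n _ h
    rw [map_sub, map_natCast] at h2
    exact h2
  -- the representation
  let R₀ : GalQ → Matrix (Fin 2) (Fin 2) O := fun σ => (T.mat hΔ σ).map φ
  have h1 : R₀ 1 = 1 := by
    show (T.mat hΔ 1).map φ = 1
    rw [T.mat_one, Matrix.map_one _ (map_zero φ) (map_one φ)]
  have hmul : ∀ σ τ, R₀ (σ * τ) = R₀ σ * R₀ τ := fun σ τ => by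
    show (T.mat hΔ (σ * τ)).map φ = _
    rw [T.mat_mul, Matrix.map_mul]
  have hlevel : ∀ (n : ℕ) (σ τ : GalQ), T.levelMat hΔ n σ = T.levelMat hΔ n τ →
      ∀ i j, φ (T.mat hΔ σ i j) - φ (T.mat hΔ τ i j) ∈ maximalIdeal O ^ (n + 1) := by
    intro n σ τ h i j
    rw [← map_sub]
    refine hφ (n + 1) _ ?_
    rw [← PadicInt.ker_toZModPow, RingHom.mem_ker, map_sub, sub_eq_zero]
    simpa [← T.mat_level] using congrFun (congrFun h i) j
  have hcont : Deform.MatCont R₀ := by
    intro n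
    obtain ⟨L, hL, h⟩ := T.exists_level hΔ n
    refine ⟨L, hL, fun σ hσ i j => Ideal.pow_le_pow_right n.le_succ ?_⟩
    have := hlevel n σ 1 (h σ 1 fun z hz => hσ z hz) i j
    rwa [T.mat_one, Matrix.one_apply, apply_ite φ, map_one, map_zero, ← Matrix.one_apply] at this
  let ρ := Deform.ofMat R₀ h1 hmul hcont
  have hrep : Deform.RepMat ρ.ρ R₀ := Deform.repMat_ofMat R₀ h1 hmul hcont
  have htrφ : ∀ σ, (R₀ σ).trace = φ (T.mat hΔ σ).trace := fun σ => by
    simp [R₀, Matrix.trace_fin_two]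
  have hdetφ : ∀ σ, (R₀ σ).det = φ (T.mat hΔ σ).det := fun σ =>
    (RingHom.map_det φ (T.mat hΔ σ)).symm
  -- the residual matrices
  let Rb : GalQ →* Matrix (Fin 2) (Fin 2) (ResidueField O) :=
    { toFun := fun σ => (R₀ σ).map (residue O)
      map_one' := by rw [h1, Matrix.map_one _ (map_zero (residue O)) (map_one (residue O))]
      map_mul' := fun σ τ => by rw [hmul, Matrix.map_mul] }
  have hRb : ∀ σ, (Rb σ).trace = residue O (R₀ σ).trace := fun σ => by
    simp [Rb, Matrix.trace_fin_two]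
  have hfrobRb : ∀ ℓ : ℕ, ℓ.Prime → ℓ ≠ p → ¬ (ℓ : ℤ) ∣ W.Δ → ∀ P : ValuationSubring Qb,
      P.LiesOverPrime ℓ → ∀ τ : GalQ, P.IsFrobeniusAt τ ℓ →
        (R₀ τ).trace = (W.apOfModel ℓ : O) ∧ (R₀ τ).det = (ℓ : O) :=
    fun ℓ hℓ hℓp hgood P hP τ hτ => by
      obtain ⟨e1, e2⟩ := T.frobenius hΔ hℓ hgood hP hτ (Ne.symm hℓp)
      rw [htrφ, hdetφ, e1, e2, map_intCast, map_natCast]
      exact ⟨rfl, rfl⟩
  obtain ⟨F, hF, hFfix⟩ := hS.setting.level
  obtain ⟨L, hL, hLt⟩ := T.exists_level hΔ 0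
  have hres : ∀ σ, (Rb σ).trace = (rres σ : Matrix (Fin 2) (Fin 2) (ResidueField O)).trace := by
    haveI := hF
    haveI := hL
    refine congrFun (Chebotarev.eq_of_forall_frobenius_pow (fun σ => (Rb σ).trace)
      (fun σ => (rres σ : Matrix (Fin 2) (Fin 2) (ResidueField O)).trace) (L ⊔ F) ?_ ?_
      (insert p W.Δ.natAbs.primeFactors) ?_)
    · intro σ τ h
      refine congrArg Matrix.trace (Matrix.ext fun i j => ?_)
      show residue O (φ (T.mat hΔ σ i j)) = residue O (φ (T.mat hΔ τ i j))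
      rw [← sub_eq_zero, ← map_sub, residue_eq_zero_iff]
      simpa using hlevel 0 σ τ (hLt σ τ fun z hz => h z (le_sup_left (b := F) hz)) i j
    · intro σ τ h
      have h1' : rres (τ⁻¹ * σ) = 1 := hFfix _ fun z => by
        show (τ⁻¹ * σ) z = z
        rw [AlgEquiv.mul_apply, h z (le_sup_right (a := L) z.2)]
        exact τ.symm_apply_apply z
      show (rres σ : Matrix (Fin 2) (Fin 2) (ResidueField O)).trace = _
      rw [show σ = τ * (τ⁻¹ * σ) by rw [mul_inv_cancel_left], map_mul, h1', mul_one]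
    · intro ℓ A τ k hℓ hℓS hA hτ
      rw [Finset.mem_insert, not_or] at hℓS
      have hgood : ¬ (ℓ : ℤ) ∣ W.Δ := fun h => hℓS.2 (Nat.mem_primeFactors.2
        ⟨hℓ, Int.natCast_dvd.1 h, by simpa using hΔ⟩)
      obtain ⟨e1, e2⟩ := hS.frob ℓ hℓ hgood hℓS.1 A hA τ hτ
      obtain ⟨e3, e4⟩ := hfrobRb ℓ hℓ hℓS.1 hgood A hA τ hτ
      have e5 : (Rb τ).det = (ℓ : ResidueField O) := by
        show ((R₀ τ).map (residue O)).det = _
        rw [← RingHom.mapMatrix_apply, ← RingHom.map_det, e4, map_natCast]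
      show (Rb (τ ^ k)).trace = _
      rw [map_pow, map_pow, Units.val_pow_eq_pow_val, SS2.trace_pow_fin_two,
        SS2.trace_pow_fin_two, hRb, e3, e5, e1, e2, map_intCast]
  have hdetc : ρ.DetIsCyclotomic p :=
    LL.detIsCyclotomic_of_cycR hp.out hpO ρ fun σ => by
      rw [PT.TW.det_eq_of_repMat hrep, hdetφ, T.det_mat, hφcyc]
      rfl
  have hinert : ∀ q : ℕ, q.Prime → q ≠ p → ∀ P : ValuationSubring Qb, P.LiesOverPrime q →
      ∀ σ ∈ P.inertiaSubgroupIn ℚ, (R₀ σ).trace = 2 ∧ (R₀ σ).det = 1 :=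
    fun q hq hqp P hP σ hσ => by
      obtain ⟨e1, e2⟩ := T.trace_inertia hΔ hp2 hq hqp (hssq q hq) hP hσ
      rw [htrφ, hdetφ, e1, e2, map_ofNat, map_one]
      exact ⟨rfl, rfl⟩
  have hstrict : (p : ℤ) ∣ W.Δ → PT.TW.StrictMat p R₀ := fun hd =>
    (T.strictMat_mat hΔ hp2 hd (hssq p hp.out)).map φ
  refine ⟨{ ρ := ρ, R₀ := R₀, rep := hrep, det := hdetc, frob := hfrobRb,
            residual_trace := fun σ => (hRb σ).symm.trans (hres σ)
            strictMat := hstrict
            strict := fun hd => PT.TW.isStrictOrdinaryAt_of_strictMat hrep (hstrict hd)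
            tame_trace := fun q hq hqp P hP σ hσ => (hinert q hq hqp P hP σ hσ).1
            absIrr := absIrr_of_span _ (Deform.repMat_residual hrep)
              (span_eq_top_of_trace Rb (PT.TW.matHom rres) hS.span hres)
            unr := fun q hq hqp hgood P hP σ hσ => ?_
            unip := fun q hq hqp P hP σ hσ => ?_
            sign := fun q hq hqp hd P hP τ hτ => ?_
            flat := fun hgood => ⟨inferInstance, fun I hI => ?_⟩ }⟩
  · rw [PT.TW.eq_one_iff_of_repMat hrep]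
    show (T.mat hΔ σ).map φ = 1
    rw [T.mat_inertia_good hΔ hq hqp hgood hP hσ, Matrix.map_one _ (map_zero φ) (map_one φ)]
  · obtain ⟨e1, e2⟩ := hinert q hq hqp P hP σ hσ
    rw [PT.TW.charpoly_eq_of_repMat hrep, Matrix.charpoly_fin_two, e1, e2, map_one,
      Polynomial.C_ofNat]
    ring
  · obtain ⟨w, hw, e⟩ := T.trace_frobenius_bad hΔ hp2 hq hqp hd (hssq q hq) hP hτ
    refine ⟨(w : O), ?_, ?_⟩
    · rcases hw with rfl | rfl <;> simp
    · rw [htrφ, e, map_mul, map_add, map_one, map_natCast, map_intCast]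
  -- flatness
  haveI := hI
  obtain ⟨N, hN⟩ : ∃ N, maximalIdeal O ^ (N + 1) ≤ I := by
    have hI0 : I ≠ ⊥ := by
      rintro rfl
      haveI : Finite O := Finite.of_equiv _ (RingEquiv.quotientBot O).toEquiv
      exact not_finite O
    obtain ⟨a, haI, ha0⟩ := Submodule.exists_mem_ne_zero_of_ne_bot hI0
    obtain ⟨j, hj⟩ := SS2.exists_pow_le (O := O) ha0
    exact ⟨j, (Ideal.pow_le_pow_right j.le_succ).trans (hj.trans
      ((Ideal.span_singleton_le_iff_mem _).2 haI))⟩
  let G := ρ.V ⧸ (I • (⊤ : Submodule O ρ.V))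
  letI : DistribMulAction GalQ G :=
    { smul := fun σ x => ρ.levelAction I σ x
      one_smul := fun x => by
        obtain ⟨v, rfl⟩ := Submodule.Quotient.mk_surjective _ x
        show Submodule.Quotient.mk (ρ.ρ 1 v) = _
        rw [map_one]
        rfl
      mul_smul := fun σ τ x => by
        obtain ⟨v, rfl⟩ := Submodule.Quotient.mk_surjective _ x
        show Submodule.Quotient.mk (ρ.ρ (σ * τ) v) = Submodule.Quotient.mk (ρ.ρ σ (ρ.ρ τ v))
        rw [map_mul]
        rfl
      smul_zero := fun σ => map_zero _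
      smul_add := fun σ x y => map_add _ x y }
  have hsmul : ∀ (σ : GalQ) (v : ρ.V),
      σ • (Submodule.Quotient.mk v : G) = Submodule.Quotient.mk (ρ.ρ σ v) := fun σ v => rfl
  let b0 : Module.Basis (Fin 2) O ρ.V := Pi.basisFun O (Fin 2)
  haveI : Finite G := Finite.of_surjective
    (fun a : Fin 2 → O ⧸ I => (Submodule.Quotient.mk
      (b0.equivFun.symm fun i => (a i).out) : G)) fun x => by
    obtain ⟨v, rfl⟩ := Submodule.Quotient.mk_surjective _ x
    refine ⟨fun i => Ideal.Quotient.mk I (b0.repr v i), (Submodule.Quotient.eq _).2 ?_⟩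
    rw [PT.TW.mem_smul_top_iff b0]
    intro i
    rw [map_sub, Finsupp.sub_apply, ← b0.equivFun_apply, b0.equivFun.apply_symm_apply,
      ← Ideal.Quotient.eq_zero_iff_mem, map_sub, Ideal.Quotient.mk_out, sub_self]
  letI := Fintype.ofFinite G
  haveI : NeZero (p ^ (N + 1)) := ⟨pow_ne_zero _ hp.out.ne_zero⟩
  haveI : Finite (Tors W (p ^ (N + 1))) :=
    haveI := isElliptic_curveBar hΔ
    finite_torsionBy (curveBar W) _ (pow_ne_zero _ hp.out.ne_zero)
  have hXc : Flat.IsContinuousModule (Tors W (p ^ (N + 1))) := fun x => by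
    obtain ⟨L', hL', h'⟩ := EllFrob.exists_torsion_field hΔ (p ^ (N + 1)) (NeZero.ne _)
    exact ⟨L', hL', fun σ hσ => (h' σ 1 (fun z hz => hσ z hz) x).trans (one_smul _ x)⟩
  have hGc : Flat.IsContinuousModule G := fun x => by
    obtain ⟨L', hL', h'⟩ := hcont (N + 1)
    refine ⟨L', hL', fun σ hσ => ?_⟩
    obtain ⟨v, rfl⟩ := Submodule.Quotient.mk_surjective _ x
    rw [hsmul, Submodule.Quotient.eq, PT.TW.mem_smul_top_iff b0]
    intro i
    have e : b0.repr (ρ.ρ σ v - v) i = ((R₀ σ - 1) *ᵥ (b0.equivFun v)) i := by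
      rw [Matrix.sub_mulVec, Matrix.one_mulVec]
      rfl
    rw [e, Matrix.mulVec, dotProduct]
    exact Ideal.sum_mem _ fun j _ => Ideal.mul_mem_right _ _ (hN (h' σ hσ i j))
  suffices hann : ∀ c : GalQ →₀ ℤ,
      (∀ x : Tors W (p ^ (N + 1)), FlatDatum.evAt x c = 0) → ∀ x : G, FlatDatum.evAt x c = 0 by
    obtain ⟨H, i1, i2, g1, g2, g3, e, hadd, hgal⟩ :=
      hasFlatModel_curve_of_annihilator (W := W) hp.out hp2 hgood hXc hGc
        (AddMonoidHom.mk' (fun x : Tors W (p ^ (N + 1)) => (x : QPoint W)) fun _ _ => rfl)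
        Subtype.val_injective (fun σ c => rfl) hann
    exact ⟨H, i1, i2, g1, g2, g3, e, hadd, hgal⟩
  intro c hc x
  obtain ⟨v, rfl⟩ := Submodule.Quotient.mk_surjective _ x
  -- the combination annihilates the level
  set f := PadicInt.toZModPow (p := p) (N + 1)
  have hM : ∀ i j, f (∑ σ : c.support, c σ.1 • T.mat hΔ σ.1 i j) = 0 := by
    have h0 : ∑ σ : c.support, c σ.1 • levelEnd W p N σ.1 = 0 := LinearMap.ext fun y => by
      have := hc y
      rw [FlatDatum.evAt_eq_sum] at this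
      simp only [LinearMap.sum_apply, LinearMap.smul_apply, LinearMap.zero_apply]
      rw [← this]
      exact Finset.sum_congr rfl fun σ _ => rfl
    intro i j
    have h2 := congrFun (congrFun (congrArg (LinearMap.toMatrix (T.basis hΔ N) (T.basis hΔ N)) h0) i) j
    rw [map_sum, map_zero, Matrix.sum_apply, Matrix.zero_apply] at h2
    rw [map_sum, ← h2]
    refine Finset.sum_congr rfl fun σ _ => ?_
    rw [map_zsmul, map_zsmul, ← Matrix.map_apply (f := f), T.mat_level]
    rfl
  have hsum : (Submodule.Quotient.mk (∑ σ : c.support, c σ.1 • ρ.ρ σ.1 v) : G) =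
      ∑ σ : c.support, c σ.1 • σ.1 • (Submodule.Quotient.mk v : G) := by
    rw [← Submodule.mkQ_apply, map_sum]
    exact Finset.sum_congr rfl fun σ _ => by rw [map_zsmul]; rfl
  rw [FlatDatum.evAt_eq_sum]
  refine hsum.symm.trans ((Submodule.Quotient.mk_eq_zero _).2 ?_)
  rw [PT.TW.mem_smul_top_iff b0]
  intro i
  have e : b0.repr (∑ σ : c.support, c σ.1 • ρ.ρ σ.1 v) i =
      ∑ j, φ (∑ σ : c.support, c σ.1 • T.mat hΔ σ.1 i j) * b0.equivFun v j := by
    rw [map_sum, Finsupp.finsetSum_apply]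
    simp only [map_sum, map_zsmul, Finset.sum_mul, smul_mul_assoc]
    rw [Finset.sum_comm]
    refine Finset.sum_congr rfl fun σ _ => ?_
    rw [← Finset.smul_sum, Finsupp.smul_apply]
    rfl
  rw [e]
  refine Ideal.sum_mem _ fun j _ => Ideal.mul_mem_right _ _ (hN (hφ (N + 1) _ ?_))
  rw [← PadicInt.ker_toZModPow, RingHom.mem_ker]
  exact hM i j

end FLTAgent.MLT

end
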