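import Fermat.Agent.MLT.PointStrict
import Fermat.Agent.Attach.Tate

/-!
Area MLT, parcel POINT: the `p`-adic Tate module of a curve as matrices over `ℤ_p`.

`TateBasis`: two compatible sequences of points of `p`-power order, independent at the bottom.
`TateBasis.mat`: the Galois action in these coordinates, reducing to the matrices on every
`W[p ^ (n + 1)]`; determinant and trace at Frobenius elements, determinant cyclotomic.
-/

set_option autoImplicit false
set_option linter.unusedSectionVars false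
set_option linter.style.haveILetI false

noncomputable section

open WeierstrassCurve IsLocalRing Matrix
open FLTAgent.Local FLTAgent.Torsion
open FLTAgent.Attach (cyc cyc_spec cycR)
open WeierstrassCurve.Affine.Point (galoisRepModuleEnd galoisRepModuleEnd_apply)
open scoped WeierstrassCurve.Affine

namespace FLTAgent.MLT

local notation "Qb" => AlgebraicClosure ℚ
local notation "GalQ" => AlgebraicClosure ℚ ≃ₐ[ℚ] AlgebraicClosure ℚ

variable (W : WeierstrassCurve ℤ) (p : ℕ)

/-- the action on the `p ^ (n + 1)`-torsion -/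
abbrev levelEnd (n : ℕ) : GalQ →* Module.End (ZMod (p ^ (n + 1))) (Tors W (p ^ (n + 1))) :=
  galoisRepModuleEnd ℚ (K := Qb) (W.map (Int.castRingHom ℚ)) (p ^ (n + 1))

/-- compatible sequences of torsion points, independent at the bottom -/
structure TateBasis where
  /-- the points -/
  pt : Fin 2 → ℕ → QPoint W
  kill : ∀ i n, p ^ (n + 1) • pt i n = 0
  step : ∀ i n, p • pt i (n + 1) = pt i n
  indep : ∀ a b : ℕ, a • pt 0 0 + b • pt 1 0 = 0 → p ∣ a ∧ p ∣ b

variable {W p}

theorem exists_tateBasis [hp : Fact p.Prime] (hΔ : W.Δ ≠ 0) : Nonempty (TateBasis W p) := by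
  obtain ⟨hfin, hrank⟩ := finrank_tors hΔ p
  let b := Module.finBasisOfFinrankEq (ZMod p) (Tors W p) hrank
  have hsucc : ∀ n (P : {P : QPoint W // p ^ (n + 1) • P = 0}),
      ∃ Q : {Q : QPoint W // p ^ (n + 1 + 1) • Q = 0}, p • Q.1 = P.1 := fun n P => by
    obtain ⟨y, hy⟩ := exists_div hΔ hp.out.ne_zero (pow_ne_zero (n + 1) hp.out.ne_zero) P.2
    exact ⟨⟨y, by rw [pow_succ', mul_nsmul, hy, P.2]⟩, hy⟩
  choose next hnext using hsucc
  let seq : Fin 2 → ∀ n, {P : QPoint W // p ^ (n + 1) • P = 0} := fun i n =>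
    Nat.rec ⟨(b i : QPoint W), by
      rw [show Nat.zero + 1 = 1 from rfl, pow_one]; exact nsmul_tors (b i)⟩
      (fun m P => next m P) n
  refine ⟨⟨fun i n => (seq i n).1, fun i n => (seq i n).2, fun i n => hnext n (seq i n),
    fun x y h => ?_⟩⟩
  have h0 : (x : ZMod p) • b 0 + (y : ZMod p) • b 1 = 0 := by
    rw [Nat.cast_smul_eq_nsmul, Nat.cast_smul_eq_nsmul]
    exact Subtype.ext h
  have h1 := congrArg b.repr h0
  rw [b.repr.map_add, b.repr.map_smul, b.repr.map_smul, b.repr.map_zero, Module.Basis.repr_self,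
    Module.Basis.repr_self] at h1
  have e0 := DFunLike.congr_fun h1 0
  have e1 := DFunLike.congr_fun h1 1
  simp [ZMod.natCast_eq_zero_iff] at e0 e1
  exact ⟨e0, e1⟩

namespace TateBasis

variable [hp : Fact p.Prime] (T : TateBasis W p)

theorem pow_nsmul (i : Fin 2) (n m : ℕ) : p ^ m • T.pt i (n + m) = T.pt i n := by
  induction m with
  | zero => rw [pow_zero, one_nsmul]; rfl
  | succ m ih => rw [pow_succ', mul_nsmul, ← Nat.add_assoc, T.step, ih]

theorem dvd_of_eq_zero : ∀ (n a b : ℕ), a • T.pt 0 n + b • T.pt 1 n = 0 →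
    p ^ (n + 1) ∣ a ∧ p ^ (n + 1) ∣ b := by
  intro n
  induction n with
  | zero => intro a b h; rw [zero_add, pow_one]; exact T.indep a b h
  | succ n ih =>
    intro a b h
    have h' := congrArg (p • ·) h
    simp only [nsmul_add, nsmul_zero] at h'
    rw [← mul_nsmul', ← mul_nsmul', mul_comm p a, mul_comm p b, mul_nsmul', mul_nsmul', T.step,
      T.step] at h'
    obtain ⟨ha, hb⟩ := ih a b h'
    obtain ⟨a', rfl⟩ := ha
    obtain ⟨b', rfl⟩ := hb
    have h0 : a' • T.pt 0 0 + b' • T.pt 1 0 = 0 := by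
      rw [← T.pow_nsmul 0 0 (n + 1), ← T.pow_nsmul 1 0 (n + 1), zero_add, ← mul_nsmul, ← mul_nsmul]
      exact h
    obtain ⟨ha', hb'⟩ := T.indep a' b' h0
    exact ⟨by rw [pow_succ]; exact mul_dvd_mul_left _ ha',
      by rw [pow_succ]; exact mul_dvd_mul_left _ hb'⟩

/-- the points at one level as torsion -/
def vec (n : ℕ) (i : Fin 2) : Tors W (p ^ (n + 1)) := mkTors (T.pt i n) (T.kill i n)

theorem coe_comb (n : ℕ) (c : Fin 2 → ZMod (p ^ (n + 1))) :
    ((Fintype.linearCombination (ZMod (p ^ (n + 1))) (T.vec n) c : Tors W (p ^ (n + 1))) : QPoint W) =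
      (c 0).val • T.pt 0 n + (c 1).val • T.pt 1 n := by
  rw [Fintype.linearCombination_apply, Fin.sum_univ_two, zmod_smul_eq, zmod_smul_eq]
  rfl

variable (hΔ : W.Δ ≠ 0)

include hΔ in
theorem bijective_comb (n : ℕ) :
    Function.Bijective (Fintype.linearCombination (ZMod (p ^ (n + 1))) (T.vec n)) := by
  have := isElliptic_curveBar hΔ
  haveI : Finite (Tors W (p ^ (n + 1))) :=
    finite_torsionBy (curveBar W) _ (pow_ne_zero _ hp.out.ne_zero)
  refine (Nat.bijective_iff_injective_and_card _).2 ⟨?_, ?_⟩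
  · rw [injective_iff_map_eq_zero]
    intro c hc
    have h1 : (c 0).val • T.pt 0 n + (c 1).val • T.pt 1 n = 0 := by rw [← T.coe_comb, hc]; rfl
    obtain ⟨h0, h1'⟩ := T.dvd_of_eq_zero n _ _ h1
    funext i
    fin_cases i
    · show c 0 = 0
      rw [← ZMod.natCast_zmod_val (c 0)]; exact (ZMod.natCast_eq_zero_iff _ _).2 h0
    · show c 1 = 0
      rw [← ZMod.natCast_zmod_val (c 1)]; exact (ZMod.natCast_eq_zero_iff _ _).2 h1'
  · rw [show Nat.card (Tors W (p ^ (n + 1))) = (p ^ (n + 1)) ^ 2 from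
      natCard_torsionBy (curveBar W) _ (pow_ne_zero _ hp.out.ne_zero), Nat.card_fun, Nat.card_zmod,
      Nat.card_fin]

/-- the basis at one level -/
def basis (n : ℕ) : Module.Basis (Fin 2) (ZMod (p ^ (n + 1))) (Tors W (p ^ (n + 1))) :=
  Module.Basis.ofEquivFun (LinearEquiv.ofBijective _ (T.bijective_comb hΔ n)).symm

theorem basis_apply (n : ℕ) (i : Fin 2) : T.basis hΔ n i = T.vec n i := by
  simp [basis, Module.Basis.coe_ofEquivFun, LinearEquiv.ofBijective_apply]

/-- the matrix at one level -/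
def levelMat (n : ℕ) (σ : GalQ) : Matrix (Fin 2) (Fin 2) (ZMod (p ^ (n + 1))) :=
  LinearMap.toMatrix (T.basis hΔ n) (T.basis hΔ n) (levelEnd W p n σ)

theorem smul_pt (n : ℕ) (σ : GalQ) (j : Fin 2) :
    σ • T.pt j n = (T.levelMat hΔ n σ 0 j).val • T.pt 0 n + (T.levelMat hΔ n σ 1 j).val • T.pt 1 n := by
  have h := (T.basis hΔ n).sum_repr (levelEnd W p n σ (T.basis hΔ n j))
  rw [Fin.sum_univ_two] at h
  have h2 := congrArg (fun x : Tors W (p ^ (n + 1)) => (x : QPoint W)) h
  simp only [T.basis_apply, galoisRepModuleEnd_apply, zmod_smul_eq] at h2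
  simp only [levelMat, LinearMap.toMatrix_apply, T.basis_apply, galoisRepModuleEnd_apply]
  exact h2.symm

theorem levelMat_cast (n : ℕ) (σ : GalQ) :
    (T.levelMat hΔ (n + 1) σ).map (ZMod.castHom (pow_dvd_pow p n.succ.le_succ) (ZMod (p ^ (n + 1)))) =
      T.levelMat hΔ n σ := by
  ext i j
  have h := congrArg (p • ·) (T.smul_pt hΔ (n + 1) σ j)
  simp only [nsmul_add] at h
  rw [← smul_nsmul_point, T.step, ← mul_nsmul', ← mul_nsmul', mul_comm p, mul_comm p, mul_nsmul',
    mul_nsmul', T.step, T.step] at h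
  let c : Fin 2 → ZMod (p ^ (n + 1)) := fun l => ((T.levelMat hΔ (n + 1) σ l j).val : ℕ)
  have hc : ∀ l, ((c l).val • T.pt l n : QPoint W) = (T.levelMat hΔ (n + 1) σ l j).val • T.pt l n :=
    fun l => by
      rw [ZMod.val_natCast]
      exact (nsmul_eq_nsmul_of_modEq (Nat.mod_modEq _ _) (T.kill l n)).symm ▸ rfl
  have hv : Fintype.linearCombination (ZMod (p ^ (n + 1))) (T.vec n) c =
      levelEnd W p n σ (T.vec n j) := by
    refine Subtype.ext ?_
    rw [T.coe_comb, hc, hc, ← h, galoisRepModuleEnd_apply]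
    rfl
  have hr : (T.basis hΔ n).repr (levelEnd W p n σ (T.vec n j)) i = c i := by
    rw [← hv]
    simp [basis]
  rw [Matrix.map_apply, ZMod.castHom_apply, ZMod.cast_eq_val]
  show c i = LinearMap.toMatrix (T.basis hΔ n) (T.basis hΔ n) (levelEnd W p n σ) i j
  rw [LinearMap.toMatrix_apply, T.basis_apply, hr]

theorem exists_entry (σ : GalQ) (i j : Fin 2) :
    ∃ x : ℤ_[p], ∀ n, PadicInt.toZModPow (n + 1) x = T.levelMat hΔ n σ i j := by
  set a : ℕ → ℤ_[p] := fun n => ((T.levelMat hΔ n σ i j).val : ℤ_[p]) with ha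
  have hval : ∀ n, PadicInt.toZModPow (n + 1) (a n) = T.levelMat hΔ n σ i j := fun n => by
    rw [ha, map_natCast, ZMod.natCast_zmod_val]
  have hstep : ∀ n, PadicInt.toZModPow (n + 1) (a (n + 1)) = T.levelMat hΔ n σ i j := fun n => by
    rw [ha, map_natCast, ← T.levelMat_cast hΔ n σ, Matrix.map_apply, ZMod.castHom_apply,
      ZMod.cast_eq_val]
  have hmem : ∀ n (x : ℤ_[p]), PadicInt.toZModPow (n + 1) x = 0 ↔
      x ∈ maximalIdeal ℤ_[p] ^ (n + 1) := fun n x => by
    rw [PadicInt.maximalIdeal_eq_span_p, Ideal.span_singleton_pow, ← PadicInt.ker_toZModPow,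
      RingHom.mem_ker]
  obtain ⟨L, hL⟩ := Attach.exists_adic_lim a fun n =>
    Ideal.pow_le_pow_right n.le_succ ((hmem n _).1 (by rw [map_sub, hstep, hval, sub_self]))
  refine ⟨L, fun n => ?_⟩
  rw [← hstep n, ← sub_eq_zero, ← map_sub, hmem]
  exact hL (n + 1)

/-- the Galois action in the coordinates -/
def mat (σ : GalQ) : Matrix (Fin 2) (Fin 2) ℤ_[p] := fun i j => (T.exists_entry hΔ σ i j).choose

theorem mat_level (n : ℕ) (σ : GalQ) :
    (T.mat hΔ σ).map (PadicInt.toZModPow (n + 1)) = T.levelMat hΔ n σ := by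
  ext i j
  exact (T.exists_entry hΔ σ i j).choose_spec n

theorem ext_level {M M' : Matrix (Fin 2) (Fin 2) ℤ_[p]}
    (h : ∀ n, M.map (PadicInt.toZModPow (n + 1)) = M'.map (PadicInt.toZModPow (n + 1))) : M = M' := by
  ext i j
  refine PadicInt.ext_of_toZModPow.1 fun n => ?_
  have h1 := congrFun (congrFun (h n) i) j
  simp only [Matrix.map_apply] at h1
  rw [← PadicInt.cast_toZModPow n (n + 1) n.le_succ, h1, PadicInt.cast_toZModPow n (n + 1) n.le_succ]

theorem mat_one : T.mat hΔ 1 = 1 := ext_level fun n => by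
  rw [T.mat_level, levelMat, map_one, Matrix.map_one _ (map_zero _) (map_one _),
    LinearMap.toMatrix_one]

theorem mat_mul (σ τ : GalQ) : T.mat hΔ (σ * τ) = T.mat hΔ σ * T.mat hΔ τ := ext_level fun n => by
  rw [T.mat_level, Matrix.map_mul, T.mat_level, T.mat_level, levelMat, map_mul, LinearMap.toMatrix_mul]
  rfl

/-- each level factors through a finite extension -/
theorem exists_level (n : ℕ) : ∃ L : IntermediateField ℚ Qb, FiniteDimensional ℚ L ∧
    ∀ σ τ : GalQ, (∀ z ∈ L, σ z = τ z) → T.levelMat hΔ n σ = T.levelMat hΔ n τ := by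
  obtain ⟨L, hL, h⟩ := EllFrob.exists_torsion_field hΔ (p ^ (n + 1)) (pow_ne_zero _ hp.out.ne_zero)
  refine ⟨L, hL, fun σ τ hst => ?_⟩
  rw [levelMat, levelMat]
  congr 1
  exact LinearMap.ext fun x => h σ τ hst x

theorem levelMat_pow (n : ℕ) (σ : GalQ) (k : ℕ) :
    T.levelMat hΔ n (σ ^ k) = T.levelMat hΔ n σ ^ k := by
  rw [← T.mat_level, ← T.mat_level, ← RingHom.mapMatrix_apply, ← RingHom.mapMatrix_apply,
    ← map_pow]
  congr 1
  induction k with
  | zero => rw [pow_zero, pow_zero, T.mat_one]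
  | succ k ih => rw [pow_succ, pow_succ, T.mat_mul, ih]

variable {ℓ : ℕ} {A : ValuationSubring (AlgebraicClosure ℚ)} {σ : GalQ}

/-- trace and determinant at a Frobenius element of a good prime -/
theorem frobenius (hℓ : ℓ.Prime) (hgood : ¬ (ℓ : ℤ) ∣ W.Δ) (hA : A.LiesOverPrime ℓ)
    (hσ : A.IsFrobeniusAt σ ℓ) (hpℓ : p ≠ ℓ) :
    (T.mat hΔ σ).trace = (W.apOfModel ℓ : ℤ_[p]) ∧ (T.mat hΔ σ).det = (ℓ : ℤ_[p]) := by
  set a := W.apOfModel ℓ
  set M := T.mat hΔ σ with hM
  have hℓn : ∀ n, ¬ ℓ ∣ p ^ (n + 1) := fun n h =>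
    hpℓ ((Nat.prime_dvd_prime_iff_eq hℓ hp.out).1 (hℓ.dvd_of_dvd_pow h)).symm
  have hrel : M * M - (a : ℤ_[p]) • M + (ℓ : ℤ_[p]) • 1 = 0 := ext_level fun n => by
    set f := (PadicInt.toZModPow (p := p) (n + 1)).mapMatrix (m := Fin 2)
    show f _ = f 0
    have hf : f M = T.levelMat hΔ n σ := T.mat_level hΔ n σ
    have hs : ∀ (c : ℤ_[p]) (X : Matrix (Fin 2) (Fin 2) ℤ_[p]),
        f (c • X) = PadicInt.toZModPow (n + 1) c • f X := fun c X => by
      ext i j; simp [f]
    rw [map_add, map_sub, map_mul, hs, hs, map_one, map_intCast, map_natCast, hf, map_zero]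
    set g := levelEnd W p n σ
    have hgg : g * g - (a : ZMod (p ^ (n + 1))) • g + (ℓ : ZMod (p ^ (n + 1))) • 1 = 0 := by
      refine LinearMap.ext fun x => Subtype.ext ?_
      have h := EllFrob.torsion_relation hℓ hgood hA hσ (hℓn n) (x : QPoint W) (nsmul_tors x)
      simp only [LinearMap.add_apply, LinearMap.sub_apply, LinearMap.smul_apply,
        Module.End.mul_apply, Module.End.one_apply, LinearMap.zero_apply, g,
        galoisRepModuleEnd_apply, Submodule.coe_add, AddSubgroupClass.coe_sub,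
        Int.cast_smul_eq_zsmul, Nat.cast_smul_eq_nsmul]
      rw [natCast_zsmul] at h
      exact h
    have h2 := congrArg (LinearMap.toMatrix (T.basis hΔ n) (T.basis hΔ n)) hgg
    simp only [map_add, map_sub, map_smul, LinearMap.toMatrix_mul, LinearMap.toMatrix_one,
      map_zero] at h2
    exact h2
  have hne : ¬ (M 0 1 = 0 ∧ M 1 0 = 0 ∧ M 0 0 = M 1 1) := by
    rintro ⟨h01, h10, hd⟩
    refine EllFrob.not_scalar_pow hℓ hgood hA hσ hp.out hpℓ fun N => ?_
    obtain ⟨r, hr⟩ := ZMod.intCast_surjective (PadicInt.toZModPow (N + 1) (M 0 0))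
    refine ⟨r, fun P hP => ?_⟩
    have hP' : p ^ (N + 1) • P = 0 := by rw [pow_succ, mul_nsmul, hP, nsmul_zero]
    have hlev : levelEnd W p N σ = (r : ZMod (p ^ (N + 1))) • 1 := by
      apply (LinearMap.toMatrix (T.basis hΔ N) (T.basis hΔ N)).injective
      show T.levelMat hΔ N σ = _
      rw [← T.mat_level, map_smul, LinearMap.toMatrix_one, hr]
      ext i j
      fin_cases i <;> fin_cases j <;> simp [← hM, h01, h10, hd]
    have h := congrArg (fun f => ((f (mkTors P hP') : Tors W (p ^ (N + 1))) : QPoint W)) hlev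
    simp [Int.cast_smul_eq_zsmul] at h
    exact h
  have e00 := congrFun (congrFun hrel 0) 0
  have e01 := congrFun (congrFun hrel 0) 1
  have e10 := congrFun (congrFun hrel 1) 0
  have e11 := congrFun (congrFun hrel 1) 1
  simp [Matrix.mul_apply, Fin.sum_univ_two] at e00 e01 e10 e11
  have key : M 0 0 + M 1 1 = (a : ℤ_[p]) := by
    by_contra h
    have h' : M 0 0 + M 1 1 - (a : ℤ_[p]) ≠ 0 := sub_ne_zero.2 h
    have h01 : M 0 1 * (M 0 0 + M 1 1 - a) = 0 := by linear_combination e01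
    have h10 : M 1 0 * (M 0 0 + M 1 1 - a) = 0 := by linear_combination e10
    have hdd : (M 0 0 - M 1 1) * (M 0 0 + M 1 1 - a) = 0 := by linear_combination e00 - e11
    exact hne ⟨(mul_eq_zero.1 h01).resolve_right h', (mul_eq_zero.1 h10).resolve_right h',
      sub_eq_zero.1 ((mul_eq_zero.1 hdd).resolve_right h')⟩
  rw [Matrix.trace_fin_two, Matrix.det_fin_two]
  exact ⟨key, by linear_combination -e00 + (M 0 0) * key⟩

theorem det_level (n : ℕ) [NeZero (p ^ (n + 1))] (σ : GalQ) :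
    (T.levelMat hΔ n σ).det = cyc (p ^ (n + 1)) σ := by
  obtain ⟨L, hL, hLt⟩ := T.exists_level hΔ n
  obtain ⟨L', hL', hcyc⟩ := Attach.exists_cyc_level (p ^ (n + 1))
  haveI := hL
  haveI := hL'
  refine congrFun (Chebotarev.eq_of_forall_frobenius_pow (fun σ => (T.levelMat hΔ n σ).det)
    (cyc (p ^ (n + 1))) (L ⊔ L') ?_ ?_ (insert p W.Δ.natAbs.primeFactors) ?_) σ
  · intro σ τ h
    show (T.levelMat hΔ n σ).det = _
    rw [hLt σ τ fun z hz => h z (le_sup_left (b := L') hz)]
  · intro σ τ h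
    have h1 : cyc (p ^ (n + 1)) (τ⁻¹ * σ) = 1 := hcyc _ fun z hz => by
      rw [AlgEquiv.mul_apply, h z (le_sup_right (a := L) hz)]
      exact τ.symm_apply_apply z
    calc cyc (p ^ (n + 1)) σ = cyc (p ^ (n + 1)) (τ * (τ⁻¹ * σ)) := by rw [mul_inv_cancel_left]
      _ = cyc (p ^ (n + 1)) τ := by rw [Attach.cyc_mul, h1, mul_one]
  · intro ℓ A τ k hℓ hS hA hF
    rw [Finset.mem_insert, not_or] at hS
    have hgood : ¬ (ℓ : ℤ) ∣ W.Δ := fun h => hS.2 (Nat.mem_primeFactors.2
      ⟨hℓ, Int.natCast_dvd.1 h, by simpa using hΔ⟩)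
    show (T.levelMat hΔ n (τ ^ k)).det = _
    rw [T.levelMat_pow, Matrix.det_pow, EllFrob.cyc_pow]
    congr 1
    rw [← T.mat_level, ← RingHom.mapMatrix_apply, ← RingHom.map_det,
      (T.frobenius hΔ hℓ hgood hA hF (Ne.symm hS.1)).2, map_natCast,
      Attach.cyc_frobenius hℓ
        (fun h => hS.1 ((Nat.prime_dvd_prime_iff_eq hℓ hp.out).1 (hℓ.dvd_of_dvd_pow h))) hA hF]

theorem natCast_mem_maximalIdeal : ((p : ℕ) : ℤ_[p]) ∈ maximalIdeal ℤ_[p] := by
  rw [PadicInt.maximalIdeal_eq_span_p]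
  exact Ideal.mem_span_singleton_self _

theorem det_mat (σ : GalQ) : (T.mat hΔ σ).det = cycR hp.out natCast_mem_maximalIdeal σ := by
  refine PadicInt.ext_of_toZModPow.1 fun n => ?_
  rw [← PadicInt.cast_toZModPow n (n + 1) n.le_succ,
    ← PadicInt.cast_toZModPow n (n + 1) n.le_succ (x := cycR hp.out natCast_mem_maximalIdeal σ)]
  congr 1
  haveI : NeZero (p ^ (n + 1)) := ⟨pow_ne_zero _ hp.out.ne_zero⟩
  have h := Attach.cycR_spec hp.out (natCast_mem_maximalIdeal (p := p)) σ (n + 1)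
  rw [PadicInt.maximalIdeal_eq_span_p, Ideal.span_singleton_pow, ← PadicInt.ker_toZModPow,
    RingHom.mem_ker, map_sub, map_natCast, ZMod.natCast_zmod_val, sub_eq_zero] at h
  rw [h, RingHom.map_det, RingHom.mapMatrix_apply, T.mat_level, T.det_level]

end TateBasis

end FLTAgent.MLT

end
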