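import Fermat.Agent.MLT.PointTate
import Fermat.Agent.S58.Semistable
import Fermat.Agent.SS2.Transfer

/-!
Area MLT, parcel POINT: the Tate module away from `p`: unramified at good primes, at multiplicative
primes unipotent on inertia with trace of Frobenius `± (1 + q)`.
-/

set_option autoImplicit false
set_option linter.unusedSectionVars false
set_option linter.style.haveILetI false

noncomputable section

open WeierstrassCurve IsLocalRing Matrix
open FLTAgent.Local FLTAgent.Torsion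
open FLTAgent.Attach (cyc cyc_spec cycR)
open WeierstrassCurve.Affine.Point (galoisRepModuleEnd galoisRepModuleEnd_apply)
open scoped WeierstrassCurve.Affine

namespace FLTAgent.MLT

local notation "Qb" => AlgebraicClosure ℚ
local notation "GalQ" => AlgebraicClosure ℚ ≃ₐ[ℚ] AlgebraicClosure ℚ

variable {W : WeierstrassCurve ℤ} {p : ℕ} {q : ℕ} {A : ValuationSubring (AlgebraicClosure ℚ)}

/-- a point of order `p ^ (n + 1)` modulo the identity component -/
theorem exists_full_off_zeroComp [hp : Fact p.Prime] (hp2 : p ≠ 2) (hΔ : W.Δ ≠ 0) (hq : q.Prime)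
    (hqp : q ≠ p) (hd : (q : ℤ) ∣ W.Δ) (hss : SemistableAt W q) (hA : A.LiesOverPrime q) (n : ℕ) :
    ∃ P : QPoint W, p ^ (n + 1) • P = 0 ∧
      ∀ c : ℤ, c • P ∈ zeroComp W A → ((p ^ (n + 1) : ℕ) : ℤ) ∣ c := by
  obtain ⟨P₀, h₀, h₀E⟩ := S58.exists_torsion_not_mem_zeroComp hA hq hd hss hΔ (r := p)
    (hp.out.odd_of_ne_two hp2) (by have := hp.out.two_le; omega)
    (fun h => hqp ((Nat.prime_dvd_prime_iff_eq hq hp.out).1 h))
  obtain ⟨P, hP⟩ := exists_div hΔ (pow_ne_zero n hp.out.ne_zero) hp.out.ne_zero h₀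
  refine ⟨P, by rw [pow_succ, mul_nsmul, hP, h₀], ?_⟩
  have h1 : ∀ d : ℤ, d • P₀ ∈ zeroComp W A → (p : ℤ) ∣ d := by
    intro d hd'
    by_contra hn
    obtain ⟨x, y, hxy⟩ := ((Nat.prime_iff_prime_int.mp hp.out).coprime_iff_not_dvd).2 hn
    apply h₀E
    have e' : P₀ = y • (d • P₀) := by
      conv_lhs => rw [← one_zsmul P₀, ← hxy, add_zsmul, mul_zsmul, natCast_zsmul, h₀, zsmul_zero,
        zero_add, mul_zsmul]
    rw [e']
    exact zsmul_mem hd' y
  have key : ∀ j, j ≤ n + 1 → ∀ c : ℤ, c • P ∈ zeroComp W A → ((p ^ j : ℕ) : ℤ) ∣ c := by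
    intro j
    induction j with
    | zero => intro _ c _; simp
    | succ j ih =>
      intro hj c hc
      obtain ⟨d, rfl⟩ := ih (by omega) c hc
      have h2 : d • P₀ ∈ zeroComp W A := by
        have := AddSubgroup.nsmul_mem _ hc (p ^ (n - j))
        rwa [← natCast_zsmul, ← mul_zsmul, ← mul_assoc, ← Nat.cast_mul, ← pow_add,
          show n - j + j = n by omega, mul_comm, mul_zsmul, natCast_zsmul, hP] at this
      obtain ⟨e, rfl⟩ := h1 d h2
      exact ⟨e, by push_cast; ring⟩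
  exact key (n + 1) le_rfl

namespace TateBasis

variable [hp : Fact p.Prime] (T : TateBasis W p) (hΔ : W.Δ ≠ 0) {σ : GalQ}

theorem ext_levelEnd {n : ℕ} {M : Matrix (Fin 2) (Fin 2) (ZMod (p ^ (n + 1)))}
    {f : Module.End (ZMod (p ^ (n + 1))) (Tors W (p ^ (n + 1)))}
    (h : LinearMap.toMatrix (T.basis hΔ n) (T.basis hΔ n) f = M) (hf : f = 0) : M = 0 := by
  rw [← h, hf, map_zero]

/-- good primes are unramified -/
theorem mat_inertia_good (hq : q.Prime) (hqp : q ≠ p) (hgood : ¬ (q : ℤ) ∣ W.Δ)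
    (hA : A.LiesOverPrime q) (hσ : σ ∈ A.inertiaSubgroupIn ℚ) : T.mat hΔ σ = 1 :=
  ext_level fun n => by
    rw [T.mat_level, Matrix.map_one _ (map_zero _) (map_one _), levelMat,
      ← LinearMap.toMatrix_one (T.basis hΔ n)]
    congr 1
    refine LinearMap.ext fun x => Subtype.ext ?_
    have hx := nsmul_tors x
    rw [galoisRepModuleEnd_apply, coe_smul, Module.End.one_apply, ← sub_eq_zero]
    refine redKernel_torsion_eq_zero hA hq (n := p ^ (n + 1))
      (fun h => hqp ((Nat.prime_dvd_prime_iff_eq hq hp.out).1 (hq.dvd_of_dvd_pow h)))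
      (inertia_sub_mem_redKernel hσ (mem_zeroComp_of_good hA hq hgood _)) ?_
    rw [nsmul_sub, smul_torsion hx, hx, sub_zero]

/-- semistable primes away from `p`: inertia is unipotent -/
theorem mat_inertia_sq (hp2 : p ≠ 2) (hq : q.Prime) (hqp : q ≠ p) (hss : SemistableAt W q)
    (hA : A.LiesOverPrime q) (hσ : σ ∈ A.inertiaSubgroupIn ℚ) :
    (T.mat hΔ σ - 1) * (T.mat hΔ σ - 1) = 0 := ext_level fun n => by
  set f := (PadicInt.toZModPow (p := p) (n + 1)).mapMatrix (m := Fin 2)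
  show f _ = f 0
  have hf : f (T.mat hΔ σ) = T.levelMat hΔ n σ := T.mat_level hΔ n σ
  rw [map_mul, map_sub, map_one, hf, map_zero]
  refine T.ext_levelEnd hΔ (f := (levelEnd W p n σ - 1) * (levelEnd W p n σ - 1)) ?_ ?_
  · rw [LinearMap.toMatrix_mul, map_sub, LinearMap.toMatrix_one]
    rfl
  refine LinearMap.ext fun x => Subtype.ext ?_
  have h := S58.inertia_sq_eq hA hq hss hΔ hp.out hp2 hqp hσ (m := n + 1) (nsmul_tors x)
  simp only [Module.End.mul_apply, LinearMap.sub_apply, Module.End.one_apply,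
    galoisRepModuleEnd_apply, LinearMap.zero_apply, AddSubgroupClass.coe_sub, coe_smul,
    ZeroMemClass.coe_zero, S58.galois_sub]
  rw [← h, two_zsmul]
  abel

theorem trace_inertia (hp2 : p ≠ 2) (hq : q.Prime) (hqp : q ≠ p) (hss : SemistableAt W q)
    (hA : A.LiesOverPrime q) (hσ : σ ∈ A.inertiaSubgroupIn ℚ) :
    (T.mat hΔ σ).trace = 2 ∧ (T.mat hΔ σ).det = 1 := by
  refine ⟨?_, by rw [T.det_mat, Attach.cycR_inertia hp.out _ hq hqp hA hσ]⟩
  have h := SS2.trace_eq_zero_of_sq_zero (T.mat_inertia_sq hΔ hp2 hq hqp hss hA hσ)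
  rw [Matrix.trace_sub, sub_eq_zero] at h
  rw [h, Matrix.trace_one, Fintype.card_fin]
  rfl

/-- the trace of Frobenius at a prime of multiplicative reduction -/
theorem trace_frobenius_bad (hp2 : p ≠ 2) (hq : q.Prime) (hqp : q ≠ p) (hd : (q : ℤ) ∣ W.Δ)
    (hss : SemistableAt W q) (hA : A.LiesOverPrime q) (hσ : A.IsFrobeniusAt σ q) :
    ∃ w : ℤ, (w = 1 ∨ w = -1) ∧ (T.mat hΔ σ).trace = (w : ℤ_[p]) * (1 + (q : ℤ_[p])) := by
  set t := (T.mat hΔ σ).trace with ht
  have key : ∀ n, PadicInt.toZModPow (n + 1) ((t - (1 + (q : ℤ_[p]))) * (t + (1 + (q : ℤ_[p])))) = 0 := by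
    intro n
    haveI : NeZero (p ^ (n + 1)) := ⟨pow_ne_zero _ hp.out.ne_zero⟩
    obtain ⟨P, hP, hfull⟩ := exists_full_off_zeroComp hp2 hΔ hq hqp hd hss hA n
    obtain ⟨a, ha⟩ := ZMod.intCast_surjective (T.levelMat hΔ n σ).trace
    have hdet : (T.levelMat hΔ n σ).det = (((q : ℕ) : ℤ) : ZMod (p ^ (n + 1))) := by
      rw [T.det_level, Attach.cyc_frobenius hq
        (fun h => hqp ((Nat.prime_dvd_prime_iff_eq hq hp.out).1 (hq.dvd_of_dvd_pow h))) hA hσ,
        Int.cast_natCast]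
    have hrel : levelEnd W p n σ * levelEnd W p n σ - (a : ZMod (p ^ (n + 1))) • levelEnd W p n σ +
        (((q : ℕ) : ℤ) : ZMod (p ^ (n + 1))) • (1 : Module.End (ZMod (p ^ (n + 1))) (Tors W (p ^ (n + 1)))) = 0 := by
      apply (LinearMap.toMatrix (T.basis hΔ n) (T.basis hΔ n)).injective
      rw [map_add, map_sub, map_smul, map_smul, LinearMap.toMatrix_mul, LinearMap.toMatrix_one,
        map_zero]
      show T.levelMat hΔ n σ * T.levelMat hΔ n σ - (a : ZMod (p ^ (n + 1))) • T.levelMat hΔ n σ +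
        (((q : ℕ) : ℤ) : ZMod (p ^ (n + 1))) • 1 = 0
      rw [Attach.sq_fin_two, ha, hdet]
      abel
    have e := congrArg (fun x : Tors W (p ^ (n + 1)) => (x : QPoint W))
      (LinearMap.congr_fun hrel (mkTors P hP))
    simp only [LinearMap.add_apply, LinearMap.sub_apply, LinearMap.smul_apply,
      Module.End.mul_apply, Module.End.one_apply, LinearMap.zero_apply, galoisRepModuleEnd_apply,
      Submodule.coe_add, AddSubgroupClass.coe_sub, Int.cast_smul_eq_zsmul, coe_smul] at e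
    change σ • (σ • P) - a • (σ • P) + ((q : ℕ) : ℤ) • P = 0 at e
    have hdec := hσ.mem_decompositionSubgroup
    obtain ⟨w, hw, hwP⟩ : ∃ w : ℤ, (w = 1 ∨ w = -1) ∧ σ • P - w • P ∈ zeroComp W A := by
      rcases S58.image_add_or_sub hA hq hd hss hdec (hp.out.odd_of_ne_two hp2).pow hP with h | h
      · exact ⟨-1, Or.inr rfl, by rwa [neg_one_zsmul, sub_neg_eq_add]⟩
      · exact ⟨1, Or.inl rfl, by rwa [one_zsmul]⟩
    have h2 := S58.smul_mem_zeroComp hA hq hd hss hdec hwP
    rw [S58.galois_sub, EllFrob.galois_zsmul] at h2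
    have hkey : ((p ^ (n + 1) : ℕ) : ℤ) ∣ 1 - w * a + q := by
      refine hfull _ ?_
      have h3 : (σ • (σ • P) - w • (σ • P)) + (w - a) • (σ • P - w • P) ∈ zeroComp W A :=
        add_mem h2 (zsmul_mem hwP _)
      have hsq : w * w = 1 := by rcases hw with rfl | rfl <;> norm_num
      have h4 : (σ • (σ • P) - w • (σ • P)) + (w - a) • (σ • P - w • P) =
          -((1 - w * a + q) • P) := by
        rw [zsmul_sub, sub_zsmul, sub_zsmul, add_zsmul, sub_zsmul, one_zsmul, ← mul_zsmul,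
          ← mul_zsmul, hsq, one_zsmul, mul_comm a w]
        linear_combination (norm := abel) e
      rw [h4] at h3
      exact neg_mem_iff.1 h3
    have ht' : PadicInt.toZModPow (n + 1) t = (a : ZMod (p ^ (n + 1))) := by
      rw [ha, ← T.mat_level, ht]
      exact AddMonoidHom.map_trace (PadicInt.toZModPow (p := p) (n + 1)).toAddMonoidHom _
    simp only [map_mul, map_sub, map_add, map_one, map_natCast, ht']
    have hz := (ZMod.intCast_zmod_eq_zero_iff_dvd _ (p ^ (n + 1))).2 hkey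
    push_cast at hz
    rcases hw with rfl | rfl
    · push_cast at hz; linear_combination -(a + (1 + (q : ZMod (p ^ (n + 1))))) * hz
    · push_cast at hz; linear_combination ((a : ZMod (p ^ (n + 1))) - (1 + q)) * hz
  have h0 : (t - (1 + (q : ℤ_[p]))) * (t + (1 + (q : ℤ_[p]))) = 0 := by
    refine PadicInt.ext_of_toZModPow.1 fun n => ?_
    rw [← PadicInt.cast_toZModPow n (n + 1) n.le_succ, key, map_zero, ZMod.cast_zero]
  rcases mul_eq_zero.1 h0 with h | h
  · exact ⟨1, Or.inl rfl, by rw [Int.cast_one, one_mul]; exact sub_eq_zero.1 h⟩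
  · exact ⟨-1, Or.inr rfl, by
      rw [Int.cast_neg, Int.cast_one, neg_one_mul]; exact eq_neg_of_add_eq_zero_left h⟩

end TateBasis

end FLTAgent.MLT

end
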