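import Fermat.Agent.MLT.PointTateLocal

/-!
Area MLT, parcel POINT: at a prime `p` of multiplicative reduction the Tate module is strictly
ordinary over `ℤ_p`: the frames adapted to the levels form a decreasing sequence of non-empty
compact sets, and a common member is a frame over `ℤ_p`.
-/

set_option autoImplicit false
set_option linter.unusedSectionVars false
set_option linter.style.haveILetI false

noncomputable section

open WeierstrassCurve IsLocalRing Matrix
open FLTAgent.Local FLTAgent.Torsion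
open FLTAgent.Attach (cyc cyc_spec cycR)
open scoped WeierstrassCurve.Affine

namespace FLTAgent.MLT

local notation "GalQ" => AlgebraicClosure ℚ ≃ₐ[ℚ] AlgebraicClosure ℚ

namespace TateBasis

variable {W : WeierstrassCurve ℤ} {p : ℕ} [hp : Fact p.Prime] (T : TateBasis W p) (hΔ : W.Δ ≠ 0)

theorem isClosed_toZModPow_eq_zero {X : Type*} [TopologicalSpace X] (n : ℕ) {f : X → ℤ_[p]}
    (hf : Continuous f) : IsClosed {x | PadicInt.toZModPow n (f x) = 0} := by
  have h : {x | PadicInt.toZModPow n (f x) = 0} = {x | ‖f x‖ ≤ (p : ℝ) ^ (-(n : ℤ))} :=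
    Set.ext fun x => by
      rw [Set.mem_setOf_eq, Set.mem_setOf_eq, PadicInt.norm_le_pow_iff_mem_span_pow,
        ← PadicInt.ker_toZModPow, RingHom.mem_ker]
  rw [h]
  exact isClosed_le hf.norm continuous_const

theorem toZModPow_det (n : ℕ) [NeZero (p ^ (n + 1))] (σ : GalQ) :
    PadicInt.toZModPow (n + 1) (T.mat hΔ σ).det = cyc (p ^ (n + 1)) σ := by
  rw [RingHom.map_det, RingHom.mapMatrix_apply, T.mat_level, T.det_level]

/-- the Tate module at a prime `p` of multiplicative reduction is strictly ordinary -/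
theorem strictMat_mat (hp2 : p ≠ 2) (hd : (p : ℤ) ∣ W.Δ) (hss : SemistableAt W p) :
    PT.TW.StrictMat p fun σ => T.mat hΔ σ := by
  classical
  refine ⟨natCast_mem_maximalIdeal, fun P hP => ?_⟩
  let Mp := Matrix (Fin 2) (Fin 2) ℤ_[p]
  haveI : CompactSpace Mp := inferInstanceAs (CompactSpace (Fin 2 → Fin 2 → ℤ_[p]))
  let Cond : ℕ → Set (Mp × Mp) := fun n => {x |
    (∀ i j, PadicInt.toZModPow (n + 1) ((x.2 * x.1) i j - (1 : Mp) i j) = 0) ∧
    (∀ i j, PadicInt.toZModPow (n + 1) ((x.1 * x.2) i j - (1 : Mp) i j) = 0) ∧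
    (∀ s ∈ P.decompositionSubgroup ℚ,
      PadicInt.toZModPow (n + 1) ((x.2 * T.mat hΔ s * x.1) 1 0) = 0) ∧
    (∀ s ∈ P.inertiaSubgroupIn ℚ,
      PadicInt.toZModPow (n + 1) ((x.2 * T.mat hΔ s * x.1) 1 1 - 1) = 0) ∧
    ∀ s ∈ P.decompositionSubgroup ℚ, PadicInt.toZModPow (n + 1) ((x.2 * T.mat hΔ s * x.1) 0 0 -
      (T.mat hΔ s).det * (x.2 * T.mat hΔ s * x.1) 1 1) = 0}
  have hcl : ∀ n, IsClosed (Cond n) := by
    intro n
    simp only [Cond, Set.setOf_and, Set.setOf_forall]
    refine IsClosed.inter ?_ (IsClosed.inter ?_ (IsClosed.inter ?_ (IsClosed.inter ?_ ?_)))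
    · exact isClosed_iInter fun i => isClosed_iInter fun j =>
        isClosed_toZModPow_eq_zero _ (by fun_prop)
    · exact isClosed_iInter fun i => isClosed_iInter fun j =>
        isClosed_toZModPow_eq_zero _ (by fun_prop)
    all_goals exact isClosed_iInter fun s => isClosed_iInter fun _ =>
      isClosed_toZModPow_eq_zero _ (by fun_prop)
  have hstep : ∀ n (x : ℤ_[p]), PadicInt.toZModPow (n + 1 + 1) x = 0 →
      PadicInt.toZModPow (n + 1) x = 0 := fun n x h => by
    rw [← PadicInt.cast_toZModPow (n + 1) (n + 1 + 1) (Nat.le_succ _), h, ZMod.cast_zero]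
  have hmono : ∀ n, Cond (n + 1) ⊆ Cond n := fun n x hx => by
    obtain ⟨h1, h2, h3, h4, h5⟩ := hx
    exact ⟨fun i j => hstep n _ (h1 i j), fun i j => hstep n _ (h2 i j),
      fun s hs => hstep n _ (h3 s hs), fun s hs => hstep n _ (h4 s hs),
      fun s hs => hstep n _ (h5 s hs)⟩
  have hne : ∀ n, (Cond n).Nonempty := by
    intro n
    haveI : NeZero (p ^ (n + 1)) := ⟨pow_ne_zero _ hp.out.ne_zero⟩
    haveI : Fact (1 < p ^ (n + 1)) := ⟨Nat.one_lt_pow n.succ_ne_zero hp.out.one_lt⟩
    have hsurj := ZMod.ringHom_surjective (PadicInt.toZModPow (p := p) (n + 1))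
    haveI : IsLocalRing (ZMod (p ^ (n + 1))) := IsLocalRing.of_surjective' _ hsurj
    have hdet : ∀ σ : GalQ, LinearMap.det (levelEnd W p n σ) = cyc (p ^ (n + 1)) σ := fun σ => by
      rw [← LinearMap.det_toMatrix (T.basis hΔ n)]
      exact T.det_level hΔ n σ
    obtain ⟨U, U', hU'U, hUU', hD, hI, hx⟩ :=
      (strictMat_torsion hp.out hp2 hΔ hd hss (T.basis hΔ n) hdet).2 P hP
    set f := PadicInt.toZModPow (p := p) (n + 1)
    choose lift hlift using hsurj
    let x : Mp × Mp := (U.map lift, U'.map lift)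
    have e1 : x.1.map f = U := by ext i j; exact hlift _
    have e2 : x.2.map f = U' := by ext i j; exact hlift _
    have eX : ∀ s, (x.2 * T.mat hΔ s * x.1).map f = U' * T.levelMat hΔ n s * U := fun s => by
      rw [Matrix.map_mul, Matrix.map_mul, e1, e2, T.mat_level]
    have hX : ∀ s i j, f ((x.2 * T.mat hΔ s * x.1) i j) = (U' * T.levelMat hΔ n s * U) i j :=
      fun s i j => congrFun (congrFun (eX s) i) j
    have hone : ∀ i j, f ((1 : Mp) i j) = (1 : Matrix (Fin 2) (Fin 2) (ZMod (p ^ (n + 1)))) i j :=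
      fun i j => congrFun (congrFun (Matrix.map_one f (map_zero f) (map_one f)) i) j
    refine ⟨x, fun i j => ?_, fun i j => ?_, fun s hs => (hX s 1 0).trans (hD s hs), fun s hs => ?_,
      fun s hs => ?_⟩
    · rw [map_sub, hone, ← Matrix.map_apply (f := f) (M := x.2 * x.1), Matrix.map_mul, e1, e2,
        hU'U, sub_self]
    · rw [map_sub, hone, ← Matrix.map_apply (f := f) (M := x.1 * x.2), Matrix.map_mul, e1, e2,
        hUU', sub_self]
    · rw [map_sub, hX, map_one, sub_eq_zero]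
      exact (hI s hs).2
    · have h := hx s hs (n + 1) (cyc (p ^ (n + 1)) s).val fun μ hμ => cyc_spec s hμ
      rw [ZMod.natCast_self, Ideal.span_singleton_eq_bot.2 rfl, Ideal.mem_bot,
        ZMod.natCast_zmod_val] at h
      rw [map_sub, map_mul, hX, hX, T.toZModPow_det]
      exact h
  obtain ⟨x, hx⟩ := IsCompact.nonempty_iInter_of_sequence_nonempty_isCompact_isClosed Cond hmono
    hne (hcl 0).isCompact hcl
  rw [Set.mem_iInter] at hx
  have hzero : ∀ y : ℤ_[p], (∀ n, PadicInt.toZModPow (n + 1) y = 0) → y = 0 := fun y hy =>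
    PadicInt.ext_of_toZModPow.1 fun n => by
      rw [← PadicInt.cast_toZModPow n (n + 1) n.le_succ, hy, map_zero, ZMod.cast_zero]
  refine ⟨x.1, x.2, ?_, ?_, fun s hs => hzero _ fun n => (hx n).2.2.1 s hs,
    fun s hs => ⟨hzero _ fun n => (hx n).2.2.1 s (inertia_mem_decomposition hs),
      sub_eq_zero.1 (hzero _ fun n => (hx n).2.2.2.1 s hs)⟩, fun s hs m a hma => ?_⟩
  · ext i j : 1
    exact sub_eq_zero.1 (hzero _ fun n => (hx n).1 i j)
  · ext i j : 1
    exact sub_eq_zero.1 (hzero _ fun n => (hx n).2.1 i j)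
  have h0 := sub_eq_zero.1 (hzero _ fun n => (hx n).2.2.2.2 s hs)
  rw [h0, ← sub_mul]
  refine Ideal.mul_mem_right _ _ ?_
  rw [Nat.cast_pow, ← PadicInt.ker_toZModPow, RingHom.mem_ker]
  rcases m with - | m
  · haveI : Subsingleton (ZMod (p ^ 0)) := by rw [pow_zero]; infer_instance
    exact Subsingleton.elim _ _
  · haveI : NeZero (p ^ (m + 1)) := ⟨pow_ne_zero _ hp.out.ne_zero⟩
    have h := cyc_sub_mem_span hp.out (m + 1) hma
    rw [ZMod.natCast_self, Ideal.span_singleton_eq_bot.2 rfl, Ideal.mem_bot] at h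
    rw [map_sub, map_natCast, T.toZModPow_det, h]

end TateBasis

end FLTAgent.MLT

end
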