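import Fermat.Agent.MLT.SquareLower
import Fermat.Agent.MLT.AuxExists

/-!
Area MLT, top: the level of residual modularity may be taken squarefree.
-/

set_option autoImplicit false

noncomputable section

open WeierstrassCurve

namespace FLTAgent.MLT

/-- repeated lowering of squares -/
theorem exists_squarefree_level {W : WeierstrassCurve ℤ} (hΔ : W.Δ ≠ 0) (hW : W.IsSemistableModel)
    {p : ℕ} (hp : p = 3 ∨ p = 5) (hirr : W.ModRepIsIrreducible p) (M : ℕ) (hM0 : M ≠ 0)
    (hM : ¬ p ^ 2 ∣ M) (hM3 : ∀ q : ℕ, q.Prime → q ≠ p → ¬ q ^ 3 ∣ M)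
    (hmod : W.IsResiduallyModularOfLevel p M) :
    ∃ N : ℕ, Squarefree N ∧ W.IsResiduallyModularOfLevel p N := by
  have hp' : p.Prime := by rcases hp with rfl | rfl <;> norm_num
  have hp2 : p ≠ 2 := by rcases hp with rfl | rfl <;> norm_num
  induction M using Nat.strong_induction_on with
  | _ M ih =>
    by_cases hsq : Squarefree M
    · exact ⟨M, hsq, hmod⟩
    obtain ⟨q, hq, hd⟩ : ∃ q : ℕ, q.Prime ∧ q * q ∣ M := by
      rw [Nat.squarefree_iff_prime_squarefree] at hsq
      push Not at hsq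
      exact hsq
    obtain ⟨L, rfl⟩ := hd
    have hqp : q ≠ p := fun e => hM ⟨L, by subst e; ring⟩
    have hqL : ¬ q ∣ L := fun ⟨c, hc⟩ => hM3 q hq hqp ⟨c, by subst hc; ring⟩
    haveI : NeZero q := ⟨hq.ne_zero⟩
    haveI : NeZero L := ⟨fun e => hM0 (by rw [e, mul_zero])⟩
    have hmod' : W.IsResiduallyModularOfLevel p (L * q * q) := by
      rwa [show L * q * q = q * q * L by ring]
    have hd : L * q ∣ q * q * L := ⟨q, by ring⟩
    exact ih (L * q)
      (by
        rw [show q * q * L = L * q * q by ring]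
        exact lt_mul_of_one_lt_right (Nat.pos_of_ne_zero
          (mul_ne_zero (NeZero.ne L) hq.ne_zero)) hq.one_lt)
      (mul_ne_zero (NeZero.ne L) hq.ne_zero)
      (fun h => hM (h.trans hd)) (fun r hr hrp h => hM3 r hr hrp (h.trans hd))
      (square_lower hΔ hW hp' hp2 hirr (auxPrimes_of_semistable hΔ hW hp hirr) hq hqp hqL hmod')

end FLTAgent.MLT

end
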