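import Fermat.Agent.MLT.RepWorld
import Fermat.Agent.MLT.CondAtP
import Fermat.Agent.LL.LevelInput

/-!
Area MLT, parcel RED: the representation of a level as an `LL.LevelRep`, and its condition at `p` in
the flat world and in the strict world.
-/

set_option autoImplicit false
set_option linter.style.haveILetI false
set_option linter.unusedSectionVars false

noncomputable section

open IsLocalRing Matrix FLTAgent.LL FLTAgent.PT FLTAgent.PT.TW

namespace FLTAgent.MLT

open FLTAgent.Attach (GalQ)

variable {A : Type} [CommRing A] [IsDomain A] [IsDiscreteValuationRing A]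
  [IsAdicComplete (maximalIdeal A) A] [Finite (ResidueField A)] [CharZero A]
  {M p n : ℕ} [NeZero M] {D : TWData M p n} {s : Sys M A} {S : Finset ℕ}
  {r : GQ →* GL (Fin 2) (ResidueField A)}

theorem oldPrime_of_squarefree (hsq : Squarefree M) {q : ℕ} (hq : q.Prime) (h : q ∣ D.N0) :
    OldPrime D q :=
  ⟨hq, h, fun h2 => hq.not_isUnit (hsq q ((Nat.mul_dvd_of_dvd_div h h2).trans D.dvd0))⟩

/-- nothing is pushed to a level carrying nothing -/
theorem push_eq_zero {q : ℕ} [NeZero q] (O : OldPrime D q) (hbot : (D.lower q O.dvd).Mod s = ⊥)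
    (x : D.Mod s) : O.push1 s x = 0 ∧ O.push2 s x = 0 :=
  ⟨Subtype.ext ((Submodule.mem_bot A).1 (le_of_eq hbot (O.push1 s x).2)),
    Subtype.ext ((Submodule.mem_bot A).1 (le_of_eq hbot (O.push2 s x).2))⟩

/-- as a representation of `LL` -/
@[reducible] def WorldRep.toLevelRep (L : WorldRep D s S r) (hsq : Squarefree M) : LevelRep D s S r where
  T := L.T
  residue_surjective := L.residue_surjective
  ρ := L.ρ
  absIrr := L.absIrr
  R₀ := L.R₀
  rep := L.rep
  φ := L.φ
  residual_trace := L.residual_trace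
  det := L.det
  flat := L.flat
  gen := L.gen
  unip := L.unip
  unr := L.unr
  frob := L.frob
  kill := L.kill
  quartic q hq hqN hqp hbot P hP τ hτ := by
    haveI : NeZero q := ⟨hq.ne_zero⟩
    refine LinearMap.ext fun x => ?_
    obtain ⟨h1, h2⟩ := push_eq_zero (oldPrime_of_squarefree hsq hq hqN) hbot x
    exact L.quartic q (oldPrime_of_squarefree hsq hq hqN) hqp x h1 h2 P hP τ hτ

variable [Fact p.Prime] [Algebra (ZMod p) (ResidueField A)]
  {ρbar : ResidualGaloisRep (ResidueField A)}

/-- the residual representation of a level is ordinary when `ρbar` is strictly ordinary -/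
theorem WorldRep.residual_ordinary (L : WorldRep D s S r) (hsq : Squarefree M)
    (h : Setting p ρbar r)
    (hspan : Submodule.span (ResidueField A)
      (Set.range fun g => (r g : Matrix (Fin 2) (Fin 2) (ResidueField A))) = ⊤)
    (hst : StrictMat p fun σ => (r σ : Matrix (Fin 2) (Fin 2) (ResidueField A))) :
    (GaloisRepAdic.ofResidualGaloisRep L.ρ.residual).IsOrdinaryAt p := by
  obtain ⟨e⟩ := (L.toLevelRep hsq).residual_isEquiv h hspan
  set f := ResidueField.map (algebraMap A L.T)
  have h2 := (Deform.repMat_baseChangeAlong_residual f h.rep).linEquiv e.symm.toLinearEquiv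
    e.symm.map_apply
  exact (isStrictOrdinaryAt_of_strictMat (ρ := GaloisRepAdic.ofResidualGaloisRep L.ρ.residual) h2
    (hst.map f)).isOrdinaryAt

/-- a condition at `p` on what acts -/
def WorldRep.HasCond (L : WorldRep D s S r) (hsq : Squarefree M) (h : Setting p ρbar r)
    (hspan : Submodule.span (ResidueField A)
      (Set.range fun g => (r g : Matrix (Fin 2) (Fin 2) (ResidueField A))) = ⊤) : Prop :=
  ∀ cd : TW.Coord ((L.toLevelRep hsq).repData h hspan) r,
    ∃ Lp : Submodule (ZMod p) (lH1 (ExtCitation.pPrime p) (ad0 p r)),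
      Module.finrank (ZMod p) Lp ≤ Module.finrank (ZMod p) (lH0 (ExtCitation.pPrime p) (ad0 p r)) +
          1 * Module.finrank (ZMod p) (ResidueField A) ∧
        ∀ {B : Type} [CommRing B] [Algebra A B]
          (ι : ((L.toLevelRep hsq).repData h hspan).R →ₐ[A] B),
          (∀ x : L.T, L.φ x = 0 → ι x = 0) → TanAt p cd ι Lp

/-- the flat world -/
theorem WorldRep.hasCond_flat (L : WorldRep D s S r) (hsq : Squarefree M) (h : Setting p ρbar r)
    (hspan : Submodule.span (ResidueField A)
      (Set.range fun g => (r g : Matrix (Fin 2) (Fin 2) (ResidueField A))) = ⊤)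
    (hpN : ¬ p ∣ D.N0) : L.HasCond hsq h hspan := by
  intro cd
  refine ⟨_, finrank_flatClasses_le h, fun {B} _ _ ι _ => ?_⟩
  refine tanAt_flat (AlgHom.id A _) (fun x => ⟨x, rfl⟩) ι (AlgHom.comp_id ι) L.ρ ?_ (L.flat hpN)
  exact (show (fun g => (cd.R₀ g).map (AlgHom.id A ((L.toLevelRep hsq).repData h hspan).R)) = cd.R₀
    from funext fun g => Matrix.ext fun _ _ => rfl).symm ▸ cd.rep

/-- the strict world: nothing without `p` -/
theorem WorldRep.hasCond_strict [NeZero p] (L : WorldRep D s S r) (hsq : Squarefree M)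
    (h : Setting p ρbar r)
    (hspan : Submodule.span (ResidueField A)
      (Set.range fun g => (r g : Matrix (Fin 2) (Fin 2) (ResidueField A))) = ⊤)
    (hst : StrictMat p fun σ => (r σ : Matrix (Fin 2) (Fin 2) (ResidueField A)))
    (hne : D.Mod s ≠ ⊥) (O : OldPrime D p) (hbot : (D.lower p O.dvd).Mod s = ⊥) :
    L.HasCond hsq h hspan := by
  intro cd
  let K : Ideal L.T := RingHom.ker L.φ
  haveI : Nontrivial (L.T ⧸ K) := Ideal.Quotient.nontrivial_iff.2 fun e => by
    obtain ⟨x, hx, hx0⟩ := (Submodule.ne_bot_iff _).1 hne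
    have h1 : L.φ 1 = 0 := RingHom.mem_ker.1 (e ▸ Submodule.mem_top : (1 : L.T) ∈ K)
    rw [map_one] at h1
    exact hx0 (congrArg Subtype.val (LinearMap.congr_fun h1 ⟨x, hx⟩))
  haveI : IsLocalRing (L.T ⧸ K) :=
    IsLocalRing.of_surjective' (Ideal.Quotient.mk K) Ideal.Quotient.mk_surjective
  have hloc : IsLocalHom (Ideal.Quotient.mk K) :=
    IsLocalHom.of_surjective _ Ideal.Quotient.mk_surjective
  let ρ' := L.ρ.baseChangeAlong (Ideal.Quotient.mk K) hloc
  haveI := hloc
  have hs : ρ'.IsStrictOrdinaryAt p :=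
    isStrictOrdinaryAt_of_strictMat (Deform.repMat_baseChangeAlong _ hloc L.rep)
      (L.strict O (L.residual_ordinary hsq h hspan hst) (Ideal.Quotient.mk K) fun t ht => by
        refine Ideal.Quotient.eq_zero_iff_mem.2 (RingHom.mem_ker.2 (LinearMap.ext fun x => ?_))
        obtain ⟨h1, h2⟩ := push_eq_zero O hbot x
        exact ht x h1 h2)
  let π : ((L.toLevelRep hsq).repData h hspan).R →ₐ[A] L.T ⧸ K := Ideal.Quotient.mkₐ A K
  have hπ : Function.Surjective π := (Ideal.Quotient.mk_surjective : Function.Surjective (Ideal.Quotient.mk K))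
  obtain ⟨Ls, hLs, -, htan⟩ := exists_tanAt_strict (cd := cd) (ι := π) π
    hπ (AlgHom.id A _) (AlgHom.id_comp π) ρ'
    (Deform.repMat_baseChangeAlong _ hloc cd.rep) h (fun _ => rfl) L.det hs
  refine ⟨Ls, hLs, fun {B} _ _ ι hι => ?_⟩
  exact htan.comp (Ideal.Quotient.liftₐ K ι
    fun x hx => hι x (RingHom.mem_ker.1 hx))

end FLTAgent.MLT

end
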