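import Fermat.Agent.TOR.Level
import Fermat.Agent.SS.Fibre
import Fermat.Agent.LL.KillInertia

/-!
Area MLT, parcel REP: points of `J₀(Mp)` of order `p ^ (j + 1)` killed by both pushforwards to level
`M`. The square of Frobenius at `p` moves such a point by a class with a representative twist, and
on these classes an element of inertia satisfying `(σ - 1) (σ - a) = 0`, `a` its cyclotomic value,
acts by `a`.
-/

set_option autoImplicit false
set_option linter.unusedSectionVars false
set_option linter.style.haveILetI false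
set_option synthInstance.maxHeartbeats 200000

noncomputable section

open ModularCurve AlgebraicCurve IsLocalRing
open FLTAgent.Reduction (Qb kA FB FS Ctx)

namespace FLTAgent.MLT

open FLTAgent.Attach (cyc cyc_cast cyc_spec GalQ)

section Twist

variable {K : Type*} [Field K] [IsAlgClosed K] [CharZero K] {A : ValuationSubring K}
  {F : Type*} [Field F] [Algebra K F] [RR.FnField K F]
  {Fs : Type*} [Field Fs] [Algebra (ResidueField A) Fs]

/-- when the residues of the units differ by `n`-th powers, `g • y - y` has a representative twist -/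
theorem smul_sub_mem_kerR_of_residues (C : SS.Core K A F Fs) {n : ℕ} (hn : n ≠ 0) {y : Pic0 K F}
    (hy : n • y = 0) {g : SemilinearAut K F} {gs : Fs ≃+* Fs} (hg : SS.Compat C g gs)
    (H : ∀ (E : Divisor.degZero (K := K) (F := F)) (f : F), Pic0.mk E = y → f ≠ 0 →
      (∀ P : Place K F, (n : ℤ) * (E : Divisor K F) P = P.ord f) → ∀ (b : Bool) (c : K), c ≠ 0 →
      algebraMap K F c * f ∈ C.G b → C.red b (algebraMap K F c * f) ≠ 0 →
      ∃ h : Fs, h ≠ 0 ∧ gs (C.red b (algebraMap K F c * f)) =
        C.red b (algebraMap K F c * f) * h ^ n) :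
    g • y - y ∈ TOR.kerR C n := by
  obtain ⟨E, rfl⟩ := Pic0.mk_surjective y
  obtain ⟨f, hf, hord⟩ := TOR.exists_trivialisation hy
  choose c hc hu hur using fun b => C.exists_scale b f hf
  choose h hh hgh using fun b => H E f rfl hf hord b (c b) (hc b) (hu b) (hur b)
  choose α hα using fun b =>
    IsAlgClosed.exists_pow_nat_eq (c b / SemilinearAut.baseAut g (c b)) (Nat.pos_of_ne_zero hn)
  have hgc : ∀ b, SemilinearAut.baseAut g (c b) ≠ 0 := fun b => (_root_.map_ne_zero _).mpr (hc b)
  have hgf : g • f ≠ 0 := (smul_ne_zero_iff_ne g).mpr hf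
  have hq : ∀ b, (algebraMap K F (α b ^ n))⁻¹ * (g • f / f) =
      (g • (algebraMap K F (c b) * f)) * (algebraMap K F (c b) * f)⁻¹ := by
    intro b
    rw [hα, map_div₀, inv_div, smul_mul', SemilinearAut.smul_algebraMap, mul_inv,
      div_eq_mul_inv, div_eq_mul_inv]
    ring
  refine ⟨
    { E := g • (E : Divisor K F) - (E : Divisor K F)
      f := g • f / f
      α := α
      h := h
      degree_E := by rw [map_sub, SemilinearAut.degree_smul, sub_self]
      f_ne := div_ne_zero hgf hf
      ord_f := fun P => by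
        have h1 := SemilinearAut.ord_smul g (g⁻¹ • P) f
        rw [smul_inv_smul] at h1
        rw [div_eq_mul_inv, P.ord_mul hgf (inv_ne_zero hf), P.ord_inv, h1, ← hord, ← hord P,
          Finsupp.sub_apply, SemilinearAut.divisor_smul_apply]
        ring
      α_ne := fun b h0 => by
        have := hα b
        rw [h0, zero_pow hn, eq_comm, div_eq_zero_iff] at this
        exact this.elim (hc b) (hgc b)
      h_ne := hh
      mem := fun b => by
        rw [hq b]
        exact mul_mem (hg.mem b _ (hu b)) (C.inv_mem b (hu b) (hur b)).1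
      red_eq := fun b => by
        rw [hq b, C.red_mul b _ (hg.mem b _ (hu b)) _ (C.inv_mem b (hu b) (hur b)).1,
          hg.red b _ (hu b), (C.inv_mem b (hu b) (hur b)).2, hgh b]
        field_simp [hur b] }, ?_⟩
  rw [SemilinearAut.pic0_smul_mk]
  rfl

end Twist

variable {M p : ℕ} [NeZero M] [NeZero p] {A : ValuationSubring Qb}

/-- a difference of points killed by both pushforwards is killed by them -/
theorem killed_sub {y z : JZero (M * p)} (hy : SS.KilledByPush M p y)
    (hz : SS.KilledByPush M p z) : SS.KilledByPush M p (y - z) := by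
  obtain ⟨h1, h2⟩ := LL.pushJ_of_killed hy
  obtain ⟨h3, h4⟩ := LL.pushJ_of_killed hz
  refine SS.killedByPush_of_pushJ M p ?_ ?_
  · rw [map_sub, h1, h3, sub_zero]
  · rw [map_sub, h2, h4, sub_zero]

/-- a multiple of a point killed by both pushforwards is killed by them -/
theorem killed_nsmul {y : JZero (M * p)} (hy : SS.KilledByPush M p y) (c : ℕ) :
    SS.KilledByPush M p (c • y) := by
  obtain ⟨h1, h2⟩ := LL.pushJ_of_killed hy
  refine SS.killedByPush_of_pushJ M p ?_ ?_
  · rw [map_nsmul, h1, smul_zero]
  · rw [map_nsmul, h2, smul_zero]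

/-- being killed by both pushforwards is stable under Galois -/
theorem killed_smul {y : JZero (M * p)} (hy : SS.KilledByPush M p y) (σ : GalQ) :
    SS.KilledByPush M p (σ • y) := by
  obtain ⟨h1, h2⟩ := LL.pushJ_of_killed hy
  obtain ⟨h3, h4⟩ := LL.pushJ_of_killed (LL.killed_smul_sub σ hy)
  rw [map_sub, h1, sub_zero] at h3
  rw [map_sub, h2, sub_zero] at h4
  exact SS.killedByPush_of_pushJ M p h3 h4

/-- the square of Frobenius moves a killed point by a class with a representative twist -/
theorem frob_sq_sub_mem_kerR (C : Ctx A M p) {φ : GalQ} (hφ : A.IsFrobeniusAt φ p) {n : ℕ}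
    (hn : n ≠ 0) {y : JZero (M * p)} (hy : n • y = 0) (hpush : SS.KilledByPush M p y) :
    (φ * φ) • y - y ∈ TOR.kerR (SS.fibreData C).toCore n := by
  obtain ⟨gs, hg, hgs⟩ := SS.compat_frobenius C hφ
  have hg2 : SS.Compat (SS.fibreData C).toCore (SS.galAut M p (φ * φ)) (gs.trans gs) := by
    rw [SS.galAut, map_mul]; exact hg.comp hg
  exact smul_sub_mem_kerR_of_residues (SS.fibreData C).toCore hn hy hg2
    fun E f hE hf hord b c hc hu hur =>
      SS.norm_clause C hgs n E f hn (hE ▸ hpush) hf hord b c hc hu hur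

/-- inertia satisfying the quadratic relation acts on killed classes by the cyclotomic value -/
theorem smul_eq_nsmul_of_quadratic (hp : p.Prime) (hp2 : p ≠ 2) (C : Ctx A M p) {σ : GalQ}
    (hσ : σ ∈ A.inertiaSubgroupIn ℚ) (j : ℕ) [NeZero (p ^ (j + 1))]
    (ha : cyc p σ ≠ 1) {w : JZero (M * p)}
    (hw : w ∈ TOR.kerR (SS.fibreData C).toCore (p ^ (j + 1))) (hn : p ^ (j + 1) • w = 0)
    (hpush : SS.KilledByPush M p w)
    (hquad : σ • σ • w + (cyc (p ^ (j + 1)) σ).val • w =
      σ • w + (cyc (p ^ (j + 1)) σ).val • σ • w) :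
    σ • w = (cyc (p ^ (j + 1)) σ).val • w := by
  haveI := Fact.mk hp
  haveI := Reduction.charP_residue A hp C.lies
  obtain ⟨ζ, hζ⟩ := HasEnoughRootsOfUnity.exists_primitiveRoot Qb p
  set a := (cyc (p ^ (j + 1)) σ).val with ha_def
  have hcast : (a : ZMod p) = cyc p σ := by
    rw [ha_def, ← cyc_cast (dvd_pow_self p j.succ_ne_zero) σ,
      ← map_natCast (ZMod.castHom (dvd_pow_self p j.succ_ne_zero) (ZMod p))]
    exact congrArg _ (ZMod.natCast_zmod_val _)
  have hζa : σ ζ = ζ ^ a := by
    rw [cyc_spec σ hζ.pow_eq_one, pow_eq_pow_mod a hζ.pow_eq_one, ← hcast, ZMod.val_natCast]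
  -- classes of order `p`
  have base : ∀ z ∈ TOR.kerR (SS.fibreData C).toCore (p ^ (j + 1)), p • z = 0 →
      SS.KilledByPush M p z → σ • z = a • z := fun z hz hpz hkz =>
    TOR.smul_eq_of_push (by have := hp.two_le; omega) C (SS.fibreData C) rfl hpz
      (TOR.kerR_descend hp _ j hz hpz) hkz (SS.compat_inertia C σ hσ) hζ hζa
  have main : ∀ (i : ℕ) (x : JZero (M * p)), x ∈ TOR.kerR (SS.fibreData C).toCore (p ^ (j + 1)) →
      p ^ (j + 1) • x = 0 → SS.KilledByPush M p x → p ^ i • x = 0 →
      σ • σ • x + a • x = σ • x + a • σ • x → σ • x = a • x := by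
    intro i
    induction i with
    | zero =>
      intro x _ _ _ hx0 _
      rw [pow_zero, one_smul] at hx0
      rw [hx0]
      exact (smul_zero (A := JZero (M * p)) σ).trans (smul_zero (A := JZero (M * p)) a).symm
    | succ i ih =>
      intro x hx hnx hkx hix hqx
      have hcomm : ∀ (c : ℕ) (z : JZero (M * p)), σ • (c • z) = c • σ • z := fun c z =>
        map_nsmul (DistribSMul.toAddMonoidHom (JZero (M * p)) σ) c z
      have h1 : σ • (p • x) = a • (p • x) := by
        refine ih _ (nsmul_mem hx p) (by rw [smul_comm, hnx, smul_zero]) (killed_nsmul hkx p)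
          (by rw [smul_smul, ← pow_succ]; exact hix) ?_
        rw [hcomm, hcomm, smul_comm a p x, ← nsmul_add, hqx, nsmul_add, smul_comm p a (σ • x)]
      set v := σ • x - a • x with hv
      have hpv : p • v = 0 := by
        rw [hv, nsmul_sub, ← hcomm, h1, smul_comm, sub_self]
      have hvR : v ∈ TOR.kerR (SS.fibreData C).toCore (p ^ (j + 1)) := by
        have h2 : σ • x - x ∈ TOR.kerR (SS.fibreData C).toCore (p ^ (j + 1)) :=
          TOR.smul_sub_mem_kerR _ (NeZero.ne _) hnx (SS.compat_inertia C σ hσ)
        have e : v = (σ • x - x) + (x - a • x) := by rw [hv]; abel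
        rw [e]
        exact add_mem h2 (sub_mem hx (nsmul_mem hx a))
      have h3 : σ • v = a • v :=
        base v hvR hpv (killed_sub (killed_smul hkx σ) (killed_nsmul hkx a))
      have h4 : σ • v = v := by
        rw [hv, smul_sub, hcomm, sub_eq_sub_iff_add_eq_add]
        exact hqx
      rw [← sub_eq_zero, ← hv]
      by_contra hv0
      apply ha
      have h5 : ((a : ℤ) - 1) • v = 0 := by
        rw [sub_smul, natCast_zsmul, one_smul, ← h3, h4, sub_self]
      rw [← addOrderOf_dvd_iff_zsmul_eq_zero, addOrderOf_eq_prime hpv hv0,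
        ← ZMod.intCast_zmod_eq_zero_iff_dvd, Int.cast_sub, Int.cast_natCast, Int.cast_one,
        sub_eq_zero, hcast] at h5
      exact h5
  exact main (j + 1) w hw hn hpush hn hquad

end FLTAgent.MLT

end
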