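import Fermat.Agent.MLT.SquareHecke

/-!
An eigen system absent from level `M q` has residual classes on the three branches that are `p`-th
powers: the operator separating it kills the `p`-power torsion of `J₀(M)`, as pullback to level
`M q` is injective on torsion.
-/

set_option autoImplicit false
set_option linter.unusedSectionVars false
set_option linter.style.haveILetI false
set_option synthInstance.maxHeartbeats 400000
set_option maxHeartbeats 1000000

noncomputable section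

open ModularCurve AlgebraicCurve IsLocalRing
open FLTAgent.Reduction (Qb kA FB FS Ctx normBeta)
open FLTAgent.Attach (GaloisInputs HeckeLattice)
open FLTAgent.TOR (eigTors)

namespace FLTAgent.MLT

local notation "GalQ" => AlgebraicClosure ℚ ≃ₐ[ℚ] AlgebraicClosure ℚ

variable {M q p : ℕ} [NeZero M] [NeZero q] {A : ValuationSubring Qb} {W : WeierstrassCurve ℤ}

/-- a representative of `y` with exponent `0` whose residues give the reductions of `x` -/
def Match2 (C : Ctx A M q) (p : ℕ) (y : JZero (M * q * q)) (x : Fin 3 → JZero M) : Prop :=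
  ∃ f, Rep A p y f ∧ ∀ b, (SS2.model C).HasExp b f 0 ∧
    LL.Res p ((SS2.model C).red b f) (reductionModL A M (x b))

variable [Fact p.Prime] (C : Ctx A M q)
include C

theorem Match2.smul {y : JZero (M * q * q)} {x : Fin 3 → JZero M} (a : Match2 C p y x)
    (hy : p • y = 0) (z : ℤ) :
    Match2 C p ((z : ZMod p).val • y) (fun b => z • x b) := by
  obtain ⟨f, hf, h⟩ := a
  refine ⟨_, hf.nsmul _, fun b => ?_⟩
  obtain ⟨he, hr⟩ := h b
  refine ⟨by simpa using he.pow ((z : ZMod p).val), ?_⟩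
  rw [(SS2.model C).red_pow b he.mem_G, map_zsmul,
    LL.zsmul_eq_val (hr.nsmul_eq_zero C he.red_ne) z]
  exact hr.pow he.red_ne _

theorem Match2.add {y y' : JZero (M * q * q)} {x x' : Fin 3 → JZero M} (a : Match2 C p y x)
    (b : Match2 C p y' x') : Match2 C p (y + y') (fun i => x i + x' i) := by
  obtain ⟨f, hf, h⟩ := a
  obtain ⟨f', hf', h'⟩ := b
  refine ⟨_, hf.add hf', fun i => ?_⟩
  obtain ⟨he, hr⟩ := h i
  obtain ⟨he', hr'⟩ := h' i
  refine ⟨by simpa using he.mul he', ?_⟩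
  rw [(SS2.model C).red_mul i _ he.mem_G _ he'.mem_G, map_add]
  exact hr.mul hr' he.red_ne he'.red_ne

theorem Match2.hecke {l : ℕ} (hl : l.Prime) (hlN : ¬ l ∣ M * q * q) {y : JZero (M * q * q)}
    {x : Fin 3 → JZero M} (a : Match2 C p y x) :
    Match2 C p (heckeOperatorBar (M * q * q) ⟨l, hl⟩ y)
      (fun b => heckeOperatorBar M ⟨l, hl⟩ (x b)) := by
  haveI : NeZero l := ⟨hl.ne_zero⟩
  have hlq : l ≠ q := fun h => hlN (h ▸ dvd_mul_left q (M * q))
  have hlM : ¬ l ∣ M := fun h => hlN (dvd_mul_of_dvd_left (dvd_mul_of_dvd_left h q) q)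
  obtain ⟨u, hu, -, -⟩ := TOR.exists_root (A := A) C.prime C.lies hl hlq
  obtain ⟨f, hf, h⟩ := a
  refine ⟨_, hf.hecke hl, fun b => ?_⟩
  obtain ⟨he, hr⟩ := h b
  obtain ⟨s, hs⟩ := TOR.exists_isTl C hl hlM hu ((SS2.model C).red b f)
  obtain ⟨h1, h2⟩ := red_normBeta C hl hlN hu he hs
  refine ⟨h1, ?_⟩
  rw [h2]
  exact hr.hecke C hl hlM hlq hu he.red_ne hs

/-- a polynomial in the good operators of level `M q`, acting on level `M` -/
theorem exists_op (D1 : HeckeLattice (M * q))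
    (R : MvPolynomial (LL.SubPrime (M * q) q p W.IsGoodPrimeFor) ℤ) :
    ∃ ψ : Module.End ℤ (JZero M), (∀ (σ : GalQ) x, ψ (σ • x) = σ • ψ x) ∧
      (∀ k z v, p ^ k • z = 0 → pullJ (heckeAlphaBar Qb M q) z = D1.tors (p ^ k) v →
        pullJ (heckeAlphaBar Qb M q) (ψ z) = D1.tors (p ^ k)
          (D1.act (LL.evalSub W.IsGoodPrimeFor (M * q) (dvd_mul_right (M * q) q) R) v)) ∧
      ∀ y ∈ eigTors (M * q * q) W p, ∀ x, Match2 C p y x →
        Match2 C p ((LL.evalA W.apOfModel W.IsGoodPrimeFor R).val • y) (fun b => ψ (x b)) := by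
  have hp : p.Prime := Fact.out
  induction R using MvPolynomial.induction_on with
  | C r =>
    have e : (MvPolynomial.C r : MvPolynomial (LL.SubPrime (M * q) q p W.IsGoodPrimeFor) ℤ) =
      (r : MvPolynomial _ ℤ) := by simp
    refine ⟨(r : Module.End ℤ (JZero M)), fun σ x => ?_, fun k z v hz hv => ?_, fun y hy x h => ?_⟩
    · rw [Module.End.intCast_apply, Module.End.intCast_apply]
      exact (map_zsmul (DistribSMul.toAddMonoidHom (JZero M) σ) r x).symm
    · rw [e, map_intCast, map_intCast, Module.End.intCast_apply, Module.End.intCast_apply,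
        map_zsmul, map_zsmul, hv]
    · rw [e, map_intCast]
      exact h.smul C hy.1 r
  | add R S hR hS =>
    obtain ⟨ψ, h1, h2, h3⟩ := hR
    obtain ⟨ψ', h1', h2', h3'⟩ := hS
    refine ⟨ψ + ψ', fun σ x => ?_, fun k z v hz hv => ?_, fun y hy x h => ?_⟩
    · rw [LinearMap.add_apply, LinearMap.add_apply, h1, h1', smul_add]
    · rw [LinearMap.add_apply, map_add, h2 k z v hz hv, h2' k z v hz hv, map_add, map_add,
        LinearMap.add_apply, map_add]
    · rw [map_add]
      have e := LL.zsmul_eq_val hy.1 (((LL.evalA W.apOfModel W.IsGoodPrimeFor R).val +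
        (LL.evalA W.apOfModel W.IsGoodPrimeFor S).val : ℕ) : ℤ)
      push_cast at e
      rw [ZMod.natCast_zmod_val, ZMod.natCast_zmod_val, add_zsmul, natCast_zsmul,
        natCast_zsmul] at e
      rw [← e]
      exact (h3 y hy x h).add C (h3' y hy x h)
  | mul_X R t ih =>
    obtain ⟨ψ, h1, h2, h3⟩ := ih
    have hl : (t.1.1 : ℕ).Prime := t.1.1.2
    have hlN : ¬ (t.1.1 : ℕ) ∣ M * q * q := t.1.2.1
    have hlMq : ¬ (t.1.1 : ℕ) ∣ M * q := fun h => hlN (h.mul_right q)
    have hlM : ¬ (t.1.1 : ℕ) ∣ M := fun h => hlMq (h.mul_right q)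
    set T := heckeOperatorBar M ⟨(t.1.1 : ℕ), hl⟩
    refine ⟨ψ * T, fun σ x => ?_, fun k z v hz hv => ?_, fun y hy x h => ?_⟩
    · rw [Module.End.mul_apply, Module.End.mul_apply, ← h1]
      exact congrArg ψ ((Attach.galoisInputs M).smul_hecke σ _ x).symm
    · have hTz : p ^ k • T z = 0 := by rw [← map_nsmul, hz, map_zero]
      have hTv : pullJ (heckeAlphaBar Qb M q) (T z) =
          D1.tors (p ^ k) (D1.T ⟨(t.1.1 : ℕ), hl⟩ v) := by
        rw [pullJ_hecke (heckeAlphaBar Qb M q)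
          (fun σ => HeckeJ.intertwines_heckeAlphaBar M q σ) hl hlM hlMq (pow_pos hp.pos k)
          (fun hd => t.1.2.2 ((Nat.prime_dvd_prime_iff_eq hl hp).mp (hl.dvd_of_dvd_pow hd))) hz,
          hv, D1.tors_T _ (pow_pos hp.pos k) ⟨(t.1.1 : ℕ), hl⟩ v]
      rw [Module.End.mul_apply, h2 k (T z) _ hTz hTv, map_mul, map_mul, Module.End.mul_apply,
        LL.evalSub_X, D1.act_T]
    · have hT := hy.2 _ hl t.2 hlN t.1.2.2
      have h4 := h.hecke C hl hlN
      rw [hT] at h4
      have h5 := h3 _ (AddSubgroup.zsmul_mem _ hy _) _ h4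
      convert h5 using 1
      rw [map_mul, show LL.evalA W.apOfModel W.IsGoodPrimeFor (MvPolynomial.X t) =
        ((W.apOfModel (t.1.1 : ℕ) : ℤ) : ZMod p) by simp [LL.evalA]]
      conv_rhs => rw [← natCast_zsmul, ← mul_zsmul, LL.zsmul_eq_val hy.1]
      · congr 1
        push_cast
        simp [mul_comm]
      · rfl

/-- a residual class of an absent eigen system is a `p`-th power on every branch -/
theorem exists_pow_rep {R : MvPolynomial (LL.SubPrime (M * q) q p W.IsGoodPrimeFor) ℤ}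
    (hR : LL.evalSub W.IsGoodPrimeFor (M * q) (dvd_mul_right (M * q) q) R = 0)
    (hRa : LL.evalA W.apOfModel W.IsGoodPrimeFor R ≠ 0) {y : JZero (M * q * q)}
    (hy : y ∈ eigTors (M * q * q) W p) {x : Fin 3 → JZero M} (hm : Match2 C p y x) :
    ∃ f, Rep A p y f ∧ ∀ b, (SS2.model C).HasExp b f 0 ∧
      ∃ h : FS A M, h ≠ 0 ∧ (SS2.model C).red b f = h ^ p := by
  have hp : p.Prime := Fact.out
  obtain ⟨D0⟩ := Attach.exists_heckeLattice M
  obtain ⟨D1⟩ := Attach.exists_heckeLattice (M * q)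
  obtain ⟨ψ, hσψ, htors, hmatch⟩ := exists_op C D1 R
  have hkill : ∀ k v, ψ (D0.tors (p ^ k) v) = 0 := fun k v => by
    set z := D0.tors (p ^ k) v
    have hz : p ^ k • z = 0 := (D0.nsmul_eq_zero_iff _ (pow_pos hp.pos k) _).mpr ⟨v, rfl⟩
    obtain ⟨v', hv'⟩ := (D1.nsmul_eq_zero_iff _ (pow_pos hp.pos k) _).mp
      (show p ^ k • pullJ (heckeAlphaBar Qb M q) z = 0 by rw [← map_nsmul, hz, map_zero])
    refine eq_zero_of_pullJ_alpha C.prime C.not_dvd (pow_pos hp.pos k)
      (by rw [← map_nsmul, hz, map_zero]) ?_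
    rw [htors k z v' hz hv'.symm, hR, map_zero, LinearMap.zero_apply, map_zero]
  set c := LL.evalA W.apOfModel W.IsGoodPrimeFor R
  obtain ⟨f, hf, h⟩ := hmatch y hy x hm
  refine ⟨f ^ (c⁻¹).val, ?_, fun b => ?_⟩
  · have h1 := hf.nsmul (c⁻¹).val
    have e := LL.zsmul_eq_val hy.1 (((c⁻¹).val * c.val : ℕ) : ℤ)
    rw [natCast_zsmul, Int.cast_natCast, Nat.cast_mul, ZMod.natCast_zmod_val,
      ZMod.natCast_zmod_val, inv_mul_cancel₀ hRa, ZMod.val_one, one_nsmul, mul_nsmul'] at e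
    exact e ▸ h1
  · obtain ⟨he, hr⟩ := h b
    rw [LL.reduction_eq_zero C D0 hσψ hkill (hr.nsmul_eq_zero C he.red_ne)] at hr
    obtain ⟨w, hw⟩ := hr.exists_pow C hp.pos he.red_ne
    refine ⟨by simpa using he.pow (c⁻¹).val, w ^ (c⁻¹).val, pow_ne_zero _ fun h0 => ?_, ?_⟩
    · exact he.red_ne (by rw [hw, h0, zero_pow hp.ne_zero])
    · rw [(SS2.model C).red_pow b he.mem_G, hw, ← pow_mul, ← pow_mul, Nat.mul_comm]

end FLTAgent.MLT

end
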