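import Fermat.Agent.MLT.SquareDefs
import Fermat.Agent.MLT.SquareKill
import Fermat.Agent.SS2.KillCore

/-!
Square lowering, steps on the three branches: an inertia-fixed class of an eigen system absent from
level `Mq` has a twist congruent to one.
-/

set_option autoImplicit false
set_option linter.unusedSectionVars false
set_option synthInstance.maxHeartbeats 400000
set_option linter.style.haveILetI false
set_option maxHeartbeats 1000000

noncomputable section

open ModularCurve AlgebraicCurve IsLocalRing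
open FLTAgent.Reduction (Qb kA FB FS PS Ctx normBeta tS)
open FLTAgent.TOR (eigTors)

namespace FLTAgent.MLT

variable {M q p : ℕ} [NeZero M] [NeZero q] {A : ValuationSubring Qb} {W : WeierstrassCurve ℤ}

/-- an eigen class fixed by inertia has a representative that is a unit on the three branches -/
theorem exists_unit_rep (C : Ctx A M q) (hp : p.Prime) (hp2 : p ≠ 2) (hΔ : W.Δ ≠ 0)
    (hirr : W.ModRepIsIrreducible p) {y : JZero (M * q * q)}
    (hy : y ∈ eigTors (M * q * q) W p) (hfix : ∀ σ ∈ A.inertiaSubgroupIn ℚ, σ • y = y) :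
    ∃ f, Rep A p y f ∧ ∀ b, (SS2.model C).HasExp b f 0 := by
  haveI := Fact.mk hp
  set Mo := SS2.model C with hMo
  have hM := SS2.isModel_model C
  obtain ⟨f, hf⟩ := Rep.exists_rep hy.1 hfix
  obtain ⟨l, hl, hlS, hgood, hlp, htr⟩ :=
    TOR.exists_prime_trace_ne hΔ hp hp2 hirr (M * q * q).primeFactors
  have hlN : ¬ l ∣ M * q * q := fun h => hlS (Nat.mem_primeFactors.2 ⟨hl, h, NeZero.ne _⟩)
  haveI : NeZero l := ⟨hl.ne_zero⟩
  choose i hi using fun b => Mo.exists_hasExp b ((hM.mem_Ω f).mpr hf.rational) hf.ne_zero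
  have h1 := hf.hecke (p := p) hl
  rw [hy.2 l hl hgood hlN hlp, LL.zsmul_eq_val hy.1] at h1
  set n := ((W.apOfModel l : ℤ) : ZMod p).val with hn
  obtain ⟨c, g, hc, hc0, hg, hg0, he⟩ := (hf.nsmul n).exists_factor hp.ne_zero h1
  obtain ⟨lc, -, hlc⟩ := Mo.exists_hasExp_const ((hM.mem_T c).mpr hc) hc0
  choose gi hgi using fun b => Mo.exists_hasExp b ((hM.mem_Ω g).mpr hg) hg0
  have key : ∀ b, ((l + 1 : ℕ) : ℤ) * i b = lc * Mo.e b + n * i b + p * gi b := fun b =>
    (hasExp_normBeta C hl hlN (hi b)).unique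
      (he ▸ ((hlc b).mul ((hi b).pow n)).mul ((hgi b).pow p))
  set d : ZMod p := (l : ZMod p) + 1 - (n : ZMod p) with hd
  have hd0 : d ≠ 0 := fun h => htr ((ZMod.intCast_zmod_eq_zero_iff_dvd _ p).1 (by
    rw [hd, hn, ZMod.natCast_zmod_val] at h
    push_cast
    linear_combination -h))
  set j : ℤ := (((lc : ZMod p) * d⁻¹).val : ℤ) with hj
  have hdvd : ∀ b, (p : ℤ) ∣ i b - j * Mo.e b := fun b => by
    refine (ZMod.intCast_zmod_eq_zero_iff_dvd _ p).1 ?_
    have h2 : d * (i b : ZMod p) = (lc : ZMod p) * (Mo.e b : ZMod p) := by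
      have := congrArg (fun z : ℤ => (z : ZMod p)) (key b)
      push_cast [ZMod.natCast_self] at this
      rw [hd]
      linear_combination this
    rw [hj]
    push_cast [ZMod.natCast_zmod_val]
    field_simp
    linear_combination h2
  choose k hk using hdvd
  haveI := Reduction.finite_tS C false
  haveI := Reduction.separable_tS C false
  obtain ⟨φ, hφΩ, hφ⟩ := Mo.exists_approx (Reduction.transcendental_tS A M false)
    (fun b Q hQ => (hM.inChart_iff false b Q).mp hQ) k (fun _ => (1 : FS A M))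
    fun _ => one_ne_zero
  have hφe : ∀ b, Mo.HasExp b φ (k b) := fun b =>
    ⟨(hφ b).1, by rw [(hφ b).2]; exact one_ne_zero⟩
  have hq0 : (Mo.q : Qb) ≠ 0 := Mo.q_ne
  refine ⟨_, hf.mul_pow ((hM.mem_T ((Mo.q : Qb) ^ (-j))).mp (zpow_mem Mo.q_mem_T _))
    (zpow_ne_zero _ hq0) ((hM.mem_Ω φ⁻¹).mp (inv_mem hφΩ))
    (inv_ne_zero (hφe 0).ne_zero), fun b => ?_⟩
  have h3 := (((Mo.hasExp_q b).zpow (-j)).mul (hi b)).mul ((hφe b).inv.pow p)
  rw [← map_zpow₀] at h3
  rwa [show -j * (Mo.e b : ℤ) + i b + (p : ℤ) * -k b = 0 by linear_combination hk b] at h3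

/-- near every point the residue of a unit representative is a `p`-th power times a unit -/
theorem dvd_ord (C : Ctx A M q) {r : ℕ} (hr : r.Prime) (h11 : r % 12 = 11) (hrM : r ∣ M)
    (hp : p ≠ 0) {y : JZero (M * q * q)} {f : FB (M * q * q)} (hf : Rep A p y f)
    (hexp : ∀ b, (SS2.model C).HasExp b f 0) (b : Fin 3) (Q : PS A M) :
    (p : ℤ) ∣ Q.ord ((SS2.model C).red b f) := by
  set Mo := SS2.model C
  obtain ⟨E, -, hord, -, hf0⟩ := hf
  let W : Mo.Triv p := ⟨(E : Divisor Qb (FB (M * q * q))), f, hf0, hord,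
    fun b => (hexp b).mem_G, fun b => (hexp b).red_ne⟩
  obtain ⟨s, hQ⟩ : ∃ s : Bool, SS2.InChart s (Q.ord (Mo.Jbar b)) := by
    rcases le_total 0 (Q.ord (Mo.Jbar b)) with h | h
    exacts [⟨false, h⟩, ⟨true, h⟩]
  obtain ⟨g, hg, c, hc, hval⟩ := SS2.exists_unit_gen C (SS2.isModel_model C) (SS2.levelData C)
    (fun σ hσ => SS.compat_inertia C σ hσ) hr h11 hrM hp W s b Q hQ
  have hv := hval b Q hQ fun x _ => Iff.rfl
  have hgG : g ∈ Mo.G b := Mo.GI_iff.mp hg.1 b
  rw [show W.f = f from rfl, Mo.red_mul b _ (pow_mem hgG p) _ (hexp b).mem_G,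
    Mo.red_pow b hgG] at hv
  obtain ⟨hne, hord0⟩ := hv.ord_eq_zero hc
  rw [Q.ord_mul (left_ne_zero_of_mul hne) (right_ne_zero_of_mul hne), RR.ord_pow] at hord0
  exact ⟨-Q.ord (Mo.red b g), by linear_combination hord0⟩

/-- an absent eigen system has a twist congruent to one -/
theorem twistCls_of_eig (C : Ctx A M q) {r : ℕ} (hr : r.Prime) (h11 : r % 12 = 11) (hrM : r ∣ M)
    (hp : p.Prime) (hp2 : p ≠ 2) (hqp : q ≠ p) (hΔ : W.Δ ≠ 0) (hirr : W.ModRepIsIrreducible p)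
    {R : MvPolynomial (LL.SubPrime (M * q) q p W.IsGoodPrimeFor) ℤ}
    (hR : LL.evalSub W.IsGoodPrimeFor (M * q) (dvd_mul_right (M * q) q) R = 0)
    (hRa : LL.evalA W.apOfModel W.IsGoodPrimeFor R ≠ 0) {y : JZero (M * q * q)}
    (hy : y ∈ eigTors (M * q * q) W p) (hfix : ∀ σ ∈ A.inertiaSubgroupIn ℚ, σ • y = y) :
    TwistCls C p y := by
  haveI := Fact.mk hp
  set Mo := SS2.model C with hMo
  have hM := SS2.isModel_model C
  obtain ⟨f₀, hf₀, hexp₀⟩ := exists_unit_rep C hp hp2 hΔ hirr hy hfix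
  choose z hz using fun b => LL.exists_res C hp.pos (hexp₀ b).red_ne
    (dvd_ord C hr h11 hrM hp.ne_zero hf₀ hexp₀ b)
  have hex : ∀ b, ∃ x : JZero M, LL.Res p (Mo.red b f₀) (reductionModL A M x) := fun b => by
    obtain ⟨D, -, hDf⟩ := hz b
    obtain ⟨D₀, hD₀⟩ := LL.exists_reduction C D
    refine ⟨Pic0.mk D₀, D, ?_, hDf⟩
    rw [Reduction.reductionModL_mk_rP C]
    exact congrArg Pic0.mk (Subtype.ext hD₀.symm)
  choose x hx using hex
  obtain ⟨f, hf, hpow⟩ := exists_pow_rep C hR hRa hy ⟨f₀, hf₀, fun b => ⟨hexp₀ b, hx b⟩⟩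
  choose h hh0 hh using fun b => (hpow b).2
  obtain ⟨E, hE, hord, -, hf0⟩ := hf
  haveI := Reduction.finite_tS C false
  haveI := Reduction.separable_tS C false
  obtain ⟨φ, Tw, -, hφ0, hTD, -⟩ := Mo.exists_twist (Reduction.transcendental_tS A M false)
    (fun b Q hQ => (hM.inChart_iff false b Q).mp hQ) (Divisor.mem_degZero.mp E.2) hf0 hord
    (fun _ => 0) h hh0 (fun b => by
      simp only [mul_zero, neg_zero, zpow_zero, mul_one]
      exact ⟨(hpow b).1.mem_G, hh b⟩)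
  refine ⟨Tw, ?_⟩
  rw [← hE, ← sub_eq_zero]
  show (QuotientAddGroup.mk' _) _ - (QuotientAddGroup.mk' _) _ = 0
  rw [← map_sub]
  refine (SS2.pic0_mk_eq_zero_iff _).mpr ⟨φ⁻¹, inv_ne_zero hφ0, fun P => ?_⟩
  rw [AddSubgroup.coe_sub, Finsupp.sub_apply, hTD, P.ord_inv]
  ring

end FLTAgent.MLT

end
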