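import Fermat.Agent.SS.Push
import Fermat.Agent.SS2.Rational
import Fermat.Agent.SS2.BranchesNorm
import Fermat.Agent.TOR.KerR
import Fermat.Agent.Reduction.Norm
import Fermat.Agent.SS2.Kill
import Fermat.Agent.Attach.Interface

/-!
Pullback of classes along degeneracy maps of prime degree of ramification: injective on torsion of
order prime to the level raised, Galois equivariant, commuting with the good Hecke operators.
-/

set_option autoImplicit false
set_option linter.unusedSectionVars false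
set_option synthInstance.maxHeartbeats 400000
set_option linter.style.haveILetI false

noncomputable section

open ModularCurve AlgebraicCurve
open FLTAgent.Reduction (Qb FB)
open FLTAgent.SS2 (galFn)

namespace FLTAgent.MLT

local notation "GalQ" => AlgebraicClosure ℚ ≃ₐ[ℚ] AlgebraicClosure ℚ
local notation "LS" => LaurentSeries (AlgebraicClosure ℚ)

variable {a b : ℕ} [NeZero a] [NeZero b]

/-- pullback of divisors of degree zero -/
def pullD (φ : FB a →ₐ[Qb] FB b) :
    Divisor.degZero (K := Qb) (F := FB a) →+ Divisor.degZero (K := Qb) (F := FB b) :=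
  haveI := HeckeJ.hasPrincipalDivisors_bar b
  ((Divisor.pullbackAlong φ (HeckeJ.isIntegralAlong φ)).domRestrict
    (Divisor.degZero (K := Qb) (F := FB a))).codRestrict _
      fun D => Divisor.pullbackAlong_mem_degZero φ (HeckeJ.isIntegralAlong φ)
        (HeckeJ.fundamentalIdentityAlong φ _) D.2

/-- pullback of classes -/
def pullJ (φ : FB a →ₐ[Qb] FB b) : JZero a →+ JZero b :=
  QuotientAddGroup.map _ _ (pullD φ) (by
    rintro ⟨D, hD0⟩ hD
    simp only [AddSubgroup.mem_addSubgroupOf] at hD ⊢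
    haveI := HeckeJ.hasPrincipalDivisors_bar b
    exact Divisor.isPrincipal_pullbackAlong φ (HeckeJ.isIntegralAlong φ) hD)

theorem pullJ_mk (φ : FB a →ₐ[Qb] FB b) (D : Divisor.degZero (K := Qb) (F := FB a)) :
    pullJ φ (Pic0.mk D) = Pic0.mk (pullD φ D) := rfl

/-- the order of the pullback of a trivialisation -/
theorem ord_pullD (φ : FB a →ₐ[Qb] FB b) {p : ℕ} {D : Divisor.degZero (K := Qb) (F := FB a)}
    {f : FB a} (hf : ∀ v : Place Qb (FB a), (p : ℤ) * (D : Divisor Qb (FB a)) v = v.ord f)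
    (w : Place Qb (FB b)) :
    (p : ℤ) * (pullD φ D : Divisor Qb (FB b)) w = w.ord (φ f) := by
  haveI := HeckeJ.hasPrincipalDivisors_bar b
  show (p : ℤ) * Divisor.pullbackAlong φ (HeckeJ.isIntegralAlong φ) D.1 w = _
  rw [Divisor.pullbackAlong_apply, Place.ord_restrictAlong φ (HeckeJ.isIntegralAlong φ), ← hf]
  ring

theorem pullJ_smul (φ : FB a →ₐ[Qb] FB b) (σ : GalQ)
    (hφ : SemilinearAut.IntertwinesAlong φ.toRingHom (arithmeticGalois (modularFunctionFieldFull a) σ)
      (arithmeticGalois (modularFunctionFieldFull b) σ)) (x : JZero a) :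
    pullJ φ (σ • x) = σ • pullJ φ x := by
  haveI := HeckeJ.hasPrincipalDivisors_bar b
  obtain ⟨D, rfl⟩ := Pic0.mk_surjective x
  rw [galois_smul_pic0_def, galois_smul_pic0_def, SemilinearAut.pic0_smul_mk, pullJ_mk, pullJ_mk,
    SemilinearAut.pic0_smul_mk]
  refine congrArg Pic0.mk (Subtype.ext ?_)
  simp only [SemilinearAut.coe_degZeroSMulHom]
  exact HeckeJ.pullbackAlong_smul φ (HeckeJ.isIntegralAlong φ) hφ _

/-- pullback commutes with the Hecke operators prime to both levels and to the order -/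
theorem pullJ_hecke (φ : FB a →ₐ[Qb] FB b)
    (hφ : ∀ σ : GalQ, SemilinearAut.IntertwinesAlong φ.toRingHom
      (arithmeticGalois (modularFunctionFieldFull a) σ)
      (arithmeticGalois (modularFunctionFieldFull b) σ))
    {l n : ℕ} (hl : l.Prime) (hla : ¬ l ∣ a) (hlb : ¬ l ∣ b) (hn : 0 < n) (hln : ¬ l ∣ n)
    {x : JZero a} (hx : n • x = 0) :
    pullJ φ (heckeOperatorBar a ⟨l, hl⟩ x) = heckeOperatorBar b ⟨l, hl⟩ (pullJ φ x) := by
  obtain ⟨B, σ, hB, hσ⟩ := Alg.exists_place_frobenius l hl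
  rw [SS.hecke_eq_frobenius (Attach.galoisInputs a) hl hla hB hσ hn hln hx,
    SS.hecke_eq_frobenius (Attach.galoisInputs b) hl hlb hB hσ hn hln
      (x := pullJ φ x) (by rw [← map_nsmul, hx, map_zero]),
    map_add, map_nsmul, pullJ_smul φ _ (hφ _), pullJ_smul φ _ (hφ _)]

/-- a root of a function of the lower level comes from the lower level -/
theorem exists_root_alpha {N l p : ℕ} [NeZero N] [NeZero l] (hl : l.Prime) (hlN : ¬ l ∣ N)
    (hp : 0 < p) {f : FB N} {c : Qb} {g : FB (N * l)}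
    (hg : g ^ p = heckeAlphaBar Qb N l (algebraMap Qb (FB N) c * f)) :
    ∃ y : FB N, g = heckeAlphaBar Qb N l y := by
  classical
  rcases eq_or_ne g 0 with rfl | hg0
  · exact ⟨0, (map_zero _).symm⟩
  haveI : NeZero (l : Qb) := ⟨Nat.cast_ne_zero.mpr hl.ne_zero⟩
  obtain ⟨ζ, hζ⟩ := HasEnoughRootsOfUnity.exists_primitiveRoot Qb l
  obtain ⟨u, hu⟩ : ∃ u : Qbˣ, IsPrimitiveRoot u l :=
    ⟨(hζ.isUnit hl.ne_zero).unit, IsPrimitiveRoot.coe_units_iff.mp (by simpa using hζ)⟩
  obtain ⟨W, hWα, hWβ⟩ := Reduction.exists_atkin (N := N) (ℓ := l) hl hlN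
  set f' := algebraMap Qb (FB N) c * f with hf'
  let e : Option (Fin l) → (FB (N * l) →+* LS) := fun o =>
    o.elim ((qExpand Qb l).comp (SS2.valA (N * l)).toRingHom) fun i =>
      (Reduction.twist (u ^ (i : ℕ))).comp ((SS2.valA (N * l)).toRingHom.comp W.toRingHom)
  have he₀ : ∀ x, e none x = qExpand Qb l (x : LS) := fun x => rfl
  have he₁ : ∀ i x, e (some i) x = Reduction.twist (u ^ (i : ℕ)) ((W x : FB (N * l)) : LS) :=
    fun i x => rfl
  have hui : ∀ i : ℕ, (u ^ i) ^ l = 1 := fun i => by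
    rw [← pow_mul, mul_comm, pow_mul, hu.pow_eq_one, one_pow]
  have he : ∀ o y, e o (heckeAlphaBar Qb N l y) =
      ((qExpand Qb l).comp (SS2.valA N).toRingHom) y := by
    rintro (_ | i) y
    · rw [he₀, coe_heckeAlphaBar]; rfl
    · rw [he₁, hWα, coe_heckeBetaBar, Reduction.twist_qExpand _ _ (hui i)]; rfl
  set G : LS := qExpand Qb l (g : LS) with hG
  have hG0 : G ≠ 0 := fun h => hg0 (Subtype.ext (qExpand_injective (R := Qb) (N := l)
    (h.trans (map_zero _).symm)))
  have hpow : ∀ o, e o g ^ p = G ^ p := fun o => by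
    rw [← map_pow, hg, he, hG, ← he₀ g, ← map_pow, hg, he]
  obtain ⟨ξ, hξp, hξ⟩ : ∃ ξ : Qb, ξ ^ p = 1 ∧
      ((W g : FB (N * l)) : LS) = algebraMap Qb LS ξ * G := by
    have h0 := hpow (some ⟨0, hl.pos⟩)
    rw [he₁, pow_zero] at h0
    have h1 : Reduction.twist (1 : Qbˣ) ((W g : FB (N * l)) : LS) = ((W g : FB (N * l)) : LS) :=
      HahnSeries.ext (funext fun k => by simp [Reduction.twist_coeff])
    rw [h1] at h0
    obtain ⟨ξ, hξ⟩ := SS2.exists_const_root (k := Qb) (L := LS) hp.ne' (x := _ / G) (c := 1)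
      (by rw [div_pow, h0, div_self (pow_ne_zero _ hG0), map_one])
    exact ⟨ξ, hξ.2, by rw [← hξ.1, div_mul_cancel₀ _ hG0]⟩
  have hsome : ∀ i, e (some i) g = algebraMap Qb LS ξ * G := fun i => by
    rw [he₁, hξ, map_mul, hG, Reduction.twist_qExpand _ _ (hui i)]
    congr 1
    exact (SS2.twistA (u ^ (i : ℕ))).commutes ξ
  have hnd : ¬ (l : ℤ) ∣ -1 := fun h => hl.one_lt.ne' (Nat.eq_one_of_dvd_one
    (by exact_mod_cast (dvd_neg.mp h)))
  have hj : ((ModFun.jBar N : FB N) : LS) = jqModC Qb := SS2.coe_jM0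
  have hinj : Function.Injective e := by
    have hne : ∀ i, e none ≠ e (some i) := fun i h => by
      have h1 := congrArg (fun s : LS => s.coeff (-1))
        (DFunLike.congr_fun h (heckeBetaBar Qb N l (ModFun.jBar N)))
      simp only [he₀, he₁, hWβ, coe_heckeBetaBar, coe_heckeAlphaBar, hj,
        Reduction.coe_jqModC_neg_one, qExpand_coeff_of_not_dvd l _ hnd] at h1
      exact ((u ^ (i : ℕ)) ^ (-1 : ℤ)).ne_zero h1.symm
    rintro (_ | i) (_ | j) h
    · rfl
    · exact absurd h (hne j)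
    · exact absurd h.symm (hne i)
    · have h1 := congrArg (fun s : LS => s.coeff (-1))
        (DFunLike.congr_fun h (heckeBetaBar Qb N l (ModFun.jBar N)))
      simp only [he₁, hWβ, coe_heckeAlphaBar, hj, Reduction.coe_jqModC_neg_one] at h1
      have h2 : u ^ (i : ℕ) = u ^ (j : ℕ) := by simpa using Units.ext h1
      rw [Fin.ext (hu.pow_inj i.2 j.2 h2)]
  have htr := SS2.trAlong_sum (heckeAlphaBar Qb N l)
    ((qExpand Qb l).comp (SS2.valA N).toRingHom) e he hinj
    (by rw [Fintype.card_option, Fintype.card_fin, Reduction.finrankAlong_alpha hl hlN]) g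
  rw [Fintype.sum_option, Finset.sum_congr rfl fun i _ => hsome i, he₀, ← hG, Finset.sum_const,
    Finset.card_univ, Fintype.card_fin, nsmul_eq_mul,
    show G + (l : LS) * (algebraMap Qb LS ξ * G) = algebraMap Qb LS (1 + l * ξ) * G by
      rw [map_add, map_mul, map_one, map_natCast]; ring] at htr
  have hne : (1 : Qb) + l * ξ ≠ 0 := fun h => by
    have h1 : ((l : Qb) * ξ) ^ p = (-1 : Qb) ^ p := by rw [eq_neg_of_add_eq_zero_right h]
    rw [mul_pow, hξp, mul_one] at h1
    have h2 : (((l : ℤ) ^ p : ℤ) : Qb) = (((-1 : ℤ) ^ p : ℤ) : Qb) := by push_cast; exact h1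
    have h3 := congrArg Int.natAbs (Int.cast_injective h2)
    simp only [Int.natAbs_pow, Int.natAbs_natCast, Int.natAbs_neg, Int.natAbs_one, one_pow] at h3
    exact (Nat.one_lt_pow hp.ne' hl.one_lt).ne' h3
  refine ⟨algebraMap Qb (FB N) (1 + l * ξ)⁻¹ * SS2.trAlong (heckeAlphaBar Qb N l) g,
    (e none).injective ?_⟩
  rw [he₀, ← hG, he, map_mul, htr, ← mul_assoc]
  have hc : ((qExpand Qb l).comp (SS2.valA N).toRingHom) (algebraMap Qb (FB N) (1 + l * ξ)⁻¹) =
      algebraMap Qb LS (1 + l * ξ)⁻¹ :=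
    ((SS2.qExpA l).comp (SS2.valA N)).commutes _
  rw [hc, ← map_mul, inv_mul_cancel₀ hne, map_one, one_mul]

/-- pullback along `α` is injective on torsion -/
theorem eq_zero_of_pullJ_alpha {N l p : ℕ} [NeZero N] [NeZero l] (hl : l.Prime) (hlN : ¬ l ∣ N)
    (hp : 0 < p) {x : JZero N} (hx : p • x = 0) (h : pullJ (heckeAlphaBar Qb N l) x = 0) :
    x = 0 := by
  haveI : NeZero p := ⟨hp.ne'⟩
  obtain ⟨D, rfl⟩ := Pic0.mk_surjective x
  obtain ⟨f, hf, hfD⟩ := TOR.exists_trivialisation hx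
  rw [pullJ_mk] at h
  obtain ⟨g, hg, hgD⟩ := (SS2.pic0_mk_eq_zero_iff _).mp h
  set α := heckeAlphaBar Qb N l
  have hαf : α f ≠ 0 := (map_ne_zero _).mpr hf
  obtain ⟨c, hc⟩ := SS2.exists_const_of_ord (h := g ^ p * (α f)⁻¹) (fun v => by
    rw [v.ord_mul (pow_ne_zero _ hg) (inv_ne_zero hαf), v.ord_inv, RR.ord_pow, ← hgD,
      ord_pullD α hfD]
    ring)
  have hgp : g ^ p = α (algebraMap Qb (FB N) c * f) := by
    rw [map_mul, AlgHom.commutes, ← hc, inv_mul_cancel_right₀ hαf]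
  obtain ⟨y, rfl⟩ := exists_root_alpha hl hlN hp hgp
  have hy : y ^ p = algebraMap Qb (FB N) c * f := α.injective (by rw [map_pow]; exact hgp)
  have hy0 : y ≠ 0 := fun h0 => hg (by rw [h0, map_zero])
  have hc0 : c ≠ 0 := fun h0 => pow_ne_zero p hy0 (by rw [hy, h0, map_zero, zero_mul])
  refine (SS2.pic0_mk_eq_zero_iff _).mpr ⟨y, hy0, fun v => ?_⟩
  have e := congrArg v.ord hy
  rw [RR.ord_pow, v.ord_mul ((map_ne_zero _).mpr hc0) hf, RR.ord_algebraMap, zero_add,
    ← hfD] at e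
  exact (mul_left_cancel₀ (Int.natCast_ne_zero.mpr hp.ne') e).symm

/-- pullback along `β` is injective on torsion -/
theorem eq_zero_of_pullJ_beta {N l p : ℕ} [NeZero N] [NeZero l] (hl : l.Prime) (hlN : ¬ l ∣ N)
    (hp : 0 < p) {x : JZero N} (hx : p • x = 0) (h : pullJ (heckeBetaBar Qb N l) x = 0) :
    x = 0 := by
  obtain ⟨D, rfl⟩ := Pic0.mk_surjective x
  obtain ⟨f, hf, hfD⟩ := TOR.exists_trivialisation hx
  rw [pullJ_mk] at h
  obtain ⟨g, hg, hgD⟩ := (SS2.pic0_mk_eq_zero_iff _).mp h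
  obtain ⟨W, hWα, hWβ⟩ := Reduction.exists_atkin (N := N) (ℓ := l) hl hlN
  set α := heckeAlphaBar Qb N l
  set β := heckeBetaBar Qb N l
  have hβf : β f ≠ 0 := (map_ne_zero _).mpr hf
  obtain ⟨c, hc⟩ := SS2.exists_const_of_ord (h := g ^ p * (β f)⁻¹) (fun v => by
    rw [v.ord_mul (pow_ne_zero _ hg) (inv_ne_zero hβf), v.ord_inv, RR.ord_pow, ← hgD,
      ord_pullD β hfD]
    ring)
  have hgp : g ^ p = β (algebraMap Qb (FB N) c * f) := by
    rw [map_mul, AlgHom.commutes, ← hc, inv_mul_cancel_right₀ hβf]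
  have hgp' : W g ^ p = α (algebraMap Qb (FB N) c * f) := by
    rw [← map_pow, hgp]
    exact hWβ _
  obtain ⟨y, hy'⟩ := exists_root_alpha hl hlN hp hgp'
  have hgy : g = β y := W.injective (hy'.trans (hWβ y).symm)
  subst hgy
  have hy : y ^ p = algebraMap Qb (FB N) c * f := β.injective (by rw [map_pow]; exact hgp)
  have hy0 : y ≠ 0 := fun h0 => hg (by rw [h0, map_zero])
  have hc0 : c ≠ 0 := fun h0 => pow_ne_zero p hy0 (by rw [hy, h0, map_zero, zero_mul])
  refine (SS2.pic0_mk_eq_zero_iff _).mpr ⟨y, hy0, fun v => ?_⟩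
  have e := congrArg v.ord hy
  rw [RR.ord_pow, v.ord_mul ((map_ne_zero _).mpr hc0) hf, RR.ord_algebraMap, zero_add,
    ← hfD] at e
  exact (mul_left_cancel₀ (Int.natCast_ne_zero.mpr hp.ne') e).symm

end FLTAgent.MLT

end
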