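import Fermat.Agent.LL.MazurToric
import Fermat.Agent.SS2.KillCore
import Fermat.Agent.MLT.SquarePull

/-!
Lowering a prime dividing the level exactly twice, the notions: classes of level `Mq` with a
rational trivialisation whose two residues are `p`-th powers, classes of level `Mq²` with a twist
congruent to one on the three branches, and auxiliary primes.
-/

set_option autoImplicit false
set_option linter.unusedSectionVars false
set_option synthInstance.maxHeartbeats 400000
set_option linter.style.haveILetI false

noncomputable section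

open ModularCurve AlgebraicCurve IsLocalRing
open FLTAgent.Reduction (Qb kA FB FS Ctx)
open FLTAgent.SS (GS redM)

namespace FLTAgent.MLT

variable {M q p : ℕ} [NeZero M] [NeZero q] {A : ValuationSubring Qb}

/-- a class of level `M * q` with a rational trivialisation whose residues are `p`-th powers -/
def PowTriv (A : ValuationSubring Qb) (p : ℕ) (z : JZero (M * q)) : Prop :=
  ∃ (E : Divisor.degZero (K := Qb) (F := FB (M * q))) (f : FB (M * q)),
    Pic0.mk E = z ∧
      (∀ P : Place Qb (FB (M * q)), (p : ℤ) * (E : Divisor Qb (FB (M * q))) P = P.ord f) ∧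
      f ∈ SS2.rationalFn A (M * q) ∧
      ∀ b, f ∈ GS M q A b ∧ ∃ h : FS A M, h ≠ 0 ∧ redM M q A b f = h ^ p

/-- a class of level `M * q * q` with a twist congruent to one on the three branches -/
def TwistCls (C : Ctx A M q) (p : ℕ) (y : JZero (M * q * q)) : Prop :=
  ∃ W : (SS2.model C).Twist p, Pic0.mk ⟨W.D, Divisor.mem_degZero.mpr W.degree_D⟩ = y

/-- primes `≡ 11 (mod 12)` at which the residual system is not special -/
def AuxPrimes (W : WeierstrassCurve ℤ) (p : ℕ) : Prop :=
  ∀ N : ℕ, ∃ r : ℕ, r.Prime ∧ r % 12 = 11 ∧ N < r ∧ W.IsGoodPrimeFor r ∧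
    ¬ (p : ℤ) ∣ W.apOfModel r ^ 2 - ((r : ℤ) + 1) ^ 2

end FLTAgent.MLT

end
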