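import Fermat.Agent.MLT.SquareTl
import Fermat.Agent.MLT.SquareDefs
import Fermat.Agent.LL.MazurNorm
import Fermat.Agent.LL.MazurKill

/-!
Rational trivialisations of classes of level `M q²`, their exponents on the three branches, and the
effect of the Hecke operators on both.
-/

set_option autoImplicit false
set_option linter.unusedSectionVars false
set_option linter.style.haveILetI false
set_option synthInstance.maxHeartbeats 400000
set_option maxHeartbeats 1000000

noncomputable section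

open ModularCurve AlgebraicCurve IsLocalRing
open FLTAgent.Reduction (Qb kA FB FS PS Ctx normBeta)
open FLTAgent.SS2 (rationalFn inertiaFixed)

namespace FLTAgent.MLT

/-- the norm to level `N` of the dilation by `l` -/
def normHom (N l : ℕ) [NeZero N] [NeZero l] : FB N →*₀ FB N where
  toFun := normBeta N l
  map_zero' := by
    letI := algebraAlong (heckeAlphaBar Qb N l)
    haveI hfin : Module.Finite (FB N) (FB (N * l)) :=
      HeckeJ.finiteAlong (heckeAlphaBar Qb N l)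
    show Algebra.norm (FB N) (heckeBetaBar Qb N l (0 : FB N)) = 0
    rw [map_zero, Algebra.norm_zero]
  map_one' := by
    letI := algebraAlong (heckeAlphaBar Qb N l)
    show Algebra.norm (FB N) (heckeBetaBar Qb N l (1 : FB N)) = 1
    rw [map_one, map_one]
  map_mul' x y := by
    letI := algebraAlong (heckeAlphaBar Qb N l)
    show Algebra.norm (FB N) (heckeBetaBar Qb N l (x * y)) = _
    rw [map_mul, map_mul]
    rfl

theorem normHom_apply (N l : ℕ) [NeZero N] [NeZero l] (x : FB N) :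
    normHom N l x = normBeta N l x := rfl

theorem normBeta_ne_zero' (N l : ℕ) [NeZero N] [NeZero l] {x : FB N} (hx : x ≠ 0) :
    normBeta N l x ≠ 0 := by
  letI := algebraAlong (heckeAlphaBar Qb N l)
  haveI : Module.Finite (FB N) (FB (N * l)) := HeckeJ.finiteAlong (heckeAlphaBar Qb N l)
  exact Algebra.norm_ne_zero_iff.mpr ((map_ne_zero _).mpr hx)

theorem normBeta_algebraMap {N l : ℕ} [NeZero N] [NeZero l] (hl : l.Prime) (hlN : ¬ l ∣ N)
    (c : Qb) : normBeta N l (algebraMap Qb (FB N) c) = algebraMap Qb (FB N) c ^ (l + 1) := by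
  letI := algebraAlong (heckeAlphaBar Qb N l)
  haveI := isScalarTower_along (heckeAlphaBar Qb N l)
  show Algebra.norm (FB N) (heckeBetaBar Qb N l (algebraMap Qb (FB N) c)) = _
  rw [AlgHom.commutes, IsScalarTower.algebraMap_apply Qb (FB N) (FB (N * l)),
    Algebra.norm_algebraMap]
  congr 1
  exact Reduction.finrankAlong_alpha hl hlN

variable {M q p : ℕ} [NeZero M] [NeZero q] {A : ValuationSubring Qb}

/-- `f` is a rational trivialisation of `p • y` -/
def Rep (A : ValuationSubring Qb) (p : ℕ) (y : JZero (M * q * q)) (f : FB (M * q * q)) : Prop :=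
  ∃ E : Divisor.degZero (K := Qb) (F := FB (M * q * q)), Pic0.mk E = y ∧
    (∀ P : Place Qb (FB (M * q * q)), (p : ℤ) * (E : Divisor Qb (FB (M * q * q))) P = P.ord f) ∧
    f ∈ rationalFn A (M * q * q) ∧ f ≠ 0

namespace Rep

variable {y z : JZero (M * q * q)} {f g : FB (M * q * q)}

theorem rational (h : Rep A p y f) : f ∈ rationalFn A (M * q * q) :=
  let ⟨_, _, _, h1, _⟩ := h
  h1

theorem ne_zero (h : Rep A p y f) : f ≠ 0 :=
  let ⟨_, _, _, _, h1⟩ := h
  h1

theorem zero : Rep A p (0 : JZero (M * q * q)) (1 : FB (M * q * q)) :=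
  ⟨0, map_zero (QuotientAddGroup.mk' _), fun P => by simp, one_mem _, one_ne_zero⟩

theorem add (a : Rep A p y f) (b : Rep A p z g) : Rep A p (y + z) (f * g) := by
  obtain ⟨E, rfl, hf, hfr, hf0⟩ := a
  obtain ⟨E', rfl, hg, hgr, hg0⟩ := b
  refine ⟨E + E', map_add (QuotientAddGroup.mk' _) E E', fun P => ?_, mul_mem hfr hgr,
    mul_ne_zero hf0 hg0⟩
  rw [P.ord_mul hf0 hg0, ← hf, ← hg, AddSubgroup.coe_add, Finsupp.add_apply, mul_add]

theorem nsmul (a : Rep A p y f) : ∀ n : ℕ, Rep A p (n • y) (f ^ n)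
  | 0 => by simpa using Rep.zero
  | n + 1 => by rw [succ_nsmul, pow_succ]; exact (a.nsmul n).add a

/-- changing the representative -/
theorem mul_pow (a : Rep A p y f) {c : Qb} (hc : c ∈ inertiaFixed A) (hc0 : c ≠ 0)
    (hg : g ∈ rationalFn A (M * q * q)) (hg0 : g ≠ 0) :
    Rep A p y (algebraMap Qb (FB (M * q * q)) c * f * g ^ p) := by
  obtain ⟨E, rfl, hf, hfr, hf0⟩ := a
  haveI := HeckeJ.hasPrincipalDivisors_bar (M * q * q)
  obtain ⟨G, hG, hG0⟩ :=
    HasPrincipalDivisors.exists_divisor (K := Qb) (F := FB (M * q * q)) g hg0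
  have hc' : algebraMap Qb (FB (M * q * q)) c ≠ 0 := (map_ne_zero _).mpr hc0
  refine ⟨E + ⟨G, Divisor.mem_degZero.mpr hG0⟩, ?_, fun P => ?_,
    mul_mem (mul_mem (SS2.const_mem_rationalFn hc) hfr) (pow_mem hg p),
    mul_ne_zero (mul_ne_zero hc' hf0) (pow_ne_zero _ hg0)⟩
  · rw [Pic0.mk_add, (SS2.pic0_mk_eq_zero_iff ⟨G, Divisor.mem_degZero.mpr hG0⟩).mpr
      ⟨g, hg0, hG⟩, add_zero]
  · rw [P.ord_mul (mul_ne_zero hc' hf0) (pow_ne_zero _ hg0), P.ord_mul hc' hf0,
      RR.ord_algebraMap, RR.ord_pow, ← hf, ← hG, AddSubgroup.coe_add, Finsupp.add_apply, mul_add]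
    ring

/-- two representatives -/
theorem exists_factor (hp : p ≠ 0) {f' : FB (M * q * q)} (a : Rep A p y f) (b : Rep A p y f') :
    ∃ (c : Qb) (g : FB (M * q * q)), c ∈ inertiaFixed A ∧ c ≠ 0 ∧ g ∈ rationalFn A (M * q * q) ∧
      g ≠ 0 ∧ f' = algebraMap Qb (FB (M * q * q)) c * f * g ^ p := by
  obtain ⟨E, rfl, hf, hfr, hf0⟩ := a
  obtain ⟨E', hE, hf', hfr', hf0'⟩ := b
  have hEE : Pic0.mk (E' - E) = (0 : JZero (M * q * q)) := by
    show (QuotientAddGroup.mk' _) (E' - E) = 0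
    rw [map_sub, sub_eq_zero]
    exact hE
  obtain ⟨g, hg, hgE⟩ := (SS2.pic0_mk_eq_zero_iff _).mp hEE
  obtain ⟨c, hc⟩ := SS2.exists_const_of_ord (h := f' * (f * g ^ p)⁻¹) (fun v => by
    rw [v.ord_mul hf0' (inv_ne_zero (mul_ne_zero hf0 (pow_ne_zero _ hg))), v.ord_inv,
      v.ord_mul hf0 (pow_ne_zero _ hg), RR.ord_pow, ← hf, ← hf', ← hgE, AddSubgroup.coe_sub,
      Finsupp.sub_apply]
    ring)
  have he : f' * f⁻¹ = algebraMap Qb (FB (M * q * q)) c * g ^ p := by
    rw [← hc]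
    have := pow_ne_zero p hg
    field_simp
  have hc0 : c ≠ 0 := fun h0 => mul_ne_zero hf0' (inv_ne_zero hf0) (by
    rw [he, h0, map_zero, zero_mul])
  obtain ⟨g₁, hg₁, c₁, hc₁, hc₁0, hg₁0, h1⟩ :=
    SS2.exists_rational_root hp (mul_mem hfr' (inv_mem hfr)) hg hc0 he
  refine ⟨c₁, g₁, hc₁, hc₁0, hg₁, hg₁0, ?_⟩
  rw [mul_right_comm (algebraMap Qb (FB (M * q * q)) c₁) f (g₁ ^ p), ← h1,
    inv_mul_cancel_right₀ hf0]

/-- a class killed by `p` and fixed by inertia has a representative -/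
theorem exists_rep {n : ℕ} {y : JZero (M * q * q)} (hy : n • y = 0)
    (hfix : ∀ σ ∈ A.inertiaSubgroupIn ℚ, σ • y = y) : ∃ f, Rep A n y f := by
  obtain ⟨R, rfl⟩ := SS2.exists_ratClass (A := A) y hy hfix
  exact ⟨R.f, ⟨R.D, R.degree_D⟩, rfl, R.ord_f,
    fun σ hσ => R.f_fixed σ (R.inertia σ hσ), R.f_ne⟩

/-- the image under a Hecke operator -/
theorem hecke {l : ℕ} [NeZero l] (hl : l.Prime) (a : Rep A p y f) :
    Rep A p (heckeOperatorBar (M * q * q) ⟨l, hl⟩ y) (normBeta (M * q * q) l f) := by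
  classical
  obtain ⟨E, rfl, hf, hfr, hf0⟩ := a
  let N := M * q * q
  haveI : HasPrincipalDivisors Qb (FB (N * l)) := HeckeJ.hasPrincipalDivisors_bar (N * l)
  have hα : (heckeAlphaBar Qb N l).toRingHom.IsIntegral := HeckeJ.heckeAlphaBarIntegral _ l
  have hβ : (heckeBetaBar Qb N l).toRingHom.IsIntegral := HeckeJ.heckeBetaBarIntegral _ l
  have hFI : FundamentalIdentityAlong Qb (heckeBetaBar Qb N l) hβ :=
    HeckeJ.fundamentalIdentityAlong _ _
  have hfin : FiniteAlong Qb (heckeAlphaBar Qb N l) := HeckeJ.finiteAlong _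
  have hN : NormFormulaAlong Qb (heckeAlphaBar Qb N l) hfin := HeckeJ.normFormulaAlong _ _
  refine ⟨Pic0.degZeroCorrespondence (heckeBetaBar Qb N l) (heckeAlphaBar Qb N l) hβ hα hFI E,
    ?_, fun v => ?_, LL.normBeta_rational N l hfr, normBeta_ne_zero' N l hf0⟩
  · symm
    show heckeOperatorAlong Qb N l (Pic0.mk E) = _
    rw [heckeOperatorAlong_eq hα hβ hFI hfin hN]
    rfl
  · show (p : ℤ) * Divisor.correspondence (heckeBetaBar Qb N l) (heckeAlphaBar Qb N l)
      hβ hα E.1 v = _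
    have e : (p : ℤ) * Divisor.correspondence (heckeBetaBar Qb N l)
        (heckeAlphaBar Qb N l) hβ hα E.1 v = Divisor.correspondence (heckeBetaBar Qb N l)
        (heckeAlphaBar Qb N l) hβ hα (p • E.1) v := by
      rw [map_nsmul, Finsupp.smul_apply, nsmul_eq_mul]
    rw [e, Divisor.correspondence_apply]
    letI := algebraAlong (heckeAlphaBar Qb N l)
    haveI := isScalarTower_along (heckeAlphaBar Qb N l)
    haveI := isIntegral_along (heckeAlphaBar Qb N l) hα
    haveI : Module.Finite (FB N) (FB (N * l)) := hfin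
    refine hN (heckeBetaBar Qb N l f) ((map_ne_zero _).mpr hf0) _ (fun w => ?_) v
    rw [Divisor.pullbackAlong_apply, Place.ord_restrictAlong _ hβ, Finsupp.smul_apply,
      nsmul_eq_mul, hf]

end Rep

variable (C : Ctx A M q)
include C

/-- a representative with exponent `0` stays one under `T_l`, with residues transformed -/
theorem red_normBeta {l : ℕ} [NeZero l] (hl : l.Prime) (hlN : ¬ l ∣ M * q * q) {u : Aˣ}
    (hu : IsPrimitiveRoot u l) {b : Fin 3} {x : FB (M * q * q)}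
    (hx : (SS2.model C).HasExp b x 0) {s : FS A M}
    (hs : TOR.IsTl u l ((SS2.model C).red b x) s) :
    (SS2.model C).HasExp b (normBeta (M * q * q) l x) 0 ∧
      (SS2.model C).red b (normBeta (M * q * q) l x) = s := by
  have hM := SS2.isModel_model C
  obtain ⟨hxG, hxr⟩ := SS2.Fib.HasExp.zero_iff.mp hx
  have hk := kRes_normBeta hl hlN hu (hM.res b x hxG) hs
  obtain ⟨h1, h2⟩ := hM.of_res b _ s
    (LL.normBeta_rational _ l ((hM.mem_Ω x).mp ((SS2.model C).G_le b x hxG))) hk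
  exact ⟨SS2.Fib.HasExp.zero_iff.mpr ⟨h1, h2 ▸ hs.ne_zero hxr⟩, h2⟩

/-- exponents under `T_l` -/
theorem hasExp_normBeta {l : ℕ} [NeZero l] (hl : l.Prime) (hlN : ¬ l ∣ M * q * q) {b : Fin 3}
    {x : FB (M * q * q)} {i : ℤ} (hx : (SS2.model C).HasExp b x i) :
    (SS2.model C).HasExp b (normBeta (M * q * q) l x) (((l + 1 : ℕ) : ℤ) * i) := by
  set Mo := SS2.model C with hMo
  have hlq : l ≠ q := fun h => hlN (h ▸ dvd_mul_left q (M * q))
  have hlM : ¬ l ∣ M := fun h => hlN (dvd_mul_of_dvd_left (dvd_mul_of_dvd_left h q) q)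
  obtain ⟨u, hu, -, -⟩ := TOR.exists_root (A := A) C.prime C.lies hl hlq
  set T := normHom (M * q * q) l
  -- functions of exponent zero
  have hzero : ∀ z, Mo.HasExp b z 0 → Mo.HasExp b (T z) 0 := fun z hz => by
    obtain ⟨s, hs⟩ := TOR.exists_isTl C hl hlM hu (Mo.red b z)
    exact (red_normBeta C hl hlN hu hz hs).1
  -- the uniformiser
  obtain ⟨k, hk⟩ : ∃ k, Mo.HasExp b (T (Mo.ϖ b)) k :=
    Mo.exists_hasExp b (LL.normBeta_rational _ l (Mo.ϖ_mem_Ω b))
      (normBeta_ne_zero' _ _ (Mo.ϖ_ne b))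
  have hq0 : Mo.HasExp b (algebraMap Qb (FB (M * q * q)) (Mo.q : Qb) * (Mo.ϖ b ^ Mo.e b)⁻¹) 0 :=
    SS2.Fib.HasExp.zero_iff.mpr (Mo.q_eq b)
  have h2 : Mo.HasExp b
      (algebraMap Qb (FB (M * q * q)) (Mo.q : Qb) ^ (l + 1) * (T (Mo.ϖ b) ^ Mo.e b)⁻¹)
      (((l + 1 : ℕ) : ℤ) * Mo.e b + -((Mo.e b : ℤ) * k)) :=
    ((Mo.hasExp_q b).pow (l + 1)).mul (hk.pow (Mo.e b)).inv
  have hkl : k = ((l + 1 : ℕ) : ℤ) := by
    have h1 := hzero _ hq0
    rw [map_mul, map_inv₀, map_pow, normHom_apply, normBeta_algebraMap hl hlN] at h1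
    have h3 := h2.unique h1
    have he : (Mo.e b : ℤ) ≠ 0 := by exact_mod_cast (Mo.e_pos b).ne'
    have : (Mo.e b : ℤ) * (((l + 1 : ℕ) : ℤ) - k) = 0 := by linear_combination h3
    rcases mul_eq_zero.mp this with h | h
    · exact absurd h he
    · linarith
  subst hkl
  have h4 := (hzero _ (SS2.Fib.HasExp.zero_iff.mpr hx)).mul (hk.zpow i)
  rw [map_mul, map_zpow₀, mul_assoc (T x), ← zpow_add₀ ((map_ne_zero T).mpr (Mo.ϖ_ne b)),
    neg_add_cancel, zpow_zero, mul_one, normHom_apply, zero_add] at h4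
  rwa [mul_comm ((l + 1 : ℕ) : ℤ)]

end FLTAgent.MLT

end
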