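import Fermat.Agent.TOR.MazurTl
import Fermat.Agent.SS2.KillModel

/-!
Square lowering: the operator `T_ℓ` on the three branches of the special fibre at level `M q²`.
-/

set_option autoImplicit false
set_option linter.unusedSectionVars false
set_option linter.style.haveILetI false
set_option synthInstance.maxHeartbeats 400000
set_option maxHeartbeats 1000000

noncomputable section

open ModularCurve AlgebraicCurve IsLocalRing
open FLTAgent.Reduction (Qb kA FB FS Ctx normBeta)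
open FLTAgent.SS2 (LS cL GG redL PR eB e20 e02 e11 i0 i1 i2 jM0 KRes)
open FLTAgent.TOR (tlS IsTl uk)

namespace FLTAgent.MLT

theorem twist_qExpand_gen {R : Type*} [CommRing R] (n : ℕ) [NeZero n] (u : Rˣ)
    (y : LaurentSeries R) :
    Reduction.twist u (qExpand R n y) = qExpand R n (Reduction.twist (u ^ n) y) := by
  ext k
  rw [Reduction.twist_coeff]
  by_cases hk : (n : ℤ) ∣ k
  · obtain ⟨m, rfl⟩ := hk
    rw [qExpand_coeff_mul, qExpand_coeff_mul, Reduction.twist_coeff, zpow_mul, zpow_natCast]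
  · rw [qExpand_coeff_of_not_dvd _ _ hk, qExpand_coeff_of_not_dvd _ _ hk, mul_zero]

theorem qExpand_swap {R : Type*} [CommRing R] (a b : ℕ) [NeZero a] [NeZero b]
    (y : LaurentSeries R) : qExpand R a (qExpand R b y) = qExpand R b (qExpand R a y) := by
  ext k
  by_cases hab : ((a * b : ℕ) : ℤ) ∣ k
  · obtain ⟨m, rfl⟩ := hab
    rw [Nat.cast_mul, mul_assoc, qExpand_coeff_mul, qExpand_coeff_mul,
      show (a : ℤ) * ((b : ℤ) * m) = b * (a * m) by ring, qExpand_coeff_mul, qExpand_coeff_mul]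
  · have key : ∀ (c d : ℕ) [NeZero c] [NeZero d], c * d = a * b →
        (qExpand R c (qExpand R d y)).coeff k = 0 := by
      intro c d _ _ hcd
      by_cases hc : (c : ℤ) ∣ k
      · obtain ⟨m, rfl⟩ := hc
        rw [qExpand_coeff_mul]
        refine qExpand_coeff_of_not_dvd _ _ fun hd => hab ?_
        rw [← hcd, Nat.cast_mul]
        exact mul_dvd_mul_left _ hd
      · exact qExpand_coeff_of_not_dvd _ _ hc
    rw [key a b rfl, key b a (mul_comm b a)]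

/-- the norm seen through an expansion, given expansions of level `N ℓ` over it -/
theorem qExpand_normBeta_branch {N ℓ : ℕ} [NeZero N] [NeZero ℓ] (hℓ : ℓ.Prime) (hℓN : ¬ ℓ ∣ N)
    {u : Qbˣ} (hu : IsPrimitiveRoot u ℓ) (e eP eM : FB N →ₐ[Qb] LS)
    (E F : FB (N * ℓ) →ₐ[Qb] LS) (hEα : ∀ g, E (heckeAlphaBar Qb N ℓ g) = e g)
    (hEβ : ∀ g, E (heckeBetaBar Qb N ℓ g) = qExpand Qb ℓ (eP g))
    (hFα : ∀ g, F (heckeAlphaBar Qb N ℓ g) = eM g)
    (hFβ : ∀ g, F (heckeBetaBar Qb N ℓ g) = qExpand Qb ℓ (e g)) {j : FB N}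
    (hj : (eM j).coeff (-1) ≠ 0) (f : FB N) :
    qExpand Qb ℓ (e (normBeta N ℓ f)) =
      qExpand Qb ℓ (qExpand Qb ℓ (eP f)) * ∏ i : Fin ℓ, Reduction.twist (u ^ (i : ℕ)) (eM f) := by
  classical
  obtain ⟨W, hWα, hWβ⟩ := Reduction.exists_atkin hℓ hℓN
  letI := algebraAlong (heckeAlphaBar Qb N ℓ)
  haveI := isScalarTower_along (heckeAlphaBar Qb N ℓ)
  haveI hfin : Module.Finite (FB N) (FB (N * ℓ)) := HeckeJ.finiteAlong (heckeAlphaBar Qb N ℓ)
  haveI : CharZero (FB N) := charZero_of_injective_algebraMap (algebraMap Qb (FB N)).injective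
  haveI : Algebra.IsIntegral (FB N) (FB (N * ℓ)) := Algebra.IsIntegral.of_finite _ _
  haveI : Algebra.IsSeparable (FB N) (FB (N * ℓ)) := Algebra.IsSeparable.of_integral _ _
  have hα : ∀ g : FB N, algebraMap (FB N) (FB (N * ℓ)) g = heckeAlphaBar Qb N ℓ g := fun g => rfl
  let h : Option (Fin ℓ) → (FB (N * ℓ) →+* LS) := fun o =>
    o.elim ((qExpand Qb ℓ).comp E.toRingHom) fun i =>
      (Reduction.twist (u ^ (i : ℕ))).comp (F.toRingHom.comp W.toRingHom)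
  have h₀ : ∀ x, h none x = qExpand Qb ℓ (E x) := fun x => rfl
  have h₁ : ∀ i x, h (some i) x = Reduction.twist (u ^ (i : ℕ)) (F (W x)) := fun i x => rfl
  have he : ∀ o g, h o (algebraMap (FB N) (FB (N * ℓ)) g) =
      ((qExpand Qb ℓ).comp e.toRingHom) g := by
    rintro (_ | i) g
    · rw [h₀, hα, hEα]; rfl
    · rw [h₁, hα, hWα, hFβ, Reduction.twist_qExpand _ _
        (by rw [← pow_mul, mul_comm, pow_mul, hu.pow_eq_one, one_pow])]
      rfl
  have hE0 : h none (heckeBetaBar Qb N ℓ j) = qExpand Qb ℓ (qExpand Qb ℓ (eP j)) := by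
    rw [h₀, hEβ]
  have hE1 : ∀ i, (h (some i) (heckeBetaBar Qb N ℓ j)).coeff (-1) =
      (((u ^ (i : ℕ)) ^ (-1 : ℤ) : Qbˣ) : Qb) * (eM j).coeff (-1) := fun i => by
    rw [h₁, hWβ, hFα, Reduction.twist_coeff]
  have hnd : ¬ (ℓ : ℤ) ∣ -1 := fun hd => hℓ.one_lt.ne' (Nat.eq_one_of_dvd_one
    (by exact_mod_cast (dvd_neg.mp hd)))
  have hinj : Function.Injective h := by
    have hne : ∀ i, h none ≠ h (some i) := fun i hi => by
      have h2 := hE1 i
      rw [← hi, hE0, qExpand_coeff_of_not_dvd ℓ _ hnd] at h2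
      exact mul_ne_zero (Units.ne_zero _) hj h2.symm
    rintro (_ | i) (_ | i') hi
    · rfl
    · exact absurd hi (hne i')
    · exact absurd hi.symm (hne i)
    · have h2 := hE1 i
      rw [hi, hE1 i'] at h2
      have h3 : u ^ (i' : ℕ) = u ^ (i : ℕ) := by
        simpa using Units.ext (mul_right_cancel₀ hj h2)
      rw [Fin.ext (hu.pow_inj i'.2 i.2 h3)]
  have hcard : Fintype.card (Option (Fin ℓ)) = Module.finrank (FB N) (FB (N * ℓ)) := by
    rw [Fintype.card_option, Fintype.card_fin]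
    exact (Reduction.finrankAlong_alpha hℓ hℓN).symm
  have hn := Reduction.norm_eq_prod_homs ((qExpand Qb ℓ).comp e.toRingHom) h he hinj hcard
    (heckeBetaBar Qb N ℓ f)
  refine hn.trans ?_
  rw [Fintype.prod_option]
  refine congrArg₂ (· * ·) ?_ (Finset.prod_congr rfl fun i _ => ?_)
  · rw [h₀, hEβ]
  · rw [h₁, hWβ, hFα]

section Levels

variable (M q ℓ : ℕ) [NeZero M] [NeZero q] [NeZero ℓ]

/-- the two orders of writing level `M ℓ q²` -/
def toLevel : FB (M * q * q * ℓ) →ₐ[Qb] FB (M * ℓ * q * q) :=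
  SS2.incl (dvd_of_eq (by ring))

variable {M q ℓ}

theorem toLevel_alpha (a : FB M) :
    toLevel M q ℓ (heckeAlphaBar Qb (M * q * q) ℓ (i0 M q a)) =
        i0 (M * ℓ) q (heckeAlphaBar Qb M ℓ a) ∧
      toLevel M q ℓ (heckeAlphaBar Qb (M * q * q) ℓ (i1 M q a)) =
        i1 (M * ℓ) q (heckeAlphaBar Qb M ℓ a) ∧
      toLevel M q ℓ (heckeAlphaBar Qb (M * q * q) ℓ (i2 M q a)) =
        i2 (M * ℓ) q (heckeAlphaBar Qb M ℓ a) := by
  refine ⟨Subtype.ext ?_, Subtype.ext ?_, Subtype.ext ?_⟩ <;>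
    simp only [toLevel, SS2.coe_incl, coe_heckeAlphaBar, SS2.coe_i0, SS2.coe_i1, SS2.coe_i2]

theorem toLevel_beta (a : FB M) :
    toLevel M q ℓ (heckeBetaBar Qb (M * q * q) ℓ (i0 M q a)) =
        i0 (M * ℓ) q (heckeBetaBar Qb M ℓ a) ∧
      toLevel M q ℓ (heckeBetaBar Qb (M * q * q) ℓ (i1 M q a)) =
        i1 (M * ℓ) q (heckeBetaBar Qb M ℓ a) ∧
      toLevel M q ℓ (heckeBetaBar Qb (M * q * q) ℓ (i2 M q a)) =
        i2 (M * ℓ) q (heckeBetaBar Qb M ℓ a) := by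
  refine ⟨Subtype.ext ?_, Subtype.ext ?_, Subtype.ext ?_⟩ <;>
    simp only [toLevel, SS2.coe_incl, coe_heckeBetaBar, SS2.coe_i0, SS2.coe_i1, SS2.coe_i2,
      qExpand_swap ℓ q]

end Levels

section Branch

variable {M q ℓ : ℕ} [NeZero M] [NeZero q] [NeZero ℓ] (hq : q.Prime) (hqM : ¬ q ∣ M)
  (hℓ : ℓ.Prime) (hℓN : ¬ ℓ ∣ M * q * q)

include hℓ hℓN in
theorem ell_ne : ℓ ≠ q := fun h => hℓN (h ▸ dvd_mul_left q (M * q))

include hq hℓ hℓN hqM in
theorem not_dvd_mul : ¬ q ∣ M * ℓ := fun h => (hq.dvd_mul.mp h).elim hqM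
  fun h' => ell_ne hℓ hℓN ((Nat.prime_dvd_prime_iff_eq hq hℓ).mp h').symm

/-- the `ℓ`-th power of a primitive root -/
def prPow (ζ : PR q) (hc : ℓ.Coprime q) : PR q :=
  ⟨(ζ : Qb) ^ ℓ, (mem_primitiveRoots (Nat.pos_of_ne_zero (NeZero.ne q))).mpr
    (ζ.prim.pow_of_coprime ℓ hc)⟩

theorem prPow_u (ζ : PR q) (hc : ℓ.Coprime q) : (prPow ζ hc).u = ζ.u ^ ℓ :=
  Units.ext (by rw [Units.val_pow_eq_pow_val]; rfl)

include hq hℓ hℓN in
theorem coprime_ell : ℓ.Coprime q := (Nat.coprime_primes hℓ hq).mpr (ell_ne hℓ hℓN)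

theorem prPow_surjective (hc : ℓ.Coprime q) (ζ : PR q) : ∃ ξ : PR q, prPow ξ hc = ζ := by
  refine Finite.injective_iff_surjective.mp (fun a b h => Subtype.ext ?_) ζ
  have h' : (a : Qb) ^ ℓ = (b : Qb) ^ ℓ := congrArg Subtype.val h
  obtain ⟨i, hi, hia⟩ := (SS2.PR.prim a).eq_pow_of_pow_eq_one (SS2.PR.prim b).pow_eq_one
  rw [← hia, ← pow_mul] at h'
  have hz : (a : Qb) ^ ((i : ℤ) * ℓ - ℓ) = 1 := by
    rw [zpow_sub₀ ((SS2.PR.prim a).ne_zero (NeZero.ne q)), ← Nat.cast_mul, zpow_natCast, zpow_natCast, ← h',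
      div_self (pow_ne_zero _ ((SS2.PR.prim a).ne_zero (NeZero.ne q)))]
  have hd := ((SS2.PR.prim a).zpow_eq_one_iff_dvd _).mp hz
  rw [show (i : ℤ) * ℓ - ℓ = ((i : ℤ) - 1) * ℓ by ring] at hd
  have h1 := (Nat.isCoprime_iff_coprime.mpr hc.symm).dvd_of_dvd_mul_right hd
  rw [← hia, ← zpow_natCast (a : Qb) i,
    show (i : ℤ) = ((i : ℤ) - 1) + 1 by ring, zpow_add₀ ((SS2.PR.prim a).ne_zero (NeZero.ne q)),
    ((SS2.PR.prim a).zpow_eq_one_iff_dvd _).mpr h1, one_mul, zpow_one]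

include hℓ hℓN in
/-- expansions of level `M ℓ q²` over a branch -/
theorem exists_over (ζ : PR q) (b : Fin 3) :
    ∃ E : FB (M * q * q * ℓ) →ₐ[Qb] LS,
      (∀ g, E (heckeAlphaBar Qb (M * q * q) ℓ g) = eB M q hq hqM ζ b g) ∧
      ∀ g, E (heckeBetaBar Qb (M * q * q) ℓ g) =
        qExpand Qb ℓ (eB M q hq hqM (prPow ζ (coprime_ell hq hℓ hℓN)) b g) := by
  have hqL := not_dvd_mul hq hqM hℓ hℓN
  have ext3 : ∀ {f g : FB (M * q * q) →+* LS}, (∀ c, f (algebraMap Qb _ c) = g (algebraMap Qb _ c)) →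
      (∀ a, f (i0 M q a) = g (i0 M q a)) → (∀ a, f (i1 M q a) = g (i1 M q a)) →
      (∀ a, f (i2 M q a) = g (i2 M q a)) → ∀ x, f x = g x := fun hc h0 h1 h2 x =>
    DFunLike.congr_fun (SS2.ringHom_ext_i hq hc h0 h1 h2) x
  refine ⟨(eB (M * ℓ) q hq hqL ζ b).comp (toLevel M q ℓ), fun g => ?_, fun g => ?_⟩
  · refine ext3 (f := (((eB (M * ℓ) q hq hqL ζ b).comp (toLevel M q ℓ)).comp
      (heckeAlphaBar Qb (M * q * q) ℓ)).toRingHom) (g := (eB M q hq hqM ζ b).toRingHom)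
      (fun c => by simp) ?_ ?_ ?_ g
    all_goals intro a
    all_goals simp only [AlgHom.toRingHom_eq_coe, RingHom.coe_coe, AlgHom.comp_apply,
      (toLevel_alpha a).1, (toLevel_alpha a).2.1, (toLevel_alpha a).2.2]
    all_goals fin_cases b
    all_goals simp [eB, SS2.e20_i0, SS2.e20_i1, SS2.e20_i2, SS2.e02_i0, SS2.e02_i1, SS2.e02_i2,
      SS2.e11_i0, SS2.e11_i1, SS2.e11_i2, coe_heckeAlphaBar]
  · refine ext3 (f := (((eB (M * ℓ) q hq hqL ζ b).comp (toLevel M q ℓ)).comp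
      (heckeBetaBar Qb (M * q * q) ℓ)).toRingHom)
      (g := (qExpand Qb ℓ).comp (eB M q hq hqM (prPow ζ (coprime_ell hq hℓ hℓN)) b).toRingHom)
      (fun c => by simp [algebraMap_laurentSeries_eq_single, qExpand_single]) ?_ ?_ ?_ g
    all_goals intro a
    all_goals simp only [AlgHom.toRingHom_eq_coe, RingHom.coe_coe, AlgHom.comp_apply,
      RingHom.comp_apply, (toLevel_beta a).1, (toLevel_beta a).2.1, (toLevel_beta a).2.2]
    all_goals fin_cases b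
    all_goals simp [eB, SS2.e20_i0, SS2.e20_i1, SS2.e20_i2, SS2.e02_i0, SS2.e02_i1, SS2.e02_i2,
      SS2.e11_i0, SS2.e11_i1, SS2.e11_i2, coe_heckeBetaBar, twist_qExpand_gen, prPow_u,
      qExpand_swap ℓ q]

include hq hqM in
theorem exists_simple_pole (ζ : PR q) (b : Fin 3) :
    ∃ j, (eB M q hq hqM ζ b j).coeff (-1) ≠ 0 := by
  fin_cases b
  · refine ⟨i0 M q (jM0 M), ?_⟩
    simp [eB, SS2.e20_i0, SS2.coe_jM0, coeff_jqModC_neg_one]
  · refine ⟨i2 M q (jM0 M), ?_⟩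
    simp [eB, SS2.e02_i2, SS2.coe_jM0, coeff_jqModC_neg_one]
  · refine ⟨i2 M q (jM0 M), ?_⟩
    simp [eB, SS2.e11_i2, SS2.coe_jM0, coeff_jqModC_neg_one]

include hℓ hℓN in
/-- `T_ℓ` on a branch -/
theorem qExpand_normBeta_eB {u : Qbˣ} (hu : IsPrimitiveRoot u ℓ) {ξ ζ : PR q}
    (hξ : prPow ξ (coprime_ell hq hℓ hℓN) = ζ) (b : Fin 3) (f : FB (M * q * q)) :
    qExpand Qb ℓ (eB M q hq hqM ζ b (normBeta (M * q * q) ℓ f)) =
      qExpand Qb ℓ (qExpand Qb ℓ (eB M q hq hqM (prPow ζ (coprime_ell hq hℓ hℓN)) b f)) *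
        ∏ i : Fin ℓ, Reduction.twist (u ^ (i : ℕ)) (eB M q hq hqM ξ b f) := by
  obtain ⟨E, hEα, hEβ⟩ := exists_over hq hqM hℓ hℓN ζ b
  obtain ⟨F, hFα, hFβ⟩ := exists_over hq hqM hℓ hℓN ξ b
  obtain ⟨j, hj⟩ := exists_simple_pole hq hqM ξ b
  rw [hξ] at hFβ
  exact qExpand_normBeta_branch hℓ hℓN hu _ _ _ E F hEα hEβ hFα hFβ hj f

end Branch

section Residue

variable {A : ValuationSubring Qb} {M q : ℕ} [NeZero M] [NeZero q]

variable {C : Ctx A M q}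

/-- restrictions are transformed by `T_ℓ` -/
theorem kRes_normBeta {ℓ : ℕ} [NeZero ℓ] (hℓ : ℓ.Prime) (hℓN : ¬ ℓ ∣ M * q * q) {u : Aˣ}
    (hu : IsPrimitiveRoot u ℓ) {b : Fin 3} {x : FB (M * q * q)} {r s : FS A M}
    (hx : KRes C b x r) (hs : IsTl u ℓ r s) :
    KRes C b (normBeta (M * q * q) ℓ x) s := by
  intro ζ
  have hcop := coprime_ell C.prime hℓ hℓN
  obtain ⟨ξ, hξ⟩ := prPow_surjective hcop ζ
  have huQ : IsPrimitiveRoot (SS2.unitQ u) ℓ :=
    hu.map_of_injective (Units.map_injective A.subtype_injective)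
  set y := eB M q C.prime C.not_dvd ζ b (normBeta (M * q * q) ℓ x)
  have hy : qExpand Qb ℓ y = _ := qExpand_normBeta_eB C.prime C.not_dvd hℓ hℓN huQ hξ b x
  obtain ⟨hP, hPr⟩ := hx (prPow ζ hcop)
  obtain ⟨hM, hMr⟩ := hx ξ
  have hqP := SS2.qExpand_mem ℓ (SS2.qExpand_mem ℓ hP).1
  have htw : ∀ i : Fin ℓ, _ ∧ _ := fun i => SS2.twist_mem (u ^ (i : ℕ)) hM
  simp only [map_pow] at htw
  have hmem : qExpand Qb ℓ y ∈ GG A := by
    rw [hy]
    exact mul_mem hqP.1 (prod_mem fun i _ => (htw i).1)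
  have hsc : y = 0 ∨ SS2.Scalable A y := by
    rcases eq_or_ne (normBeta (M * q * q) ℓ x) 0 with h0 | h0
    · left; simp [y, h0]
    · exact Or.inr (SS2.scalable_eB C ζ b h0)
  have hmem' := SS2.mem_of_qExpand_mem ℓ hsc hmem
  refine ⟨hmem', qExpand_injective (R := kA A) (N := ℓ) ?_⟩
  rw [← (SS2.qExpand_mem ℓ hmem').2, hy, hs, TOR.tlS_apply,
    SS2.redL_mul hqP.1 (prod_mem fun i _ => (htw i).1),
    SS2.redL_prod _ _ (fun i _ => (htw i).1), hqP.2, (SS2.qExpand_mem ℓ hP).2,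
    Finset.prod_congr rfl fun i _ => (htw i).2, hPr, hMr]

end Residue

end FLTAgent.MLT

end
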