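import Fermat.Agent.MLT.SquareToricScale
import Fermat.Agent.LL.MazurRel
import Fermat.Agent.SS.Galois

/-!
Square lowering, level `Mq`: rational trivialisations of classes killed by `p`, with equal scales on
the two sides; toric classes have residues `p`-th powers.
-/

set_option autoImplicit false
set_option linter.unusedSectionVars false
set_option linter.style.haveILetI false
set_option synthInstance.maxHeartbeats 400000
set_option maxHeartbeats 2000000

noncomputable section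

open ModularCurve AlgebraicCurve IsLocalRing
open FLTAgent.Reduction (Qb kA FB FS PB PS Ctx)
open FLTAgent.SS2 (galFn rationalFn)

namespace FLTAgent.MLT

open FLTAgent.SS

variable {M q p : ℕ} [NeZero M] [NeZero q] {A : ValuationSubring Qb}

local notation "κ" => algebraMap Qb (FB (M * q))
local notation "DZ" => Divisor.degZero (K := Qb) (F := FB (M * q))

theorem PowTriv.flat {z : JZero (M * q)} (h : PowTriv A p z) : LL.Flat A p z := by
  obtain ⟨E, f, h1, h2, h3, h4⟩ := h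
  refine ⟨E, f, h1, h2, h3, fun b => ⟨(h4 b).1, ?_⟩⟩
  obtain ⟨k, hk, hk'⟩ := (h4 b).2
  rw [hk']
  exact pow_ne_zero _ hk

variable (C : Ctx A M q)
include C

/-- the sum of two classes -/
theorem flat_mul {E E' : DZ} {f f' : FB (M * q)}
    (hord : ∀ P : PB (M * q), (p : ℤ) * (E : Divisor Qb (FB (M * q))) P = P.ord f)
    (hord' : ∀ P : PB (M * q), (p : ℤ) * (E' : Divisor Qb (FB (M * q))) P = P.ord f')
    (hrat : f ∈ rationalFn A (M * q)) (hrat' : f' ∈ rationalFn A (M * q))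
    (hu : ∀ b, f ∈ GS M q A b ∧ redM M q A b f ≠ 0)
    (hu' : ∀ b, f' ∈ GS M q A b ∧ redM M q A b f' ≠ 0) :
    (∀ P : PB (M * q), (p : ℤ) * ((E - E' : DZ) : Divisor Qb (FB (M * q))) P = P.ord (f * f'⁻¹)) ∧
      f * f'⁻¹ ∈ rationalFn A (M * q) ∧
      ∀ b, f * f'⁻¹ ∈ GS M q A b ∧
        redM M q A b (f * f'⁻¹) = redM M q A b f * (redM M q A b f')⁻¹ := by
  have hf : f ≠ 0 := (isRed_redM C (hu false).1).ne_zero (hu false).2
  have hf' : f' ≠ 0 := (isRed_redM C (hu' false).1).ne_zero (hu' false).2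
  refine ⟨fun P => ?_, mul_mem hrat (inv_mem hrat'), fun b => ?_⟩
  · rw [P.ord_mul hf (inv_ne_zero hf'), P.ord_inv, ← hord, ← hord', AddSubgroupClass.coe_sub,
      Finsupp.sub_apply]
    ring
  · obtain ⟨h1, h2⟩ := (fibreCore C).inv_mem b (hu' b).1 (hu' b).2
    refine ⟨mul_mem (hu b).1 h1, ?_⟩
    exact ((fibreCore C).red_mul b _ (hu b).1 _ h1).trans (congrArg (_ * ·) h2)

omit C in
theorem mk_sub (E E' : DZ) : (Pic0.mk (E - E') : JZero (M * q)) = Pic0.mk E - Pic0.mk E' :=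
  map_sub (QuotientAddGroup.mk' _) E E'

/-- the classes with flat trivialisations form a group -/
theorem Flat.sub' {y y' : JZero (M * q)} (a : LL.Flat A p y) (b : LL.Flat A p y') :
    LL.Flat A p (y - y') := by
  obtain ⟨E, f, rfl, ho, hr, hu⟩ := a
  obtain ⟨E', f', rfl, ho', hr', hu'⟩ := b
  obtain ⟨h1, h2, h3⟩ := flat_mul C ho ho' hr hr' hu hu'
  refine ⟨E - E', f * f'⁻¹, mk_sub E E', h1, h2, fun s => ⟨(h3 s).1, ?_⟩⟩
  rw [(h3 s).2]
  exact mul_ne_zero (hu s).2 (inv_ne_zero (hu' s).2)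

theorem PowTriv.sub' {y y' : JZero (M * q)} (a : PowTriv A p y) (b : PowTriv A p y') :
    PowTriv A p (y - y') := by
  obtain ⟨E, f, rfl, ho, hr, hu⟩ := a
  obtain ⟨E', f', rfl, ho', hr', hu'⟩ := b
  have hn : ∀ {g : FB (M * q)}, (∀ s, g ∈ GS M q A s ∧ ∃ h : FS A M, h ≠ 0 ∧
      redM M q A s g = h ^ p) → ∀ s, g ∈ GS M q A s ∧ redM M q A s g ≠ 0 := fun h s => by
    obtain ⟨h1, k, hk, hk'⟩ := h s
    exact ⟨h1, hk' ▸ pow_ne_zero _ hk⟩
  obtain ⟨h1, h2, h3⟩ := flat_mul C ho ho' hr hr' (hn hu) (hn hu')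
  refine ⟨E - E', f * f'⁻¹, mk_sub E E', h1, h2, fun s => ⟨(h3 s).1, ?_⟩⟩
  obtain ⟨-, k, hk, hk'⟩ := hu s
  obtain ⟨-, l, hl, hl'⟩ := hu' s
  exact ⟨k * l⁻¹, mul_ne_zero hk (inv_ne_zero hl), by rw [(h3 s).2, hk', hl', mul_pow, inv_pow]⟩

theorem PowTriv.zero' : PowTriv A p (0 : JZero (M * q)) :=
  ⟨0, 1, map_zero (QuotientAddGroup.mk' _), fun P => by simp, one_mem _,
    fun b => ⟨one_mem _, 1, one_ne_zero, by rw [one_pow]; exact (fibreCore C).red_one b⟩⟩

/-- a trivialisation, scaled on a side, of a class with a representative twist has a `p`-th power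
as residue -/
theorem red_pow_of_rep (hp : 0 < p) (R : Rep (fibreData C).toCore p) {E : DZ}
    (hE : Pic0.mk E = (Pic0.mk ⟨R.E, Divisor.mem_degZero.mpr R.degree_E⟩ : JZero (M * q)))
    {f : FB (M * q)} (hord : ∀ P : PB (M * q), (p : ℤ) * (E : Divisor Qb (FB (M * q))) P = P.ord f)
    {b : Bool} (hu : f ∈ GS M q A b) (hur : redM M q A b f ≠ 0) :
    ∃ h : FS A M, h ≠ 0 ∧ redM M q A b f = h ^ p := by
  have hf : f ≠ 0 := (isRed_redM C hu).ne_zero hur
  obtain ⟨g, hg, hgE⟩ : ((E : Divisor Qb (FB (M * q))) - R.E).IsPrincipal := by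
    have h1 : (QuotientAddGroup.mk' _) (E - ⟨R.E, Divisor.mem_degZero.mpr R.degree_E⟩) =
        (0 : JZero (M * q)) := by rw [map_sub, sub_eq_zero]; exact hE
    rw [QuotientAddGroup.mk'_apply, QuotientAddGroup.eq_zero_iff, AddSubgroup.mem_addSubgroupOf] at h1
    exact h1
  obtain ⟨d, hd, hgu, hgr⟩ := (fibreCore C).exists_scale b g hg
  set u := (κ (R.α b ^ p))⁻¹ * R.f
  have hum : u ∈ (fibreData C).G b := R.mem b
  set g0 := κ d * g
  have hvm : u * g0 ^ p ∈ (fibreData C).G b := mul_mem hum (pow_mem hgu p)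
  have hvr : (fibreData C).red b (u * g0 ^ p) = (R.h b * (fibreCore C).red b g0) ^ p := by
    rw [(fibreData C).red_mul b _ hum _ (pow_mem hgu p), R.red_eq b, mul_pow (R.h b)]
    exact congrArg (fun t => R.h b ^ p * t) ((fibreCore C).red_pow b hgu p)
  have hvr0 : (R.h b * (fibreCore C).red b g0) ^ p ≠ 0 :=
    pow_ne_zero _ (mul_ne_zero (R.h_ne b) hgr)
  have hv : u * g0 ^ p ≠ 0 := fun h0 => hvr0 (by rw [← hvr, h0]; exact (fibreData C).toCore.red_zero b)
  have hα : (κ (R.α b ^ p))⁻¹ ≠ 0 :=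
    inv_ne_zero ((_root_.map_ne_zero _).mpr (pow_ne_zero _ (R.α_ne b)))
  obtain ⟨c, hc⟩ := SS2.exists_const_of_ord (N := M * q) (h := f * (u * g0 ^ p)⁻¹) (fun v => by
    rw [v.ord_mul hf (inv_ne_zero hv), v.ord_inv,
      v.ord_mul (mul_ne_zero hα R.f_ne) (pow_ne_zero _ (mul_ne_zero ((_root_.map_ne_zero _).mpr hd) hg)),
      v.ord_mul hα R.f_ne, v.ord_inv, RR.ord_algebraMap, RR.ord_pow,
      v.ord_mul ((_root_.map_ne_zero _).mpr hd) hg, RR.ord_algebraMap, ← hord, ← R.ord_f, ← hgE,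
      Finsupp.sub_apply]
    ring)
  have he : f = κ c * (u * g0 ^ p) := by rw [← hc, inv_mul_cancel_right₀ hv]
  have hcA : c ∈ A := (fibreData C).toCore.mem_of_unit_mul b hvm (by rw [hvr]; exact hvr0) (he ▸ hu)
  have hred : redM M q A b f = algebraMap (kA A) (FS A M) (residue A ⟨c, hcA⟩) *
      (R.h b * (fibreCore C).red b g0) ^ p := by
    rw [← hvr, he, ← Algebra.smul_def]
    exact (fibreData C).toCore.red_const_mul b ⟨c, hcA⟩ hvm
  obtain ⟨e, he'⟩ := IsAlgClosed.exists_pow_nat_eq (residue A (⟨c, hcA⟩ : A)) hp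
  refine ⟨algebraMap (kA A) (FS A M) e * (R.h b * (fibreCore C).red b g0), fun h0 => hur ?_, ?_⟩
  · rw [hred, ← he', map_pow, ← mul_pow, h0, zero_pow hp.ne']
  · rw [hred, ← he', map_pow, ← mul_pow]

omit C in
/-- changing the scale of a power -/
theorem scale_swap {F : Type*} [Field F] {a b c f z : F} {j : ℤ} {n : ℕ} (hc : c ≠ 0)
    (h : b = a * (c ^ j) ^ n) : a * f * (z ^ j) ^ n = b * f * ((c⁻¹ * z) ^ j) ^ n := by
  have hu : (c ^ j) ^ n ≠ 0 := pow_ne_zero _ (zpow_ne_zero _ hc)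
  rw [h, mul_zpow, mul_pow, inv_zpow, inv_pow]
  field_simp

omit C in
/-- changing a scale which is a power of `q` -/
theorem scale_swap_q {a b j : ℤ} {n : ℕ} {f z : FB (M * q)} (hq : (q : Qb) ≠ 0)
    (h : b = a + j * n) : κ ((q : Qb) ^ a) * f * (z ^ j) ^ n =
      κ ((q : Qb) ^ b) * f * ((κ (q : Qb)⁻¹ * z) ^ j) ^ n := by
  have hqk : κ (q : Qb) ≠ 0 := (_root_.map_ne_zero _).mpr hq
  have e1 : κ ((q : Qb) ^ b) = κ ((q : Qb) ^ a) * (κ (q : Qb) ^ j) ^ n := by
    rw [map_zpow₀, map_zpow₀, h, zpow_add₀ hqk, zpow_mul, zpow_natCast]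
  rw [map_inv₀]
  exact scale_swap hqk e1

/-- equal scales on the two sides -/
theorem exists_equal_scales {r : ℕ} (hr : r.Prime) (h11 : r % 12 = 11) (hrM : r ∣ M)
    (s : (fibreData C).ι) {E : DZ} {f : FB (M * q)} (hf : f ≠ 0)
    (hord : ∀ P : PB (M * q), (p : ℤ) * (E : Divisor Qb (FB (M * q))) P = P.ord f)
    (hrat : f ∈ rationalFn A (M * q)) {i : Bool → ℤ}
    (hu : ∀ b, κ ((q : Qb) ^ i b) * f ∈ GS M q A b)
    (hdiv : (p : ℤ) ∣ i true - i false) :
    ∃ (E' : DZ) (f' : FB (M * q)), (Pic0.mk E' : JZero (M * q)) = Pic0.mk E ∧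
      (∀ P : PB (M * q), (p : ℤ) * (E' : Divisor Qb (FB (M * q))) P = P.ord f') ∧
      f' ∈ rationalFn A (M * q) ∧
      ∀ b, f' ∈ GS M q A b ∧ ∃ w : FS A M, w ≠ 0 ∧
        redM M q A b f' = redM M q A b (κ ((q : Qb) ^ i b) * f) * w ^ p := by
  obtain ⟨Z⟩ := TOR.exists_crossFn C hr h11 hrM s
  obtain ⟨j, hj⟩ := hdiv
  have hq : (q : Qb) ≠ 0 := Nat.cast_ne_zero.mpr C.prime.ne_zero
  have hZ : Z.Z ≠ 0 := Z.ne_zero
  set x := κ ((q : Qb) ^ i false) * f
  have hx : x ≠ 0 := mul_ne_zero ((_root_.map_ne_zero _).mpr (zpow_ne_zero _ hq)) hf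
  let dZ : DZ := ⟨Reduction.dv Z.Z, Divisor.mem_degZero.mpr (Reduction.degree_dv hZ)⟩
  refine ⟨E + j • dZ, x * (Z.Z ^ j) ^ p, ?_, fun P => ?_, ?_, fun b => ?_⟩
  · show (QuotientAddGroup.mk' _) (E + j • dZ) = _
    rw [map_add, map_zsmul]
    have h0 : (QuotientAddGroup.mk' _) dZ = (0 : JZero (M * q)) := by
      rw [QuotientAddGroup.mk'_apply, QuotientAddGroup.eq_zero_iff, AddSubgroup.mem_addSubgroupOf]
      exact Reduction.dv_mem_principal hZ
    rw [h0, smul_zero, add_zero]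
    rfl
  · rw [P.ord_mul hx (pow_ne_zero _ (zpow_ne_zero _ hZ)), RR.ord_pow, Place.ord_zpow,
      P.ord_mul ((_root_.map_ne_zero _).mpr (zpow_ne_zero _ hq)) hf, RR.ord_algebraMap, zero_add,
      ← hord, AddSubgroup.coe_add, Finsupp.add_apply, AddSubgroupClass.coe_zsmul, Finsupp.smul_apply,
      Reduction.dv_apply, smul_eq_mul]
    ring
  · refine mul_mem (mul_mem (SS2.const_mem_rationalFn (zpow_mem (natCast_mem _ q) _)) hrat)
      (pow_mem (zpow_mem Z.rat j) p)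
  · cases b
    · obtain ⟨hm, hmr⟩ := TOR.red_zpow (fibreData C).toCore false (Z.mem false) Z.red_false_ne j
      refine ⟨mul_mem (hu false) (pow_mem hm p), (fibreData C).red false Z.Z ^ j,
        zpow_ne_zero _ Z.red_false_ne, ?_⟩
      show (fibreData C).red false (x * (Z.Z ^ j) ^ p) = _
      rw [(fibreData C).red_mul false _ (hu false) _ (pow_mem hm p),
        (fibreData C).toCore.red_pow false hm, hmr]
      rfl
    · obtain ⟨hm, hmr⟩ := TOR.red_zpow (fibreData C).toCore true Z.div_mem Z.red_div_ne j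
      have e : x * (Z.Z ^ j) ^ p =
          κ ((q : Qb) ^ i true) * f * ((κ (q : Qb)⁻¹ * Z.Z) ^ j) ^ p :=
        scale_swap_q (f := f) (z := Z.Z) hq (by linear_combination hj)
      refine ⟨(congrArg (fun y => y ∈ GS M q A true) e).mpr (mul_mem (hu true) (pow_mem hm p)),
        (fibreData C).red true (κ (q : Qb)⁻¹ * Z.Z) ^ j, zpow_ne_zero _ Z.red_div_ne, ?_⟩
      show (fibreData C).red true (x * (Z.Z ^ j) ^ p) = _
      rw [e, (fibreData C).red_mul true _ (hu true) _ (pow_mem hm p),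
        (fibreData C).toCore.red_pow true hm, hmr]
      rfl

/-- rational trivialisations with their scales -/
theorem exists_rat_scales {y : JZero (M * q)} (hy : p • y = 0)
    (hfix : ∀ σ ∈ A.inertiaSubgroupIn ℚ, σ • y = y) :
    ∃ (E : DZ) (f : FB (M * q)) (i : Bool → ℤ), Pic0.mk E = y ∧ f ≠ 0 ∧
      (∀ P : PB (M * q), (p : ℤ) * (E : Divisor Qb (FB (M * q))) P = P.ord f) ∧
      f ∈ rationalFn A (M * q) ∧
      ∀ b, κ ((q : Qb) ^ i b) * f ∈ GS M q A b ∧
        redM M q A b (κ ((q : Qb) ^ i b) * f) ≠ 0 := by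
  obtain ⟨R, rfl⟩ := SS2.exists_ratClass (A := A) (n := p) y hy hfix
  have hrat : R.f ∈ rationalFn A (M * q) := fun σ hσ => R.f_fixed σ (R.inertia σ hσ)
  choose i hi using exists_scale_zpow C R.f_ne hrat
  exact ⟨⟨R.D, R.degree_D⟩, R.f, i, rfl, R.f_ne, R.ord_f, hrat, hi⟩

/-- `σ z - z` is toric -/
theorem toric_inertia_sub (hp : p ≠ 0) {σ : AlgebraicClosure ℚ ≃ₐ[ℚ] AlgebraicClosure ℚ}
    (hσ : σ ∈ A.inertiaSubgroupIn ℚ) {z : JZero (M * q)} (hz : p • z = 0) :
    (fibreData C).Toric p (σ • z - z) :=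
  Data.toric_smul_sub (fibreData C).exists_surj hp hz (g := galAut M q σ)
    (compat_inertia C σ hσ) fun _ _ _ _ _ _ _ _ _ _ => ⟨1, one_ne_zero, by simp⟩

/-- inertia fixes toric classes -/
theorem toric_fixed (hqp : ¬ q ∣ p) {σ : AlgebraicClosure ℚ ≃ₐ[ℚ] AlgebraicClosure ℚ}
    (hσ : σ ∈ A.inertiaSubgroupIn ℚ) {y : JZero (M * q)} (hy : (fibreData C).Toric p y) :
    σ • y = y := by
  have h := hy.smul_eq (fibreData C).exists_surj (arch C.prime C.lies)
    (natCast_ne_zero_kA C.prime C.lies hqp) (compat_inertia C σ hσ)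
    (χ := RingHom.id _) (fun _ _ _ _ h => h) 1 (fun ζ _ => (pow_one ζ).symm)
  rw [one_nsmul] at h
  exact h

/-- toric classes have residues `p`-th powers -/
theorem powTriv_of_toric (hp : 0 < p) (hqp : ¬ q ∣ p) {r : ℕ} (hr : r.Prime) (h11 : r % 12 = 11)
    (hrM : r ∣ M) (s : (fibreData C).ι) {y : JZero (M * q)} (hy : p • y = 0)
    (ht : (fibreData C).Toric p y) : PowTriv A p y := by
  obtain ⟨E, f, i, rfl, hf, hord, hrat, hu⟩ :=
    exists_rat_scales C hy fun σ hσ => toric_fixed C hqp hσ ht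
  obtain ⟨E₀, ζ, hE₀, -, R, hRE, -⟩ := ht
  have hE : Pic0.mk E = (Pic0.mk ⟨R.E, Divisor.mem_degZero.mpr R.degree_E⟩ : JZero (M * q)) := by
    rw [← hE₀]
    exact congrArg Pic0.mk (Subtype.ext hRE.symm)
  have hq : (q : Qb) ≠ 0 := Nat.cast_ne_zero.mpr C.prime.ne_zero
  have hordc : ∀ (k : ℤ) (P : PB (M * q)),
      (p : ℤ) * (E : Divisor Qb (FB (M * q))) P = P.ord (κ ((q : Qb) ^ k) * f) := fun k P => by
    rw [P.ord_mul ((_root_.map_ne_zero _).mpr (zpow_ne_zero _ hq)) hf, RR.ord_algebraMap, zero_add,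
      hord]
  choose h hh hhe using fun b => red_pow_of_rep C hp R hE (hordc (i b)) (hu b).1 (hu b).2
  set x := κ ((q : Qb) ^ i false) * f
  have hxr : x ∈ rationalFn A (M * q) :=
    mul_mem (SS2.const_mem_rationalFn (zpow_mem (natCast_mem _ q) _)) hrat
  have ex : κ ((q : Qb) ^ (i true - i false)) * x = κ ((q : Qb) ^ i true) * f := by
    rw [← mul_assoc, ← map_mul, ← zpow_add₀ hq, sub_add_cancel]
  have hdvd := dvd_ord_double_scale C hp hr h11 hrM s
    (mul_ne_zero ((_root_.map_ne_zero _).mpr (zpow_ne_zero _ hq)) hf) (hordc (i false)) hxr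
    (e := i true - i false) (hu false).1 (hu false).2 (ex.symm ▸ (hu true).1)
    (ex.symm ▸ (hu true).2)
  have hdiv : (p : ℤ) ∣ i true - i false := by
    refine (Int.dvd_add_right ?_).mp hdvd
    show (p : ℤ) ∣ ((fibreData C).pt false s).ord (redM M q A false x)
    rw [hhe false, RR.ord_pow]
    exact dvd_mul_right _ _
  obtain ⟨E', f', hE', hord', hrat', hu'⟩ :=
    exists_equal_scales C hr h11 hrM s hf hord hrat (fun b => (hu b).1) hdiv
  refine ⟨E', f', hE', hord', hrat', fun b => ⟨(hu' b).1, ?_⟩⟩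
  obtain ⟨w, hw, hwe⟩ := (hu' b).2
  exact ⟨h b * w, mul_ne_zero (hh b) hw, by rw [hwe, hhe b, mul_pow]⟩

/-- at every point the orders of the residues of a flat class are divisible by `p` -/
theorem dvd_ord_flat (hp : p.Prime) {r : ℕ} (hr : r.Prime) (h11 : r % 12 = 11) (hrM : r ∣ M)
    {E : DZ} {f : FB (M * q)}
    (hord : ∀ P : PB (M * q), (p : ℤ) * (E : Divisor Qb (FB (M * q))) P = P.ord f)
    (hrat : f ∈ rationalFn A (M * q)) (hu : ∀ b, f ∈ GS M q A b ∧ redM M q A b f ≠ 0) (b : Bool)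
    (Q : PS A M) : (p : ℤ) ∣ Q.ord (redM M q A b f) := by
  have key : ∀ (E : DZ) (f : FB (M * q)),
      (∀ P : PB (M * q), (p : ℤ) * (E : Divisor Qb (FB (M * q))) P = P.ord f) →
      f ∈ rationalFn A (M * q) → (∀ b, f ∈ GS M q A b ∧ redM M q A b f ≠ 0) →
      (p : ℤ) ∣ Q.ord (redM M q A false f) := by
    intro E f hord hrat hu
    have hf : f ≠ 0 := (isRed_redM C (hu false).1).ne_zero (hu false).2
    by_cases hs : ∃ s, (fibreData C).pt false s = Q
    · obtain ⟨s, rfl⟩ := hs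
      exact LL.dvd_ord_double C hp.pos hr h11 hrM s hf hord hrat (fun b => (hu b).1)
        (fun b => (hu b).2) false
    · exact LL.dvd_ord_off_double C hp E hf hord (isRed_redM C (hu false).1) (hu false).2
        (not_exists.mp hs)
  cases b
  · exact key E f hord hrat hu
  set g := SemilinearAut.ofAlgAut (TOR.atkinEquiv C)
  have hred : ∀ b, IsRed A b (atkinW M q f) (redM M q A (!b) f) := fun b => by
    have hside : side M q b (atkinW M q f) = side M q (!b) f := by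
      cases b
      · rfl
      · exact atkinW_atkinW C f
    exact ⟨by rw [mem_GS, hside]; exact (hu (!b)).1,
      by rw [hside]; exact (isRed_redM C (hu (!b)).1).2⟩
  have h1 := key (SemilinearAut.degZeroSMulHom g E) (atkinW M q f) (fun P => ?_) (fun σ hσ => ?_)
    (fun b => ⟨(hred b).1, by rw [(hred b).eq]; exact (hu (!b)).2⟩)
  · rwa [(hred false).eq] at h1
  · have h1 := SemilinearAut.ord_smul g (g⁻¹ • P) f
    rw [smul_inv_smul] at h1
    rw [show atkinW M q f = g • f from rfl, h1, SemilinearAut.coe_degZeroSMulHom,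
      SemilinearAut.divisor_smul_apply, hord]
  · rw [show galFn (M * q) σ = galAut M q σ from rfl, ← atkinW_galAut C]
    exact congrArg _ (hrat σ hσ)

end FLTAgent.MLT

end
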