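import Fermat.Agent.MLT.SquareDefs
import Fermat.Agent.LL.MazurSlope
import Fermat.Agent.LL.MazurRes
import Fermat.Agent.TOR.Disc

/-!
Square lowering, level `Mq`: the scales of a rational function on the two sides are powers of `q`;
with divisor `p` times another, their exponents differ by the order at a double point modulo `p`.
-/

set_option autoImplicit false
set_option linter.unusedSectionVars false
set_option linter.style.haveILetI false
set_option synthInstance.maxHeartbeats 400000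
set_option maxHeartbeats 2000000

noncomputable section

open ModularCurve AlgebraicCurve IsLocalRing Polynomial
open FLTAgent.RR (Bd)
open FLTAgent.Reduction (Qb kA FB FS PB PS Ctx Val GR redS)
open FLTAgent.SS2 (galFn rationalFn)
open FLTAgent.TOR (InDisc exists_crossFn sum_disc glue_le red_zpow)

namespace FLTAgent.MLT

open FLTAgent.SS

variable {M q p : ℕ} [NeZero M] [NeZero q] {A : ValuationSubring Qb} (C : Ctx A M q)

local notation "κ" => algebraMap Qb (FB (M * q))

include C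

/-- on either side the scale of a rational function is a power of `q` -/
theorem exists_scale_zpow {f : FB (M * q)} (hf : f ≠ 0) (hrat : f ∈ rationalFn A (M * q))
    (b : Bool) : ∃ i : ℤ, κ ((q : Qb) ^ i) * f ∈ GS M q A b ∧
      redM M q A b (κ ((q : Qb) ^ i) * f) ≠ 0 := by
  set x := side M q b f with hx
  have hxr : x ∈ rationalFn A (M * q) := by
    intro σ hσ
    cases b
    · exact hrat σ hσ
    · show galAut M q σ • atkinW M q f = atkinW M q f
      rw [← atkinW_galAut C]
      exact congrArg _ (hrat σ hσ)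
  have hx0 : x ≠ 0 := (_root_.map_ne_zero (side M q b)).mpr hf
  set e := SS2.valA (M * q)
  have hgen : ∀ d, e (Genus.gen (M * q) d) = SS2.jser (d : ℕ) := fun d => SS2.coe_gen_N d
  obtain ⟨c, hcK, hc, h1, h2⟩ := SS2.exists_scale_in C.prime C.lies (SS2.inertiaFixed A) (e := e)
    (fun d => by rw [hgen]; exact SS2.bdd_jser A _)
    (fun d k => by rw [hgen]; exact SS2.coeff_jser_mem _ _ k)
    (fun k => SS2.mem_rationalFn.mp hxr k) hx0
  obtain ⟨i, hi⟩ := SS2.exists_zpow_valuation_T C.prime C.lies hcK hc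
  obtain ⟨g1, g2⟩ := SS2.scale_congr (d := (q : Qb) ^ i) hc (by rw [hi, map_zpow₀]) h1 h2
  have es : ((side M q b (κ ((q : Qb) ^ i) * f) : FB (M * q)) : LaurentSeries Qb) =
      SS2.cL ((q : Qb) ^ i) * e x := by
    rw [map_mul, AlgHom.commutes, ← hx]
    rfl
  rw [← es] at g1 g2
  have hm : κ ((q : Qb) ^ i) * f ∈ GS M q A b := mem_GS.mpr ((SS2.coe_mem_GG_iff _).mp g1)
  refine ⟨i, hm, fun h0 => g2 ?_⟩
  rw [SS2.redL_coe (mem_GS.mp hm), (isRed_redM C hm).2, h0, ZeroMemClass.coe_zero]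

/-- the order at a double point and the difference of the scales -/
theorem dvd_ord_double_scale (hp : 0 < p) {r : ℕ} (hr : r.Prime) (h11 : r % 12 = 11) (hrM : r ∣ M)
    (s : (fibreData C).ι) {E : Divisor Qb (FB (M * q))} {f : FB (M * q)} (hf : f ≠ 0)
    (hord : ∀ P : PB (M * q), (p : ℤ) * E P = P.ord f)
    (hfix : ∀ τ ∈ A.inertiaSubgroupIn ℚ, galFn (M * q) τ • f = f)
    {e : ℤ} (hmem : f ∈ (fibreData C).G false) (hne : (fibreData C).red false f ≠ 0)
    (hmem' : κ ((q : Qb) ^ e) * f ∈ (fibreData C).G true)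
    (hne' : (fibreData C).red true (κ ((q : Qb) ^ e) * f) ≠ 0) :
    (p : ℤ) ∣ ((fibreData C).pt false s).ord ((fibreData C).red false f) + e := by
  classical
  obtain ⟨Z⟩ := exists_crossFn C hr h11 hrM s
  have hq : (q : Qb) ≠ 0 := Nat.cast_ne_zero.mpr C.prime.ne_zero
  have hp0 : (p : ℤ) ≠ 0 := Int.natCast_ne_zero.mpr hp.ne'
  set S := E.support.filter (InDisc C s) with hSdef
  have hS : ∀ P ∈ S, InDisc C s P := fun P hP => (Finset.mem_filter.mp hP).2
  set np : PB (M * q) → ℕ := fun P => (E P).toNat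
  set nm : PB (M * q) → ℕ := fun P => (-E P).toNat
  have hEτ : ∀ τ ∈ A.inertiaSubgroupIn ℚ, ∀ P, E (galFn (M * q) τ • P) = E P := fun τ hτ P => by
    refine mul_left_cancel₀ hp0 ?_
    rw [hord, hord]
    conv_lhs => rw [← hfix τ hτ]
    exact SemilinearAut.ord_smul _ _ _
  have hSτ : ∀ τ ∈ A.inertiaSubgroupIn ℚ, ∀ P, galFn (M * q) τ • P ∈ S ↔ P ∈ S := by
    intro τ hτ P
    simp only [hSdef, Finset.mem_filter, Finsupp.mem_support_iff, hEτ τ hτ]
    refine and_congr_right fun _ => ⟨fun h => ?_, fun h => h.smul (C := C) hτ⟩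
    have h' := h.smul (C := C) (inv_mem hτ)
    rwa [show galFn (M * q) τ⁻¹ = (galFn (M * q) τ)⁻¹ from map_inv _ τ, inv_smul_smul] at h'
  set gp := Z.fn S np
  set gm := Z.fn S nm
  set Np : ℕ := ∑ P ∈ S, np P
  set Nm : ℕ := ∑ P ∈ S, nm P
  set ap := Z.size S np
  set am := Z.size S nm
  have hgp : gp ≠ 0 := Z.fn_ne_zero
  have hgm : gm ≠ 0 := Z.fn_ne_zero
  have hap : ap ≠ 0 := Z.size_ne_zero hS
  have ham : am ≠ 0 := Z.size_ne_zero hS
  have hsize : ∀ n : PB (M * q) → ℕ, (∀ τ ∈ A.inertiaSubgroupIn ℚ, ∀ P,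
      n (galFn (M * q) τ • P) = n P) → Z.size S n ∈ SS2.inertiaFixed A := fun n hn => by
    rw [SS2.mem_inertiaFixed]
    intro τ hτ
    have h := congrArg (fun R : Qb[X] => R.coeff 0) (Z.poly_map hS hτ (hSτ τ hτ) (hn τ hτ))
    simpa [Polynomial.coeff_map, TOR.CrossFn.size] using h
  have hg : ∀ P, InDisc C s P → P.ord (gp / gm) = E P := fun P hP => by
    rw [div_eq_mul_inv, P.ord_mul hgp (inv_ne_zero hgm), P.ord_inv,
      show P.ord gp = _ from Z.ord_fn hS hP, show P.ord gm = _ from Z.ord_fn hS hP]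
    split_ifs with h
    · simp only [np, nm, Int.toNat_eq_max]; omega
    · rw [hSdef, Finset.mem_filter] at h
      have : E P = 0 := by
        by_contra h0
        exact h ⟨Finsupp.mem_support_iff.mpr h0, hP⟩
      omega
  set γ := ap / am with hγ
  have hγ0 : γ ≠ 0 := div_ne_zero hap ham
  obtain ⟨i, hi⟩ : ∃ i : ℤ, A.valuation γ = A.valuation (q : Qb) ^ i :=
    SS2.exists_zpow_valuation_T C.prime C.lies
      (div_mem (hsize np fun τ hτ P => by simp only [np, hEτ τ hτ])
        (hsize nm fun τ hτ P => by simp only [nm, hEτ τ hτ])) hγ0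
  -- remove the part on the disc
  set x := f * (gm / gp) ^ p with hxdef
  have hq0 : gm / gp ≠ 0 := div_ne_zero hgm hgp
  have hx : x ≠ 0 := mul_ne_zero hf (pow_ne_zero _ hq0)
  have hxord : ∀ P, InDisc C s P → P.ord x = 0 := fun P hP => by
    have e : P.ord (gm / gp) = -E P := by
      rw [← inv_div, P.ord_inv, hg P hP]
    rw [hxdef, P.ord_mul hf (pow_ne_zero _ hq0), RR.ord_pow, e, ← hord]
    ring
  obtain ⟨hmp, hrp⟩ := Z.fn_false (n := np) hS
  obtain ⟨hmm, hrm⟩ := Z.fn_false (n := nm) hS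
  obtain ⟨hmp', hrp'⟩ := Z.fn_true (n := np) hS
  obtain ⟨hmm', hrm'⟩ := Z.fn_true (n := nm) hS
  set z := (fibreData C).red false Z.Z
  set rf := (fibreData C).red false f with hrfdef
  set rt := (fibreData C).red true (κ ((q : Qb) ^ e) * f) with hrtdef
  have hzne : z ≠ 0 := Z.red_false_ne
  obtain ⟨hip, hirp⟩ := (fibreData C).toCore.inv_mem false hmp
    (by rw [hrp]; exact pow_ne_zero _ hzne)
  obtain ⟨hip', hirp'⟩ := (fibreData C).toCore.inv_mem true hmp'
    (by rw [hrp']; exact one_ne_zero)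
  have mf : x ∈ (fibreData C).G false := by
    rw [hxdef, div_eq_mul_inv]
    exact mul_mem hmem (pow_mem (mul_mem hmm hip) p)
  have rfe : (fibreData C).red false x = rf * (z ^ Nm * (z ^ Np)⁻¹) ^ p := by
    rw [hxdef, div_eq_mul_inv,
      (fibreData C).red_mul false _ hmem _ (pow_mem (mul_mem hmm hip) p),
      (fibreData C).toCore.red_pow false (mul_mem hmm hip), (fibreData C).red_mul false _ hmm _ hip,
      hirp, hrm, hrp]
  have et : κ (γ ^ p * (q : Qb) ^ e) * x =
      κ ((q : Qb) ^ e) * f * (κ am⁻¹ * gm * (κ ap⁻¹ * gp)⁻¹) ^ p := by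
    rw [hxdef, hγ, map_mul, map_pow, map_div₀, map_inv₀, map_inv₀,
      mul_comm ((κ ap / κ am) ^ p), mul_assoc (κ ((q : Qb) ^ e)), mul_assoc (κ ((q : Qb) ^ e)),
      mul_left_comm ((κ ap / κ am) ^ p), ← mul_pow]
    congr 2
    field_simp
  have mt : κ (γ ^ p * (q : Qb) ^ e) * x ∈ (fibreData C).G true :=
    et ▸ mul_mem hmem' (pow_mem (mul_mem hmm' hip') p)
  have rte : (fibreData C).red true (κ (γ ^ p * (q : Qb) ^ e) * x) = rt := by
    rw [et, (fibreData C).red_mul true _ hmem' _ (pow_mem (mul_mem hmm' hip') p),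
      (fibreData C).toCore.red_pow true (mul_mem hmm' hip'),
      (fibreData C).red_mul true _ hmm' _ hip',
      hirp', hrm', hrp', inv_one, one_mul, one_pow, mul_one]
  have hzN : (z ^ Nm * (z ^ Np)⁻¹) ^ p ≠ 0 :=
    pow_ne_zero _ (mul_ne_zero (pow_ne_zero _ hzne) (inv_ne_zero (pow_ne_zero _ hzne)))
  set df := ((fibreData C).pt false s).ord rf with hdf
  set dt := ((fibreData C).pt true s).ord rt with hdt
  have hordf : ((fibreData C).pt false s).ord (rf * (z ^ Nm * (z ^ Np)⁻¹) ^ p) =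
      df + (p : ℤ) * ((Nm : ℤ) - Np) := by
    rw [Place.ord_mul _ hne hzN, RR.ord_pow,
      Place.ord_mul _ (pow_ne_zero _ hzne) (inv_ne_zero (pow_ne_zero _ hzne)), Place.ord_inv,
      RR.ord_pow, RR.ord_pow, show ((fibreData C).pt false s).ord z = 1 from Z.ord_false]
    ring
  have hcount := sum_disc C hx (s := s) (a := fun b => if b then γ ^ p * (q : Qb) ^ e else 1)
    (fun b => by cases b <;> simp [hγ0, hq, zpow_ne_zero])
    (fun b => by
      cases b <;> simp only [Bool.false_eq_true, if_false, if_true, map_one, one_mul]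
      exacts [mf, mt])
    (fun b => by
      cases b <;> simp only [Bool.false_eq_true, if_false, if_true, map_one, one_mul]
      · rw [rfe]; exact mul_ne_zero hne hzN
      · rw [rte]; exact hne') ∅ (by simp) (fun P hP h => absurd (hxord P hP) h)
  simp only [Finset.sum_empty, Bool.false_eq_true, if_false, if_true, map_one, one_mul] at hcount
  rw [rfe, rte, hordf] at hcount
  change 0 = df + (p : ℤ) * ((Nm : ℤ) - Np) + dt at hcount
  -- equal scales after removing a power of the crossing function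
  set m : ℤ := df + (p : ℤ) * ((Nm : ℤ) - Np) with hm
  suffices hmi : m + i * p + e = 0 from ⟨-(i + ((Nm : ℤ) - Np)), by
    show df + e = _
    rw [hm] at hmi
    linear_combination hmi⟩
  obtain ⟨hzm, hzr⟩ := red_zpow (fibreData C).toCore false (Z.mem false) hzne (-m)
  obtain ⟨hwm, hwr⟩ := red_zpow (fibreData C).toCore true Z.div_mem Z.red_div_ne (-m)
  set y := x * Z.Z ^ (-m)
  set a' : Bool → Qb := fun b => if b then γ ^ p * (q : Qb) ^ e * ((q : Qb)⁻¹) ^ (-m) else 1
  have ey : κ (γ ^ p * (q : Qb) ^ e * ((q : Qb)⁻¹) ^ (-m)) * y =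
      κ (γ ^ p * (q : Qb) ^ e) * x * (κ (q : Qb)⁻¹ * Z.Z) ^ (-m) := by
    rw [mul_zpow, map_mul, map_zpow₀]; ring
  have ha' : ∀ b, a' b ≠ 0 := fun b => by cases b <;> simp [a', hγ0, hq, zpow_ne_zero]
  have hm' : ∀ b, κ (a' b) * y ∈ (fibreData C).G b := fun b => by
    cases b <;> simp only [a', Bool.false_eq_true, if_false, if_true, map_one, one_mul]
    · exact mul_mem mf hzm
    · rw [ey]; exact mul_mem mt hwm
  have hreg : ∀ P, InDisc C s P → Bd P y 0 := fun P hP => by
    have hz0 : Z.Z ≠ 0 := Z.ne_zero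
    have hZP : P.ord Z.Z = 0 := by
      have hc := (Z.annulus hP).1
      exact ((Z.val_spec hP).ord_eq_zero ((Valuation.ne_zero_iff _).mp (ne_zero_of_lt hc))).2
    rw [RR.bd_iff_ord (mul_ne_zero hx (zpow_ne_zero _ hz0)), P.ord_mul hx (zpow_ne_zero _ hz0),
      Place.ord_zpow, hZP, hxord P hP]
    simp
  have hrf : (fibreData C).red false (κ (a' false) * y) =
      rf * (z ^ Nm * (z ^ Np)⁻¹) ^ p * z ^ (-m) := by
    simp only [a', Bool.false_eq_true, if_false, map_one, one_mul]
    rw [(fibreData C).red_mul false _ mf _ hzm, rfe, hzr]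
  have hrt : (fibreData C).red true (κ (a' true) * y) =
      rt * (fibreData C).red true (κ (q : Qb)⁻¹ * Z.Z) ^ (-m) := by
    simp only [a', if_true]
    rw [ey, (fibreData C).red_mul true _ mt _ hwm, rte, hwr]
  have nf : rf * (z ^ Nm * (z ^ Np)⁻¹) ^ p * z ^ (-m) ≠ 0 :=
    mul_ne_zero (mul_ne_zero hne hzN) (zpow_ne_zero _ hzne)
  have nt : rt * (fibreData C).red true (κ (q : Qb)⁻¹ * Z.Z) ^ (-m) ≠ 0 :=
    mul_ne_zero hne' (zpow_ne_zero _ Z.red_div_ne)
  have of' : ((fibreData C).pt false s).ord (rf * (z ^ Nm * (z ^ Np)⁻¹) ^ p * z ^ (-m)) = 0 := by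
    rw [Place.ord_mul _ (mul_ne_zero hne hzN) (zpow_ne_zero _ hzne), hordf, Place.ord_zpow,
      show ((fibreData C).pt false s).ord z = 1 from Z.ord_false]
    omega
  have ot' : ((fibreData C).pt true s).ord
      (rt * (fibreData C).red true (κ (q : Qb)⁻¹ * Z.Z) ^ (-m)) = 0 := by
    rw [Place.ord_mul _ hne' (zpow_ne_zero _ Z.red_div_ne), Place.ord_zpow, Z.ord_true]
    simp only [← hrtdef, ← hdt] at hcount ⊢
    omega
  have h1 := glue_le C s hreg ha' hm' (b := false) (hrf ▸ nf) (hrf ▸ of')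
  have h2 := glue_le C s hreg ha' hm' (b := true) (hrt ▸ nt) (hrt ▸ ot')
  simp only [Bool.not_false, Bool.not_true] at h1 h2
  have h3 := le_antisymm h2 h1
  simp only [a', Bool.false_eq_true, if_false, if_true] at h3
  have hw : A.valuation (q : Qb) ≠ 0 := (Valuation.ne_zero_iff _).mpr hq
  rw [map_one, map_mul, map_mul, map_pow, map_zpow₀, map_zpow₀, map_inv₀, hi, inv_zpow', neg_neg,
    ← zpow_natCast, ← zpow_mul, ← zpow_add₀ hw, ← zpow_add₀ hw, eq_comm] at h3
  have h4 := (zpow_right_inj₀ (zero_lt_iff.mpr hw)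
    (ne_of_lt (Reduction.valuation_ell_lt_one A C.lies))).mp (h3.trans (zpow_zero _).symm)
  linarith

end FLTAgent.MLT

end
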