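import Fermat.Agent.EIS.Tame
import Fermat.Agent.EIS.Cyclo
import Fermat.Agent.Deform.Mat
import Fermat.Agent.Attach.Cyclotomic
import Fermat.Prelude.Def_GaloisRep_LocalConditions

/-!
Area MLT, parcel C1: at a prime `q` with `q² ≢ 1 (mod p)` a representation whose reduction is
unipotent on inertia is itself unipotent on inertia.

Wild inertia has trivial image, a tame generator `S` is conjugate to `S ^ q`; the trace and the
determinant of `S` are congruent to `2` and `1`, and `q² - 1` is a unit, so they are equal to them.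
-/

set_option autoImplicit false
set_option linter.unusedSectionVars false
set_option linter.style.haveILetI false

noncomputable section

open IsLocalRing Polynomial
open FLTAgent.Deform (Mt)

namespace FLTAgent.MLT

local notation "Qb" => AlgebraicClosure ℚ
local notation "GalQ" => AlgebraicClosure ℚ ≃ₐ[ℚ] AlgebraicClosure ℚ

/-- Cayley-Hamilton in dimension two -/
theorem mt_sq_eq {R : Type} [CommRing R] (S : Mt R) : S * S = S.trace • S - S.det • 1 := by
  ext i j
  fin_cases i <;> fin_cases j <;>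
    simp [Matrix.mul_apply, Fin.sum_univ_two, Matrix.trace_fin_two, Matrix.det_fin_two] <;> ring

/-- the trace of a power in determinant one, to second order at `2` -/
theorem exists_trace_pow {R : Type} [CommRing R] (S : Mt R) (hd : S.det = 1) (m : ℕ) :
    ∃ r : R, (S ^ m).trace - 2 = (S.trace - 2) * ((m : R) ^ 2 + (S.trace - 2) * r) := by
  induction m using Nat.twoStepInduction with
  | zero => exact ⟨0, by simp [Matrix.trace_one]⟩
  | one => exact ⟨0, by simp⟩
  | more m h0 h1 =>
    obtain ⟨r0, h0⟩ := h0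
    obtain ⟨r1, h1⟩ := h1
    refine ⟨((m : R) + 1) ^ 2 + 2 * r1 - r0 + (S.trace - 2) * r1, ?_⟩
    have e : (S ^ (m + 2)).trace = S.trace * (S ^ (m + 1)).trace - (S ^ m).trace := by
      rw [pow_add S m 2, sq, mt_sq_eq, hd, one_smul, mul_sub, mul_smul_comm, mul_one, ← pow_succ,
        Matrix.trace_sub, Matrix.trace_smul, smul_eq_mul]
    push_cast at h0 h1 ⊢
    rw [e]
    linear_combination S.trace * h1 - h0

/-- residually trace two and determinant one gives `p`-th power one -/
theorem pow_char_eq_one {k : Type} [Field k] {p : ℕ} (hp : (p : k) = 0) (S : Mt k)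
    (ht : S.trace = 2) (hd : S.det = 1) : S ^ p = 1 := by
  obtain ⟨N, hN⟩ : ∃ N, N = S - 1 := ⟨_, rfl⟩
  have hNN : N * N = 0 := by
    rw [hN, sub_mul, mul_sub, mul_one, one_mul, mt_sq_eq, ht, hd, one_smul, two_smul]
    abel
  have h : ∀ n : ℕ, (1 + N) ^ n = 1 + (n : k) • N := by
    intro n
    induction n with
    | zero => simp
    | succ n ih =>
      rw [pow_succ, ih, add_mul, one_mul, mul_add, mul_one, smul_mul_assoc, hNN, smul_zero,
        add_zero, Nat.cast_succ, add_smul, one_smul]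
      abel
  have e := h p
  rw [hp, zero_smul, add_zero, hN, add_sub_cancel] at e
  exact e

variable {R : Type} [CommRing R] [IsLocalRing R]

/-- congruences modulo powers of a matrix congruent to one -/
theorem pow_prime_pow_sub_mem {p : ℕ} (hp : (p : R) ∈ maximalIdeal R) {B : Mt R}
    (hB : (residue R).mapMatrix B = 1) (n : ℕ) :
    ∀ a b, (B ^ p ^ n - 1) a b ∈ maximalIdeal R ^ (n + 1) := by
  induction n with
  | zero =>
    intro a b
    simp only [pow_zero, zero_add, pow_one]
    rw [← residue_eq_zero_iff]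
    show ((residue R).mapMatrix (B - 1)) a b = 0
    rw [map_sub, hB, map_one, sub_self]
    rfl
  | succ n ih =>
    intro a b
    have e1 : B ^ p ^ (n + 1) - 1 =
        (B ^ p ^ n - 1) * ∑ i ∈ Finset.range p, (B ^ p ^ n) ^ i := by
      rw [mul_geom_sum, pow_succ p n, pow_mul]
    rw [e1, Matrix.mul_apply, pow_succ (maximalIdeal R) (n + 1)]
    refine Ideal.sum_mem _ fun c _ => Ideal.mul_mem_mul (ih a c) ?_
    have hsum : (residue R).mapMatrix (∑ i ∈ Finset.range p, (B ^ p ^ n) ^ i) = 0 := by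
      simp only [map_sum, map_pow, hB, one_pow, Finset.sum_const, Finset.card_range]
      rw [← Nat.cast_smul_eq_nsmul (ResidueField R), ← map_natCast (residue R),
        (residue_eq_zero_iff _).2 hp, zero_smul]
    exact (residue_eq_zero_iff _).1 (congrFun (congrFun hsum c) b)

theorem eq_one_of_pow_eq_one {e : ℕ} (he : IsUnit ((e : ℕ) : R)) {I : Ideal R} {d : R}
    (hd : d - 1 ∈ maximalIdeal R) (h : d ^ e - 1 ∈ I) : d - 1 ∈ I := by
  have hu : IsUnit (∑ i ∈ Finset.range e, d ^ i) := by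
    rw [← residue_ne_zero_iff_isUnit]
    have h1 : residue R d = 1 := by
      rw [← sub_eq_zero, ← map_one (residue R), ← map_sub, residue_eq_zero_iff]; exact hd
    simp only [map_sum, map_pow, h1, one_pow, Finset.sum_const, Finset.card_range, nsmul_one]
    rw [← map_natCast (residue R)]
    exact (residue_ne_zero_iff_isUnit _).2 he
  rw [← geom_sum_mul] at h
  exact (Ideal.unit_mul_mem_iff_mem I hu).1 h

/-- a matrix conjugate to its `q`-th power, modulo an ideal -/
theorem det_trace_of_conj {q : ℕ} (hu : IsUnit (((q ^ 2 - 1 : ℕ)) : R)) (hq : 1 ≤ q) (I : Ideal R)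
    (S : Mt R) (hdS : S.det - 1 ∈ maximalIdeal R) (htS : S.trace - 2 ∈ maximalIdeal R) (Φ : Mt R)
    (hΦ : IsUnit Φ)
    (h : ∀ a b, (Φ * S - S ^ q * Φ) a b ∈ I) : S.det - 1 ∈ I ∧ S.trace - 2 ∈ I := by
  let π := (Ideal.Quotient.mk I).mapMatrix (m := Fin 2)
  have hπ : π Φ * π S = π S ^ q * π Φ := by
    rw [← map_pow, ← map_mul, ← map_mul, ← sub_eq_zero, ← map_sub]
    ext a b
    exact Ideal.Quotient.eq_zero_iff_mem.2 (h a b)
  obtain ⟨u, hu'⟩ := hΦ.map π
  have hc : π S ^ q = (u : Mt (R ⧸ I)) * π S * (u⁻¹ : (Mt (R ⧸ I))ˣ) := by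
    rw [hu', hπ, mul_assoc, ← hu', Units.mul_inv, mul_one]
  have hdet : (π S).det ^ q = (π S).det := by
    rw [← Matrix.det_pow, hc, Matrix.det_units_conj]
  have htr : (π S ^ q).trace = (π S).trace := by
    rw [hc, Matrix.trace_units_conj]
  have hπd : (π S).det = Ideal.Quotient.mk I S.det := (RingHom.map_det _ _).symm
  have hd : S.det - 1 ∈ I := by
    have hu1 : IsUnit (((q - 1 : ℕ)) : R) := by
      have e : q ^ 2 - 1 = (q - 1) * (q + 1) := by
        obtain ⟨c, rfl⟩ := Nat.exists_eq_add_of_le hq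
        rw [Nat.add_sub_cancel_left]
        have : (1 + c) ^ 2 = c * (1 + c + 1) + 1 := by ring
        omega
      rw [e, Nat.cast_mul] at hu
      exact (IsUnit.mul_iff.1 hu).1
    refine eq_one_of_pow_eq_one hu1 hdS ?_
    have hSu : IsUnit S.det := by
      rw [← residue_ne_zero_iff_isUnit]
      intro h0
      rw [← residue_eq_zero_iff, map_sub, h0, map_one, zero_sub, neg_eq_zero] at hdS
      exact one_ne_zero hdS
    have hqI : S.det ^ q - S.det ∈ I := by
      rw [← Ideal.Quotient.eq, map_pow, ← hπd, hdet]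
    rw [show S.det ^ q - S.det = S.det * (S.det ^ (q - 1) - 1) by
      conv_lhs => rw [show q = q - 1 + 1 by omega, pow_succ]
      ring] at hqI
    exact (Ideal.unit_mul_mem_iff_mem I hSu).1 hqI
  refine ⟨hd, ?_⟩
  have hd1 : (π S).det = 1 := by
    rw [hπd, ← map_one (Ideal.Quotient.mk I), Ideal.Quotient.eq]
    exact hd
  obtain ⟨r, hr⟩ := exists_trace_pow (π S) hd1 q
  obtain ⟨r', rfl⟩ := Ideal.Quotient.mk_surjective r
  have hπt : (π S).trace = Ideal.Quotient.mk I S.trace :=
    (AddMonoidHom.map_trace (Ideal.Quotient.mk I).toAddMonoidHom S).symm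
  have hmem : (S.trace - 2) * ((q : R) ^ 2 - 1 + (S.trace - 2) * r') ∈ I := by
    rw [← Ideal.Quotient.eq_zero_iff_mem]
    rw [htr, hπt] at hr
    simp only [map_mul, map_add, map_sub, map_pow, map_natCast, map_one, map_ofNat]
    linear_combination -hr
  have hunit : IsUnit ((q : R) ^ 2 - 1 + (S.trace - 2) * r') := by
    rw [← residue_ne_zero_iff_isUnit, map_add, map_mul, (residue_eq_zero_iff _).2 htS, zero_mul,
      add_zero, residue_ne_zero_iff_isUnit]
    rwa [Nat.cast_sub (Nat.one_le_pow _ _ hq), Nat.cast_pow, Nat.cast_one] at hu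
  rw [mul_comm] at hmem
  exact (Ideal.unit_mul_mem_iff_mem I hunit).1 hmem

/-- the kernel of the mod `n` cyclotomic character -/
def cycKer (n : ℕ) [NeZero n] : Subgroup GalQ where
  carrier := {σ | Attach.cyc n σ = 1}
  mul_mem' {a b} ha hb := by
    show Attach.cyc n (a * b) = 1
    rw [Attach.cyc_mul, show Attach.cyc n a = 1 from ha, show Attach.cyc n b = 1 from hb, mul_one]
  one_mem' := Attach.cyc_one n
  inv_mem' {a} ha := by
    have h := Attach.cyc_mul n a⁻¹ a
    rw [inv_mul_cancel, Attach.cyc_one, show Attach.cyc n a = 1 from ha, mul_one] at h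
    exact h.symm

instance cycKer_normal (n : ℕ) [NeZero n] : (cycKer n).Normal where
  conj_mem a ha g := by
    show Attach.cyc n (g * a * g⁻¹) = 1
    rw [Attach.cyc_mul, Attach.cyc_mul, show Attach.cyc n a = 1 from ha, mul_one,
      ← Attach.cyc_mul, mul_inv_cancel, Attach.cyc_one]

/-- trace two and determinant one on inertia, modulo every power of the maximal ideal -/
theorem inertia_trace_det {p q : ℕ} (hp : p.Prime) (hq : q.Prime) (hqp : q ≠ p)
    (hpR : (p : R) ∈ maximalIdeal R) (h1 : ¬ p ∣ q ^ 2 - 1) {B : ValuationSubring Qb}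
    (hB : B.LiesOverPrime q) (F : GalQ →* Mt R) (hF : Deform.MatCont (⇑F : GalQ → Mt R))
    (hres : ∀ τ ∈ B.inertiaSubgroupIn ℚ,
      residue R (F τ).trace = 2 ∧ residue R (F τ).det = 1)
    {τ : GalQ} (hτ : τ ∈ B.inertiaSubgroupIn ℚ) (n : ℕ) :
    (F τ).det - 1 ∈ maximalIdeal R ^ n ∧ (F τ).trace - 2 ∈ maximalIdeal R ^ n := by
  classical
  haveI : NeZero p := ⟨hp.ne_zero⟩
  haveI := FLTAgent.Common.isAlgebraic_qbar
  haveI := FLTAgent.Common.isGalois_qbar
  set I := maximalIdeal R ^ n with hI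
  let π := (Ideal.Quotient.mk I).mapMatrix (m := Fin 2)
  let Fn : GalQ →* Mt (R ⧸ I) := π.toMonoidHom.comp F
  let N' : Subgroup GalQ := Fn.ker ⊓ cycKer p
  obtain ⟨L₁, hL₁, hF1⟩ := hF n
  obtain ⟨L₂, hL₂, hc2⟩ := Attach.exists_cyc_level p
  haveI := hL₁; haveI := hL₂
  let E := L₁ ⊔ L₂
  have hEle : E.fixingSubgroup ≤ N' := by
    intro g hg
    have hfix : ∀ K : IntermediateField ℚ Qb, K ≤ E → ∀ x ∈ K, g x = x :=
      fun K hK x hx => (IntermediateField.mem_fixingSubgroup_iff _ _).1 hg x (hK hx)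
    refine ⟨MonoidHom.mem_ker.2 ?_, hc2 g (hfix L₂ le_sup_right)⟩
    show π (F g) = 1
    rw [← map_one π, ← sub_eq_zero, ← map_sub]
    ext a b
    exact Ideal.Quotient.eq_zero_iff_mem.2 (hF1 g (hfix L₁ le_sup_left) a b)
  haveI hN'n : N'.Normal := inferInstanceAs (Fn.ker ⊓ cycKer p).Normal
  have hopen : IsOpen (N' : Set GalQ) :=
    Subgroup.isOpen_mono hEle (IntermediateField.fixingSubgroup_isOpen E)
  let N'c : ClosedSubgroup GalQ := ⟨N', Subgroup.isClosed_of_isOpen _ hopen⟩
  let L := IntermediateField.fixedField N'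
  have hLfix : L.fixingSubgroup = N' := InfiniteGalois.fixingSubgroup_fixedField N'c
  have hLE : L ≤ E := by
    rw [← InfiniteGalois.fixedField_fixingSubgroup E]
    exact IntermediateField.fixedField_le hEle
  haveI : FiniteDimensional ℚ L := FiniteDimensional.of_injective
    (IntermediateField.inclusion hLE).toLinearMap (IntermediateField.inclusion_injective hLE)
  have hmemN : ∀ g, (∀ x ∈ L, g x = x) → g ∈ N' := fun g hg =>
    hLfix ▸ (IntermediateField.mem_fixingSubgroup_iff _ _).2 hg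
  have hfixN : ∀ g ∈ N', ∀ x ∈ L, g x = x := fun g hg =>
    (IntermediateField.mem_fixingSubgroup_iff _ _).1 (hLfix.symm ▸ hg)
  have hL : ∀ g : GalQ, ∀ x ∈ L, g x ∈ L := by
    intro g x hx
    rw [IntermediateField.mem_fixedField_iff] at hx ⊢
    intro s hs
    have := hx _ (by simpa using hN'n.conj_mem s hs g⁻¹ : g⁻¹ * s * g ∈ N')
    rw [AlgEquiv.mul_apply, AlgEquiv.mul_apply] at this
    have e := congrArg g this
    rwa [← AlgEquiv.mul_apply g g⁻¹, mul_inv_cancel, AlgEquiv.one_apply] at e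
  have hζ : ∀ y : Qb, y ^ p = 1 → y ∈ L := by
    intro y hy
    rw [IntermediateField.mem_fixedField_iff]
    rintro g ⟨-, hg⟩
    haveI : Fact (1 < p) := ⟨hp.one_lt⟩
    rw [Attach.cyc_spec g hy, show Attach.cyc p g = 1 from hg, ZMod.val_one, pow_one]
  have hk : ∀ τ ∈ B.inertiaSubgroupIn ℚ, ∀ x ∈ L, (τ ^ (p ^ (n + 1))) x = x := by
    intro τ hτ
    refine hfixN _ ⟨MonoidHom.mem_ker.2 ?_, ?_⟩
    · have hB : (residue R).mapMatrix (F τ ^ p) = 1 := by
        rw [map_pow]
        refine pow_char_eq_one ?_ _ ?_ ?_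
        · rw [← map_natCast (residue R), residue_eq_zero_iff]; exact hpR
        · exact (AddMonoidHom.map_trace (residue R).toAddMonoidHom _).symm.trans (hres τ hτ).1
        · exact (RingHom.map_det _ _).symm.trans (hres τ hτ).2
      show π (F (τ ^ p ^ (n + 1))) = 1
      rw [map_pow F, pow_succ' p n, pow_mul, ← map_one π, ← sub_eq_zero, ← map_sub]
      ext a b
      exact Ideal.Quotient.eq_zero_iff_mem.2
        (Ideal.pow_le_pow_right n.le_succ (pow_prime_pow_sub_mem hpR hB n a b))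
    · exact pow_mem (show τ ∈ cycKer p from Attach.cyc_inertia hq
        (fun h => hqp ((Nat.prime_dvd_prime_iff_eq hq hp).1 h)) hB hτ) _
  obtain ⟨σ, hσ, hgen, hconj⟩ := EIS.exists_tame_generator (k := n + 1) hq hB hp
    (fun e => hqp e.symm) L hL hζ hk
  obtain ⟨φ, hφ⟩ := EIS.exists_frobenius_at hq hB
  have hcong : ∀ g g' : GalQ, (∀ x ∈ L, g x = g' x) → π (F g) = π (F g') := by
    intro g g' h
    have hm : g'⁻¹ * g ∈ N' := hmemN _ fun x hx => by
      rw [AlgEquiv.mul_apply, h x hx]; exact g'.symm_apply_apply x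
    have h2 : π (F (g'⁻¹ * g)) = 1 := MonoidHom.mem_ker.1 hm.1
    rw [← mul_inv_cancel_left g' g, map_mul F, map_mul π, h2, mul_one]
  have hu : IsUnit (((q ^ 2 - 1 : ℕ)) : R) := by
    rw [← residue_ne_zero_iff_isUnit, map_natCast]
    haveI : CharP (ResidueField R) p := (CharP.charP_iff_prime_eq_zero hp).2 (by
      rw [← map_natCast (residue R), residue_eq_zero_iff]; exact hpR)
    rwa [Ne, CharP.cast_eq_zero_iff (ResidueField R) p]
  have hm : ∀ x : R, ∀ c : ℕ, residue R x = c → x - c ∈ maximalIdeal R := fun x c h => by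
    rw [← residue_eq_zero_iff, map_sub, h, map_natCast, sub_self]
  obtain ⟨hd, ht⟩ := det_trace_of_conj hu hq.one_le I (F σ)
    (by simpa using hm _ 1 (by simpa using (hres σ hσ).2))
    (by simpa using hm _ 2 (by simpa using (hres σ hσ).1)) (F φ) ((Group.isUnit φ).map F) (by
      intro a b
      have h := hcong _ _ (hconj φ hφ)
      rw [← Ideal.Quotient.eq_zero_iff_mem]
      show π (F φ * F σ - F σ ^ q * F φ) a b = 0
      rw [← map_pow F, ← map_mul F, ← map_mul F, map_sub,
        show φ * σ = φ * σ * φ⁻¹ * φ by rw [inv_mul_cancel_right],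
        map_mul F (φ * σ * φ⁻¹) φ, map_mul π, h, map_mul F, map_mul π, sub_self]
      rfl)
  obtain ⟨m, hm'⟩ := hgen τ hτ
  have e : π (F τ) = π (F σ) ^ m := by rw [hcong _ _ hm', map_pow F, map_pow π]
  have hdπ : (π (F σ)).det = 1 := by
    rw [← RingHom.map_det, ← map_one (Ideal.Quotient.mk I), Ideal.Quotient.eq]; exact hd
  constructor
  · rw [← Ideal.Quotient.eq, RingHom.map_det, map_one]
    show (π (F τ)).det = 1
    rw [e, Matrix.det_pow, hdπ, one_pow]
  · have hT : ∀ M : Mt R, (π M).trace = Ideal.Quotient.mk I M.trace := fun M =>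
      (AddMonoidHom.map_trace (Ideal.Quotient.mk I).toAddMonoidHom M).symm
    obtain ⟨r, hr⟩ := exists_trace_pow _ hdπ m
    rw [← e, hT, hT] at hr
    rw [← Ideal.Quotient.eq_zero_iff_mem, map_sub, map_ofNat, hr]
    have h0 := Ideal.Quotient.eq_zero_iff_mem.2 ht
    rw [map_sub, map_ofNat] at h0
    rw [h0, zero_mul]

/-- unipotence lifts from the reduction where `q² ≢ 1` -/
theorem unipotent_of_residual [IsNoetherianRing R] {p q : ℕ} (hp : p.Prime) (hq : q.Prime)
    (hqp : q ≠ p) (hpR : (p : R) ∈ maximalIdeal R) (h1 : ¬ p ∣ q ^ 2 - 1) (ρ : GaloisRepAdic R)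
    (hres : ∀ B : ValuationSubring Qb, B.LiesOverPrime q → ∀ τ ∈ B.inertiaSubgroupIn ℚ,
      residue R (LinearMap.trace R ρ.V (ρ.ρ τ)) = 2 ∧ residue R (LinearMap.det (ρ.ρ τ)) = 1) :
    ρ.IsUnipotentOnInertiaAt q := by
  obtain ⟨r, hr⟩ := Deform.exists_repMat ρ
  let F : GalQ →* Mt R := { toFun := r, map_one' := hr.map_one, map_mul' := hr.map_mul }
  obtain ⟨b, hb⟩ := hr
  have htr : ∀ τ, LinearMap.trace R ρ.V (ρ.ρ τ) = (r τ).trace := fun τ => by
    rw [LinearMap.trace_eq_matrix_trace R b, hb]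
  have hdet : ∀ τ, LinearMap.det (ρ.ρ τ) = (r τ).det := fun τ => by
    rw [← LinearMap.det_toMatrix b, hb]
  intro B hB τ hτ
  have h : ∀ n, (r τ).det - 1 ∈ maximalIdeal R ^ n ∧ (r τ).trace - 2 ∈ maximalIdeal R ^ n := fun n =>
    inertia_trace_det hp hq hqp hpR h1 hB F (Deform.repMat_matCont ⟨b, hb⟩)
      (fun τ' hτ' => by
        have h' := hres B hB τ' hτ'
        rw [htr, hdet] at h'
        exact h') hτ n
  have hz : ∀ x : R, (∀ n, x ∈ maximalIdeal R ^ n) → x = 0 := fun x hx => by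
    rw [← Ideal.mem_bot,
      ← Ideal.iInf_pow_eq_bot_of_isLocalRing (maximalIdeal R) (maximalIdeal.isMaximal R).ne_top]
    exact Ideal.mem_iInf.2 hx
  rw [← LinearMap.charpoly_toMatrix (ρ.ρ τ) b, hb, Matrix.charpoly_fin_two,
    sub_eq_zero.1 (hz _ fun n => (h n).1), sub_eq_zero.1 (hz _ fun n => (h n).2),
    show (C (2 : R) : R[X]) = 2 from map_ofNat C 2, map_one]
  ring

end FLTAgent.MLT

end
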