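import Fermat.Agent.MLT.TowersKappa
import Fermat.Agent.MLT.Mk.Assembly
import Fermat.Agent.MLT.Mk.CoreMain
import Fermat.Agent.MLT.PointRep
import Fermat.Agent.MLT.Mk.Killer

/-!
Area MLT, parcel TOWERS: a condition at `p` on what acts at every depth, and a killer of the
conductor level, give the levels of a chain (the flat world and the très ramifié world).
-/

set_option autoImplicit false
set_option linter.style.haveILetI false
set_option linter.unusedSectionVars false
set_option maxHeartbeats 1000000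

noncomputable section

open WeierstrassCurve IsLocalRing Matrix FLTAgent.LL FLTAgent.PT FLTAgent.PT.TW

namespace FLTAgent.MLT

/-- the curve point as a member of the joint lift -/
def PointRep.toCorePoint {W : WeierstrassCurve ℤ} {p : ℕ} [Fact p.Prime] {O : Type} [CommRing O]
    [IsDomain O] [IsDiscreteValuationRing O] [IsAdicComplete (maximalIdeal O) O]
    [Finite (ResidueField O)] [CharZero O] [Algebra (ZMod p) (ResidueField O)]
    {r : GQ →* GL (Fin 2) (ResidueField O)} (pr : PointRep W p O r) : CorePoint W p r where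
  ρ := pr.ρ
  R₀ := pr.R₀
  rep := pr.rep
  absIrr := pr.absIrr
  residual_trace := pr.residual_trace
  det := pr.det
  unip := fun q hq hqp _ => pr.unip q hq hqp
  unr := fun q hq hqp hg => pr.unr q hq hqp hg

variable {W : WeierstrassCurve ℤ} {p : ℕ} [Fact p.Prime]

/-- frames of the places with the signs of the curve -/
theorem TowerSetup.exists_frames (T : TowerSetup W p) (pr : PointRep W p T.O T.r) :
    ∃ (frob tame : Fin T.k → GQ) (w : Fin T.k → T.O) (F : Fin T.k → FPlace T.O)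
      (U : Fin T.k → Matrix (Fin 2) (Fin 2) T.O), CondPlaces p T.r T.Wq frob tame ∧
        IsFraming T.r T.Wq frob w F U ∧
        ∀ i, (pr.R₀ (frob i)).trace = w i * (1 + ((T.Wq i : ℕ) : T.O)) := by
  obtain ⟨frob, tame, w, F, U, hpl, hF, -, hsign⟩ :=
    exists_framing T.res T.Wq_ne T.Wq_sMin pr.R₀ pr.residual_trace fun i τ hτ =>
      pr.sign _ (T.Wq i).2 (T.Wq_ne i) (T.Wq_bad i) _ (liesOver_primeLocalPlace _) τ hτ
  exact ⟨frob, tame, w, F, U, hpl, hF, hsign⟩

/-- the value of the killer element at the curve -/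
theorem CoreSupply.pt_killerElt [NeZero p] {T : TowerSetup W p} {pr : PointRep W p T.O T.r}
    {N0 e : ℕ} {avoid : Finset ℕ} {s bound n : ℕ}
    {L : LevelSupply W p T.ρbar T.r T.Wq N0 e avoid s bound n} {frob tame : Fin T.k → GQ}
    {w : Fin T.k → T.O} (C : CoreSupply L pr.toCorePoint frob tame w) (hΔ : W.Δ ≠ 0) {N : ℕ}
    {S : Finset ℕ} (hS : W.Δ.natAbs.primeFactors ∪ {p} ⊆ S)
    (P : MvPolynomial (TOR.SubPrime N p (fun l => l ∉ S)) ℤ) :
    C.core.pt (killerElt (fun σ => (C.core.cd.R₀ σ).trace) P) = ((valW W P : ℤ) : T.O) :=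
  killerElt_point hS hΔ C.core.pt.toRingHom _ (fun l hl hg hlp A hA τ hτ =>
    (C.pt_trace τ).trans (pr.frob l hl hlp hg A hA τ hτ).1) P

/-- a polynomial in good Hecke operators kills the level without diamonds -/
def KillsLevel [NeZero p] {O : Type} [CommRing O] [IsDomain O] [IsDiscreteValuationRing O]
    [IsAdicComplete (maximalIdeal O) O] [Finite (ResidueField O)] [CharZero O] {N : ℕ}
    {good : ℕ → Prop} (P : MvPolynomial (TOR.SubPrime N p good) ℤ) {M s : ℕ} [NeZero M]
    (D : TWData M p s) (sys : Sys M O) : Prop :=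
  ∀ (R : Type) [CommRing R] [Algebra O R] (φ : R →ₐ[O] Module.End O (D.Mod sys))
    (v : TOR.SubPrime N p good → R),
    (∀ x ∈ P.vars, ∃ h : ¬ (x.1.1 : ℕ) ∣ M, φ (v x) = D.tOp sys x.1.1.2 h) →
      ∀ y, D.toY sys (φ (MvPolynomial.aeval v P) y) = 0

/-- the killer acts on a linked module into the augmentation part -/
theorem CoreLink.killerElt_mem [NeZero p] {T : TowerSetup W p} {N0 e : ℕ} {avoid : Finset ℕ}
    {s bound n : ℕ} (L : LevelSupply W p T.ρbar T.r T.Wq N0 e avoid s bound n)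
    {frob tame : Fin T.k → GQ} {w : Fin T.k → T.O} {d : Fin (T.k + 1) → ℕ}
    {C : PatchCore p T.ρbar T.r (insert p (sMin W p)) T.Wq frob tame w s d n}
    {D : TWData L.M p s} {dX : ℕ} {X : DiaMod (O := T.O) C.f dX}
    (lk : CoreLink C D L.sys L.S X) (hΔ : W.Δ ≠ 0) {N : ℕ} {S : Finset ℕ}
    (hS : W.Δ.natAbs.primeFactors ∪ {p} ⊆ S)
    (P : MvPolynomial (TOR.SubPrime N p (fun l => l ∉ S)) ℤ) (hav : varPrimes P ⊆ avoid)
    (hkill : KillsLevel P D L.sys) (x : X.V) :
    X.act (killerElt (fun σ => (C.cd.R₀ σ).trace) P) x ∈ X.augPart := by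
  obtain ⟨v, hv, hvar⟩ := killerElt_level hS hΔ L P hav lk.L lk.π.toRingHom
    (fun σ => (C.cd.R₀ σ).trace) lk.trace
  have hv' : lk.π (killerElt (fun σ => (C.cd.R₀ σ).trace) P) = MvPolynomial.aeval v P := hv
  rw [lk.aug, lk.act, hv']
  exact hkill _ lk.L.φ v hvar _

/-- a polynomial vanishing at level `N` kills the levels `N` with auxiliary primes of a supply -/
theorem killsLevel_of_evalSub [NeZero p] {T : TowerSetup W p} {N0 e : ℕ} {avoid : Finset ℕ}
    {s bound n : ℕ} (L : LevelSupply W p T.ρbar T.r T.Wq N0 e avoid s bound n)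
    (D : TWData L.M p s) (hDQ : D.Q = L.base.Q) {N : ℕ} [NeZero N] (hN : D.N0 = N)
    (hΔ : W.Δ ≠ 0) {S : Finset ℕ} (hS : W.Δ.natAbs.primeFactors ∪ {p} ⊆ S)
    (P : MvPolynomial (TOR.SubPrime N p (fun l => l ∉ S)) ℤ) (hav : varPrimes P ⊆ avoid)
    (hP : TOR.evalSub (fun l => l ∉ S) N (dvd_mul_right N p) P = 0) :
    KillsLevel P D L.sys := by
  intro R _ _ φ v hv y
  obtain ⟨F₀, hF₀, hr⟩ := T.res.setting.level
  obtain ⟨σ₀, α, β, hαβ, hσ₀⟩ := T.res.exists_split
  have hQ : ∀ i, D.Q i = (L.Q i : ℕ) := fun i => by rw [hDQ, L.base_Q]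
  refine toY_killer D L.sys L.S T.pO L.elliptic L.sq L.pS L.MS L.S_iff L.l0_S T.r
    ⟨F₀, hF₀, fun σ hσ => congrArg Units.val (hr σ fun x => hσ x x.2)⟩ L.frobS σ₀ hαβ hσ₀
    (fun w hw => T.res.no_line hw) (fun i => ?_) (fun i => ?_) hN P hP (fun x hx hd => ?_) φ v
    (fun x hx hlM => ?_) y
  · rw [hQ, ← Nat.cast_one, ZMod.natCast_eq_natCast_iff]
    exact ((Nat.modEq_iff_dvd' (L.Q i).2.one_lt.le).2
      ((dvd_pow_self p n.succ_ne_zero).trans (L.Q_dvd i))).symm
  · rw [hQ]; exact L.Q_trace i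
  · obtain ⟨hg, hp⟩ := good_of_var hS hΔ x
    rcases L.prime_dvd _ x.1.1.2 hd with (h | h) | ⟨i, hi⟩
    · exact h hg
    · exact hp h
    · exact L.Q_avoid i (hav (Finset.mem_image.2 ⟨x, hx, hi.symm⟩))
  · obtain ⟨_, h⟩ := hv x hx
    exact h

/-- the levels of a chain from a condition at `p` on what acts and a killer of the conductor level -/
theorem exists_levelTowers_of_atp [NeZero p] (hΔ : W.Δ ≠ 0) (hW : W.IsSemistableModel)
    (hp : p = 3 ∨ p = 5) (hirr : W.ModRepIsIrreducible p) (T : TowerSetup W p)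
    (pr : PointRep W p T.O T.r)
    (he : chainLevel (minLevel W p) T.Wq T.k * 1 = W.conductorLevel)
    (hmod : W.IsResiduallyModularOfLevel p (minLevel W p)) (S : Finset ℕ)
    (hS : W.Δ.natAbs.primeFactors ∪ {p} ⊆ S)
    (P : MvPolynomial (TOR.SubPrime W.conductorLevel p (fun l => l ∉ S)) ℤ)
    (hP : TOR.evalSub (fun l => l ∉ S) W.conductorLevel (dvd_mul_right _ p) P = 0)
    (avoid : Finset ℕ)
    (hatp : ∀ (s bound n : ℕ)
      (L : LevelSupply W p T.ρbar T.r T.Wq (minLevel W p) 1 (varPrimes P ∪ avoid) s bound n)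
      (frob tame : Fin T.k → GQ) (w : Fin T.k → T.O)
      (C : CoreSupply L pr.toCorePoint frob tame w),
        C.core.AtP C.core.effIdeal (fun _ _ _ ρ' => ρ'.IsFlatAt p) ∨
          C.core.AtP C.core.effIdeal (fun _ _ _ ρ' => ρ'.IsStrictOrdinaryAt p)) :
    ∃ (O : Type) (_ : CommRing O) (_ : IsDomain O) (_ : IsDiscreteValuationRing O)
      (_ : IsAdicComplete (maximalIdeal O) O) (_ : Finite (ResidueField O)) (_ : CharZero O)
      (k g : ℕ) (F : Fin k → FPlace O) (d : Fin (k + 1) → ℕ),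
      (∀ j, 0 < d j) ∧
        ∀ n, ∃ n', n ≤ n' ∧ Nonempty (LevelTower F g d ((valW W P : ℤ) : O) n') := by
  classical
  obtain ⟨frob, tame, w, F, U, hpl, hF, hsign⟩ := T.exists_frames pr
  obtain ⟨s, hs, bound, hsupply⟩ := T.exists_supply (varPrimes P ∪ avoid) hΔ hW hp hirr he hmod
  obtain ⟨d, hd, hlev⟩ := exists_levelTowers T.res.setting (Finset.mem_insert_self _ _) T.smin_iff
    T.Wq_notMem hpl hF (s := s) (bound := bound) (v := ((valW W P : ℤ) : T.O)) fun n => by
    obtain ⟨L⟩ := hsupply n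
    obtain ⟨C⟩ := exists_coreSupply hΔ hirr T.res hs T.root T.Wq_ne T.Wq_notMem hpl TowerSetup.prime_minLevel
      (fun l hl h => absurd (Nat.dvd_one.1 h) hl.ne_one) T.cover L pr.toCorePoint hsign
    have hlast : (L.level (Fin.last T.k)).N0 = W.conductorLevel := by
      show chainLevel (minLevel W p) T.Wq T.k = _
      rw [← he, mul_one]
    exact ⟨fun j => (L.level j).rkY L.sys, fun j => L.rank j,
      ⟨{ core := C.core
         atp := hatp s bound n L frob tame w C
         κ := killerElt (fun σ => (C.core.cd.R₀ σ).trace) P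
         pt_κ := C.pt_killerElt hΔ hS P
         κ_top := (C.link (Fin.last T.k)).killerElt_mem L hΔ hS P Finset.subset_union_left
           (killsLevel_of_evalSub L (L.level (Fin.last T.k)) rfl hlast hΔ hS P Finset.subset_union_left hP) }⟩⟩
  exact ⟨T.O, inferInstance, inferInstance, inferInstance, inferInstance, inferInstance,
    inferInstance, T.k, s + (T.k - 1), F, d, hd, hlev⟩

end FLTAgent.MLT

end
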