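import Fermat.Agent.MLT.TowersSetup
import Fermat.Agent.MLT.Killers
import Fermat.Agent.MLT.Mk.Core

/-!
Area MLT, parcel TOWERS: the element of the joint lift attached to a polynomial in good Hecke
operators: its value at the curve, and its action on a level through the Hecke operators.
-/

set_option autoImplicit false
set_option linter.style.haveILetI false
set_option linter.unusedSectionVars false

noncomputable section

open IsLocalRing Matrix FLTAgent.LL FLTAgent.PT FLTAgent.PT.TW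

namespace FLTAgent.MLT

variable {W : WeierstrassCurve ℤ} {p : ℕ} [Fact p.Prime] [NeZero p] {O : Type} [CommRing O]
  [IsDomain O] [IsDiscreteValuationRing O] [IsAdicComplete (maximalIdeal O) O]
  [Finite (ResidueField O)] [CharZero O] [Algebra (ZMod p) (ResidueField O)]
  {N : ℕ} {good : ℕ → Prop}

/-- the value of a polynomial at traces of Frobenius -/
def killerElt {R : Type} [CommRing R] (tr : GQ → R)
    (P : MvPolynomial (TOR.SubPrime N p good) ℤ) : R :=
  MvPolynomial.aeval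
    (fun x : TOR.SubPrime N p good => tr (Alg.exists_place_frobenius x.1.1 x.1.1.2).choose_spec.choose) P

theorem frob_spec (x : TOR.SubPrime N p good) :
    (Alg.exists_place_frobenius x.1.1 x.1.1.2).choose.LiesOverPrime x.1.1 ∧
      (Alg.exists_place_frobenius x.1.1 x.1.1.2).choose.IsFrobeniusAt
        (Alg.exists_place_frobenius x.1.1 x.1.1.2).choose_spec.choose x.1.1 :=
  (Alg.exists_place_frobenius x.1.1 x.1.1.2).choose_spec.choose_spec

/-- homomorphisms agreeing at the variables agree on the polynomial -/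
theorem map_killerElt {R R' : Type} [CommRing R] [CommRing R'] (f : R →+* R') (tr : GQ → R)
    (v : TOR.SubPrime N p good → R') (P : MvPolynomial (TOR.SubPrime N p good) ℤ)
    (h : ∀ x ∈ P.vars, ∀ (A : ValuationSubring (AlgebraicClosure ℚ)) (τ : GQ),
      A.LiesOverPrime x.1.1 → A.IsFrobeniusAt τ x.1.1 → f (tr τ) = v x) :
    f (killerElt tr P) = MvPolynomial.aeval v P := by
  refine MvPolynomial.hom_congr_vars (f₁ := f.comp (MvPolynomial.aeval fun x : TOR.SubPrime N p good =>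
      tr (Alg.exists_place_frobenius x.1.1 x.1.1.2).choose_spec.choose).toRingHom)
    (f₂ := (MvPolynomial.aeval v).toRingHom) (RingHom.ext_int _ _) (fun x hx _ => ?_) rfl
  obtain ⟨hA, hτ⟩ := frob_spec x
  simpa using h x hx _ _ hA hτ

/-- the variables lie over good primes of the curve -/
theorem good_of_var {S : Finset ℕ} (hS : W.Δ.natAbs.primeFactors ∪ {p} ⊆ S) (hΔ : W.Δ ≠ 0)
    (x : TOR.SubPrime N p (fun l => l ∉ S)) : W.IsGoodPrimeFor x.1.1 ∧ (x.1.1 : ℕ) ≠ p := by
  refine ⟨fun h => x.2 (hS (Finset.mem_union_left _ ?_)), fun h =>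
    x.2 (hS (Finset.mem_union_right _ (Finset.mem_singleton.2 h)))⟩
  exact Nat.mem_primeFactors.2 ⟨x.1.1.2, Int.natCast_dvd.1 h, Int.natAbs_ne_zero.2 hΔ⟩

/-- the value at the curve -/
theorem killerElt_point {S : Finset ℕ} (hS : W.Δ.natAbs.primeFactors ∪ {p} ⊆ S) (hΔ : W.Δ ≠ 0)
    {R : Type} [CommRing R] (f : R →+* O) (tr : GQ → R)
    (hfrob : ∀ l : ℕ, l.Prime → W.IsGoodPrimeFor l → l ≠ p →
      ∀ A : ValuationSubring (AlgebraicClosure ℚ), A.LiesOverPrime l → ∀ τ : GQ,
        A.IsFrobeniusAt τ l → f (tr τ) = (W.apOfModel l : O))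
    (P : MvPolynomial (TOR.SubPrime N p (fun l => l ∉ S)) ℤ) :
    f (killerElt tr P) = ((valW W P : ℤ) : O) := by
  rw [map_killerElt f tr (fun x => (W.apOfModel x.1.1 : O)) P fun x _ A τ hA hτ =>
    hfrob _ x.1.1.2 (good_of_var hS hΔ x).1 (good_of_var hS hΔ x).2 A hA τ hτ]
  have e : (Int.castRingHom O).comp (MvPolynomial.aeval fun x : TOR.SubPrime N p (fun l => l ∉ S) =>
      W.apOfModel (x.1.1 : ℕ)).toRingHom =
      (MvPolynomial.aeval fun x : TOR.SubPrime N p (fun l => l ∉ S) =>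
        (W.apOfModel x.1.1 : O)).toRingHom :=
    MvPolynomial.ringHom_ext' (RingHom.ext_int _ _) (fun x => by simp)
  exact (RingHom.congr_fun e P).symm

/-- on a level the variables act through the Hecke operators -/
theorem killerElt_level {S : Finset ℕ} (hS : W.Δ.natAbs.primeFactors ∪ {p} ⊆ S) (hΔ : W.Δ ≠ 0)
    {ρbar : ResidualGaloisRep (ResidueField O)} {r : GQ →* GL (Fin 2) (ResidueField O)} {k : ℕ}
    {Wq : Fin k → Nat.Primes} {N0 e : ℕ} {avoid : Finset ℕ} {s bound n : ℕ}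
    (L : LevelSupply W p ρbar r Wq N0 e avoid s bound n)
    (P : MvPolynomial (TOR.SubPrime N p (fun l => l ∉ S)) ℤ) (hav : varPrimes P ⊆ avoid)
    {Dl : TWData L.M p s} (V : WorldRep Dl L.sys L.S r) {R : Type} [CommRing R] (f : R →+* V.T)
    (tr : GQ → R) (htr : ∀ σ, f (tr σ) = (V.R₀ σ).trace) :
    ∃ v : TOR.SubPrime N p (fun l => l ∉ S) → V.T,
      f (killerElt tr P) = MvPolynomial.aeval v P ∧
      ∀ x ∈ P.vars, ∃ h : ¬ (x.1.1 : ℕ) ∣ L.M, V.φ (v x) = Dl.tOp L.sys x.1.1.2 h := by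
  have key : ∀ x ∈ P.vars, (x.1.1 : ℕ) ∉ L.S := fun x hx => by
    obtain ⟨hg, hp⟩ := good_of_var hS hΔ x
    refine (L.S_iff _ x.1.1.2).2 ⟨fun hd => ?_, fun hb => hb.elim (fun h => h hg) hp⟩
    rcases L.prime_dvd _ x.1.1.2 hd with (h | h) | ⟨i, hi⟩
    · exact h hg
    · exact hp h
    · exact L.Q_avoid i (hav (Finset.mem_image.2 ⟨x, hx, hi.symm⟩))
  refine ⟨fun x => f (tr (Alg.exists_place_frobenius x.1.1 x.1.1.2).choose_spec.choose),
    MvPolynomial.hom_congr_vars (f₁ := f.comp (MvPolynomial.aeval _).toRingHom)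
      (f₂ := (MvPolynomial.aeval _).toRingHom) (RingHom.ext_int _ _) (fun x _ _ => by simp) rfl,
    fun x hx => ?_⟩
  obtain ⟨hA, hτ⟩ := frob_spec x
  obtain ⟨a, ⟨h, ha⟩, hc⟩ := V.frob _ x.1.1.2 (key x hx) _ hA _ hτ
  refine ⟨h, ?_⟩
  obtain ⟨b, hb⟩ := V.rep
  beta_reduce
  rw [htr, trace_of_charpoly (d := ((x.1.1 : ℕ) : V.T)) (a := a)
    (by rw [← hb, LinearMap.charpoly_toMatrix, hc])]
  exact ha

end FLTAgent.MLT

end
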