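import Fermat.Agent.MLT.Mk.Supply
import Fermat.Agent.MLT.Mk.Framing
import Fermat.Agent.LL.Coeff

/-!
Area MLT, parcel TOWERS: what the three worlds share.

`TowerSetup W p`: coefficients, the residual representation, the framed places `Wq` = all bad primes
of `W` other than `p` outside `sMin`. The chain of levels from `minLevel` ends at the conductor
level, up to the factor `p` in the world where `p` is bad and not très ramifié.
-/

set_option autoImplicit false
set_option linter.style.haveILetI false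
set_option linter.unusedSectionVars false

noncomputable section

open IsLocalRing Matrix WeierstrassCurve FLTAgent.LL FLTAgent.PT FLTAgent.PT.TW

namespace FLTAgent.MLT

/-- coefficients, residual representation and places -/
structure TowerSetup (W : WeierstrassCurve ℤ) (p : ℕ) [Fact p.Prime] : Type 1 where
  O : Type
  [instCommRing : CommRing O]
  [instIsDomain : IsDomain O]
  [instDVR : IsDiscreteValuationRing O]
  [instComplete : IsAdicComplete (maximalIdeal O) O]
  [instFinite : Finite (ResidueField O)]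
  [instCharZero : CharZero O]
  [instAlgebra : Algebra (ZMod p) (ResidueField O)]
  pO : (p : O) ∈ maximalIdeal O
  root : ∃ ζ : O, IsPrimitiveRoot ζ p
  ρbar : ResidualGaloisRep (ResidueField O)
  r : GQ →* GL (Fin 2) (ResidueField O)
  res : SemiResidual W p ρbar r
  k : ℕ
  Wq : Fin k → Nat.Primes
  Wq_inj : Function.Injective Wq
  Wq_iff : ∀ q : Nat.Primes, (∃ i, Wq i = q) ↔
    ((q : ℕ) : ℤ) ∣ W.Δ ∧ (q : ℕ) ∉ insert p (sMin W p)

attribute [instance] TowerSetup.instCommRing TowerSetup.instIsDomain TowerSetup.instDVR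
  TowerSetup.instComplete TowerSetup.instFinite TowerSetup.instCharZero TowerSetup.instAlgebra

/-- a semistable curve with irreducible torsion has a setup -/
theorem exists_towerSetup {W : WeierstrassCurve ℤ} (hΔ : W.Δ ≠ 0) (hW : W.IsSemistableModel)
    {p : ℕ} [Fact p.Prime] (hp35 : p = 3 ∨ p = 5) (hirr : W.ModRepIsIrreducible p) :
    Nonempty (TowerSetup W p) := by
  classical
  obtain ⟨O, _, _, _, _, _, _, hpO, hch, hroot, hquad⟩ := LL.exists_coefficients p 1
  rw [pow_one] at hroot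
  haveI := hch
  letI : Algebra (ZMod p) (ResidueField O) := ZMod.algebra _ p
  obtain ⟨ρbar, r, hres⟩ :=
    exists_semiResidual hΔ hW hp35 hirr (ResidueField O) (hquad inferInstance)
  set B : Finset ℕ := W.Δ.natAbs.primeFactors \ insert p (sMin W p)
  let e := B.equivFin
  have hpr : ∀ x : B, (x : ℕ).Prime := fun x =>
    Nat.prime_of_mem_primeFactors (Finset.mem_sdiff.1 x.2).1
  refine ⟨{ O := O, pO := hpO, root := hroot, ρbar := ρbar, r := r, res := hres, k := B.card
            Wq := fun i => ⟨e.symm i, hpr _⟩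
            Wq_inj := fun i j h => e.symm.injective (Subtype.ext (congrArg Subtype.val h :))
            Wq_iff := fun q => ?_ }⟩
  have hB : (q : ℕ) ∈ B ↔ ((q : ℕ) : ℤ) ∣ W.Δ ∧ (q : ℕ) ∉ insert p (sMin W p) := by
    rw [Finset.mem_sdiff, Nat.mem_primeFactors, Int.natCast_dvd]
    exact and_congr_left' ⟨fun h => h.2.1, fun h => ⟨q.2, h, Int.natAbs_ne_zero.2 hΔ⟩⟩
  rw [← hB]
  exact ⟨fun ⟨i, hi⟩ => hi ▸ (e.symm i).2, fun h => ⟨e ⟨q, h⟩, Subtype.ext (by simp)⟩⟩

namespace TowerSetup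

variable {W : WeierstrassCurve ℤ} {p : ℕ} [Fact p.Prime] (T : TowerSetup W p)

theorem Wq_notMem (i : Fin T.k) : (T.Wq i : ℕ) ∉ insert p (sMin W p) :=
  ((T.Wq_iff _).1 ⟨i, rfl⟩).2

theorem Wq_bad (i : Fin T.k) : ((T.Wq i : ℕ) : ℤ) ∣ W.Δ :=
  ((T.Wq_iff _).1 ⟨i, rfl⟩).1

theorem Wq_ne (i : Fin T.k) : (T.Wq i : ℕ) ≠ p := fun h =>
  T.Wq_notMem i (by rw [h]; exact Finset.mem_insert_self _ _)

theorem Wq_sMin (i : Fin T.k) : (T.Wq i : ℕ) ∉ sMin W p := fun h =>
  T.Wq_notMem i (Finset.mem_insert_of_mem h)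

/-- the minimal set is the residual ramification -/
theorem smin_iff (q : ℕ) (hq : q.Prime) (hqp : q ≠ p) :
    q ∈ insert p (sMin W p) ↔ ¬ T.ρbar.IsUnramifiedAt q :=
  T.res.ramified_iff q hq hqp

theorem p_mem_smin : p ∈ insert p (sMin W p) := Finset.mem_insert_self _ _

theorem prime_dvd_chain (hΔ : W.Δ ≠ 0) {q : ℕ} (hq : q.Prime) :
    q ∣ chainLevel (minLevel W p) T.Wq T.k ↔
      (q = p ∧ Tres W p) ∨ ((q : ℤ) ∣ W.Δ ∧ q ≠ p) := by
  classical
  rw [chainLevel_last, hq.dvd_mul, prime_dvd_minLevel (Fact.out : p.Prime) hq]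
  constructor
  · rintro ((h | h) | h)
    · exact Or.inl h
    · exact Or.inr ⟨((mem_sMin hΔ).1 h).2.1, ((mem_sMin hΔ).1 h).2.2.1⟩
    · obtain ⟨i, -, hi⟩ := hq.prime.exists_mem_finset_dvd h
      obtain rfl := (Nat.prime_dvd_prime_iff_eq hq (T.Wq i).2).1 hi
      exact Or.inr ⟨T.Wq_bad i, T.Wq_ne i⟩
  · rintro (h | ⟨hd, hne⟩)
    · exact Or.inl (Or.inl h)
    · by_cases hs : q ∈ sMin W p
      · exact Or.inl (Or.inr hs)
      · obtain ⟨i, hi⟩ := (T.Wq_iff ⟨q, hq⟩).2
          ⟨hd, by simp only [Finset.mem_insert, not_or]; exact ⟨hne, hs⟩⟩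
        exact Or.inr (dvd_trans (dvd_of_eq (by rw [hi])) (Finset.dvd_prod_of_mem _ (Finset.mem_univ i)))

theorem squarefree_chain : Squarefree (chainLevel (minLevel W p) T.Wq T.k) := by
  classical
  rw [chainLevel_last]
  refine Nat.squarefree_mul_iff.2 ⟨Nat.Coprime.prod_right fun i _ => ?_,
    squarefree_minLevel Fact.out, ?_⟩
  · refine ((T.Wq i).2.coprime_iff_not_dvd.2 fun h => ?_).symm
    rcases (prime_dvd_minLevel (Fact.out : p.Prime) (T.Wq i).2).1 h with ⟨h, -⟩ | h
    · exact T.Wq_ne i h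
    · exact T.Wq_sMin i h
  · exact Finset.squarefree_prod_of_pairwise_isCoprime
      (fun i _ j _ hij => Nat.coprime_iff_isRelPrime.1 ((Nat.coprime_primes (T.Wq i).2 (T.Wq j).2).2
        fun h => hij (T.Wq_inj (Subtype.ext h)))) (fun i _ => (T.Wq i).2.squarefree)

/-- good or très ramifié: the chain ends at the conductor level -/
theorem chain_eq_conductor (hΔ : W.Δ ≠ 0) (h : (p : ℤ) ∣ W.Δ → Tres W p) :
    chainLevel (minLevel W p) T.Wq T.k * 1 = W.conductorLevel := by
  rw [mul_one, ← Nat.prod_primeFactors_of_squarefree T.squarefree_chain,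
    ← Nat.prod_primeFactors_of_squarefree W.squarefree_conductorLevel]
  refine Finset.prod_congr ?_ fun _ _ => rfl
  ext q
  simp only [Nat.mem_primeFactors, T.squarefree_chain.ne_zero, W.conductorLevel_pos.ne', ne_eq,
    not_false_eq_true, and_true, and_congr_right_iff]
  intro hq
  rw [T.prime_dvd_chain hΔ hq, W.prime_dvd_conductorLevel_iff hΔ hq]
  refine ⟨?_, fun hd => (eq_or_ne q p).imp (fun e => ⟨e, h (e ▸ hd)⟩) fun e => ⟨hd, e⟩⟩
  rintro (⟨rfl, ht⟩ | ⟨hd, -⟩)
  · exact ht.1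
  · exact hd

/-- peu ramifié: the chain times `p` is the conductor level -/
theorem chain_mul_eq_conductor (hΔ : W.Δ ≠ 0) (hbad : (p : ℤ) ∣ W.Δ) (ht : ¬ Tres W p) :
    chainLevel (minLevel W p) T.Wq T.k * p = W.conductorLevel := by
  have hp : p.Prime := Fact.out
  have hsq : Squarefree (chainLevel (minLevel W p) T.Wq T.k * p) := by
    refine Nat.squarefree_mul_iff.2 ⟨(hp.coprime_iff_not_dvd.2 fun h => ?_).symm,
      T.squarefree_chain, hp.squarefree⟩
    rcases (T.prime_dvd_chain hΔ hp).1 h with ⟨-, h⟩ | ⟨-, h⟩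
    · exact ht h
    · exact h rfl
  rw [← Nat.prod_primeFactors_of_squarefree hsq,
    ← Nat.prod_primeFactors_of_squarefree W.squarefree_conductorLevel]
  refine Finset.prod_congr ?_ fun _ _ => rfl
  ext q
  simp only [Nat.mem_primeFactors, hsq.ne_zero, W.conductorLevel_pos.ne', ne_eq,
    not_false_eq_true, and_true, and_congr_right_iff]
  intro hq
  rw [hq.dvd_mul, T.prime_dvd_chain hΔ hq, W.prime_dvd_conductorLevel_iff hΔ hq,
    Nat.prime_dvd_prime_iff_eq hq hp]
  refine ⟨?_, fun hd => (eq_or_ne q p).elim Or.inr fun e => Or.inl (Or.inr ⟨hd, e⟩)⟩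
  rintro ((⟨-, h⟩ | ⟨hd, -⟩) | rfl)
  · exact absurd h ht
  · exact hd
  · exact hbad

/-- every bad prime other than `p` is minimal or framed -/
theorem cover (l : ℕ) (hl : l.Prime) (hlp : l ≠ p) (hbad : ¬ W.IsGoodPrimeFor l) :
    l ∈ sMin W p ∨ ∃ i, (T.Wq i : ℕ) = l := by
  by_cases hs : l ∈ sMin W p
  · exact Or.inl hs
  · obtain ⟨i, hi⟩ := (T.Wq_iff ⟨l, hl⟩).2
      ⟨not_not.1 hbad, by simp only [Finset.mem_insert, not_or]; exact ⟨hlp, hs⟩⟩
    exact Or.inr ⟨i, congrArg Subtype.val hi⟩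

/-- the primes of the minimal level -/
theorem prime_minLevel (l : ℕ) (hl : l.Prime) (hd : l ∣ minLevel W p) :
    l ∈ insert p (sMin W p) := by
  rcases (prime_dvd_minLevel (Fact.out : p.Prime) hl).1 hd with ⟨rfl, -⟩ | h
  · exact Finset.mem_insert_self _ _
  · exact Finset.mem_insert_of_mem h

/-- outside the très ramifié world the chain avoids `p` -/
theorem p_not_dvd_chain (hΔ : W.Δ ≠ 0) (ht : ¬ Tres W p) (j : Fin (T.k + 1)) :
    ¬ p ∣ chainLevel (minLevel W p) T.Wq j := fun h => by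
  rcases (T.prime_dvd_chain hΔ Fact.out).1 (h.trans (chainLevel_dvd _ _ _)) with ⟨-, h⟩ | ⟨-, h⟩
  · exact ht h
  · exact h rfl

/-- the extra factor of the top level -/
theorem hyp_supply {e : ℕ} (he : chainLevel (minLevel W p) T.Wq T.k * e = W.conductorLevel)
    (hΔ : W.Δ ≠ 0) : Squarefree (chainLevel (minLevel W p) T.Wq T.k * e) ∧
      ∀ l : ℕ, l.Prime → l ∣ chainLevel (minLevel W p) T.Wq T.k * e →
        ¬ W.IsGoodPrimeFor l ∨ l = p := by
  rw [he]
  exact ⟨W.squarefree_conductorLevel, fun l hl hd =>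
    Or.inl fun h => h ((W.prime_dvd_conductorLevel_iff hΔ hl).1 hd)⟩

/-- every depth is supplied, the auxiliary primes avoiding a given set -/
theorem exists_supply (avoid : Finset ℕ) (hΔ : W.Δ ≠ 0) (hW : W.IsSemistableModel)
    (hp35 : p = 3 ∨ p = 5) (hirr : W.ModRepIsIrreducible p) {e : ℕ}
    (he : chainLevel (minLevel W p) T.Wq T.k * e = W.conductorLevel)
    (hmod : W.IsResiduallyModularOfLevel p (minLevel W p)) :
    ∃ s : ℕ, 0 < s ∧ ∃ bound : ℕ, ∀ n,
      Nonempty (LevelSupply W p T.ρbar T.r T.Wq (minLevel W p) e avoid s bound n) :=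
  exists_levelSupply avoid hΔ hW hp35 hirr T.pO T.res T.Wq_inj T.Wq_notMem
    (T.hyp_supply he hΔ).1 (T.hyp_supply he hΔ).2 hmod

end TowerSetup

/-- the primes of the variables of a polynomial in good Hecke operators -/
def varPrimes {N p : ℕ} {good : ℕ → Prop} (P : MvPolynomial (TOR.SubPrime N p good) ℤ) :
    Finset ℕ :=
  P.vars.image fun x => (x.1.1 : ℕ)

end FLTAgent.MLT

end
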